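import Fermat.Agent.S24.h54_Point
import Fermat.Agent.S24.h25_Mer
import Fermat.Agent.S16.h30_HeckeHom

/-!
# GAL, analytic layer: definitions (helper77)

* `gal_F K N`: the function field `F_K(N) = K(j(q^d) : d ∣ N) ⊆ K((q))` of the prelude.
* `gal_Phi ι N : F_K(N) →+* h25_Mer`: its realisation by meromorphic functions on `ℍ`
  (for `ι : K →+* ℂ`); `Γ₀(N)`-invariant.
* `gal_AutForm N χ U`: `U` is holomorphic on `ℍ`, `U (γ τ) = χ(γ) U(τ)` for `γ ∈ Γ₀(N)`, and `U`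
  has at most exponential growth at every cusp.
* `gal_PE N A`: the homomorphisms `Γ₀(N) → A` killing the parabolic and the finite order
  elements; `gal_chi n ψ`: the character `exp(2 π i ψ / n)` of `ψ : Γ₀(N) → ZMod n`.
-/

set_option autoImplicit false

open UpperHalfPlane ModularCurve CongruenceSubgroup
open scoped MatrixGroups Manifold

namespace Fermat.Agent.GAL

open Fermat.Agent.S24 Fermat.Agent.S16

section field

/-- The function field `F_K(N) = K(j(q^d) : d ∣ N) ⊆ K((q))`. -/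
abbrev gal_F (K : Type*) [Field K] [Algebra ℚ K] (N : ℕ) : Type _ :=
  ↥(laurentBaseChange K (modularFunctionFieldFull N))

end field

section ev

variable {K : Type*} [Field K] [Algebra ℚ K] (ι : K →+* ℂ) (N : ℕ)

/-- The evaluation of `A_N = K[j(q^d) : d ∣ N]` by holomorphic functions on `ℍ`. -/
noncomputable def gal_evHol : h78_AN K N →+* h25_Hol :=
  (h54_ev ι N).codRestrict h25_Hol (fun a => h54_ev_mdiff ι N a)

theorem gal_evHol_coe (a : h78_AN K N) : ((gal_evHol ι N a : h25_Hol) : ℍ → ℂ) = h54_ev ι N a :=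
  rfl

theorem gal_evHol_injective : Function.Injective (gal_evHol ι N) := by
  intro a b h
  exact h54_ev_injective ι N (congrArg Subtype.val h)

theorem gal_evHol_smul {γ : SL(2, ℤ)} (hγ : γ ∈ Gamma0 N) (a : h78_AN K N) :
    γ • gal_evHol ι N a = gal_evHol ι N a := by
  apply Subtype.ext
  funext τ
  rw [h25_smul_Hol_apply, gal_evHol_coe]
  exact h54_ev_invariant ι N γ⁻¹ (inv_mem hγ) a τ

/-- The analytic realisation `Φ : F_K(N) →+* Mer(ℍ)`. -/
noncomputable def gal_Phi : gal_F K N →+* h25_Mer :=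
  h25_lift (gal_evHol ι N) (gal_evHol_injective ι N)

theorem gal_Phi_algebraMap (a : h78_AN K N) :
    gal_Phi ι N (algebraMap (h78_AN K N) (gal_F K N) a) =
      algebraMap h25_Hol h25_Mer (gal_evHol ι N a) :=
  h25_lift_algebraMap _ _ a

theorem gal_Phi_injective : Function.Injective (gal_Phi ι N) :=
  (gal_Phi ι N).injective

/-- `Φ(F_K(N))` consists of `Γ₀(N)`-invariant functions. -/
theorem gal_Phi_smul {γ : SL(2, ℤ)} (hγ : γ ∈ Gamma0 N) (x : gal_F K N) :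
    γ • gal_Phi ι N x = gal_Phi ι N x :=
  h25_lift_invariant _ _ (fun a => gal_evHol_smul ι N hγ a) x

end ev

section autform

/-- `U` is a holomorphic automorphic function of weight `0` on `Γ₀(N)` with multiplier `χ` and at
most exponential growth at every cusp. -/
structure gal_AutForm (N : ℕ) (χ : ↥(Gamma0 N) →* ℂˣ) (U : ℍ → ℂ) : Prop where
  mdiff : MDiff U
  mult : ∀ (γ : ↥(Gamma0 N)) (τ : ℍ), U ((γ : SL(2, ℤ)) • τ) = (χ γ : ℂ) * U τ
  growth : ∀ g : SL(2, ℤ), ∃ (m : ℕ) (C : ℝ), ∀ τ : ℍ, 1 ≤ τ.im →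
    ‖U (g • τ)‖ ≤ C * Real.exp (2 * Real.pi * m * τ.im)

/-- All `SL₂(ℤ)`-conjugates of `f` have `q_N`-expansions (Laurent series in `q^{1/N}`). -/
def gal_QExpAll (N : ℕ) (f : ℍ → ℂ) : Prop :=
  ∀ g : SL(2, ℤ), ∃ c : LaurentSeries ℂ, h77_IsQExp (N : ℝ) c (fun τ => f (g • τ))

end autform

section pe

variable (N : ℕ)

/-- The homomorphisms `Γ₀(N) → A` that kill the parabolic elements (`trace² = 4`, this includes
`± 1`) and the elements of finite order (the elliptic elements). -/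
def gal_PE (A : Type*) [AddCommGroup A] : AddSubgroup (Additive ↥(Gamma0 N) →+ A) where
  carrier := {ψ | ModularCurve.Period.IsParabolicHom (Gamma0 N) ψ ∧
    ∀ γ : ↥(Gamma0 N), IsOfFinOrder γ → ψ (Additive.ofMul γ) = 0}
  add_mem' := by
    rintro ψ ψ' ⟨h1, h2⟩ ⟨h1', h2'⟩
    refine ⟨fun γ hγ => ?_, fun γ hγ => ?_⟩
    · rw [AddMonoidHom.add_apply, h1 γ hγ, h1' γ hγ, add_zero]
    · rw [AddMonoidHom.add_apply, h2 γ hγ, h2' γ hγ, add_zero]
  zero_mem' := ⟨fun _ _ => rfl, fun _ _ => rfl⟩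
  neg_mem' := by
    rintro ψ ⟨h1, h2⟩
    refine ⟨fun γ hγ => ?_, fun γ hγ => ?_⟩
    · rw [AddMonoidHom.neg_apply, h1 γ hγ, neg_zero]
    · rw [AddMonoidHom.neg_apply, h2 γ hγ, neg_zero]

variable {N}

theorem gal_mem_PE {A : Type*} [AddCommGroup A] {ψ : Additive ↥(Gamma0 N) →+ A} :
    ψ ∈ gal_PE N A ↔ ModularCurve.Period.IsParabolicHom (Gamma0 N) ψ ∧
      ∀ γ : ↥(Gamma0 N), IsOfFinOrder γ → ψ (Additive.ofMul γ) = 0 :=
  Iff.rfl

/-- The character `γ ↦ exp(2 π i ψ(γ) / n)` of `Γ₀(N)` attached to `ψ : Γ₀(N) → ZMod n`. -/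
noncomputable def gal_chi (n : ℕ) [NeZero n] (ψ : Additive ↥(Gamma0 N) →+ ZMod n) :
    ↥(Gamma0 N) →* ℂˣ where
  toFun γ := (AddChar.val_isUnit (ZMod.stdAddChar (N := n)) (ψ (Additive.ofMul γ))).unit
  map_one' := by
    apply Units.ext
    simp
  map_mul' γ δ := by
    apply Units.ext
    simp [AddChar.map_add_eq_mul]

theorem gal_chi_apply (n : ℕ) [NeZero n] (ψ : Additive ↥(Gamma0 N) →+ ZMod n) (γ : ↥(Gamma0 N)) :
    (gal_chi n ψ γ : ℂ) = ZMod.stdAddChar (ψ (Additive.ofMul γ)) := rfl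

theorem gal_chi_add (n : ℕ) [NeZero n] (ψ ψ' : Additive ↥(Gamma0 N) →+ ZMod n) :
    gal_chi n (ψ + ψ') = gal_chi n ψ * gal_chi n ψ' := by
  ext γ
  simp [gal_chi_apply, AddChar.map_add_eq_mul]

theorem gal_chi_zero (n : ℕ) [NeZero n] : gal_chi n (0 : Additive ↥(Gamma0 N) →+ ZMod n) = 1 := by
  ext γ
  simp [gal_chi_apply]

theorem gal_chi_pow (n : ℕ) [NeZero n] (ψ : Additive ↥(Gamma0 N) →+ ZMod n) (γ : ↥(Gamma0 N)) :
    gal_chi n ψ γ ^ n = 1 := by
  apply Units.ext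
  rw [Units.val_pow_eq_pow_val, gal_chi_apply, ← AddChar.map_nsmul_eq_pow]
  simp

theorem gal_chi_norm (n : ℕ) [NeZero n] (ψ : Additive ↥(Gamma0 N) →+ ZMod n) (γ : ↥(Gamma0 N)) :
    ‖(gal_chi n ψ γ : ℂ)‖ = 1 := by
  have h := gal_chi_pow n ψ γ
  have h1 : (gal_chi n ψ γ : ℂ) ^ n = 1 := by
    rw [← Units.val_pow_eq_pow_val, h, Units.val_one]
  exact Complex.norm_eq_one_of_pow_eq_one h1 (NeZero.ne n)

theorem gal_chi_eq_one_iff (n : ℕ) [NeZero n] (ψ : Additive ↥(Gamma0 N) →+ ZMod n) :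
    gal_chi n ψ = 1 ↔ ψ = 0 := by
  constructor
  · intro h
    refine AddMonoidHom.ext fun γ => ?_
    have h1 : (gal_chi n ψ (Additive.toMul γ) : ℂ) = 1 := by rw [h]; rfl
    rw [gal_chi_apply] at h1
    have h2 : ZMod.stdAddChar (ψ γ) = ZMod.stdAddChar (0 : ZMod n) := by
      rw [AddChar.map_zero_eq_one]; exact h1
    exact ZMod.injective_stdAddChar h2
  · rintro rfl
    exact gal_chi_zero n

theorem gal_chi_of_trace {n : ℕ} [NeZero n] {ψ : Additive ↥(Gamma0 N) →+ ZMod n}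
    (hψ : ψ ∈ gal_PE N (ZMod n)) (γ : ↥(Gamma0 N))
    (h : ((γ : SL(2, ℤ)) : Matrix (Fin 2) (Fin 2) ℤ).trace ^ 2 = 4) : gal_chi n ψ γ = 1 := by
  apply Units.ext
  rw [gal_chi_apply, hψ.1 γ h]
  simp

theorem gal_chi_of_finOrder {n : ℕ} [NeZero n] {ψ : Additive ↥(Gamma0 N) →+ ZMod n}
    (hψ : ψ ∈ gal_PE N (ZMod n)) (γ : ↥(Gamma0 N)) (h : IsOfFinOrder γ) : gal_chi n ψ γ = 1 := by
  apply Units.ext
  rw [gal_chi_apply, hψ.2 γ h]
  simp

end pe

end Fermat.Agent.GAL
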