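import Mathlib
import Fermat.Agent.GAL.h77_AnDefs
import Fermat.Agent.S24.h14_ProdInv
import Fermat.Agent.S24.h54_Point

/-!
# GAL, analytic layer, row AN-HOLALG (helper69)

* `gal_sum_inv_fun` (INV-SUM): the trace over `SL₂(ℤ)/Γ₀(N)` of a `Γ₀(N)`-invariant function all
  of whose conjugates have `q_N`-expansions is a polynomial in `j`.
* `gal_holalg`: a holomorphic `Γ₀(N)`-invariant function all of whose conjugates have
  `q_N`-expansions lies in the image of the function field `F_ℂ(N)`.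

The proof of the second statement is the classical one: with `t = j(Nτ)` and `d` the index, the
power sums `∑ t_x^m` and the mixed sums `∑ f_x t_x^m` over the conjugates are polynomials in `j`
(INV-SUM); Cramer's rule for the normal equations of the Vandermonde system then writes
`D(j) f = ∑_{i<d} A_i(j) t^i` with `D(j) = disc ≠ 0`.
-/

set_option autoImplicit false

open UpperHalfPlane ModularCurve CongruenceSubgroup AlgebraicCurve ModularForm EisensteinSeries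
open scoped MatrixGroups Manifold

namespace Fermat.Agent.GAL

open Fermat.Agent.S24 Fermat.Agent.S16
open scoped Matrix

/-! ## INV-SUM -/

/-- Finite sums of `q_h`-expansions. -/
theorem h69_isQExp_sum {ι' : Type*} (s : Finset ι') {h : ℝ} {c : ι' → LaurentSeries ℂ}
    {g : ι' → ℍ → ℂ} (hc : ∀ i ∈ s, h77_IsQExp h (c i) (g i)) :
    h77_IsQExp h (∑ i ∈ s, c i) (fun τ => ∑ i ∈ s, g i τ) := by
  classical
  induction s using Finset.induction_on with
  | empty =>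
    simp only [Finset.sum_empty]
    exact h77_isQExp_zero h
  | insert i s hi ih =>
    have h1 := hc i (Finset.mem_insert_self i s)
    have h2 := ih fun j hj => hc j (Finset.mem_insert_of_mem hj)
    have := h1.add h2
    rw [Finset.sum_insert hi]
    refine this.congr fun τ => ?_
    rw [Finset.sum_insert hi]

/-- The sum of the conjugates of a `Γ₀(N)`-invariant function is `SL₂(ℤ)`-invariant. -/
theorem h69_conjSum_smul {N : ℕ} [Fintype (SL(2, ℤ) ⧸ Gamma0 N)] {φ : ℍ → ℂ}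
    (hφ : ∀ γ ∈ Gamma0 N, ∀ τ : ℍ, φ (γ • τ) = φ τ) (γ : SL(2, ℤ)) (τ : ℍ) :
    ∑ x : SL(2, ℤ) ⧸ Gamma0 N, φ ((Quotient.out x)⁻¹ • (γ • τ))
      = ∑ x : SL(2, ℤ) ⧸ Gamma0 N, φ ((Quotient.out x)⁻¹ • τ) := by
  have key : ∀ x : SL(2, ℤ) ⧸ Gamma0 N,
      φ ((Quotient.out x)⁻¹ • (γ • τ)) = φ ((Quotient.out (γ⁻¹ • x))⁻¹ • τ) := by
    intro x
    have e1 : (Quotient.out x)⁻¹ • (γ • τ) = (γ⁻¹ * Quotient.out x)⁻¹ • τ := by
      rw [← mul_smul]
      congr 1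
      group
    have e2 : ((γ⁻¹ * Quotient.out x : SL(2, ℤ)) : SL(2, ℤ) ⧸ Gamma0 N) = γ⁻¹ • x := by
      conv_rhs => rw [← QuotientGroup.out_eq' x]
      rfl
    rw [e1, ← h14_conj_out hφ (γ⁻¹ * Quotient.out x) τ, e2]
  rw [Finset.sum_congr rfl fun x _ => key x]
  exact Fintype.sum_equiv (MulAction.toPerm γ⁻¹) _ _ fun x => rfl

/-- (INV-SUM) the trace over `SL₂(ℤ)/Γ₀(N)` of a `Γ₀(N)`-invariant function with expansions is a
polynomial in `j`. -/
theorem gal_sum_inv_fun (N : ℕ) [NeZero N] [Fintype (SL(2, ℤ) ⧸ Gamma0 N)] (φ : ℍ → ℂ)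
    (hφ : ∀ γ ∈ Gamma0 N, ∀ τ : ℍ, φ (γ • τ) = φ τ) (hexp : gal_QExpAll N φ) :
    ∃ P : Polynomial ℂ, ∀ τ : ℍ,
      ∑ x : SL(2, ℤ) ⧸ Gamma0 N, φ ((Quotient.out x)⁻¹ • τ) = P.eval (h77_j τ) := by
  choose c hc using fun x : SL(2, ℤ) ⧸ Gamma0 N => hexp (Quotient.out x)⁻¹
  set G : ℍ → ℂ := fun τ => ∑ x : SL(2, ℤ) ⧸ Gamma0 N, φ ((Quotient.out x)⁻¹ • τ) with hG
  have hid : ∀ C : LaurentSeries ℂ, ModularCurve.coeffMap (RingHom.id ℂ) C = C := by
    intro C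
    ext k
    rw [ModularCurve.coeffMap_coeff]
    rfl
  have hC : h77_IsQExp (N : ℝ) (ModularCurve.coeffMap (RingHom.id ℂ) (∑ x, c x)) G := by
    rw [hid]
    exact h69_isQExp_sum Finset.univ fun x _ => hc x
  have hinv : ∀ (γ : SL(2, ℤ)) (τ : ℍ), G (γ • τ) = G τ := fun γ τ =>
    h69_conjSum_smul hφ γ τ
  have hper : ∀ τ : ℍ, G ((1 : ℝ) +ᵥ τ) = G τ := by
    intro τ
    rw [← UpperHalfPlane.modular_T_smul]
    exact hinv _ τ
  obtain ⟨c₁, -, hc₁⟩ := h14_exists_qExpand_of_periodic (RingHom.id ℂ) N _ G hC hper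
  obtain ⟨P, -, hPe⟩ := h59_isQExp_invariant_K (RingHom.id ℂ) c₁ G hc₁ hinv
  refine ⟨P, fun τ => ?_⟩
  have := hPe τ
  rw [Polynomial.map_id] at this
  exact this

/-! ## Linear algebra: the normal equations of a Vandermonde system -/

theorem h69_vander_gram {R : Type*} [CommRing R] {d : ℕ} (t : Fin d → R) :
    (Matrix.of fun i i' : Fin d => ∑ k, t k ^ ((i : ℕ) + (i' : ℕ)))
      = (Matrix.vandermonde t)ᵀ * Matrix.vandermonde t := by
  ext i i'
  simp [Matrix.mul_apply, Matrix.vandermonde_apply, pow_add]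

theorem h69_vander_det {R : Type*} [CommRing R] {d : ℕ} (t : Fin d → R) :
    (Matrix.of fun i i' : Fin d => ∑ k, t k ^ ((i : ℕ) + (i' : ℕ))).det
      = (Matrix.vandermonde t).det ^ 2 := by
  rw [h69_vander_gram, Matrix.det_mul, Matrix.det_transpose, sq]

/-- Cramer's rule for the normal equations of a Vandermonde system: with `p_m = ∑_k t_k^m` and
`r_i = ∑_k v_k t_k^i`, one has `det (p_{i+i'}) · v_{k₀} = ∑_i (adj (p_{i+i'}) r)_i t_{k₀}^i`. -/
theorem h69_vander_normal {R : Type*} [CommRing R] {d : ℕ} (t v : Fin d → R) (k₀ : Fin d) :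
    (Matrix.of fun i i' : Fin d => ∑ k, t k ^ ((i : ℕ) + (i' : ℕ))).det * v k₀
      = ∑ i : Fin d,
          (Matrix.adjugate (Matrix.of fun i i' : Fin d => ∑ k, t k ^ ((i : ℕ) + (i' : ℕ)))
            *ᵥ (fun i : Fin d => ∑ k, v k * t k ^ (i : ℕ))) i * t k₀ ^ (i : ℕ) := by
  have hr : (fun i : Fin d => ∑ k, v k * t k ^ (i : ℕ)) = (Matrix.vandermonde t)ᵀ *ᵥ v := by
    funext i
    simp [Matrix.mulVec, dotProduct, Matrix.vandermonde_apply, mul_comm]
  rw [h69_vander_gram, hr]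
  set B : Matrix (Fin d) (Fin d) R := Matrix.vandermonde t with hB
  have key : B * Matrix.adjugate (Bᵀ * B) * Bᵀ
      = (Bᵀ * B).det • (1 : Matrix (Fin d) (Fin d) R) := by
    rw [Matrix.adjugate_mul_distrib, Matrix.det_mul]
    calc B * (Matrix.adjugate B * Matrix.adjugate Bᵀ) * Bᵀ
        = (B * Matrix.adjugate B) * (Matrix.adjugate Bᵀ * Bᵀ) := by
          simp only [Matrix.mul_assoc]
      _ = (B.det • (1 : Matrix (Fin d) (Fin d) R)) * (Bᵀ.det • (1 : Matrix (Fin d) (Fin d) R)) := by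
          rw [Matrix.mul_adjugate, Matrix.adjugate_mul]
      _ = (Bᵀ.det * B.det) • (1 : Matrix (Fin d) (Fin d) R) := by
          rw [Matrix.smul_mul, Matrix.one_mul, smul_smul, mul_comm]
  have h2 := congrFun (congrArg (fun X : Matrix (Fin d) (Fin d) R => X *ᵥ v) key) k₀
  simp only [Matrix.smul_mulVec, Matrix.one_mulVec, Pi.smul_apply, smul_eq_mul] at h2
  rw [← h2, ← Matrix.mulVec_mulVec, ← Matrix.mulVec_mulVec]
  simp only [Matrix.mulVec, dotProduct]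
  refine Finset.sum_congr rfl fun i _ => ?_
  rw [hB, Matrix.vandermonde_apply, mul_comm]

/-! ## The conjugates of `j(Nτ)` are generically distinct -/

/-- There is a point of `ℍ` at which the conjugates of `j(Nτ)` take pairwise distinct values. -/
theorem h69_exists_sep (N : ℕ) [NeZero N] [Fintype (SL(2, ℤ) ⧸ Gamma0 N)] :
    ∃ τ : ℍ, Function.Injective fun x : SL(2, ℤ) ⧸ Gamma0 N =>
      h54_ev (RingHom.id ℂ) N ⟨coeffEmb ℂ (qExpand ℚ N jq),
        h78_gens_subset_AN ℂ N (h78_mem_gens ℂ dvd_rfl)⟩ ((Quotient.out x)⁻¹ • τ) := by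
  classical
  set aN : h78_AN ℂ N := ⟨coeffEmb ℂ (qExpand ℚ N jq),
    h78_gens_subset_AN ℂ N (h78_mem_gens ℂ dvd_rfl)⟩ with haN
  set U : SL(2, ℤ) ⧸ Gamma0 N → h25_Hol := fun x =>
    Quotient.out x • gal_evHol (RingHom.id ℂ) N aN with hU
  have hUapp : ∀ (x : SL(2, ℤ) ⧸ Gamma0 N) (τ : ℍ),
      ((U x : h25_Hol) : ℍ → ℂ) τ = h54_ev (RingHom.id ℂ) N aN ((Quotient.out x)⁻¹ • τ) :=
    fun x τ => rfl
  have hUinj : Function.Injective U := by
    intro x y hxy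
    have h4 : ∀ τ : ℍ, h54_ev (RingHom.id ℂ) N aN ((Quotient.out x)⁻¹ • τ)
        = h54_ev (RingHom.id ℂ) N aN ((Quotient.out y)⁻¹ • τ) := by
      intro τ
      rw [← hUapp, ← hUapp, hxy]
    rw [haN, h54_ev_gen] at h4
    have hN : 0 < N := Nat.pos_of_ne_zero (NeZero.ne N)
    have h5 := (h64_conj_eq_conj_iff_mem h54_j_smul h54_j_leadOne hN
      (Quotient.out x)⁻¹ (Quotient.out y)⁻¹).mp h4
    rw [inv_inv] at h5
    have h6 : ((Quotient.out x : SL(2, ℤ)) : SL(2, ℤ) ⧸ Gamma0 N) = (Quotient.out y : SL(2, ℤ)) :=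
      QuotientGroup.eq.mpr h5
    rwa [QuotientGroup.out_eq', QuotientGroup.out_eq'] at h6
  set Pr : h25_Hol := ∏ x : SL(2, ℤ) ⧸ Gamma0 N, ∏ y ∈ Finset.univ.erase x, (U x - U y) with hPr
  have hPr0 : Pr ≠ 0 := by
    refine Finset.prod_ne_zero_iff.mpr fun x _ => Finset.prod_ne_zero_iff.mpr fun y hy => ?_
    exact sub_ne_zero.mpr fun h => (Finset.ne_of_mem_erase hy) (hUinj h).symm
  have hex : ∃ τ : ℍ, ((Pr : h25_Hol) : ℍ → ℂ) τ ≠ 0 := by
    by_contra hcon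
    push Not at hcon
    exact hPr0 (Subtype.ext (funext hcon))
  obtain ⟨τ, hτ⟩ := hex
  refine ⟨τ, ?_⟩
  set evτ : h25_Hol →+* ℂ := (Pi.evalRingHom (fun _ : ℍ => ℂ) τ).comp h25_Hol.subtype with hevτ
  have hτ' : evτ Pr ≠ 0 := hτ
  rw [hPr, map_prod] at hτ'
  intro x y hxy
  by_contra hne
  have h1 := Finset.prod_ne_zero_iff.mp hτ' x (Finset.mem_univ x)
  rw [map_prod] at h1
  have h2 := Finset.prod_ne_zero_iff.mp h1 y
    (Finset.mem_erase.mpr ⟨fun h => hne h.symm, Finset.mem_univ y⟩)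
  apply h2
  rw [map_sub, sub_eq_zero]
  exact hxy

/-! ## Evaluation of polynomials in `j` -/

theorem h69_ev_aeval (N : ℕ) (P : Polynomial ℂ) (τ : ℍ) :
    h54_ev (RingHom.id ℂ) N
      (Polynomial.aeval (⟨coeffEmb ℂ jq, h78_jq_mem_AN ℂ N⟩ : h78_AN ℂ N) P) τ
      = P.eval (h77_j τ) := by
  induction P using Polynomial.induction_on' with
  | add p q hp hq =>
    rw [map_add, map_add, Pi.add_apply, hp, hq, Polynomial.eval_add]
  | monomial n a =>
    rw [Polynomial.aeval_monomial, map_mul, map_pow, h54_ev_const, h54_ev_j,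
      Polynomial.eval_monomial]
    rfl

/-! ## HOLALG -/

theorem gal_holalg (N : ℕ) [NeZero N] (f : ℍ → ℂ) (hf : MDiff f)
    (hinv : ∀ γ ∈ Gamma0 N, ∀ τ : ℍ, f (γ • τ) = f τ) (hexp : gal_QExpAll N f) :
    ∃ x : gal_F ℂ N, gal_Phi (RingHom.id ℂ) N x = algebraMap h25_Hol h25_Mer ⟨f, hf⟩ := by
  classical
  let _ : Fintype (SL(2, ℤ) ⧸ Gamma0 N) := Fintype.ofFinite _
  set d : ℕ := Fintype.card (SL(2, ℤ) ⧸ Gamma0 N) with hd
  let e : (SL(2, ℤ) ⧸ Gamma0 N) ≃ Fin d := Fintype.equivFin _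
  set aN : h78_AN ℂ N := ⟨coeffEmb ℂ (qExpand ℚ N jq),
    h78_gens_subset_AN ℂ N (h78_mem_gens ℂ dvd_rfl)⟩ with haN
  set aJ : h78_AN ℂ N := ⟨coeffEmb ℂ jq, h78_jq_mem_AN ℂ N⟩ with haJ
  set T : ℍ → ℂ := h54_ev (RingHom.id ℂ) N aN with hT
  have hTinv : ∀ γ ∈ Gamma0 N, ∀ τ : ℍ, T (γ • τ) = T τ := fun γ hγ τ =>
    h54_ev_invariant (RingHom.id ℂ) N γ hγ aN τ
  have hid : ∀ C : LaurentSeries ℂ, ModularCurve.coeffMap (RingHom.id ℂ) C = C := by
    intro C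
    ext k
    rw [ModularCurve.coeffMap_coeff]
    rfl
  have hTexp : ∀ g : SL(2, ℤ), ∃ c : LaurentSeries ℂ,
      h77_IsQExp (N : ℝ) c (fun τ => T (g • τ)) := by
    intro g
    obtain ⟨c, hc⟩ := h14_ev_conj_exp (RingHom.id ℂ) N aN g
    rw [hid] at hc
    exact ⟨c, hc⟩
  -- the power sums and the mixed sums are polynomials in `j`
  have hQ : ∀ m : ℕ, ∃ P : Polynomial ℂ, ∀ τ : ℍ,
      ∑ x : SL(2, ℤ) ⧸ Gamma0 N, T ((Quotient.out x)⁻¹ • τ) ^ m = P.eval (h77_j τ) := by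
    intro m
    refine gal_sum_inv_fun N (fun τ => T τ ^ m) (fun γ hγ τ => by rw [hTinv γ hγ τ]) ?_
    intro g
    obtain ⟨c, hc⟩ := hTexp g
    exact ⟨c ^ m, hc.pow m⟩
  have hR : ∀ m : ℕ, ∃ P : Polynomial ℂ, ∀ τ : ℍ,
      ∑ x : SL(2, ℤ) ⧸ Gamma0 N,
        f ((Quotient.out x)⁻¹ • τ) * T ((Quotient.out x)⁻¹ • τ) ^ m = P.eval (h77_j τ) := by
    intro m
    refine gal_sum_inv_fun N (fun τ => f τ * T τ ^ m)
      (fun γ hγ τ => by rw [hTinv γ hγ τ, hinv γ hγ τ]) ?_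
    intro g
    obtain ⟨c, hc⟩ := hTexp g
    obtain ⟨c', hc'⟩ := hexp g
    exact ⟨c' * c ^ m, hc'.mul (hc.pow m)⟩
  choose Q hQ using hQ
  choose R hR using hR
  set Pm : Matrix (Fin d) (Fin d) (Polynomial ℂ) :=
    Matrix.of fun i i' : Fin d => Q ((i : ℕ) + (i' : ℕ)) with hPm
  set Rv : Fin d → Polynomial ℂ := fun i => R (i : ℕ) with hRv
  set D : Polynomial ℂ := Pm.det with hD
  set Ac : Fin d → Polynomial ℂ := Matrix.adjugate Pm *ᵥ Rv with hAc
  -- the specialisation at a point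
  have hspecM : ∀ τ : ℍ,
      (Matrix.of fun i i' : Fin d =>
        ∑ k, (T ((Quotient.out (e.symm k))⁻¹ • τ)) ^ ((i : ℕ) + (i' : ℕ)))
        = (Polynomial.evalRingHom (h77_j τ)).mapMatrix Pm := by
    intro τ
    ext i i'
    rw [Matrix.of_apply, RingHom.mapMatrix_apply, Matrix.map_apply, hPm, Matrix.of_apply,
      Polynomial.coe_evalRingHom, ← hQ]
    exact Fintype.sum_equiv e.symm _ _ fun k => rfl
  have hspecR : ∀ τ : ℍ,
      (fun i : Fin d => ∑ k, f ((Quotient.out (e.symm k))⁻¹ • τ) *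
          (T ((Quotient.out (e.symm k))⁻¹ • τ)) ^ (i : ℕ))
        = fun i : Fin d => Polynomial.evalRingHom (h77_j τ) (Rv i) := by
    intro τ
    funext i
    rw [hRv, Polynomial.coe_evalRingHom, ← hR]
    exact Fintype.sum_equiv e.symm _ _ fun k => rfl
  have hk₀T : ∀ τ : ℍ, T ((Quotient.out (e.symm (e ((1 : SL(2, ℤ)) : SL(2, ℤ) ⧸ Gamma0 N))))⁻¹ • τ)
      = T τ := by
    intro τ
    rw [Equiv.symm_apply_apply, h14_conj_out hTinv 1 τ, inv_one, one_smul]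
  have hk₀f : ∀ τ : ℍ, f ((Quotient.out (e.symm (e ((1 : SL(2, ℤ)) : SL(2, ℤ) ⧸ Gamma0 N))))⁻¹ • τ)
      = f τ := by
    intro τ
    rw [Equiv.symm_apply_apply, h14_conj_out hinv 1 τ, inv_one, one_smul]
  have hmain : ∀ τ : ℍ, D.eval (h77_j τ) * f τ
      = ∑ i : Fin d, (Ac i).eval (h77_j τ) * T τ ^ (i : ℕ) := by
    intro τ
    have h := h69_vander_normal (fun k : Fin d => T ((Quotient.out (e.symm k))⁻¹ • τ))
      (fun k : Fin d => f ((Quotient.out (e.symm k))⁻¹ • τ))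
      (e ((1 : SL(2, ℤ)) : SL(2, ℤ) ⧸ Gamma0 N))
    rw [hspecM τ, hspecR τ, hk₀T τ, hk₀f τ, ← RingHom.map_det, ← RingHom.map_adjugate] at h
    rw [Polynomial.coe_evalRingHom] at h
    rw [h]
    refine Finset.sum_congr rfl fun i _ => ?_
    congr 1
    rw [RingHom.mapMatrix_apply]
    exact (RingHom.map_mulVec (Polynomial.evalRingHom (h77_j τ)) (Matrix.adjugate Pm) Rv i).symm
  -- the discriminant does not vanish identically
  obtain ⟨τ₀, hτ₀⟩ := h69_exists_sep N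
  have hD0 : D.eval (h77_j τ₀) ≠ 0 := by
    have h1 := h69_vander_det (fun k : Fin d => T ((Quotient.out (e.symm k))⁻¹ • τ₀))
    rw [hspecM τ₀, ← RingHom.map_det, Polynomial.coe_evalRingHom] at h1
    rw [hD, h1]
    refine pow_ne_zero 2 (Matrix.det_vandermonde_ne_zero_iff.mpr ?_)
    exact hτ₀.comp e.symm.injective
  -- the algebraic elements
  set DA : h78_AN ℂ N := Polynomial.aeval aJ D with hDA
  set num : h78_AN ℂ N := ∑ i : Fin d, Polynomial.aeval aJ (Ac i) * aN ^ (i : ℕ) with hnum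
  have hDA0 : DA ≠ 0 := by
    intro h0
    apply hD0
    rw [← h69_ev_aeval N D τ₀, ← haJ, ← hDA, h0, map_zero]
    rfl
  have hident : gal_evHol (RingHom.id ℂ) N DA * (⟨f, hf⟩ : h25_Hol)
      = gal_evHol (RingHom.id ℂ) N num := by
    apply Subtype.ext
    funext τ
    show (h54_ev (RingHom.id ℂ) N DA) τ * f τ = h54_ev (RingHom.id ℂ) N num τ
    rw [hDA, haJ, h69_ev_aeval N D τ, hmain τ, hnum, map_sum, Finset.sum_apply]
    refine Finset.sum_congr rfl fun i _ => ?_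
    rw [map_mul, map_pow, Pi.mul_apply, Pi.pow_apply, haJ, h69_ev_aeval N (Ac i) τ]
  have hne : algebraMap h25_Hol h25_Mer (gal_evHol (RingHom.id ℂ) N DA) ≠ 0 := by
    intro h0
    have h1 : gal_evHol (RingHom.id ℂ) N DA = 0 :=
      IsFractionRing.injective h25_Hol h25_Mer (h0.trans (map_zero _).symm)
    exact hDA0 (gal_evHol_injective _ _ (h1.trans (map_zero _).symm))
  refine ⟨algebraMap (h78_AN ℂ N) (gal_F ℂ N) num / algebraMap (h78_AN ℂ N) (gal_F ℂ N) DA, ?_⟩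
  rw [map_div₀, gal_Phi_algebraMap, gal_Phi_algebraMap, ← hident, map_mul, div_eq_iff hne,
    mul_comm]

end Fermat.Agent.GAL
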