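import Mathlib
import Fermat.Agent.S24.h77_QBridge

/-!
# GAL, analytic layer, row AN-QEXP: growth and `q`-expansions

For a holomorphic function `G` on the upper half plane with period `w`:

* `gal_qexp_of_growth` : if `‖G τ‖ ≤ C exp(2π m im τ)` for `im τ ≥ 1`, then `G` has a convergent
  Laurent expansion in `q_w = exp(2πiτ/w)`;
* `gal_growth_of_qexp` : conversely a function with a `q_w`-expansion has such a growth bound;
* `gal_qexp_dilate` : a `q_w`-expansion is a `q_{wm}`-expansion.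
-/

set_option autoImplicit false

open UpperHalfPlane ModularCurve Filter Topology
open scoped Manifold

namespace Fermat.Agent.GAL

open Fermat.Agent.S24

local notation "𝕢" => Function.Periodic.qParam

/-- Extension by zero of a function on the upper half plane. -/
noncomputable def h21_ext (G : ℍ → ℂ) (z : ℂ) : ℂ := if h : 0 < z.im then G ⟨z, h⟩ else 0

theorem h21_ext_coe (G : ℍ → ℂ) (τ : ℍ) : h21_ext G (τ : ℂ) = G τ := by
  rw [h21_ext, dif_pos τ.coe_im_pos]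

theorem h21_ext_periodic (w : ℕ) (G : ℍ → ℂ) (hper : ∀ τ : ℍ, G ((w : ℝ) +ᵥ τ) = G τ) :
    Function.Periodic (h21_ext G) ((w : ℝ) : ℂ) := by
  intro z
  by_cases hz : 0 < z.im
  · have hz' : 0 < (z + ((w : ℝ) : ℂ)).im := by simpa using hz
    rw [h21_ext, dif_pos hz', h21_ext, dif_pos hz, ← hper ⟨z, hz⟩]
    congr 1
    apply UpperHalfPlane.ext
    rw [UpperHalfPlane.coe_vadd]
    show z + ((w : ℝ) : ℂ) = ((w : ℝ) : ℂ) + z
    ring
  · have hz' : ¬ 0 < (z + ((w : ℝ) : ℂ)).im := by simpa using hz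
    rw [h21_ext, dif_neg hz', h21_ext, dif_neg hz]

theorem h21_ext_differentiableAt (G : ℍ → ℂ) (hG : MDiff G) {z : ℂ} (hz : 0 < z.im) :
    DifferentiableAt ℂ (h21_ext G) z := by
  have h1 : DifferentiableAt ℂ (G ∘ ofComplex) z :=
    (UpperHalfPlane.mdifferentiable_iff.mp hG z hz).differentiableAt
      (isOpen_upperHalfPlaneSet.mem_nhds hz)
  refine h1.congr_of_eventuallyEq ?_
  filter_upwards [isOpen_upperHalfPlaneSet.mem_nhds hz] with z' hz'
  have hz'' : 0 < z'.im := hz'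
  rw [h21_ext, dif_pos hz'', Function.comp_apply, UpperHalfPlane.ofComplex_apply_of_im_pos hz'']

theorem h21_exp_zpow (x : ℝ) (N : ℤ) : Real.exp x ^ N = Real.exp ((N : ℝ) * x) := by
  rw [← Real.rpow_intCast, ← Real.exp_mul, mul_comm]

/-- **Growth ⟹ expansion.** -/
theorem gal_qexp_of_growth (w : ℕ) (hw : 0 < w) (G : ℍ → ℂ) (hG : MDiff G)
    (hper : ∀ τ : ℍ, G ((w : ℝ) +ᵥ τ) = G τ) (m : ℕ) (C : ℝ)
    (hb : ∀ τ : ℍ, 1 ≤ τ.im → ‖G τ‖ ≤ C * Real.exp (2 * Real.pi * m * τ.im)) :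
    ∃ c : LaurentSeries ℂ, h77_IsQExp (w : ℝ) c G := by
  have hw' : (0 : ℝ) < w := by exact_mod_cast hw
  have hf := h21_ext_periodic w G hper
  set F : ℂ → ℂ := Function.Periodic.cuspFunction (w : ℝ) (h21_ext G) with hF
  have hFval : ∀ τ : ℍ, F (𝕢 (w : ℝ) τ) = G τ := by
    intro τ
    rw [hF, Function.Periodic.eq_cuspFunction hw'.ne' hf, h21_ext_coe]
  have hFdiff : ∀ q : ℂ, ‖q‖ < 1 → q ≠ 0 → DifferentiableAt ℂ F q := by
    intro q hq hq0
    obtain ⟨τ, rfl⟩ := h77_exists_qParam_eq hw' hq hq0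
    exact Function.Periodic.differentiableAt_cuspFunction hw'.ne' hf
      (h21_ext_differentiableAt G hG τ.im_pos)
  set H : ℂ → ℂ := fun q => q ^ (m * w) * F q with hH
  have hHdiff : ∀ q : ℂ, ‖q‖ < 1 → q ≠ 0 → DifferentiableAt ℂ H q := by
    intro q hq hq0
    exact (differentiableAt_pow _).mul (hFdiff q hq hq0)
  set r0 : ℝ := Real.exp (-2 * Real.pi / w) with hr0
  have hr0pos : 0 < r0 := Real.exp_pos _
  have hr01 : r0 < 1 := by
    rw [hr0, Real.exp_lt_one_iff]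
    have := Real.pi_pos
    exact div_neg_of_neg_of_pos (by linarith) hw'
  -- the bound near `0`
  have hbound : ∀ q : ℂ, ‖q‖ < r0 → q ≠ 0 → ‖H q‖ ≤ C := by
    intro q hq hq0
    obtain ⟨τ, rfl⟩ := h77_exists_qParam_eq hw' (lt_trans hq hr01) hq0
    have hnq : ‖𝕢 (w : ℝ) τ‖ = Real.exp (-2 * Real.pi * τ.im / w) :=
      Function.Periodic.norm_qParam _ _
    have him : 1 ≤ τ.im := by
      rw [hnq, hr0, Real.exp_lt_exp, div_lt_div_iff_of_pos_right hw'] at hq
      have := Real.pi_pos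
      nlinarith
    have h1 := hb τ him
    have h2 : ‖𝕢 (w : ℝ) τ‖ ^ (m * w) = Real.exp (-(2 * Real.pi * m * τ.im)) := by
      rw [hnq, ← Real.exp_nat_mul]
      congr 1
      push_cast
      field_simp
    rw [hH]
    simp only
    rw [norm_mul, norm_pow, h2, hFval]
    calc Real.exp (-(2 * Real.pi * m * τ.im)) * ‖G τ‖
        ≤ Real.exp (-(2 * Real.pi * m * τ.im)) * (C * Real.exp (2 * Real.pi * m * τ.im)) :=
          mul_le_mul_of_nonneg_left h1 (Real.exp_pos _).le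
      _ = C := by
          rw [mul_comm C, ← mul_assoc, ← Real.exp_add, neg_add_cancel, Real.exp_zero, one_mul]
  -- removable singularity
  set H' : ℂ → ℂ := Function.update H 0 (limUnder (𝓝[≠] (0 : ℂ)) H) with hH'
  have hH'ne : ∀ q : ℂ, q ≠ 0 → H' q = H q := fun q hq0 => Function.update_of_ne hq0 _ _
  have hsmall : DifferentiableOn ℂ H' (Metric.ball 0 r0) := by
    refine Complex.differentiableOn_update_limUnder_of_bddAbove (Metric.ball_mem_nhds 0 hr0pos)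
      ?_ ?_
    · rintro q ⟨hq, hq0⟩
      have hq' : ‖q‖ < r0 := by simpa using hq
      exact (hHdiff q (lt_trans hq' hr01) hq0).differentiableWithinAt
    · refine ⟨C, ?_⟩
      rintro _ ⟨q, ⟨hq, hq0⟩, rfl⟩
      have hq' : ‖q‖ < r0 := by simpa using hq
      exact hbound q hq' hq0
  have hbig : DifferentiableOn ℂ H' (Metric.ball 0 1) := by
    intro q hq
    have hq' : ‖q‖ < 1 := by simpa using hq
    by_cases hq0 : q = 0
    · subst hq0
      exact (hsmall.differentiableAt (Metric.ball_mem_nhds 0 hr0pos)).differentiableWithinAt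
    · refine ((hHdiff q hq' hq0).congr_of_eventuallyEq ?_).differentiableWithinAt
      filter_upwards [isOpen_ne.mem_nhds hq0] with q' hq'0
      exact hH'ne q' hq'0
  have hPS := h77_isPS_of_differentiableOn hbig
  refine ⟨HahnSeries.single (-((m * w : ℕ) : ℤ)) 1 * HahnSeries.ofPowerSeries ℤ ℂ
    (PowerSeries.mk fun k => ((k.factorial : ℕ) : ℂ)⁻¹ * iteratedDeriv k H' 0), ?_⟩
  rw [h77_isQExp_single_mul_iff]
  intro τ
  have hq0 : 𝕢 (w : ℝ) (τ : ℂ) ≠ 0 := Function.Periodic.qParam_ne_zero _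
  have h1 := hPS (𝕢 (w : ℝ) τ) (h77_norm_qParam_lt_one hw' τ)
  rw [hH'ne _ hq0] at h1
  convert h1 using 1
  rw [hH]
  simp only
  rw [hFval, neg_neg, zpow_natCast, mul_comm]

/-- **Expansion ⟹ growth.** -/
theorem gal_growth_of_qexp (w : ℕ) (hw : 0 < w) (c : LaurentSeries ℂ) (G : ℍ → ℂ)
    (h : h77_IsQExp (w : ℝ) c G) :
    ∃ (m : ℕ) (C : ℝ), ∀ τ : ℍ, 1 ≤ τ.im → ‖G τ‖ ≤ C * Real.exp (2 * Real.pi * m * τ.im) := by
  have hw' : (0 : ℝ) < w := by exact_mod_cast hw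
  have hw1 : (1 : ℝ) ≤ w := by exact_mod_cast hw
  obtain ⟨N, p, rfl⟩ := h77_exists_single_mul c
  rw [h77_isQExp_single_mul_iff] at h
  set Gp : ℂ → ℂ := fun q => ∑' n : ℕ, p.coeff n * q ^ n with hGp
  have hPS : h77_IsPS p Gp := h77_isPS_tsum_of_forall hw' h
  have hval : ∀ τ : ℍ, G τ = Gp (𝕢 (w : ℝ) τ) * 𝕢 (w : ℝ) τ ^ N := by
    intro τ
    have hq : 𝕢 (w : ℝ) (τ : ℂ) ≠ 0 := Function.Periodic.qParam_ne_zero _
    have h1 : Gp (𝕢 (w : ℝ) τ) = G τ * 𝕢 (w : ℝ) τ ^ (-N) := (h τ).tsum_eq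
    rw [h1, mul_assoc, ← zpow_add₀ hq, neg_add_cancel, zpow_zero, mul_one]
  set r0 : ℝ := Real.exp (-2 * Real.pi / w) with hr0
  have hr0pos : 0 < r0 := Real.exp_pos _
  have hr01 : r0 < 1 := by
    rw [hr0, Real.exp_lt_one_iff]
    have := Real.pi_pos
    exact div_neg_of_neg_of_pos (by linarith) hw'
  have hcont : ContinuousOn Gp (Metric.closedBall 0 r0) :=
    hPS.differentiableOn.continuousOn.mono (Metric.closedBall_subset_ball hr01)
  obtain ⟨B, hB⟩ := (isCompact_closedBall (0 : ℂ) r0).exists_bound_of_continuousOn hcont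
  have hB0 : 0 ≤ B := (norm_nonneg _).trans (hB 0 (Metric.mem_closedBall_self hr0pos.le))
  refine ⟨(-N).toNat, B, fun τ hτ => ?_⟩
  have hnq : ‖𝕢 (w : ℝ) τ‖ = Real.exp (-2 * Real.pi * τ.im / w) :=
    Function.Periodic.norm_qParam _ _
  have hqle : ‖𝕢 (w : ℝ) τ‖ ≤ r0 := by
    rw [hnq, hr0, Real.exp_le_exp, div_le_div_iff_of_pos_right hw']
    have := Real.pi_pos
    nlinarith
  have h1 : ‖Gp (𝕢 (w : ℝ) τ)‖ ≤ B := hB _ (by simpa using hqle)
  have hpi := Real.pi_pos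
  have ht : 0 ≤ 2 * Real.pi * τ.im := by
    have := τ.im_pos
    positivity
  have hk : (-N : ℝ) ≤ ((-N).toNat : ℝ) := by
    have := Int.self_le_toNat (-N)
    exact_mod_cast this
  have hk0 : (0 : ℝ) ≤ ((-N).toNat : ℝ) := Nat.cast_nonneg _
  have h2 : Real.exp (-2 * Real.pi * τ.im / w) ^ N ≤
      Real.exp (2 * Real.pi * ((-N).toNat : ℝ) * τ.im) := by
    rw [h21_exp_zpow, Real.exp_le_exp]
    have e1 : (N : ℝ) * (-2 * Real.pi * τ.im / w) = (-N : ℝ) * (2 * Real.pi * τ.im / w) := by ring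
    have e2 : 2 * Real.pi * ((-N).toNat : ℝ) * τ.im = ((-N).toNat : ℝ) * (2 * Real.pi * τ.im) := by
      ring
    rw [e1, e2]
    calc (-N : ℝ) * (2 * Real.pi * τ.im / w)
        ≤ ((-N).toNat : ℝ) * (2 * Real.pi * τ.im / w) :=
          mul_le_mul_of_nonneg_right hk (div_nonneg ht hw'.le)
      _ ≤ ((-N).toNat : ℝ) * (2 * Real.pi * τ.im) :=
          mul_le_mul_of_nonneg_left (div_le_self ht hw1) hk0
  rw [hval, norm_mul, norm_zpow, hnq]
  exact mul_le_mul h1 h2 (zpow_nonneg (Real.exp_pos _).le _) hB0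

/-- **Dilation**: a `q_w`-expansion is a `q_{w m}`-expansion. -/
theorem gal_qexp_dilate (w m : ℕ) [NeZero m] (_hw : 0 < w) (c : LaurentSeries ℂ) (G : ℍ → ℂ)
    (h : h77_IsQExp (w : ℝ) c G) :
    h77_IsQExp ((w * m : ℕ) : ℝ) (ModularCurve.qExpand ℂ m c) G := by
  have e : ((w * m : ℕ) : ℝ) = (m : ℝ) * (w : ℝ) := by push_cast; ring
  rw [e]
  exact h.qExpand_width m

end Fermat.Agent.GAL
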