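import Mathlib
import Fermat.Agent.S24.h25_Mer

/-
GAL row 308 (GAL-4 ROOT), helper74: `p`-th roots of meromorphic functions on the upper half
plane.

* `gal_exists_root`     : a nonzero `F : h25_Mer` all of whose orders on the upper half plane are
                          divisible by `p` is a `p`-th power in `h25_Mer`;
* `gal_exists_root_hol` : the same for holomorphic functions (`h25_Hol`), with a holomorphic root;
* `gal_root_unique`     : two `p`-th roots differ by a constant `p`-th root of unity.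

Route.  `F = a / b`; the holomorphic function `u = a * b ^ (p - 1)` has all orders divisible by
`p`, and a holomorphic root `v` of `u` gives the root `v / b` of `F`.  The holomorphic root is
built on the exhausting discs `ball (i (n + 2)) ((n + 2) - 1 / (n + 2))`: on each closed disc the
zeros are split off (Mathlib: `MeromorphicOn.extract_zeros_poles`), the zero-free factor has a
logarithm (primitives on discs), the roots are normalised at one base point and the normalised
roots on a connected domain are unique, so they glue.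
-/

set_option autoImplicit false

open Complex Metric Set Filter Topology
open scoped Manifold
open Fermat.Agent.S24

namespace Fermat.Agent.GAL

/-! ## Analysis on discs -/

/-- holomorphic logarithm of a zero-free holomorphic function on a disc -/
theorem h74_exists_log_ball {g : ℂ → ℂ} {c : ℂ} {R : ℝ}
    (hg : DifferentiableOn ℂ g (ball c R)) (hg0 : ∀ z ∈ ball c R, g z ≠ 0) :
    ∃ L : ℂ → ℂ, DifferentiableOn ℂ L (ball c R) ∧ ∀ z ∈ ball c R, Complex.exp (L z) = g z := by
  by_cases hR : 0 < R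
  swap
  · refine ⟨fun _ => 0, differentiableOn_const _, ?_⟩
    intro z hz
    exact absurd (pos_of_mem_ball hz) hR
  have hc : c ∈ ball c R := mem_ball_self hR
  have hdg : DifferentiableOn ℂ (deriv g) (ball c R) := hg.deriv isOpen_ball
  have hq : DifferentiableOn ℂ (fun z => deriv g z / g z) (ball c R) := hdg.div hg hg0
  obtain ⟨L0, hL0⟩ := hq.isExactOn_ball
  have hL0d : DifferentiableOn ℂ L0 (ball c R) :=
    fun z hz => (hL0 z hz).differentiableAt.differentiableWithinAt
  -- φ = g * exp (-L0) is constant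
  set φ : ℂ → ℂ := fun z => g z * Complex.exp (-L0 z) with hφ
  have hφd : ∀ z ∈ ball c R, HasDerivAt φ 0 z := by
    intro z hz
    have h1 : HasDerivAt g (deriv g z) z :=
      (hg.differentiableAt (isOpen_ball.mem_nhds hz)).hasDerivAt
    have h2 : HasDerivAt (fun z => Complex.exp (-L0 z))
        (Complex.exp (-L0 z) * (-(deriv g z / g z))) z := (hL0 z hz).neg.cexp
    have h3 := h1.mul h2
    have h4 : deriv g z * Complex.exp (-L0 z)
        + g z * (Complex.exp (-L0 z) * (-(deriv g z / g z))) = 0 := by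
      have := hg0 z hz
      field_simp
      ring
    rw [h4] at h3
    exact h3
  have hconst : ∀ z ∈ ball c R, φ z = φ c := by
    intro z hz
    exact isOpen_ball.is_const_of_deriv_eq_zero (convex_ball c R).isPreconnected
      (fun w hw => (hφd w hw).differentiableAt.differentiableWithinAt)
      (fun w hw => (hφd w hw).deriv) hz hc
  have hφc : φ c ≠ 0 := mul_ne_zero (hg0 c hc) (Complex.exp_ne_zero _)
  refine ⟨fun z => L0 z + Complex.log (φ c), hL0d.add (differentiableOn_const _), ?_⟩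
  intro z hz
  rw [Complex.exp_add, Complex.exp_log hφc, ← hconst z hz, hφ]
  simp only
  rw [mul_comm, mul_assoc, ← Complex.exp_add]
  simp

/-- `p`-th root on a disc whose closed disc lies in the domain of analyticity, when all
orders are divisible by `p` -/
theorem h74_exists_root_ball (p : ℕ) (hp : 0 < p) {f : ℂ → ℂ} {c : ℂ} {R : ℝ}
    (hf : AnalyticOnNhd ℂ f (closedBall c R))
    (hord : ∀ z ∈ closedBall c R, meromorphicOrderAt f z ≠ ⊤)
    (hdiv : ∀ z ∈ closedBall c R, (p : ℤ) ∣ (meromorphicOrderAt f z).untop₀) :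
    ∃ r : ℂ → ℂ, DifferentiableOn ℂ r (ball c R) ∧ ∀ z ∈ ball c R, r z ^ p = f z := by
  have hp0 : (p : ℤ) ≠ 0 := by exact_mod_cast hp.ne'
  have hpC : (p : ℂ) ≠ 0 := by exact_mod_cast hp.ne'
  have hmer : MeromorphicOn f (closedBall c R) := fun z hz => (hf z hz).meromorphicAt
  have hDfin : (MeromorphicOn.divisor f (closedBall c R)).support.Finite :=
    (MeromorphicOn.divisor f (closedBall c R)).finiteSupport (isCompact_closedBall c R)
  obtain ⟨g, hg, hg0, hfg⟩ := hmer.extract_zeros_poles (fun u => hord u.1 u.2) hDfin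
  set D : ℂ → ℤ := fun u => MeromorphicOn.divisor f (closedBall c R) u with hD
  have hDsupp : D.support.Finite := hDfin
  have hDval : ∀ u ∈ closedBall c R, D u = (meromorphicOrderAt f u).untop₀ :=
    fun u hu => MeromorphicOn.divisor_apply hmer hu
  have hDout : ∀ u, u ∉ closedBall c R → D u = 0 := by
    intro u hu
    exact (MeromorphicOn.divisor f (closedBall c R)).apply_eq_zero_of_notMem hu
  have hDnn : ∀ u, 0 ≤ D u := by
    intro u
    by_cases hu : u ∈ closedBall c R
    · rw [hDval u hu]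
      have h1 := (hf u hu).meromorphicOrderAt_nonneg
      have h2 := hord u hu
      lift meromorphicOrderAt f u to ℤ using h2 with n hn
      simpa using h1
    · rw [hDout u hu]
  have hDdvd : ∀ u, (p : ℤ) ∣ D u := by
    intro u
    by_cases hu : u ∈ closedBall c R
    · rw [hDval u hu]; exact hdiv u hu
    · rw [hDout u hu]; exact dvd_zero _
  -- log of g on the open ball
  have hgd : DifferentiableOn ℂ g (ball c R) := fun z hz =>
    (hg z (ball_subset_closedBall hz)).differentiableAt.differentiableWithinAt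
  obtain ⟨L, hL, hLg⟩ := h74_exists_log_ball hgd
    (fun z hz => hg0 ⟨z, ball_subset_closedBall hz⟩)
  -- exponents
  set k : ℂ → ℤ := fun u => D u / p with hk
  have hDk : ∀ u, D u = k u * p := fun u => (Int.ediv_mul_cancel (hDdvd u)).symm
  have hknn : ∀ u, 0 ≤ k u := fun u => Int.ediv_nonneg (hDnn u) (by positivity)
  have hksupp : k.support.Finite := by
    refine hDsupp.subset ?_
    intro u hu
    simp only [Function.mem_support, ne_eq] at hu ⊢
    intro h0
    apply hu
    simp [hk, h0]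
  have hkfun := Function.FactorizedRational.finprod_eq_fun (𝕜 := ℂ) (d := k) hksupp
  have hDfun := Function.FactorizedRational.finprod_eq_fun (𝕜 := ℂ) (d := D) hDsupp
  refine ⟨fun z => (∏ᶠ u, (z - u) ^ k u) * Complex.exp (L z / p), ?_, ?_⟩
  · intro z hz
    have h1 : AnalyticAt ℂ (∏ᶠ u, (· - u) ^ k u) z :=
      Function.FactorizedRational.analyticAt (hknn z)
    rw [hkfun] at h1
    exact (h1.differentiableAt.differentiableWithinAt).mul ((hL z hz).div_const _).cexp
  · intro z hz
    have hzK : z ∈ closedBall c R := ball_subset_closedBall hz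
    -- the equality `f = ∏ (z - u)^D u * g` at every point of the open ball
    have hfz : f z = (∏ᶠ u, (z - u) ^ D u) * g z := by
      have hS := hfg
      rw [Filter.EventuallyEq, Filter.Eventually, mem_codiscreteWithin] at hS
      have h1 := hS z hzK
      rw [Filter.disjoint_principal_right] at h1
      have h2 : ball c R ∈ 𝓝[≠] z := nhdsWithin_le_nhds (isOpen_ball.mem_nhds hz)
      have h3 : f =ᶠ[𝓝[≠] z] ((∏ᶠ u, (· - u) ^ D u) • g) := by
        filter_upwards [h1, h2] with w hw1 hw2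
        by_contra hne
        exact hw1 ⟨ball_subset_closedBall hw2, hne⟩
      have hc1 : ContinuousAt f z := (hf z hzK).continuousAt
      have hc2 : ContinuousAt ((∏ᶠ u, (· - u) ^ D u) • g) z := by
        have ha : AnalyticAt ℂ (∏ᶠ u, (· - u) ^ D u) z :=
          Function.FactorizedRational.analyticAt (hDnn z)
        exact (ha.smul (hg z hzK)).continuousAt
      have h4 := ((hc1.eventuallyEq_nhds_iff_eventuallyEq_nhdsNE hc2).mp h3).eq_of_nhds
      rw [h4, hDfun]
      simp
    rw [hfz, mul_pow, ← Complex.exp_nat_mul, mul_div_cancel₀ _ hpC, hLg z hz]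
    congr 1
    have hfin : (fun u : ℂ => (z - u) ^ k u).HasFiniteMulSupport := by
      refine hksupp.subset ?_
      intro u hu
      simp only [Function.mem_mulSupport, Function.mem_support, ne_eq] at hu ⊢
      intro h0
      apply hu
      simp [h0]
    rw [finprod_pow hfin]
    refine finprod_congr ?_
    intro u
    rw [hDk u, zpow_mul, zpow_natCast]

/-- two holomorphic `p`-th roots of the same function on a connected open set which agree
(and do not vanish) at one point are equal -/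
theorem h74_root_unique_on (p : ℕ) (hp : 0 < p) {r r' : ℂ → ℂ} {U : Set ℂ} (hU : IsOpen U)
    (hUc : IsPreconnected U) (hr : DifferentiableOn ℂ r U) (hr' : DifferentiableOn ℂ r' U)
    (hpow : ∀ z ∈ U, r z ^ p = r' z ^ p) {z₀ : ℂ} (hz₀ : z₀ ∈ U) (h0 : r z₀ = r' z₀)
    (hne : r z₀ ≠ 0) : EqOn r r' U := by
  refine (hr.analyticOnNhd hU).eqOn_of_preconnected_of_eventuallyEq (hr'.analyticOnNhd hU) hUc
    hz₀ ?_
  have hVo : IsOpen (U ∩ r' ⁻¹' {0}ᶜ) :=
    hr'.continuousOn.isOpen_inter_preimage hU isOpen_compl_singleton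
  have hzV : z₀ ∈ U ∩ r' ⁻¹' {0}ᶜ := ⟨hz₀, by simpa [← h0] using hne⟩
  obtain ⟨ε, hε, hball⟩ := Metric.isOpen_iff.mp hVo z₀ hzV
  have hq : ContinuousOn (fun w => r w / r' w) (ball z₀ ε) := by
    refine (hr.continuousOn.mono fun w hw => (hball hw).1).div
      (hr'.continuousOn.mono fun w hw => (hball hw).1) ?_
    intro w hw
    simpa using (hball hw).2
  have hpre : IsPreconnected ((fun w => r w / r' w) '' ball z₀ ε) :=
    (convex_ball z₀ ε).isPreconnected.image _ hq
  have hsub : (fun w => r w / r' w) '' ball z₀ ε ⊆ ↑(Polynomial.nthRootsFinset p (1 : ℂ)) := by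
    rintro _ ⟨w, hw, rfl⟩
    have hw0 : r' w ≠ 0 := by simpa using (hball hw).2
    simp only [Finset.mem_coe]
    rw [Polynomial.mem_nthRootsFinset hp, div_pow, hpow w (hball hw).1, div_self (pow_ne_zero _ hw0)]
  have htd : IsTotallyDisconnected (↑(Polynomial.nthRootsFinset p (1 : ℂ)) : Set ℂ) :=
    (Finset.finite_toSet _).countable.isTotallyDisconnected
  have hss := htd _ hsub hpre
  have hmem : ball z₀ ε ∈ 𝓝 z₀ := ball_mem_nhds z₀ hε
  filter_upwards [hmem] with w hw
  have hw0 : r' w ≠ 0 := by simpa using (hball hw).2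
  have hz0' : r' z₀ ≠ 0 := by rwa [← h0]
  have h1 := hss (mem_image_of_mem _ hw) (mem_image_of_mem _ (mem_ball_self hε))
  beta_reduce at h1
  rw [h0, div_self hz0', div_eq_one_iff_eq hw0] at h1
  exact h1

/-- the exhausting discs of the upper half plane -/
theorem h74_disc_facts :
    (∀ n : ℕ, closedBall (((n : ℝ) + 2 : ℝ) * I : ℂ) (((n : ℝ) + 2) - 1 / ((n : ℝ) + 2))
        ⊆ {z : ℂ | 0 < z.im}) ∧
    (∀ n m : ℕ, n ≤ m → ball (((n : ℝ) + 2 : ℝ) * I : ℂ) (((n : ℝ) + 2) - 1 / ((n : ℝ) + 2))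
        ⊆ ball (((m : ℝ) + 2 : ℝ) * I : ℂ) (((m : ℝ) + 2) - 1 / ((m : ℝ) + 2))) ∧
    (∀ z : ℂ, 0 < z.im → ∃ n : ℕ,
        z ∈ ball (((n : ℝ) + 2 : ℝ) * I : ℂ) (((n : ℝ) + 2) - 1 / ((n : ℝ) + 2))) := by
  refine ⟨?_, ?_, ?_⟩
  · intro n z hz
    rw [mem_closedBall, Complex.dist_eq] at hz
    have h1 := Complex.abs_im_le_norm (z - ((n : ℝ) + 2 : ℝ) * I)
    have h2 : (z - ((n : ℝ) + 2 : ℝ) * I).im = z.im - ((n : ℝ) + 2) := by simp
    rw [h2] at h1
    have h3 : (0 : ℝ) < 1 / ((n : ℝ) + 2) := by positivity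
    have h4 := (abs_le.mp (h1.trans hz)).1
    show 0 < z.im
    linarith
  · intro n m hnm
    apply ball_subset_ball'
    have hd : dist (((n : ℝ) + 2 : ℝ) * I : ℂ) (((m : ℝ) + 2 : ℝ) * I) = (m : ℝ) - n := by
      rw [Complex.dist_eq, ← sub_mul, ← Complex.ofReal_sub, norm_mul, Complex.norm_I, mul_one,
        Complex.norm_real, Real.norm_eq_abs]
      have : ((n : ℝ) + 2 - ((m : ℝ) + 2)) = -((m : ℝ) - n) := by ring
      rw [this, abs_neg, abs_of_nonneg]
      have : (n : ℝ) ≤ m := by exact_mod_cast hnm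
      linarith
    rw [hd]
    have h1 : (1 : ℝ) / ((m : ℝ) + 2) ≤ 1 / ((n : ℝ) + 2) := by
      apply one_div_le_one_div_of_le (by positivity)
      have : (n : ℝ) ≤ m := by exact_mod_cast hnm
      linarith
    linarith
  · intro z hz
    obtain ⟨n, hn⟩ := exists_nat_gt ((z.re ^ 2 + z.im ^ 2 + 2) / (2 * z.im))
    refine ⟨n, ?_⟩
    rw [mem_ball, Complex.dist_eq]
    have hR : (2 : ℝ) ≤ (n : ℝ) + 2 := by
      have := Nat.cast_nonneg (α := ℝ) n
      linarith
    set R : ℝ := (n : ℝ) + 2 with hRdef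
    have hRpos : 0 < R := by linarith
    have hρ : 0 ≤ R - 1 / R := by
      have : 1 / R ≤ 1 := by
        rw [div_le_one hRpos]; linarith
      linarith
    apply lt_of_pow_lt_pow_left₀ 2 hρ
    rw [Complex.sq_norm, Complex.normSq_apply]
    have h2 : (z - (R : ℝ) * I).im = z.im - R := by simp
    have h3 : (z - (R : ℝ) * I).re = z.re := by simp
    rw [h2, h3]
    have h4 : (z.re ^ 2 + z.im ^ 2 + 2) < R * (2 * z.im) := by
      have := (div_lt_iff₀ (by positivity : (0 : ℝ) < 2 * z.im)).mp hn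
      nlinarith
    have h5 : (R - 1 / R) ^ 2 = R ^ 2 - 2 + (1 / R) ^ 2 := by
      field_simp
      ring
    rw [h5]
    have h6 : 0 ≤ (1 / R) ^ 2 := sq_nonneg _
    nlinarith

/-- **Holomorphic `p`-th roots on the upper half plane.** -/
theorem h74_exists_root_halfPlane (p : ℕ) (hp : 0 < p) {f : ℂ → ℂ}
    (hf : DifferentiableOn ℂ f {z : ℂ | 0 < z.im})
    (hord : ∀ z : ℂ, 0 < z.im → meromorphicOrderAt f z ≠ ⊤)
    (hdiv : ∀ z : ℂ, 0 < z.im → (p : ℤ) ∣ (meromorphicOrderAt f z).untop₀) :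
    ∃ h : ℂ → ℂ, DifferentiableOn ℂ h {z : ℂ | 0 < z.im} ∧
      ∀ z : ℂ, 0 < z.im → h z ^ p = f z := by
  classical
  obtain ⟨hK, hmono, hcov⟩ := h74_disc_facts
  have hΩo : IsOpen {z : ℂ | 0 < z.im} := isOpen_lt continuous_const Complex.continuous_im
  have hfan : AnalyticOnNhd ℂ f {z : ℂ | 0 < z.im} := hf.analyticOnNhd hΩo
  set cn : ℕ → ℂ := fun n => (((n : ℝ) + 2 : ℝ) * I : ℂ) with hcn
  set ρ : ℕ → ℝ := fun n => ((n : ℝ) + 2) - 1 / ((n : ℝ) + 2) with hρ
  have hK' : ∀ n, closedBall (cn n) (ρ n) ⊆ {z : ℂ | 0 < z.im} := hK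
  have hmono' : ∀ n m : ℕ, n ≤ m → ball (cn n) (ρ n) ⊆ ball (cn m) (ρ m) := hmono
  have hcov' : ∀ z : ℂ, 0 < z.im → ∃ n : ℕ, z ∈ ball (cn n) (ρ n) := hcov
  have hBΩ : ∀ n, ball (cn n) (ρ n) ⊆ {z : ℂ | 0 < z.im} :=
    fun n => ball_subset_closedBall.trans (hK' n)
  -- base point
  have hρ0 : 0 < ρ 0 := by
    simp only [hρ]
    norm_num
  have hc0 : 0 < (cn 0).im := hBΩ 0 (mem_ball_self hρ0)
  obtain ⟨z₁, hz₁, hfz₁⟩ : ∃ z₁ ∈ ball (cn 0) (ρ 0), f z₁ ≠ 0 := by
    by_contra hcon
    push Not at hcon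
    apply hord (cn 0) hc0
    rw [meromorphicOrderAt_eq_top_iff]
    have : ball (cn 0) (ρ 0) ∈ 𝓝[≠] (cn 0) := nhdsWithin_le_nhds (ball_mem_nhds _ hρ0)
    filter_upwards [this] with w hw
    exact hcon w hw
  obtain ⟨w₁, hw₁⟩ := IsAlgClosed.exists_pow_nat_eq (f z₁) hp
  have hw₁0 : w₁ ≠ 0 := by
    rintro rfl
    rw [zero_pow hp.ne'] at hw₁
    exact hfz₁ hw₁.symm
  have hz₁n : ∀ n, z₁ ∈ ball (cn n) (ρ n) := fun n => hmono' 0 n (Nat.zero_le n) hz₁
  -- normalised roots on each disc
  have hroot : ∀ n : ℕ, ∃ r : ℂ → ℂ, DifferentiableOn ℂ r (ball (cn n) (ρ n)) ∧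
      (∀ z ∈ ball (cn n) (ρ n), r z ^ p = f z) ∧ r z₁ = w₁ := by
    intro n
    obtain ⟨r, hr, hrp⟩ := h74_exists_root_ball p hp (f := f) (c := cn n) (R := ρ n)
      (fun z hz => hfan z (hK' n hz)) (fun z hz => hord z (hK' n hz))
      (fun z hz => hdiv z (hK' n hz))
    have hr1 : r z₁ ≠ 0 := by
      intro h0
      have := hrp z₁ (hz₁n n)
      rw [h0, zero_pow hp.ne'] at this
      exact hfz₁ this.symm
    refine ⟨fun z => (w₁ / r z₁) * r z, hr.const_mul _, ?_, ?_⟩
    · intro z hz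
      rw [mul_pow, div_pow, hw₁, hrp z₁ (hz₁n n), div_self hfz₁, one_mul, hrp z hz]
    · field_simp
  choose r hrd hrp hr1 using hroot
  -- compatibility
  have hcompat : ∀ n m : ℕ, n ≤ m → EqOn (r n) (r m) (ball (cn n) (ρ n)) := by
    intro n m hnm
    refine h74_root_unique_on p hp isOpen_ball (convex_ball _ _).isPreconnected (hrd n)
      ((hrd m).mono (hmono' n m hnm)) ?_ (hz₁n n) ?_ ?_
    · intro z hz
      rw [hrp n z hz, hrp m z (hmono' n m hnm hz)]
    · rw [hr1 n, hr1 m]
    · rw [hr1 n]; exact hw₁0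
  -- the glued function
  set N : ℂ → ℕ := fun z => if hz : 0 < z.im then Nat.find (hcov' z hz) else 0 with hN
  have hNmem : ∀ z : ℂ, 0 < z.im → z ∈ ball (cn (N z)) (ρ (N z)) := by
    intro z hz
    simp only [hN, dif_pos hz]
    exact Nat.find_spec (hcov' z hz)
  have hglue : ∀ n : ℕ, ∀ w ∈ ball (cn n) (ρ n), r (N w) w = r n w := by
    intro n w hw
    have hwΩ : 0 < w.im := hBΩ n hw
    have h1 := hcompat (N w) (max n (N w)) (le_max_right _ _) (hNmem w hwΩ)
    have h2 := hcompat n (max n (N w)) (le_max_left _ _) hw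
    rw [h1, h2]
  refine ⟨fun z => r (N z) z, ?_, ?_⟩
  · intro z hz
    have hz' : 0 < z.im := hz
    have hmem := hNmem z hz'
    have hev : (fun w => r (N w) w) =ᶠ[𝓝 z] r (N z) := by
      filter_upwards [isOpen_ball.mem_nhds hmem] with w hw
      exact hglue (N z) w hw
    have hd : DifferentiableAt ℂ (r (N z)) z :=
      (hrd (N z)).differentiableAt (isOpen_ball.mem_nhds hmem)
    exact (hev.differentiableAt_iff.mpr hd).differentiableWithinAt
  · intro z hz
    exact hrp (N z) z (hNmem z hz)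

/-! ## The upper half plane: holomorphic functions -/

theorem h74_ordHol_one (τ : UpperHalfPlane) : h25_ordHol τ 1 = 0 :=
  h25_ordHol_eq_zero_of_ne τ 1 (by
    show (1 : UpperHalfPlane → ℂ) τ ≠ 0
    simp)

theorem h74_ordHol_pow (τ : UpperHalfPlane) (b : h25_Hol) (hb : b ≠ 0) (n : ℕ) :
    h25_ordHol τ (b ^ n) = n * h25_ordHol τ b := by
  induction n with
  | zero => simp [h74_ordHol_one]
  | succ n ih =>
    rw [pow_succ, h25_ordHol_mul τ _ _ (pow_ne_zero n hb) hb, ih]
    push_cast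
    ring

/-- **Holomorphic `p`-th roots**: a nonzero holomorphic function on the upper half plane all of
whose orders are divisible by `p` is the `p`-th power of a holomorphic function. -/
theorem gal_exists_root_hol (p : ℕ) (hp : 0 < p) (u : h25_Hol) (hu : u ≠ 0)
    (h : ∀ τ : UpperHalfPlane, (p : ℤ) ∣ h25_ordHol τ u) : ∃ v : h25_Hol, v ^ p = u := by
  have hf : DifferentiableOn ℂ ((u : UpperHalfPlane → ℂ) ∘ UpperHalfPlane.ofComplex)
      {z : ℂ | 0 < z.im} := UpperHalfPlane.mdifferentiable_iff.mp u.2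
  obtain ⟨g, hg, hgp⟩ := h74_exists_root_halfPlane p hp hf
    (fun z hz => h25_order_ne_top hu ⟨z, hz⟩) (fun z hz => h ⟨z, hz⟩)
  have hv : MDiff (fun τ : UpperHalfPlane => g (τ : ℂ)) := by
    rw [UpperHalfPlane.mdifferentiable_iff]
    refine hg.congr ?_
    intro z hz
    have hz' : 0 < z.im := hz
    simp [UpperHalfPlane.ofComplex_apply_of_im_pos hz']
  refine ⟨⟨fun τ : UpperHalfPlane => g (τ : ℂ), hv⟩, ?_⟩
  apply Subtype.ext
  funext τ
  have h1 := hgp (τ : ℂ) τ.im_pos
  simp only [Function.comp_apply, UpperHalfPlane.ofComplex_apply] at h1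
  exact h1

/-! ## The upper half plane: meromorphic functions -/

/-- **`p`-th roots of meromorphic functions on the upper half plane** (GAL row 308). -/
theorem gal_exists_root (p : ℕ) (hp : 0 < p) (F : h25_Mer) (hF : F ≠ 0)
    (h : ∀ τ : UpperHalfPlane, (p : ℤ) ∣ h25_ord τ F) : ∃ H : h25_Mer, H ^ p = F := by
  obtain ⟨a, b, ha, hb, rfl⟩ := h25_exists_eq_div (A := h25_Hol) F hF
  have hinj : Function.Injective (algebraMap h25_Hol h25_Mer) :=
    IsFractionRing.injective h25_Hol h25_Mer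
  have hb' : algebraMap h25_Hol h25_Mer b ≠ 0 := by rwa [Ne, map_eq_zero_iff _ hinj]
  obtain ⟨q, rfl⟩ : ∃ q, p = q + 1 := ⟨p - 1, by omega⟩
  have hu : a * b ^ q ≠ 0 := mul_ne_zero ha (pow_ne_zero q hb)
  obtain ⟨v, hv⟩ := gal_exists_root_hol (q + 1) hp (a * b ^ q) hu (by
    intro τ
    have h1 := h τ
    rw [h25_ord_div τ ha hb] at h1
    rw [h25_ordHol_mul τ _ _ ha (pow_ne_zero q hb), h74_ordHol_pow τ b hb q]
    obtain ⟨m, hm⟩ := h1
    refine ⟨m + h25_ordHol τ b, ?_⟩
    push_cast at hm ⊢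
    linear_combination hm)
  refine ⟨algebraMap h25_Hol h25_Mer v / algebraMap h25_Hol h25_Mer b, ?_⟩
  rw [div_pow, ← map_pow, hv, map_mul, map_pow, pow_succ]
  field_simp

/-- constants as meromorphic functions -/
noncomputable def h74_constHom : ℂ →+* h25_Mer :=
  (algebraMap h25_Hol h25_Mer).comp
    { toFun := h25_const
      map_one' := rfl
      map_mul' := fun _ _ => rfl
      map_zero' := rfl
      map_add' := fun _ _ => rfl }

theorem h74_constHom_apply (c : ℂ) :
    h74_constHom c = algebraMap h25_Hol h25_Mer (h25_const c) := rfl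

/-- **Uniqueness of `p`-th roots** up to constant `p`-th roots of unity (GAL row 308). -/
theorem gal_root_unique (p : ℕ) (hp : 0 < p) (H H' : h25_Mer) (h : H ^ p = H' ^ p)
    (hH : H' ≠ 0) :
    ∃ ζ : ℂ, ζ ^ p = 1 ∧ H = algebraMap h25_Hol h25_Mer (h25_const ζ) * H' := by
  have ht : (H / H') ^ p = 1 := by
    rw [div_pow, h, div_self (pow_ne_zero p hH)]
  have hpoly := Polynomial.X_pow_sub_one_eq_prod hp (Complex.isPrimitiveRoot_exp p hp.ne')
  have hev := congrArg (Polynomial.eval₂ h74_constHom (H / H')) hpoly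
  rw [Polynomial.eval₂_sub, Polynomial.eval₂_pow, Polynomial.eval₂_X, Polynomial.eval₂_one, ht,
    sub_self, Polynomial.eval₂_finsetProd] at hev
  obtain ⟨ζ, hζ, hζ0⟩ := Finset.prod_eq_zero_iff.mp hev.symm
  rw [Polynomial.eval₂_sub, Polynomial.eval₂_X, Polynomial.eval₂_C, sub_eq_zero] at hζ0
  refine ⟨ζ, (Polynomial.mem_nthRootsFinset hp (1 : ℂ)).mp hζ, ?_⟩
  rw [← h74_constHom_apply, ← hζ0, div_mul_cancel₀ _ hH]

end Fermat.Agent.GAL
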