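import Mathlib
import Fermat.Agent.GAL.h77_AnDefs
import Fermat.Agent.GAL.Root
import Fermat.Agent.GAL.AnQExp
import Fermat.Agent.S24.h14_ProdInv

/-!
# GAL, analytic layer, rows AN-AUTPOW + AN-ROOTALG: core (helper79)

Everything of the two rows that does not need row AN-HOLALG (`gal_holalg`), and the two statements
that need it with `gal_holalg` (for the level `N`) as the hypothesis `h79_HolAlg N`.  The wrapper
`AnAutPow.lean` plugs in `gal_holalg`.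

* `gal_autForm_qExpAll`: an automorphic function with trivial multiplier has `q_N`-expansions at
  all cusps.
* `gal_autForm_pow`: powers of automorphic functions.
* `gal_autForm_pow_alg`: if `χ ^ n = 1` then `U ^ n` lies in `Φ(F_ℂ(N))`.
* `gal_mer_isHol_of_pow`: a meromorphic function on `ℍ` whose `n`-th power is holomorphic is
  holomorphic.
* `gal_rootalg`: a `Γ₀(N)`-invariant meromorphic `n`-th root of an element of `Φ(F_ℂ(N))` lies in
  `Φ(F_ℂ(N))`.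
-/

set_option autoImplicit false

open UpperHalfPlane ModularCurve CongruenceSubgroup AlgebraicCurve ModularForm EisensteinSeries
open scoped MatrixGroups Manifold

namespace Fermat.Agent.GAL

open Fermat.Agent.S24 Fermat.Agent.S16

/-- `g T^N g⁻¹ ∈ Γ₀(N)`. -/
private theorem h79_conj_T_pow_mem (N : ℕ) (g : SL(2, ℤ)) :
    g * ModularGroup.T ^ (N : ℤ) * g⁻¹ ∈ Gamma0 N := by
  have h1 : ModularGroup.T ^ (N : ℤ) ∈ Gamma N := by
    have := ModularGroup_T_pow_mem_Gamma (N : ℤ) (N : ℤ) dvd_rfl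
    simpa using this
  have h2 : g * ModularGroup.T ^ (N : ℤ) * g⁻¹ ∈ Gamma N :=
    (Gamma_normal (N := N)).conj_mem _ h1 g
  rw [Gamma_mem] at h2
  rw [Gamma0_mem]
  exact h2.2.2.1

theorem gal_autForm_qExpAll (N : ℕ) [NeZero N] (U : ℍ → ℂ) (hU : gal_AutForm N 1 U) :
    gal_QExpAll N U := by
  intro g
  obtain ⟨m, C, hb⟩ := hU.growth g
  refine gal_qexp_of_growth N (Nat.pos_of_ne_zero (NeZero.ne N)) (fun τ => U (g • τ))
    (h25_mdiff_comp_smul hU.mdiff g) ?_ m C hb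
  intro τ
  show U (g • ((N : ℝ) +ᵥ τ)) = U (g • τ)
  have h1 : ((N : ℝ) +ᵥ τ) = ModularGroup.T ^ (N : ℤ) • τ := by
    rw [UpperHalfPlane.modular_T_zpow_smul]
    simp
  have h2 : g • (ModularGroup.T ^ (N : ℤ) • τ) =
      (g * ModularGroup.T ^ (N : ℤ) * g⁻¹) • (g • τ) := by
    rw [mul_smul, mul_smul, inv_smul_smul]
  have h3 : U ((g * ModularGroup.T ^ (N : ℤ) * g⁻¹) • (g • τ)) =
      (((1 : ↥(Gamma0 N) →* ℂˣ) ⟨_, h79_conj_T_pow_mem N g⟩ : ℂˣ) : ℂ) * U (g • τ) :=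
    hU.mult ⟨_, h79_conj_T_pow_mem N g⟩ (g • τ)
  rw [h1, h2, h3, MonoidHom.one_apply, Units.val_one, one_mul]

theorem gal_autForm_pow (N : ℕ) (n : ℕ) (χ : ↥(Gamma0 N) →* ℂˣ) (U : ℍ → ℂ)
    (hU : gal_AutForm N χ U) : gal_AutForm N (χ ^ n) (fun τ => U τ ^ n) := by
  refine ⟨?_, ?_, ?_⟩
  · exact ((⟨U, hU.mdiff⟩ : h25_Hol) ^ n).2
  · intro γ τ
    show U ((γ : SL(2, ℤ)) • τ) ^ n = (((χ ^ n) γ : ℂˣ) : ℂ) * U τ ^ n
    rw [hU.mult γ τ, mul_pow, MonoidHom.pow_apply, Units.val_pow_eq_pow_val]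
  · intro g
    obtain ⟨m, C, hb⟩ := hU.growth g
    refine ⟨m * n, C ^ n, fun τ hτ => ?_⟩
    show ‖U (g • τ) ^ n‖ ≤ C ^ n * Real.exp (2 * Real.pi * ((m * n : ℕ) : ℝ) * τ.im)
    rw [norm_pow]
    calc ‖U (g • τ)‖ ^ n ≤ (C * Real.exp (2 * Real.pi * m * τ.im)) ^ n :=
          pow_le_pow_left₀ (norm_nonneg _) (hb τ hτ) n
      _ = C ^ n * Real.exp (2 * Real.pi * ((m * n : ℕ) : ℝ) * τ.im) := by
          rw [mul_pow, ← Real.exp_nat_mul]
          congr 2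
          push_cast
          ring

/-- The statement of row AN-HOLALG at level `N`: a `Γ₀(N)`-invariant holomorphic function with
`q_N`-expansions at all cusps lies in `Φ(F_ℂ(N))`. -/
def h79_HolAlg (N : ℕ) : Prop :=
  ∀ (f : ℍ → ℂ) (hf : MDiff f), (∀ γ ∈ Gamma0 N, ∀ τ : ℍ, f (γ • τ) = f τ) → gal_QExpAll N f →
    ∃ x : gal_F ℂ N, gal_Phi (RingHom.id ℂ) N x = algebraMap h25_Hol h25_Mer ⟨f, hf⟩

theorem h79_autForm_pow_alg_of (N : ℕ) [NeZero N] (hol : h79_HolAlg N) (n : ℕ)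
    (χ : ↥(Gamma0 N) →* ℂˣ) (hχ : χ ^ n = 1) (U : ℍ → ℂ) (hU : gal_AutForm N χ U) :
    ∃ x : gal_F ℂ N,
      gal_Phi (RingHom.id ℂ) N x = algebraMap h25_Hol h25_Mer ((⟨U, hU.mdiff⟩ : h25_Hol) ^ n) := by
  have hUn : gal_AutForm N 1 (fun τ => U τ ^ n) := hχ ▸ gal_autForm_pow N n χ U hU
  have hinv : ∀ γ ∈ Gamma0 N, ∀ τ : ℍ, (fun τ => U τ ^ n) (γ • τ) = (fun τ => U τ ^ n) τ := by
    intro γ hγ τ
    have h := hUn.mult ⟨γ, hγ⟩ τ
    rw [MonoidHom.one_apply, Units.val_one, one_mul] at h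
    exact h
  obtain ⟨x, hx⟩ := hol (fun τ => U τ ^ n) hUn.mdiff hinv (gal_autForm_qExpAll N _ hUn)
  refine ⟨x, ?_⟩
  rw [hx]
  exact congrArg _ (Subtype.ext rfl)

private theorem h79_ord_pow (τ : ℍ) {u : h25_Mer} (hu : u ≠ 0) (n : ℕ) :
    h25_ord τ (u ^ n) = n * h25_ord τ u := by
  induction n with
  | zero =>
    have h1 : (1 : h25_Mer) = algebraMap h25_Hol h25_Mer 1 := (map_one _).symm
    rw [pow_zero, h1, h25_ord_algebraMap τ one_ne_zero, h74_ordHol_one]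
    simp
  | succ k ih =>
    rw [pow_succ, h25_ord_mul τ (pow_ne_zero k hu) hu, ih]
    push_cast
    ring

theorem gal_mer_isHol_of_pow (n : ℕ) (hn : 0 < n) (u : h25_Mer) (a : h25_Hol)
    (h : u ^ n = algebraMap h25_Hol h25_Mer a) : ∃ v : h25_Hol, algebraMap h25_Hol h25_Mer v = u := by
  have hinj : Function.Injective (algebraMap h25_Hol h25_Mer) := IsFractionRing.injective _ _
  by_cases ha : a = 0
  · refine ⟨0, ?_⟩
    rw [ha, map_zero] at h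
    rw [map_zero]
    exact ((pow_eq_zero_iff hn.ne').mp h).symm
  · have hA : algebraMap h25_Hol h25_Mer a ≠ 0 := (map_ne_zero_iff _ hinj).mpr ha
    have hu : u ≠ 0 := by
      rintro rfl
      rw [zero_pow hn.ne'] at h
      exact hA h.symm
    have hdiv : ∀ τ : ℍ, (n : ℤ) ∣ h25_ordHol τ a := by
      intro τ
      have h1 := h79_ord_pow τ hu n
      rw [h, h25_ord_algebraMap τ ha] at h1
      exact ⟨_, h1⟩
    obtain ⟨v₀, hv₀⟩ := gal_exists_root_hol n hn a ha hdiv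
    have hv₀0 : v₀ ≠ 0 := by
      rintro rfl
      rw [zero_pow hn.ne'] at hv₀
      exact ha hv₀.symm
    have h' : u ^ n = (algebraMap h25_Hol h25_Mer v₀) ^ n := by
      rw [h, ← map_pow, hv₀]
    obtain ⟨ζ, -, hζ⟩ := gal_root_unique n hn u _ h' ((map_ne_zero_iff _ hinj).mpr hv₀0)
    exact ⟨h25_const ζ * v₀, by rw [map_mul, hζ]⟩

theorem h79_rootalg_of (N : ℕ) [NeZero N] (hol : h79_HolAlg N) (n : ℕ) (hn : 0 < n)
    (u : h25_Mer) (hinv : ∀ γ ∈ Gamma0 N, γ • u = u) (x : gal_F ℂ N)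
    (hx : u ^ n = gal_Phi (RingHom.id ℂ) N x) :
    ∃ y : gal_F ℂ N, gal_Phi (RingHom.id ℂ) N y = u := by
  have hinj : Function.Injective (algebraMap h25_Hol h25_Mer) := IsFractionRing.injective _ _
  obtain ⟨a, b, hb, rfl⟩ := IsFractionRing.div_surjective (A := h78_AN ℂ N) x
  have hb0 : b ≠ 0 := nonZeroDivisors.ne_zero hb
  have hB0 : algebraMap h25_Hol h25_Mer (gal_evHol (RingHom.id ℂ) N b) ≠ 0 := by
    rw [Ne, map_eq_zero_iff _ hinj]
    intro h0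
    exact hb0 (gal_evHol_injective (RingHom.id ℂ) N (h0.trans (map_zero _).symm))
  -- `(u * Φ b) ^ n = Φ (a * b ^ (n - 1))`
  have hpow : (u * algebraMap h25_Hol h25_Mer (gal_evHol (RingHom.id ℂ) N b)) ^ n =
      algebraMap h25_Hol h25_Mer (gal_evHol (RingHom.id ℂ) N (a * b ^ (n - 1))) := by
    rw [mul_pow, hx, map_div₀, gal_Phi_algebraMap, gal_Phi_algebraMap, map_mul, map_mul, map_pow,
      map_pow]
    obtain ⟨k, rfl⟩ : ∃ k, n = k + 1 := ⟨n - 1, by omega⟩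
    rw [Nat.add_sub_cancel, pow_succ]
    field_simp
  obtain ⟨v, hv⟩ := gal_mer_isHol_of_pow n hn _ _ hpow
  -- `v` is `Γ₀(N)`-invariant
  have hvinv : ∀ γ ∈ Gamma0 N, γ • v = v := by
    intro γ hγ
    apply hinj
    rw [← h25_smul_algebraMap, hv, smul_mul', hinv γ hγ, h25_smul_algebraMap,
      gal_evHol_smul _ N hγ]
  have hvinv' : ∀ γ ∈ Gamma0 N, ∀ τ : ℍ, (v : ℍ → ℂ) (γ • τ) = (v : ℍ → ℂ) τ := by
    intro γ hγ τ
    have h1 := hvinv γ⁻¹ (inv_mem hγ)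
    have h2 := congrFun (congrArg Subtype.val h1) τ
    rw [h25_smul_Hol_apply, inv_inv] at h2
    exact h2
  have hvn : v ^ n = gal_evHol (RingHom.id ℂ) N (a * b ^ (n - 1)) := by
    apply hinj
    rw [map_pow, hv, hpow]
  -- growth of `v` at the cusps
  have hgrow : ∀ g : SL(2, ℤ), ∃ (m : ℕ) (C : ℝ), ∀ τ : ℍ, 1 ≤ τ.im →
      ‖(v : ℍ → ℂ) (g • τ)‖ ≤ C * Real.exp (2 * Real.pi * m * τ.im) := by
    intro g
    obtain ⟨c', hc'⟩ := h14_ev_conj_exp (RingHom.id ℂ) N (a * b ^ (n - 1)) g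
    obtain ⟨m, C, hmC⟩ := gal_growth_of_qexp N (Nat.pos_of_ne_zero (NeZero.ne N)) _ _ hc'
    refine ⟨m, max 1 C, fun τ hτ => ?_⟩
    have hval : (v : ℍ → ℂ) (g • τ) ^ n =
        h14_ev (RingHom.id ℂ) N (a * b ^ (n - 1)) (g • τ) :=
      congrFun (congrArg Subtype.val hvn) (g • τ)
    have hle : ‖h14_ev (RingHom.id ℂ) N (a * b ^ (n - 1)) (g • τ)‖ ≤
        C * Real.exp (2 * Real.pi * m * τ.im) := hmC τ hτ
    have hexp1 : 1 ≤ Real.exp (2 * Real.pi * m * τ.im) := by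
      apply Real.one_le_exp
      have := τ.im_pos
      positivity
    rcases le_or_gt ‖(v : ℍ → ℂ) (g • τ)‖ 1 with h1 | h1
    · calc ‖(v : ℍ → ℂ) (g • τ)‖ ≤ 1 * 1 := by rw [one_mul]; exact h1
        _ ≤ max 1 C * Real.exp (2 * Real.pi * m * τ.im) :=
          mul_le_mul (le_max_left _ _) hexp1 zero_le_one
            (le_trans zero_le_one (le_max_left _ _))
    · calc ‖(v : ℍ → ℂ) (g • τ)‖ ≤ ‖(v : ℍ → ℂ) (g • τ)‖ ^ n := le_self_pow₀ h1.le hn.ne'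
        _ = ‖h14_ev (RingHom.id ℂ) N (a * b ^ (n - 1)) (g • τ)‖ := by rw [← norm_pow, hval]
        _ ≤ C * Real.exp (2 * Real.pi * m * τ.im) := hle
        _ ≤ max 1 C * Real.exp (2 * Real.pi * m * τ.im) :=
          mul_le_mul_of_nonneg_right (le_max_right _ _) (Real.exp_pos _).le
  have hAut : gal_AutForm N 1 (v : ℍ → ℂ) :=
    ⟨v.2, fun γ τ => by
      rw [MonoidHom.one_apply, Units.val_one, one_mul]
      exact hvinv' γ γ.2 τ, hgrow⟩
  obtain ⟨y', hy'⟩ := hol (v : ℍ → ℂ) v.2 hvinv' (gal_autForm_qExpAll N _ hAut)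
  refine ⟨y' / algebraMap (h78_AN ℂ N) (gal_F ℂ N) b, ?_⟩
  have hvv : (⟨(v : ℍ → ℂ), v.2⟩ : h25_Hol) = v := rfl
  rw [map_div₀, hy', gal_Phi_algebraMap, hvv, hv]
  exact mul_div_cancel_right₀ u hB0

end Fermat.Agent.GAL
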