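import Mathlib
import Fermat.Agent.GAL.h79_AnAutPowCore
import Fermat.Agent.GAL.AnHolAlg

/-!
# GAL, analytic layer, rows AN-AUTPOW + AN-ROOTALG (helper79)

* `gal_autForm_qExpAll`: an automorphic function with trivial multiplier has `q_N`-expansions at
  all cusps  (in `h79_AnAutPowCore.lean`).
* `gal_autForm_pow`: powers of automorphic functions  (in `h79_AnAutPowCore.lean`).
* `gal_mer_isHol_of_pow`: a meromorphic function on `ℍ` whose `n`-th power is holomorphic is
  holomorphic  (in `h79_AnAutPowCore.lean`).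
* `gal_autForm_pow_alg`: if `χ ^ n = 1` then `U ^ n` lies in `Φ(F_ℂ(N))`.
* `gal_rootalg`: a `Γ₀(N)`-invariant meromorphic `n`-th root of an element of `Φ(F_ℂ(N))` lies in
  `Φ(F_ℂ(N))`.
-/

set_option autoImplicit false

open UpperHalfPlane ModularCurve CongruenceSubgroup AlgebraicCurve ModularForm EisensteinSeries
open scoped MatrixGroups Manifold

namespace Fermat.Agent.GAL

open Fermat.Agent.S24 Fermat.Agent.S16

theorem h79_holAlg_holds (N : ℕ) [NeZero N] : h79_HolAlg N :=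
  fun f hf hinv hexp => gal_holalg N f hf hinv hexp

theorem gal_autForm_pow_alg (N : ℕ) [NeZero N] (n : ℕ) (χ : ↥(Gamma0 N) →* ℂˣ)
    (hχ : χ ^ n = 1) (U : ℍ → ℂ) (hU : gal_AutForm N χ U) :
    ∃ x : gal_F ℂ N,
      gal_Phi (RingHom.id ℂ) N x = algebraMap h25_Hol h25_Mer ((⟨U, hU.mdiff⟩ : h25_Hol) ^ n) := by
  exact h79_autForm_pow_alg_of N (h79_holAlg_holds N) n χ hχ U hU

theorem gal_rootalg (N : ℕ) [NeZero N] (n : ℕ) (hn : 0 < n) (u : h25_Mer)
    (hinv : ∀ γ ∈ Gamma0 N, γ • u = u) (x : gal_F ℂ N)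
    (hx : u ^ n = gal_Phi (RingHom.id ℂ) N x) :
    ∃ y : gal_F ℂ N, gal_Phi (RingHom.id ℂ) N y = u := by
  exact h79_rootalg_of N (h79_holAlg_holds N) n hn u hinv x hx

end Fermat.Agent.GAL
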