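import Mathlib
import Fermat.Agent.S24.h56_CountNorm

/-!
# GAL, row AN-DICT-ABS: the exact form of the S24 counting theorem

Every place of the fibre over `t = a` (resp. `t = ∞`) is the place of one of the given order
functions `w x`, with the exact ramification relation
`w x f * (orbit size of x) = E * ord_v f`.

This is a re-run of the proof of S24 `h56_card_fibre_setoid` keeping the dictionary.
-/

set_option autoImplicit false
set_option linter.unusedSectionVars false

namespace Fermat.Agent.GAL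

open Fermat.Agent.S24 AlgebraicCurve

section abs

open IntermediateField

variable {K F : Type*} [Field K] [Field F] [Algebra K F] [CharZero K]

/-- Exact form of S24 `h56_card_fibre_setoid`: every place `v` over `t = a` is the place of some
`w x`, and `w x f * (class size of x) = E * ord_v f`. -/
theorem h49_fibre_exact_setoid (t : F) [FiniteDimensional K⟮t⟯ F] (a : K)
    {X : Type*} [Fintype X] (r : Setoid X)
    (w : X → F → ℤ) (hw : ∀ x, h56_IsOrd K (w x))
    (E : ℤ) (hE : 0 < E) (hwE : ∀ x, w x (t - algebraMap K F a) = E)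
    (hr : ∀ x y, r x y → w x = w y)
    (hM : ∀ x (f : F), f ≠ 0 → E ∣ w x f * (Nat.card {y // r y x} : ℤ))
    (hN : ∀ h : F, h ≠ 0 → IsIntegral (Algebra.adjoin K {t}) h →
      ∃ (P : Polynomial K) (b : F), IsIntegral (Algebra.adjoin K {t}) b ∧
        Polynomial.aeval t P = h * b ∧ (P.eval a = 0 → ∃ x, 0 < w x h))
    (n : ℕ) (hC : Fintype.card X ≤ n)
    (hfin : {v : Place K F | 0 < v.ord (t - algebraMap K F a)}.Finite)
    (hsum : ∑ᶠ v ∈ {v : Place K F | 0 < v.ord (t - algebraMap K F a)},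
      v.ord (t - algebraMap K F a) = n)
    (v : Place K F) (hv : 0 < v.ord (t - algebraMap K F a)) :
    ∃ x, ∀ f : F, f ≠ 0 → w x f * (Nat.card {y // r y x} : ℤ) = E * v.ord f := by
  classical
  have ht0 : t - algebraMap K F a ≠ 0 := by
    intro h0
    rw [h0] at hv
    simp at hv
  have hnt : ∀ x, ∃ f : F, f ≠ 0 ∧ w x f ≠ 0 :=
    fun x => ⟨_, ht0, by rw [hwE x]; exact hE.ne'⟩
  set p : X → Place K F := fun x => h56_placeOfOrd (w x) (hw x) (hnt x) with hpdef
  have hpt : ∀ x, t ∈ (p x).toValuationSubring := by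
    intro x
    have h1 : t - algebraMap K F a ∈ (p x).toValuationSubring :=
      Or.inr (by rw [hwE x]; exact hE.le)
    have h2 := (p x).toValuationSubring.add_mem _ _ h1 ((p x).algebraMap_mem' a)
    rwa [sub_add_cancel] at h2
  have hclasspos : ∀ x, 0 < Nat.card {y // r y x} := by
    intro x
    have : Nonempty {y // r y x} := ⟨⟨x, r.refl x⟩⟩
    exact Nat.card_pos
  have hord : ∀ x, 0 < (p x).ord (t - algebraMap K F a) ∧
      (p x).ord (t - algebraMap K F a) ≤ (Nat.card {y // r y x} : ℤ) := by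
    intro x
    obtain ⟨m, hm, ⟨π, hπ0, hπ⟩, hmf⟩ := h56_placeOfOrd_ord (hw x) (hnt x)
    have h1 : E = m * (p x).ord (t - algebraMap K F a) := by
      rw [← hwE x]
      exact hmf _ ht0
    have hpos : 0 < (p x).ord (t - algebraMap K F a) := by
      by_contra hneg
      push Not at hneg
      have : m * (p x).ord (t - algebraMap K F a) ≤ 0 :=
        mul_nonpos_of_nonneg_of_nonpos hm.le hneg
      omega
    refine ⟨hpos, ?_⟩
    have h2 := hM x π hπ0
    rw [hπ, h1] at h2
    have h3 : (p x).ord (t - algebraMap K F a) ∣ (Nat.card {y // r y x} : ℤ) :=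
      (mul_dvd_mul_iff_left hm.ne').mp h2
    exact Int.le_of_dvd (by exact_mod_cast hclasspos x) h3
  have hpr : ∀ x y, r x y → p x = p y := by
    intro x y hxy
    apply Place.ext
    ext f
    show (f = 0 ∨ 0 ≤ w x f) ↔ (f = 0 ∨ 0 ≤ w y f)
    rw [hr x y hxy]
  let pbar : Quotient r → Place K F := Quotient.lift p hpr
  have hsurj : ∀ v : Place K F, 0 < v.ord (t - algebraMap K F a) → ∃ x, p x = v := by
    intro v hv
    refine h56_exists_eq_of_norm t a p hpt ?_ v (h56_mem_nonunits_of_ord_pos v hv)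
    intro h hh0 hh
    obtain ⟨P, b, hb, hPb, himp⟩ := hN h hh0 hh
    refine ⟨P, b, hb, hPb, fun hP0 => ?_⟩
    obtain ⟨x, hx⟩ := himp hP0
    refine ⟨x, ?_⟩
    rw [ValuationSubring.mem_nonunits_iff_or]
    refine Or.inr ?_
    rintro (hinv | hinv)
    · exact inv_ne_zero hh0 hinv
    · rw [(hw x).map_inv hh0] at hinv
      omega
  set S : Set (Place K F) := {v : Place K F | 0 < v.ord (t - algebraMap K F a)} with hSdef
  let _ : Fintype ↥S := hfin.fintype
  let _ : Fintype (Quotient r) := Fintype.ofFinite _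
  have hsum' : ∑ v : ↥S, (v : Place K F).ord (t - algebraMap K F a) = n := by
    rw [← hsum, finsum_mem_eq_finite_toFinset_sum _ hfin]
    exact Finset.sum_set_coe (f := fun v : Place K F => v.ord (t - algebraMap K F a)) S
  have hsurj' : ∀ v : ↥S, ∃ x, p x = v := fun v => hsurj v v.2
  choose xs hxs using hsurj'
  let φ : ↥S → Quotient r := fun v => Quotient.mk r (xs v)
  have hφ : ∀ v : ↥S, pbar (φ v) = v := fun v => hxs v
  have hφinj : Function.Injective φ :=
    fun v v' h => Subtype.ext (by rw [← hφ v, ← hφ v', h])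
  let size : Quotient r → ℕ := fun q =>
    (Finset.univ.filter (fun x : X => Quotient.mk r x = q)).card
  have hsize_sum : ∑ q : Quotient r, size q = Fintype.card X := by
    rw [← Finset.card_univ]
    exact (Finset.card_eq_sum_card_fiberwise (fun x _ => Finset.mem_univ _)).symm
  have hsize : ∀ x : X, size (Quotient.mk r x) = Nat.card {y // r y x} := by
    intro x
    show (Finset.univ.filter (fun y : X => Quotient.mk r y = Quotient.mk r x)).card = _
    rw [← Fintype.card_subtype, ← Nat.card_eq_fintype_card]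
    exact Nat.card_congr (Equiv.subtypeEquivRight fun y => Quotient.eq)
  have hle : ∀ v : ↥S, (v : Place K F).ord (t - algebraMap K F a) ≤ (size (φ v) : ℤ) := by
    intro v
    have h1 := (hord (xs v)).2
    rw [hxs v] at h1
    show _ ≤ ((size (Quotient.mk r (xs v)) : ℕ) : ℤ)
    rw [hsize]
    exact h1
  have h2 : ∑ v : ↥S, size (φ v) = ∑ q ∈ Finset.univ.image φ, size q :=
    (Finset.sum_image (fun v _ v' _ h => hφinj h)).symm
  have h4 : ∑ q ∈ Finset.univ.image φ, size q ≤ ∑ q : Quotient r, size q :=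
    Finset.sum_le_sum_of_subset (Finset.subset_univ _)
  -- the new part: equality `ord_v (t - a) = size (φ v)` for every place of the fibre
  have hsz_le : ((∑ v : ↥S, size (φ v) : ℕ) : ℤ) ≤ n := by
    rw [h2]
    have : ∑ q ∈ Finset.univ.image φ, size q ≤ n := by
      rw [hsize_sum] at h4
      exact h4.trans hC
    exact_mod_cast this
  have hnonneg : ∀ v ∈ (Finset.univ : Finset ↥S),
      0 ≤ (size (φ v) : ℤ) - (v : Place K F).ord (t - algebraMap K F a) :=
    fun v _ => sub_nonneg.mpr (hle v)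
  have hsumle : ∑ v : ↥S,
      ((size (φ v) : ℤ) - (v : Place K F).ord (t - algebraMap K F a)) ≤ 0 := by
    rw [Finset.sum_sub_distrib, hsum']
    push_cast at hsz_le
    linarith
  have hzero := (Finset.sum_eq_zero_iff_of_nonneg hnonneg).mp
    (le_antisymm hsumle (Finset.sum_nonneg hnonneg))
  have heq : ∀ v : ↥S, (v : Place K F).ord (t - algebraMap K F a) = (size (φ v) : ℤ) := by
    intro v
    have := hzero v (Finset.mem_univ v)
    linarith
  -- conclusion for the given place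
  refine ⟨xs ⟨v, hv⟩, fun f hf => ?_⟩
  obtain ⟨m, hm, -, hmf⟩ := h56_placeOfOrd_ord (hw (xs ⟨v, hv⟩)) (hnt (xs ⟨v, hv⟩))
  have hpx : h56_placeOfOrd (w (xs ⟨v, hv⟩)) (hw (xs ⟨v, hv⟩)) (hnt (xs ⟨v, hv⟩)) = v :=
    hxs ⟨v, hv⟩
  rw [hpx] at hmf
  have h1' : E = m * v.ord (t - algebraMap K F a) := by
    rw [← hwE (xs ⟨v, hv⟩)]
    exact hmf _ ht0
  have h2' : v.ord (t - algebraMap K F a) = (Nat.card {y // r y (xs ⟨v, hv⟩)} : ℤ) := by
    have h := heq ⟨v, hv⟩
    have h' : size (φ ⟨v, hv⟩) = Nat.card {y // r y (xs ⟨v, hv⟩)} := hsize (xs ⟨v, hv⟩)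
    rw [h'] at h
    exact h
  rw [hmf f hf, h1', h2']
  ring

variable [IsAlgClosed K]

/-- Exact fibre dictionary over `t = a` from the field norm identity (setoid version). -/
theorem h49_fibre_exact_of_norm_setoid (t : F) (ht : Transcendental K t)
    [FiniteDimensional K⟮t⟯ F] (a : K) {X : Type*} [Fintype X] (r : Setoid X)
    (w : X → F → ℤ) (hw : ∀ x, h56_IsOrd K (w x))
    (E : ℤ) (hE : 0 < E) (hwE : ∀ x, w x (t - algebraMap K F a) = E)
    (hr : ∀ x y, r x y → w x = w y)
    (hM : ∀ x (f : F), f ≠ 0 → E ∣ w x f * (Nat.card {y // r y x} : ℤ))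
    (hnorm : ∀ h : F, h ≠ 0 → ∀ x₀,
      w x₀ (algebraMap K⟮t⟯ F (Algebra.norm K⟮t⟯ h)) = ∑ x, w x h)
    (hcard : Fintype.card X = Module.finrank K⟮t⟯ F)
    (v : Place K F) (hv : 0 < v.ord (t - algebraMap K F a)) :
    ∃ x, ∀ f : F, f ≠ 0 → w x f * (Nat.card {y // r y x} : ℤ) = E * v.ord f := by
  have hpos : 0 < Module.finrank K⟮t⟯ F := Module.finrank_pos
  have hne : Nonempty X := Fintype.card_pos_iff.mp (by omega)
  refine h49_fibre_exact_setoid t a r w hw E hE hwE hr hM
    (h56_norm_property t a w hw E hE hwE hnorm) (Module.finrank K⟮t⟯ F) hcard.le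
    (h24_fibre_finite t ht a) ?_ v hv
  rw [finsum_mem_eq_finite_toFinset_sum _ (h24_fibre_finite t ht a)]
  exact h24_fibre_sum t ht a _ (fun v => by simp)

/-- exact form of S24 `h56_card_fibre_of_norm`: every place over `t = a` is the place of some
`w x`, with `w x f * (orbit size of x) = E * ord_v f`. -/
theorem gal_fibre_exact (t : F) (ht : Transcendental K t)
    [FiniteDimensional K⟮t⟯ F] (a : K) {G X : Type*} [Group G] [MulAction G X] [Fintype X]
    (g : G) (w : X → F → ℤ) (hw : ∀ x, h56_IsOrd K (w x))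
    (E : ℤ) (hE : 0 < E) (hwE : ∀ x, w x (t - algebraMap K F a) = E)
    (hG : ∀ x, w (g • x) = w x)
    (hM : ∀ x (f : F), f ≠ 0 →
      E ∣ w x f * (Function.minimalPeriod (fun y : X => g • y) x : ℤ))
    (hnorm : ∀ h : F, h ≠ 0 → ∀ x₀,
      w x₀ (algebraMap K⟮t⟯ F (Algebra.norm K⟮t⟯ h)) = ∑ x, w x h)
    (hcard : Fintype.card X = Module.finrank K⟮t⟯ F)
    (v : Place K F) (hv : 0 < v.ord (t - algebraMap K F a)) :
    ∃ x, ∀ f : F, f ≠ 0 →
      w x f * (Function.minimalPeriod (fun y : X => g • y) x : ℤ) = E * v.ord f := by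
  obtain ⟨x, hx⟩ := h49_fibre_exact_of_norm_setoid t ht a
    (MulAction.orbitRel (Subgroup.zpowers g) X) w hw E hE hwE (h56_eq_of_orbitRel g w hG)
    (fun x f hf => by rw [h56_card_orbitRel_class]; exact hM x f hf) hnorm hcard v hv
  refine ⟨x, fun f hf => ?_⟩
  have h := hx f hf
  rwa [h56_card_orbitRel_class] at h

/-- Exact fibre dictionary over `t = ∞` from the field norm identity (setoid version). -/
theorem h49_fibre_exact_infty_of_norm_setoid (t : F) (ht : Transcendental K t)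
    [hfd : FiniteDimensional K⟮t⟯ F] {X : Type*} [Fintype X] (r : Setoid X)
    (w : X → F → ℤ) (hw : ∀ x, h56_IsOrd K (w x))
    (E : ℤ) (hE : 0 < E) (hwE : ∀ x, w x t⁻¹ = E)
    (hr : ∀ x y, r x y → w x = w y)
    (hM : ∀ x (f : F), f ≠ 0 → E ∣ w x f * (Nat.card {y // r y x} : ℤ))
    (hnorm : ∀ h : F, h ≠ 0 → ∀ x₀,
      w x₀ (algebraMap K⟮t⟯ F (Algebra.norm K⟮t⟯ h)) = ∑ x, w x h)
    (hcard : Fintype.card X = Module.finrank K⟮t⟯ F)
    (v : Place K F) (hv : v.ord t < 0) :
    ∃ x, ∀ f : F, f ≠ 0 → w x f * (Nat.card {y // r y x} : ℤ) = E * v.ord f := by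
  have hpos : 0 < Module.finrank K⟮t⟯ F := Module.finrank_pos
  have hne : Nonempty X := Fintype.card_pos_iff.mp (by omega)
  have hK : K⟮t⁻¹⟯ = K⟮t⟯ := h56_adjoin_inv_eq t
  have hfd' : FiniteDimensional K⟮t⁻¹⟯ F := hK.symm ▸ hfd
  have hnorm' : ∀ h : F, h ≠ 0 → ∀ x₀,
      w x₀ (algebraMap K⟮t⁻¹⟯ F (Algebra.norm K⟮t⁻¹⟯ h)) = ∑ x, w x h := by
    intro h hh0 x₀
    rw [h56_norm_congr K⟮t⁻¹⟯ K⟮t⟯ hK h]
    exact hnorm h hh0 x₀
  have hset : {v : Place K F | 0 < v.ord (t⁻¹ - algebraMap K F 0)} =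
      {v : Place K F | v.ord t < 0} := by
    ext v
    simp only [map_zero, sub_zero, Place.ord_inv, Set.mem_ofPred_eq, neg_pos]
  have hfun : ∀ v : Place K F, v.ord (t⁻¹ - algebraMap K F 0) = -v.ord t := by
    intro v
    rw [map_zero, sub_zero, Place.ord_inv]
  refine h49_fibre_exact_setoid (K := K) t⁻¹ 0 r w hw E hE
    (by intro x; rw [map_zero, sub_zero]; exact hwE x) hr hM
    (fun h hh0 hh => h56_norm_property t⁻¹ 0 w hw E hE
      (by intro x; rw [map_zero, sub_zero]; exact hwE x) hnorm' h hh0 hh)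
    (Module.finrank K⟮t⟯ F) hcard.le
    (by rw [hset]; exact h24_fibre_infty_finite t ht)
    ?_ v (by rw [hfun]; omega)
  rw [hset]
  simp only [hfun]
  rw [finsum_mem_eq_finite_toFinset_sum _ (h24_fibre_infty_finite t ht)]
  exact h24_fibre_infty_sum t ht _ (fun v => by simp)

/-- exact form of S24 `h56_card_fibre_infty_of_norm`. -/
theorem gal_fibre_exact_infty (t : F) (ht : Transcendental K t)
    [FiniteDimensional K⟮t⟯ F] {G X : Type*} [Group G] [MulAction G X] [Fintype X]
    (g : G) (w : X → F → ℤ) (hw : ∀ x, h56_IsOrd K (w x))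
    (E : ℤ) (hE : 0 < E) (hwE : ∀ x, w x t⁻¹ = E)
    (hG : ∀ x, w (g • x) = w x)
    (hM : ∀ x (f : F), f ≠ 0 →
      E ∣ w x f * (Function.minimalPeriod (fun y : X => g • y) x : ℤ))
    (hnorm : ∀ h : F, h ≠ 0 → ∀ x₀,
      w x₀ (algebraMap K⟮t⟯ F (Algebra.norm K⟮t⟯ h)) = ∑ x, w x h)
    (hcard : Fintype.card X = Module.finrank K⟮t⟯ F)
    (v : Place K F) (hv : v.ord t < 0) :
    ∃ x, ∀ f : F, f ≠ 0 →
      w x f * (Function.minimalPeriod (fun y : X => g • y) x : ℤ) = E * v.ord f := by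
  obtain ⟨x, hx⟩ := h49_fibre_exact_infty_of_norm_setoid t ht
    (MulAction.orbitRel (Subgroup.zpowers g) X) w hw E hE hwE (h56_eq_of_orbitRel g w hG)
    (fun x f hf => by rw [h56_card_orbitRel_class]; exact hM x f hf) hnorm hcard v hv
  refine ⟨x, fun f hf => ?_⟩
  have h := hx f hf
  rwa [h56_card_orbitRel_class] at h

end abs

end Fermat.Agent.GAL
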