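import Mathlib
import Fermat.Agent.GAL.h77_AnDefs
import Fermat.Agent.S24.h85_Galois
import Fermat.Agent.S24.h14_ProdInv

/-!
# GAL (FMF-HOL): analytic ⇒ algebraic, holomorphic case

A holomorphic `Γ₀(N)`-invariant function on the upper half plane all of whose
`SL₂(ℤ)`-translates have `q_N`-expansions with finite principal part lies in the image
`gal_Phi (F_ℂ(N))` of the function field of `X₀(N)` over `ℂ`.

Route: instantiate the abstract Galois framework `h85_Data` of S24 with `M = h25_Mer`,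
`A =` good `Γ(N)`-invariant holomorphic functions, `F' =` the field of `Γ₀(N)`-invariant
fractions of elements of `A`; then `[F' : ℂ(j)] ≤ [SL₂(ℤ) : Γ₀(N)]`, while `j_N = j(Nτ)` has
index-many distinct conjugates, so `F' = ℂ(j, j_N)`.
-/

set_option autoImplicit false

namespace Fermat.Agent.GAL

open UpperHalfPlane ModularCurve CongruenceSubgroup Polynomial IntermediateField
open Fermat.Agent.S24
open scoped MatrixGroups Manifold

/-! ## Constants -/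

/-- Constants as holomorphic functions. -/
noncomputable def h55_constHol : ℂ →+* h25_Hol where
  toFun := h25_const
  map_one' := rfl
  map_mul' _ _ := rfl
  map_zero' := rfl
  map_add' _ _ := rfl

theorem h55_constHol_apply (c : ℂ) (τ : ℍ) : ((h55_constHol c : h25_Hol) : ℍ → ℂ) τ = c := rfl

/-- Constants as meromorphic functions. -/
noncomputable def h55_constMer : ℂ →+* h25_Mer := (algebraMap h25_Hol h25_Mer).comp h55_constHol

/-- The `ℂ`-algebra structure on `h25_Mer` (constants); only a local instance. -/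
@[reducible] noncomputable def h55_algMer : Algebra ℂ h25_Mer := h55_constMer.toAlgebra

attribute [local instance] h55_algMer

theorem h55_algebraMap_mer (c : ℂ) :
    algebraMap ℂ h25_Mer c = algebraMap h25_Hol h25_Mer (h55_constHol c) := rfl

/-- Evaluation at a point as a ring hom. -/
noncomputable def h55_evalAt (τ : ℍ) : h25_Hol →+* ℂ where
  toFun a := (a : ℍ → ℂ) τ
  map_one' := rfl
  map_mul' _ _ := rfl
  map_zero' := rfl
  map_add' _ _ := rfl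

/-- The `j`-function as a holomorphic function. -/
noncomputable def h55_jHol : h25_Hol :=
  ⟨h77_j, (h39_E4_mdiff.pow 3).div h39_disc_mdiff ModularForm.discriminant_ne_zero⟩

theorem h55_jHol_apply (τ : ℍ) : ((h55_jHol : h25_Hol) : ℍ → ℂ) τ = h77_j τ := rfl

/-- Polynomials in `j` as holomorphic functions. -/
theorem h55_eval₂_jHol (P : ℂ[X]) (τ : ℍ) :
    ((P.eval₂ h55_constHol h55_jHol : h25_Hol) : ℍ → ℂ) τ = P.eval (h77_j τ) := by
  have h := Polynomial.hom_eval₂ P h55_constHol (h55_evalAt τ) h55_jHol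
  have h1 : (h55_evalAt τ).comp h55_constHol = RingHom.id ℂ := by
    ext c
    rfl
  rw [h1] at h
  exact h

theorem h55_smul_eval₂_jHol (γ : SL(2, ℤ)) (P : ℂ[X]) :
    γ • (P.eval₂ h55_constHol h55_jHol : h25_Hol) = P.eval₂ h55_constHol h55_jHol := by
  apply Subtype.ext
  funext τ
  rw [h25_smul_Hol_apply, h55_eval₂_jHol, h55_eval₂_jHol, h54_j_smul]

/-- `aeval` at `j` in `h25_Mer`. -/
theorem h55_aeval_J (P : ℂ[X]) :
    Polynomial.aeval (algebraMap h25_Hol h25_Mer h55_jHol) P =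
      algebraMap h25_Hol h25_Mer (P.eval₂ h55_constHol h55_jHol) := by
  rw [Polynomial.aeval_def, Polynomial.hom_eval₂]
  rfl

/-! ## The ring of good functions -/

/-- Holomorphic functions invariant under `Γ(N)` all of whose `SL₂(ℤ)`-translates have
`q_N`-expansions. -/
def h55_goodHol (N : ℕ) : Subring h25_Hol where
  carrier := {a | (∀ γ ∈ Gamma N, ∀ τ : ℍ, (a : ℍ → ℂ) (γ • τ) = (a : ℍ → ℂ) τ) ∧
    gal_QExpAll N (a : ℍ → ℂ)}
  mul_mem' := by
    rintro a b ⟨ha1, ha2⟩ ⟨hb1, hb2⟩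
    refine ⟨fun γ hγ τ => ?_, fun g => ?_⟩
    · show (a : ℍ → ℂ) _ * (b : ℍ → ℂ) _ = (a : ℍ → ℂ) τ * (b : ℍ → ℂ) τ
      rw [ha1 γ hγ, hb1 γ hγ]
    · obtain ⟨c, hc⟩ := ha2 g
      obtain ⟨c', hc'⟩ := hb2 g
      exact ⟨c * c', hc.mul hc'⟩
  one_mem' := ⟨fun _ _ _ => rfl, fun _ => ⟨1, h77_isQExp_one _⟩⟩
  add_mem' := by
    rintro a b ⟨ha1, ha2⟩ ⟨hb1, hb2⟩
    refine ⟨fun γ hγ τ => ?_, fun g => ?_⟩
    · show (a : ℍ → ℂ) _ + (b : ℍ → ℂ) _ = (a : ℍ → ℂ) τ + (b : ℍ → ℂ) τ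
      rw [ha1 γ hγ, hb1 γ hγ]
    · obtain ⟨c, hc⟩ := ha2 g
      obtain ⟨c', hc'⟩ := hb2 g
      exact ⟨c + c', hc.add hc'⟩
  zero_mem' := ⟨fun _ _ _ => rfl, fun _ => ⟨0, h77_isQExp_zero _⟩⟩
  neg_mem' := by
    rintro a ⟨ha1, ha2⟩
    refine ⟨fun γ hγ τ => ?_, fun g => ?_⟩
    · show -(a : ℍ → ℂ) _ = -(a : ℍ → ℂ) τ
      rw [ha1 γ hγ]
    · obtain ⟨c, hc⟩ := ha2 g
      exact ⟨-c, hc.neg⟩

theorem h55_mem_goodHol {N : ℕ} {a : h25_Hol} : a ∈ h55_goodHol N ↔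
    (∀ γ ∈ Gamma N, ∀ τ : ℍ, (a : ℍ → ℂ) (γ • τ) = (a : ℍ → ℂ) τ) ∧
      gal_QExpAll N (a : ℍ → ℂ) := Iff.rfl

theorem h55_constHol_mem (N : ℕ) (c : ℂ) : h55_constHol c ∈ h55_goodHol N :=
  ⟨fun _ _ _ => rfl, fun _ => ⟨HahnSeries.C c, h77_isQExp_C _ c⟩⟩

/-- The good functions are stable under `SL₂(ℤ)`. -/
theorem h55_goodHol_smul {N : ℕ} (γ : SL(2, ℤ)) {a : h25_Hol} (ha : a ∈ h55_goodHol N) :
    γ • a ∈ h55_goodHol N := by
  obtain ⟨ha1, ha2⟩ := ha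
  refine ⟨fun δ hδ τ => ?_, fun g => ?_⟩
  · rw [h25_smul_Hol_apply, h25_smul_Hol_apply]
    have hc : γ⁻¹ * δ * γ ∈ Gamma N := by
      have := (Gamma_normal N).conj_mem δ hδ γ⁻¹
      rwa [inv_inv] at this
    have := ha1 _ hc (γ⁻¹ • τ)
    rw [← this, ← mul_smul, ← mul_smul]
    group
  · obtain ⟨c, hc⟩ := ha2 (γ⁻¹ * g)
    refine ⟨c, hc.congr fun τ => ?_⟩
    rw [h25_smul_Hol_apply, mul_smul]

/-- Elements of `Γ(N)` act trivially on good functions. -/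
theorem h55_goodHol_smul_of_mem {N : ℕ} {δ : SL(2, ℤ)} (hδ : δ ∈ Gamma N) {a : h25_Hol}
    (ha : a ∈ h55_goodHol N) : δ • a = a := by
  apply Subtype.ext
  funext τ
  rw [h25_smul_Hol_apply]
  exact ha.1 δ⁻¹ (inv_mem hδ) τ

/-! ## The subring of `h25_Mer`, finiteness of orbits, invariants -/

/-- The good functions inside `h25_Mer`. -/
noncomputable def h55_goodMer (N : ℕ) : Subring h25_Mer :=
  (h55_goodHol N).map (algebraMap h25_Hol h25_Mer)

theorem h55_mem_goodMer {N : ℕ} {y : h25_Mer} :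
    y ∈ h55_goodMer N ↔ ∃ a ∈ h55_goodHol N, algebraMap h25_Hol h25_Mer a = y := by
  rw [h55_goodMer, Subring.mem_map]

theorem h55_goodMer_smul {N : ℕ} (γ : SL(2, ℤ)) {y : h25_Mer} (hy : y ∈ h55_goodMer N) :
    γ • y ∈ h55_goodMer N := by
  rw [h55_mem_goodMer] at hy ⊢
  obtain ⟨a, ha, rfl⟩ := hy
  exact ⟨γ • a, h55_goodHol_smul γ ha, (h25_smul_algebraMap γ a).symm⟩

theorem h55_goodMer_smul_of_mem {N : ℕ} {δ : SL(2, ℤ)} (hδ : δ ∈ Gamma N) {y : h25_Mer}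
    (hy : y ∈ h55_goodMer N) : δ • y = y := by
  rw [h55_mem_goodMer] at hy
  obtain ⟨a, ha, rfl⟩ := hy
  rw [h25_smul_algebraMap, h55_goodHol_smul_of_mem hδ ha]

/-- Orbits of good functions are finite. -/
theorem h55_goodMer_orbit_finite {N : ℕ} [NeZero N] {y : h25_Mer} (hy : y ∈ h55_goodMer N) :
    (Set.range fun γ : SL(2, ℤ) => γ • y).Finite := by
  have hfin : (Set.range fun x : SL(2, ℤ) ⧸ Gamma N => x.out • y).Finite := Set.finite_range _
  refine hfin.subset ?_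
  rintro _ ⟨γ, rfl⟩
  obtain ⟨h, hh⟩ := QuotientGroup.mk_out_eq_mul (Gamma N) γ
  refine ⟨(γ : SL(2, ℤ) ⧸ Gamma N), ?_⟩
  show (QuotientGroup.mk γ : SL(2, ℤ) ⧸ Gamma N).out • y = γ • y
  rw [hh, mul_smul, h55_goodMer_smul_of_mem h.2 hy]

theorem h55_coeffMap_id (c : LaurentSeries ℂ) : ModularCurve.coeffMap (RingHom.id ℂ) c = c := by
  ext k
  rw [ModularCurve.coeffMap_coeff, RingHom.id_apply]

/-- A good function invariant under `SL₂(ℤ)` is a polynomial in `j`. -/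
theorem h55_goodHol_invariant {N : ℕ} [NeZero N] {a : h25_Hol} (ha : a ∈ h55_goodHol N)
    (hinv : ∀ γ : SL(2, ℤ), γ • a = a) :
    ∃ P : ℂ[X], a = P.eval₂ h55_constHol h55_jHol := by
  have hinv' : ∀ (γ : SL(2, ℤ)) (τ : ℍ), (a : ℍ → ℂ) (γ • τ) = (a : ℍ → ℂ) τ := by
    intro γ τ
    have h1 := congrArg (fun b : h25_Hol => (b : ℍ → ℂ) τ) (hinv γ⁻¹)
    simp only [h25_smul_Hol_apply, inv_inv] at h1
    exact h1
  obtain ⟨C, hC⟩ := ha.2 1
  have hC' : h77_IsQExp (N : ℝ) (ModularCurve.coeffMap (RingHom.id ℂ) C) (a : ℍ → ℂ) := by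
    rw [h55_coeffMap_id]
    exact hC.congr fun τ => by rw [one_smul]
  have hper : ∀ τ : ℍ, (a : ℍ → ℂ) ((1 : ℝ) +ᵥ τ) = (a : ℍ → ℂ) τ := by
    intro τ
    rw [← UpperHalfPlane.modular_T_smul]
    exact hinv' _ τ
  obtain ⟨c, -, hc⟩ := h14_exists_qExpand_of_periodic (RingHom.id ℂ) N C (a : ℍ → ℂ) hC' hper
  obtain ⟨P, -, hP⟩ := h59_isQExp_invariant_K (RingHom.id ℂ) c (a : ℍ → ℂ) hc hinv'
  refine ⟨P, ?_⟩
  apply Subtype.ext
  funext τ
  rw [hP τ, h55_eval₂_jHol, Polynomial.map_id]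

/-! ## The field of `Γ₀(N)`-invariant fractions of good functions -/

/-- The field `F'` of `Γ₀(N)`-invariant fractions of good functions. -/
noncomputable def h55_Fp (N : ℕ) : IntermediateField ℂ h25_Mer where
  carrier := {y | y ∈ h85_fracSubring (h55_goodMer N) ∧ ∀ γ ∈ Gamma0 N, γ • y = y}
  mul_mem' := by
    rintro y y' ⟨h1, h2⟩ ⟨h1', h2'⟩
    exact ⟨mul_mem h1 h1', fun γ hγ => by rw [smul_mul', h2 γ hγ, h2' γ hγ]⟩
  one_mem' := ⟨one_mem _, fun γ _ => smul_one γ⟩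
  add_mem' := by
    rintro y y' ⟨h1, h2⟩ ⟨h1', h2'⟩
    exact ⟨add_mem h1 h1', fun γ hγ => by rw [smul_add, h2 γ hγ, h2' γ hγ]⟩
  zero_mem' := ⟨zero_mem _, fun γ _ => smul_zero γ⟩
  algebraMap_mem' := by
    intro c
    have hc : algebraMap ℂ h25_Mer c ∈ h55_goodMer N :=
      h55_mem_goodMer.mpr ⟨h55_constHol c, h55_constHol_mem N c, rfl⟩
    refine ⟨⟨_, hc, 1, one_mem _, one_ne_zero, mul_one _⟩, fun γ _ => ?_⟩
    rw [h55_algebraMap_mer, h25_smul_algebraMap]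
    rfl
  inv_mem' := by
    rintro y ⟨⟨a, ha, b, hb, hb0, hab⟩, h2⟩
    refine ⟨?_, fun γ hγ => by rw [smul_inv'', h2 γ hγ]⟩
    by_cases hy : y = 0
    · rw [hy, inv_zero]
      exact zero_mem _
    · have ha0 : a ≠ 0 := by
        rw [← hab]
        exact mul_ne_zero hy hb0
      refine ⟨b, hb, a, ha, ha0, ?_⟩
      rw [← hab, ← mul_assoc, inv_mul_cancel₀ hy, one_mul]

theorem h55_mem_Fp {N : ℕ} {y : h25_Mer} : y ∈ h55_Fp N ↔
    y ∈ h85_fracSubring (h55_goodMer N) ∧ ∀ γ ∈ Gamma0 N, γ • y = y := Iff.rfl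

/-- The inclusion `F' → h25_Mer`. -/
noncomputable def h55_iota (N : ℕ) : ↥(h55_Fp N) →+* h25_Mer := (h55_Fp N).val.toRingHom

theorem h55_iota_apply {N : ℕ} (y : ↥(h55_Fp N)) : h55_iota N y = (y : h25_Mer) := rfl

theorem h55_jHol_mem (N : ℕ) [NeZero N] : h55_jHol ∈ h55_goodHol N := by
  refine ⟨fun γ _ τ => h54_j_smul γ τ, fun g => ?_⟩
  have h := h77_isQExp_jq.qExpand_width N
  rw [mul_one] at h
  exact ⟨_, h.congr fun τ => (h54_j_smul g τ).symm⟩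

theorem h55_smul_jHol (γ : SL(2, ℤ)) : γ • h55_jHol = h55_jHol := by
  apply Subtype.ext
  funext τ
  rw [h25_smul_Hol_apply]
  exact h54_j_smul _ τ

theorem h55_J_mem (N : ℕ) [NeZero N] : algebraMap h25_Hol h25_Mer h55_jHol ∈ h55_Fp N := by
  rw [h55_mem_Fp]
  have hJ : algebraMap h25_Hol h25_Mer h55_jHol ∈ h55_goodMer N :=
    h55_mem_goodMer.mpr ⟨h55_jHol, h55_jHol_mem N, rfl⟩
  refine ⟨h85_mem_fracSubring.mpr ⟨_, hJ, 1, one_mem _, one_ne_zero, mul_one _⟩, fun γ _ => ?_⟩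
  rw [h25_smul_algebraMap, h55_smul_jHol]

/-- `j` as an element of `F'`. -/
noncomputable def h55_tJ (N : ℕ) [NeZero N] : ↥(h55_Fp N) :=
  ⟨algebraMap h25_Hol h25_Mer h55_jHol, h55_J_mem N⟩

theorem h55_iota_aeval (N : ℕ) [NeZero N] (P : ℂ[X]) :
    h55_iota N (Polynomial.aeval (h55_tJ N) P) =
      algebraMap h25_Hol h25_Mer (P.eval₂ h55_constHol h55_jHol) := by
  have h1 : h55_iota N (Polynomial.aeval (h55_tJ N) P) =
      Polynomial.aeval ((h55_Fp N).val (h55_tJ N)) P :=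
    (Polynomial.aeval_algHom_apply (h55_Fp N).val (h55_tJ N) P).symm
  rw [h1]
  exact h55_aeval_J P

/-- The `h85_Data` instance. -/
theorem h55_data (N : ℕ) [NeZero N] :
    h85_Data ℂ SL(2, ℤ) (h55_tJ N) (h55_iota N) (h55_goodMer N) where
  stable := fun γ _ ha => h55_goodMer_smul γ ha
  orbit := fun _ ha => h55_goodMer_orbit_finite ha
  inv := by
    intro y hy hinv
    obtain ⟨a, ha, rfl⟩ := h55_mem_goodMer.mp hy
    have hinv' : ∀ γ : SL(2, ℤ), γ • a = a := by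
      intro γ
      have := hinv γ
      rw [h25_smul_algebraMap] at this
      exact IsFractionRing.injective h25_Hol h25_Mer this
    obtain ⟨P, hP⟩ := h55_goodHol_invariant ha hinv'
    exact ⟨P, by rw [h55_iota_aeval, ← hP]⟩
  fix := by
    intro γ P
    rw [h55_iota_aeval, h25_smul_algebraMap, h55_smul_eval₂_jHol]
  frac := fun f => f.2.1

/-! ## The image of the function field lies in `F'` -/

theorem h55_evHol_mem (N : ℕ) [NeZero N] (a : h78_AN ℂ N) :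
    gal_evHol (RingHom.id ℂ) N a ∈ h55_goodHol N := by
  refine ⟨fun γ hγ τ => ?_, fun g => ?_⟩
  · have hγ0 : γ ∈ Gamma0 N := by
      rw [Gamma_mem] at hγ
      rw [Gamma0_mem]
      exact hγ.2.2.1
    exact h54_ev_invariant (RingHom.id ℂ) N γ hγ0 a τ
  · obtain ⟨c, hc⟩ := h14_ev_conj_exp (RingHom.id ℂ) N a g
    rw [h55_coeffMap_id] at hc
    exact ⟨c, hc⟩

theorem h55_Phi_mem (N : ℕ) [NeZero N] (x : gal_F ℂ N) :
    gal_Phi (RingHom.id ℂ) N x ∈ h55_Fp N := by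
  rw [h55_mem_Fp]
  refine ⟨?_, fun γ hγ => gal_Phi_smul (RingHom.id ℂ) N hγ x⟩
  obtain ⟨a, b, hb, rfl⟩ := IsFractionRing.div_surjective (A := h78_AN ℂ N) x
  have hb0 : algebraMap (h78_AN ℂ N) (gal_F ℂ N) b ≠ 0 := by
    intro h
    have := (IsFractionRing.injective (h78_AN ℂ N) (gal_F ℂ N)) (h.trans (map_zero _).symm)
    exact nonZeroDivisors.ne_zero hb this
  have hΦb : gal_Phi (RingHom.id ℂ) N (algebraMap (h78_AN ℂ N) (gal_F ℂ N) b) ≠ 0 :=
    (_root_.map_ne_zero _).mpr hb0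
  rw [h85_mem_fracSubring]
  refine ⟨gal_Phi (RingHom.id ℂ) N (algebraMap (h78_AN ℂ N) (gal_F ℂ N) a), ?_,
    gal_Phi (RingHom.id ℂ) N (algebraMap (h78_AN ℂ N) (gal_F ℂ N) b), ?_, hΦb, ?_⟩
  · rw [gal_Phi_algebraMap]
    exact h55_mem_goodMer.mpr ⟨_, h55_evHol_mem N a, rfl⟩
  · rw [gal_Phi_algebraMap]
    exact h55_mem_goodMer.mpr ⟨_, h55_evHol_mem N b, rfl⟩
  · rw [map_div₀, div_mul_cancel₀ _ hΦb]

/-- The generator `j(q^N)` of `A_N`. -/
noncomputable def h55_aN (N : ℕ) [NeZero N] : h78_AN ℂ N :=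
  ⟨coeffEmb ℂ (qExpand ℚ N jq), h78_gens_subset_AN ℂ N (h78_mem_gens ℂ dvd_rfl)⟩

/-- The function `j(Nτ)` as a holomorphic function. -/
noncomputable def h55_thetaHol (N : ℕ) [NeZero N] : h25_Hol :=
  gal_evHol (RingHom.id ℂ) N (h55_aN N)

theorem h55_thetaHol_apply (N : ℕ) [NeZero N] (τ : ℍ) :
    ((h55_thetaHol N : h25_Hol) : ℍ → ℂ) τ = h77_j (ofComplex ((N : ℂ) * τ)) := by
  have h := h54_ev_gen (RingHom.id ℂ) N N (h78_gens_subset_AN ℂ N (h78_mem_gens ℂ dvd_rfl))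
  exact congrFun h τ

/-- The conjugates of `j(Nτ)` separate the cosets of `Γ₀(N)`. -/
theorem h55_theta_sep (N : ℕ) [NeZero N] (g g' : SL(2, ℤ))
    (h : g • h55_thetaHol N = g' • h55_thetaHol N) :
    (g : SL(2, ℤ) ⧸ Gamma0 N) = g' := by
  have hN : 0 < N := Nat.pos_of_ne_zero (NeZero.ne N)
  have h1 : ∀ τ : ℍ, h77_j (ofComplex ((N : ℂ) * ((g⁻¹ • τ : ℍ) : ℂ)))
      = h77_j (ofComplex ((N : ℂ) * ((g'⁻¹ • τ : ℍ) : ℂ))) := by
    intro τ
    have h2 := congrArg (fun b : h25_Hol => (b : ℍ → ℂ) τ) h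
    simp only [h25_smul_Hol_apply, h55_thetaHol_apply] at h2
    exact h2
  have h3 := (h64_conj_eq_conj_iff_mem h54_j_smul h54_j_leadOne hN g⁻¹ g'⁻¹).mp h1
  rw [inv_inv] at h3
  exact QuotientGroup.eq.mpr h3

/-- `j(Nτ)` as an element of `F'`. -/
noncomputable def h55_theta (N : ℕ) [NeZero N] : ↥(h55_Fp N) :=
  ⟨gal_Phi (RingHom.id ℂ) N (algebraMap (h78_AN ℂ N) (gal_F ℂ N) (h55_aN N)), h55_Phi_mem N _⟩

theorem h55_iota_theta (N : ℕ) [NeZero N] :
    h55_iota N (h55_theta N) = algebraMap h25_Hol h25_Mer (h55_thetaHol N) :=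
  gal_Phi_algebraMap (RingHom.id ℂ) N (h55_aN N)

theorem h55_Fp_fix (N : ℕ) :
    ∀ γ ∈ Gamma0 N, ∀ f : ↥(h55_Fp N), γ • h55_iota N f = h55_iota N f :=
  fun γ hγ f => f.2.2 γ hγ

/-! ## Degree count -/

/-- The minimal polynomial of `j(Nτ)` over `ℂ(j)` has degree at least the index. -/
theorem h55_card_le_natDegree (N : ℕ) [NeZero N] [Fintype (SL(2, ℤ) ⧸ Gamma0 N)] :
    Fintype.card (SL(2, ℤ) ⧸ Gamma0 N) ≤
      (minpoly ℂ⟮h55_tJ N⟯ (h55_theta N)).natDegree := by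
  classical
  have hD := h55_data N
  have hint : IsIntegral ℂ⟮h55_tJ N⟯ (h55_theta N) :=
    (h85_isIntegral (Gamma0 N) hD (h55_Fp_fix N) (h55_theta N)).1
  set p := minpoly ℂ⟮h55_tJ N⟯ (h55_theta N) with hp
  set g₀ : ℂ⟮h55_tJ N⟯ →+* h25_Mer :=
    (h55_iota N).comp (algebraMap ℂ⟮h55_tJ N⟯ ↥(h55_Fp N)) with hg₀
  have h0 : p.eval₂ g₀ (h55_iota N (h55_theta N)) = 0 := by
    have h1 := Polynomial.hom_eval₂ p (algebraMap ℂ⟮h55_tJ N⟯ ↥(h55_Fp N)) (h55_iota N)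
      (h55_theta N)
    rw [← h1, ← Polynomial.aeval_def, hp, minpoly.aeval, map_zero]
  have hroot : ∀ x : SL(2, ℤ) ⧸ Gamma0 N,
      (p.map g₀).IsRoot (x.out • h55_iota N (h55_theta N)) := by
    intro x
    rw [Polynomial.IsRoot, Polynomial.eval_map]
    have h1 := Polynomial.hom_eval₂ p g₀ (MulSemiringAction.toRingHom SL(2, ℤ) h25_Mer x.out)
      (h55_iota N (h55_theta N))
    have h2 : (MulSemiringAction.toRingHom SL(2, ℤ) h25_Mer x.out).comp g₀ = g₀ := by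
      ext e
      exact h85_fix_adjoin hD x.out e
    rw [h2, h0, map_zero] at h1
    exact h1.symm
  have hpM0 : p.map g₀ ≠ 0 := (Polynomial.map_ne_zero_iff g₀.injective).mpr (minpoly.ne_zero hint)
  have hinj : Function.Injective
      (fun x : SL(2, ℤ) ⧸ Gamma0 N => x.out • h55_iota N (h55_theta N)) := by
    intro x y hxy
    simp only [h55_iota_theta, h25_smul_algebraMap] at hxy
    have h1 := IsFractionRing.injective h25_Hol h25_Mer hxy
    have h2 := h55_theta_sep N _ _ h1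
    rwa [QuotientGroup.out_eq', QuotientGroup.out_eq'] at h2
  have hsub : (Finset.univ.image
      (fun x : SL(2, ℤ) ⧸ Gamma0 N => x.out • h55_iota N (h55_theta N))).val ⊆
      (p.map g₀).roots := by
    intro z hz
    rw [Finset.mem_val, Finset.mem_image] at hz
    obtain ⟨x, -, rfl⟩ := hz
    exact (Polynomial.mem_roots hpM0).mpr (hroot x)
  have hcard := Polynomial.card_le_degree_of_subset_roots hsub
  rw [Finset.card_image_of_injective _ hinj, Finset.card_univ, Polynomial.natDegree_map] at hcard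
  exact hcard

/-- `F' = ℂ(j)(j_N)`. -/
theorem h55_adjoin_theta (N : ℕ) [NeZero N] :
    IntermediateField.adjoin ℂ⟮h55_tJ N⟯ {h55_theta N} = ⊤ := by
  let _ : Fintype (SL(2, ℤ) ⧸ Gamma0 N) := Fintype.ofFinite _
  have hD := h55_data N
  have : FiniteDimensional ℂ⟮h55_tJ N⟯ ↥(h55_Fp N) :=
    h85_finiteDimensional (Gamma0 N) hD (h55_Fp_fix N)
  have hint : IsIntegral ℂ⟮h55_tJ N⟯ (h55_theta N) :=
    (h85_isIntegral (Gamma0 N) hD (h55_Fp_fix N) (h55_theta N)).1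
  refine IntermediateField.eq_of_le_of_finrank_le le_top ?_
  rw [IntermediateField.finrank_top', IntermediateField.adjoin.finrank hint]
  exact (h85_finrank_le (Gamma0 N) hD (h55_Fp_fix N)).trans (h55_card_le_natDegree N)

/-! ## The main theorem -/

theorem h55_eval₂_mem (S : Subfield h25_Mer) (f : ℂ →+* h25_Mer) (x : h25_Mer)
    (hf : ∀ c, f c ∈ S) (hx : x ∈ S) (p : ℂ[X]) : p.eval₂ f x ∈ S := by
  rw [Polynomial.eval₂_eq_sum_range]
  exact Subfield.sum_mem S fun i _ => S.mul_mem (hf _) (S.pow_mem hx i)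

theorem h55_Phi_const (N : ℕ) [NeZero N] (c : ℂ) :
    gal_Phi (RingHom.id ℂ) N (algebraMap ℂ (gal_F ℂ N) c) = h55_constMer c := by
  rw [IsScalarTower.algebraMap_apply ℂ (h78_AN ℂ N) (gal_F ℂ N), gal_Phi_algebraMap]
  show algebraMap h25_Hol h25_Mer _ = algebraMap h25_Hol h25_Mer (h55_constHol c)
  congr 1
  apply Subtype.ext
  rw [gal_evHol_coe, h54_ev_const]
  rfl

theorem h55_Phi_j (N : ℕ) [NeZero N] :
    gal_Phi (RingHom.id ℂ) N
        (algebraMap (h78_AN ℂ N) (gal_F ℂ N) ⟨coeffEmb ℂ jq, h78_jq_mem_AN ℂ N⟩) =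
      algebraMap h25_Hol h25_Mer h55_jHol := by
  rw [gal_Phi_algebraMap]
  congr 1
  apply Subtype.ext
  rw [gal_evHol_coe, h54_ev_j]
  rfl

/-- Every element of `F'` comes from the function field. -/
theorem h55_Fp_le_range (N : ℕ) [NeZero N] (y : ↥(h55_Fp N)) :
    h55_iota N y ∈ (gal_Phi (RingHom.id ℂ) N).fieldRange := by
  set R := (gal_Phi (RingHom.id ℂ) N).fieldRange with hR
  have hconst : ∀ c : ℂ, h55_constMer c ∈ R := fun c => ⟨_, h55_Phi_const N c⟩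
  have hJ : algebraMap h25_Hol h25_Mer h55_jHol ∈ R := ⟨_, h55_Phi_j N⟩
  have hbase : ∀ e : ℂ⟮h55_tJ N⟯, h55_iota N (e : ↥(h55_Fp N)) ∈ R := by
    intro e
    obtain ⟨r, s, hrs⟩ := (IntermediateField.mem_adjoin_simple_iff ℂ (e : ↥(h55_Fp N))).mp e.2
    rw [hrs, map_div₀, h55_iota_aeval, h55_iota_aeval, Polynomial.hom_eval₂,
      Polynomial.hom_eval₂]
    refine R.div_mem ?_ ?_
    · exact h55_eval₂_mem R _ _ hconst hJ r
    · exact h55_eval₂_mem R _ _ hconst hJ s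
  have hy : y ∈ IntermediateField.adjoin ℂ⟮h55_tJ N⟯ {h55_theta N} := by
    rw [h55_adjoin_theta]
    exact IntermediateField.mem_top
  induction hy using IntermediateField.adjoin_induction with
  | mem x hx =>
    rw [Set.mem_singleton_iff] at hx
    rw [hx]
    exact ⟨_, rfl⟩
  | algebraMap e => exact hbase e
  | add x z _ _ hx hz =>
    rw [RingHom.map_add (h55_iota N) x z]
    exact R.add_mem hx hz
  | inv x _ hx =>
    rw [map_inv₀ (h55_iota N) x]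
    exact R.inv_mem hx
  | mul x z _ _ hx hz =>
    rw [RingHom.map_mul (h55_iota N) x z]
    exact R.mul_mem hx hz

/-- **FMF-HOL** (`h25_Mer` form): a holomorphic `Γ₀(N)`-invariant function all of whose
`SL₂(ℤ)`-translates have `q_N`-expansions lies in the image of the function field `F_ℂ(N)`. -/
theorem h55_fmf_hol (N : ℕ) [NeZero N] (φ : ℍ → ℂ) (hφ : MDiff φ)
    (hinv : ∀ γ ∈ Gamma0 N, ∀ τ : ℍ, φ (γ • τ) = φ τ) (hexp : gal_QExpAll N φ) :
    ∃ x : gal_F ℂ N, gal_Phi (RingHom.id ℂ) N x = algebraMap h25_Hol h25_Mer ⟨φ, hφ⟩ := by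
  have hgood : (⟨φ, hφ⟩ : h25_Hol) ∈ h55_goodHol N := by
    refine ⟨fun γ hγ τ => ?_, hexp⟩
    have hγ0 : γ ∈ Gamma0 N := by
      rw [Gamma_mem] at hγ
      rw [Gamma0_mem]
      exact hγ.2.2.1
    exact hinv γ hγ0 τ
  have hmem : algebraMap h25_Hol h25_Mer ⟨φ, hφ⟩ ∈ h55_Fp N := by
    rw [h55_mem_Fp]
    have hA : algebraMap h25_Hol h25_Mer ⟨φ, hφ⟩ ∈ h55_goodMer N :=
      h55_mem_goodMer.mpr ⟨_, hgood, rfl⟩
    refine ⟨h85_mem_fracSubring.mpr ⟨_, hA, 1, one_mem _, one_ne_zero, mul_one _⟩,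
      fun γ hγ => ?_⟩
    rw [h25_smul_algebraMap]
    congr 1
    apply Subtype.ext
    funext τ
    rw [h25_smul_Hol_apply]
    exact hinv γ⁻¹ (inv_mem hγ) τ
  obtain ⟨x, hx⟩ := h55_Fp_le_range N ⟨_, hmem⟩
  exact ⟨x, hx⟩

theorem h55_T_mem (N : ℕ) : ModularGroup.T ∈ Gamma0 N := by
  rw [Gamma0_mem]
  simp [ModularGroup.T]

/-- A holomorphic `Γ₀(N)`-invariant function with `q_N`-expansions has a `q`-expansion at `∞`. -/
theorem h55_exists_qexp_one (N : ℕ) [NeZero N] (φ : ℍ → ℂ)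
    (hinv : ∀ γ ∈ Gamma0 N, ∀ τ : ℍ, φ (γ • τ) = φ τ) (hexp : gal_QExpAll N φ) :
    ∃ c : LaurentSeries ℂ, h77_IsQExp 1 c φ := by
  obtain ⟨C, hC⟩ := hexp 1
  have hC' : h77_IsQExp (N : ℝ) (ModularCurve.coeffMap (RingHom.id ℂ) C) φ := by
    rw [h55_coeffMap_id]
    exact hC.congr fun τ => by rw [one_smul]
  have hper : ∀ τ : ℍ, φ ((1 : ℝ) +ᵥ τ) = φ τ := by
    intro τ
    rw [← UpperHalfPlane.modular_T_smul]
    exact hinv _ (h55_T_mem N) τ
  obtain ⟨c, -, hc⟩ := h14_exists_qExpand_of_periodic (RingHom.id ℂ) N C φ hC' hper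
  rw [h55_coeffMap_id] at hc
  exact ⟨c, hc⟩

/-- **FMF-HOL** (Laurent series form): the `q`-expansion of a holomorphic `Γ₀(N)`-invariant
function all of whose `SL₂(ℤ)`-translates have `q_N`-expansions lies in the function field
`F_ℂ(N) ⊆ ℂ((q))`. -/
theorem h55_fmf_hol_laurent (N : ℕ) [NeZero N] (φ : ℍ → ℂ) (hφ : MDiff φ)
    (hinv : ∀ γ ∈ Gamma0 N, ∀ τ : ℍ, φ (γ • τ) = φ τ) (hexp : gal_QExpAll N φ) :
    ∃ f : LaurentSeries ℂ, f ∈ laurentBaseChange ℂ (modularFunctionFieldFull N) ∧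
      h77_IsQExp 1 f φ := by
  obtain ⟨x, hx⟩ := h55_fmf_hol N φ hφ hinv hexp
  obtain ⟨a, b, hb, rfl⟩ := IsFractionRing.div_surjective (A := h78_AN ℂ N) x
  have hb0 : b ≠ 0 := nonZeroDivisors.ne_zero hb
  have hΦb : algebraMap h25_Hol h25_Mer (gal_evHol (RingHom.id ℂ) N b) ≠ 0 := by
    intro h
    have h1 := IsFractionRing.injective h25_Hol h25_Mer (h.trans (map_zero _).symm)
    exact hb0 (gal_evHol_injective (RingHom.id ℂ) N (h1.trans (map_zero _).symm))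
  rw [map_div₀, gal_Phi_algebraMap, gal_Phi_algebraMap] at hx
  have h1 : algebraMap h25_Hol h25_Mer (gal_evHol (RingHom.id ℂ) N a) =
      algebraMap h25_Hol h25_Mer (⟨φ, hφ⟩ * gal_evHol (RingHom.id ℂ) N b) := by
    rw [RingHom.map_mul, ← hx, div_mul_cancel₀ _ hΦb]
  have h2 := IsFractionRing.injective h25_Hol h25_Mer h1
  have h3 : ∀ τ : ℍ, h54_ev (RingHom.id ℂ) N a τ = φ τ * h54_ev (RingHom.id ℂ) N b τ := by
    intro τ
    exact congrArg (fun c : h25_Hol => (c : ℍ → ℂ) τ) h2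
  have ha := h54_ev_spec (RingHom.id ℂ) N (a : LaurentSeries ℂ) a.2
  have hb' := h54_ev_spec (RingHom.id ℂ) N (b : LaurentSeries ℂ) b.2
  rw [h55_coeffMap_id] at ha hb'
  obtain ⟨c, hc⟩ := h55_exists_qexp_one N φ hinv hexp
  have hprod : h77_IsQExp 1 (c * (b : LaurentSeries ℂ))
      (fun τ => φ τ * h54_ev (RingHom.id ℂ) N b τ) := hc.mul hb'
  have heq : c * (b : LaurentSeries ℂ) = a :=
    (hprod.congr fun τ => (h3 τ).symm).unique one_pos ha
  have hb0' : (b : LaurentSeries ℂ) ≠ 0 := fun h => hb0 (Subtype.ext h)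
  refine ⟨c, ?_, hc⟩
  have hcab : c = (a : LaurentSeries ℂ) / (b : LaurentSeries ℂ) := by
    rw [eq_div_iff hb0', heq]
  rw [hcab]
  exact div_mem (h78_mem_of_mem_AN ℂ a.2) (h78_mem_of_mem_AN ℂ b.2)

end Fermat.Agent.GAL
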