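import Mathlib
import Fermat.Agent.GAL.h55_FMF

/-!
# GAL (AN-DICT-DEG): `[F_ℂ(N) : ℂ(j)] = [SL₂(ℤ) : Γ₀(N)]`

The abstract Galois framework `h85_Data` of S24, instantiated with `F = F_ℂ(N)`,
`ι = gal_Phi (RingHom.id ℂ) N` and the ring of good functions of `h55_FMF`.
-/

set_option autoImplicit false

namespace Fermat.Agent.GAL

open UpperHalfPlane ModularCurve CongruenceSubgroup Polynomial IntermediateField
open Fermat.Agent.S24
open scoped MatrixGroups Manifold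

theorem h55_algebraMap_jA (N : ℕ) [NeZero N] :
    algebraMap (h78_AN ℂ N) (gal_F ℂ N) ⟨coeffEmb ℂ jq, h78_jq_mem_AN ℂ N⟩ = h78_j ℂ N :=
  Subtype.ext rfl

/-- `Φ` of a polynomial in `j`. -/
theorem h55_Phi_aeval (N : ℕ) [NeZero N] (P : ℂ[X]) :
    gal_Phi (RingHom.id ℂ) N (Polynomial.aeval (h78_j ℂ N) P) =
      algebraMap h25_Hol h25_Mer (P.eval₂ h55_constHol h55_jHol) := by
  rw [Polynomial.aeval_def, Polynomial.hom_eval₂, Polynomial.hom_eval₂]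
  have h1 : (gal_Phi (RingHom.id ℂ) N).comp (algebraMap ℂ (gal_F ℂ N)) =
      (algebraMap h25_Hol h25_Mer).comp h55_constHol := by
    ext c
    exact h55_Phi_const N c
  rw [h1, ← h55_algebraMap_jA, h55_Phi_j]

/-- The `h85_Data` instance for the function field `F_ℂ(N)` itself. -/
theorem h55_dataF (N : ℕ) [NeZero N] :
    h85_Data ℂ SL(2, ℤ) (h78_j ℂ N) (gal_Phi (RingHom.id ℂ) N) (h55_goodMer N) where
  stable := fun γ _ ha => h55_goodMer_smul γ ha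
  orbit := fun _ ha => h55_goodMer_orbit_finite ha
  inv := by
    intro y hy hinv
    obtain ⟨a, ha, rfl⟩ := h55_mem_goodMer.mp hy
    have hinv' : ∀ γ : SL(2, ℤ), γ • a = a := by
      intro γ
      have := hinv γ
      rw [h25_smul_algebraMap] at this
      exact IsFractionRing.injective h25_Hol h25_Mer this
    obtain ⟨P, hP⟩ := h55_goodHol_invariant ha hinv'
    exact ⟨P, by rw [h55_Phi_aeval, ← hP]⟩
  fix := by
    intro γ P
    rw [h55_Phi_aeval, h25_smul_algebraMap, h55_smul_eval₂_jHol]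
  frac := fun f => (h55_mem_Fp.mp (h55_Phi_mem N f)).1

/-- `Γ₀(N)` is exactly the stabiliser of `Φ(F_ℂ(N))`. -/
theorem h55_stab (N : ℕ) [NeZero N] (γ : SL(2, ℤ)) :
    γ ∈ Gamma0 N ↔
      ∀ f : gal_F ℂ N, γ • gal_Phi (RingHom.id ℂ) N f = gal_Phi (RingHom.id ℂ) N f := by
  constructor
  · intro hγ f
    exact gal_Phi_smul (RingHom.id ℂ) N hγ f
  · intro h
    have h1 := h (algebraMap (h78_AN ℂ N) (gal_F ℂ N) (h55_aN N))
    rw [gal_Phi_algebraMap, h25_smul_algebraMap] at h1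
    have h2 : γ • h55_thetaHol N = (1 : SL(2, ℤ)) • h55_thetaHol N := by
      rw [one_smul]
      exact IsFractionRing.injective h25_Hol h25_Mer h1
    have h3 := QuotientGroup.eq.mp (h55_theta_sep N γ 1 h2)
    rw [mul_one] at h3
    have h4 := inv_mem h3
    rwa [inv_inv] at h4

/-- **AN-DICT-DEG (1)**: `F_ℂ(N)` is finite over `ℂ(j)`. -/
theorem h55_finiteDimensional_C (N : ℕ) [NeZero N] :
    FiniteDimensional ℂ⟮h78_j ℂ N⟯ (gal_F ℂ N) := by
  let _ : Fintype (SL(2, ℤ) ⧸ Gamma0 N) := Fintype.ofFinite _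
  exact h85_finiteDimensional (Gamma0 N) (h55_dataF N) (fun γ hγ => (h55_stab N γ).mp hγ)

/-- **AN-DICT-DEG (2)**: `[F_ℂ(N) : ℂ(j)] = [SL₂(ℤ) : Γ₀(N)]`. -/
theorem h55_finrank_C (N : ℕ) [NeZero N] :
    Module.finrank ℂ⟮h78_j ℂ N⟯ (gal_F ℂ N) = Nat.card (SL(2, ℤ) ⧸ Gamma0 N) := by
  let _ : Fintype (SL(2, ℤ) ⧸ Gamma0 N) := Fintype.ofFinite _
  rw [Nat.card_eq_fintype_card]
  exact h85_finrank (Gamma0 N) (h55_dataF N) (h55_stab N)

/-- **Norm = product of the conjugates** for `F_ℂ(N) / ℂ(j)`. -/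
theorem h55_norm_C (N : ℕ) [NeZero N] [Fintype (SL(2, ℤ) ⧸ Gamma0 N)] (f : gal_F ℂ N) :
    gal_Phi (RingHom.id ℂ) N
        (algebraMap ℂ⟮h78_j ℂ N⟯ (gal_F ℂ N) (Algebra.norm ℂ⟮h78_j ℂ N⟯ f)) =
      ∏ x : SL(2, ℤ) ⧸ Gamma0 N, (x.out • gal_Phi (RingHom.id ℂ) N f) :=
  h85_norm (Gamma0 N) (h55_dataF N) (h55_stab N) f

end Fermat.Agent.GAL
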