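import Mathlib
import Fermat.Agent.GAL.h77_AnDefs
import Fermat.Agent.S24.h83_Cusp
import Fermat.Agent.S24.h14_ProdInv

/-!
# GAL, analytic layer: the cusp expansions of `F_ℂ(N)` (helper83)

Port of the S24 cusp family (`h83_Cusp.lean`) from `K = AlgebraicClosure ℚ` to `K = ℂ`,
`ι = RingHom.id ℂ`, on the carrier `h78_AN ℂ N ⊆ gal_F ℂ N`.

* `h83_cuspHomC N g : h78_AN ℂ N →+* LaurentSeries ℂ`: THE `q_N`-expansion of the conjugate
  `τ ↦ ev a (g⁻¹ • τ)`;
* `h83_psiC N g : gal_F ℂ N →+* LaurentSeries ℂ`: its extension to the fraction field;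
* properties (a) `h83_psiC_mul_right`, (b) `h83_psiC_T_mul_coeff`, (c) `h83_psiC_j_order`,
  (d) `h83_psiC_const`, (sep) `h83_coset_eq_of_psiC_eq`, and the order formula
  `h83_psiC_order_div`.
-/

set_option autoImplicit false

open UpperHalfPlane ModularCurve CongruenceSubgroup HahnSeries
open scoped MatrixGroups

namespace Fermat.Agent.GAL

open Fermat.Agent.S24

section CuspC

variable (N : ℕ)

/-- The conjugate `τ ↦ ev a (g⁻¹ • τ)` of an element of `A_N = ℂ[j(q^d) : d ∣ N]`. -/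
noncomputable def h83_evConjC (g : SL(2, ℤ)) : h78_AN ℂ N →+* (ℍ → ℂ) :=
  (h83_precomp (fun τ => g⁻¹ • τ)).comp (h54_ev (RingHom.id ℂ) N)

@[simp]
theorem h83_evConjC_apply (g : SL(2, ℤ)) (a : h78_AN ℂ N) (τ : ℍ) :
    h83_evConjC N g a τ = h54_ev (RingHom.id ℂ) N a (g⁻¹ • τ) := rfl

theorem h83_evConjC_injective (g : SL(2, ℤ)) : Function.Injective (h83_evConjC N g) := by
  intro x y hxy
  apply h54_ev_injective (RingHom.id ℂ) N
  funext τ
  have := congrFun hxy (g • τ)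
  simpa using this

/-- The relation "`c` is the `q_N`-expansion of `f`". -/
def h83_EC (c : LaurentSeries ℂ) (f : ℍ → ℂ) : Prop :=
  h77_IsQExp (N : ℝ) c f

theorem h83_expRelC [NeZero N] : h83_ExpRel (h83_EC N) where
  one := h77_isQExp_one _
  add := fun h h' => h77_IsQExp.add h h'
  mul := fun h h' => h77_IsQExp.mul h h'
  neg := fun h => h77_IsQExp.neg h
  left_unique := fun h h' =>
    h77_IsQExp.unique (by exact_mod_cast Nat.pos_of_ne_zero (NeZero.ne N)) h h'
  right_unique := fun h h' => h77_IsQExp.unique_fun h h'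

/-- Every conjugate of an element of `A_N` has a `q_N`-expansion. -/
theorem h83_exists_expC [NeZero N] (g : SL(2, ℤ)) (a : h78_AN ℂ N) :
    ∃ c, h83_EC N c (h83_evConjC N g a) := by
  obtain ⟨c, hc⟩ := h14_ev_conj_exp (RingHom.id ℂ) N a g⁻¹
  rw [coeffMap_id] at hc
  exact ⟨c, hc.congr fun τ => rfl⟩

variable [NeZero N]

/-- THE `q_N`-expansion of the `g`-conjugate, on `A_N`. -/
noncomputable def h83_cuspHomC (g : SL(2, ℤ)) : h78_AN ℂ N →+* LaurentSeries ℂ :=
  h83_expHom (h83_expRelC N) (h83_evConjC N g) (h83_exists_expC N g)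

theorem h83_cuspHomC_spec (g : SL(2, ℤ)) (a : h78_AN ℂ N) :
    h77_IsQExp (N : ℝ) (h83_cuspHomC N g a)
      (fun τ => h54_ev (RingHom.id ℂ) N a (g⁻¹ • τ)) :=
  h83_expHom_spec (h83_expRelC N) (h83_evConjC N g) (h83_exists_expC N g) a

theorem h83_cuspHomC_eq (g : SL(2, ℤ)) {a : h78_AN ℂ N} {c : LaurentSeries ℂ}
    (h : h77_IsQExp (N : ℝ) c (fun τ => h54_ev (RingHom.id ℂ) N a (g⁻¹ • τ))) :
    h83_cuspHomC N g a = c :=
  h83_expHom_eq (h83_expRelC N) (h83_evConjC N g) (h83_exists_expC N g) h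

theorem h83_cuspHomC_injective (g : SL(2, ℤ)) : Function.Injective (h83_cuspHomC N g) :=
  h83_expHom_injective (h83_expRelC N) (h83_evConjC N g) (h83_exists_expC N g)
    (h83_evConjC_injective N g)

/-- The expansion at `i∞` of the `g`-conjugate: a field embedding of `F_ℂ(N)` into
`ℂ((q_N))`. -/
noncomputable def h83_psiC (g : SL(2, ℤ)) : gal_F ℂ N →+* LaurentSeries ℂ :=
  IsFractionRing.lift (h83_cuspHomC_injective N g)

theorem h83_psiC_algebraMap (g : SL(2, ℤ)) (a : h78_AN ℂ N) :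
    h83_psiC N g (algebraMap (h78_AN ℂ N) (gal_F ℂ N) a) = h83_cuspHomC N g a :=
  IsFractionRing.lift_algebraMap _ a

/-- **Specification on `A_N`**. -/
theorem h83_psiC_spec (g : SL(2, ℤ)) (a : h78_AN ℂ N) :
    h77_IsQExp (N : ℝ) (h83_psiC N g (algebraMap (h78_AN ℂ N) (gal_F ℂ N) a))
      (fun τ => h54_ev (RingHom.id ℂ) N a (g⁻¹ • τ)) := by
  rw [h83_psiC_algebraMap]
  exact h83_cuspHomC_spec N g a

theorem h83_psiC_eq (g : SL(2, ℤ)) {a : h78_AN ℂ N} {c : LaurentSeries ℂ}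
    (h : h77_IsQExp (N : ℝ) c (fun τ => h54_ev (RingHom.id ℂ) N a (g⁻¹ • τ))) :
    h83_psiC N g (algebraMap (h78_AN ℂ N) (gal_F ℂ N) a) = c := by
  rw [h83_psiC_algebraMap]
  exact h83_cuspHomC_eq N g h

theorem h83_psiC_injective (g : SL(2, ℤ)) : Function.Injective (h83_psiC N g) :=
  (h83_psiC N g).injective

omit [NeZero N] in
/-- Two ring homomorphisms out of the function field which agree on `A_N` are equal. -/
theorem h83_ringHom_extC {L : Type*} [Field L] {φ φ' : gal_F ℂ N →+* L}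
    (h : ∀ a : h78_AN ℂ N, φ (algebraMap (h78_AN ℂ N) (gal_F ℂ N) a)
      = φ' (algebraMap (h78_AN ℂ N) (gal_F ℂ N) a)) : φ = φ' := by
  refine IsLocalization.ringHom_ext (nonZeroDivisors (h78_AN ℂ N)) ?_
  ext a
  exact h a

/-- (d) the expansions are trivial on constants. -/
theorem h83_psiC_const (g : SL(2, ℤ)) (c : ℂ) :
    h83_psiC N g (algebraMap ℂ (gal_F ℂ N) c) = HahnSeries.C c := by
  have h0 : algebraMap ℂ (gal_F ℂ N) c
      = algebraMap (h78_AN ℂ N) (gal_F ℂ N) (algebraMap ℂ (h78_AN ℂ N) c) :=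
    IsScalarTower.algebraMap_apply ℂ (h78_AN ℂ N) (gal_F ℂ N) c
  rw [h0]
  apply h83_psiC_eq
  rw [h54_ev_const]
  exact h77_isQExp_C _ c

/-- (a) the expansions only depend on the left coset `g Γ₀(N)`. -/
theorem h83_psiC_mul_right (g h : SL(2, ℤ)) (hh : h ∈ Gamma0 N) :
    h83_psiC N (g * h) = h83_psiC N g := by
  apply h83_ringHom_extC
  intro a
  apply h83_psiC_eq
  have h1 := h83_psiC_spec N g a
  refine h1.congr fun τ => ?_
  rw [mul_inv_rev, mul_smul]
  exact (h54_ev_invariant (RingHom.id ℂ) N h⁻¹ (inv_mem hh) a _).symm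

/-- (b) left multiplication by `T` twists the expansion. -/
theorem h83_psiC_T_mul (g : SL(2, ℤ)) (f : gal_F ℂ N) :
    h83_psiC N (ModularGroup.T * g) f = h83_twist (h83_zeta N) (h83_psiC N g f) := by
  have key : h83_psiC N (ModularGroup.T * g)
      = (h83_twistHom (h83_zeta N) (h83_zeta_ne_zero N)).comp (h83_psiC N g) := by
    apply h83_ringHom_extC
    intro a
    rw [RingHom.comp_apply, h83_twistHom_apply]
    have h1 := h83_psiC_spec N (ModularGroup.T * g) a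
    have h2 := h83_isQExp_vadd (h83_psiC_spec N g a) (-1 : ℝ)
    rw [h83_zeta_eq] at h2
    have hN : (0 : ℝ) < (N : ℝ) := by exact_mod_cast Nat.pos_of_ne_zero (NeZero.ne N)
    refine h77_IsQExp.unique hN h1 (h2.congr fun τ => ?_)
    rw [mul_inv_rev, mul_smul]
    have h3 := UpperHalfPlane.modular_T_zpow_smul τ (-1)
    rw [zpow_neg_one] at h3
    rw [h3]
    push_cast
    rfl
  rw [key, RingHom.comp_apply, h83_twistHom_apply]

theorem h83_psiC_T_mul_coeff (g : SL(2, ℤ)) (f : gal_F ℂ N) (k : ℤ) :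
    (h83_psiC N (ModularGroup.T * g) f).coeff k
      = h83_zeta N ^ k * (h83_psiC N g f).coeff k := by
  rw [h83_psiC_T_mul, h83_twist_coeff, mul_comm]

omit [NeZero N] in
theorem h83_j_eq_algebraMapC [NeZero N] :
    h78_j ℂ N = algebraMap (h78_AN ℂ N) (gal_F ℂ N) ⟨coeffEmb ℂ jq, h78_jq_mem_AN ℂ N⟩ :=
  rfl

/-- The expansion of `j` is the same at every coset. -/
theorem h83_psiC_j (g : SL(2, ℤ)) :
    h83_psiC N g (h78_j ℂ N) = qExpand ℂ N (coeffMap (algebraMap ℚ ℂ) jq) := by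
  rw [h83_j_eq_algebraMapC]
  apply h83_psiC_eq
  rw [h54_ev_j]
  have h := h77_isQExp_jq.qExpand_width N
  rw [mul_one] at h
  refine h.congr fun τ => ?_
  rw [h83_j_smul]

/-- (c) the expansion of `j` has order `-N` at every coset. -/
theorem h83_psiC_j_order (g : SL(2, ℤ)) : (h83_psiC N g (h78_j ℂ N)).order = -(N : ℤ) := by
  rw [h83_psiC_j, h83_order_qExpand_jq]

/-- (sep) the expansions at distinct cosets are distinct. -/
theorem h83_coset_eq_of_psiC_eq {g g' : SL(2, ℤ)} (h : h83_psiC N g = h83_psiC N g') :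
    (g : SL(2, ℤ) ⧸ Gamma0 N) = (g' : SL(2, ℤ) ⧸ Gamma0 N) := by
  refine h54_ev_sep (RingHom.id ℂ) N g g' fun a τ => ?_
  have h1 := h83_psiC_spec N g a
  have h2 := h83_psiC_spec N g' a
  rw [h] at h1
  exact congrFun (h1.unique_fun h2) τ

/-- The order of the expansion of a quotient `a / b`, from ANY expansions of `a` and `b`. -/
theorem h83_psiC_order_div (g : SL(2, ℤ)) {a b : h78_AN ℂ N} {ca cb : LaurentSeries ℂ}
    (ha : a ≠ 0) (hb : b ≠ 0)
    (hca : h77_IsQExp (N : ℝ) ca (fun τ => h54_ev (RingHom.id ℂ) N a (g⁻¹ • τ)))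
    (hcb : h77_IsQExp (N : ℝ) cb (fun τ => h54_ev (RingHom.id ℂ) N b (g⁻¹ • τ))) :
    (h83_psiC N g (algebraMap (h78_AN ℂ N) (gal_F ℂ N) a /
        algebraMap (h78_AN ℂ N) (gal_F ℂ N) b)).order = ca.order - cb.order := by
  have hinj : Function.Injective (algebraMap (h78_AN ℂ N) (gal_F ℂ N)) :=
    IsFractionRing.injective _ _
  have ha' : algebraMap (h78_AN ℂ N) (gal_F ℂ N) a ≠ 0 := fun h0 =>
    ha (hinj (by rw [h0, map_zero]))
  have hb' : algebraMap (h78_AN ℂ N) (gal_F ℂ N) b ≠ 0 := fun h0 =>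
    hb (hinj (by rw [h0, map_zero]))
  rw [map_div₀, h83_psiC_eq N g hca, h83_psiC_eq N g hcb]
  have hca0 : ca ≠ 0 := by
    rw [← h83_psiC_eq N g hca]
    exact fun h0 => ha' ((injective_iff_map_eq_zero _).mp (h83_psiC_injective N g) _ h0)
  have hcb0 : cb ≠ 0 := by
    rw [← h83_psiC_eq N g hcb]
    exact fun h0 => hb' ((injective_iff_map_eq_zero _).mp (h83_psiC_injective N g) _ h0)
  rw [div_eq_mul_inv, HahnSeries.order_mul hca0 (inv_ne_zero hcb0)]
  have h1 : (cb * cb⁻¹).order = cb.order + (cb⁻¹).order :=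
    HahnSeries.order_mul hcb0 (inv_ne_zero hcb0)
  rw [mul_inv_cancel₀ hcb0, HahnSeries.order_one] at h1
  omega

end CuspC

end Fermat.Agent.GAL
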