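import Mathlib
import Fermat.Agent.GAL.h83_CuspC
import Fermat.Agent.GAL.AnDictAbs
import Fermat.Agent.S24.h78_FibreGen
import Fermat.Agent.S24.h35_PlaceBasic

/-!
# GAL, analytic layer: places of `F_ℂ(N)` over `j = ∞` are cusps (helper83, row 442 core)

`h83_dict_cusp_of`: the statement of `gal_dict_cusp` with the two facts of row AN-DICT-DEG
(`FiniteDimensional ℂ(j) F_ℂ(N)` and `[F_ℂ(N) : ℂ(j)] = [SL₂(ℤ) : Γ₀(N)]`) as hypotheses.
-/

set_option autoImplicit false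

open UpperHalfPlane ModularCurve CongruenceSubgroup AlgebraicCurve
open scoped MatrixGroups

namespace Fermat.Agent.GAL

open Fermat.Agent.S24

theorem h83_conj_mem_of_smul (N : ℕ) (x : SL(2, ℤ) ⧸ Gamma0 N) (w : ℕ)
    (hw : ModularGroup.T ^ w • x = x) :
    (Quotient.out x)⁻¹ * ModularGroup.T ^ w * Quotient.out x ∈ Gamma0 N := by
  have h2 : ((Quotient.out x : SL(2, ℤ)) : SL(2, ℤ) ⧸ Gamma0 N) = x := QuotientGroup.out_eq' x
  have h3 : ((ModularGroup.T ^ w * Quotient.out x : SL(2, ℤ)) : SL(2, ℤ) ⧸ Gamma0 N)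
      = ((Quotient.out x : SL(2, ℤ)) : SL(2, ℤ) ⧸ Gamma0 N) := by
    have h : ((ModularGroup.T ^ w * Quotient.out x : SL(2, ℤ)) : SL(2, ℤ) ⧸ Gamma0 N)
        = ModularGroup.T ^ w • ((Quotient.out x : SL(2, ℤ)) : SL(2, ℤ) ⧸ Gamma0 N) := rfl
    rw [h, h2, hw]
  have h4 := QuotientGroup.eq.mp h3
  have h5 := inv_mem h4
  simpa [mul_assoc] using h5

open IntermediateField in
/-- **Row AN-DICT-CUSP, conditional on the degree (row AN-DICT-DEG).** -/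
theorem h83_dict_cusp_of (N : ℕ) [NeZero N]
    (hfd : FiniteDimensional ℂ⟮h78_j ℂ N⟯ (gal_F ℂ N))
    (hrank : Module.finrank ℂ⟮h78_j ℂ N⟯ (gal_F ℂ N) = Nat.card (SL(2, ℤ) ⧸ Gamma0 N))
    (P : Place ℂ (gal_F ℂ N)) (hP : h78_j ℂ N ∉ P.toValuationSubring) :
    ∃ (g : SL(2, ℤ)) (w : ℕ), 0 < w ∧ w ∣ N ∧ g⁻¹ * ModularGroup.T ^ w * g ∈ Gamma0 N ∧
      ∀ (a b : h78_AN ℂ N) (ca cb : LaurentSeries ℂ), a ≠ 0 → b ≠ 0 →
        h77_IsQExp (N : ℝ) ca (fun τ => h54_ev (RingHom.id ℂ) N a (g⁻¹ • τ)) →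
        h77_IsQExp (N : ℝ) cb (fun τ => h54_ev (RingHom.id ℂ) N b (g⁻¹ • τ)) →
        (N : ℤ) * P.ord (algebraMap (h78_AN ℂ N) (gal_F ℂ N) a /
            algebraMap (h78_AN ℂ N) (gal_F ℂ N) b)
          = w * (ca.order - cb.order) := by
  classical
  have : Fintype (SL(2, ℤ) ⧸ Gamma0 N) := Fintype.ofFinite _
  have ht : Transcendental ℂ (h78_j ℂ N) := h78_j_transcendental ℂ N
  have ht0 : h78_j ℂ N ≠ 0 := by
    intro h0
    exact ht (h0 ▸ isAlgebraic_zero)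
  let σ : SL(2, ℤ) ⧸ Gamma0 N → gal_F ℂ N →+* LaurentSeries ℂ :=
    fun x => h83_psiC N (Quotient.out x)
  have hσK : ∀ x (c : ℂ), σ x (algebraMap ℂ (gal_F ℂ N) c) = HahnSeries.C ((RingHom.id ℂ) c) :=
    fun x c => h83_psiC_const N _ c
  have hσinj : Function.Injective σ := by
    intro x y hxy
    have h := h83_coset_eq_of_psiC_eq N hxy
    rwa [QuotientGroup.out_eq', QuotientGroup.out_eq'] at h
  have hσt : ∀ x y, σ x (h78_j ℂ N) = σ y (h78_j ℂ N) := fun x y => by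
    show h83_psiC N _ _ = h83_psiC N _ _
    rw [h83_psiC_j, h83_psiC_j]
  have hcard : Fintype.card (SL(2, ℤ) ⧸ Gamma0 N)
      = Module.finrank ℂ⟮h78_j ℂ N⟯ (gal_F ℂ N) := by
    rw [hrank, Nat.card_eq_fintype_card]
  have hagree : ∀ (x y : SL(2, ℤ) ⧸ Gamma0 N) (e : ℂ⟮h78_j ℂ N⟯),
      σ x (algebraMap ℂ⟮h78_j ℂ N⟯ (gal_F ℂ N) e)
        = σ y (algebraMap ℂ⟮h78_j ℂ N⟯ (gal_F ℂ N) e) := fun x y e =>
    h78_agree_on_adjoin (h78_j ℂ N) (σ x) (σ y) (fun c => by rw [hσK, hσK]) (hσt x y) e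
  have hnormσ : ∀ (x₀ : SL(2, ℤ) ⧸ Gamma0 N) (h : gal_F ℂ N),
      σ x₀ (algebraMap ℂ⟮h78_j ℂ N⟯ (gal_F ℂ N) (Algebra.norm ℂ⟮h78_j ℂ N⟯ h))
        = ∏ x, σ x h := fun x₀ h =>
    h71_norm_of_card_ringHom σ hσinj hagree hcard x₀ h
  have hw : ∀ x, h56_IsOrd ℂ (h78_ordOf (σ x)) :=
    fun x => h78_ordOf_isOrd (σ x) (RingHom.id ℂ) (hσK x)
  have hv : P.ord (h78_j ℂ N) < 0 := by
    by_contra hcon
    exact hP ((h35_mem_iff_ord_nonneg P ht0).mpr (not_lt.mp hcon))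
  have hNpos : (0 : ℤ) < (N : ℤ) := by exact_mod_cast Nat.pos_of_ne_zero (NeZero.ne N)
  obtain ⟨x, hx⟩ := gal_fibre_exact_infty (K := ℂ) (h78_j ℂ N) ht ModularGroup.T
    (fun x => h78_ordOf (σ x)) hw (N : ℤ) hNpos
    (fun x => by
      rw [h78_ordOf_of_ne _ (inv_ne_zero ht0), h78_order_inv _ ht0]
      show -(h83_psiC N _ (h78_j ℂ N)).order = N
      rw [h83_psiC_j_order, neg_neg])
    (fun x => by
      funext f
      by_cases hf : f = 0
      · rw [hf, h78_ordOf_zero, h78_ordOf_zero]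
      · rw [h78_ordOf_of_ne _ hf, h78_ordOf_of_ne _ hf]
        exact h14_cuspW_T_smul (ψ := h83_psiC N) (ζ := h83_zeta N) (h83_zeta_ne_zero N)
          (h83_psiC_mul_right N) (h83_psiC_T_mul_coeff N) x f)
    (fun x f hf => by
      rw [h78_ordOf_of_ne _ hf]
      have h1 := h14_cuspW_dvd (ψ := h83_psiC N) (ζ := h83_zeta N) (h83_zeta_zpow_eq_one N)
        (h83_psiC_mul_right N) (h83_psiC_T_mul_coeff N) x hf
      have h2 := h14_div_mul_minimalPeriod N x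
      have h3 : ((N / Function.minimalPeriod
          (fun y : SL(2, ℤ) ⧸ Gamma0 N => ModularGroup.T • y) x : ℕ) : ℤ) *
          (Function.minimalPeriod (fun y : SL(2, ℤ) ⧸ Gamma0 N => ModularGroup.T • y) x : ℤ)
          = (N : ℤ) := by
        exact_mod_cast h2
      have h4 := mul_dvd_mul_right h1
        (Function.minimalPeriod (fun y : SL(2, ℤ) ⧸ Gamma0 N => ModularGroup.T • y) x : ℤ)
      rw [h3] at h4
      exact h4)
    (fun h hh x₀ => by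
      have hprod := hnormσ x₀ h
      have hprod0 : (∏ x, σ x h) ≠ 0 :=
        Finset.prod_ne_zero_iff.mpr fun y _ => (map_ne_zero (σ y)).mpr hh
      have hn0 : algebraMap ℂ⟮h78_j ℂ N⟯ (gal_F ℂ N) (Algebra.norm ℂ⟮h78_j ℂ N⟯ h) ≠ 0 := by
        intro h0
        rw [h0, map_zero] at hprod
        exact hprod0 hprod.symm
      rw [h78_ordOf_of_ne _ hn0, hprod, h78_order_prod Finset.univ σ hh]
      exact Finset.sum_congr rfl fun y _ => (h78_ordOf_of_ne _ hh).symm)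
    hcard P hv
  refine ⟨Quotient.out x,
    Function.minimalPeriod (fun y : SL(2, ℤ) ⧸ Gamma0 N => ModularGroup.T • y) x,
    h14_minimalPeriod_pos N x, h14_minimalPeriod_dvd N x,
    h83_conj_mem_of_smul N x _ (h14_T_pow_minimalPeriod_smul N x), ?_⟩
  intro a b ca cb ha hb hca hcb
  have hinj : Function.Injective (algebraMap (h78_AN ℂ N) (gal_F ℂ N)) :=
    IsFractionRing.injective _ _
  have ha' : algebraMap (h78_AN ℂ N) (gal_F ℂ N) a ≠ 0 := fun h0 =>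
    ha (hinj (by rw [h0, map_zero]))
  have hb' : algebraMap (h78_AN ℂ N) (gal_F ℂ N) b ≠ 0 := fun h0 =>
    hb (hinj (by rw [h0, map_zero]))
  have hf : algebraMap (h78_AN ℂ N) (gal_F ℂ N) a / algebraMap (h78_AN ℂ N) (gal_F ℂ N) b ≠ 0 :=
    div_ne_zero ha' hb'
  have h1 := hx _ hf
  rw [h78_ordOf_of_ne _ hf] at h1
  have h2 : (σ x (algebraMap (h78_AN ℂ N) (gal_F ℂ N) a /
      algebraMap (h78_AN ℂ N) (gal_F ℂ N) b)).order = ca.order - cb.order :=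
    h83_psiC_order_div N (Quotient.out x) ha hb hca hcb
  rw [h2] at h1
  rw [← h1]
  ring

end Fermat.Agent.GAL
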