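import Mathlib
import Fermat.Agent.GAL.h77_AnDefs
import Fermat.Agent.GAL.h83_DictCuspCore
import Fermat.Agent.GAL.h55_Deg

/-!
# GAL, analytic layer, row AN-DICT-CUSP (helper83)

Every place of `F_ℂ(N)` at which `j` has a pole is the place of a cusp, with exact width:
`gal_dict_cusp`.  Proof: `h83_dict_cusp_of` (the cusp family `h83_psiC` + the exact fibre
dictionary `gal_fibre_exact_infty`) with the degree facts `h55_finiteDimensional_C`,
`h55_finrank_C`.
-/

set_option autoImplicit false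

open UpperHalfPlane ModularCurve CongruenceSubgroup AlgebraicCurve ModularForm EisensteinSeries
open scoped MatrixGroups Manifold

namespace Fermat.Agent.GAL

open Fermat.Agent.S24 Fermat.Agent.S16

theorem gal_dict_cusp (N : ℕ) [NeZero N] (P : Place ℂ (gal_F ℂ N))
    (hP : h78_j ℂ N ∉ P.toValuationSubring) :
    ∃ (g : SL(2, ℤ)) (w : ℕ), 0 < w ∧ w ∣ N ∧ g⁻¹ * ModularGroup.T ^ w * g ∈ Gamma0 N ∧
      ∀ (a b : h78_AN ℂ N) (ca cb : LaurentSeries ℂ), a ≠ 0 → b ≠ 0 →
        h77_IsQExp (N : ℝ) ca (fun τ => h54_ev (RingHom.id ℂ) N a (g⁻¹ • τ)) →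
        h77_IsQExp (N : ℝ) cb (fun τ => h54_ev (RingHom.id ℂ) N b (g⁻¹ • τ)) →
        (N : ℤ) * P.ord (algebraMap (h78_AN ℂ N) (gal_F ℂ N) a /
            algebraMap (h78_AN ℂ N) (gal_F ℂ N) b)
          = w * (ca.order - cb.order) :=
  h83_dict_cusp_of N (h55_finiteDimensional_C N) (h55_finrank_C N) P hP

end Fermat.Agent.GAL
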