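import Mathlib
import Fermat.Agent.GAL.h77_AnDefs
import Fermat.Agent.S24.h54_Point
import Fermat.Agent.S24.h14_ProdInv
import Fermat.Agent.S24.h71_NormCore

/-!
# GAL row 440 AN-DICT-DEG: `[F_K(N) : K(j)] = [SL₂(ℤ) : Γ₀(N)]` from the point family (helper66)

S24 proved the degree formula for `K = AlgebraicClosure ℚ` through the cusp family.  Here we
prove it for every algebraically closed field `K` with an embedding `ι : K →+* ℂ` (in particular
`K = ℂ`, `ι = id`), using the POINT family `h54_sigma ι N τ₀ x` of S24 (Taylor expansions at a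
point `τ₀ ∈ ℍ` of the conjugates), the product formula `h14_prod_inv`, and the generic
`h71_norm_core_ringHom`.

* `h66_degree_norm` : generic statement (finite-dimensionality, degree, norm formula).
* `gal_finiteDimensional_K`, `gal_finrank_K`, `gal_sigma_norm_K` : the three parts, generic `K`.
* `gal_finiteDimensional_C`, `gal_finrank_C` : the row statements (`K = ℂ`).
* `gal_sigma_norm` : norm formula for the point family over `ℂ`.
-/

set_option autoImplicit false

open UpperHalfPlane ModularCurve CongruenceSubgroup AlgebraicCurve ModularForm EisensteinSeries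
open scoped MatrixGroups Manifold

namespace Fermat.Agent.GAL

open Fermat.Agent.S24 Fermat.Agent.S16

section gens

variable (K : Type*) [Field K] [Algebra ℚ K] (N : ℕ)

/-- The generators `j(q^d)`, `d ∣ N`, as elements of the function field `F_K(N)`, indexed by the
divisors of `N`. -/
noncomputable def h66_gen (d : N.divisors) : gal_F K N :=
  have : NeZero (d : ℕ) := ⟨(Nat.pos_of_mem_divisors d.2).ne'⟩
  ⟨coeffEmb K (qExpand ℚ d jq),
    h78_mem_of_mem_AN K (h78_gens_subset_AN K N (h78_mem_gens K (Nat.dvd_of_mem_divisors d.2)))⟩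

theorem h66_gen_mem_ANF (d : N.divisors) : h66_gen K N d ∈ h78_ANF K N := by
  have : NeZero (d : ℕ) := ⟨(Nat.pos_of_mem_divisors d.2).ne'⟩
  rw [h78_mem_ANF]
  exact h78_gens_subset_AN K N (h78_mem_gens K (Nat.dvd_of_mem_divisors d.2))

theorem h66_image_gen [NeZero N] :
    (laurentBaseChange K (modularFunctionFieldFull N)).val '' Set.range (h66_gen K N)
      = h78_gens K N := by
  ext x
  constructor
  · rintro ⟨_, ⟨d, rfl⟩, rfl⟩
    have : NeZero (d : ℕ) := ⟨(Nat.pos_of_mem_divisors d.2).ne'⟩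
    exact h78_mem_gens K (Nat.dvd_of_mem_divisors d.2)
  · rintro ⟨d, hd, hdN, rfl⟩
    exact ⟨h66_gen K N ⟨d, Nat.mem_divisors.mpr ⟨hdN, NeZero.ne N⟩⟩, ⟨_, rfl⟩, rfl⟩

/-- The function field `F_K(N)` is generated over `K` by the `h66_gen K N d`. -/
theorem h66_adjoin_gen [NeZero N] :
    IntermediateField.adjoin K (Set.range (h66_gen K N)) = ⊤ := by
  apply IntermediateField.map_injective (laurentBaseChange K (modularFunctionFieldFull N)).val
  rw [IntermediateField.adjoin_map, h66_image_gen, ← h78_baseChange_eq_adjoin,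
    ← AlgHom.fieldRange_eq_map, IntermediateField.fieldRange_val]

end gens

section generic

variable {K : Type*} [Field K] [Algebra ℚ K] (ι : K →+* ℂ) (N : ℕ)

/-- The point expansion of an element of `A_N`. -/
theorem h66_sigma_algebraMap (τ₀ : ℍ) (x : SL(2, ℤ) ⧸ Gamma0 N) (a : h78_AN K N) :
    h54_sigma ι N τ₀ x (algebraMap (h78_AN K N) (gal_F K N) a) =
      h54_ofPS (h54_taylor τ₀ (fun z => h54_ev ι N a ((Quotient.out x)⁻¹ • z))) :=
  h54_pt_algebraMap (h54_evData ι N) (Quotient.out x) τ₀ a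

/-- The product of the point expansions of the conjugates of `a ∈ A_N` is the expansion of the
product of the conjugate functions. -/
theorem h66_prod_sigma [Fintype (SL(2, ℤ) ⧸ Gamma0 N)] (τ₀ : ℍ) (a : h78_AN K N) :
    ∏ x : SL(2, ℤ) ⧸ Gamma0 N,
        h54_sigma ι N τ₀ x (algebraMap (h78_AN K N) (gal_F K N) a) =
      h54_ofPS (h54_taylor τ₀
        (fun z => ∏ x : SL(2, ℤ) ⧸ Gamma0 N, h54_ev ι N a ((Quotient.out x)⁻¹ • z))) := by
  have h1 : ∀ x : SL(2, ℤ) ⧸ Gamma0 N,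
      h54_sigma ι N τ₀ x (algebraMap (h78_AN K N) (gal_F K N) a) =
        (h54_ofPS.comp (h54_taylorHom τ₀)) (h54_conjA (h54_evData ι N) (Quotient.out x) a) :=
    fun x => h66_sigma_algebraMap ι N τ₀ x a
  rw [Finset.prod_congr rfl (fun x _ => h1 x), ← map_prod]
  show h54_ofPS (h54_taylor τ₀ _) = _
  congr 2
  funext z
  have h2 : ((∏ x : SL(2, ℤ) ⧸ Gamma0 N,
      h54_conjA (h54_evData ι N) (Quotient.out x) a : h54_Hol) : ℍ → ℂ) =
      ∏ x : SL(2, ℤ) ⧸ Gamma0 N,
        ((h54_conjA (h54_evData ι N) (Quotient.out x) a : h54_Hol) : ℍ → ℂ) :=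
    map_prod h54_Hol.subtype _ _
  rw [h2, Finset.prod_apply]
  rfl

/-- The evaluation of a polynomial in `j`. -/
theorem h66_ev_aeval_j (P : Polynomial K) (τ : ℍ) :
    h54_ev ι N (Polynomial.aeval (⟨coeffEmb K jq, h78_jq_mem_AN K N⟩ : h78_AN K N) P) τ =
      (P.map ι).eval (h77_j τ) := by
  have h1 : (Pi.evalRingHom (fun _ : ℍ => ℂ) τ).comp
      ((h54_ev ι N).comp (algebraMap K (h78_AN K N))) = ι := by
    ext c
    show h54_ev ι N (algebraMap K (h78_AN K N) c) τ = ι c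
    rw [h54_ev_const]
  have h2 : h54_ev ι N (Polynomial.aeval (⟨coeffEmb K jq, h78_jq_mem_AN K N⟩ : h78_AN K N) P) τ =
      ((Pi.evalRingHom (fun _ : ℍ => ℂ) τ).comp (h54_ev ι N))
        (Polynomial.eval₂ (algebraMap K (h78_AN K N))
          (⟨coeffEmb K jq, h78_jq_mem_AN K N⟩ : h78_AN K N) P) := rfl
  rw [h2, Polynomial.hom_eval₂, RingHom.comp_assoc, h1, Polynomial.eval_map]
  congr 1
  show h54_ev ι N ⟨coeffEmb K jq, h78_jq_mem_AN K N⟩ τ = h77_j τ
  rw [h54_ev_j]

/-- `aeval j P` in the function field is the image of `aeval j P` in `A_N`. -/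
theorem h66_aeval_j_eq [NeZero N] (P : Polynomial K) :
    Polynomial.aeval (h78_j K N) P =
      algebraMap (h78_AN K N) (gal_F K N)
        (Polynomial.aeval (⟨coeffEmb K jq, h78_jq_mem_AN K N⟩ : h78_AN K N) P) := by
  rw [h54_j_eq_algebraMap, ← Polynomial.aeval_algebraMap_apply]

set_option synthInstance.maxHeartbeats 400000 in
set_option maxHeartbeats 1600000 in
/-- **Degree and norm formula** for `F_K(N)` over `K(j)` from the point family at `τ₀`, for an
algebraically closed field `K` with an embedding into `ℂ`. -/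
theorem h66_degree_norm [IsAlgClosed K] [NeZero N] [Fintype (SL(2, ℤ) ⧸ Gamma0 N)] (τ₀ : ℍ) :
    FiniteDimensional (IntermediateField.adjoin K {h78_j K N}) (gal_F K N) ∧
    Module.finrank (IntermediateField.adjoin K {h78_j K N}) (gal_F K N)
      = Fintype.card (SL(2, ℤ) ⧸ Gamma0 N) ∧
    ∀ (x₀ : SL(2, ℤ) ⧸ Gamma0 N) (h : gal_F K N),
      h54_sigma ι N τ₀ x₀
          (algebraMap (IntermediateField.adjoin K {h78_j K N}) (gal_F K N)
            (Algebra.norm (IntermediateField.adjoin K {h78_j K N}) h))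
        = ∏ x : SL(2, ℤ) ⧸ Gamma0 N, h54_sigma ι N τ₀ x h := by
  have : CharZero K := algebraRat.charZero K
  have : Nonempty (SL(2, ℤ) ⧸ Gamma0 N) := ⟨((1 : SL(2, ℤ)) : SL(2, ℤ) ⧸ Gamma0 N)⟩
  refine h71_norm_core_ringHom (K := K) (h78_ANF K N) (h66_gen K N) (h66_gen_mem_ANF K N)
    (h71_adjoin_eq_top _ (h66_adjoin_gen K N)) (h54_sigma ι N τ₀) (h54_sigma_injective ι N τ₀)
    (fun x y e => h54_sigma_eqOn_adjoin ι N τ₀ x y e.2) ?_
  intro a ha
  obtain ⟨P, hP, -⟩ := h14_prod_inv ι N (⟨(a : LaurentSeries K), ha⟩ : h78_AN K N)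
  refine ⟨Polynomial.aeval (IntermediateField.AdjoinSimple.gen K (h78_j K N)) P,
    ((1 : SL(2, ℤ)) : SL(2, ℤ) ⧸ Gamma0 N), ?_⟩
  have ha' : a = algebraMap (h78_AN K N) (gal_F K N) ⟨(a : LaurentSeries K), ha⟩ := rfl
  rw [← Polynomial.aeval_algebraMap_apply, IntermediateField.AdjoinSimple.algebraMap_gen,
    h66_aeval_j_eq, h66_sigma_algebraMap]
  conv_rhs => rw [ha']
  rw [h66_prod_sigma]
  congr 2
  funext z
  rw [h66_ev_aeval_j, h54_j_smul]
  exact (hP z).symm

end generic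

section exportsK

open IntermediateField

variable {K : Type*} [Field K] [Algebra ℚ K] [IsAlgClosed K] (ι : K →+* ℂ) (N : ℕ) [NeZero N]

include ι in
/-- `F_K(N)` is finite over `K(j)` (`K` algebraically closed, embeddable into `ℂ`). -/
theorem gal_finiteDimensional_K : FiniteDimensional K⟮h78_j K N⟯ (gal_F K N) := by
  let _ : Fintype (SL(2, ℤ) ⧸ Gamma0 N) := Fintype.ofFinite _
  exact (h66_degree_norm ι N UpperHalfPlane.I).1

include ι in
/-- `[F_K(N) : K(j)] = [SL₂(ℤ) : Γ₀(N)]` (`K` algebraically closed, embeddable into `ℂ`). -/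
theorem gal_finrank_K :
    Module.finrank K⟮h78_j K N⟯ (gal_F K N) = Nat.card (SL(2, ℤ) ⧸ Gamma0 N) := by
  let _ : Fintype (SL(2, ℤ) ⧸ Gamma0 N) := Fintype.ofFinite _
  rw [(h66_degree_norm ι N UpperHalfPlane.I).2.1, Nat.card_eq_fintype_card]

/-- Norm formula for the point family at any `τ₀`: the expansion of the norm is the product of
the expansions of the conjugates. -/
theorem gal_sigma_norm_K [Fintype (SL(2, ℤ) ⧸ Gamma0 N)] (τ₀ : ℍ)
    (x₀ : SL(2, ℤ) ⧸ Gamma0 N) (h : gal_F K N) :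
    h54_sigma ι N τ₀ x₀
        (algebraMap K⟮h78_j K N⟯ (gal_F K N) (Algebra.norm K⟮h78_j K N⟯ h))
      = ∏ x : SL(2, ℤ) ⧸ Gamma0 N, h54_sigma ι N τ₀ x h :=
  (h66_degree_norm ι N τ₀).2.2 x₀ h

end exportsK

/-! ### The row statements (`K = ℂ`) -/

open IntermediateField in
/-- **Row AN-DICT-DEG.** `F_ℂ(N)` is finite over `ℂ(j)`. -/
theorem gal_finiteDimensional_C (N : ℕ) [NeZero N] :
    FiniteDimensional ℂ⟮h78_j ℂ N⟯ (gal_F ℂ N) :=
  gal_finiteDimensional_K (RingHom.id ℂ) N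

open IntermediateField in
/-- **Row AN-DICT-DEG.** `[F_ℂ(N) : ℂ(j)] = [SL₂(ℤ) : Γ₀(N)]`. -/
theorem gal_finrank_C (N : ℕ) [NeZero N] :
    Module.finrank ℂ⟮h78_j ℂ N⟯ (gal_F ℂ N) = Nat.card (SL(2, ℤ) ⧸ Gamma0 N) :=
  gal_finrank_K (RingHom.id ℂ) N

open IntermediateField in
/-- Norm formula for the point family over `ℂ`. -/
theorem gal_sigma_norm (N : ℕ) [NeZero N] [Fintype (SL(2, ℤ) ⧸ Gamma0 N)] (τ₀ : ℍ)
    (x₀ : SL(2, ℤ) ⧸ Gamma0 N) (h : gal_F ℂ N) :
    h54_sigma (RingHom.id ℂ) N τ₀ x₀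
        (algebraMap ℂ⟮h78_j ℂ N⟯ (gal_F ℂ N) (Algebra.norm ℂ⟮h78_j ℂ N⟯ h))
      = ∏ x : SL(2, ℤ) ⧸ Gamma0 N, h54_sigma (RingHom.id ℂ) N τ₀ x h :=
  gal_sigma_norm_K (RingHom.id ℂ) N τ₀ x₀ h

end Fermat.Agent.GAL
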