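import Mathlib
import Fermat.Agent.GAL.h77_AnDefs
import Fermat.Agent.S24.h54_Fibres
import Fermat.Agent.S24.h35_PlaceBasic
import Fermat.Agent.GAL.AnDictAbs
import Fermat.Agent.GAL.AnDictDeg

/-!
# GAL row 441 AN-DICT-PT: the point places of `F_K(N)` (helper66)

Every place `P` of `F_K(N)` (`K` algebraically closed with `ι : K →+* ℂ`; in particular `K = ℂ`)
at which `j` is regular is the place of a point `g⁻¹ τ₀` of `ℍ`, with the exact ramification
relation between Taylor orders at `τ₀` and `ord_P`.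
-/

set_option autoImplicit false

open UpperHalfPlane ModularCurve CongruenceSubgroup AlgebraicCurve ModularForm EisensteinSeries
open scoped MatrixGroups Manifold

namespace Fermat.Agent.GAL

open Fermat.Agent.S24 Fermat.Agent.S16

section generic

open IntermediateField

variable {K : Type*} [Field K] [Algebra ℚ K] [IsAlgClosed K] (ι : K →+* ℂ) (N : ℕ) [NeZero N]

set_option synthInstance.maxHeartbeats 400000 in
set_option maxHeartbeats 1600000 in
/-- The general point dictionary: `τ₀` above `a`, `g₀` fixing `τ₀`, and the divisibility (M):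
a place `P` over `j = a` is the place of some coset `x`, with the exact relation. -/
theorem h66_dict_point_core (P : Place K (gal_F K N)) (a : K)
    (hPa : 0 < P.ord (h78_j K N - algebraMap K (gal_F K N) a))
    (τ₀ : ℍ) (hτ : h77_j τ₀ = ι a) (g₀ : SL(2, ℤ)) (hg₀ : g₀ • τ₀ = τ₀)
    (hM : ∀ (x : SL(2, ℤ) ⧸ Gamma0 N) (f : gal_F K N), f ≠ 0 →
      ((if ι a = 0 then 3 else if ι a = 1728 then 2 else 1 : ℤ)) ∣
        h54_w ι N τ₀ x f * (Function.minimalPeriod
          (fun y : SL(2, ℤ) ⧸ Gamma0 N => g₀ • y) x : ℤ)) :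
    ∃ x : SL(2, ℤ) ⧸ Gamma0 N, ∀ f : gal_F K N, f ≠ 0 →
      h54_w ι N τ₀ x f * (Function.minimalPeriod
          (fun y : SL(2, ℤ) ⧸ Gamma0 N => g₀ • y) x : ℤ)
        = (if ι a = 0 then 3 else if ι a = 1728 then 2 else 1 : ℤ) * P.ord f := by
  classical
  let _ : Fintype (SL(2, ℤ) ⧸ Gamma0 N) := Fintype.ofFinite _
  have : CharZero K := algebraRat.charZero K
  have hfd : FiniteDimensional K⟮h78_j K N⟯ (gal_F K N) := gal_finiteDimensional_K ι N
  have hcard : Fintype.card (SL(2, ℤ) ⧸ Gamma0 N) = Module.finrank K⟮h78_j K N⟯ (gal_F K N) := by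
    rw [gal_finrank_K ι N, Nat.card_eq_fintype_card]
  refine gal_fibre_exact (h78_j K N) (h78_j_transcendental K N) a g₀ (h54_w ι N τ₀) ?_
    (if ι a = 0 then 3 else if ι a = 1728 then 2 else 1) ?_ ?_ ?_ hM ?_ hcard P hPa
  · intro x
    exact ⟨fun f₁ f₂ h₁ h₂ => h54_w_mul ι N τ₀ x h₁ h₂,
      fun f₁ f₂ _ _ h => h54_w_add ι N τ₀ x h, fun c _ => h54_w_const ι N τ₀ x c⟩
  · split_ifs <;> norm_num
  · intro x
    exact h54_w_j_sub_of_eq ι N τ₀ x a hτ
  · intro x
    funext f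
    exact h54_ptX_order_smul_of_fixed (h54_evData ι N) g₀ τ₀ hg₀ x f
  · intro h hh x₀
    show (h54_sigma ι N τ₀ x₀ _).order = ∑ x, (h54_sigma ι N τ₀ x h).order
    rw [gal_sigma_norm_K ι N τ₀ x₀ h]
    exact h54_order_prod Finset.univ _ (fun x _ => (map_ne_zero (h54_sigma ι N τ₀ x)).mpr hh)

omit [IsAlgClosed K] [NeZero N] in
/-- The order function of the point family on a quotient of two elements of `A_N`: the
difference of the Taylor orders of the conjugates. -/
theorem h66_w_div (τ₀ : ℍ) (x : SL(2, ℤ) ⧸ Gamma0 N) {a b : h78_AN K N} (ha : a ≠ 0)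
    (hb : b ≠ 0) :
    h54_w ι N τ₀ x (algebraMap (h78_AN K N) (gal_F K N) a /
        algebraMap (h78_AN K N) (gal_F K N) b) =
      ((h54_taylor τ₀ (fun z => h54_ev ι N a ((Quotient.out x)⁻¹ • z))).order.toNat : ℤ)
        - ((h54_taylor τ₀ (fun z => h54_ev ι N b ((Quotient.out x)⁻¹ • z))).order.toNat : ℤ) := by
  have hne : ∀ c : h78_AN K N, c ≠ 0 →
      h54_taylor τ₀ (fun z => h54_ev ι N c ((Quotient.out x)⁻¹ • z)) ≠ 0 := by
    intro c hc h0
    have h1 : h54_ptA (h54_evData ι N) (Quotient.out x) τ₀ c = 0 := by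
      rw [h54_ptA_apply, h0, map_zero]
    exact hc (h54_ptA_injective (h54_evData ι N) (Quotient.out x) τ₀ (by rw [h1, map_zero]))
  show (h54_lift (h54_ptA (h54_evData ι N) (Quotient.out x) τ₀)
      (h54_ptA_injective (h54_evData ι N) (Quotient.out x) τ₀)
      (algebraMap (h78_AN K N) (gal_F K N) a / algebraMap (h78_AN K N) (gal_F K N) b)).order = _
  rw [h54_lift_order_div_algebraMap _ _ ha hb, h54_ptA_apply, h54_ptA_apply,
    h54_order_ofPS (hne a ha), h54_order_ofPS (hne b hb)]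

omit [Algebra ℚ K] [IsAlgClosed K] [NeZero N] in
/-- A coset fixed by `g₀` : the conjugate of `g₀` by a representative lies in `Γ₀(N)`. -/
theorem h66_conj_mem_of_fixed (g₀ : SL(2, ℤ)) (x : SL(2, ℤ) ⧸ Gamma0 N) (hfix : g₀ • x = x) :
    (Quotient.out x)⁻¹ * g₀ * Quotient.out x ∈ Gamma0 N := by
  have hx : ((Quotient.out x : SL(2, ℤ)) : SL(2, ℤ) ⧸ Gamma0 N) = x := QuotientGroup.out_eq' x
  have h1 : ((g₀ * Quotient.out x : SL(2, ℤ)) : SL(2, ℤ) ⧸ Gamma0 N) =
      ((Quotient.out x : SL(2, ℤ)) : SL(2, ℤ) ⧸ Gamma0 N) := by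
    rw [hx]
    conv_rhs => rw [← hfix, ← hx]
    rfl
  have h2 := QuotientGroup.eq.mp h1
  have h3 := inv_mem h2
  have h4 : ((g₀ * Quotient.out x)⁻¹ * Quotient.out x)⁻¹ =
      (Quotient.out x)⁻¹ * g₀ * Quotient.out x := by group
  rwa [h4] at h3

set_option synthInstance.maxHeartbeats 400000 in
set_option maxHeartbeats 1600000 in
/-- **Point dictionary**, generic algebraically closed `K ⊆ ℂ`. -/
theorem gal_dict_point_K (P : Place K (gal_F K N))
    (hP : h78_j K N ∈ P.toValuationSubring) :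
    ∃ (τ₀ : ℍ) (g : SL(2, ℤ)) (e : ℕ),
      (∀ a b : h78_AN K N, a ≠ 0 → b ≠ 0 →
        (((h54_taylor τ₀ (fun z => h54_ev ι N a (g⁻¹ • z))).order.toNat : ℤ)
          - ((h54_taylor τ₀ (fun z => h54_ev ι N b (g⁻¹ • z))).order.toNat : ℤ))
          = e * P.ord (algebraMap (h78_AN K N) (gal_F K N) a /
              algebraMap (h78_AN K N) (gal_F K N) b)) ∧
      (e = 1 ∨
        (e = 2 ∧ τ₀ = UpperHalfPlane.I ∧ g⁻¹ * ModularGroup.S * g ∈ Gamma0 N) ∨
        (e = 3 ∧ τ₀ = h54_rho ∧ g⁻¹ * (ModularGroup.S * ModularGroup.T) * g ∈ Gamma0 N)) := by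
  have hfd : FiniteDimensional K⟮h78_j K N⟯ (gal_F K N) := gal_finiteDimensional_K ι N
  have halg : Algebra.IsAlgebraic K⟮h78_j K N⟯ (gal_F K N) := Algebra.IsAlgebraic.of_finite _ _
  obtain ⟨a, ha⟩ := h35_exists_value_of_transcendental P (h78_j_transcendental K N) hP
  have hdiv : ∀ {c d : h78_AN K N}, c ≠ 0 → d ≠ 0 →
      algebraMap (h78_AN K N) (gal_F K N) c / algebraMap (h78_AN K N) (gal_F K N) d ≠ 0 := by
    intro c d hc hd
    have hinj : Function.Injective (algebraMap (h78_AN K N) (gal_F K N)) :=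
      FaithfulSMul.algebraMap_injective _ _
    exact div_ne_zero (fun h => hc (hinj (by rw [h, map_zero])))
      (fun h => hd (hinj (by rw [h, map_zero])))
  by_cases h0 : ι a = 0
  · -- the fibre over `j = 0`: `τ₀ = ρ`, `g₀ = S T`, `E = 3`
    have hτ : h77_j h54_rho = ι a := by rw [h0]; exact h39_jfun_rho
    have hper : ∀ x : SL(2, ℤ) ⧸ Gamma0 N, Function.IsPeriodicPt
        (fun y : SL(2, ℤ) ⧸ Gamma0 N => (ModularGroup.S * ModularGroup.T) • y) 3 x := by
      intro x
      show (fun y : SL(2, ℤ) ⧸ Gamma0 N => (ModularGroup.S * ModularGroup.T) • y)^[3] x = x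
      rw [smul_iterate, h29_ST_cube]
      exact h29_neg_one_smul N x
    obtain ⟨x, hx⟩ := h66_dict_point_core ι N P a ha h54_rho hτ
      (ModularGroup.S * ModularGroup.T) h54_ST_smul_rho (by
        intro x f hf
        rw [if_pos h0]
        rcases (Nat.dvd_prime Nat.prime_three).mp (hper x).minimalPeriod_dvd with h1 | h3
        · have hfix : (ModularGroup.S * ModularGroup.T) • x = x :=
            Function.minimalPeriod_eq_one_iff_isFixedPt.mp h1
          exact Dvd.dvd.mul_right (h54_w_three_dvd ι N x hfix hf) _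
        · rw [h3]
          exact dvd_mul_left _ _)
    rw [if_pos h0] at hx
    rcases (Nat.dvd_prime Nat.prime_three).mp (hper x).minimalPeriod_dvd with h1 | h3
    · have hfix : (ModularGroup.S * ModularGroup.T) • x = x :=
        Function.minimalPeriod_eq_one_iff_isFixedPt.mp h1
      refine ⟨h54_rho, Quotient.out x, 3, fun c d hc hd => ?_,
        Or.inr (Or.inr ⟨rfl, rfl, h66_conj_mem_of_fixed N _ x hfix⟩)⟩
      have h2 := hx _ (hdiv hc hd)
      rw [h1, h66_w_div ι N h54_rho x hc hd] at h2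
      push_cast at h2 ⊢
      linarith
    · refine ⟨h54_rho, Quotient.out x, 1, fun c d hc hd => ?_, Or.inl rfl⟩
      have h2 := hx _ (hdiv hc hd)
      rw [h3, h66_w_div ι N h54_rho x hc hd] at h2
      push_cast at h2 ⊢
      linarith
  by_cases h1728 : ι a = 1728
  · -- the fibre over `j = 1728`: `τ₀ = i`, `g₀ = S`, `E = 2`
    have hτ : h77_j UpperHalfPlane.I = ι a := by rw [h1728]; exact h39_jfun_I
    have hper : ∀ x : SL(2, ℤ) ⧸ Gamma0 N, Function.IsPeriodicPt
        (fun y : SL(2, ℤ) ⧸ Gamma0 N => ModularGroup.S • y) 2 x := by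
      intro x
      show (fun y : SL(2, ℤ) ⧸ Gamma0 N => ModularGroup.S • y)^[2] x = x
      rw [smul_iterate, h29_S_sq]
      exact h29_neg_one_smul N x
    obtain ⟨x, hx⟩ := h66_dict_point_core ι N P a ha UpperHalfPlane.I hτ
      ModularGroup.S h54_S_smul_I (by
        intro x f hf
        rw [if_neg h0, if_pos h1728]
        rcases (Nat.dvd_prime Nat.prime_two).mp (hper x).minimalPeriod_dvd with h1 | h2
        · have hfix : ModularGroup.S • x = x :=
            Function.minimalPeriod_eq_one_iff_isFixedPt.mp h1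
          exact Dvd.dvd.mul_right (h54_w_two_dvd ι N x hfix hf) _
        · rw [h2]
          exact dvd_mul_left _ _)
    rw [if_neg h0, if_pos h1728] at hx
    rcases (Nat.dvd_prime Nat.prime_two).mp (hper x).minimalPeriod_dvd with h1 | h2
    · have hfix : ModularGroup.S • x = x :=
        Function.minimalPeriod_eq_one_iff_isFixedPt.mp h1
      refine ⟨UpperHalfPlane.I, Quotient.out x, 2, fun c d hc hd => ?_,
        Or.inr (Or.inl ⟨rfl, rfl, h66_conj_mem_of_fixed N _ x hfix⟩)⟩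
      have h3 := hx _ (hdiv hc hd)
      rw [h1, h66_w_div ι N UpperHalfPlane.I x hc hd] at h3
      push_cast at h3 ⊢
      linarith
    · refine ⟨UpperHalfPlane.I, Quotient.out x, 1, fun c d hc hd => ?_, Or.inl rfl⟩
      have h3 := hx _ (hdiv hc hd)
      rw [h2, h66_w_div ι N UpperHalfPlane.I x hc hd] at h3
      push_cast at h3 ⊢
      linarith
  · -- the unramified fibres
    obtain ⟨τ₀, hτ⟩ := h54_exists_point (ι a)
    have hmp : ∀ x : SL(2, ℤ) ⧸ Gamma0 N, Function.minimalPeriod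
        (fun y : SL(2, ℤ) ⧸ Gamma0 N => (1 : SL(2, ℤ)) • y) x = 1 := fun x =>
      Function.minimalPeriod_eq_one_iff_isFixedPt.mpr (one_smul _ x)
    obtain ⟨x, hx⟩ := h66_dict_point_core ι N P a ha τ₀ hτ 1 (one_smul _ _) (by
      intro x f hf
      rw [if_neg h0, if_neg h1728]
      exact one_dvd _)
    rw [if_neg h0, if_neg h1728] at hx
    refine ⟨τ₀, Quotient.out x, 1, fun c d hc hd => ?_, Or.inl rfl⟩
    have h3 := hx _ (hdiv hc hd)
    rw [hmp x, h66_w_div ι N τ₀ x hc hd] at h3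
    push_cast at h3 ⊢
    linarith

end generic

/-- **Row AN-DICT-PT.** Point places: a place of `F_ℂ(N)` at which `j` is regular is the place of
a point `g⁻¹ τ₀`: for `a, b ∈ A_N`, `ord_{τ₀}(a ∘ g⁻¹) - ord_{τ₀}(b ∘ g⁻¹) = e * ord_P (a / b)`
(Taylor orders of S24), and `e > 1` only if `τ₀ = i` (resp. `ρ`) and the elliptic element fixing
the point lies in `g Γ₀(N) g⁻¹`. -/
theorem gal_dict_point (N : ℕ) [NeZero N] (P : Place ℂ (gal_F ℂ N))
    (hP : h78_j ℂ N ∈ P.toValuationSubring) :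
    ∃ (τ₀ : ℍ) (g : SL(2, ℤ)) (e : ℕ),
      (∀ a b : h78_AN ℂ N, a ≠ 0 → b ≠ 0 →
        (((h54_taylor τ₀ (fun z => h54_ev (RingHom.id ℂ) N a (g⁻¹ • z))).order.toNat : ℤ)
          - ((h54_taylor τ₀ (fun z => h54_ev (RingHom.id ℂ) N b (g⁻¹ • z))).order.toNat : ℤ))
          = e * P.ord (algebraMap (h78_AN ℂ N) (gal_F ℂ N) a /
              algebraMap (h78_AN ℂ N) (gal_F ℂ N) b)) ∧
      (e = 1 ∨
        (e = 2 ∧ τ₀ = UpperHalfPlane.I ∧ g⁻¹ * ModularGroup.S * g ∈ Gamma0 N) ∨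
        (e = 3 ∧ τ₀ = h54_rho ∧ g⁻¹ * (ModularGroup.S * ModularGroup.T) * g ∈ Gamma0 N)) :=
  gal_dict_point_K (RingHom.id ℂ) N P hP

end Fermat.Agent.GAL
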