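import Mathlib
import Fermat.Agent.GAL.h77_AnDefs
import Fermat.Agent.S24.h14_ProdInv

/-!
# GAL, analytic layer, row AN-DIVN (core): `Φ(f) = U ^ n` ⟹ `n ∣ ord_P f` at every place

`U` is a holomorphic function on `ℍ` with multiplier `χ` on `Γ₀(N)`, `χ` trivial on the parabolic
and on the finite order elements, and `f ∈ F_ℂ(N)` has analytic realisation `U ^ n`.  Then the
divisor of `f` is divisible by `n`.

This file proves the two cases (point places / cusp places) with the exact place dictionary of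
`F_ℂ(N)` (rows AN-DICT-PT, AN-DICT-CUSP) and the existence of `q`-expansions of periodic functions
of moderate growth (row AN-QEXP) as explicit hypotheses, in the verbatim shape of those rows.
-/

set_option autoImplicit false

open UpperHalfPlane ModularCurve CongruenceSubgroup AlgebraicCurve ModularForm EisensteinSeries
open scoped MatrixGroups Manifold

namespace Fermat.Agent.GAL

open Fermat.Agent.S24 Fermat.Agent.S16

/-! ### generalities -/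

theorem h19_mdiff_pow {f : ℍ → ℂ} (hf : MDiff f) (n : ℕ) : MDiff (f ^ n) := by
  induction n with
  | zero =>
    rw [pow_zero]
    exact mdifferentiable_const
  | succ k ih =>
    rw [pow_succ]
    exact ih.mul hf

theorem h19_taylor_pow {f : ℍ → ℂ} (hf : MDiff f) (τ : ℍ) (n : ℕ) :
    h54_taylor τ (f ^ n) = h54_taylor τ f ^ n := by
  induction n with
  | zero =>
    rw [pow_zero, pow_zero]
    exact h54_taylor_one τ
  | succ k ih =>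
    rw [pow_succ, pow_succ, h54_taylor_mul (h19_mdiff_pow hf k) hf, ih]

/-- A function with the zero expansion is zero. -/
theorem h19_isQExp_zero {h : ℝ} {G : ℍ → ℂ} (hG : h77_IsQExp h 0 G) : G = 0 := by
  funext τ
  have h1 := hG τ
  have h2 : (fun k : ℤ => (0 : LaurentSeries ℂ).coeff k * Function.Periodic.qParam h τ ^ k)
      = fun _ => 0 := by
    funext k
    simp
  rw [h2] at h1
  exact h1.unique hasSum_zero

theorem h19_comp_ne_zero {G : ℍ → ℂ} (hG : G ≠ 0) (g : SL(2, ℤ)) :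
    (fun z : ℍ => G (g⁻¹ • z)) ≠ 0 := by
  intro h
  apply hG
  funext τ
  have := congrFun h (g • τ)
  simpa [inv_smul_smul] using this

/-- The element `g⁻¹ s g` moves `g⁻¹ z` to `g⁻¹ (s z)`. -/
theorem h19_conj_smul (g s : SL(2, ℤ)) (z : ℍ) :
    g⁻¹ • s • z = (g⁻¹ * s * g) • (g⁻¹ • z) := by
  rw [mul_smul, mul_smul, smul_inv_smul]

/-! ### the functional identity -/

/-- `Φ(a / b) = U ^ n` means `ev a = U ^ n * ev b` on `ℍ`. -/
theorem h19_ev_eq (N : ℕ) [NeZero N] (n : ℕ) (U : ℍ → ℂ) (hU : MDiff U) (a b : h78_AN ℂ N)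
    (hb : b ≠ 0)
    (hf : gal_Phi (RingHom.id ℂ) N
        (algebraMap (h78_AN ℂ N) (gal_F ℂ N) a / algebraMap (h78_AN ℂ N) (gal_F ℂ N) b)
      = algebraMap h25_Hol h25_Mer ((⟨U, hU⟩ : h25_Hol) ^ n)) (τ : ℍ) :
    h54_ev (RingHom.id ℂ) N a τ = U τ ^ n * h54_ev (RingHom.id ℂ) N b τ := by
  rw [map_div₀, gal_Phi_algebraMap, gal_Phi_algebraMap] at hf
  have hb' : algebraMap h25_Hol h25_Mer (gal_evHol (RingHom.id ℂ) N b) ≠ 0 := by
    intro h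
    have h1 := (IsFractionRing.injective h25_Hol h25_Mer) (h.trans (map_zero _).symm)
    exact hb (gal_evHol_injective _ N (h1.trans (map_zero _).symm))
  rw [div_eq_iff hb', ← map_mul] at hf
  have h2 := IsFractionRing.injective h25_Hol h25_Mer hf
  have h3 := congrArg (fun x : h25_Hol => (x : ℍ → ℂ) τ) h2
  simp only [Subring.coe_mul, Subring.coe_pow, Pi.mul_apply, Pi.pow_apply, gal_evHol_coe] at h3
  exact h3

/-- `f ≠ 0`. -/
theorem h19_ne_zero (N : ℕ) [NeZero N] (n : ℕ) (U : ℍ → ℂ) (hU : MDiff U) (hU0 : ∃ τ, U τ ≠ 0)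
    (f : gal_F ℂ N)
    (hf : gal_Phi (RingHom.id ℂ) N f = algebraMap h25_Hol h25_Mer ((⟨U, hU⟩ : h25_Hol) ^ n)) :
    f ≠ 0 := by
  rintro rfl
  rw [map_zero] at hf
  have h1 := (IsFractionRing.injective h25_Hol h25_Mer) (hf.symm.trans (map_zero _).symm)
  have hn : n ≠ 0 := by
    rintro rfl
    rw [pow_zero] at h1
    exact one_ne_zero h1
  have h2 : (⟨U, hU⟩ : h25_Hol) = 0 := (pow_eq_zero_iff hn).mp h1
  obtain ⟨τ, hτ⟩ := hU0
  exact hτ (congrArg (fun x : h25_Hol => (x : ℍ → ℂ) τ) h2)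

/-! ### the point places -/

theorem h19_S_pow_four : (ModularGroup.S : SL(2, ℤ)) ^ 4 = 1 := by decide

theorem h19_ST_pow_six : (ModularGroup.S * ModularGroup.T : SL(2, ℤ)) ^ 6 = 1 := by decide

/-- A conjugate of a finite order element that lies in `Γ₀(N)` has finite order there. -/
theorem h19_isOfFinOrder_conj (N : ℕ) (g s : SL(2, ℤ)) (k : ℕ) (hk : 0 < k) (hs : s ^ k = 1)
    (hmem : g⁻¹ * s * g ∈ Gamma0 N) : IsOfFinOrder (⟨g⁻¹ * s * g, hmem⟩ : ↥(Gamma0 N)) := by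
  rw [isOfFinOrder_iff_pow_eq_one]
  refine ⟨k, hk, Subtype.ext ?_⟩
  have h1 := conj_pow (a := g⁻¹) (b := s) (i := k)
  rw [inv_inv] at h1
  rw [Subgroup.coe_pow, Subgroup.coe_one]
  show (g⁻¹ * s * g) ^ k = 1
  rw [h1, hs, mul_one, inv_mul_cancel]

/-- Invariance of `V = U ∘ g⁻¹` under an element `s` whose conjugate lies in `Γ₀(N)` and is killed
by `χ`. -/
theorem h19_V_invariant (N : ℕ) (χ : ↥(Gamma0 N) →* ℂˣ) (U : ℍ → ℂ) (hU : gal_AutForm N χ U)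
    (g s : SL(2, ℤ)) (hmem : g⁻¹ * s * g ∈ Gamma0 N) (hχ : χ ⟨g⁻¹ * s * g, hmem⟩ = 1) (z : ℍ) :
    U (g⁻¹ • s • z) = U (g⁻¹ • z) := by
  rw [h19_conj_smul]
  have h1 := hU.mult ⟨g⁻¹ * s * g, hmem⟩ (g⁻¹ • z)
  rw [hχ, Units.val_one, one_mul] at h1
  exact h1

/-- **AN-DIVN, point places.** -/
theorem h19_div_n_point (N : ℕ) [NeZero N] (n : ℕ) (χ : ↥(Gamma0 N) →* ℂˣ)
    (hfin : ∀ γ : ↥(Gamma0 N), IsOfFinOrder γ → χ γ = 1)
    (U : ℍ → ℂ) (hU : gal_AutForm N χ U) (hU0 : ∃ τ, U τ ≠ 0) (f : gal_F ℂ N)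
    (hf : gal_Phi (RingHom.id ℂ) N f = algebraMap h25_Hol h25_Mer ((⟨U, hU.mdiff⟩ : h25_Hol) ^ n))
    (P : Place ℂ (gal_F ℂ N))
    (hpt : ∃ (τ₀ : ℍ) (g : SL(2, ℤ)) (e : ℕ),
      (∀ a b : h78_AN ℂ N, a ≠ 0 → b ≠ 0 →
        (((h54_taylor τ₀ (fun z => h54_ev (RingHom.id ℂ) N a (g⁻¹ • z))).order.toNat : ℤ)
          - ((h54_taylor τ₀ (fun z => h54_ev (RingHom.id ℂ) N b (g⁻¹ • z))).order.toNat : ℤ))
          = e * P.ord (algebraMap (h78_AN ℂ N) (gal_F ℂ N) a /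
              algebraMap (h78_AN ℂ N) (gal_F ℂ N) b)) ∧
      (e = 1 ∨
        (e = 2 ∧ τ₀ = UpperHalfPlane.I ∧ g⁻¹ * ModularGroup.S * g ∈ Gamma0 N) ∨
        (e = 3 ∧ τ₀ = h54_rho ∧ g⁻¹ * (ModularGroup.S * ModularGroup.T) * g ∈ Gamma0 N))) :
    (n : ℤ) ∣ P.ord f := by
  have hf0 : f ≠ 0 := h19_ne_zero N n U hU.mdiff hU0 f hf
  obtain ⟨a, b, ha, hb, rfl⟩ := h54_exists_div (A := h78_AN ℂ N) hf0
  have key := h19_ev_eq N n U hU.mdiff a b hb hf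
  obtain ⟨τ₀, g, e, hdict, he⟩ := hpt
  -- the three conjugate functions
  have hUne : U ≠ 0 := by
    obtain ⟨τ, hτ⟩ := hU0
    exact fun h => hτ (congrFun h τ)
  have hV : MDiff (fun z : ℍ => U (g⁻¹ • z)) := h54_mdiff_comp_smul hU.mdiff g⁻¹
  have hV0 : (fun z : ℍ => U (g⁻¹ • z)) ≠ 0 := h19_comp_ne_zero hUne g
  have hA : MDiff (fun z : ℍ => h54_ev (RingHom.id ℂ) N a (g⁻¹ • z)) :=
    h54_mdiff_comp_smul (h54_ev_mdiff _ N a) g⁻¹
  have hB : MDiff (fun z : ℍ => h54_ev (RingHom.id ℂ) N b (g⁻¹ • z)) :=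
    h54_mdiff_comp_smul (h54_ev_mdiff _ N b) g⁻¹
  have hB0 : (fun z : ℍ => h54_ev (RingHom.id ℂ) N b (g⁻¹ • z)) ≠ 0 :=
    h19_comp_ne_zero (fun h => hb (h54_ev_injective _ N (h.trans (map_zero _).symm))) g
  have hAB : (fun z : ℍ => h54_ev (RingHom.id ℂ) N a (g⁻¹ • z))
      = (fun z : ℍ => U (g⁻¹ • z)) ^ n * (fun z : ℍ => h54_ev (RingHom.id ℂ) N b (g⁻¹ • z)) := by
    funext z
    exact key (g⁻¹ • z)
  have hT : h54_taylor τ₀ (fun z : ℍ => h54_ev (RingHom.id ℂ) N a (g⁻¹ • z))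
      = h54_taylor τ₀ (fun z : ℍ => U (g⁻¹ • z)) ^ n
        * h54_taylor τ₀ (fun z : ℍ => h54_ev (RingHom.id ℂ) N b (g⁻¹ • z)) := by
    rw [hAB, h54_taylor_mul (h19_mdiff_pow hV n) hB, h19_taylor_pow hV]
  obtain ⟨v, hv⟩ := ENat.ne_top_iff_exists.mp (h54_taylor_order_ne_top hV hV0 τ₀)
  obtain ⟨bb, hbb⟩ := ENat.ne_top_iff_exists.mp (h54_taylor_order_ne_top hB hB0 τ₀)
  have hord : (h54_taylor τ₀ (fun z : ℍ => h54_ev (RingHom.id ℂ) N a (g⁻¹ • z))).order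
      = ((n * v + bb : ℕ) : ℕ∞) := by
    rw [hT, PowerSeries.order_mul, PowerSeries.order_pow, ← hv, ← hbb]
    push_cast
    rw [nsmul_eq_mul]
  have h1 := hdict a b ha hb
  rw [hord, ← hbb, ENat.toNat_natCast, ENat.toNat_natCast] at h1
  have h2 : (e : ℤ) * P.ord (algebraMap (h78_AN ℂ N) (gal_F ℂ N) a /
      algebraMap (h78_AN ℂ N) (gal_F ℂ N) b) = (n : ℤ) * v := by
    rw [← h1]
    push_cast
    ring
  have hvV : (h54_taylor τ₀ (fun z : ℍ => U (g⁻¹ • z))).order.toNat = v := by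
    rw [← hv, ENat.toNat_natCast]
  rcases he with rfl | ⟨rfl, rfl, hmem⟩ | ⟨rfl, rfl, hmem⟩
  · exact ⟨v, by simpa using h2⟩
  · have hχ := hfin _ (h19_isOfFinOrder_conj N g ModularGroup.S 4 (by norm_num) h19_S_pow_four hmem)
    have h3 : 2 ∣ v := by
      rw [← hvV]
      exact h54_two_dvd_order_I hV hV0
        (fun z => h19_V_invariant N χ U hU g ModularGroup.S hmem hχ z)
    obtain ⟨v', rfl⟩ := h3
    refine ⟨v', ?_⟩
    push_cast at h2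
    linarith
  · have hχ := hfin _ (h19_isOfFinOrder_conj N g (ModularGroup.S * ModularGroup.T) 6 (by norm_num)
      h19_ST_pow_six hmem)
    have h3 : 3 ∣ v := by
      rw [← hvV]
      exact h54_three_dvd_order_rho hV hV0
        (fun z => h19_V_invariant N χ U hU g (ModularGroup.S * ModularGroup.T) hmem hχ z)
    obtain ⟨v', rfl⟩ := h3
    refine ⟨v', ?_⟩
    push_cast at h2
    linarith

/-! ### the cusp places -/

/-- A conjugate of a translation has trace `2`. -/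
theorem h19_trace_conj_T (g : SL(2, ℤ)) (w : ℕ) :
    ((g⁻¹ * ModularGroup.T ^ w * g : SL(2, ℤ)) : Matrix (Fin 2) (Fin 2) ℤ).trace = 2 := by
  rw [Matrix.SpecialLinearGroup.coe_mul, Matrix.SpecialLinearGroup.coe_mul, mul_assoc,
    Matrix.trace_mul_comm, mul_assoc, ← Matrix.SpecialLinearGroup.coe_mul, mul_inv_cancel,
    Matrix.SpecialLinearGroup.coe_one, mul_one, ← zpow_natCast, ModularGroup.coe_T_zpow]
  simp [Matrix.trace_fin_two]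

/-- **AN-DIVN, cusp places.** -/
theorem h19_div_n_cusp (N : ℕ) [NeZero N] (n : ℕ) (χ : ↥(Gamma0 N) →* ℂˣ)
    (hpar : ∀ γ : ↥(Gamma0 N),
      ((γ : SL(2, ℤ)) : Matrix (Fin 2) (Fin 2) ℤ).trace ^ 2 = 4 → χ γ = 1)
    (U : ℍ → ℂ) (hU : gal_AutForm N χ U) (hU0 : ∃ τ, U τ ≠ 0) (f : gal_F ℂ N)
    (hf : gal_Phi (RingHom.id ℂ) N f = algebraMap h25_Hol h25_Mer ((⟨U, hU.mdiff⟩ : h25_Hol) ^ n))
    (P : Place ℂ (gal_F ℂ N))
    (hq : ∀ (w : ℕ) (_ : 0 < w) (G : ℍ → ℂ) (_ : MDiff G)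
      (_ : ∀ τ : ℍ, G ((w : ℝ) +ᵥ τ) = G τ) (m : ℕ) (C : ℝ)
      (_ : ∀ τ : ℍ, 1 ≤ τ.im → ‖G τ‖ ≤ C * Real.exp (2 * Real.pi * m * τ.im)),
      ∃ c : LaurentSeries ℂ, h77_IsQExp (w : ℝ) c G)
    (hcusp : ∃ (g : SL(2, ℤ)) (w : ℕ), 0 < w ∧ w ∣ N ∧ g⁻¹ * ModularGroup.T ^ w * g ∈ Gamma0 N ∧
      ∀ (a b : h78_AN ℂ N) (ca cb : LaurentSeries ℂ), a ≠ 0 → b ≠ 0 →
        h77_IsQExp (N : ℝ) ca (fun τ => h54_ev (RingHom.id ℂ) N a (g⁻¹ • τ)) →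
        h77_IsQExp (N : ℝ) cb (fun τ => h54_ev (RingHom.id ℂ) N b (g⁻¹ • τ)) →
        (N : ℤ) * P.ord (algebraMap (h78_AN ℂ N) (gal_F ℂ N) a /
            algebraMap (h78_AN ℂ N) (gal_F ℂ N) b)
          = w * (ca.order - cb.order)) :
    (n : ℤ) ∣ P.ord f := by
  have hf0 : f ≠ 0 := h19_ne_zero N n U hU.mdiff hU0 f hf
  obtain ⟨a, b, ha, hb, rfl⟩ := h54_exists_div (A := h78_AN ℂ N) hf0
  have key := h19_ev_eq N n U hU.mdiff a b hb hf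
  obtain ⟨g, w, hw, hwN, hmem, hdict⟩ := hcusp
  have hN : 0 < N := Nat.pos_of_ne_zero (NeZero.ne N)
  have hNR : (0 : ℝ) < (N : ℝ) := by exact_mod_cast hN
  have hUne : U ≠ 0 := by
    obtain ⟨τ, hτ⟩ := hU0
    exact fun h => hτ (congrFun h τ)
  have hV : MDiff (fun z : ℍ => U (g⁻¹ • z)) := h54_mdiff_comp_smul hU.mdiff g⁻¹
  have hV0 : (fun z : ℍ => U (g⁻¹ • z)) ≠ 0 := h19_comp_ne_zero hUne g
  have hB0 : (fun z : ℍ => h54_ev (RingHom.id ℂ) N b (g⁻¹ • z)) ≠ 0 :=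
    h19_comp_ne_zero (fun h => hb (h54_ev_injective _ N (h.trans (map_zero _).symm))) g
  -- `V` is `w`-periodic
  have hχ : χ ⟨g⁻¹ * ModularGroup.T ^ w * g, hmem⟩ = 1 := by
    apply hpar
    show ((g⁻¹ * ModularGroup.T ^ w * g : SL(2, ℤ)) : Matrix (Fin 2) (Fin 2) ℤ).trace ^ 2 = 4
    rw [h19_trace_conj_T]
    norm_num
  have hper : ∀ τ : ℍ, U (g⁻¹ • ((w : ℝ) +ᵥ τ)) = U (g⁻¹ • τ) := by
    intro τ
    have h1 := UpperHalfPlane.modular_T_zpow_smul τ (w : ℤ)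
    rw [zpow_natCast, Int.cast_natCast] at h1
    rw [← h1]
    exact h19_V_invariant N χ U hU g (ModularGroup.T ^ w) hmem hχ τ
  obtain ⟨m, C, hgr⟩ := hU.growth g⁻¹
  obtain ⟨cu, hcu⟩ := hq w hw (fun z : ℍ => U (g⁻¹ • z)) hV hper m C hgr
  -- dilation to the parameter `q_N`
  have hd0 : N / w ≠ 0 := by
    intro h
    have h1 := Nat.div_mul_cancel hwN
    rw [h, zero_mul] at h1
    exact hN.ne h1
  have : NeZero (N / w) := ⟨hd0⟩
  have hcU : h77_IsQExp (N : ℝ) (ModularCurve.qExpand ℂ (N / w) cu)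
      (fun z : ℍ => U (g⁻¹ • z)) := by
    have h1 := hcu.qExpand_width (N / w)
    have h2 : ((N / w : ℕ) : ℝ) * (w : ℝ) = (N : ℝ) := by
      exact_mod_cast Nat.div_mul_cancel hwN
    rwa [h2] at h1
  -- expansions of the conjugates of `a` and `b`
  obtain ⟨ca, hca⟩ := h14_ev_conj_exp (RingHom.id ℂ) N a g⁻¹
  obtain ⟨cb, hcb⟩ := h14_ev_conj_exp (RingHom.id ℂ) N b g⁻¹
  rw [ModularCurve.coeffMap_id] at hca hcb
  have hca' : h77_IsQExp (N : ℝ) ca (fun τ => h54_ev (RingHom.id ℂ) N a (g⁻¹ • τ)) := hca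
  have hcb' : h77_IsQExp (N : ℝ) cb (fun τ => h54_ev (RingHom.id ℂ) N b (g⁻¹ • τ)) := hcb
  have hprod : ca = ModularCurve.qExpand ℂ (N / w) cu ^ n * cb :=
    h77_IsQExp.unique hNR hca'
      (((hcU.pow n).mul hcb').congr (fun τ => (key (g⁻¹ • τ)).symm))
  have hcU0 : ModularCurve.qExpand ℂ (N / w) cu ≠ 0 := by
    intro h
    rw [h] at hcU
    exact hV0 (h19_isQExp_zero hcU)
  have hcb0 : cb ≠ 0 := by
    intro h
    rw [h] at hcb'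
    exact hB0 (h19_isQExp_zero hcb')
  have hord : ca.order = (n : ℤ) * (((N / w : ℕ) : ℤ) * cu.order) + cb.order := by
    rw [hprod, HahnSeries.order_mul (pow_ne_zero n hcU0) hcb0, HahnSeries.order_pow,
      h64_order_qExpand, nsmul_eq_mul]
  have h1 := hdict a b ca cb ha hb hca' hcb'
  rw [hord] at h1
  have h2 : ((w : ℤ)) * ((N / w : ℕ) : ℤ) = (N : ℤ) := by
    exact_mod_cast Nat.mul_div_cancel' hwN
  have h3 : (N : ℤ) * P.ord (algebraMap (h78_AN ℂ N) (gal_F ℂ N) a /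
      algebraMap (h78_AN ℂ N) (gal_F ℂ N) b) = (N : ℤ) * ((n : ℤ) * cu.order) := by
    rw [h1, ← h2]
    ring
  have hNZ : (N : ℤ) ≠ 0 := by exact_mod_cast hN.ne'
  exact ⟨cu.order, mul_left_cancel₀ hNZ h3⟩

/-! ### assembly -/

/-- **AN-DIVN** from the place dictionary of `F_ℂ(N)` (rows AN-DICT-PT and AN-DICT-CUSP, in the
verbatim shapes of `gal_dict_point`, `gal_dict_cusp`) and the existence of `q`-expansions (row
AN-QEXP, `gal_qexp_of_growth`). -/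
theorem h19_div_n_of (N : ℕ) [NeZero N]
    (hq : ∀ (w : ℕ) (_ : 0 < w) (G : ℍ → ℂ) (_ : MDiff G)
      (_ : ∀ τ : ℍ, G ((w : ℝ) +ᵥ τ) = G τ) (m : ℕ) (C : ℝ)
      (_ : ∀ τ : ℍ, 1 ≤ τ.im → ‖G τ‖ ≤ C * Real.exp (2 * Real.pi * m * τ.im)),
      ∃ c : LaurentSeries ℂ, h77_IsQExp (w : ℝ) c G)
    (hpt : ∀ (P : Place ℂ (gal_F ℂ N)), h78_j ℂ N ∈ P.toValuationSubring →
      ∃ (τ₀ : ℍ) (g : SL(2, ℤ)) (e : ℕ),
      (∀ a b : h78_AN ℂ N, a ≠ 0 → b ≠ 0 →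
        (((h54_taylor τ₀ (fun z => h54_ev (RingHom.id ℂ) N a (g⁻¹ • z))).order.toNat : ℤ)
          - ((h54_taylor τ₀ (fun z => h54_ev (RingHom.id ℂ) N b (g⁻¹ • z))).order.toNat : ℤ))
          = e * P.ord (algebraMap (h78_AN ℂ N) (gal_F ℂ N) a /
              algebraMap (h78_AN ℂ N) (gal_F ℂ N) b)) ∧
      (e = 1 ∨
        (e = 2 ∧ τ₀ = UpperHalfPlane.I ∧ g⁻¹ * ModularGroup.S * g ∈ Gamma0 N) ∨
        (e = 3 ∧ τ₀ = h54_rho ∧ g⁻¹ * (ModularGroup.S * ModularGroup.T) * g ∈ Gamma0 N)))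
    (hcusp : ∀ (P : Place ℂ (gal_F ℂ N)), h78_j ℂ N ∉ P.toValuationSubring →
      ∃ (g : SL(2, ℤ)) (w : ℕ), 0 < w ∧ w ∣ N ∧ g⁻¹ * ModularGroup.T ^ w * g ∈ Gamma0 N ∧
      ∀ (a b : h78_AN ℂ N) (ca cb : LaurentSeries ℂ), a ≠ 0 → b ≠ 0 →
        h77_IsQExp (N : ℝ) ca (fun τ => h54_ev (RingHom.id ℂ) N a (g⁻¹ • τ)) →
        h77_IsQExp (N : ℝ) cb (fun τ => h54_ev (RingHom.id ℂ) N b (g⁻¹ • τ)) →
        (N : ℤ) * P.ord (algebraMap (h78_AN ℂ N) (gal_F ℂ N) a /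
            algebraMap (h78_AN ℂ N) (gal_F ℂ N) b)
          = w * (ca.order - cb.order))
    (n : ℕ) (χ : ↥(Gamma0 N) →* ℂˣ)
    (hpar : ∀ γ : ↥(Gamma0 N),
      ((γ : SL(2, ℤ)) : Matrix (Fin 2) (Fin 2) ℤ).trace ^ 2 = 4 → χ γ = 1)
    (hfin : ∀ γ : ↥(Gamma0 N), IsOfFinOrder γ → χ γ = 1)
    (U : ℍ → ℂ) (hU : gal_AutForm N χ U) (hU0 : ∃ τ, U τ ≠ 0) (f : gal_F ℂ N)
    (hf : gal_Phi (RingHom.id ℂ) N f = algebraMap h25_Hol h25_Mer ((⟨U, hU.mdiff⟩ : h25_Hol) ^ n))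
    (P : Place ℂ (gal_F ℂ N)) : (n : ℤ) ∣ P.ord f := by
  by_cases hP : h78_j ℂ N ∈ P.toValuationSubring
  · exact h19_div_n_point N n χ hfin U hU hU0 f hf P (hpt P hP)
  · exact h19_div_n_cusp N n χ hpar U hU hU0 f hf P hq (hcusp P hP)

end Fermat.Agent.GAL
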