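import Mathlib
import Fermat.Agent.GAL.h77_AnDefs
import Fermat.Agent.GAL.AnQExp
import Fermat.Agent.GAL.AnDictCusp
import Fermat.Agent.GAL.AnDictPt
import Fermat.Agent.GAL.h19_AnDivNCore

/-!
# GAL, analytic layer, row AN-DIVN (helper19)

If `Φ(f) = U ^ n` for a holomorphic `U` on `ℍ` with multiplier `χ` on `Γ₀(N)`, `χ` trivial on the
parabolic and on the finite order elements, then `n ∣ ord_P f` at every place `P` of `F_ℂ(N)`.

Proof: `h19_div_n_of` (the core) with `gal_qexp_of_growth` (row AN-QEXP), the point dictionary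
`gal_dict_point` (row AN-DICT-PT) and the cusp dictionary `gal_dict_cusp` (row AN-DICT-CUSP).
-/

set_option autoImplicit false

open UpperHalfPlane ModularCurve CongruenceSubgroup AlgebraicCurve ModularForm EisensteinSeries
open scoped MatrixGroups Manifold

namespace Fermat.Agent.GAL

open Fermat.Agent.S24 Fermat.Agent.S16

theorem gal_div_n (N : ℕ) [NeZero N] (n : ℕ) (χ : ↥(Gamma0 N) →* ℂˣ)
    (hpar : ∀ γ : ↥(Gamma0 N),
      ((γ : SL(2, ℤ)) : Matrix (Fin 2) (Fin 2) ℤ).trace ^ 2 = 4 → χ γ = 1)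
    (hfin : ∀ γ : ↥(Gamma0 N), IsOfFinOrder γ → χ γ = 1)
    (U : ℍ → ℂ) (hU : gal_AutForm N χ U) (hU0 : ∃ τ, U τ ≠ 0) (f : gal_F ℂ N)
    (hf : gal_Phi (RingHom.id ℂ) N f = algebraMap h25_Hol h25_Mer ((⟨U, hU.mdiff⟩ : h25_Hol) ^ n))
    (P : Place ℂ (gal_F ℂ N)) : (n : ℤ) ∣ P.ord f :=
  h19_div_n_of N gal_qexp_of_growth (gal_dict_point N) (gal_dict_cusp N) n χ hpar hfin U hU hU0
    f hf P

end Fermat.Agent.GAL
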