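import Mathlib

/-!
# GAL-5 (generic part): Eisenstein series with bounded coefficients

`h55_eis k c τ = ∑' v : Fin 2 → ℤ, c v * (v 0 * τ + v 1) ^ (-k)` for a coefficient function `c`
bounded by `1` and `k ≥ 3`: summability, holomorphy, slash action of `SL(2, ℤ)` (reindexing the
coefficients), boundedness on `Im τ ≥ B`, and (for `k = 4`) the decay of the part `v 0 ≠ 0`.
-/

set_option autoImplicit false

open UpperHalfPlane ModularForm CongruenceSubgroup EisensteinSeries Matrix Filter Complex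
open scoped MatrixGroups Manifold Topology

namespace Fermat.Agent.GAL

/-- Eisenstein series of weight `k` with coefficient function `c`. -/
noncomputable def h55_eis (k : ℤ) (c : (Fin 2 → ℤ) → ℂ) (τ : ℍ) : ℂ :=
  ∑' v : Fin 2 → ℤ, c v * eisSummand k v τ

/-- right multiplication by `A ∈ SL(2, ℤ)` on row vectors, as an equivalence -/
def h55_vecMulEquiv (A : SL(2, ℤ)) : (Fin 2 → ℤ) ≃ (Fin 2 → ℤ) where
  toFun v := v ᵥ* (A : Matrix (Fin 2) (Fin 2) ℤ)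
  invFun v := v ᵥ* ((A⁻¹ : SL(2, ℤ)) : Matrix (Fin 2) (Fin 2) ℤ)
  left_inv v := by
    simp_rw [vecMul_vecMul, ← Matrix.SpecialLinearGroup.coe_mul, mul_inv_cancel,
      Matrix.SpecialLinearGroup.coe_one, vecMul_one]
  right_inv v := by
    simp_rw [vecMul_vecMul, ← Matrix.SpecialLinearGroup.coe_mul, inv_mul_cancel,
      Matrix.SpecialLinearGroup.coe_one, vecMul_one]

theorem h55_vecMulEquiv_apply (A : SL(2, ℤ)) (v : Fin 2 → ℤ) :
    h55_vecMulEquiv A v = v ᵥ* (A : Matrix (Fin 2) (Fin 2) ℤ) := rfl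

theorem h55_vecMulEquiv_symm_apply (A : SL(2, ℤ)) (v : Fin 2 → ℤ) :
    (h55_vecMulEquiv A).symm v = v ᵥ* ((A⁻¹ : SL(2, ℤ)) : Matrix (Fin 2) (Fin 2) ℤ) := rfl

section Generic

variable {k : ℤ} {c : (Fin 2 → ℤ) → ℂ}

theorem h55_eis_summable (hk : 3 ≤ k) (hc : ∀ v, ‖c v‖ ≤ 1) (τ : ℍ) :
    Summable fun v : Fin 2 → ℤ => c v * eisSummand k v τ := by
  refine Summable.of_norm_bounded (summable_norm_eisSummand hk τ) (fun v => ?_)
  rw [norm_mul]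
  exact mul_le_of_le_one_left (norm_nonneg _) (hc v)

theorem h55_eis_norm_le (hk : 3 ≤ k) (hc : ∀ v, ‖c v‖ ≤ 1) (τ : ℍ) :
    ‖h55_eis k c τ‖ ≤ ∑' v : Fin 2 → ℤ, ‖eisSummand k v τ‖ := by
  have hs : Summable fun v : Fin 2 → ℤ => ‖c v * eisSummand k v τ‖ := by
    refine Summable.of_nonneg_of_le (fun _ => norm_nonneg _) (fun v => ?_)
      (summable_norm_eisSummand hk τ)
    rw [norm_mul]
    exact mul_le_of_le_one_left (norm_nonneg _) (hc v)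
  refine (norm_tsum_le_tsum_norm hs).trans ?_
  refine Summable.tsum_le_tsum (fun v => ?_) hs (summable_norm_eisSummand hk τ)
  rw [norm_mul]
  exact mul_le_of_le_one_left (norm_nonneg _) (hc v)

theorem h55_eis_tendstoLocallyUniformly (hk : 3 ≤ k) (hc : ∀ v, ‖c v‖ ≤ 1) :
    TendstoLocallyUniformly
      (fun (s : Finset (Fin 2 → ℤ)) ↦ (∑ x ∈ s, c x * eisSummand k x ·))
      (h55_eis k c ·) Filter.atTop := by
  have hk' : (2 : ℝ) < k := by norm_cast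
  have p_sum : Summable fun x : Fin 2 → ℤ ↦ ‖x‖ ^ (-k : ℝ) := summable_one_div_norm_rpow hk'
  simp only [tendstoLocallyUniformly_iff_forall_isCompact, h55_eis]
  intro K hK
  obtain ⟨A, B, hB, HABK⟩ := subset_verticalStrip_of_isCompact hK
  refine (tendstoUniformlyOn_tsum (hu := p_sum.mul_left <| r ⟨⟨A, B⟩, hB⟩ ^ (-k : ℝ))
    (fun p z hz ↦ ?_)).mono HABK
  rw [norm_mul]
  refine (mul_le_of_le_one_left (norm_nonneg _) (hc p)).trans ?_
  simpa only [eisSummand, one_div, ← _root_.zpow_neg, norm_zpow, ← Real.rpow_intCast,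
    Int.cast_neg] using summand_bound_of_mem_verticalStrip (by positivity) p hB hz

theorem h55_eis_mdiff (hk : 3 ≤ k) (hc : ∀ v, ‖c v‖ ≤ 1) : MDiff (h55_eis k c) := by
  intro τ
  suffices DifferentiableAt ℂ (↑ₕ(h55_eis k c)) τ.1 by
    convert!
      MDifferentiableAt.comp τ (DifferentiableAt.mdifferentiableAt this) τ.mdifferentiable_coe
    exact funext fun z ↦ (comp_ofComplex (h55_eis k c) z).symm
  refine DifferentiableOn.differentiableAt ?_ (isOpen_upperHalfPlaneSet.mem_nhds τ.2)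
  have hloc : TendstoLocallyUniformlyOn
      (fun (s : Finset (Fin 2 → ℤ)) ↦ ↑ₕ(fun (z : ℍ) ↦ ∑ x ∈ s, c x * eisSummand k x z))
      (↑ₕ(h55_eis k c)) Filter.atTop {z : ℂ | 0 < z.im} := by
    rw [← upperHalfPlaneSet, ← range_coe, ← Set.image_univ]
    apply TendstoLocallyUniformlyOn.comp (s := ⊤) _ _ _ (OpenPartialHomeomorph.continuousOn_symm _)
    · simp only [Set.top_eq_univ, tendstoLocallyUniformlyOn_univ]
      apply h55_eis_tendstoLocallyUniformly hk hc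
    · simp only [Topology.IsOpenEmbedding.toOpenPartialHomeomorph_target, Set.top_eq_univ,
        Set.mapsTo_range_iff, Set.mem_univ, forall_const]
  refine hloc.differentiableOn (Eventually.of_forall fun s ↦ ?_) isOpen_upperHalfPlaneSet
  have : (↑ₕ(fun (z : ℍ) ↦ ∑ x ∈ s, c x * eisSummand k x z)) =
      fun w : ℂ => ∑ x ∈ s, c x * (↑ₕ(eisSummand k x)) w := by
    funext w
    simp [Function.comp]
  rw [this]
  exact DifferentiableOn.fun_sum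
    (fun x _ => (eisSummand_extension_differentiableOn k x).const_mul (c x))

/-- the slash action of `SL(2, ℤ)` reindexes the coefficients -/
theorem h55_eis_slash (A : SL(2, ℤ)) :
    h55_eis k c ∣[k] A =
      h55_eis k (fun v => c (v ᵥ* ((A⁻¹ : SL(2, ℤ)) : Matrix (Fin 2) (Fin 2) ℤ))) := by
  ext1 z
  have h_sum : ∑' v : Fin 2 → ℤ, c v * eisSummand k (v ᵥ* (A : Matrix (Fin 2) (Fin 2) ℤ)) z =
      ∑' w : Fin 2 → ℤ,
        c (w ᵥ* ((A⁻¹ : SL(2, ℤ)) : Matrix (Fin 2) (Fin 2) ℤ)) * eisSummand k w z := by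
    rw [← (h55_vecMulEquiv A).tsum_eq
      (fun w => c (w ᵥ* ((A⁻¹ : SL(2, ℤ)) : Matrix (Fin 2) (Fin 2) ℤ)) * eisSummand k w z)]
    refine tsum_congr (fun v => ?_)
    rw [h55_vecMulEquiv_apply, vecMul_vecMul, ← Matrix.SpecialLinearGroup.coe_mul,
      mul_inv_cancel, Matrix.SpecialLinearGroup.coe_one, vecMul_one]
  rw [SL_slash_apply, _root_.zpow_neg,
    mul_inv_eq_iff_eq_mul₀ (zpow_ne_zero _ <| denom_ne_zero _ z)]
  unfold h55_eis
  simp_rw [eisSummand_SL2_apply]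
  rw [← h_sum, ← tsum_mul_right]
  exact tsum_congr (fun v => by ring)

/-- `T`-invariance of weighted majorants -/
theorem h55_weighted_tsum_T (k : ℤ) (φ : (Fin 2 → ℤ) → ℝ) (n : ℤ)
    (hφ : ∀ v, φ (v ᵥ* ((ModularGroup.T ^ n : SL(2, ℤ)) : Matrix (Fin 2) (Fin 2) ℤ)) = φ v)
    (z : ℍ) :
    ∑' v : Fin 2 → ℤ, φ v * ‖eisSummand k v (ModularGroup.T ^ n • z)‖ =
      ∑' v : Fin 2 → ℤ, φ v * ‖eisSummand k v z‖ := by
  rw [← (h55_vecMulEquiv (ModularGroup.T ^ n)).tsum_eq (fun w => φ w * ‖eisSummand k w z‖)]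
  refine tsum_congr (fun v => ?_)
  rw [eisSummand_SL2_apply, h55_vecMulEquiv_apply, hφ, norm_mul, ModularGroup.denom_apply,
    ModularGroup.coe_T_zpow]
  simp

/-- the majorant is bounded on `Im τ ≥ B` -/
theorem h55_tsum_norm_le (hk : 3 ≤ k) {B : ℝ} (hB : 0 < B) :
    ∃ C : ℝ, ∀ τ : ℍ, B ≤ τ.im → ∑' v : Fin 2 → ℤ, ‖eisSummand k v τ‖ ≤ C := by
  have hk' : (2 : ℝ) < k := by norm_cast
  refine ⟨∑' (x : Fin 2 → ℤ), r ⟨⟨((1 : ℕ) : ℝ), B⟩, hB⟩ ^ (-k) * ‖x‖ ^ (-k), fun τ hτ => ?_⟩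
  obtain ⟨n, hn⟩ := ModularGroup_T_zpow_mem_verticalStrip τ (N := 1) one_pos
  have hT := h55_weighted_tsum_T k (fun _ => 1) (((1 : ℕ) : ℤ) * n) (fun _ => rfl) τ
  simp only [one_mul] at hT
  rw [← hT]
  apply (summable_norm_eisSummand hk _).tsum_le_tsum _
  · exact_mod_cast (summable_one_div_norm_rpow hk').mul_left <|
      r ⟨⟨((1 : ℕ) : ℝ), B⟩, hB⟩ ^ (-k)
  · intro x
    simp_rw [eisSummand, norm_zpow]
    exact_mod_cast summand_bound_of_mem_verticalStrip (lt_trans two_pos hk').le x hB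
      (verticalStrip_anti_right _ hτ hn)

/-- slashes of `h55_eis` are bounded on `Im τ ≥ B` -/
theorem h55_eis_slash_bounded (hk : 3 ≤ k) (hc : ∀ v, ‖c v‖ ≤ 1) (g : SL(2, ℤ)) {B : ℝ}
    (hB : 0 < B) : ∃ C : ℝ, ∀ τ : ℍ, B ≤ τ.im → ‖(h55_eis k c ∣[k] g) τ‖ ≤ C := by
  obtain ⟨C, hC⟩ := h55_tsum_norm_le hk hB
  refine ⟨C, fun τ hτ => ?_⟩
  rw [h55_eis_slash]
  exact (h55_eis_norm_le hk (fun v => hc _) τ).trans (hC τ hτ)

theorem h55_eis_slash_mdiff (hk : 3 ≤ k) (hc : ∀ v, ‖c v‖ ≤ 1) (g : SL(2, ℤ)) :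
    MDiff (h55_eis k c ∣[k] g) := by
  rw [h55_eis_slash]
  exact h55_eis_mdiff hk (fun v => hc _)

end Generic

/-- weight `4`: the part of the series with `v 0 ≠ 0` decays like `1 / Im τ` -/
theorem h55_eis4_decay :
    ∃ C : ℝ, ∀ (c : (Fin 2 → ℤ) → ℂ), (∀ v, ‖c v‖ ≤ 1) → (∀ v, v 0 = 0 → c v = 0) →
      ∀ τ : ℍ, 1 ≤ τ.im → ‖h55_eis 4 c τ‖ ≤ C / τ.im := by
  classical
  have h1 : (0 : ℝ) < 1 := one_pos
  set r₀ : ℝ := r ⟨⟨((1 : ℕ) : ℝ), 1⟩, h1⟩ with hr₀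
  have hr₀pos : 0 < r₀ := r_pos _
  have hS : Summable fun x : Fin 2 → ℤ => ‖x‖ ^ (-(3 : ℝ)) :=
    summable_one_div_norm_rpow (by norm_num)
  refine ⟨r₀⁻¹ ^ 3 * ∑' x : Fin 2 → ℤ, ‖x‖ ^ (-(3 : ℝ)), fun c hc hc0 τ hτ => ?_⟩
  let φ : (Fin 2 → ℤ) → ℝ := fun v => if v 0 = 0 then 0 else 1
  have hφdef : ∀ v, φ v = if v 0 = 0 then 0 else 1 := fun _ => rfl
  have hφ0 : ∀ v, 0 ≤ φ v := fun v => by
    rw [hφdef]
    split_ifs <;> norm_num
  have hφ1 : ∀ v, φ v ≤ 1 := fun v => by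
    rw [hφdef]
    split_ifs <;> norm_num
  have hcφ : ∀ v, ‖c v‖ ≤ φ v := by
    intro v
    rw [hφdef]
    split_ifs with h
    · rw [hc0 v h, norm_zero]
    · exact hc v
  have hsummφ : ∀ z : ℍ, Summable fun v : Fin 2 → ℤ => φ v * ‖eisSummand 4 v z‖ := by
    intro z
    refine Summable.of_nonneg_of_le (fun v => mul_nonneg (hφ0 v) (norm_nonneg _)) (fun v => ?_)
      (summable_norm_eisSummand (k := 4) (by norm_num) z)
    exact mul_le_of_le_one_left (norm_nonneg _) (hφ1 v)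
  have hstep1 : ‖h55_eis 4 c τ‖ ≤ ∑' v : Fin 2 → ℤ, φ v * ‖eisSummand 4 v τ‖ := by
    have hs : Summable fun v : Fin 2 → ℤ => ‖c v * eisSummand 4 v τ‖ :=
      (h55_eis_summable (by norm_num) hc τ).norm
    refine (norm_tsum_le_tsum_norm hs).trans ?_
    refine Summable.tsum_le_tsum (fun v => ?_) hs (hsummφ τ)
    rw [norm_mul]
    exact mul_le_mul_of_nonneg_right (hcφ v) (norm_nonneg _)
  obtain ⟨n, hn⟩ := ModularGroup_T_zpow_mem_verticalStrip τ (N := 1) one_pos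
  have hφT : ∀ v, φ (v ᵥ* ((ModularGroup.T ^ (((1 : ℕ) : ℤ) * n) : SL(2, ℤ)) :
      Matrix (Fin 2) (Fin 2) ℤ)) = φ v := by
    intro v
    rw [hφdef, hφdef, ModularGroup.coe_T_zpow]
    simp [vecMul, vecHead]
  rw [← h55_weighted_tsum_T 4 φ _ hφT τ] at hstep1
  set τ' := ModularGroup.T ^ (((1 : ℕ) : ℤ) * n) • τ with hτ'
  have him : τ'.im = τ.im := by
    rw [hτ', modular_T_zpow_smul]
    simp
  have hstrip : τ' ∈ verticalStrip ((1 : ℕ) : ℝ) 1 := verticalStrip_anti_right _ hτ hn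
  have hterm : ∀ v : Fin 2 → ℤ,
      φ v * ‖eisSummand 4 v τ'‖ ≤ τ.im⁻¹ * r₀⁻¹ ^ 3 * ‖v‖ ^ (-(3 : ℝ)) := by
    intro v
    have hτpos : 0 < τ.im := τ.im_pos
    by_cases hv : v 0 = 0
    · rw [hφdef, if_pos hv, zero_mul]
      positivity
    · rw [hφdef, if_neg hv, one_mul]
      have hv0 : v ≠ 0 := fun h => hv (by rw [h]; rfl)
      have hnpos : 0 < ‖v‖ := norm_pos_iff.2 hv0
      set w := ‖(v 0 : ℂ) * (τ' : ℂ) + (v 1 : ℂ)‖ with hw
      have hw1 : τ.im ≤ w := by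
        have h2 : |((v 0 : ℂ) * (τ' : ℂ) + (v 1 : ℂ)).im| ≤ w := Complex.abs_im_le_norm _
        have h3 : ((v 0 : ℂ) * (τ' : ℂ) + (v 1 : ℂ)).im = (v 0 : ℝ) * τ'.im := by simp
        rw [h3, abs_mul, abs_of_pos τ'.im_pos, him] at h2
        have h4 : (1 : ℝ) ≤ |(v 0 : ℝ)| := by exact_mod_cast Int.one_le_abs hv
        nlinarith
      have hw2 : r₀ * ‖v‖ ≤ w :=
        (mul_le_mul_of_nonneg_right (r_lower_bound_on_verticalStrip τ' h1 hstrip)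
          (norm_nonneg _)).trans (r_mul_max_le τ' hv0)
      have hwpos : 0 < w := lt_of_lt_of_le hτpos hw1
      have hnorm : ‖eisSummand 4 v τ'‖ = (w ^ 4)⁻¹ := by
        rw [eisSummand, norm_zpow, ← hw]
        rfl
      rw [hnorm]
      have hpow : τ.im * (r₀ * ‖v‖) ^ 3 ≤ w ^ 4 := by
        have h5 : (r₀ * ‖v‖) ^ 3 ≤ w ^ 3 := pow_le_pow_left₀ (by positivity) hw2 3
        calc τ.im * (r₀ * ‖v‖) ^ 3 ≤ w * w ^ 3 := mul_le_mul hw1 h5 (by positivity) hwpos.le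
          _ = w ^ 4 := by ring
      have hrpow : ‖v‖ ^ (-(3 : ℝ)) = (‖v‖ ^ 3)⁻¹ := by
        rw [Real.rpow_neg (norm_nonneg _)]
        norm_cast
      rw [hrpow]
      calc (w ^ 4)⁻¹ ≤ (τ.im * (r₀ * ‖v‖) ^ 3)⁻¹ := inv_anti₀ (by positivity) hpow
        _ = τ.im⁻¹ * r₀⁻¹ ^ 3 * (‖v‖ ^ 3)⁻¹ := by
          rw [mul_pow, mul_inv, mul_inv, inv_pow]
          ring
  calc ‖h55_eis 4 c τ‖ ≤ ∑' v : Fin 2 → ℤ, φ v * ‖eisSummand 4 v τ'‖ := hstep1
    _ ≤ ∑' v : Fin 2 → ℤ, τ.im⁻¹ * r₀⁻¹ ^ 3 * ‖v‖ ^ (-(3 : ℝ)) :=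
        Summable.tsum_le_tsum hterm (hsummφ τ') (hS.mul_left _)
    _ = r₀⁻¹ ^ 3 * (∑' x : Fin 2 → ℤ, ‖x‖ ^ (-(3 : ℝ))) / τ.im := by
        rw [tsum_mul_left]
        ring

end Fermat.Agent.GAL
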