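import Mathlib
import Fermat.Agent.GAL.h55_Eis

/-!
# GAL-5: the weight-4 Eisenstein series attached to a unitary character of `Γ₀(N)`

`E_χ(τ) = Σ χ(γ_{c,d})⁻¹ (cτ+d)⁻⁴` over the bottom rows `(c, d)` of elements of `Γ₀(N)`.
Holomorphy, transformation law with character `χ`, limit `2` at `i∞`, boundedness and
periodicity of the slashes by elements of `SL(2, ℤ)`.
-/

set_option autoImplicit false

open UpperHalfPlane ModularForm CongruenceSubgroup EisensteinSeries Matrix Filter Complex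
open scoped MatrixGroups Manifold Topology

namespace Fermat.Agent.GAL

/-- the coefficient of the row vector `v`: `(χ γ)⁻¹` for a chosen `γ ∈ Γ₀(N)` with bottom row
`v`, and `0` if there is no such `γ` -/
noncomputable def h55_eisCoeff (N : ℕ) (χ : ↥(Gamma0 N) →* ℂˣ) (v : Fin 2 → ℤ) : ℂ :=
  open Classical in
  if h : ∃ γ : ↥(Gamma0 N), ((γ : SL(2, ℤ)) : Matrix (Fin 2) (Fin 2) ℤ) 1 = v then
    (((χ h.choose)⁻¹ : ℂˣ) : ℂ) else 0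

/-- the Eisenstein series `E_χ` of weight `4` -/
noncomputable def h55_Echi (N : ℕ) (χ : ↥(Gamma0 N) →* ℂˣ) : ℍ → ℂ :=
  h55_eis 4 (h55_eisCoeff N χ)

variable {N : ℕ} (χ : ↥(Gamma0 N) →* ℂˣ)

theorem h55_eisCoeff_norm_le (hχ1 : ∀ γ, ‖(χ γ : ℂ)‖ = 1) (v : Fin 2 → ℤ) :
    ‖h55_eisCoeff N χ v‖ ≤ 1 := by
  unfold h55_eisCoeff
  split_ifs with h
  · rw [Units.val_inv_eq_inv_val, norm_inv, hχ1, inv_one]
  · simp

/-- `χ` only depends on the bottom row -/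
theorem h55_chi_eq_of_row (hχ : ∀ γ : ↥(Gamma0 N), (γ : SL(2, ℤ)) 1 0 = 0 → χ γ = 1)
    (γ γ' : ↥(Gamma0 N))
    (h : ((γ' : SL(2, ℤ)) : Matrix (Fin 2) (Fin 2) ℤ) 1 =
      ((γ : SL(2, ℤ)) : Matrix (Fin 2) (Fin 2) ℤ) 1) : χ γ' = χ γ := by
  have h0 := congrFun h 0
  have h1 := congrFun h 1
  have h2 : χ (γ' * γ⁻¹) = 1 := by
    apply hχ
    rw [Subgroup.coe_mul, Subgroup.coe_inv, Matrix.SpecialLinearGroup.coe_mul,
      Matrix.mul_apply, Fin.sum_univ_two, Matrix.SpecialLinearGroup.coe_inv,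
      Matrix.adjugate_fin_two]
    simp only [Matrix.of_apply, Matrix.cons_val_zero, Matrix.cons_val_one]
    rw [h0, h1]
    ring
  rw [map_mul, map_inv, mul_inv_eq_one] at h2
  exact h2

theorem h55_eisCoeff_of_mem (hχ : ∀ γ : ↥(Gamma0 N), (γ : SL(2, ℤ)) 1 0 = 0 → χ γ = 1)
    (γ : ↥(Gamma0 N)) :
    h55_eisCoeff N χ (((γ : SL(2, ℤ)) : Matrix (Fin 2) (Fin 2) ℤ) 1) =
      (((χ γ)⁻¹ : ℂˣ) : ℂ) := by
  have hex : ∃ γ' : ↥(Gamma0 N), ((γ' : SL(2, ℤ)) : Matrix (Fin 2) (Fin 2) ℤ) 1 =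
      ((γ : SL(2, ℤ)) : Matrix (Fin 2) (Fin 2) ℤ) 1 := ⟨γ, rfl⟩
  unfold h55_eisCoeff
  rw [dif_pos hex, h55_chi_eq_of_row χ hχ γ hex.choose hex.choose_spec]

theorem h55_eisCoeff_of_not_mem (v : Fin 2 → ℤ)
    (h : ¬ ∃ γ : ↥(Gamma0 N), ((γ : SL(2, ℤ)) : Matrix (Fin 2) (Fin 2) ℤ) 1 = v) :
    h55_eisCoeff N χ v = 0 := by
  unfold h55_eisCoeff
  rw [dif_neg h]

/-- transformation of the coefficients under `Γ₀(N)` -/
theorem h55_eisCoeff_vecMul (hχ : ∀ γ : ↥(Gamma0 N), (γ : SL(2, ℤ)) 1 0 = 0 → χ γ = 1)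
    (γ : ↥(Gamma0 N)) (v : Fin 2 → ℤ) :
    h55_eisCoeff N χ (v ᵥ* (((γ : SL(2, ℤ))⁻¹ : SL(2, ℤ)) : Matrix (Fin 2) (Fin 2) ℤ)) =
      (χ γ : ℂ) * h55_eisCoeff N χ v := by
  by_cases h : ∃ δ : ↥(Gamma0 N), ((δ : SL(2, ℤ)) : Matrix (Fin 2) (Fin 2) ℤ) 1 = v
  · obtain ⟨δ, rfl⟩ := h
    have h1 : ((δ : SL(2, ℤ)) : Matrix (Fin 2) (Fin 2) ℤ) 1 ᵥ*
        (((γ : SL(2, ℤ))⁻¹ : SL(2, ℤ)) : Matrix (Fin 2) (Fin 2) ℤ) =
        (((δ * γ⁻¹ : ↥(Gamma0 N)) : SL(2, ℤ)) : Matrix (Fin 2) (Fin 2) ℤ) 1 := by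
      rw [Subgroup.coe_mul, Subgroup.coe_inv, Matrix.SpecialLinearGroup.coe_mul,
        Matrix.mul_apply_eq_vecMul]
    rw [h1, h55_eisCoeff_of_mem χ hχ, h55_eisCoeff_of_mem χ hχ, map_mul, map_inv, _root_.mul_inv_rev,
      inv_inv, Units.val_mul]
  · rw [h55_eisCoeff_of_not_mem χ v h, mul_zero]
    apply h55_eisCoeff_of_not_mem
    rintro ⟨δ, hδ⟩
    apply h
    refine ⟨δ * γ, ?_⟩
    rw [Subgroup.coe_mul, Matrix.SpecialLinearGroup.coe_mul, Matrix.mul_apply_eq_vecMul, hδ,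
      vecMul_vecMul, ← Matrix.SpecialLinearGroup.coe_mul, inv_mul_cancel,
      Matrix.SpecialLinearGroup.coe_one, vecMul_one]

/-- (E1) `E_χ` is holomorphic -/
theorem h55_Echi_mdiff (hχ1 : ∀ γ, ‖(χ γ : ℂ)‖ = 1) : MDiff (h55_Echi N χ) :=
  h55_eis_mdiff (by norm_num) (h55_eisCoeff_norm_le χ hχ1)

/-- (E2) transformation law, slash form -/
theorem h55_Echi_slash (hχ : ∀ γ : ↥(Gamma0 N), (γ : SL(2, ℤ)) 1 0 = 0 → χ γ = 1)
    (γ : ↥(Gamma0 N)) :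
    h55_Echi N χ ∣[(4 : ℤ)] (γ : SL(2, ℤ)) = (χ γ : ℂ) • h55_Echi N χ := by
  unfold h55_Echi
  rw [h55_eis_slash]
  ext τ
  simp only [h55_eis, Pi.smul_apply, smul_eq_mul]
  rw [← tsum_mul_left]
  refine tsum_congr (fun v => ?_)
  rw [h55_eisCoeff_vecMul χ hχ]
  ring

/-- (E2) transformation law, pointwise form -/
theorem h55_Echi_smul (hχ : ∀ γ : ↥(Gamma0 N), (γ : SL(2, ℤ)) 1 0 = 0 → χ γ = 1)
    (γ : ↥(Gamma0 N)) (τ : ℍ) :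
    h55_Echi N χ ((γ : SL(2, ℤ)) • τ) =
      (χ γ : ℂ) * ((((γ : SL(2, ℤ)) 1 0 : ℤ) : ℂ) * (τ : ℂ) + (((γ : SL(2, ℤ)) 1 1 : ℤ) : ℂ)) ^ 4 *
        h55_Echi N χ τ := by
  have h := congrFun (h55_Echi_slash χ hχ γ) τ
  rw [SL_slash_apply, Pi.smul_apply, smul_eq_mul, _root_.zpow_neg,
    mul_inv_eq_iff_eq_mul₀ (zpow_ne_zero _ <| denom_ne_zero _ τ), ModularGroup.denom_apply] at h
  rw [h]
  norm_cast
  ring

/-- (E4) the slashes of `E_χ` are bounded on `Im τ ≥ 1` -/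
theorem h55_Echi_slash_bounded (hχ1 : ∀ γ, ‖(χ γ : ℂ)‖ = 1) (g : SL(2, ℤ)) :
    ∃ C : ℝ, ∀ τ : ℍ, 1 ≤ τ.im → ‖(h55_Echi N χ ∣[(4 : ℤ)] g) τ‖ ≤ C :=
  h55_eis_slash_bounded (by norm_num) (h55_eisCoeff_norm_le χ hχ1) g one_pos

/-- the slashes of `E_χ` are holomorphic -/
theorem h55_Echi_slash_mdiff (hχ1 : ∀ γ, ‖(χ γ : ℂ)‖ = 1) (g : SL(2, ℤ)) :
    MDiff (h55_Echi N χ ∣[(4 : ℤ)] g) :=
  h55_eis_slash_mdiff (by norm_num) (h55_eisCoeff_norm_le χ hχ1) g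

/-- (E5) periodicity of the slashes -/
theorem h55_Echi_slash_periodic
    (hχ : ∀ γ : ↥(Gamma0 N), (γ : SL(2, ℤ)) 1 0 = 0 → χ γ = 1) (g : SL(2, ℤ)) (w : ℕ)
    (h : g * ModularGroup.T ^ w * g⁻¹ ∈ Gamma0 N)
    (hχg : χ ⟨g * ModularGroup.T ^ w * g⁻¹, h⟩ = 1) (τ : ℍ) :
    (h55_Echi N χ ∣[(4 : ℤ)] g) ((w : ℝ) +ᵥ τ) = (h55_Echi N χ ∣[(4 : ℤ)] g) τ := by
  have h1 : (h55_Echi N χ ∣[(4 : ℤ)] g) ∣[(4 : ℤ)] (ModularGroup.T ^ w) =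
      h55_Echi N χ ∣[(4 : ℤ)] g := by
    rw [← SlashAction.slash_mul]
    have h2 : g * ModularGroup.T ^ w = (g * ModularGroup.T ^ w * g⁻¹) * g := by group
    rw [h2, SlashAction.slash_mul]
    have h3 := h55_Echi_slash χ hχ ⟨g * ModularGroup.T ^ w * g⁻¹, h⟩
    rw [hχg] at h3
    rw [h3]
    simp
  have h4 := congrFun h1 τ
  rw [SL_slash_apply, ← zpow_natCast, ModularGroup.denom_apply, ModularGroup.coe_T_zpow,
    modular_T_zpow_smul] at h4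
  rw [← h4]
  simp

/-! ### The limit at `i∞` -/

theorem h55_row_one :
    (((1 : ↥(Gamma0 N)) : SL(2, ℤ)) : Matrix (Fin 2) (Fin 2) ℤ) 1 = ![0, 1] := by
  funext i
  fin_cases i <;> simp

theorem h55_neg_one_mem : (-1 : SL(2, ℤ)) ∈ Gamma0 N := by
  rw [Gamma0_mem]
  simp

theorem h55_row_neg_one :
    (((⟨-1, h55_neg_one_mem⟩ : ↥(Gamma0 N)) : SL(2, ℤ)) : Matrix (Fin 2) (Fin 2) ℤ) 1 =
      ![0, -1] := by
  funext i
  fin_cases i <;> simp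

theorem h55_eisCoeff_zero_one (hχ : ∀ γ : ↥(Gamma0 N), (γ : SL(2, ℤ)) 1 0 = 0 → χ γ = 1) :
    h55_eisCoeff N χ ![0, 1] = 1 := by
  rw [← h55_row_one (N := N), h55_eisCoeff_of_mem χ hχ, map_one]
  simp

theorem h55_eisCoeff_zero_neg_one
    (hχ : ∀ γ : ↥(Gamma0 N), (γ : SL(2, ℤ)) 1 0 = 0 → χ γ = 1) :
    h55_eisCoeff N χ ![0, -1] = 1 := by
  rw [← h55_row_neg_one (N := N), h55_eisCoeff_of_mem χ hχ, hχ _ (by simp)]
  simp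

theorem h55_eisCoeff_zero_left (v : Fin 2 → ℤ) (hv : v 0 = 0) (h1 : v ≠ ![0, 1])
    (h2 : v ≠ ![0, -1]) : h55_eisCoeff N χ v = 0 := by
  apply h55_eisCoeff_of_not_mem
  rintro ⟨γ, rfl⟩
  have hdet := (γ : SL(2, ℤ)).det_coe
  rw [Matrix.det_fin_two, hv, mul_zero, sub_zero] at hdet
  rcases Int.eq_one_or_neg_one_of_mul_eq_one' hdet with ⟨_, h⟩ | ⟨_, h⟩
  · apply h1
    funext i
    fin_cases i
    · exact hv
    · exact h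
  · apply h2
    funext i
    fin_cases i
    · exact hv
    · exact h

theorem h55_Echi_sub_two (hχ1 : ∀ γ, ‖(χ γ : ℂ)‖ = 1)
    (hχ : ∀ γ : ↥(Gamma0 N), (γ : SL(2, ℤ)) 1 0 = 0 → χ γ = 1) (τ : ℍ) :
    h55_Echi N χ τ - 2 =
      h55_eis 4 (fun v => if v 0 = 0 then 0 else h55_eisCoeff N χ v) τ := by
  classical
  have hc : ∀ v, ‖h55_eisCoeff N χ v‖ ≤ 1 := h55_eisCoeff_norm_le χ hχ1
  have hc₀ : ∀ v : Fin 2 → ℤ, ‖(if v 0 = 0 then h55_eisCoeff N χ v else 0 : ℂ)‖ ≤ 1 := by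
    intro v
    split_ifs
    · exact hc v
    · simp
  have hc₁ : ∀ v : Fin 2 → ℤ, ‖(if v 0 = 0 then 0 else h55_eisCoeff N χ v : ℂ)‖ ≤ 1 := by
    intro v
    split_ifs
    · simp
    · exact hc v
  have hsplit : h55_Echi N χ τ =
      h55_eis 4 (fun v => if v 0 = 0 then h55_eisCoeff N χ v else 0) τ +
        h55_eis 4 (fun v => if v 0 = 0 then 0 else h55_eisCoeff N χ v) τ := by
    unfold h55_Echi h55_eis
    rw [← Summable.tsum_add (h55_eis_summable (by norm_num) hc₀ τ)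
      (h55_eis_summable (by norm_num) hc₁ τ)]
    refine tsum_congr (fun v => ?_)
    split_ifs <;> ring
  have h0 : h55_eis 4 (fun v => if v 0 = 0 then h55_eisCoeff N χ v else 0) τ = 2 := by
    unfold h55_eis
    have hne : (![0, 1] : Fin 2 → ℤ) ≠ ![0, -1] := by
      intro h
      have := congrFun h 1
      norm_num at this
    rw [tsum_eq_sum (s := {![0, 1], ![0, -1]})]
    · rw [Finset.sum_pair hne]
      simp only [Matrix.cons_val_zero, if_true, h55_eisCoeff_zero_one χ hχ,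
        h55_eisCoeff_zero_neg_one χ hχ, eisSummand]
      norm_num
    · intro v hv
      simp only [Finset.mem_insert, Finset.mem_singleton, not_or] at hv
      beta_reduce
      split_ifs with h
      · rw [h55_eisCoeff_zero_left χ v h hv.1 hv.2, zero_mul]
      · rw [zero_mul]
  rw [hsplit, h0]
  ring

/-- (E3) `E_χ(τ) → 2` as `Im τ → ∞`, uniformly in `Re τ` -/
theorem h55_Echi_tendsto (hχ1 : ∀ γ, ‖(χ γ : ℂ)‖ = 1)
    (hχ : ∀ γ : ↥(Gamma0 N), (γ : SL(2, ℤ)) 1 0 = 0 → χ γ = 1) :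
    ∀ ε : ℝ, 0 < ε → ∃ B : ℝ, ∀ τ : ℍ, B ≤ τ.im → ‖h55_Echi N χ τ - 2‖ < ε := by
  classical
  obtain ⟨C, hC⟩ := h55_eis4_decay
  intro ε hε
  refine ⟨max 1 (|C| / ε + 1), fun τ hτ => ?_⟩
  have hτ1 : 1 ≤ τ.im := le_trans (le_max_left _ _) hτ
  have hτ2 : |C| / ε + 1 ≤ τ.im := le_trans (le_max_right _ _) hτ
  rw [h55_Echi_sub_two χ hχ1 hχ]
  have hb := hC (fun v => if v 0 = 0 then 0 else h55_eisCoeff N χ v)
    (fun v => by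
      split_ifs
      · simp
      · exact h55_eisCoeff_norm_le χ hχ1 v)
    (fun v hv => by simp [hv]) τ hτ1
  refine lt_of_le_of_lt hb ?_
  have hpos : 0 < τ.im := τ.im_pos
  rw [div_lt_iff₀ hpos]
  have h3 : |C| / ε < τ.im := by linarith
  rw [div_lt_iff₀ hε] at h3
  calc C ≤ |C| := le_abs_self C
    _ < τ.im * ε := h3
    _ = ε * τ.im := by ring

/-- (E3) `E_χ` is not identically zero -/
theorem h55_Echi_ne_zero (hχ1 : ∀ γ, ‖(χ γ : ℂ)‖ = 1)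
    (hχ : ∀ γ : ↥(Gamma0 N), (γ : SL(2, ℤ)) 1 0 = 0 → χ γ = 1) :
    ∃ τ : ℍ, h55_Echi N χ τ ≠ 0 := by
  obtain ⟨B, hB⟩ := h55_Echi_tendsto χ hχ1 hχ 1 one_pos
  let τ : ℍ := ⟨⟨0, max B 1⟩, lt_of_lt_of_le one_pos (le_max_right _ _)⟩
  refine ⟨τ, fun h0 => ?_⟩
  have h1 : B ≤ τ.im := le_max_left B 1
  have h2 := hB τ h1
  rw [h0, zero_sub, norm_neg] at h2
  have h3 : ‖(2 : ℂ)‖ = 2 := by simp
  rw [h3] at h2
  norm_num at h2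

end Fermat.Agent.GAL
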