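import Mathlib
import Fermat.Agent.GAL.h55_Eis
import Fermat.Agent.GAL.h55_EisChi

/-!
# GAL-5, general weight: `E_χ^{(k)}` for a unitary character `χ` of `Γ₀(N)`

`h55_EchiK N χ k = Σ χ(γ_{c,d})⁻¹ (cτ+d)^{-k}` over the bottom rows of `Γ₀(N)`.
Same statements as for weight `4` (`h55_EisChi.lean`); the limit `2` at `i∞` needs `k` even, `k ≥ 4`.
-/

set_option autoImplicit false

open UpperHalfPlane ModularForm CongruenceSubgroup EisensteinSeries Matrix Filter Complex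
open scoped MatrixGroups Manifold Topology

namespace Fermat.Agent.GAL

/-- weight `m ≥ 4`: the part of the series with `v 0 ≠ 0` decays like `1 / Im τ` -/
theorem h55_eisNat_decay (m : ℕ) (hm : 4 ≤ m) :
    ∃ C : ℝ, ∀ (c : (Fin 2 → ℤ) → ℂ), (∀ v, ‖c v‖ ≤ 1) → (∀ v, v 0 = 0 → c v = 0) →
      ∀ τ : ℍ, 1 ≤ τ.im → ‖h55_eis (m : ℤ) c τ‖ ≤ C / τ.im := by
  classical
  have hm3 : (3 : ℤ) ≤ (m : ℤ) := by omega
  have h1 : (0 : ℝ) < 1 := one_pos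
  set r₀ : ℝ := r ⟨⟨((1 : ℕ) : ℝ), 1⟩, h1⟩ with hr₀
  have hr₀pos : 0 < r₀ := r_pos _
  have hS : Summable fun x : Fin 2 → ℤ => ‖x‖ ^ (-(3 : ℝ)) :=
    summable_one_div_norm_rpow (by norm_num)
  refine ⟨r₀⁻¹ ^ 3 * ∑' x : Fin 2 → ℤ, ‖x‖ ^ (-(3 : ℝ)), fun c hc hc0 τ hτ => ?_⟩
  let φ : (Fin 2 → ℤ) → ℝ := fun v => if v 0 = 0 then 0 else 1
  have hφdef : ∀ v, φ v = if v 0 = 0 then 0 else 1 := fun _ => rfl
  have hφ0 : ∀ v, 0 ≤ φ v := fun v => by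
    rw [hφdef]
    split_ifs <;> norm_num
  have hφ1 : ∀ v, φ v ≤ 1 := fun v => by
    rw [hφdef]
    split_ifs <;> norm_num
  have hcφ : ∀ v, ‖c v‖ ≤ φ v := by
    intro v
    rw [hφdef]
    split_ifs with h
    · rw [hc0 v h, norm_zero]
    · exact hc v
  have hsummφ : ∀ z : ℍ, Summable fun v : Fin 2 → ℤ => φ v * ‖eisSummand (m : ℤ) v z‖ := by
    intro z
    refine Summable.of_nonneg_of_le (fun v => mul_nonneg (hφ0 v) (norm_nonneg _)) (fun v => ?_)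
      (summable_norm_eisSummand (k := (m : ℤ)) hm3 z)
    exact mul_le_of_le_one_left (norm_nonneg _) (hφ1 v)
  have hstep1 : ‖h55_eis (m : ℤ) c τ‖ ≤ ∑' v : Fin 2 → ℤ, φ v * ‖eisSummand (m : ℤ) v τ‖ := by
    have hs : Summable fun v : Fin 2 → ℤ => ‖c v * eisSummand (m : ℤ) v τ‖ :=
      (h55_eis_summable hm3 hc τ).norm
    refine (norm_tsum_le_tsum_norm hs).trans ?_
    refine Summable.tsum_le_tsum (fun v => ?_) hs (hsummφ τ)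
    rw [norm_mul]
    exact mul_le_mul_of_nonneg_right (hcφ v) (norm_nonneg _)
  obtain ⟨n, hn⟩ := ModularGroup_T_zpow_mem_verticalStrip τ (N := 1) one_pos
  have hφT : ∀ v, φ (v ᵥ* ((ModularGroup.T ^ (((1 : ℕ) : ℤ) * n) : SL(2, ℤ)) :
      Matrix (Fin 2) (Fin 2) ℤ)) = φ v := by
    intro v
    rw [hφdef, hφdef, ModularGroup.coe_T_zpow]
    simp [vecMul, vecHead]
  rw [← h55_weighted_tsum_T (m : ℤ) φ _ hφT τ] at hstep1
  set τ' := ModularGroup.T ^ (((1 : ℕ) : ℤ) * n) • τ with hτ'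
  have him : τ'.im = τ.im := by
    rw [hτ', modular_T_zpow_smul]
    simp
  have hstrip : τ' ∈ verticalStrip ((1 : ℕ) : ℝ) 1 := verticalStrip_anti_right _ hτ hn
  have hterm : ∀ v : Fin 2 → ℤ,
      φ v * ‖eisSummand (m : ℤ) v τ'‖ ≤ τ.im⁻¹ * r₀⁻¹ ^ 3 * ‖v‖ ^ (-(3 : ℝ)) := by
    intro v
    have hτpos : 0 < τ.im := τ.im_pos
    by_cases hv : v 0 = 0
    · rw [hφdef, if_pos hv, zero_mul]
      positivity
    · rw [hφdef, if_neg hv, one_mul]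
      have hv0 : v ≠ 0 := fun h => hv (by rw [h]; rfl)
      have hnpos : 0 < ‖v‖ := norm_pos_iff.2 hv0
      set w := ‖(v 0 : ℂ) * (τ' : ℂ) + (v 1 : ℂ)‖ with hw
      have hw1 : τ.im ≤ w := by
        have h2 : |((v 0 : ℂ) * (τ' : ℂ) + (v 1 : ℂ)).im| ≤ w := Complex.abs_im_le_norm _
        have h3 : ((v 0 : ℂ) * (τ' : ℂ) + (v 1 : ℂ)).im = (v 0 : ℝ) * τ'.im := by simp
        rw [h3, abs_mul, abs_of_pos τ'.im_pos, him] at h2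
        have h4 : (1 : ℝ) ≤ |(v 0 : ℝ)| := by exact_mod_cast Int.one_le_abs hv
        nlinarith
      have hw2 : r₀ * ‖v‖ ≤ w :=
        (mul_le_mul_of_nonneg_right (r_lower_bound_on_verticalStrip τ' h1 hstrip)
          (norm_nonneg _)).trans (r_mul_max_le τ' hv0)
      have hwpos : 0 < w := lt_of_lt_of_le hτpos hw1
      have hw1' : 1 ≤ w := le_trans hτ hw1
      have hnorm : ‖eisSummand (m : ℤ) v τ'‖ = (w ^ m)⁻¹ := by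
        rw [eisSummand, norm_zpow, ← hw, _root_.zpow_neg, zpow_natCast]
      rw [hnorm]
      have hpow4 : w ^ 4 ≤ w ^ m := pow_le_pow_right₀ hw1' hm
      have hpow : τ.im * (r₀ * ‖v‖) ^ 3 ≤ w ^ 4 := by
        have h5 : (r₀ * ‖v‖) ^ 3 ≤ w ^ 3 := pow_le_pow_left₀ (by positivity) hw2 3
        calc τ.im * (r₀ * ‖v‖) ^ 3 ≤ w * w ^ 3 := mul_le_mul hw1 h5 (by positivity) hwpos.le
          _ = w ^ 4 := by ring
      have hrpow : ‖v‖ ^ (-(3 : ℝ)) = (‖v‖ ^ 3)⁻¹ := by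
        rw [Real.rpow_neg (norm_nonneg _)]
        norm_cast
      rw [hrpow]
      calc (w ^ m)⁻¹ ≤ (τ.im * (r₀ * ‖v‖) ^ 3)⁻¹ :=
            inv_anti₀ (by positivity) (hpow.trans hpow4)
        _ = τ.im⁻¹ * r₀⁻¹ ^ 3 * (‖v‖ ^ 3)⁻¹ := by
          rw [mul_pow, mul_inv, mul_inv, inv_pow]
          ring
  calc ‖h55_eis (m : ℤ) c τ‖ ≤ ∑' v : Fin 2 → ℤ, φ v * ‖eisSummand (m : ℤ) v τ'‖ := hstep1
    _ ≤ ∑' v : Fin 2 → ℤ, τ.im⁻¹ * r₀⁻¹ ^ 3 * ‖v‖ ^ (-(3 : ℝ)) :=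
        Summable.tsum_le_tsum hterm (hsummφ τ') (hS.mul_left _)
    _ = r₀⁻¹ ^ 3 * (∑' x : Fin 2 → ℤ, ‖x‖ ^ (-(3 : ℝ))) / τ.im := by
        rw [tsum_mul_left]
        ring

/-- the Eisenstein series `E_χ^{(k)}` of weight `k` -/
noncomputable def h55_EchiK (N : ℕ) (χ : ↥(Gamma0 N) →* ℂˣ) (k : ℤ) : ℍ → ℂ :=
  h55_eis k (h55_eisCoeff N χ)

theorem h55_EchiK_four (N : ℕ) (χ : ↥(Gamma0 N) →* ℂˣ) : h55_EchiK N χ 4 = h55_Echi N χ := rfl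

variable {N : ℕ} (χ : ↥(Gamma0 N) →* ℂˣ)

/-- (E1) `E_χ^{(k)}` is holomorphic -/
theorem h55_EchiK_mdiff (hχ1 : ∀ γ, ‖(χ γ : ℂ)‖ = 1) {k : ℤ} (hk : 3 ≤ k) :
    MDiff (h55_EchiK N χ k) :=
  h55_eis_mdiff hk (h55_eisCoeff_norm_le χ hχ1)

/-- (E2) transformation law, slash form -/
theorem h55_EchiK_slash (hχ : ∀ γ : ↥(Gamma0 N), (γ : SL(2, ℤ)) 1 0 = 0 → χ γ = 1) (k : ℤ)
    (γ : ↥(Gamma0 N)) :
    h55_EchiK N χ k ∣[k] (γ : SL(2, ℤ)) = (χ γ : ℂ) • h55_EchiK N χ k := by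
  unfold h55_EchiK
  rw [h55_eis_slash]
  ext τ
  simp only [h55_eis, Pi.smul_apply, smul_eq_mul]
  rw [← tsum_mul_left]
  refine tsum_congr (fun v => ?_)
  rw [h55_eisCoeff_vecMul χ hχ]
  ring

/-- (E2) transformation law, pointwise form -/
theorem h55_EchiK_smul (hχ : ∀ γ : ↥(Gamma0 N), (γ : SL(2, ℤ)) 1 0 = 0 → χ γ = 1) (k : ℤ)
    (γ : ↥(Gamma0 N)) (τ : ℍ) :
    h55_EchiK N χ k ((γ : SL(2, ℤ)) • τ) =
      (χ γ : ℂ) * ((((γ : SL(2, ℤ)) 1 0 : ℤ) : ℂ) * (τ : ℂ) + (((γ : SL(2, ℤ)) 1 1 : ℤ) : ℂ)) ^ k *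
        h55_EchiK N χ k τ := by
  have h := congrFun (h55_EchiK_slash χ hχ k γ) τ
  rw [SL_slash_apply, Pi.smul_apply, smul_eq_mul, _root_.zpow_neg,
    mul_inv_eq_iff_eq_mul₀ (zpow_ne_zero _ <| denom_ne_zero _ τ), ModularGroup.denom_apply] at h
  rw [h]
  ring

/-- (E4) the slashes of `E_χ^{(k)}` are bounded on `Im τ ≥ 1` -/
theorem h55_EchiK_slash_bounded (hχ1 : ∀ γ, ‖(χ γ : ℂ)‖ = 1) {k : ℤ} (hk : 3 ≤ k)
    (g : SL(2, ℤ)) :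
    ∃ C : ℝ, ∀ τ : ℍ, 1 ≤ τ.im → ‖(h55_EchiK N χ k ∣[k] g) τ‖ ≤ C :=
  h55_eis_slash_bounded hk (h55_eisCoeff_norm_le χ hχ1) g one_pos

/-- the slashes of `E_χ^{(k)}` are holomorphic -/
theorem h55_EchiK_slash_mdiff (hχ1 : ∀ γ, ‖(χ γ : ℂ)‖ = 1) {k : ℤ} (hk : 3 ≤ k)
    (g : SL(2, ℤ)) : MDiff (h55_EchiK N χ k ∣[k] g) :=
  h55_eis_slash_mdiff hk (h55_eisCoeff_norm_le χ hχ1) g

/-- (E5) periodicity of the slashes -/
theorem h55_EchiK_slash_periodic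
    (hχ : ∀ γ : ↥(Gamma0 N), (γ : SL(2, ℤ)) 1 0 = 0 → χ γ = 1) (k : ℤ) (g : SL(2, ℤ)) (w : ℕ)
    (h : g * ModularGroup.T ^ w * g⁻¹ ∈ Gamma0 N)
    (hχg : χ ⟨g * ModularGroup.T ^ w * g⁻¹, h⟩ = 1) (τ : ℍ) :
    (h55_EchiK N χ k ∣[k] g) ((w : ℝ) +ᵥ τ) = (h55_EchiK N χ k ∣[k] g) τ := by
  have h1 : (h55_EchiK N χ k ∣[k] g) ∣[k] (ModularGroup.T ^ w) =
      h55_EchiK N χ k ∣[k] g := by
    rw [← SlashAction.slash_mul]
    have h2 : g * ModularGroup.T ^ w = (g * ModularGroup.T ^ w * g⁻¹) * g := by group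
    rw [h2, SlashAction.slash_mul]
    have h3 := h55_EchiK_slash χ hχ k ⟨g * ModularGroup.T ^ w * g⁻¹, h⟩
    rw [hχg] at h3
    rw [h3]
    simp
  have h4 := congrFun h1 τ
  rw [SL_slash_apply, ← zpow_natCast, ModularGroup.denom_apply, ModularGroup.coe_T_zpow,
    modular_T_zpow_smul] at h4
  rw [← h4]
  simp

theorem h55_EchiK_sub_two (hχ1 : ∀ γ, ‖(χ γ : ℂ)‖ = 1)
    (hχ : ∀ γ : ↥(Gamma0 N), (γ : SL(2, ℤ)) 1 0 = 0 → χ γ = 1) (m : ℕ) (hm : 4 ≤ m)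
    (hme : Even m) (τ : ℍ) :
    h55_EchiK N χ (m : ℤ) τ - 2 =
      h55_eis (m : ℤ) (fun v => if v 0 = 0 then 0 else h55_eisCoeff N χ v) τ := by
  classical
  have hm3 : (3 : ℤ) ≤ (m : ℤ) := by omega
  have hc : ∀ v, ‖h55_eisCoeff N χ v‖ ≤ 1 := h55_eisCoeff_norm_le χ hχ1
  have hc₀ : ∀ v : Fin 2 → ℤ, ‖(if v 0 = 0 then h55_eisCoeff N χ v else 0 : ℂ)‖ ≤ 1 := by
    intro v
    split_ifs
    · exact hc v
    · simp
  have hc₁ : ∀ v : Fin 2 → ℤ, ‖(if v 0 = 0 then 0 else h55_eisCoeff N χ v : ℂ)‖ ≤ 1 := by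
    intro v
    split_ifs
    · simp
    · exact hc v
  have hsplit : h55_EchiK N χ (m : ℤ) τ =
      h55_eis (m : ℤ) (fun v => if v 0 = 0 then h55_eisCoeff N χ v else 0) τ +
        h55_eis (m : ℤ) (fun v => if v 0 = 0 then 0 else h55_eisCoeff N χ v) τ := by
    unfold h55_EchiK h55_eis
    rw [← Summable.tsum_add (h55_eis_summable hm3 hc₀ τ) (h55_eis_summable hm3 hc₁ τ)]
    refine tsum_congr (fun v => ?_)
    split_ifs <;> ring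
  have h0 : h55_eis (m : ℤ) (fun v => if v 0 = 0 then h55_eisCoeff N χ v else 0) τ = 2 := by
    unfold h55_eis
    have hne : (![0, 1] : Fin 2 → ℤ) ≠ ![0, -1] := by
      intro h
      have := congrFun h 1
      norm_num at this
    rw [tsum_eq_sum (s := {![0, 1], ![0, -1]})]
    · rw [Finset.sum_pair hne]
      simp only [Matrix.cons_val_zero, if_true, h55_eisCoeff_zero_one χ hχ,
        h55_eisCoeff_zero_neg_one χ hχ, eisSummand]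
      have h1 : ((-1 : ℂ)) ^ (-(m : ℤ)) = 1 := by
        rw [_root_.zpow_neg, zpow_natCast, hme.neg_one_pow, inv_one]
      simp [h1]
      norm_num
    · intro v hv
      simp only [Finset.mem_insert, Finset.mem_singleton, not_or] at hv
      beta_reduce
      split_ifs with h
      · rw [h55_eisCoeff_zero_left χ v h hv.1 hv.2, zero_mul]
      · rw [zero_mul]
  rw [hsplit, h0]
  ring

/-- (E3) `E_χ^{(m)}(τ) → 2` as `Im τ → ∞`, uniformly in `Re τ` (`m ≥ 4` even) -/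
theorem h55_EchiK_tendsto (hχ1 : ∀ γ, ‖(χ γ : ℂ)‖ = 1)
    (hχ : ∀ γ : ↥(Gamma0 N), (γ : SL(2, ℤ)) 1 0 = 0 → χ γ = 1) (m : ℕ) (hm : 4 ≤ m)
    (hme : Even m) :
    ∀ ε : ℝ, 0 < ε → ∃ B : ℝ, ∀ τ : ℍ, B ≤ τ.im → ‖h55_EchiK N χ (m : ℤ) τ - 2‖ < ε := by
  classical
  obtain ⟨C, hC⟩ := h55_eisNat_decay m hm
  intro ε hε
  refine ⟨max 1 (|C| / ε + 1), fun τ hτ => ?_⟩
  have hτ1 : 1 ≤ τ.im := le_trans (le_max_left _ _) hτ
  have hτ2 : |C| / ε + 1 ≤ τ.im := le_trans (le_max_right _ _) hτ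
  rw [h55_EchiK_sub_two χ hχ1 hχ m hm hme]
  have hb := hC (fun v => if v 0 = 0 then 0 else h55_eisCoeff N χ v)
    (fun v => by
      split_ifs
      · simp
      · exact h55_eisCoeff_norm_le χ hχ1 v)
    (fun v hv => by simp [hv]) τ hτ1
  refine lt_of_le_of_lt hb ?_
  have hpos : 0 < τ.im := τ.im_pos
  rw [div_lt_iff₀ hpos]
  have h3 : |C| / ε < τ.im := by linarith
  rw [div_lt_iff₀ hε] at h3
  calc C ≤ |C| := le_abs_self C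
    _ < τ.im * ε := h3
    _ = ε * τ.im := by ring

/-- (E3) `E_χ^{(m)}` is not identically zero -/
theorem h55_EchiK_ne_zero (hχ1 : ∀ γ, ‖(χ γ : ℂ)‖ = 1)
    (hχ : ∀ γ : ↥(Gamma0 N), (γ : SL(2, ℤ)) 1 0 = 0 → χ γ = 1) (m : ℕ) (hm : 4 ≤ m)
    (hme : Even m) : ∃ τ : ℍ, h55_EchiK N χ (m : ℤ) τ ≠ 0 := by
  obtain ⟨B, hB⟩ := h55_EchiK_tendsto χ hχ1 hχ m hm hme 1 one_pos
  let τ : ℍ := ⟨⟨0, max B 1⟩, lt_of_lt_of_le one_pos (le_max_right _ _)⟩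
  refine ⟨τ, fun h0 => ?_⟩
  have h1 : B ≤ τ.im := le_max_left B 1
  have h2 := hB τ h1
  rw [h0, zero_sub, norm_neg] at h2
  have h3 : ‖(2 : ℂ)‖ = 2 := by simp
  rw [h3] at h2
  norm_num at h2

end Fermat.Agent.GAL
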