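import Mathlib
import Fermat.Agent.GAL.h55_EisK
import Fermat.Agent.S24.h14_ProdInv

/-!
# GAL (THETA-CHAR-1): the `χ`-automorphic function `u_χ = E_χ^(12) / Δ`

For a character `χ : Γ₀(N) → ℂˣ` of finite order which is trivial on parabolic elements, the
function `u_χ := E_χ^(12) / Δ` is holomorphic on the upper half plane, satisfies
`u_χ (γ τ) = χ γ * u_χ τ` for `γ ∈ Γ₀(N)`, is not identically zero, and all its
`SL₂(ℤ)`-translates have `q_N`-expansions with finite principal part (S24 language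
`h77_IsQExp`).  We package this as a predicate `h55_Aut N χ φ` ("`φ` is a good
`χ`-automorphic function") which is stable under products and powers.
-/

set_option autoImplicit false

namespace Fermat.Agent.GAL

open UpperHalfPlane ModularForm CongruenceSubgroup EisensteinSeries Matrix
open Fermat.Agent.S24
open scoped MatrixGroups Manifold

local notation "𝕢" => Function.Periodic.qParam

/-! ## Consequences of the hypotheses on `χ` -/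

/-- An element of `SL₂(ℤ)` with vanishing lower left entry has trace `±2`. -/
theorem h55_trace_sq_of_lower_zero (γ : SL(2, ℤ)) (h : γ 1 0 = 0) :
    (γ : Matrix (Fin 2) (Fin 2) ℤ).trace ^ 2 = 4 := by
  have hdet := γ.det_coe
  rw [Matrix.det_fin_two, h, mul_zero, sub_zero] at hdet
  rw [Matrix.trace_fin_two]
  rcases Int.eq_one_or_neg_one_of_mul_eq_one' hdet with ⟨h1, h2⟩ | ⟨h1, h2⟩
  · rw [h1, h2]; norm_num
  · rw [h1, h2]; norm_num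

/-- A character trivial on parabolic elements is trivial on the upper triangular ones. -/
theorem h55_upper_of_par {N : ℕ} (χ : ↥(Gamma0 N) →* ℂˣ)
    (hpar : ∀ γ : ↥(Gamma0 N), ((γ : SL(2, ℤ)) : Matrix (Fin 2) (Fin 2) ℤ).trace ^ 2 = 4 →
      χ γ = 1) :
    ∀ γ : ↥(Gamma0 N), (γ : SL(2, ℤ)) 1 0 = 0 → χ γ = 1 :=
  fun γ h => hpar γ (h55_trace_sq_of_lower_zero _ h)

/-- A character of finite order is unitary. -/
theorem h55_norm_of_pow {N : ℕ} (χ : ↥(Gamma0 N) →* ℂˣ) {n : ℕ} (hn : 0 < n)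
    (hχn : ∀ γ : ↥(Gamma0 N), χ γ ^ n = 1) : ∀ γ : ↥(Gamma0 N), ‖(χ γ : ℂ)‖ = 1 := by
  intro γ
  refine Complex.norm_eq_one_of_pow_eq_one (n := n) ?_ hn.ne'
  have := congrArg (fun u : ℂˣ => (u : ℂ)) (hχn γ)
  simpa using this

/-- Conjugates of powers of `T` have trace `2`. -/
theorem h55_trace_conj_T (g : SL(2, ℤ)) (w : ℕ) :
    ((g * ModularGroup.T ^ w * g⁻¹ : SL(2, ℤ)) : Matrix (Fin 2) (Fin 2) ℤ).trace = 2 := by
  rw [Matrix.SpecialLinearGroup.coe_mul, Matrix.SpecialLinearGroup.coe_mul,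
    Matrix.trace_mul_cycle, ← Matrix.SpecialLinearGroup.coe_mul, inv_mul_cancel,
    Matrix.SpecialLinearGroup.coe_one, one_mul, ← zpow_natCast, ModularGroup.coe_T_zpow,
    Matrix.trace_fin_two]
  simp

/-- Conjugates of `T ^ N` lie in `Γ₀(N)`. -/
theorem h55_conj_T_mem (N : ℕ) (g : SL(2, ℤ)) :
    g * ModularGroup.T ^ N * g⁻¹ ∈ Gamma0 N := by
  have hT : ModularGroup.T ^ N ∈ Gamma N := by
    rw [Gamma_mem, ← zpow_natCast, ModularGroup.coe_T_zpow]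
    simp
  have hc : g * ModularGroup.T ^ N * g⁻¹ ∈ Gamma N := (Gamma_normal N).conj_mem _ hT g
  rw [Gamma_mem] at hc
  rw [Gamma0_mem]
  exact hc.2.2.1

/-- The discriminant is a weight `12` form for `SL₂(ℤ)`. -/
theorem h55_disc_smul (γ : SL(2, ℤ)) (τ : ℍ) :
    discriminant (γ • τ) =
      (((γ 1 0 : ℤ) : ℂ) * τ + ((γ 1 1 : ℤ) : ℂ)) ^ 12 * discriminant τ := by
  have hγ : (γ : GL (Fin 2) ℝ) ∈ 𝒮ℒ := ⟨γ, rfl⟩
  have := SlashInvariantForm.slash_action_eqn' CuspForm.discriminant hγ τ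
  simpa using this

theorem h55_denom_ne_zero (γ : SL(2, ℤ)) (τ : ℍ) :
    (((γ 1 0 : ℤ) : ℂ) * τ + ((γ 1 1 : ℤ) : ℂ)) ≠ 0 := by
  have := UpperHalfPlane.denom_ne_zero (γ : GL (Fin 2) ℝ) τ
  simpa [UpperHalfPlane.denom] using this

/-! ## The function `u_χ` -/

/-- `u_χ := E_χ^(12) / Δ`. -/
noncomputable def h55_u (N : ℕ) (χ : ↥(Gamma0 N) →* ℂˣ) : ℍ → ℂ :=
  fun τ => h55_EchiK N χ 12 τ / discriminant τ

theorem h55_u_apply (N : ℕ) (χ : ↥(Gamma0 N) →* ℂˣ) (τ : ℍ) :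
    h55_u N χ τ = h55_EchiK N χ 12 τ / discriminant τ := rfl

/-- (U1) `u_χ` is holomorphic. -/
theorem h55_u_mdiff {N : ℕ} (χ : ↥(Gamma0 N) →* ℂˣ) (hχ1 : ∀ γ, ‖(χ γ : ℂ)‖ = 1) :
    MDiff (h55_u N χ) :=
  (h55_EchiK_mdiff χ hχ1 (by norm_num)).div CuspForm.discriminant.holo' discriminant_ne_zero

/-- (U2) `u_χ` is `χ`-automorphic. -/
theorem h55_u_smul {N : ℕ} (χ : ↥(Gamma0 N) →* ℂˣ)
    (hχ : ∀ γ : ↥(Gamma0 N), (γ : SL(2, ℤ)) 1 0 = 0 → χ γ = 1)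
    (γ : ↥(Gamma0 N)) (τ : ℍ) :
    h55_u N χ ((γ : SL(2, ℤ)) • τ) = (χ γ : ℂ) * h55_u N χ τ := by
  have hd := h55_denom_ne_zero (γ : SL(2, ℤ)) τ
  have hΔ := discriminant_ne_zero τ
  rw [h55_u_apply, h55_u_apply, h55_EchiK_smul χ hχ 12 γ τ, h55_disc_smul]
  have h12 : ((((γ : SL(2, ℤ)) 1 0 : ℤ) : ℂ) * (τ : ℂ) + (((γ : SL(2, ℤ)) 1 1 : ℤ) : ℂ)) ^ (12 : ℤ)
      = ((((γ : SL(2, ℤ)) 1 0 : ℤ) : ℂ) * (τ : ℂ) + (((γ : SL(2, ℤ)) 1 1 : ℤ) : ℂ)) ^ (12 : ℕ) := by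
    norm_cast
  rw [h12]
  field_simp

/-- (U3) `u_χ` is not identically zero. -/
theorem h55_u_ne_zero {N : ℕ} (χ : ↥(Gamma0 N) →* ℂˣ) (hχ1 : ∀ γ, ‖(χ γ : ℂ)‖ = 1)
    (hχ : ∀ γ : ↥(Gamma0 N), (γ : SL(2, ℤ)) 1 0 = 0 → χ γ = 1) :
    ∃ τ : ℍ, h55_u N χ τ ≠ 0 := by
  obtain ⟨τ, hτ⟩ := h55_EchiK_ne_zero χ hχ1 hχ 12 (by norm_num) (by decide)
  exact ⟨τ, div_ne_zero hτ (discriminant_ne_zero τ)⟩

/-! ## `q_N`-expansions at all cusps -/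

/-- The `q`-expansion of `1 / Δ`. -/
theorem h55_isQExp_disc_inv :
    h77_IsQExp 1 (HahnSeries.single (-1 : ℤ) (1 : ℂ) *
        HahnSeries.ofPowerSeries ℤ ℂ (h77_cast ModularCurve.dedekindEtaUnitInv))
      (fun τ => (discriminant τ)⁻¹) := by
  rw [h77_isQExp_single_mul_iff]
  intro τ
  have hq := h77_norm_qParam_lt_one one_pos τ
  have hq0 : 𝕢 1 (τ : ℂ) ≠ 0 := Function.Periodic.qParam_ne_zero _
  have h := h77_isPS_etaUnitInv _ hq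
  have hval : (discriminant τ)⁻¹ * 𝕢 1 (τ : ℂ) ^ (-(-1 : ℤ)) =
      (h77_euler (𝕢 1 τ) ^ 24)⁻¹ := by
    rw [h77_discriminant_eq, neg_neg, zpow_one]
    have he : h77_euler (𝕢 1 (τ : ℂ)) ^ 24 ≠ 0 := pow_ne_zero 24 (h77_euler_ne_zero hq)
    field_simp
  rw [hval]
  exact h

/-- Periodicity on `ℍ` gives periodicity of the extension by `ofComplex`. -/
theorem h55_periodic_comp_ofComplex {G : ℍ → ℂ} {h : ℝ}
    (hG : ∀ τ : ℍ, G (h +ᵥ τ) = G τ) : Function.Periodic (G ∘ ofComplex) (h : ℂ) := by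
  intro w
  by_cases hw : 0 < w.im
  · have hw' : 0 < (w + h).im := by simpa using hw
    simp only [Function.comp_apply, ofComplex_apply_of_im_pos hw', ofComplex_apply_of_im_pos hw]
    rw [← hG ⟨w, hw⟩]
    congr 1
    ext
    simp [add_comm]
  · have hw0 : w.im ≤ 0 := not_lt.mp hw
    have hw' : (w + h).im ≤ 0 := by simpa using hw0
    simp only [Function.comp_apply, ofComplex_apply_of_im_nonpos hw',
      ofComplex_apply_of_im_nonpos hw0]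

/-- A holomorphic function on `ℍ` which is bounded on `Im τ ≥ 1` and has period `w` has a
power series expansion in `q_w`. -/
theorem h55_isQExp_of_periodic {G : ℍ → ℂ} {w : ℕ} (hw : 0 < w) (hmd : MDiff G)
    (hbd : ∃ C : ℝ, ∀ τ : ℍ, 1 ≤ τ.im → ‖G τ‖ ≤ C)
    (hper : ∀ τ : ℍ, G ((w : ℝ) +ᵥ τ) = G τ) :
    h77_IsQExp (w : ℝ) (HahnSeries.ofPowerSeries ℤ ℂ (qExpansion (w : ℝ) G)) G := by
  rw [h59_isQExp_ofPowerSeries]
  intro τ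
  have hw' : (0 : ℝ) < w := by exact_mod_cast hw
  have hb : IsBoundedAtImInfty G := by
    rw [isBoundedAtImInfty_iff]
    obtain ⟨C, hC⟩ := hbd
    exact ⟨C, 1, hC⟩
  have := UpperHalfPlane.hasSum_qExpansion hw' (h55_periodic_comp_ofComplex hper) hmd hb τ
  simpa [smul_eq_mul] using this

/-- The translates of `u_χ` in terms of the slashes of `E_χ^(12)`. -/
theorem h55_u_conj {N : ℕ} (χ : ↥(Gamma0 N) →* ℂˣ) (g : SL(2, ℤ)) (τ : ℍ) :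
    h55_u N χ (g • τ) = (h55_EchiK N χ 12 ∣[(12 : ℤ)] g) τ * (discriminant τ)⁻¹ := by
  have hd := h55_denom_ne_zero g τ
  have hΔ := discriminant_ne_zero τ
  rw [h55_u_apply, SL_slash_apply, h55_disc_smul, ModularGroup.denom_apply]
  have h12 : ((((g 1 0 : ℤ) : ℂ) * (τ : ℂ) + ((g 1 1 : ℤ) : ℂ)) ^ (-(12 : ℤ)))
      = (((((g 1 0 : ℤ) : ℂ) * (τ : ℂ) + ((g 1 1 : ℤ) : ℂ)) ^ (12 : ℕ)))⁻¹ := by
    rw [_root_.zpow_neg]
    norm_cast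
  rw [h12]
  field_simp

/-- (U4) every `SL₂(ℤ)`-translate of `u_χ` has a `q_N`-expansion with finite principal part. -/
theorem h55_u_isQExp {N : ℕ} [NeZero N] (χ : ↥(Gamma0 N) →* ℂˣ)
    (hχ1 : ∀ γ, ‖(χ γ : ℂ)‖ = 1)
    (hpar : ∀ γ : ↥(Gamma0 N), ((γ : SL(2, ℤ)) : Matrix (Fin 2) (Fin 2) ℤ).trace ^ 2 = 4 →
      χ γ = 1)
    (g : SL(2, ℤ)) :
    ∃ c : LaurentSeries ℂ, h77_IsQExp (N : ℝ) c (fun τ => h55_u N χ (g • τ)) := by
  have hχ := h55_upper_of_par χ hpar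
  have hmem := h55_conj_T_mem N g
  have hχg : χ ⟨_, hmem⟩ = 1 := hpar _ (by rw [h55_trace_conj_T]; norm_num)
  have h1 := h55_isQExp_of_periodic (NeZero.pos N)
    (h55_EchiK_slash_mdiff χ hχ1 (by norm_num) g)
    (h55_EchiK_slash_bounded χ hχ1 (by norm_num) g)
    (h55_EchiK_slash_periodic χ hχ 12 g N hmem hχg)
  have h2 := h55_isQExp_disc_inv.qExpand_width N
  rw [mul_one] at h2
  exact ⟨_, (h1.mul h2).congr fun τ => (h55_u_conj χ g τ).symm⟩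

/-! ## Good `χ`-automorphic functions -/

/-- `φ` is a good `χ`-automorphic function: holomorphic on `ℍ`, `φ (γ τ) = χ γ * φ τ` for
`γ ∈ Γ₀(N)`, and every `SL₂(ℤ)`-translate has a `q_N`-expansion with finite principal part. -/
def h55_Aut (N : ℕ) (χ : ↥(Gamma0 N) →* ℂˣ) (φ : ℍ → ℂ) : Prop :=
  MDiff φ ∧ (∀ (γ : ↥(Gamma0 N)) (τ : ℍ), φ ((γ : SL(2, ℤ)) • τ) = (χ γ : ℂ) * φ τ) ∧
    ∀ g : SL(2, ℤ), ∃ c : LaurentSeries ℂ, h77_IsQExp (N : ℝ) c (fun τ => φ (g • τ))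

/-- (U1)+(U2)+(U4): `u_χ` is a good `χ`-automorphic function. -/
theorem h55_aut_u {N : ℕ} [NeZero N] (χ : ↥(Gamma0 N) →* ℂˣ) {n : ℕ} (hn : 0 < n)
    (hχn : ∀ γ : ↥(Gamma0 N), χ γ ^ n = 1)
    (hpar : ∀ γ : ↥(Gamma0 N), ((γ : SL(2, ℤ)) : Matrix (Fin 2) (Fin 2) ℤ).trace ^ 2 = 4 →
      χ γ = 1) :
    h55_Aut N χ (h55_u N χ) :=
  ⟨h55_u_mdiff χ (h55_norm_of_pow χ hn hχn), h55_u_smul χ (h55_upper_of_par χ hpar),
    h55_u_isQExp χ (h55_norm_of_pow χ hn hχn) hpar⟩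

theorem h55_Aut.mul {N : ℕ} {χ χ' : ↥(Gamma0 N) →* ℂˣ} {φ φ' : ℍ → ℂ}
    (h : h55_Aut N χ φ) (h' : h55_Aut N χ' φ') :
    h55_Aut N (χ * χ') (fun τ => φ τ * φ' τ) := by
  obtain ⟨h1, h2, h3⟩ := h
  obtain ⟨h1', h2', h3'⟩ := h'
  refine ⟨h1.mul h1', fun γ τ => ?_, fun g => ?_⟩
  · show φ _ * φ' _ = _ * (φ τ * φ' τ)
    rw [h2, h2', MonoidHom.mul_apply, Units.val_mul]
    ring
  · obtain ⟨c, hc⟩ := h3 g
    obtain ⟨c', hc'⟩ := h3' g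
    exact ⟨c * c', hc.mul hc'⟩

theorem h55_aut_const (N : ℕ) (a : ℂ) : h55_Aut N 1 (fun _ => a) := by
  refine ⟨mdifferentiable_const, fun γ τ => by simp, fun g => ⟨HahnSeries.C a, ?_⟩⟩
  exact h77_isQExp_C (N : ℝ) a

theorem h55_Aut.pow {N : ℕ} {χ : ↥(Gamma0 N) →* ℂˣ} {φ : ℍ → ℂ}
    (h : h55_Aut N χ φ) (n : ℕ) : h55_Aut N (χ ^ n) (fun τ => φ τ ^ n) := by
  obtain ⟨h1, h2, h3⟩ := h
  refine ⟨h1.pow n, fun γ τ => ?_, fun g => ?_⟩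
  · show φ _ ^ n = _ * φ τ ^ n
    rw [h2, MonoidHom.pow_apply, Units.val_pow_eq_pow_val, mul_pow]
  · obtain ⟨c, hc⟩ := h3 g
    exact ⟨c ^ n, hc.pow n⟩

theorem h55_Aut.congr {N : ℕ} {χ χ' : ↥(Gamma0 N) →* ℂˣ} {φ φ' : ℍ → ℂ}
    (h : h55_Aut N χ φ) (hχ : χ = χ') (hφ : ∀ τ, φ τ = φ' τ) : h55_Aut N χ' φ' := by
  have : φ = φ' := funext hφ
  subst this
  subst hχ
  exact h

/-- A good `1`-automorphic function is `Γ₀(N)`-invariant. -/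
theorem h55_Aut.invariant {N : ℕ} {φ : ℍ → ℂ} (h : h55_Aut N 1 φ) :
    ∀ γ ∈ Gamma0 N, ∀ τ : ℍ, φ (γ • τ) = φ τ := by
  intro γ hγ τ
  have := h.2.1 ⟨γ, hγ⟩ τ
  simpa using this

/-- The `n`-th power of a good `χ`-automorphic function with `χ ^ n = 1` is invariant. -/
theorem h55_Aut.pow_of_pow_eq_one {N : ℕ} {χ : ↥(Gamma0 N) →* ℂˣ} {φ : ℍ → ℂ}
    (h : h55_Aut N χ φ) {n : ℕ} (hχn : ∀ γ : ↥(Gamma0 N), χ γ ^ n = 1) :
    h55_Aut N 1 (fun τ => φ τ ^ n) :=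
  (h.pow n).congr (MonoidHom.ext fun γ => by rw [MonoidHom.pow_apply, hχn, MonoidHom.one_apply])
    fun _ => rfl

/-- If a good `χ`-automorphic function which is not identically zero is `Γ₀(N)`-invariant,
then `χ = 1`. -/
theorem h55_Aut.char_eq_one {N : ℕ} {χ : ↥(Gamma0 N) →* ℂˣ} {φ : ℍ → ℂ}
    (h : h55_Aut N χ φ) (hne : ∃ τ, φ τ ≠ 0)
    (hinv : ∀ γ ∈ Gamma0 N, ∀ τ : ℍ, φ (γ • τ) = φ τ) : χ = 1 := by
  obtain ⟨τ, hτ⟩ := hne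
  ext γ
  have h1 := h.2.1 γ τ
  rw [hinv _ γ.2 τ] at h1
  have h2 : ((χ γ : ℂˣ) : ℂ) = 1 := by
    have : (1 - (χ γ : ℂ)) * φ τ = 0 := by rw [sub_mul, one_mul, ← h1, sub_self]
    rcases mul_eq_zero.mp this with h | h
    · exact (sub_eq_zero.mp h).symm
    · exact absurd h hτ
  simpa using h2

/-- **PROD-INV for good invariant functions**: the product of the conjugates of a good
`Γ₀(N)`-invariant function over `SL₂(ℤ) / Γ₀(N)` is a polynomial in `j`. -/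
theorem h55_Aut.prod_inv {N : ℕ} [NeZero N] [Fintype (SL(2, ℤ) ⧸ Gamma0 N)] {φ : ℍ → ℂ}
    (h : h55_Aut N 1 φ) :
    ∃ P : Polynomial ℂ, ∀ τ : ℍ,
      ∏ x : SL(2, ℤ) ⧸ Gamma0 N, φ ((Quotient.out x)⁻¹ • τ) = P.eval (h77_j τ) := by
  have hexp : ∀ g : SL(2, ℤ), ∃ c : LaurentSeries ℂ,
      h77_IsQExp (N : ℝ) (ModularCurve.coeffMap (RingHom.id ℂ) c) (fun τ => φ (g • τ)) := by
    intro g
    obtain ⟨c, hc⟩ := h.2.2 g
    refine ⟨c, ?_⟩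
    have : ModularCurve.coeffMap (RingHom.id ℂ) c = c := by
      ext k
      rw [ModularCurve.coeffMap_coeff, RingHom.id_apply]
    rwa [this]
  obtain ⟨P, hP, -⟩ := h14_prod_inv_fun (RingHom.id ℂ) N h.invariant hexp
  exact ⟨P, fun τ => by rw [hP τ, Polynomial.map_id]⟩

end Fermat.Agent.GAL
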