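/-
GAL analytic layer, row AN-HCHI (helper68): the weight-0 automorphic function
`h_χ = E_χ E₄² / Δ` with multiplier `χ` on `Γ₀(N)`: it is a `gal_AutForm N χ` and it is not
identically zero.
-/
import Mathlib
import Fermat.Agent.GAL.h77_AnDefs
import Fermat.Agent.GAL.h55_EisChi
import Fermat.Agent.GAL.h55_UChi

set_option autoImplicit false

open UpperHalfPlane ModularCurve CongruenceSubgroup AlgebraicCurve ModularForm EisensteinSeries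
open scoped MatrixGroups Manifold

namespace Fermat.Agent.GAL

open Fermat.Agent.S24 Fermat.Agent.S16

local notation "𝕢" => Function.Periodic.qParam

/-- `h_χ = E_χ E₄² / Δ`: holomorphic, weight `0`, multiplier `χ`. -/
noncomputable def gal_hchi (N : ℕ) (χ : ↥(Gamma0 N) →* ℂˣ) : ℍ → ℂ :=
  fun τ => h55_Echi N χ τ * E₄ τ ^ 2 / ModularForm.discriminant τ

/-- `E₄` is a weight `4` form for `SL₂(ℤ)`. -/
theorem h68_E4_smul (γ : SL(2, ℤ)) (τ : ℍ) :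
    E₄ (γ • τ) = (((γ 1 0 : ℤ) : ℂ) * τ + ((γ 1 1 : ℤ) : ℂ)) ^ 4 * E₄ τ := by
  have hγ : (γ : GL (Fin 2) ℝ) ∈ 𝒮ℒ := ⟨γ, rfl⟩
  have := SlashInvariantForm.slash_action_eqn' E₄ hγ τ
  simpa using this

/-- `E₄` is bounded on `Im τ ≥ 1`. -/
theorem h68_E4_bounded : ∃ C : ℝ, ∀ τ : ℍ, 1 ≤ τ.im → ‖E₄ τ‖ ≤ C := by
  obtain ⟨C, hC⟩ := h55_tsum_norm_le (k := 4) (by norm_num) one_pos
  refine ⟨C, fun τ hτ => ?_⟩
  have h1 : E₄ τ = (1 / 2 : ℂ) • eisensteinSeriesSIF (N := 1) 0 4 τ := rfl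
  rw [h1, eisensteinSeriesSIF_apply, smul_eq_mul, norm_mul]
  have h2 := EisensteinSeries.norm_le_tsum_norm 1 (0 : Fin 2 → ZMod 1) 4 (by norm_num) τ
  have h3 := hC τ hτ
  have h4 : ‖(1 / 2 : ℂ)‖ = 1 / 2 := by norm_num
  rw [h4]
  have h5 := norm_nonneg (eisensteinSeries (0 : Fin 2 → ZMod 1) 4 τ)
  linarith

/-- `‖Δ(τ)‖⁻¹ ≤ C exp(2π Im τ)` on `Im τ ≥ 1`. -/
theorem h68_disc_inv_norm_le : ∃ C : ℝ, ∀ τ : ℍ, 1 ≤ τ.im →
    ‖(discriminant τ)⁻¹‖ ≤ C * Real.exp (2 * Real.pi * τ.im) := by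
  have hr1 : Real.exp (-(2 * Real.pi)) < 1 := by
    rw [Real.exp_lt_one_iff]
    have := Real.pi_pos
    linarith
  have hsub : Metric.closedBall (0 : ℂ) (Real.exp (-(2 * Real.pi))) ⊆ Metric.ball 0 1 :=
    Metric.closedBall_subset_ball hr1
  have hcont : ContinuousOn (fun q : ℂ => (h77_euler q ^ 24)⁻¹)
      (Metric.closedBall 0 (Real.exp (-(2 * Real.pi)))) := by
    refine ContinuousOn.inv₀ ((h77_differentiableOn_euler.continuousOn.mono hsub).pow 24)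
      (fun q hq => pow_ne_zero 24 (h77_euler_ne_zero ?_))
    simpa using hsub hq
  obtain ⟨C, hC⟩ := (isCompact_closedBall (0 : ℂ) _).exists_bound_of_continuousOn hcont
  refine ⟨C, fun τ hτ => ?_⟩
  have hqn : ‖𝕢 1 (τ : ℂ)‖ = Real.exp (-2 * Real.pi * τ.im) := by
    rw [Function.Periodic.norm_qParam]
    simp
  have hmem : 𝕢 1 (τ : ℂ) ∈ Metric.closedBall (0 : ℂ) (Real.exp (-(2 * Real.pi))) := by
    rw [mem_closedBall_zero_iff, hqn]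
    apply Real.exp_le_exp.2
    have := Real.pi_pos
    nlinarith
  have hb := hC _ hmem
  rw [h77_discriminant_eq, mul_inv, norm_mul, norm_inv, hqn, ← Real.exp_neg]
  have h6 : -(-2 * Real.pi * τ.im) = 2 * Real.pi * τ.im := by ring
  rw [h6, mul_comm]
  exact mul_le_mul_of_nonneg_right hb (Real.exp_pos _).le

section

variable {N : ℕ} (χ : ↥(Gamma0 N) →* ℂˣ)

theorem h68_hchi_mdiff (hχ1 : ∀ γ, ‖(χ γ : ℂ)‖ = 1) : MDiff (gal_hchi N χ) :=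
  ((h55_Echi_mdiff χ hχ1).mul (E₄.holo'.pow 2)).div CuspForm.discriminant.holo'
    discriminant_ne_zero

theorem h68_hchi_smul (hχ : ∀ γ : ↥(Gamma0 N), (γ : SL(2, ℤ)) 1 0 = 0 → χ γ = 1)
    (γ : ↥(Gamma0 N)) (τ : ℍ) :
    gal_hchi N χ ((γ : SL(2, ℤ)) • τ) = (χ γ : ℂ) * gal_hchi N χ τ := by
  have hd := h55_denom_ne_zero (γ : SL(2, ℤ)) τ
  have hΔ := discriminant_ne_zero τ
  unfold gal_hchi
  rw [h55_Echi_smul χ hχ γ τ, h55_disc_smul, h68_E4_smul]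
  field_simp

/-- The translates of `h_χ` in terms of the slashes of `E_χ`. -/
theorem h68_hchi_conj (g : SL(2, ℤ)) (τ : ℍ) :
    gal_hchi N χ (g • τ) =
      (h55_Echi N χ ∣[(4 : ℤ)] g) τ * E₄ τ ^ 2 * (discriminant τ)⁻¹ := by
  have hd := h55_denom_ne_zero g τ
  have hΔ := discriminant_ne_zero τ
  unfold gal_hchi
  rw [SL_slash_apply, h55_disc_smul, h68_E4_smul, ModularGroup.denom_apply]
  have h4 : ((((g 1 0 : ℤ) : ℂ) * (τ : ℂ) + ((g 1 1 : ℤ) : ℂ)) ^ (-(4 : ℤ)))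
      = (((((g 1 0 : ℤ) : ℂ) * (τ : ℂ) + ((g 1 1 : ℤ) : ℂ)) ^ (4 : ℕ)))⁻¹ := by
    rw [_root_.zpow_neg]
    norm_cast
  rw [h4]
  field_simp

end

theorem gal_hchi_autForm (N : ℕ) (χ : ↥(Gamma0 N) →* ℂˣ) (hχ1 : ∀ γ, ‖(χ γ : ℂ)‖ = 1)
    (hχ : ∀ γ : ↥(Gamma0 N), (γ : SL(2, ℤ)) 1 0 = 0 → χ γ = 1) :
    gal_AutForm N χ (gal_hchi N χ) := by
  refine ⟨h68_hchi_mdiff χ hχ1, h68_hchi_smul χ hχ, fun g => ?_⟩
  obtain ⟨C₁, hC₁⟩ := h55_Echi_slash_bounded χ hχ1 g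
  obtain ⟨C₂, hC₂⟩ := h68_E4_bounded
  obtain ⟨C₃, hC₃⟩ := h68_disc_inv_norm_le
  refine ⟨1, C₁ * C₂ ^ 2 * C₃, fun τ hτ => ?_⟩
  rw [h68_hchi_conj, norm_mul, norm_mul, norm_pow]
  have h1 := hC₁ τ hτ
  have h2 := hC₂ τ hτ
  have h3 := hC₃ τ hτ
  have hC₁0 : 0 ≤ C₁ := (norm_nonneg _).trans h1
  have hC₂0 : 0 ≤ C₂ := (norm_nonneg _).trans h2
  have he : Real.exp (2 * Real.pi * ((1 : ℕ) : ℝ) * τ.im) = Real.exp (2 * Real.pi * τ.im) := by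
    rw [Nat.cast_one, mul_one]
  rw [he, mul_assoc (C₁ * C₂ ^ 2)]
  refine mul_le_mul (mul_le_mul h1 (pow_le_pow_left₀ (norm_nonneg _) h2 2)
    (pow_nonneg (norm_nonneg _) 2) hC₁0) h3 (norm_nonneg _) (mul_nonneg hC₁0 (pow_nonneg hC₂0 2))

theorem gal_hchi_ne_zero (N : ℕ) (χ : ↥(Gamma0 N) →* ℂˣ) (hχ1 : ∀ γ, ‖(χ γ : ℂ)‖ = 1)
    (hχ : ∀ γ : ↥(Gamma0 N), (γ : SL(2, ℤ)) 1 0 = 0 → χ γ = 1) :
    ∃ τ : ℍ, gal_hchi N χ τ ≠ 0 := by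
  obtain ⟨τ₁, hτ₁⟩ := h55_Echi_ne_zero χ hχ1 hχ
  let a : h25_Hol := ⟨h55_Echi N χ, h55_Echi_mdiff χ hχ1⟩
  let b : h25_Hol := ⟨E₄, E₄.holo'⟩
  have ha : a ≠ 0 := by
    intro h
    apply hτ₁
    have := congrArg (fun f : h25_Hol => (f : ℍ → ℂ) τ₁) h
    exact this
  have hb : b ≠ 0 := by
    intro h
    apply E_ne_zero (k := 4) (by norm_num) ⟨2, rfl⟩
    ext τ
    exact congrArg (fun f : h25_Hol => (f : ℍ → ℂ) τ) h
  have hab : a * b ^ 2 ≠ 0 := mul_ne_zero ha (pow_ne_zero 2 hb)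
  by_contra hcon
  push Not at hcon
  apply hab
  apply Subtype.ext
  funext τ
  have h := hcon τ
  unfold gal_hchi at h
  rw [div_eq_zero_iff] at h
  exact h.resolve_right (discriminant_ne_zero τ)

end Fermat.Agent.GAL
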