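import Fermat.Agent.GAL.h77_AnDefs
import Fermat.Agent.S37.h88_HICore
import Fermat.Agent.S24.h35_Places
import Fermat.Prelude.Def_ModularCurve_HeckeModule

/-!
# GAL, analytic layer, row AN-THETA-ALG (helper79): the `ℚ̄`-side algebra for `Θ`

* `gal_div_root`: if all orders of `f₀` are divisible by `n`, there is a divisor `D` of degree
  `0` with `n D = div f₀`.
* `gal_const_of_ord`: a function without zeros and poles is a nonzero constant.
* `gal_pic0_mk_eq_iff`: for `n D = div f₀`, `n D' = div f₀'`: `[D] = [D']` in `J₀(N)` iff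
  `f₀ = c hⁿ f₀'` for a constant `c ≠ 0` and a function `h ≠ 0`.
-/

set_option autoImplicit false

open ModularCurve AlgebraicCurve

namespace Fermat.Agent.GAL

local notation "Qb" => AlgebraicClosure ℚ

private theorem h79_place_ord_pow {K F : Type*} [Field K] [Field F] [Algebra K F]
    (v : Place K F) (f : F) (n : ℕ) : v.ord (f ^ n) = (n : ℤ) * v.ord f := by
  rw [← zpow_natCast, v.ord_zpow]

theorem gal_div_root (N : ℕ) [NeZero N] (n : ℕ) (hn : 0 < n) (f₀ : gal_F Qb N) (hf₀ : f₀ ≠ 0)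
    (h : ∀ v : Place Qb (gal_F Qb N), (n : ℤ) ∣ v.ord f₀) :
    ∃ D : Divisor.degZero (K := Qb) (F := gal_F Qb N),
      ∀ v : Place Qb (gal_F Qb N), (n : ℤ) * (D : Divisor Qb (gal_F Qb N)) v = v.ord f₀ := by
  obtain ⟨D₀, hD₀, hdeg⟩ :=
    (Fermat.Agent.S37.h88_hasPrincipalDivisors N).exists_divisor f₀ hf₀
  have hn0 : (n : ℤ) ≠ 0 := by exact_mod_cast hn.ne'
  let D : Divisor Qb (gal_F Qb N) := D₀.mapRange (fun a : ℤ => a / (n : ℤ)) (Int.zero_ediv _)
  have hDv : ∀ v : Place Qb (gal_F Qb N), (n : ℤ) * D v = v.ord f₀ := by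
    intro v
    show (n : ℤ) * (D₀.mapRange (fun a : ℤ => a / (n : ℤ)) (Int.zero_ediv _)) v = v.ord f₀
    rw [Finsupp.mapRange_apply, ← hD₀ v]
    exact Int.mul_ediv_cancel' (by rw [hD₀ v]; exact h v)
  have hnD : n • D = D₀ := by
    ext v
    rw [Finsupp.smul_apply, nsmul_eq_mul, hDv v, hD₀ v]
  have hdegD : Divisor.degree D = 0 := by
    have h1 : n • Divisor.degree D = 0 := by
      rw [← map_nsmul, hnD, hdeg]
    rw [nsmul_eq_mul] at h1
    exact (mul_eq_zero.mp h1).resolve_left hn0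
  exact ⟨⟨D, Divisor.mem_degZero.mpr hdegD⟩, hDv⟩

theorem gal_const_of_ord (N : ℕ) [NeZero N] (g : gal_F Qb N) (hg : g ≠ 0)
    (h : ∀ v : Place Qb (gal_F Qb N), v.ord g = 0) :
    ∃ c : Qb, c ≠ 0 ∧ g = algebraMap Qb (gal_F Qb N) c := by
  by_cases halg : IsAlgebraic Qb g
  · obtain ⟨a, ha⟩ := Fermat.Agent.S24.h35_exists_algebraMap_eq_of_isAlgebraic (K := Qb) g halg
    refine ⟨a, ?_, ha.symm⟩
    rintro rfl
    rw [map_zero] at ha
    exact hg ha.symm
  · exfalso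
    have htr : Transcendental Qb g := halg
    have : FiniteDimensional (IntermediateField.adjoin Qb {g}) (gal_F Qb N) :=
      Fermat.Agent.S24.h73_finite_of_transcendental (Fermat.Agent.S37.h88_isFF N) htr
    obtain ⟨hfin, hsum⟩ := Fermat.Agent.S24.h35_zeros_sum g htr
    have h0 : ∑ v ∈ hfin.toFinset, v.ord g = 0 :=
      Finset.sum_eq_zero (fun v _ => h v)
    have hpos : 0 < Module.finrank (IntermediateField.adjoin Qb {g}) (gal_F Qb N) :=
      Module.finrank_pos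
    rw [h0] at hsum
    have : (0 : ℤ) < (Module.finrank (IntermediateField.adjoin Qb {g}) (gal_F Qb N) : ℤ) := by
      exact_mod_cast hpos
    omega

theorem gal_pic0_mk_eq_iff (N : ℕ) [NeZero N] (n : ℕ) (hn : 0 < n)
    (D D' : Divisor.degZero (K := Qb) (F := gal_F Qb N)) (f₀ f₀' : gal_F Qb N)
    (hf₀ : f₀ ≠ 0) (hf₀' : f₀' ≠ 0)
    (hD : ∀ v : Place Qb (gal_F Qb N), (n : ℤ) * (D : Divisor Qb (gal_F Qb N)) v = v.ord f₀)
    (hD' : ∀ v : Place Qb (gal_F Qb N), (n : ℤ) * (D' : Divisor Qb (gal_F Qb N)) v = v.ord f₀') :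
    (Pic0.mk D : JZero N) = Pic0.mk D' ↔
      ∃ (c : Qb) (h : gal_F Qb N), c ≠ 0 ∧ h ≠ 0 ∧
        f₀ = algebraMap Qb (gal_F Qb N) c * h ^ n * f₀' := by
  have hn0 : (n : ℤ) ≠ 0 := by exact_mod_cast hn.ne'
  have hcoe : ∀ v : Place Qb (gal_F Qb N),
      ((-D + D' : Divisor.degZero (K := Qb) (F := gal_F Qb N)) : Divisor Qb (gal_F Qb N)) v =
        -(D : Divisor Qb (gal_F Qb N)) v + (D' : Divisor Qb (gal_F Qb N)) v := fun v => rfl
  have hiff : (Pic0.mk D : JZero N) = Pic0.mk D' ↔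
      Divisor.IsPrincipal
        ((-D + D' : Divisor.degZero (K := Qb) (F := gal_F Qb N)) : Divisor Qb (gal_F Qb N)) := by
    show (QuotientAddGroup.mk D : Pic0 Qb (gal_F Qb N)) = QuotientAddGroup.mk D' ↔ _
    rw [QuotientAddGroup.eq, AddSubgroup.mem_addSubgroupOf, Divisor.mem_principal]
  rw [hiff]
  constructor
  · rintro ⟨h, hh, hv⟩
    -- `g := f₀ / (h⁻¹ ^ n * f₀')` has no zeros and no poles
    have hh' : h⁻¹ ^ n ≠ 0 := pow_ne_zero n (inv_ne_zero hh)
    have hden : h⁻¹ ^ n * f₀' ≠ 0 := mul_ne_zero hh' hf₀'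
    have hg : f₀ / (h⁻¹ ^ n * f₀') ≠ 0 := div_ne_zero hf₀ hden
    have hord : ∀ v : Place Qb (gal_F Qb N), v.ord (f₀ / (h⁻¹ ^ n * f₀')) = 0 := by
      intro v
      have h1 := hv v
      rw [hcoe v] at h1
      rw [Fermat.Agent.S24.h35_ord_div v hf₀ hden, v.ord_mul hh' hf₀', h79_place_ord_pow,
        v.ord_inv, ← hD v, ← hD' v, ← h1]
      ring
    obtain ⟨c, hc, hgc⟩ := gal_const_of_ord N _ hg hord
    refine ⟨c, h⁻¹, hc, inv_ne_zero hh, ?_⟩
    rw [← hgc, mul_assoc, div_mul_cancel₀ _ hden]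
  · rintro ⟨c, h, hc, hh, hf⟩
    refine ⟨h⁻¹, inv_ne_zero hh, fun v => ?_⟩
    have hcK : algebraMap Qb (gal_F Qb N) c ≠ 0 := by
      rw [Ne, map_eq_zero_iff _ (algebraMap Qb (gal_F Qb N)).injective]
      exact hc
    have h1 : v.ord f₀ = (n : ℤ) * v.ord h + v.ord f₀' := by
      rw [hf, v.ord_mul (mul_ne_zero hcK (pow_ne_zero n hh)) hf₀',
        v.ord_mul hcK (pow_ne_zero n hh), Fermat.Agent.S24.h35_ord_algebraMap, zero_add,
        h79_place_ord_pow]
    rw [← hD v, ← hD' v] at h1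
    have h2 : (n : ℤ) * ((D : Divisor Qb (gal_F Qb N)) v - (D' : Divisor Qb (gal_F Qb N)) v
        - v.ord h) = 0 := by
      linear_combination h1
    have h3 := (mul_eq_zero.mp h2).resolve_left hn0
    rw [hcoe v, v.ord_inv]
    linarith

end Fermat.Agent.GAL
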