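import Mathlib
import Fermat.Prelude.Def_GaloisRep_Residual
import Fermat.Prelude.Def_ModularCurve_HeckeModule
import Fermat.Prelude.Def_ModularCurve_PeriodHomPair
import Fermat.Agent.S16.h30_HeckeHom

/-!
# GAL: the interfaces of the assembly (definitions only)

* `gal_Hpe N n` : homomorphisms `Γ₀(N) → ℤ/n` killing parabolic and finite-order elements;
* `gal_ThetaProp N n` : the output of the analytic layer + descent: an injective, Hecke-equivariant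
  homomorphism `gal_Hpe N n → J₀(N)(ℚ̄)`;
* `gal_CoreStatement N g p 𝔪` : the residual representation over `ℤ̄ ⧸ 𝔪` attached to `g`.
-/

set_option autoImplicit false

namespace Fermat.Agent.GAL

open Polynomial CongruenceSubgroup

/-- Homomorphisms `Γ₀(N) → ℤ/n` that kill the parabolic and the finite-order elements. -/
def gal_Hpe (N n : ℕ) : AddSubgroup (Additive (Gamma0 N) →+ ZMod n) where
  carrier := {χ | ModularCurve.Period.IsParabolicHom (Gamma0 N) χ ∧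
    ∀ γ : Gamma0 N, IsOfFinOrder γ → χ (Additive.ofMul γ) = 0}
  zero_mem' := ⟨fun _ _ => rfl, fun _ _ => rfl⟩
  add_mem' := by
    rintro a b ⟨ha1, ha2⟩ ⟨hb1, hb2⟩
    refine ⟨fun γ hγ => ?_, fun γ hγ => ?_⟩
    · rw [AddMonoidHom.add_apply, ha1 γ hγ, hb1 γ hγ, add_zero]
    · rw [AddMonoidHom.add_apply, ha2 γ hγ, hb2 γ hγ, add_zero]
  neg_mem' := by
    rintro a ⟨ha1, ha2⟩
    refine ⟨fun γ hγ => ?_, fun γ hγ => ?_⟩
    · rw [AddMonoidHom.neg_apply, ha1 γ hγ, neg_zero]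
    · rw [AddMonoidHom.neg_apply, ha2 γ hγ, neg_zero]

/-- **Interface THETA** (analytic layer + descent): an injective homomorphism
`Θ : gal_Hpe N n → J₀(N)(ℚ̄)` intertwining the group-side Hecke operator `h30_heckeT` with
`heckeOperatorBar` for all primes `ℓ ∤ N n`. -/
def gal_ThetaProp (N n : ℕ) [NeZero N] : Prop :=
  ∃ Θ : gal_Hpe N n →+ ModularCurve.JZero N, Function.Injective Θ ∧
    ∀ (ℓ : ℕ) [Fact ℓ.Prime] (hℓN : ¬ ℓ ∣ N), ¬ ℓ ∣ n →
      ∀ χ χ' : gal_Hpe N n,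
        (χ' : Additive (Gamma0 N) →+ ZMod n) =
            Fermat.Agent.S16.h30_heckeT N ℓ hℓN (χ : Additive (Gamma0 N) →+ ZMod n) →
          ModularCurve.heckeOperatorBar N ⟨ℓ, Fact.out⟩ (Θ χ) = Θ χ'

/-- **The core statement**: a two-dimensional representation of `Gal(ℚ̄/ℚ)` over `ℤ̄ ⧸ 𝔪`
factoring through a finite level, unramified outside `N p`, with the characteristic polynomials
`X² - a_ℓ X + ℓ` at Frobenius elements. -/
def gal_CoreStatement (N : ℕ) (g : CuspForm (Gamma0 N) 2) (p : ℕ)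
    (𝔪 : Ideal (integralClosure ℤ ℂ)) : Prop :=
  ∃ ρ : (AlgebraicClosure ℚ ≃ₐ[ℚ] AlgebraicClosure ℚ) →*
      Matrix (Fin 2) (Fin 2) (integralClosure ℤ ℂ ⧸ 𝔪),
    GaloisFactorsThroughFiniteLevel ρ ∧
    (∀ ℓ : ℕ, ℓ.Prime → ¬ ℓ ∣ N * p →
      ∀ A : ValuationSubring (AlgebraicClosure ℚ), A.LiesOverPrime ℓ →
        ∀ σ : AlgebraicClosure ℚ ≃ₐ[ℚ] AlgebraicClosure ℚ, A.IsFrobeniusAt σ ℓ →
          ∃ a : integralClosure ℤ ℂ, (a : ℂ) = ModularFormClass.qCoeff g ℓ ∧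
            (ρ σ).charpoly = X ^ 2 - C (Ideal.Quotient.mk 𝔪 a) * X +
              C ((ℓ : ℕ) : integralClosure ℤ ℂ ⧸ 𝔪)) ∧
    (∀ ℓ : ℕ, ℓ.Prime → ¬ ℓ ∣ N * p →
      ∀ A : ValuationSubring (AlgebraicClosure ℚ), A.LiesOverPrime ℓ →
        ∀ σ ∈ A.inertiaSubgroupIn ℚ, ρ σ = 1)

end Fermat.Agent.GAL
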