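import Fermat.Agent.GAL.h77_ThetaDefs
import Fermat.Agent.GAL.h29_Iface

/-!
# GAL, analytic layer: `gal_ThetaProp` from the four properties of the relation `R_n` (helper77)

`Θ ψ` is the unique `x ∈ J₀(N)(ℚ̄)` with `R_n(gal_chi n ψ, x)`.  Existence, uniqueness, injectivity
of the multiplier and Hecke-equivariance of `R_n` are hypotheses here; they are proved in
`AnThetaEx.lean`, `AnThetaUniq.lean` and (Hecke) helper67's files.
-/

set_option autoImplicit false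

open UpperHalfPlane ModularCurve CongruenceSubgroup AlgebraicCurve
open scoped MatrixGroups

namespace Fermat.Agent.GAL

open Fermat.Agent.S24 Fermat.Agent.S16

theorem gal_Hpe_eq_PE (N n : ℕ) : gal_Hpe N n = gal_PE N (ZMod n) := rfl

/-- `gal_chi` is injective. -/
theorem gal_chi_injective {N : ℕ} (n : ℕ) [NeZero n] {ψ ψ' : Additive ↥(Gamma0 N) →+ ZMod n}
    (h : gal_chi n ψ = gal_chi n ψ') : ψ = ψ' := by
  have h1 : gal_chi n (ψ - ψ') = 1 := by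
    have h2 : gal_chi n (ψ - ψ') * gal_chi n ψ' = gal_chi n ψ := by
      rw [← gal_chi_add, sub_add_cancel]
    rw [h] at h2
    ext γ
    have h3 := congrArg (fun χ : ↥(Gamma0 N) →* ℂˣ => χ γ) h2
    simp only [MonoidHom.mul_apply] at h3
    rw [mul_eq_right.mp h3]
    rfl
  exact sub_eq_zero.mp ((gal_chi_eq_one_iff n _).mp h1)

/-- **THETA from the properties of `R_n`.** -/
theorem gal_thetaProp_of_R (N : ℕ) [NeZero N] (n : ℕ) [NeZero n] (ι : AlgebraicClosure ℚ →+* ℂ)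
    (hEX : ∀ ψ : gal_Hpe N n, ∃ x : JZero N,
      gal_R N n ι (gal_chi n (ψ : Additive ↥(Gamma0 N) →+ ZMod n)) x)
    (hUQ : ∀ (χ : ↥(Gamma0 N) →* ℂˣ) (x x' : JZero N),
      gal_R N n ι χ x → gal_R N n ι χ x' → x = x')
    (hINJ : ∀ (χ χ' : ↥(Gamma0 N) →* ℂˣ) (x : JZero N),
      gal_R N n ι χ x → gal_R N n ι χ' x → χ = χ')
    (hHK : ∀ (ℓ : ℕ) [Fact ℓ.Prime] (hℓN : ¬ ℓ ∣ N), ¬ ℓ ∣ n →
      ∀ (ψ ψ' : Additive ↥(Gamma0 N) →+ ZMod n), ψ' = h30_heckeT N ℓ hℓN ψ →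
        ∀ x : JZero N, gal_R N n ι (gal_chi n ψ) x →
          gal_R N n ι (gal_chi n ψ') (heckeOperatorBar N ⟨ℓ, Fact.out⟩ x)) :
    gal_ThetaProp N n := by
  classical
  choose θ hθ using hEX
  have hadd : ∀ ψ ψ' : gal_Hpe N n, θ (ψ + ψ') = θ ψ + θ ψ' := by
    intro ψ ψ'
    have h1 := (hθ ψ).mul (hθ ψ')
    rw [← gal_chi_add] at h1
    exact hUQ _ _ _ (hθ (ψ + ψ')) h1
  refine ⟨AddMonoidHom.mk' θ hadd, ?_, ?_⟩
  · intro ψ ψ' h
    have h1 : θ ψ = θ ψ' := h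
    have h2 := hINJ _ _ _ (hθ ψ) (h1 ▸ hθ ψ')
    exact Subtype.ext (gal_chi_injective n h2)
  · intro ℓ _ hℓN hℓn χ χ' hχ
    have h1 := hHK ℓ hℓN hℓn _ _ hχ _ (hθ χ)
    exact hUQ _ _ _ h1 (hθ χ')

end Fermat.Agent.GAL
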