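/-
GAL / DESCENT block (helper22), definitions: the base-change map of Laurent-series function
fields along a field embedding `ι : k →+* K`, and rational / generic places.
-/
import Mathlib
import Fermat.Prelude.Def_ModularCurve_LaurentCoeff
import Fermat.Prelude.Def_AlgebraicCurve_DivisorClassGroup
import Fermat.Agent.S24.h35_PlaceBasic

set_option autoImplicit false

noncomputable section

namespace Fermat.Agent.GAL

open ModularCurve AlgebraicCurve HahnSeries

section BC

variable {k K : Type*} [Field k] [Algebra ℚ k] [Field K] [Algebra ℚ K] (ι : k →+* K)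
variable (F₀ : IntermediateField ℚ (LaurentSeries ℚ))

theorem h22_coeffMap_coeffEmb (x : LaurentSeries ℚ) :
    coeffMap ι (coeffEmb k x) = coeffEmb K x := by
  rw [coeffEmb, coeffEmb, coeffMap_coeffMap]
  exact coeffMap_congr (RingHom.ext fun c => by simp) x

theorem h22_coeffMap_algebraMap (a : k) :
    coeffMap ι (algebraMap k (LaurentSeries k) a) = algebraMap K (LaurentSeries K) (ι a) := by
  rw [algebraMap_laurentSeries_eq_single, algebraMap_laurentSeries_eq_single, coeffMap_single]

theorem h22_coeffMap_injective : Function.Injective (coeffMap ι) := by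
  intro x y h
  ext n
  have := congrArg (fun z : LaurentSeries K => z.coeff n) h
  simp only [coeffMap_coeff] at this
  exact ι.injective this

theorem h22_coeffMap_mem {x : LaurentSeries k} (hx : x ∈ laurentBaseChange k F₀) :
    coeffMap ι x ∈ laurentBaseChange K F₀ := by
  rw [mem_laurentBaseChange_iff] at hx
  induction hx using Subfield.closure_induction with
  | mem y hy =>
      rcases hy with ⟨a, rfl⟩ | ⟨z, hz, rfl⟩
      · rw [h22_coeffMap_algebraMap]
        exact (laurentBaseChange K F₀).algebraMap_mem _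
      · rw [h22_coeffMap_coeffEmb]
        exact coeffEmb_mem_laurentBaseChange K hz
  | one => simp
  | add x y _ _ hx hy => simpa using add_mem hx hy
  | neg x _ hx => simpa using neg_mem hx
  | inv x _ hx => simpa using inv_mem hx
  | mul x y _ _ hx hy => simpa using mul_mem hx hy

/-- Base change `F_k → F_K` of the Laurent-series function fields along `ι : k →+* K`
(coefficientwise). -/
def h22_bc : laurentBaseChange k F₀ →+* laurentBaseChange K F₀ where
  toFun x := ⟨coeffMap ι (x : LaurentSeries k), h22_coeffMap_mem ι F₀ x.2⟩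
  map_one' := Subtype.ext (map_one (coeffMap ι))
  map_mul' _ _ := Subtype.ext (map_mul (coeffMap ι) _ _)
  map_zero' := Subtype.ext (map_zero (coeffMap ι))
  map_add' _ _ := Subtype.ext (map_add (coeffMap ι) _ _)

@[simp]
theorem h22_coe_bc (x : laurentBaseChange k F₀) :
    (h22_bc ι F₀ x : LaurentSeries K) = coeffMap ι (x : LaurentSeries k) := rfl

theorem h22_bc_injective : Function.Injective (h22_bc ι F₀) := (h22_bc ι F₀).injective

theorem h22_bc_algebraMap (a : k) :
    h22_bc ι F₀ (algebraMap k (laurentBaseChange k F₀) a)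
      = algebraMap K (laurentBaseChange K F₀) (ι a) :=
  Subtype.ext (h22_coeffMap_algebraMap ι a)

/-- A place of `F_K` is *rational* (w.r.t. `ι`) if some nonzero element of `F_k` is a non-unit
at it. -/
def h22_IsRational (P : Place K (laurentBaseChange K F₀)) : Prop :=
  ∃ u : laurentBaseChange k F₀, u ≠ 0 ∧ P.ord (h22_bc ι F₀ u) ≠ 0

/-- A place of `F_K` is *generic* if every nonzero element of `F_k` is a unit at it. -/
def h22_IsGeneric (P : Place K (laurentBaseChange K F₀)) : Prop :=
  ∀ u : laurentBaseChange k F₀, u ≠ 0 → P.ord (h22_bc ι F₀ u) = 0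

theorem h22_rational_or_generic (P : Place K (laurentBaseChange K F₀)) :
    h22_IsRational ι F₀ P ∨ h22_IsGeneric ι F₀ P := by
  by_cases h : h22_IsGeneric ι F₀ P
  · exact Or.inr h
  · left
    unfold h22_IsGeneric at h
    push Not at h
    exact h

theorem h22_not_generic_iff (P : Place K (laurentBaseChange K F₀)) :
    ¬ h22_IsGeneric ι F₀ P ↔ h22_IsRational ι F₀ P := by
  unfold h22_IsGeneric h22_IsRational
  push Not
  rfl

/-! ### The `K`-span of `bc (F_k)` -/

/-- The `K`-span of the image of `F_k` inside `F_K` (it is a subring, see `h22_span_mul`). -/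
def h22_span : Submodule K (laurentBaseChange K F₀) :=
  Submodule.span K (Set.range (h22_bc ι F₀))

/-- The `K`-span of the images of those elements of `F_k` that are regular at the place `P`. -/
def h22_spanAt (P : Place K (laurentBaseChange K F₀)) : Submodule K (laurentBaseChange K F₀) :=
  Submodule.span K {x | x ∈ P.toValuationSubring ∧ x ∈ Set.range (h22_bc ι F₀)}

theorem h22_bc_mem_span (u : laurentBaseChange k F₀) : h22_bc ι F₀ u ∈ h22_span ι F₀ :=
  Submodule.subset_span ⟨u, rfl⟩

theorem h22_bc_mem_spanAt (P : Place K (laurentBaseChange K F₀)) (u : laurentBaseChange k F₀)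
    (hu : h22_bc ι F₀ u ∈ P.toValuationSubring) : h22_bc ι F₀ u ∈ h22_spanAt ι F₀ P :=
  Submodule.subset_span ⟨hu, u, rfl⟩

theorem h22_spanAt_le_span (P : Place K (laurentBaseChange K F₀)) :
    h22_spanAt ι F₀ P ≤ h22_span ι F₀ :=
  Submodule.span_mono fun _ hx => hx.2

theorem h22_mem_span_iff (x : laurentBaseChange K F₀) :
    x ∈ h22_span ι F₀ ↔ ∃ (n : ℕ) (a : Fin n → K) (u : Fin n → laurentBaseChange k F₀),
      x = ∑ i, a i • h22_bc ι F₀ (u i) := by
  constructor
  · intro hx
    obtain ⟨n, a, g, rfl⟩ := (Submodule.mem_span_set' (s := Set.range (h22_bc ι F₀))).1 hx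
    choose u hu using fun i => (g i).2
    exact ⟨n, a, u, by simp [hu]⟩
  · rintro ⟨n, a, u, rfl⟩
    exact Submodule.sum_mem _ fun i _ => Submodule.smul_mem _ _ (h22_bc_mem_span ι F₀ (u i))

theorem h22_mem_spanAt_iff (P : Place K (laurentBaseChange K F₀)) (x : laurentBaseChange K F₀) :
    x ∈ h22_spanAt ι F₀ P ↔ ∃ (n : ℕ) (a : Fin n → K) (u : Fin n → laurentBaseChange k F₀),
      (∀ i, h22_bc ι F₀ (u i) ∈ P.toValuationSubring) ∧ x = ∑ i, a i • h22_bc ι F₀ (u i) := by
  constructor
  · intro hx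
    obtain ⟨n, a, g, rfl⟩ := (Submodule.mem_span_set'
      (s := {x | x ∈ P.toValuationSubring ∧ x ∈ Set.range (h22_bc ι F₀)})).1 hx
    choose u hu using fun i => (g i).2.2
    refine ⟨n, a, u, fun i => ?_, by simp [hu]⟩
    rw [hu]
    exact (g i).2.1
  · rintro ⟨n, a, u, hu, rfl⟩
    exact Submodule.sum_mem _ fun i _ =>
      Submodule.smul_mem _ _ (h22_bc_mem_spanAt ι F₀ P (u i) (hu i))

theorem h22_algebraMap_mem_spanAt (P : Place K (laurentBaseChange K F₀)) (a : K) :
    algebraMap K (laurentBaseChange K F₀) a ∈ h22_spanAt ι F₀ P := by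
  have h1 : h22_bc ι F₀ 1 ∈ h22_spanAt ι F₀ P :=
    h22_bc_mem_spanAt ι F₀ P 1 (by rw [map_one]; exact one_mem _)
  have := Submodule.smul_mem _ a h1
  rwa [map_one, Algebra.smul_def, mul_one] at this

theorem h22_algebraMap_mem_span (a : K) :
    algebraMap K (laurentBaseChange K F₀) a ∈ h22_span ι F₀ := by
  have h1 : h22_bc ι F₀ 1 ∈ h22_span ι F₀ := h22_bc_mem_span ι F₀ 1
  have := Submodule.smul_mem _ a h1
  rwa [map_one, Algebra.smul_def, mul_one] at this

theorem h22_span_mul {x y : laurentBaseChange K F₀} (hx : x ∈ h22_span ι F₀)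
    (hy : y ∈ h22_span ι F₀) : x * y ∈ h22_span ι F₀ := by
  refine Submodule.span_induction₂ (p := fun x y _ _ => x * y ∈ h22_span ι F₀)
    ?_ ?_ ?_ ?_ ?_ ?_ ?_ hx hy
  · rintro _ _ ⟨u, rfl⟩ ⟨v, rfl⟩
    rw [← map_mul]
    exact h22_bc_mem_span ι F₀ _
  · intro y _; simp
  · intro x _; simp
  · intro x y z _ _ _ h1 h2; rw [add_mul]; exact add_mem h1 h2
  · intro x y z _ _ _ h1 h2; rw [mul_add]; exact add_mem h1 h2
  · intro r x y _ _ h; rw [smul_mul_assoc]; exact Submodule.smul_mem _ _ h
  · intro r x y _ _ h; rw [mul_smul_comm]; exact Submodule.smul_mem _ _ h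

theorem h22_spanAt_mul (P : Place K (laurentBaseChange K F₀)) {x y : laurentBaseChange K F₀}
    (hx : x ∈ h22_spanAt ι F₀ P) (hy : y ∈ h22_spanAt ι F₀ P) : x * y ∈ h22_spanAt ι F₀ P := by
  refine Submodule.span_induction₂ (p := fun x y _ _ => x * y ∈ h22_spanAt ι F₀ P)
    ?_ ?_ ?_ ?_ ?_ ?_ ?_ hx hy
  · rintro _ _ ⟨hu, u, rfl⟩ ⟨hv, v, rfl⟩
    rw [← map_mul]
    refine h22_bc_mem_spanAt ι F₀ P _ ?_
    rw [map_mul]
    exact mul_mem hu hv
  · intro y _; simp
  · intro x _; simp
  · intro x y z _ _ _ h1 h2; rw [add_mul]; exact add_mem h1 h2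
  · intro x y z _ _ _ h1 h2; rw [mul_add]; exact add_mem h1 h2
  · intro r x y _ _ h; rw [smul_mul_assoc]; exact Submodule.smul_mem _ _ h
  · intro r x y _ _ h; rw [mul_smul_comm]; exact Submodule.smul_mem _ _ h

/-- Elements of `h22_spanAt` are regular at `P`. -/
theorem h22_spanAt_mem (P : Place K (laurentBaseChange K F₀)) {x : laurentBaseChange K F₀}
    (hx : x ∈ h22_spanAt ι F₀ P) : x ∈ P.toValuationSubring := by
  refine Submodule.span_induction (p := fun x _ => x ∈ P.toValuationSubring) ?_ ?_ ?_ ?_ hx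
  · rintro x ⟨hx, -⟩; exact hx
  · exact zero_mem _
  · intro x y _ _ h1 h2; exact add_mem h1 h2
  · intro a x _ h
    rw [Algebra.smul_def]
    exact mul_mem (P.algebraMap_mem' a) h

/-- At a generic place the whole span is regular. -/
theorem h22_span_le_spanAt_of_generic (P : Place K (laurentBaseChange K F₀))
    (hP : h22_IsGeneric ι F₀ P) : h22_span ι F₀ ≤ h22_spanAt ι F₀ P := by
  refine Submodule.span_mono ?_
  rintro _ ⟨u, rfl⟩
  refine ⟨?_, u, rfl⟩
  by_cases hu : u = 0
  · rw [hu, map_zero]; exact zero_mem _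
  · have h0 : h22_bc ι F₀ u ≠ 0 := fun h => hu (h22_bc_injective ι F₀ (by rw [h, map_zero]))
    rw [Fermat.Agent.S24.h35_mem_iff_ord_nonneg P h0, hP u hu]


end BC

end Fermat.Agent.GAL

end
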