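import Fermat.Agent.GAL.h77_AnDefs
import Fermat.Agent.GAL.h22_DescDefs

/-!
# GAL, analytic layer: compatibility of `gal_Phi` with base change (helper77)

`gal_Phi (RingHom.id ℂ) N (h22_bc ι _ x) = gal_Phi ι N x` for `x ∈ F_K(N)`, `ι : K →+* ℂ`.
-/

set_option autoImplicit false

open UpperHalfPlane ModularCurve CongruenceSubgroup
open scoped MatrixGroups Manifold

namespace Fermat.Agent.GAL

open Fermat.Agent.S24

section

variable {K : Type*} [Field K] [Algebra ℚ K] (ι : K →+* ℂ) (N : ℕ)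

/-- `coeffMap ι` maps `A_N(K)` into `A_N(ℂ)`. -/
theorem gal_coeffMap_mem_AN {x : LaurentSeries K} (hx : x ∈ h78_AN K N) :
    coeffMap ι x ∈ h78_AN ℂ N := by
  induction hx using Algebra.adjoin_induction with
  | mem x hx =>
    obtain ⟨d, hd, hdN, rfl⟩ := hx
    rw [h22_coeffMap_coeffEmb]
    exact h78_gens_subset_AN ℂ N ⟨d, hd, hdN, rfl⟩
  | algebraMap c =>
    rw [h22_coeffMap_algebraMap]
    exact Subalgebra.algebraMap_mem _ _
  | add x y _ _ hx hy =>
    rw [map_add]
    exact add_mem hx hy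
  | mul x y _ _ hx hy =>
    rw [map_mul]
    exact mul_mem hx hy

/-- Base change on `A_N`. -/
noncomputable def gal_bcAN : h78_AN K N →+* h78_AN ℂ N where
  toFun a := ⟨coeffMap ι (a : LaurentSeries K), gal_coeffMap_mem_AN ι N a.2⟩
  map_one' := Subtype.ext (map_one (coeffMap ι))
  map_mul' _ _ := Subtype.ext (map_mul (coeffMap ι) _ _)
  map_zero' := Subtype.ext (map_zero (coeffMap ι))
  map_add' _ _ := Subtype.ext (map_add (coeffMap ι) _ _)

theorem gal_coe_bcAN (a : h78_AN K N) :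
    ((gal_bcAN ι N a : h78_AN ℂ N) : LaurentSeries ℂ) = coeffMap ι (a : LaurentSeries K) := rfl

theorem gal_bc_algebraMap_AN (a : h78_AN K N) :
    h22_bc ι (modularFunctionFieldFull N) (algebraMap (h78_AN K N) (gal_F K N) a)
      = algebraMap (h78_AN ℂ N) (gal_F ℂ N) (gal_bcAN ι N a) :=
  rfl

theorem gal_coeffMap_id (c : LaurentSeries ℂ) : coeffMap (RingHom.id ℂ) c = c := by
  ext k
  rw [coeffMap_coeff, RingHom.id_apply]

/-- The evaluation of the base change is the evaluation. -/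
theorem gal_ev_bcAN (a : h78_AN K N) :
    h54_ev (RingHom.id ℂ) N (gal_bcAN ι N a) = h54_ev ι N a := by
  obtain ⟨x, hx⟩ := a
  have h1 : gal_bcAN ι N ⟨x, hx⟩ = ⟨coeffMap ι x, gal_coeffMap_mem_AN ι N hx⟩ := rfl
  rw [h1, h54_ev_mk]
  refine h77_toFun_eq (RingHom.id ℂ) ?_
  show h77_IsQExp 1 (coeffMap (RingHom.id ℂ) (coeffMap ι x)) _
  rw [gal_coeffMap_id]
  exact h54_ev_spec ι N x hx

theorem gal_evHol_bcAN (a : h78_AN K N) :
    gal_evHol (RingHom.id ℂ) N (gal_bcAN ι N a) = gal_evHol ι N a :=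
  Subtype.ext (gal_ev_bcAN ι N a)

/-- **Compatibility of the analytic realisation with base change.** -/
theorem gal_Phi_bc (x : gal_F K N) :
    gal_Phi (RingHom.id ℂ) N (h22_bc ι (modularFunctionFieldFull N) x) = gal_Phi ι N x := by
  have h : ((gal_Phi (RingHom.id ℂ) N).comp (h22_bc ι (modularFunctionFieldFull N))) =
      gal_Phi ι N := by
    apply IsLocalization.ringHom_ext (nonZeroDivisors (h78_AN K N))
    ext a
    simp only [RingHom.comp_apply]
    rw [gal_bc_algebraMap_AN, gal_Phi_algebraMap, gal_Phi_algebraMap, gal_evHol_bcAN]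
  exact congrArg (fun φ : gal_F K N →+* h25_Mer => φ x) h

theorem gal_bc_j [NeZero N] :
    h22_bc ι (modularFunctionFieldFull N) (h78_j K N) = h78_j ℂ N := by
  apply Subtype.ext
  rw [h22_coe_bc, h78_coe_j, h78_coe_j, h22_coeffMap_coeffEmb]

end

end Fermat.Agent.GAL
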