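import Fermat.Agent.GAL.h77_ThetaDefs
import Fermat.Agent.GAL.h77_AnCompat
import Fermat.Agent.GAL.h55_UChi
import Fermat.Agent.GAL.h29_Iface

/-!
# GAL, analytic layer: existence, uniqueness and injectivity for the relation `R_n` (helper77)

The inputs coming from the analytic rows (HOLALG, DIVN, QEXP, ROOTALG), from the descent
(helper22) and from the `ℚ̄`-side algebra (row THETA-ALG) are taken as hypotheses, packaged as
`Prop`-valued definitions `gal_*Hyp`; they are discharged in `AnTheta.lean`.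
-/

set_option autoImplicit false

open UpperHalfPlane ModularCurve CongruenceSubgroup AlgebraicCurve
open scoped MatrixGroups Manifold

namespace Fermat.Agent.GAL

open Fermat.Agent.S24 Fermat.Agent.S16

local notation "Qb" => AlgebraicClosure ℚ

/-! ### The inputs -/

/-- (HOLALG) -/
def gal_HolAlgHyp (N : ℕ) : Prop :=
  ∀ (f : ℍ → ℂ) (hf : MDiff f), (∀ γ ∈ Gamma0 N, ∀ τ : ℍ, f (γ • τ) = f τ) → gal_QExpAll N f →
    ∃ x : gal_F ℂ N, gal_Phi (RingHom.id ℂ) N x = algebraMap h25_Hol h25_Mer ⟨f, hf⟩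

/-- (DIVN) -/
def gal_DivNHyp (N n : ℕ) : Prop :=
  ∀ (χ : ↥(Gamma0 N) →* ℂˣ),
    (∀ γ : ↥(Gamma0 N),
      ((γ : SL(2, ℤ)) : Matrix (Fin 2) (Fin 2) ℤ).trace ^ 2 = 4 → χ γ = 1) →
    (∀ γ : ↥(Gamma0 N), IsOfFinOrder γ → χ γ = 1) →
    ∀ (U : ℍ → ℂ) (hU : gal_AutForm N χ U), (∃ τ, U τ ≠ 0) → ∀ (f : gal_F ℂ N),
      gal_Phi (RingHom.id ℂ) N f = algebraMap h25_Hol h25_Mer ((⟨U, hU.mdiff⟩ : h25_Hol) ^ n) →
      ∀ P : Place ℂ (gal_F ℂ N), (n : ℤ) ∣ P.ord f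

/-- (QEXP, growth from expansions) -/
def gal_GrowthHyp : Prop :=
  ∀ (w : ℕ), 0 < w → ∀ (c : LaurentSeries ℂ) (G : ℍ → ℂ), h77_IsQExp (w : ℝ) c G →
    ∃ (m : ℕ) (C : ℝ), ∀ τ : ℍ, 1 ≤ τ.im → ‖G τ‖ ≤ C * Real.exp (2 * Real.pi * m * τ.im)

/-- (ROOTALG) -/
def gal_RootAlgHyp (N n : ℕ) : Prop :=
  ∀ u : h25_Mer, (∀ γ ∈ Gamma0 N, γ • u = u) → ∀ x : gal_F ℂ N,
    u ^ n = gal_Phi (RingHom.id ℂ) N x → ∃ y : gal_F ℂ N, gal_Phi (RingHom.id ℂ) N y = u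

/-- (DESC) -/
def gal_DescHyp (N n : ℕ) (ι : Qb →+* ℂ) : Prop :=
  ∀ f : gal_F ℂ N, f ≠ 0 → (∀ P : Place ℂ (gal_F ℂ N), (n : ℤ) ∣ P.ord f) →
    ∃ (c : ℂ) (g : gal_F ℂ N) (f₀ : gal_F Qb N), c ≠ 0 ∧ g ≠ 0 ∧ f₀ ≠ 0 ∧
      f = algebraMap ℂ (gal_F ℂ N) c * g ^ n * h22_bc ι (modularFunctionFieldFull N) f₀ ∧
      ∀ Q : Place Qb (gal_F Qb N), (n : ℤ) ∣ Q.ord f₀

/-- (DESC-INJ) -/
def gal_DescInjHyp (N n : ℕ) (ι : Qb →+* ℂ) : Prop :=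
  ∀ f₀ : gal_F Qb N, f₀ ≠ 0 → ∀ (c : ℂ) (g : gal_F ℂ N),
    h22_bc ι (modularFunctionFieldFull N) f₀ = algebraMap ℂ (gal_F ℂ N) c * g ^ n →
    ∃ (c₀ : Qb) (g₀ : gal_F Qb N), f₀ = algebraMap Qb (gal_F Qb N) c₀ * g₀ ^ n

/-- (T-DIV) -/
def gal_DivRootHyp (N n : ℕ) : Prop :=
  ∀ f₀ : gal_F Qb N, f₀ ≠ 0 → (∀ v : Place Qb (gal_F Qb N), (n : ℤ) ∣ v.ord f₀) →
    ∃ D : Divisor.degZero (K := Qb) (F := gal_F Qb N),
      ∀ v : Place Qb (gal_F Qb N), (n : ℤ) * (D : Divisor Qb (gal_F Qb N)) v = v.ord f₀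

/-- (T-PIC) -/
def gal_PicEqHyp (N n : ℕ) : Prop :=
  ∀ (D D' : Divisor.degZero (K := Qb) (F := gal_F Qb N)) (f₀ f₀' : gal_F Qb N),
    f₀ ≠ 0 → f₀' ≠ 0 →
    (∀ v : Place Qb (gal_F Qb N), (n : ℤ) * (D : Divisor Qb (gal_F Qb N)) v = v.ord f₀) →
    (∀ v : Place Qb (gal_F Qb N), (n : ℤ) * (D' : Divisor Qb (gal_F Qb N)) v = v.ord f₀') →
    ((Pic0.mk D : Pic0 Qb (gal_F Qb N)) = Pic0.mk D' ↔
      ∃ (c : Qb) (h : gal_F Qb N), c ≠ 0 ∧ h ≠ 0 ∧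
        f₀ = algebraMap Qb (gal_F Qb N) c * h ^ n * f₀')

/-! ### Constants -/

theorem gal_Phi_const {K : Type*} [Field K] [Algebra ℚ K] (ι : K →+* ℂ) (N : ℕ) (c : K) :
    gal_Phi ι N (algebraMap K (gal_F K N) c) = h74_constHom (ι c) := by
  rw [IsScalarTower.algebraMap_apply K (h78_AN K N) (gal_F K N), gal_Phi_algebraMap,
    h74_constHom_apply]
  congr 1
  apply Subtype.ext
  rw [gal_evHol_coe, h54_ev_const]
  rfl

theorem gal_constHom_ne_zero {c : ℂ} (hc : c ≠ 0) : h74_constHom c ≠ 0 :=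
  (map_ne_zero h74_constHom).mpr hc

theorem gal_IsAut.congr_char {N : ℕ} {χ χ' : ↥(Gamma0 N) →* ℂˣ} {u : h25_Mer}
    (h : gal_IsAut N χ u) (hχ : ∀ γ, χ γ = χ' γ) : gal_IsAut N χ' u := by
  intro γ
  rw [h γ, hχ γ]

/-! ### Uniqueness -/

variable {N : ℕ} [NeZero N]

theorem gal_R_ne_zero {n : ℕ} (hn : 0 < n) {ι : Qb →+* ℂ} {f₀ : gal_F Qb N} (hf : f₀ ≠ 0)
    {u : h25_Mer} (hpow : u ^ n = gal_Phi ι N f₀) : u ≠ 0 := by
  rintro rfl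
  rw [zero_pow hn.ne'] at hpow
  exact (map_ne_zero (gal_Phi ι N)).mpr hf hpow.symm

/-- **Uniqueness**: `R_n(χ, x)` and `R_n(χ, x')` imply `x = x'`. -/
theorem gal_R_unique {n : ℕ} (hn : 0 < n) {ι : Qb →+* ℂ} (hroot : gal_RootAlgHyp N n)
    (hdesc : gal_DescInjHyp N n ι) (hpic : gal_PicEqHyp N n)
    (χ : ↥(Gamma0 N) →* ℂˣ) (x x' : JZero N) (h : gal_R N n ι χ x) (h' : gal_R N n ι χ x') :
    x = x' := by
  obtain ⟨D, f, u, hf, rfl, hD, hu, hpow⟩ := h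
  obtain ⟨D', f', u', hf', rfl, hD', hu', hpow'⟩ := h'
  have hu'0 : u' ≠ 0 := gal_R_ne_zero hn hf' hpow'
  have hv : ∀ γ ∈ Gamma0 N, γ • (u / u') = u / u' := by
    have h1 := (hu.div hu').congr_char (χ' := 1) (fun γ => by
      rw [MonoidHom.div_apply, div_self', MonoidHom.one_apply])
    exact gal_isAut_one.mp h1
  have hvpow : (u / u') ^ n =
      gal_Phi (RingHom.id ℂ) N (h22_bc ι (modularFunctionFieldFull N) (f / f')) := by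
    rw [gal_Phi_bc, div_pow, hpow, hpow', map_div₀]
  obtain ⟨y, hy⟩ := hroot (u / u') hv _ hvpow
  have hyn : y ^ n = h22_bc ι (modularFunctionFieldFull N) (f / f') := by
    apply gal_Phi_injective (RingHom.id ℂ) N
    rw [map_pow, hy, hvpow]
  obtain ⟨c₀, g₀, hc⟩ := hdesc (f / f') (div_ne_zero hf hf') 1 y (by rw [map_one, one_mul, hyn])
  have hne : algebraMap Qb (gal_F Qb N) c₀ * g₀ ^ n ≠ 0 := hc ▸ div_ne_zero hf hf'
  have hc0 : c₀ ≠ 0 := by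
    rintro rfl
    rw [map_zero, zero_mul] at hne
    exact hne rfl
  have hg0 : g₀ ≠ 0 := by
    rintro rfl
    rw [zero_pow hn.ne', mul_zero] at hne
    exact hne rfl
  refine (hpic D D' f f' hf hf' hD hD').mpr ⟨c₀, g₀, hc0, hg0, ?_⟩
  rw [← hc, div_mul_cancel₀ f hf']

/-- **Injectivity**: `R_n(χ, x)` and `R_n(χ', x)` imply `χ = χ'`. -/
theorem gal_R_char_unique {n : ℕ} (hn : 0 < n) {ι : Qb →+* ℂ} (hpic : gal_PicEqHyp N n)
    (χ χ' : ↥(Gamma0 N) →* ℂˣ) (x : JZero N) (h : gal_R N n ι χ x) (h' : gal_R N n ι χ' x) :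
    χ = χ' := by
  obtain ⟨D, f, u, hf, hx, hD, hu, hpow⟩ := h
  obtain ⟨D', f', u', hf', hx', hD', hu', hpow'⟩ := h'
  obtain ⟨c, h, hc, hh, hfeq⟩ := (hpic D D' f f' hf hf' hD hD').mp (hx.trans hx'.symm)
  obtain ⟨c', hc'⟩ := IsAlgClosed.exists_pow_nat_eq (ι c) hn
  have hu0 : u ≠ 0 := gal_R_ne_zero hn hf hpow
  have hu'0 : u' ≠ 0 := gal_R_ne_zero hn hf' hpow'
  have hc'0 : c' ≠ 0 := by
    rintro rfl
    rw [zero_pow hn.ne'] at hc'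
    exact hc ((map_eq_zero ι).mp hc'.symm)
  set w : h25_Mer := h74_constHom c' * gal_Phi ι N h with hw
  have hw0 : w ≠ 0 :=
    mul_ne_zero (gal_constHom_ne_zero hc'0) ((map_ne_zero (gal_Phi ι N)).mpr hh)
  have hpw : u ^ n = (w * u') ^ n := by
    rw [hpow, hfeq, map_mul, map_mul, map_pow, gal_Phi_const, ← hc', map_pow, mul_pow, mul_pow,
      hpow']
  obtain ⟨ζ, -, hζ⟩ := gal_root_unique n hn u (w * u') hpw (mul_ne_zero hw0 hu'0)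
  rw [← h74_constHom_apply] at hζ
  have hw1 : gal_IsAut N 1 (h74_constHom ζ * w) := by
    exact ((gal_isAut_const N ζ).mul ((gal_isAut_const N c').mul
      (gal_isAut_Phi ι N h))).congr_char (fun γ => by simp)
  have h2 : gal_IsAut N χ' u := by
    have h3 := (hw1.mul hu').congr_char (χ' := χ') (fun γ => by simp)
    rw [hζ, ← mul_assoc]
    exact h3
  exact hu.char_eq h2 hu0

/-! ### Existence -/

/-- **Existence**: every `ψ ∈ Hom_pe(Γ₀(N), ℤ/n)` is related to a point of `J₀(N)(ℚ̄)`. -/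
theorem gal_R_exists {n : ℕ} [NeZero n] {ι : Qb →+* ℂ} (hHol : gal_HolAlgHyp N)
    (hDivN : gal_DivNHyp N n) (hGr : gal_GrowthHyp) (hDesc : gal_DescHyp N n ι)
    (hDivRoot : gal_DivRootHyp N n) (ψ : gal_Hpe N n) :
    ∃ x : JZero N, gal_R N n ι (gal_chi n (ψ : Additive ↥(Gamma0 N) →+ ZMod n)) x := by
  have hn : 0 < n := Nat.pos_of_ne_zero (NeZero.ne n)
  have hψ : (ψ : Additive ↥(Gamma0 N) →+ ZMod n) ∈ gal_PE N (ZMod n) := ψ.2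
  set χ := gal_chi n (ψ : Additive ↥(Gamma0 N) →+ ZMod n) with hχ
  have hχn : ∀ γ : ↥(Gamma0 N), χ γ ^ n = 1 := fun γ => gal_chi_pow n _ γ
  have hpar : ∀ γ : ↥(Gamma0 N),
      ((γ : SL(2, ℤ)) : Matrix (Fin 2) (Fin 2) ℤ).trace ^ 2 = 4 → χ γ = 1 :=
    fun γ h => gal_chi_of_trace hψ γ h
  have hfin : ∀ γ : ↥(Gamma0 N), IsOfFinOrder γ → χ γ = 1 :=
    fun γ h => gal_chi_of_finOrder hψ γ h
  have hA : h55_Aut N χ (h55_u N χ) := h55_aut_u χ hn hχn hpar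
  have hU0 : ∃ τ, h55_u N χ τ ≠ 0 :=
    h55_u_ne_zero χ (h55_norm_of_pow χ hn hχn) (h55_upper_of_par χ hpar)
  have hA1 : h55_Aut N 1 (fun τ => h55_u N χ τ ^ n) := hA.pow_of_pow_eq_one hχn
  obtain ⟨f, hf⟩ := hHol _ hA1.1 hA1.invariant hA1.2.2
  have hAF : gal_AutForm N χ (h55_u N χ) :=
    ⟨hA.1, hA.2.1, fun g => by
      obtain ⟨c, hc⟩ := hA.2.2 g
      exact hGr N (Nat.pos_of_ne_zero (NeZero.ne N)) c _ hc⟩
  set Uh : h25_Hol := ⟨h55_u N χ, hA.1⟩ with hUh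
  have hUh0 : Uh ≠ 0 := by
    obtain ⟨τ, hτ⟩ := hU0
    intro h0
    exact hτ (congrFun (congrArg Subtype.val h0) τ)
  have hf' : gal_Phi (RingHom.id ℂ) N f = algebraMap h25_Hol h25_Mer (Uh ^ n) := by
    rw [hf]
    rfl
  have hinj : Function.Injective (algebraMap h25_Hol h25_Mer) :=
    IsFractionRing.injective h25_Hol h25_Mer
  have hf0 : f ≠ 0 := by
    rintro rfl
    rw [map_zero] at hf'
    exact pow_ne_zero n hUh0 (hinj (by rw [← hf', map_zero]))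
  have hdiv := hDivN χ hpar hfin (h55_u N χ) hAF hU0 f hf'
  obtain ⟨c, g, f₀, hc, hg, hf₀, hfeq, hQ⟩ := hDesc f hf0 hdiv
  obtain ⟨D, hD⟩ := hDivRoot f₀ hf₀ hQ
  obtain ⟨c', hc'⟩ := IsAlgClosed.exists_pow_nat_eq c hn
  have hc'0 : c' ≠ 0 := by
    rintro rfl
    rw [zero_pow hn.ne'] at hc'
    exact hc hc'.symm
  have hg' : gal_Phi (RingHom.id ℂ) N g ≠ 0 := (map_ne_zero _).mpr hg
  have hk : h74_constHom c' ≠ 0 := gal_constHom_ne_zero hc'0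
  refine ⟨Pic0.mk D, D, f₀,
    (h74_constHom c')⁻¹ * (gal_Phi (RingHom.id ℂ) N g)⁻¹ * algebraMap h25_Hol h25_Mer Uh,
    hf₀, rfl, hD, ?_, ?_⟩
  · exact (((gal_isAut_const N c').inv.mul (gal_isAut_Phi (RingHom.id ℂ) N g).inv).mul
      (gal_isAut_algebraMap (χ := χ) Uh hA.2.1)).congr_char (fun γ => by simp)
  · have h1 : gal_Phi (RingHom.id ℂ) N f = h74_constHom c' ^ n *
        gal_Phi (RingHom.id ℂ) N g ^ n * gal_Phi ι N f₀ := by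
      rw [hfeq, map_mul, map_mul, map_pow, gal_Phi_const, RingHom.id_apply, ← hc', map_pow,
        gal_Phi_bc]
    rw [mul_pow, mul_pow, inv_pow, inv_pow, ← map_pow (algebraMap h25_Hol h25_Mer), ← hf', h1]
    field_simp

end Fermat.Agent.GAL
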