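import Fermat.Agent.GAL.AnThetaCore
import Fermat.Agent.GAL.AnThetaR

/-!
# GAL, analytic layer: `gal_ThetaProp` from the row outputs (helper77)

`gal_thetaProp_of_hyps`: the interface `gal_ThetaProp N n` of `h29_Iface.lean` from the nine inputs
HOLALG, DIVN, QEXP-growth, ROOTALG (analytic rows), DESC, DESC-INJ (descent), T-DIV, T-PIC
(`ℚ̄`-side algebra) and the Hecke-equivariance of the relation `R_n` (helper67).
-/

set_option autoImplicit false

open UpperHalfPlane ModularCurve CongruenceSubgroup AlgebraicCurve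
open scoped MatrixGroups

namespace Fermat.Agent.GAL

open Fermat.Agent.S24 Fermat.Agent.S16

/-- (HECKE) the relation `R_n` is Hecke-equivariant. -/
def gal_HeckeRHyp (N n : ℕ) [NeZero N] [NeZero n] (ι : AlgebraicClosure ℚ →+* ℂ) : Prop :=
  ∀ (ℓ : ℕ) [Fact ℓ.Prime] (hℓN : ¬ ℓ ∣ N), ¬ ℓ ∣ n →
    ∀ (ψ ψ' : Additive ↥(Gamma0 N) →+ ZMod n), ψ' = h30_heckeT N ℓ hℓN ψ →
      ∀ x : JZero N, gal_R N n ι (gal_chi n ψ) x →
        gal_R N n ι (gal_chi n ψ') (heckeOperatorBar N ⟨ℓ, Fact.out⟩ x)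

/-- **THETA** from the outputs of the analytic rows, the descent and the Hecke block. -/
theorem gal_thetaProp_of_hyps (N : ℕ) [NeZero N] (n : ℕ) [NeZero n]
    (ι : AlgebraicClosure ℚ →+* ℂ)
    (hHol : gal_HolAlgHyp N) (hDivN : gal_DivNHyp N n) (hGr : gal_GrowthHyp)
    (hRoot : gal_RootAlgHyp N n) (hDesc : gal_DescHyp N n ι) (hDescInj : gal_DescInjHyp N n ι)
    (hDivRoot : gal_DivRootHyp N n) (hPic : gal_PicEqHyp N n) (hHK : gal_HeckeRHyp N n ι) :
    gal_ThetaProp N n :=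
  have hn : 0 < n := Nat.pos_of_ne_zero (NeZero.ne n)
  gal_thetaProp_of_R N n ι (gal_R_exists hHol hDivN hGr hDesc hDivRoot)
    (gal_R_unique hn hRoot hDescInj hPic) (gal_R_char_unique hn hPic) hHK

end Fermat.Agent.GAL
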