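import Mathlib

/-!
# GAL-1 (BLR): a two-dimensional representation from quadratic relations

`gal_blr`: let `k` be algebraically closed, `W ≠ 0` a finite-dimensional `k`-space with an
action `r` of a group `G`, `d : G →* kˣ` and `t : G → k` with `g + d(g) g⁻¹ = t(g)` on `W`
for all `g`.  Then there is `ρ : G →* M₂(k)` with `tr ρ(g) = t(g)` and `det ρ(g) = d(g)`.

Proof: every element of the span of `r(G)` is killed by a monic quadratic; a simple
submodule `U` of `W` has `span r(G)|U = End U` (Burnside), hence `dim U ≤ 2`; then a case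
distinction (`dim U = 1`: `ψ ⊕ d ψ⁻¹`; `dim U = 2`: Cayley-Hamilton).
-/

set_option autoImplicit false

namespace Fermat.Agent.GAL

open Module

section quad

variable {k : Type*} [Field k] {G : Type*} [Group G] {W : Type*} [AddCommGroup W] [Module k W]

/-- The span of the pairs `(g, d(g) g⁻¹)`. -/
private def h47_Q (r : G →* (W →ₗ[k] W)) (d : G →* kˣ) :
    Submodule k ((W →ₗ[k] W) × (W →ₗ[k] W)) :=
  Submodule.span k (Set.range fun g : G => (r g, (d g : k) • r g⁻¹))

variable (r : G →* (W →ₗ[k] W)) (d : G →* kˣ) (t : G → k)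
  (h : ∀ (g : G) (w : W), r g w + (d g : k) • r g⁻¹ w = t g • w)

include h in
private lemma h47_rel (g : G) : r g + (d g : k) • r g⁻¹ = t g • (1 : W →ₗ[k] W) := by
  ext w
  simpa using h g w

include h in
private lemma h47_Q1 : ∀ q ∈ h47_Q r d, ∃ τ : k, q.1 + q.2 = τ • (1 : W →ₗ[k] W) := by
  intro q hq
  induction hq using Submodule.span_induction with
  | mem x hx =>
    obtain ⟨g, rfl⟩ := hx
    exact ⟨t g, h47_rel r d t h g⟩
  | zero => exact ⟨0, by simp⟩
  | add x y _ _ hx hy =>
    obtain ⟨a, ha⟩ := hx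
    obtain ⟨b, hb⟩ := hy
    refine ⟨a + b, ?_⟩
    rw [add_smul, ← ha, ← hb]
    simp only [Prod.fst_add, Prod.snd_add]
    abel
  | smul c x _ hx =>
    obtain ⟨a, ha⟩ := hx
    refine ⟨c * a, ?_⟩
    rw [mul_smul, ← ha]
    simp only [Prod.smul_fst, Prod.smul_snd, smul_add]

include h in
private lemma h47_Q2 : ∀ q ∈ h47_Q r d, ∀ q' ∈ h47_Q r d,
    ∃ c : k, q.1 * q'.2 + q'.1 * q.2 = c • (1 : W →ₗ[k] W) := by
  intro q hq
  induction hq using Submodule.span_induction with
  | mem x hx =>
    obtain ⟨g, rfl⟩ := hx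
    intro q' hq'
    induction hq' using Submodule.span_induction with
    | mem y hy =>
      obtain ⟨g', rfl⟩ := hy
      refine ⟨(d g' : k) * t (g * g'⁻¹), ?_⟩
      have e := h47_rel r d t h (g * g'⁻¹)
      have e1 : r (g * g'⁻¹) = r g * r g'⁻¹ := map_mul r g g'⁻¹
      have e2 : r (g * g'⁻¹)⁻¹ = r g' * r g⁻¹ := by
        rw [mul_inv_rev, inv_inv, map_mul]
      have e3 : ((d (g * g'⁻¹) : kˣ) : k) = (d g : k) * ((d g' : k))⁻¹ := by
        rw [map_mul, map_inv, Units.val_mul, Units.val_inv_eq_inv_val]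
      have hd' : ((d g' : kˣ) : k) ≠ 0 := (d g').ne_zero
      rw [mul_smul, ← e, e1, e2, e3]
      simp only [smul_add, mul_smul_comm, smul_smul]
      congr 1
      rw [mul_left_comm, mul_inv_cancel₀ hd', mul_one]
    | zero => exact ⟨0, by simp⟩
    | add y z _ _ hy hz =>
      obtain ⟨a, ha⟩ := hy
      obtain ⟨b, hb⟩ := hz
      refine ⟨a + b, ?_⟩
      rw [add_smul, ← ha, ← hb]
      simp only [Prod.fst_add, Prod.snd_add, mul_add, add_mul]
      abel
    | smul c y _ hy =>
      obtain ⟨a, ha⟩ := hy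
      refine ⟨c * a, ?_⟩
      rw [mul_smul, ← ha]
      simp only [Prod.smul_fst, Prod.smul_snd, smul_add, mul_smul_comm, smul_mul_assoc]
      congr 1
      rw [smul_comm]
  | zero => exact fun q' _ => ⟨0, by simp⟩
  | add x y _ _ hx hy =>
    intro q' hq'
    obtain ⟨a, ha⟩ := hx q' hq'
    obtain ⟨b, hb⟩ := hy q' hq'
    refine ⟨a + b, ?_⟩
    rw [add_smul, ← ha, ← hb]
    simp only [Prod.fst_add, Prod.snd_add, mul_add, add_mul]
    abel
  | smul c x _ hx =>
    intro q' hq'
    obtain ⟨a, ha⟩ := hx q' hq'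
    refine ⟨c * a, ?_⟩
    rw [mul_smul, ← ha]
    simp only [Prod.smul_fst, Prod.smul_snd, smul_add, mul_smul_comm, smul_mul_assoc]

include h in
private lemma h47_Q3 : ∀ q ∈ h47_Q r d, ∃ ν : k, q.1 * q.2 = ν • (1 : W →ₗ[k] W) := by
  intro q hq
  induction hq using Submodule.span_induction with
  | mem x hx =>
    obtain ⟨g, rfl⟩ := hx
    refine ⟨(d g : k), ?_⟩
    show r g * ((d g : k) • r g⁻¹) = _
    rw [mul_smul_comm, ← map_mul, mul_inv_cancel, map_one]
  | zero => exact ⟨0, by simp⟩
  | add x y hx' hy' hx hy =>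
    obtain ⟨a, ha⟩ := hx
    obtain ⟨b, hb⟩ := hy
    obtain ⟨c, hc⟩ := h47_Q2 r d t h x hx' y hy'
    refine ⟨a + b + c, ?_⟩
    rw [add_smul, add_smul, ← ha, ← hb, ← hc]
    simp only [Prod.fst_add, Prod.snd_add, mul_add, add_mul]
    abel
  | smul c x _ hx =>
    obtain ⟨a, ha⟩ := hx
    refine ⟨c * c * a, ?_⟩
    rw [mul_smul, ← ha]
    simp only [Prod.smul_fst, Prod.smul_snd, mul_smul_comm, smul_mul_assoc, smul_smul]

include h in
/-- Every element of the span of `r(G)` is killed by a monic quadratic. -/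
private lemma h47_quad : ∀ a ∈ Submodule.span k (Set.range r),
    ∃ τ ν : k, a * a = τ • a - ν • (1 : W →ₗ[k] W) := by
  intro a ha
  have h1 : ∃ a' : W →ₗ[k] W, (a, a') ∈ h47_Q r d := by
    induction ha using Submodule.span_induction with
    | mem x hx =>
      obtain ⟨g, rfl⟩ := hx
      exact ⟨(d g : k) • r g⁻¹, Submodule.subset_span ⟨g, rfl⟩⟩
    | zero => exact ⟨0, (h47_Q r d).zero_mem⟩
    | add x y _ _ hx hy =>
      obtain ⟨x', hx'⟩ := hx
      obtain ⟨y', hy'⟩ := hy
      exact ⟨x' + y', (h47_Q r d).add_mem hx' hy'⟩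
    | smul c x _ hx =>
      obtain ⟨x', hx'⟩ := hx
      exact ⟨c • x', (h47_Q r d).smul_mem c hx'⟩
  obtain ⟨a', ha'⟩ := h1
  obtain ⟨τ, hτ⟩ := h47_Q1 r d t h _ ha'
  obtain ⟨ν, hν⟩ := h47_Q3 r d t h _ ha'
  refine ⟨τ, ν, ?_⟩
  simp only at hτ hν
  have e : a' = τ • (1 : W →ₗ[k] W) - a := by rw [← hτ]; abel
  rw [e, mul_sub, mul_smul_comm, mul_one] at hν
  rw [← hν]
  abel

end quad

section dim

variable {k : Type*} [Field k] {U : Type*} [AddCommGroup U] [Module k U] [Module.Finite k U]

/-- If every endomorphism is killed by a monic quadratic, the dimension is at most two. -/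
private lemma h47_finrank_le_two
    (hq : ∀ T : U →ₗ[k] U, ∃ τ ν : k, T * T = τ • T - ν • (1 : U →ₗ[k] U)) :
    Module.finrank k U ≤ 2 := by
  classical
  by_contra hn
  rw [not_le] at hn
  let b := Module.finBasis k U
  let i0 : Fin (Module.finrank k U) := ⟨0, by omega⟩
  let i1 : Fin (Module.finrank k U) := ⟨1, by omega⟩
  let i2 : Fin (Module.finrank k U) := ⟨2, by omega⟩
  have h10 : i1 ≠ i0 := by simp [i0, i1, Fin.ext_iff]
  have h20 : i2 ≠ i0 := by simp [i0, i2, Fin.ext_iff]
  have h21 : i2 ≠ i1 := by simp [i1, i2, Fin.ext_iff]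
  let T : U →ₗ[k] U :=
    b.constr k (fun i => if i = i0 then b i1 else if i = i1 then b i2 else 0)
  have T0 : T (b i0) = b i1 := by
    simp only [T, Basis.constr_basis, if_true]
  have T1 : T (b i1) = b i2 := by
    simp only [T, Basis.constr_basis, if_neg h10, if_true]
  obtain ⟨τ, ν, hT⟩ := hq T
  have e := congrArg (fun f : U →ₗ[k] U => b.repr (f (b i0)) i2) hT
  simp only [Module.End.mul_apply, T0, T1, LinearMap.sub_apply, LinearMap.smul_apply,
    Module.End.one_apply, map_sub, map_smul, Basis.repr_self, Finsupp.sub_apply,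
    Finsupp.smul_apply, Finsupp.single_eq_same, smul_eq_mul] at e
  rw [Finsupp.single_eq_of_ne h21, Finsupp.single_eq_of_ne h20] at e
  simp at e

end dim

section irr

variable {k : Type*} [Field k] [IsAlgClosed k] {G : Type*} [Group G] {W : Type*}
  [AddCommGroup W] [Module k W] [Module.Finite k W] [Nontrivial W]

/-- Schur: an endomorphism commuting with an irreducible family is a scalar. -/
private lemma h47_schur (r : G →* (W →ₗ[k] W))
    (hirr : ∀ W' : Submodule k W, (∀ g, ∀ w ∈ W', r g w ∈ W') → W' = ⊥ ∨ W' = ⊤)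
    (X : Module.End k W) (hX : ∀ g, X * r g = r g * X) :
    ∃ c : k, ∀ w, X w = c • w := by
  obtain ⟨c, hc⟩ := Module.End.exists_eigenvalue X
  refine ⟨c, ?_⟩
  have hstab : ∀ g, ∀ x ∈ Module.End.eigenspace X c, r g x ∈ Module.End.eigenspace X c := by
    intro g x hx
    rw [Module.End.mem_eigenspace_iff] at hx ⊢
    have h1 := congrArg (fun f => f x) (hX g)
    simp only [Module.End.mul_apply] at h1
    rw [h1, hx, map_smul]
  rcases hirr _ hstab with h0 | h1
  · exact absurd h0 (Module.End.hasEigenvalue_iff.mp hc)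
  · intro x
    have hx : x ∈ Module.End.eigenspace X c := h1 ▸ Submodule.mem_top
    rwa [Module.End.mem_eigenspace_iff] at hx

/-- Burnside: an irreducible family of operators spans all endomorphisms. -/
private lemma h47_burnside (r : G →* (W →ₗ[k] W))
    (hirr : ∀ W' : Submodule k W, (∀ g, ∀ w ∈ W', r g w ∈ W') → W' = ⊥ ∨ W' = ⊤) :
    Submodule.span k (Set.range r) = ⊤ := by
  let A : Subalgebra k (Module.End k W) := Algebra.adjoin k (Set.range r)
  have hmemA : ∀ g, r g ∈ A := fun g => Algebra.subset_adjoin ⟨g, rfl⟩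
  have hsimple : IsSimpleModule A W := by
    rw [isSimpleModule_iff]
    refine { exists_pair_ne := ⟨⊥, ⊤, bot_ne_top⟩, eq_bot_or_eq_top := fun W' => ?_ }
    have hW : ∀ g, ∀ x ∈ W'.restrictScalars k, r g x ∈ W'.restrictScalars k := by
      intro g x hx
      have : (⟨r g, hmemA g⟩ : A) • x ∈ W' := W'.smul_mem _ hx
      exact this
    rcases hirr _ hW with h0 | h1
    · left; simpa using h0
    · right; simpa using h1
  have : Module.Finite (Module.End A W) W :=
    Module.Finite.of_restrictScalars_finite k (Module.End A W) W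
  rw [eq_top_iff]
  intro T _
  have hscal : ∀ g : Module.End A W, ∃ c : k, ∀ v, g v = c • v := by
    intro g
    refine h47_schur r hirr (g.restrictScalars k) (fun g' => ?_)
    ext v
    simp only [Module.End.mul_apply, LinearMap.restrictScalars_apply]
    have := g.map_smul (⟨r g', hmemA g'⟩ : A) v
    exact this
  let f : Module.End (Module.End A W) W :=
    { toFun := T
      map_add' := T.map_add
      map_smul' := fun g v => by
        obtain ⟨c, hc⟩ := hscal g
        show T (g v) = g (T v)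
        rw [hc, hc, map_smul] }
  obtain ⟨a, ha⟩ := Module.Finite.toModuleEnd_moduleEnd_surjective (R := A) (M := W) f
  have hTa : T = (a : Module.End k W) := by
    ext v
    have := congrArg (fun g => g v) ha
    exact this.symm
  have hspan : (A : Set (Module.End k W)) = Submodule.span k (Set.range r) := by
    have h1 := Algebra.adjoin_eq_span k (Set.range r)
    have h2 : (Submonoid.closure (Set.range r) : Set (Module.End k W)) = Set.range r := by
      rw [← MonoidHom.coe_mrange, Submonoid.closure_eq]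
    rw [h2] at h1
    rw [← h1]
    rfl
  have : T ∈ (A : Set (Module.End k W)) := hTa ▸ a.2
  rw [hspan] at this
  exact this

end irr

section mat

variable {k : Type*} [Field k]

/-- Cayley-Hamilton for a non-scalar `2 × 2` matrix with `m + d m⁻¹ = t`. -/
private lemma h47_mat2 (m m' : Matrix (Fin 2) (Fin 2) k) (t d : k)
    (h1 : m + d • m' = t • (1 : Matrix (Fin 2) (Fin 2) k)) (h2 : m * m' = 1)
    (hns : ∀ c : k, m ≠ c • (1 : Matrix (Fin 2) (Fin 2) k)) : m.trace = t ∧ m.det = d := by
  have hM : m * m = t • m - d • (1 : Matrix (Fin 2) (Fin 2) k) := by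
    have e : m * (m + d • m') = m * (t • (1 : Matrix (Fin 2) (Fin 2) k)) := by rw [h1]
    rw [mul_add, mul_smul_comm, h2, mul_smul_comm, mul_one] at e
    rw [← e]
    abel
  have e00 := congrFun (congrFun hM 0) 0
  have e01 := congrFun (congrFun hM 0) 1
  have e10 := congrFun (congrFun hM 1) 0
  have e11 := congrFun (congrFun hM 1) 1
  simp only [Matrix.mul_apply, Fin.sum_univ_two, Matrix.sub_apply, Matrix.smul_apply,
    Matrix.one_apply_eq, smul_eq_mul, mul_one] at e00 e11
  simp only [Matrix.mul_apply, Fin.sum_univ_two, Matrix.sub_apply, Matrix.smul_apply,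
    ne_eq, zero_ne_one, one_ne_zero, not_false_eq_true, Matrix.one_apply_ne, smul_eq_mul,
    mul_zero, sub_zero] at e01 e10
  have htr : m 0 0 + m 1 1 = t := by
    by_cases hb : m 0 1 = 0
    · by_cases hc : m 1 0 = 0
      · have hne : m 0 0 ≠ m 1 1 := by
          intro heq
          apply hns (m 0 0)
          ext i j
          fin_cases i <;> fin_cases j <;> simp [hb, hc, heq]
        have : (m 0 0 - m 1 1) * (m 0 0 + m 1 1 - t) = 0 := by
          rw [hb, hc] at e00 e11
          linear_combination e00 - e11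
        rcases mul_eq_zero.1 this with h | h
        · exact absurd (sub_eq_zero.1 h) hne
        · exact sub_eq_zero.1 h
      · have : m 1 0 * (m 0 0 + m 1 1 - t) = 0 := by linear_combination e10
        rcases mul_eq_zero.1 this with h | h
        · exact absurd h hc
        · exact sub_eq_zero.1 h
    · have : m 0 1 * (m 0 0 + m 1 1 - t) = 0 := by linear_combination e01
      rcases mul_eq_zero.1 this with h | h
      · exact absurd h hb
      · exact sub_eq_zero.1 h
  refine ⟨by rw [Matrix.trace_fin_two]; exact htr, ?_⟩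
  rw [Matrix.det_fin_two]
  linear_combination (-1 : k) * e00 + m 0 0 * htr

end mat

section main

universe u

variable {k : Type*} [Field k] [IsAlgClosed k] {G : Type*} [Group G]

omit [IsAlgClosed k] in
private lemma h47_blr_two {W : Type*} [AddCommGroup W] [Module k W] [Module.Finite k W]
    (r : G →* (W →ₗ[k] W)) (d : G →* kˣ) (t : G → k)
    (h : ∀ (g : G) (w : W), r g w + (d g : k) • r g⁻¹ w = t g • w)
    (hB : Submodule.span k (Set.range r) = ⊤) (h2 : Module.finrank k W = 2) :
    ∃ ρ : G →* Matrix (Fin 2) (Fin 2) k,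
      (∀ g, (ρ g).trace = t g ∧ (ρ g).det = (d g : k)) ∧ (∀ g, r g = 1 → d g = 1 → ρ g = 1) := by
  classical
  let b : Module.Basis (Fin 2) k W := Module.finBasisOfFinrankEq k W h2
  let E := LinearMap.toMatrixAlgEquiv b
  let ρ : G →* Matrix (Fin 2) (Fin 2) k := (MonoidHomClass.toMonoidHom E).comp r
  have hρ : ∀ g, ρ g = E (r g) := fun g => rfl
  have hrel : ∀ g, ρ g + (d g : k) • ρ g⁻¹ = t g • (1 : Matrix (Fin 2) (Fin 2) k) := by
    intro g
    have := congrArg E (h47_rel r d t h g)
    rw [map_add, map_smul, map_smul, map_one] at this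
    exact this
  have hinv : ∀ g, ρ g * ρ g⁻¹ = 1 := by
    intro g
    rw [← map_mul, mul_inv_cancel, map_one]
  -- a non-scalar element exists
  have hex : ∃ g0, ∀ c : k, ρ g0 ≠ c • (1 : Matrix (Fin 2) (Fin 2) k) := by
    by_contra hcon
    have hall : ∀ g, ∃ c : k, ρ g = c • (1 : Matrix (Fin 2) (Fin 2) k) := by
      intro g
      by_contra hg
      exact hcon ⟨g, fun c hc => hg ⟨c, hc⟩⟩
    have hsp : ∀ x ∈ Submodule.span k (Set.range r),
        ∃ c : k, E x = c • (1 : Matrix (Fin 2) (Fin 2) k) := by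
      intro x hx
      induction hx using Submodule.span_induction with
      | mem y hy =>
        obtain ⟨g, rfl⟩ := hy
        exact hall g
      | zero => exact ⟨0, by simp⟩
      | add y z _ _ hy hz =>
        obtain ⟨a, ha⟩ := hy
        obtain ⟨c, hc⟩ := hz
        exact ⟨a + c, by rw [map_add, ha, hc, add_smul]⟩
      | smul c y _ hy =>
        obtain ⟨a, ha⟩ := hy
        exact ⟨c * a, by rw [map_smul, ha, mul_smul]⟩
    obtain ⟨c, hc⟩ := hsp (E.symm (Matrix.single 0 1 1)) (hB ▸ Submodule.mem_top)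
    rw [AlgEquiv.apply_symm_apply] at hc
    have := congrFun (congrFun hc 0) 1
    simp at this
  obtain ⟨g0, hg0⟩ := hex
  have hd0 : ((d g0 : kˣ) : k) ≠ 0 := (d g0).ne_zero
  refine ⟨ρ, fun g => ?_, fun g hg _ => by rw [hρ, hg, map_one]⟩
  by_cases hs : ∃ c : k, ρ g = c • (1 : Matrix (Fin 2) (Fin 2) k)
  · obtain ⟨c, hc⟩ := hs
    have hi := hinv g
    rw [hc, smul_mul_assoc, one_mul] at hi
    have hi00 : c * ρ g⁻¹ 0 0 = 1 := by
      have := congrFun (congrFun hi 0) 0
      simpa using this
    have hc0 : c ≠ 0 := by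
      rintro rfl
      rw [zero_mul] at hi00
      exact zero_ne_one hi00
    have hmul : ρ (g * g0) = c • ρ g0 := by
      rw [map_mul, hc, smul_mul_assoc, one_mul]
    have hns : ∀ c' : k, ρ (g * g0) ≠ c' • (1 : Matrix (Fin 2) (Fin 2) k) := by
      intro c' hc'
      apply hg0 (c⁻¹ * c')
      rw [hmul] at hc'
      rw [mul_smul, ← hc', smul_smul, inv_mul_cancel₀ hc0, one_smul]
    have k1 := (h47_mat2 _ _ _ _ (hrel (g * g0)) (hinv (g * g0)) hns).2
    have k2 := (h47_mat2 _ _ _ _ (hrel g0) (hinv g0) hg0).2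
    rw [hmul, Matrix.det_smul, k2, map_mul, Units.val_mul, Fintype.card_fin] at k1
    have hdg : ((d g : kˣ) : k) = c ^ 2 := (mul_right_cancel₀ hd0 k1).symm
    have hr00 : c + (d g : k) * ρ g⁻¹ 0 0 = t g := by
      have := congrFun (congrFun (hrel g) 0) 0
      rw [hc] at this
      simpa using this
    constructor
    · rw [hc, Matrix.trace_fin_two]
      simp only [Matrix.smul_apply, Matrix.one_apply_eq, smul_eq_mul, mul_one]
      rw [← hr00, hdg]
      linear_combination (-c) * hi00
    · rw [hc, Matrix.det_smul, Matrix.det_one, Fintype.card_fin, mul_one, hdg]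
  · exact h47_mat2 _ _ _ _ (hrel g) (hinv g) (fun c hc => hs ⟨c, hc⟩)

omit [IsAlgClosed k] in
private lemma h47_blr_one {W : Type*} [AddCommGroup W] [Module k W] [Module.Finite k W]
    (r : G →* (W →ₗ[k] W)) (d : G →* kˣ) (t : G → k)
    (h : ∀ (g : G) (w : W), r g w + (d g : k) • r g⁻¹ w = t g • w)
    (h1 : Module.finrank k W = 1) :
    ∃ ρ : G →* Matrix (Fin 2) (Fin 2) k,
      (∀ g, (ρ g).trace = t g ∧ (ρ g).det = (d g : k)) ∧ (∀ g, r g = 1 → d g = 1 → ρ g = 1) := by
  classical
  let b : Module.Basis (Fin 1) k W := Module.finBasisOfFinrankEq k W h1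
  let E := LinearMap.toMatrixAlgEquiv b
  let ψ : G → k := fun g => E (r g) 0 0
  have hψ1 : ψ 1 = 1 := by
    show E (r 1) 0 0 = 1
    rw [map_one, map_one, Matrix.one_apply_eq]
  have hψmul : ∀ g g', ψ (g * g') = ψ g * ψ g' := by
    intro g g'
    show E (r (g * g')) 0 0 = E (r g) 0 0 * E (r g') 0 0
    rw [map_mul, map_mul, Matrix.mul_apply]
    simp
  have hψrel : ∀ g, ψ g + (d g : k) * ψ g⁻¹ = t g := by
    intro g
    have := congrArg E (h47_rel r d t h g)
    rw [map_add, map_smul, map_smul, map_one] at this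
    have := congrFun (congrFun this 0) 0
    simpa using this
  have hψinv : ∀ g, ψ g * ψ g⁻¹ = 1 := by
    intro g
    rw [← hψmul, mul_inv_cancel, hψ1]
  let ρ : G →* Matrix (Fin 2) (Fin 2) k :=
    { toFun := fun g => !![ψ g, 0; 0, (d g : k) * ψ g⁻¹]
      map_one' := by
        rw [inv_one, hψ1, map_one, Units.val_one, mul_one, Matrix.one_fin_two]
      map_mul' := by
        intro g g'
        rw [Matrix.mul_fin_two, mul_inv_rev, hψmul, hψmul, map_mul, Units.val_mul]
        congr 1
        simp only [mul_zero, zero_mul, add_zero, zero_add]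
        have e : (d g : k) * (d g' : k) * (ψ g'⁻¹ * ψ g⁻¹) =
            (d g : k) * ψ g⁻¹ * ((d g' : k) * ψ g'⁻¹) := by ring
        rw [e] }
  refine ⟨ρ, fun g => ⟨?_, ?_⟩, fun g hg hdg => ?_⟩
  · show (!![ψ g, 0; 0, (d g : k) * ψ g⁻¹] : Matrix (Fin 2) (Fin 2) k).trace = t g
    rw [Matrix.trace_fin_two_of]
    exact hψrel g
  · show (!![ψ g, 0; 0, (d g : k) * ψ g⁻¹] : Matrix (Fin 2) (Fin 2) k).det = (d g : k)
    rw [Matrix.det_fin_two_of, mul_zero, sub_zero, mul_left_comm, hψinv, mul_one]
  · have e1 : ψ g = 1 := by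
      show E (r g) 0 0 = 1
      rw [hg, map_one, Matrix.one_apply_eq]
    have e2 : ψ g⁻¹ = 1 := by
      have := hψinv g
      rwa [e1, one_mul] at this
    show (!![ψ g, 0; 0, (d g : k) * ψ g⁻¹] : Matrix (Fin 2) (Fin 2) k) = 1
    rw [e1, e2, hdg, Units.val_one, mul_one, Matrix.one_fin_two]

private lemma h47_blr_aux (d : G →* kˣ) (t : G → k) :
    ∀ (n : ℕ) (W : Type u) [AddCommGroup W] [Module k W] [Module.Finite k W] [Nontrivial W]
      (r : G →* (W →ₗ[k] W)), (∀ (g : G) (w : W), r g w + (d g : k) • r g⁻¹ w = t g • w) →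
      Module.finrank k W = n →
      ∃ ρ : G →* Matrix (Fin 2) (Fin 2) k,
        (∀ g, (ρ g).trace = t g ∧ (ρ g).det = (d g : k)) ∧
          (∀ g, r g = 1 → d g = 1 → ρ g = 1) := by
  intro n
  induction n using Nat.strong_induction_on with
  | _ n ih =>
    intro W _ _ _ _ r h hn
    by_cases hirr : ∀ W' : Submodule k W, (∀ g, ∀ w ∈ W', r g w ∈ W') → W' = ⊥ ∨ W' = ⊤
    · have hB := h47_burnside r hirr
      have hq : ∀ T : W →ₗ[k] W, ∃ τ ν : k, T * T = τ • T - ν • (1 : W →ₗ[k] W) :=
        fun T => h47_quad r d t h T (hB ▸ Submodule.mem_top)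
      have hle := h47_finrank_le_two hq
      have hpos : 0 < Module.finrank k W := Module.finrank_pos
      have h12 : Module.finrank k W = 1 ∨ Module.finrank k W = 2 := by omega
      rcases h12 with h1 | h2
      · exact h47_blr_one r d t h h1
      · exact h47_blr_two r d t h hB h2
    · rw [not_forall] at hirr
      obtain ⟨W', hW'⟩ := hirr
      rw [Classical.not_imp, not_or] at hW'
      obtain ⟨hstab, hbot, htop⟩ := hW'
      have hnt : Nontrivial W' := Submodule.nontrivial_iff_ne_bot.2 hbot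
      have hlt : Module.finrank k W' < n := hn ▸ Submodule.finrank_lt htop
      let r' : G →* (W' →ₗ[k] W') :=
        { toFun := fun g => (r g).restrict (hstab g)
          map_one' := by
            ext u
            simp
          map_mul' := by
            intro g g'
            ext u
            simp }
      have hr' : ∀ g, r g = 1 → r' g = 1 := by
        intro g hg
        ext u
        show ((r g) (u : W) : W) = u
        rw [hg]
        rfl
      obtain ⟨ρ, hρ, hker⟩ := ih _ hlt W' r' (fun g w => Subtype.ext (h g w)) rfl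
      exact ⟨ρ, hρ, fun g hg hdg => hker g (hr' g hg) hdg⟩

/-- **BLR-type lemma** with the kernel clause: a two-dimensional representation with prescribed
trace and determinant from the quadratic relations `g + d(g) g⁻¹ = t(g)` on a nonzero
finite-dimensional module; moreover `ρ g = 1` whenever `g` acts trivially and `d g = 1`. -/
theorem gal_blr_ker_trace {k : Type*} [Field k] [IsAlgClosed k] {G : Type*} [Group G] {W : Type*}
    [AddCommGroup W] [Module k W] [Module.Finite k W] [Nontrivial W] (r : G →* (W →ₗ[k] W))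
    (d : G →* kˣ) (t : G → k)
    (h : ∀ (g : G) (w : W), r g w + (d g : k) • r g⁻¹ w = t g • w) :
    ∃ ρ : G →* Matrix (Fin 2) (Fin 2) k,
      (∀ g, (ρ g).trace = t g ∧ (ρ g).det = (d g : k)) ∧ (∀ g, r g = 1 → d g = 1 → ρ g = 1) :=
  h47_blr_aux d t (Module.finrank k W) W r h rfl

/-- **BLR-type lemma**: a two-dimensional representation with prescribed trace and determinant
from the quadratic relations `g + d(g) g⁻¹ = t(g)` on a nonzero finite-dimensional module. -/
theorem gal_blr {k : Type*} [Field k] [IsAlgClosed k] {G : Type*} [Group G] {W : Type*}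
    [AddCommGroup W] [Module k W] [Module.Finite k W] [Nontrivial W] (r : G →* (W →ₗ[k] W))
    (d : G →* kˣ) (t : G → k)
    (h : ∀ (g : G) (w : W), r g w + (d g : k) • r g⁻¹ w = t g • w) :
    ∃ ρ : G →* Matrix (Fin 2) (Fin 2) k, ∀ g, (ρ g).trace = t g ∧ (ρ g).det = (d g : k) := by
  obtain ⟨ρ, hρ, -⟩ := gal_blr_ker_trace r d t h
  exact ⟨ρ, hρ⟩

open Polynomial in
/-- **BLR with the kernel clause, characteristic polynomial form** (row GAL-BLR-KER, verbatim). -/
theorem gal_blr_ker {k : Type*} [Field k] [IsAlgClosed k] {G : Type*} [Group G] {W : Type*}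
    [AddCommGroup W] [Module k W] [Module.Finite k W] [Nontrivial W] (r : G →* (W →ₗ[k] W))
    (d : G →* kˣ) (t : G → k)
    (h : ∀ (g : G) (w : W), r g w + (d g : k) • r g⁻¹ w = t g • w) :
    ∃ ρ : G →* Matrix (Fin 2) (Fin 2) k,
      (∀ g, (ρ g).charpoly = X ^ 2 - C (t g) * X + C (d g : k)) ∧
        (∀ g, r g = 1 → d g = 1 → ρ g = 1) := by
  obtain ⟨ρ, hρ, hker⟩ := gal_blr_ker_trace r d t h
  refine ⟨ρ, fun g => ?_, hker⟩
  rw [Matrix.charpoly_fin_two, (hρ g).1, (hρ g).2]

open Polynomial in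
/-- Characteristic polynomial form (endomorphisms of `Fin 2 → k`), in the shape of the
arbitrary-field variant `h29_alg`. -/
theorem gal_blr_end {k : Type*} [Field k] [IsAlgClosed k] {G : Type*} [Group G]
    {W : Type*} [AddCommGroup W] [Module k W] [Module.Finite k W] [Nontrivial W]
    (r : G →* Module.End k W) (d : G →* kˣ) (t : G → k)
    (h : ∀ g, r g + ((d g : kˣ) : k) • r g⁻¹ = t g • (1 : Module.End k W)) :
    ∃ ρ' : G →* Module.End k (Fin 2 → k),
      (∀ g, (ρ' g).charpoly = X ^ 2 - C (t g) * X + C ((d g : kˣ) : k)) ∧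
        (∀ g, r g = 1 → d g = 1 → ρ' g = 1) := by
  have h' : ∀ (g : G) (w : W), r g w + (d g : k) • r g⁻¹ w = t g • w := by
    intro g w
    have := congrArg (fun f : Module.End k W => f w) (h g)
    simpa using this
  obtain ⟨ρ, hρ, hker⟩ := gal_blr_ker r d t h'
  refine ⟨(MonoidHomClass.toMonoidHom (Matrix.toLinAlgEquiv' (R := k) (n := Fin 2))).comp ρ,
    fun g => ?_, fun g hg hdg => ?_⟩
  · show (Matrix.toLin' (ρ g)).charpoly = _
    rw [← hρ g, ← LinearMap.charpoly_toMatrix (Matrix.toLin' (ρ g)) (Pi.basisFun k (Fin 2)),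
      LinearMap.toMatrix_eq_toMatrix', LinearMap.toMatrix'_toLin']
  · show Matrix.toLin' (ρ g) = 1
    rw [hker g hg hdg, Matrix.toLin'_one]
    rfl

end main

end Fermat.Agent.GAL
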