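import Mathlib

/-!
# GAL-2 (POW): the power trick

If `h + c h⁻¹` is the scalar `a`, then `h^m + c^m h^{-m}` is a scalar for every `m`
(`s₀ = 2`, `s₁ = a`, `s_{m+2} = a s_{m+1} - c s_m`).
-/

set_option autoImplicit false

namespace Fermat.Agent.GAL

/-- Endomorphism form: `h * hi = 1 = hi * h` and `h + c • hi = a • 1` imply that
`h ^ m + c ^ m • hi ^ m` is a scalar multiple of `1`. -/
theorem h5_pow_scalar_end {k : Type*} [Field k] {A : Type*} [Ring A] [Algebra k A] (h hi : A)
    (h1 : h * hi = 1) (h2 : hi * h = 1) (c a : k) (H : h + c • hi = a • (1 : A)) (m : ℕ) :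
    ∃ b : k, h ^ m + c ^ m • hi ^ m = b • (1 : A) := by
  have key : ∀ m : ℕ, (∃ b : k, h ^ m + c ^ m • hi ^ m = b • (1 : A)) ∧
      ∃ b : k, h ^ (m + 1) + c ^ (m + 1) • hi ^ (m + 1) = b • (1 : A) := by
    intro m
    induction m with
    | zero =>
      refine ⟨⟨2, ?_⟩, ⟨a, ?_⟩⟩
      · simp only [pow_zero, one_smul]
        rw [two_smul]
      · simpa using H
    | succ n ih =>
      obtain ⟨⟨b0, hb0⟩, ⟨b1, hb1⟩⟩ := ih
      refine ⟨⟨b1, hb1⟩, ⟨a * b1 - c * b0, ?_⟩⟩
      have hcomm : h * hi ^ (n + 1) = hi ^ n := by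
        rw [pow_succ', ← mul_assoc, h1, one_mul]
      have hcomm' : hi * h ^ (n + 1) = h ^ n := by
        rw [pow_succ', ← mul_assoc, h2, one_mul]
      -- (h + c hi) * (h^(n+1) + c^(n+1) hi^(n+1))
      have e : (h + c • hi) * (h ^ (n + 1) + c ^ (n + 1) • hi ^ (n + 1)) =
          (h ^ (n + 2) + c ^ (n + 2) • hi ^ (n + 2)) + c • (h ^ n + c ^ n • hi ^ n) := by
        rw [add_mul, mul_add, mul_add, smul_mul_assoc, smul_mul_assoc, mul_smul_comm,
          mul_smul_comm, hcomm, hcomm', smul_smul, smul_add, smul_smul]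
        rw [show h * h ^ (n + 1) = h ^ (n + 2) by rw [← pow_succ'],
          show hi * hi ^ (n + 1) = hi ^ (n + 2) by rw [← pow_succ'],
          show c * c ^ (n + 1) = c ^ (n + 2) by rw [← pow_succ'],
          show c * c ^ n = c ^ (n + 1) by rw [← pow_succ']]
        abel
      rw [H, hb1, hb0] at e
      have e' : h ^ (n + 2) + c ^ (n + 2) • hi ^ (n + 2) =
          a • (1 : A) * b1 • (1 : A) - c • b0 • (1 : A) := by
        rw [e]
        abel
      rw [show n + 1 + 1 = n + 2 by rfl, e', smul_mul_smul_comm, mul_one, smul_smul, sub_smul]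
  exact (key m).1

/-- **GAL-2**: the power trick for a linear automorphism. -/
theorem gal_pow_scalar {k : Type*} [Field k] {W : Type*} [AddCommGroup W] [Module k W]
    (h : W ≃ₗ[k] W) (c a : k) (H : ∀ w, h w + c • h.symm w = a • w) (m : ℕ) :
    ∃ b : k, ∀ w, (h ^ m) w + c ^ m • (h ^ m).symm w = b • w := by
  have h1 : (h : W →ₗ[k] W) * (h.symm : W →ₗ[k] W) = 1 := by
    ext w
    simp
  have h2 : (h.symm : W →ₗ[k] W) * (h : W →ₗ[k] W) = 1 := by
    ext w
    simp
  have H' : (h : W →ₗ[k] W) + c • (h.symm : W →ₗ[k] W) = a • (1 : W →ₗ[k] W) := by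
    ext w
    simpa using H w
  obtain ⟨b, hb⟩ := h5_pow_scalar_end (h : W →ₗ[k] W) (h.symm : W →ₗ[k] W) h1 h2 c a H' m
  refine ⟨b, fun w => ?_⟩
  have e := congrArg (fun f : W →ₗ[k] W => f w) hb
  have hpow : ∀ (n : ℕ) (w : W), ((h : W →ₗ[k] W) ^ n) w = (h ^ n) w := by
    intro n
    induction n with
    | zero => intro w; simp
    | succ n ih =>
      intro w
      rw [pow_succ, pow_succ, Module.End.mul_apply, ih]
      rfl
  have hpow' : ∀ (n : ℕ) (w : W), ((h.symm : W →ₗ[k] W) ^ n) w = (h ^ n).symm w := by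
    intro n w
    apply (h ^ n).injective
    rw [LinearEquiv.apply_symm_apply, ← hpow n, ← Module.End.mul_apply]
    have : (h : W →ₗ[k] W) ^ n * (h.symm : W →ₗ[k] W) ^ n = 1 := by
      induction n with
      | zero => simp
      | succ n ih =>
        rw [pow_succ, pow_succ', mul_assoc, ← mul_assoc (h : W →ₗ[k] W), h1, one_mul, ih]
    rw [this]
    rfl
  simp only [LinearMap.add_apply, LinearMap.smul_apply, Module.End.one_apply] at e
  rw [hpow, hpow'] at e
  exact e

end Fermat.Agent.GAL
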