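import Mathlib
import Fermat.Agent.GAL.Root

/-
GAL (stage 3 stock, helper74): the character of a `p`-th root.

* `gal_root_char`     : if `H ^ p = F` in `h25_Mer` and `F` is invariant under a subgroup `Γ` of
                        `SL(2, ℤ)`, then `γ • H = χ γ * H` for a character `χ : Γ →* ℂˣ` with
                        values in the `p`-th roots of unity;
* `gal_char_elliptic` : the value of the multiplier at an elliptic fixed point in terms of the
                        order, `((c τ + d) ^ 2) ^ ord_τ H = ζ`;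
* `gal_char_elliptic_trivial` : the multiplier of an element of finite order (`γ ^ m = ± 1`) is
                        trivial as soon as `m ∣ ord_τ H`.

(The parabolic counterpart is `gal_parabolic_trivial` in `RootPara.lean`.)
-/

set_option autoImplicit false

open Complex Metric Set Filter Topology
open scoped Manifold MatrixGroups UpperHalfPlane
open UpperHalfPlane
open Fermat.Agent.S24

namespace Fermat.Agent.GAL

theorem h74_constHom_injective : Function.Injective h74_constHom :=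
  h74_constHom.injective

theorem h74_smul_constHom (γ : SL(2, ℤ)) (c : ℂ) : γ • h74_constHom c = h74_constHom c := by
  rw [h74_constHom_apply, h25_smul_algebraMap]
  rfl

/-- **The character of a `p`-th root.** -/
theorem gal_root_char (p : ℕ) (hp : 0 < p) (Γ : Subgroup SL(2, ℤ)) (F H : h25_Mer) (hH : H ≠ 0)
    (hpow : H ^ p = F) (hinv : ∀ γ ∈ Γ, γ • F = F) :
    ∃ χ : Γ →* ℂˣ, (∀ γ, χ γ ^ p = 1) ∧
      ∀ γ : Γ, (γ : SL(2, ℤ)) • H = h74_constHom ((χ γ : ℂˣ) : ℂ) * H := by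
  have hex : ∀ γ : Γ, ∃ ζ : ℂ, ζ ^ p = 1 ∧ (γ : SL(2, ℤ)) • H = h74_constHom ζ * H := by
    intro γ
    have h1 : ((γ : SL(2, ℤ)) • H) ^ p = H ^ p := by
      rw [← smul_pow', hpow, hinv γ γ.2]
    obtain ⟨ζ, hζ, hζH⟩ := gal_root_unique p hp _ H h1 hH
    exact ⟨ζ, hζ, by rw [h74_constHom_apply]; exact hζH⟩
  choose z hz1 hz2 using hex
  have huniq : ∀ (γ : Γ) (ζ : ℂ), (γ : SL(2, ℤ)) • H = h74_constHom ζ * H → z γ = ζ := by
    intro γ ζ h
    have h2 : h74_constHom (z γ) * H = h74_constHom ζ * H := by rw [← hz2 γ, h]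
    exact h74_constHom_injective (mul_right_cancel₀ hH h2)
  let f : Γ →* ℂ :=
    { toFun := z
      map_one' := by
        apply huniq
        simp
      map_mul' := by
        intro γ₁ γ₂
        apply huniq
        rw [Subgroup.coe_mul, mul_smul, hz2 γ₂, smul_mul', h74_smul_constHom, hz2 γ₁, map_mul]
        ring }
  refine ⟨f.toHomUnits, ?_, ?_⟩
  · intro γ
    apply Units.ext
    rw [Units.val_pow_eq_pow_val, MonoidHom.coe_toHomUnits]
    exact hz1 γ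
  · intro γ
    rw [MonoidHom.coe_toHomUnits]
    exact hz2 γ

theorem h74_trailingCoeff_const (ζ : ℂ) (τ : ℍ) :
    meromorphicTrailingCoeffAt (((h25_const ζ : h25_Hol) : ℍ → ℂ) ∘ ofComplex) (τ : ℂ) = ζ := by
  have : (((h25_const ζ : h25_Hol) : ℍ → ℂ) ∘ ofComplex) = fun _ => ζ := rfl
  rw [this, meromorphicTrailingCoeffAt_const]

/-- **Multiplier at a fixed point.** If `γ` fixes `τ` and `γ • H = ζ * H` with `H ≠ 0`, then
`((c τ + d) ^ 2) ^ ord_τ H = ζ`, where `(c, d)` is the bottom row of `γ`. -/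
theorem gal_char_elliptic {γ : SL(2, ℤ)} {τ : ℍ} (hγ : γ • τ = τ) {H : h25_Mer} (hH0 : H ≠ 0)
    {ζ : ℂ} (hH : γ • H = h74_constHom ζ * H) :
    ((((γ 1 0 : ℤ) : ℂ) * τ + ((γ 1 1 : ℤ) : ℂ)) ^ 2) ^ (h25_ord τ H) = ζ := by
  obtain ⟨a, b, ha, hb, rfl⟩ := h25_exists_eq_div (A := h25_Hol) H hH0
  have hinj : Function.Injective (algebraMap h25_Hol h25_Mer) :=
    IsFractionRing.injective h25_Hol h25_Mer
  have hb' : algebraMap h25_Hol h25_Mer b ≠ 0 := by rwa [Ne, map_eq_zero_iff _ hinj]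
  have hγb : γ⁻¹ • b ≠ 0 := h25_smul_ne_zero γ⁻¹ hb
  have hγb' : algebraMap h25_Hol h25_Mer (γ⁻¹ • b) ≠ 0 := by rwa [Ne, map_eq_zero_iff _ hinj]
  -- apply `γ⁻¹` to the hypothesis
  have hH' : algebraMap h25_Hol h25_Mer a / algebraMap h25_Hol h25_Mer b
      = h74_constHom ζ * (algebraMap h25_Hol h25_Mer (γ⁻¹ • a) /
          algebraMap h25_Hol h25_Mer (γ⁻¹ • b)) := by
    have h1 := congrArg (fun x => γ⁻¹ • x) hH
    simp only [inv_smul_smul, smul_mul', h74_smul_constHom] at h1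
    rw [h1, smul_div₀', h25_smul_algebraMap, h25_smul_algebraMap]
  rw [h74_constHom_apply] at hH'
  have hkey : a * (γ⁻¹ • b) = h25_const ζ * (γ⁻¹ • a) * b := by
    apply hinj
    rw [map_mul, map_mul, map_mul]
    field_simp at hH'
    linear_combination hH'
  have hfun : ((a : ℍ → ℂ) ∘ ofComplex) * (((γ⁻¹ • b : h25_Hol) : ℍ → ℂ) ∘ ofComplex)
      = (((h25_const ζ : h25_Hol) : ℍ → ℂ) ∘ ofComplex) *
          (((γ⁻¹ • a : h25_Hol) : ℍ → ℂ) ∘ ofComplex) * ((b : ℍ → ℂ) ∘ ofComplex) := by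
    have := congrArg (fun x : h25_Hol => (x : ℍ → ℂ) ∘ ofComplex) hkey
    exact this
  have htc := congrArg (fun f => meromorphicTrailingCoeffAt f (τ : ℂ)) hfun
  beta_reduce at htc
  rw [MeromorphicAt.meromorphicTrailingCoeffAt_mul (h25_meromorphicAt _ τ) (h25_meromorphicAt _ τ),
    MeromorphicAt.meromorphicTrailingCoeffAt_mul
      ((h25_meromorphicAt _ τ).mul (h25_meromorphicAt _ τ)) (h25_meromorphicAt _ τ),
    MeromorphicAt.meromorphicTrailingCoeffAt_mul (h25_meromorphicAt _ τ) (h25_meromorphicAt _ τ),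
    h25_trailingCoeff_smul hγ a, h25_trailingCoeff_smul hγ b, h74_trailingCoeff_const] at htc
  have hta := h25_trailingCoeff_ne_zero ha τ
  have htb := h25_trailingCoeff_ne_zero hb τ
  set L : ℂ := ((((γ 1 0 : ℤ) : ℂ) * τ + ((γ 1 1 : ℤ) : ℂ)) ^ 2) with hL
  have hL0 : L ≠ 0 := pow_ne_zero 2 (h25_denom_ne_zero γ τ)
  have h1 : L⁻¹ ^ (h25_ordHol τ b) = ζ * L⁻¹ ^ (h25_ordHol τ a) := by
    have h2 : L⁻¹ ^ (h25_ordHol τ b) *
        (meromorphicTrailingCoeffAt ((a : ℍ → ℂ) ∘ ofComplex) (τ : ℂ) *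
          meromorphicTrailingCoeffAt ((b : ℍ → ℂ) ∘ ofComplex) (τ : ℂ))
        = ζ * L⁻¹ ^ (h25_ordHol τ a) *
        (meromorphicTrailingCoeffAt ((a : ℍ → ℂ) ∘ ofComplex) (τ : ℂ) *
          meromorphicTrailingCoeffAt ((b : ℍ → ℂ) ∘ ofComplex) (τ : ℂ)) := by
      linear_combination htc
    exact mul_right_cancel₀ (mul_ne_zero hta htb) h2
  rw [h25_ord_div τ ha hb, zpow_sub₀ hL0]
  rw [inv_zpow, inv_zpow] at h1
  have hLa : L ^ (h25_ordHol τ a) ≠ 0 := zpow_ne_zero _ hL0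
  have hLb : L ^ (h25_ordHol τ b) ≠ 0 := zpow_ne_zero _ hL0
  field_simp at h1 ⊢
  linear_combination h1

/-- the factor of automorphy `c τ + d` of a matrix at a point -/
noncomputable def h74_j (A : SL(2, ℤ)) (τ : ℍ) : ℂ :=
  ((A 1 0 : ℤ) : ℂ) * τ + ((A 1 1 : ℤ) : ℂ)

theorem h74_num_eq_of_fixed {γ : SL(2, ℤ)} {τ : ℍ} (hγ : γ • τ = τ) :
    ((γ 0 0 : ℤ) : ℂ) * τ + ((γ 0 1 : ℤ) : ℂ) = h74_j γ τ * τ := by
  have h := congrArg (fun w : ℍ => (w : ℂ)) hγ
  beta_reduce at h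
  rw [UpperHalfPlane.coe_specialLinearGroup_apply] at h
  have hd := h25_denom_ne_zero γ τ
  have h' : (((γ 0 0 : ℤ) : ℂ) * τ + ((γ 0 1 : ℤ) : ℂ)) /
      (((γ 1 0 : ℤ) : ℂ) * τ + ((γ 1 1 : ℤ) : ℂ)) = τ := by
    simpa using h
  rw [div_eq_iff hd] at h'
  rw [h', h74_j]
  ring

theorem h74_j_mul_of_fixed {γ : SL(2, ℤ)} {τ : ℍ} (hγ : γ • τ = τ) (A : SL(2, ℤ)) :
    h74_j (A * γ) τ = h74_j γ τ * h74_j A τ := by
  have hn := h74_num_eq_of_fixed hγ
  have h10 : ((A * γ) 1 0 : ℤ) = A 1 0 * γ 0 0 + A 1 1 * γ 1 0 := by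
    rw [Matrix.SpecialLinearGroup.coe_mul, Matrix.mul_apply, Fin.sum_univ_two]
  have h11 : ((A * γ) 1 1 : ℤ) = A 1 0 * γ 0 1 + A 1 1 * γ 1 1 := by
    rw [Matrix.SpecialLinearGroup.coe_mul, Matrix.mul_apply, Fin.sum_univ_two]
  unfold h74_j at hn ⊢
  rw [h10, h11]
  push_cast
  linear_combination ((A 1 0 : ℤ) : ℂ) * hn

theorem h74_j_pow_of_fixed {γ : SL(2, ℤ)} {τ : ℍ} (hγ : γ • τ = τ) (m : ℕ) :
    h74_j (γ ^ m) τ = h74_j γ τ ^ m := by
  induction m with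
  | zero => simp [h74_j]
  | succ m ih => rw [pow_succ, h74_j_mul_of_fixed hγ, ih, pow_succ, mul_comm]

/-- **Elements of finite order have trivial multiplier** as soon as their order divides the
order of the function at the fixed point. -/
theorem gal_char_elliptic_trivial {γ : SL(2, ℤ)} {τ : ℍ} (hγ : γ • τ = τ) {H : h25_Mer}
    (hH0 : H ≠ 0) {ζ : ℂ} (hH : γ • H = h74_constHom ζ * H) {m : ℕ}
    (hm : γ ^ m = 1 ∨ γ ^ m = -1) (hdvd : (m : ℤ) ∣ h25_ord τ H) : ζ = 1 := by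
  have h1 := gal_char_elliptic hγ hH0 hH
  have hjm : (h74_j γ τ ^ m) ^ 2 = 1 := by
    rw [← h74_j_pow_of_fixed hγ m]
    rcases hm with hm | hm
    · rw [hm]; simp [h74_j]
    · rw [hm]; simp [h74_j]
  obtain ⟨k, hk⟩ := hdvd
  have hL : (((γ 1 0 : ℤ) : ℂ) * τ + ((γ 1 1 : ℤ) : ℂ)) = h74_j γ τ := rfl
  rw [hL, hk, zpow_mul, zpow_natCast, ← pow_mul, mul_comm 2 m, pow_mul, hjm, one_zpow] at h1
  exact h1.symm

end Fermat.Agent.GAL
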