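import Mathlib
import Fermat.Agent.GAL.Root

/-
GAL (stage 3 stock, helper74): the parabolic lemma, plain complex analysis.

* `gal_parabolic_trivial` : a holomorphic function `H` on a half plane `{Im z > B}` with
  `H (z + w) = c * H z` whose `n`-th power has a `q_w`-expansion `q ^ (n m) * v q` (`v` holomorphic
  and zero-free near `0`) satisfies `c = 1` and `H = q ^ m * v₁ q` with `v₁ ^ n = v`.
  Here `q = exp (2 π i z / w)`.
-/

set_option autoImplicit false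

open Complex Metric Set Filter Topology

namespace Fermat.Agent.GAL

theorem h74_qw_re (w : ℝ) (z : ℂ) :
    (2 * (Real.pi : ℂ) * I * z / (w : ℂ)).re = -(2 * Real.pi * z.im / w) := by
  have : 2 * (Real.pi : ℂ) * I * z / (w : ℂ) = ((2 * Real.pi / w : ℝ) : ℂ) * (I * z) := by
    push_cast; ring
  rw [this, Complex.re_ofReal_mul, Complex.I_mul_re]
  ring

theorem h74_qw_norm (w : ℝ) (z : ℂ) :
    ‖Complex.exp (2 * (Real.pi : ℂ) * I * z / (w : ℂ))‖ = Real.exp (-(2 * Real.pi * z.im / w)) := by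
  rw [Complex.norm_exp, h74_qw_re]

theorem h74_qw_periodic (w : ℝ) (hw : w ≠ 0) (z : ℂ) :
    Complex.exp (2 * (Real.pi : ℂ) * I * (z + w) / (w : ℂ))
      = Complex.exp (2 * (Real.pi : ℂ) * I * z / (w : ℂ)) := by
  have hw' : (w : ℂ) ≠ 0 := by exact_mod_cast hw
  have : 2 * (Real.pi : ℂ) * I * (z + w) / (w : ℂ)
      = 2 * (Real.pi : ℂ) * I * z / (w : ℂ) + 2 * Real.pi * I := by
    field_simp
  rw [this, Complex.exp_add, Complex.exp_two_pi_mul_I, mul_one]

/-- **Parabolic lemma.** A holomorphic function `H` on a half plane `{Im z > B}` which is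
quasi-periodic, `H (z + w) = c * H z`, and whose `n`-th power has a `q_w`-expansion
`q ^ (n m) * v q` with `v` holomorphic and zero-free near `0` (so the order `n m` is divisible by
`n`), is periodic (`c = 1`) and has itself a `q_w`-expansion `q ^ m * v₁ q`. -/
theorem gal_parabolic_trivial (n : ℕ) (hn : 0 < n) (w : ℝ) (hw : 0 < w) (m : ℤ) (B ε : ℝ)
    (hB : Real.exp (-(2 * Real.pi * B / w)) ≤ ε) (c : ℂ) (H : ℂ → ℂ)
    (hH : DifferentiableOn ℂ H {z : ℂ | B < z.im})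
    (hper : ∀ z : ℂ, B < z.im → H (z + w) = c * H z)
    (v : ℂ → ℂ) (hv : DifferentiableOn ℂ v (ball 0 ε)) (hv0 : ∀ q ∈ ball (0 : ℂ) ε, v q ≠ 0)
    (hpow : ∀ z : ℂ, B < z.im → H z ^ n =
      Complex.exp (2 * (Real.pi : ℂ) * I * z / (w : ℂ)) ^ ((n : ℤ) * m) *
        v (Complex.exp (2 * (Real.pi : ℂ) * I * z / (w : ℂ)))) :
    c = 1 ∧ ∃ v₁ : ℂ → ℂ, DifferentiableOn ℂ v₁ (ball 0 ε) ∧
      (∀ q ∈ ball (0 : ℂ) ε, v₁ q ^ n = v q) ∧
      ∀ z : ℂ, B < z.im → H z = Complex.exp (2 * (Real.pi : ℂ) * I * z / (w : ℂ)) ^ m *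
        v₁ (Complex.exp (2 * (Real.pi : ℂ) * I * z / (w : ℂ))) := by
  have hnC : (n : ℂ) ≠ 0 := by exact_mod_cast hn.ne'
  set Q : ℂ → ℂ := fun z => Complex.exp (2 * (Real.pi : ℂ) * I * z / (w : ℂ)) with hQdef
  have hQmem : ∀ z : ℂ, B < z.im → Q z ∈ ball (0 : ℂ) ε := by
    intro z hz
    rw [mem_ball, dist_zero_right, hQdef]
    beta_reduce
    rw [h74_qw_norm]
    refine lt_of_lt_of_le ?_ hB
    rw [Real.exp_lt_exp, neg_lt_neg_iff]
    have : 0 < 2 * Real.pi / w := by positivity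
    have h1 : 2 * Real.pi * B / w = 2 * Real.pi / w * B := by ring
    have h2 : 2 * Real.pi * z.im / w = 2 * Real.pi / w * z.im := by ring
    rw [h1, h2]
    exact mul_lt_mul_of_pos_left hz this
  have hQd : Differentiable ℂ Q := by
    intro z
    simp only [hQdef]
    fun_prop
  have hQper : ∀ z : ℂ, Q (z + w) = Q z := fun z => h74_qw_periodic w hw.ne' z
  have hUo : IsOpen {z : ℂ | B < z.im} := isOpen_lt continuous_const Complex.continuous_im
  have hUc : IsPreconnected {z : ℂ | B < z.im} := by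
    exact (convex_halfSpace_im_gt B).isPreconnected
  -- the root of `v`
  obtain ⟨L, hL, hLv⟩ := h74_exists_log_ball hv hv0
  set v₀ : ℂ → ℂ := fun q => Complex.exp (L q / n) with hv₀
  have hv₀d : DifferentiableOn ℂ v₀ (ball 0 ε) := (hL.div_const _).cexp
  have hv₀p : ∀ q ∈ ball (0 : ℂ) ε, v₀ q ^ n = v q := by
    intro q hq
    rw [hv₀]
    beta_reduce
    rw [← Complex.exp_nat_mul, mul_div_cancel₀ _ hnC, hLv q hq]
  -- the auxiliary function `H2 = H * q ^ (-m)`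
  set H2 : ℂ → ℂ := fun z => H z * Complex.exp (-(m : ℂ) * (2 * (Real.pi : ℂ) * I * z / (w : ℂ)))
    with hH2
  have hH2d : DifferentiableOn ℂ H2 {z : ℂ | B < z.im} := by
    refine hH.mul ?_
    intro z _
    apply DifferentiableAt.differentiableWithinAt
    fun_prop
  have hH2p : ∀ z : ℂ, B < z.im → H2 z ^ n = v₀ (Q z) ^ n := by
    intro z hz
    rw [hv₀p _ (hQmem z hz), hH2]
    beta_reduce
    rw [mul_pow, hpow z hz, ← Complex.exp_int_mul, ← Complex.exp_nat_mul]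
    have h1 : Complex.exp (((n : ℤ) * m : ℤ) * (2 * (Real.pi : ℂ) * I * z / (w : ℂ))) *
        Complex.exp ((n : ℂ) * (-(m : ℂ) * (2 * (Real.pi : ℂ) * I * z / (w : ℂ)))) = 1 := by
      rw [← Complex.exp_add]
      have : (((n : ℤ) * m : ℤ) : ℂ) * (2 * (Real.pi : ℂ) * I * z / (w : ℂ)) +
          (n : ℂ) * (-(m : ℂ) * (2 * (Real.pi : ℂ) * I * z / (w : ℂ))) = 0 := by
        push_cast; ring
      rw [this, Complex.exp_zero]
    calc Complex.exp (((n : ℤ) * m : ℤ) * (2 * (Real.pi : ℂ) * I * z / (w : ℂ))) * v (Q z) *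
          Complex.exp ((n : ℂ) * (-(m : ℂ) * (2 * (Real.pi : ℂ) * I * z / (w : ℂ))))
        = (Complex.exp (((n : ℤ) * m : ℤ) * (2 * (Real.pi : ℂ) * I * z / (w : ℂ))) *
          Complex.exp ((n : ℂ) * (-(m : ℂ) * (2 * (Real.pi : ℂ) * I * z / (w : ℂ))))) * v (Q z) := by
          ring
      _ = v (Q z) := by rw [h1, one_mul]
  -- base point
  set z₀ : ℂ := ((B + 1 : ℝ) : ℂ) * I with hz₀
  have hz₀U : B < z₀.im := by
    rw [hz₀]; simp
  have hr'd : DifferentiableOn ℂ (fun z => v₀ (Q z)) {z : ℂ | B < z.im} := by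
    intro z hz
    have h1 : DifferentiableAt ℂ v₀ (Q z) :=
      hv₀d.differentiableAt (isOpen_ball.mem_nhds (hQmem z hz))
    exact (h1.comp z (hQd z)).differentiableWithinAt
  have hv₀ne : ∀ z : ℂ, B < z.im → v₀ (Q z) ≠ 0 := fun z _ => Complex.exp_ne_zero _
  set ζ : ℂ := H2 z₀ / v₀ (Q z₀) with hζ
  have hζn : ζ ^ n = 1 := by
    rw [hζ, div_pow, hH2p z₀ hz₀U, div_self (pow_ne_zero _ (hv₀ne z₀ hz₀U))]
  have hH2ne : H2 z₀ ≠ 0 := by
    intro h0
    have := hH2p z₀ hz₀U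
    rw [h0, zero_pow hn.ne'] at this
    exact pow_ne_zero _ (hv₀ne z₀ hz₀U) this.symm
  have heq : EqOn H2 (fun z => ζ * v₀ (Q z)) {z : ℂ | B < z.im} := by
    refine h74_root_unique_on n hn hUo hUc hH2d (hr'd.const_mul ζ) ?_ hz₀U ?_ hH2ne
    · intro z hz
      show H2 z ^ n = (ζ * v₀ (Q z)) ^ n
      rw [hH2p z hz, mul_pow, hζn, one_mul]
    · show H2 z₀ = ζ * v₀ (Q z₀)
      rw [hζ, div_mul_cancel₀ _ (hv₀ne z₀ hz₀U)]
  have hHform : ∀ z : ℂ, B < z.im → H z = Q z ^ m * (ζ * v₀ (Q z)) := by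
    intro z hz
    have h1 := heq hz
    beta_reduce at h1
    rw [← h1, hH2]
    beta_reduce
    rw [hQdef]
    beta_reduce
    rw [← Complex.exp_int_mul]
    have h2 : Complex.exp ((m : ℂ) * (2 * (Real.pi : ℂ) * I * z / (w : ℂ))) *
        Complex.exp (-(m : ℂ) * (2 * (Real.pi : ℂ) * I * z / (w : ℂ))) = 1 := by
      rw [← Complex.exp_add]
      have : (m : ℂ) * (2 * (Real.pi : ℂ) * I * z / (w : ℂ)) +
          -(m : ℂ) * (2 * (Real.pi : ℂ) * I * z / (w : ℂ)) = 0 := by ring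
      rw [this, Complex.exp_zero]
    calc H z = H z * (Complex.exp ((m : ℂ) * (2 * (Real.pi : ℂ) * I * z / (w : ℂ))) *
          Complex.exp (-(m : ℂ) * (2 * (Real.pi : ℂ) * I * z / (w : ℂ)))) := by rw [h2, mul_one]
      _ = _ := by ring
  refine ⟨?_, fun q => ζ * v₀ q, hv₀d.const_mul ζ, ?_, hHform⟩
  · have hz₀w : B < (z₀ + (w : ℂ)).im := by
      rw [Complex.add_im, Complex.ofReal_im, add_zero]; exact hz₀U
    have h1 := hper z₀ hz₀U
    rw [hHform _ hz₀w, hQper z₀, ← hHform z₀ hz₀U] at h1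
    have hHne : H z₀ ≠ 0 := by
      rw [hHform z₀ hz₀U]
      refine mul_ne_zero (zpow_ne_zero _ (Complex.exp_ne_zero _)) (mul_ne_zero ?_ (hv₀ne z₀ hz₀U))
      intro h0
      rw [h0, zero_pow hn.ne'] at hζn
      exact zero_ne_one hζn
    have h2 : (1 : ℂ) * H z₀ = c * H z₀ := by rw [one_mul]; exact h1
    exact (mul_right_cancel₀ hHne h2).symm
  · intro q hq
    rw [mul_pow, hζn, one_mul, hv₀p q hq]

end Fermat.Agent.GAL
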