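/-
GAL / DESCENT block (helper22): the descent theorem.

`k ⊆ K` algebraically closed fields of characteristic zero (`ι : k →+* K`), `F_k`, `F_K` the
Laurent-series function fields over them (function fields of one variable), and `k` is
"differentially closed in `K`" (`hder`).  Then every `f ∈ F_K` whose divisor is divisible by `p`
is `c * g ^ p * bc f₀` with `f₀ ∈ F_k` whose divisor is divisible by `p`; and `bc f₀ = c * g ^ p`
implies `f₀ = c₀ * g₀ ^ p`.
-/
import Mathlib
import Fermat.Agent.GAL.h22_DescLoc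

set_option autoImplicit false

noncomputable section

namespace Fermat.Agent.GAL

open ModularCurve AlgebraicCurve HahnSeries IntermediateField
open Fermat.Agent.S24 Fermat.Agent.S18

section Desc

variable {k K : Type*} [Field k] [Algebra ℚ k] [Field K] [Algebra ℚ K] (ι : k →+* K)
variable (F₀ : IntermediateField ℚ (LaurentSeries ℚ))
variable [IsAlgClosed k] [CharZero k] [IsAlgClosed K] [CharZero K]
variable (t₁ : laurentBaseChange k F₀) (ht₁ : Transcendental k t₁)
  [FiniteDimensional k⟮t₁⟯ (laurentBaseChange k F₀)]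
  (ht : Transcendental K (h22_bc ι F₀ t₁))
  [FiniteDimensional K⟮h22_bc ι F₀ t₁⟯ (laurentBaseChange K F₀)]

include ht₁ ht in
/-- (DESC) the descent theorem. -/
theorem h22_desc
    (hder : ∀ c : K, c ∉ Set.range ι → ∃ δ : Derivation ℚ K K, (∀ a : k, δ (ι a) = 0) ∧ δ c ≠ 0)
    (p : ℕ) (hp : 0 < p) (f : laurentBaseChange K F₀) (hf : f ≠ 0)
    (hdiv : ∀ P : Place K (laurentBaseChange K F₀), (p : ℤ) ∣ P.ord f) :
    ∃ (c : K) (g : laurentBaseChange K F₀) (f₀ : laurentBaseChange k F₀),
      c ≠ 0 ∧ g ≠ 0 ∧ f₀ ≠ 0 ∧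
      f = algebraMap K (laurentBaseChange K F₀) c * g ^ p * h22_bc ι F₀ f₀ ∧
      ∀ Q : Place k (laurentBaseChange k F₀), (p : ℤ) ∣ Q.ord f₀ := by
  have ht₁0 : t₁ ≠ 0 := by
    rintro rfl
    exact ht₁ isAlgebraic_zero
  have hpz : (p : ℤ) ≠ 0 := by exact_mod_cast hp.ne'
  obtain ⟨g, R, hg, hR, hE, hL⟩ := h22_exists_minimal ht f hf p hp hdiv
  set f' : laurentBaseChange K F₀ := f * g ^ p with hf'def
  have hf'0 : f' ≠ 0 := mul_ne_zero hf (pow_ne_zero _ hg)
  have hpD : ∀ P : Place K (laurentBaseChange K F₀), (p : ℤ) * (P.ord f / p) = P.ord f :=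
    fun P => Int.mul_ediv_cancel' (hdiv P)
  have hord : ∀ P : Place K (laurentBaseChange K F₀),
      P.ord f' = p * (P.ord f / p + P.ord g) := by
    intro P
    rw [hf'def, P.ord_mul hf (pow_ne_zero _ hg), ← zpow_natCast, P.ord_zpow, mul_add, hpD P]
  -- at generic places `R` vanishes
  have hRgen : ∀ P : Place K (laurentBaseChange K F₀), h22_IsGeneric ι F₀ P → R P = 0 := by
    intro P hP
    by_contra h
    have := hR P h
    rw [hP t₁ ht₁0] at this
    exact lt_irrefl 0 this
  have hord_gen : ∀ P : Place K (laurentBaseChange K F₀), h22_IsGeneric ι F₀ P →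
      P.ord f' = p * (P.ord f / p + R P + P.ord g) := by
    intro P hP
    rw [hord P, hRgen P hP]
    push_cast
    ring
  -- the divisor of `f'` is supported on rational places
  have hgen : ∀ P : Place K (laurentBaseChange K F₀), h22_IsGeneric ι F₀ P → P.ord f' = 0 := by
    intro P hP
    by_contra hne
    obtain ⟨c, hc, hπ, hN⟩ := h22_dlog_generic ι F₀ t₁ ht₁ ht P hP
    obtain ⟨δ, hδ, hδc⟩ := hder c hc
    set θ : laurentBaseChange K F₀ := h22_dF δ F₀ f' / f' with hθ
    -- `θ ∈ L(E)`
    have hθL : ∀ P' : Place K (laurentBaseChange K F₀),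
        h53_OrdGE P' θ (-(P'.ord f / p + R P' + P'.ord g)) := by
      intro P'
      rcases h22_rational_or_generic ι F₀ P' with hP' | hP'
      · have h1 : h53_OrdGE P' θ 0 :=
          h53_OrdGE.mem_iff.2 (h22_dlog_rational ι F₀ t₁ ht₁ P' hP' δ hδ f' hf'0)
        exact h1.mono (by have := hE P'; omega)
      · obtain ⟨c', -, hπ', hN'⟩ := h22_dlog_generic ι F₀ t₁ ht₁ ht P' hP'
        have h1 := hN' δ hδ f' hf'0
        by_cases h0 : P'.ord f' = 0
        · rw [h0, zero_smul, add_zero] at h1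
          exact (h53_OrdGE.mem_iff.2 h1).mono (by have := hE P'; omega)
        · have hE1 : 1 ≤ P'.ord f / p + R P' + P'.ord g := by
            have h2 := hord_gen P' hP'
            have h3 := hE P'
            rcases h3.lt_or_eq with h4 | h4
            · omega
            · rw [← h4, mul_zero] at h2
              exact absurd h2 h0
          have h2 : h53_OrdGE P' ((P'.ord f' : ℤ) • (algebraMap K (laurentBaseChange K F₀) (δ c')
              / (h22_bc ι F₀ t₁ - algebraMap K (laurentBaseChange K F₀) c'))) (-1) := by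
            rw [zsmul_eq_mul, ← map_intCast (algebraMap K (laurentBaseChange K F₀))]
            have h3 : h53_OrdGE P' (algebraMap K (laurentBaseChange K F₀) (δ c')
                / (h22_bc ι F₀ t₁ - algebraMap K (laurentBaseChange K F₀) c')) (0 - 1) := by
              have := (h53_OrdGE.const (P := P') (δ c')).div_of_ord_eq
                (g := h22_bc ι F₀ t₁ - algebraMap K (laurentBaseChange K F₀) c')
              rwa [hπ'] at this
            have := (h53_OrdGE.const (P := P') ((P'.ord f' : ℤ) : K)).mul h3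
            refine this.mono (by omega)
          have h3 : h53_OrdGE P' (h22_dF δ F₀ f' / f'
              + (P'.ord f' : ℤ) • (algebraMap K (laurentBaseChange K F₀) (δ c')
              / (h22_bc ι F₀ t₁ - algebraMap K (laurentBaseChange K F₀) c'))) (-1) :=
            (h53_OrdGE.mem_iff.2 h1).mono (by omega)
          have h4 := h3.sub h2
          rw [add_sub_cancel_right] at h4
          exact h4.mono (by omega)
    obtain ⟨κ, hκ⟩ := hL θ hθL
    -- contradiction at `P`
    have h1 := hN δ hδ f' hf'0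
    rw [← hθ, hκ] at h1
    have h2 : (P.ord f' : ℤ) • (algebraMap K (laurentBaseChange K F₀) (δ c)
        / (h22_bc ι F₀ t₁ - algebraMap K (laurentBaseChange K F₀) c)) ∈ P.toValuationSubring := by
      have := sub_mem h1 (P.algebraMap_mem' κ)
      rwa [add_sub_cancel_left] at this
    have hπ0 : h22_bc ι F₀ t₁ - algebraMap K (laurentBaseChange K F₀) c ≠ 0 := by
      intro h
      rw [h, P.ord_zero] at hπ
      exact zero_ne_one hπ
    have hnum : algebraMap K (laurentBaseChange K F₀) (((P.ord f' : ℤ) : K) * δ c) ≠ 0 := by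
      rw [Ne, map_eq_zero]
      exact mul_ne_zero (by exact_mod_cast hne) hδc
    have h3 : (P.ord f' : ℤ) • (algebraMap K (laurentBaseChange K F₀) (δ c)
        / (h22_bc ι F₀ t₁ - algebraMap K (laurentBaseChange K F₀) c))
        = algebraMap K (laurentBaseChange K F₀) (((P.ord f' : ℤ) : K) * δ c)
          / (h22_bc ι F₀ t₁ - algebraMap K (laurentBaseChange K F₀) c) := by
      rw [zsmul_eq_mul, map_mul, map_intCast, mul_div_assoc]
    rw [h3, h35_mem_iff_ord_nonneg P (div_ne_zero hnum hπ0), h35_ord_div P hnum hπ0,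
      h35_ord_algebraMap, hπ] at h2
    omega
  -- descend `f'`
  obtain ⟨c, u, hc, hu, hfu⟩ := h22_unit_desc ι F₀ t₁ ht₁ ht hder f' hf'0 hgen
  refine ⟨c, g⁻¹, u, hc, inv_ne_zero hg, hu, ?_, ?_⟩
  · have h1 : f = f' * (g⁻¹) ^ p := by
      rw [hf'def, inv_pow, mul_assoc, mul_inv_cancel₀ (pow_ne_zero _ hg), mul_one]
    rw [h1, hfu]
    ring
  · intro Q
    obtain ⟨P, hP⟩ := h22_exists_ext ι F₀ t₁ ht₁ Q
    have hbu : h22_bc ι F₀ u ≠ 0 := fun h0 => hu (h22_bc_injective ι F₀ (by rw [h0, map_zero]))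
    have hc0 : algebraMap K (laurentBaseChange K F₀) c ≠ 0 := by simpa using hc
    have h1 : P.ord f' = Q.ord u := by
      rw [hfu, P.ord_mul hc0 hbu, h35_ord_algebraMap, zero_add, hP u]
    rw [← h1, hord P]
    exact Dvd.intro _ rfl

include ht₁ ht in
/-- (INJ) injectivity of classes under base change. -/
theorem h22_desc_inj
    (hder : ∀ c : K, c ∉ Set.range ι → ∃ δ : Derivation ℚ K K, (∀ a : k, δ (ι a) = 0) ∧ δ c ≠ 0)
    (p : ℕ) (hp : 0 < p) (f₀ : laurentBaseChange k F₀) (hf₀ : f₀ ≠ 0) (c : K)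
    (g : laurentBaseChange K F₀)
    (h : h22_bc ι F₀ f₀ = algebraMap K (laurentBaseChange K F₀) c * g ^ p) :
    ∃ (c₀ : k) (g₀ : laurentBaseChange k F₀),
      f₀ = algebraMap k (laurentBaseChange k F₀) c₀ * g₀ ^ p := by
  have hpz : (p : ℤ) ≠ 0 := by exact_mod_cast hp.ne'
  have hb0 : h22_bc ι F₀ f₀ ≠ 0 := fun h0 => hf₀ (h22_bc_injective ι F₀ (by rw [h0, map_zero]))
  have hc0 : algebraMap K (laurentBaseChange K F₀) c ≠ 0 := by
    intro h0
    rw [h0, zero_mul] at h
    exact hb0 h
  have hg0 : g ≠ 0 := by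
    rintro rfl
    rw [zero_pow hp.ne', mul_zero] at h
    exact hb0 h
  have hgen : ∀ P : Place K (laurentBaseChange K F₀), h22_IsGeneric ι F₀ P → P.ord g = 0 := by
    intro P hP
    have h1 := hP f₀ hf₀
    rw [h, P.ord_mul hc0 (pow_ne_zero _ hg0), h35_ord_algebraMap, zero_add, ← zpow_natCast,
      P.ord_zpow] at h1
    rcases mul_eq_zero.1 h1 with h2 | h2
    · exact absurd h2 hpz
    · exact h2
  obtain ⟨c', u, hc', hu, hgu⟩ := h22_unit_desc ι F₀ t₁ ht₁ ht hder g hg0 hgen
  -- `bc (f₀ / u ^ p)` is the constant `c * c' ^ p`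
  set v : laurentBaseChange k F₀ := f₀ / u ^ p with hv
  have hup : u ^ p ≠ 0 := pow_ne_zero _ hu
  have hbv : h22_bc ι F₀ v = algebraMap K (laurentBaseChange K F₀) (c * c' ^ p) := by
    rw [hv, map_div₀, h, hgu, mul_pow, map_pow, map_mul, map_pow]
    have : h22_bc ι F₀ u ^ p ≠ 0 :=
      pow_ne_zero _ fun h0 => hu (h22_bc_injective ι F₀ (by rw [h0, map_zero]))
    field_simp
  have hcoeff : ∀ n : ℤ, n ≠ 0 → (v : LaurentSeries k).coeff n = 0 := by
    intro n hn
    have h1 := congrArg (fun z : laurentBaseChange K F₀ => (z : LaurentSeries K).coeff n) hbv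
    have h2 : ((algebraMap K (laurentBaseChange K F₀) (c * c' ^ p) : laurentBaseChange K F₀) :
        LaurentSeries K) = HahnSeries.single 0 (c * c' ^ p) :=
      algebraMap_laurentSeries_eq_single K _
    simp only [h22_coe_bc, coeffMap_coeff] at h1
    rw [h2, HahnSeries.coeff_single_of_ne hn] at h1
    exact (map_eq_zero ι).1 h1
  refine ⟨(v : LaurentSeries k).coeff 0, u, ?_⟩
  have hvc : v = algebraMap k (laurentBaseChange k F₀) ((v : LaurentSeries k).coeff 0) := by
    apply Subtype.ext
    show (v : LaurentSeries k) = algebraMap k (LaurentSeries k) _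
    rw [algebraMap_laurentSeries_eq_single]
    ext n
    rcases eq_or_ne n 0 with rfl | hn
    · rw [HahnSeries.coeff_single_same]
    · rw [HahnSeries.coeff_single_of_ne hn, hcoeff n hn]
  rw [← hvc, hv, div_mul_cancel₀ _ hup]

end Desc

end Fermat.Agent.GAL

end
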