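import Mathlib

/-!
# GAL-DESC-A (row 384, helper84): derivations of a field of characteristic zero

* `h22_derivation_algebraic` : a `ℚ`-derivation of a field kills every algebraic element;
* `h22_exists_derivation` : for a transcendental element `c` of a field `K ⊇ ℚ` there is a
  `ℚ`-derivation `δ` of `K` with `δ c ≠ 0`.

Proof of the second: extend `{c}` to a transcendence basis `B`; `K` is formally étale over the
polynomial ring `ℚ[B]` (a localisation followed by a separable algebraic extension), so
`Ω[K⁄ℚ] = K ⊗ Ω[ℚ[B]⁄ℚ]` is free on the `d b`, `b ∈ B`; take the coordinate at `c`.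
-/

set_option autoImplicit false

namespace Fermat.Agent.GAL

open Polynomial in
/-- A `ℚ`-derivation of a field kills every algebraic element. -/
theorem h22_derivation_algebraic {K : Type*} [Field K] [Algebra ℚ K] (δ : Derivation ℚ K K)
    (a : K) (ha : IsAlgebraic ℚ a) : δ a = 0 := by
  have hint : IsIntegral ℚ a := ha.isIntegral
  have hsep : (minpoly ℚ a).Separable := (minpoly.irreducible hint).separable
  have h1 : δ (aeval a (minpoly ℚ a)) = aeval a (derivative (minpoly ℚ a)) • δ a :=
    Derivation.map_aeval δ (minpoly ℚ a) a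
  rw [minpoly.aeval, map_zero] at h1
  have h2 : aeval a (derivative (minpoly ℚ a)) ≠ 0 :=
    hsep.aeval_derivative_ne_zero (minpoly.aeval ℚ a)
  rcases smul_eq_zero.1 h1.symm with h | h
  · exact absurd h h2
  · exact h

open scoped IntermediateField.algebraAdjoinAdjoin in
/-- For a transcendental element `c` of a field `K ⊇ ℚ` there is a `ℚ`-derivation of `K` not
killing `c`. -/
theorem h22_exists_derivation {K : Type*} [Field K] [Algebra ℚ K] (c : K)
    (hc : Transcendental ℚ c) : ∃ δ : Derivation ℚ K K, δ c ≠ 0 := by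
  classical
  have hs : AlgebraicIndepOn ℚ id ({c} : Set K) :=
    (algebraicIndependent_singleton_iff (⟨c, rfl⟩ : ({c} : Set K))).2 hc
  obtain ⟨t, hct, ht⟩ := exists_isTranscendenceBasis_superset hs
  have hb : AlgebraicIndependent ℚ ((↑) : t → K) := ht.1
  -- the rings
  let f1 : MvPolynomial t ℚ →+* Algebra.adjoin ℚ (Set.range ((↑) : t → K)) :=
    hb.aevalEquiv.toRingEquiv.toRingHom
  let f2 : Algebra.adjoin ℚ (Set.range ((↑) : t → K)) →+* K := algebraMap _ K
  let algPK : Algebra (MvPolynomial t ℚ) K := (f2.comp f1).toAlgebra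
  have hmap : ∀ x : MvPolynomial t ℚ, algebraMap (MvPolynomial t ℚ) K x =
      MvPolynomial.aeval ((↑) : t → K) x := fun x => hb.algebraMap_aevalEquiv x
  have : IsScalarTower ℚ (MvPolynomial t ℚ) K :=
    IsScalarTower.of_algebraMap_eq (fun q => by
      rw [hmap, MvPolynomial.algebraMap_eq, MvPolynomial.aeval_C])
  -- formally étale
  have hf1 : f1.FormallyEtale := by
    let _ : Algebra (MvPolynomial t ℚ) (Algebra.adjoin ℚ (Set.range ((↑) : t → K))) := f1.toAlgebra
    exact Algebra.FormallyEtale.of_equiv
      (AlgEquiv.ofRingEquiv (f := hb.aevalEquiv.toRingEquiv) (fun _ => rfl))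
  have hf2 : f2.FormallyEtale := by
    rw [RingHom.formallyEtale_algebraMap]
    have : Algebra.FormallyEtale (Algebra.adjoin ℚ (Set.range ((↑) : t → K)))
        (IntermediateField.adjoin ℚ (Set.range ((↑) : t → K))) :=
      .of_isLocalization (nonZeroDivisors _)
    have : Algebra.IsAlgebraic (IntermediateField.adjoin ℚ (Set.range ((↑) : t → K))) K :=
      ht.isAlgebraic_field
    have : Algebra.FormallyEtale (IntermediateField.adjoin ℚ (Set.range ((↑) : t → K))) K :=
      Algebra.FormallyEtale.of_isSeparable _ K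
    exact .comp _ (IntermediateField.adjoin ℚ (Set.range ((↑) : t → K))) _
  have hPK : Algebra.FormallyEtale (MvPolynomial t ℚ) K := hf1.comp hf2
  -- the basis of `Ω[K⁄ℚ]`
  let e := KaehlerDifferential.tensorKaehlerEquivOfFormallyEtale ℚ (MvPolynomial t ℚ) K
  let bK : Module.Basis t K Ω[K⁄ℚ] :=
    ((KaehlerDifferential.mvPolynomialBasis ℚ t).baseChange K).map e
  let i : t := ⟨c, hct rfl⟩
  have h1 : bK i = KaehlerDifferential.D ℚ K c := by
    have hX : algebraMap (MvPolynomial t ℚ) K (MvPolynomial.X i) = c := by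
      rw [hmap, MvPolynomial.aeval_X]
    simp only [bK, e, Module.Basis.map_apply, Module.Basis.baseChange_apply,
      KaehlerDifferential.mvPolynomialBasis_apply,
      KaehlerDifferential.tensorKaehlerEquivOfFormallyEtale_apply,
      KaehlerDifferential.mapBaseChange_tmul, one_smul, KaehlerDifferential.map_D, hX]
  refine ⟨(bK.coord i).compDer (KaehlerDifferential.D ℚ K), ?_⟩
  have h2 : ((bK.coord i).compDer (KaehlerDifferential.D ℚ K)) c =
      bK.coord i (KaehlerDifferential.D ℚ K c) := rfl
  rw [h2, ← h1, Module.Basis.coord_apply, Module.Basis.repr_self, Finsupp.single_eq_same]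
  exact one_ne_zero

end Fermat.Agent.GAL
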