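/-
GAL / DESCENT block (helper22): the descent theorem specialised to `ℚ̄ ⊆ ℂ` and the modular
function fields `F_K(N) = laurentBaseChange K (modularFunctionFieldFull N)`, `t₁ = j`.
-/
import Mathlib
import Fermat.Agent.GAL.h22_Desc
import Fermat.Agent.GAL.h22_DescA
import Fermat.Agent.S24.h78_Field
import Fermat.Agent.S24.h78_Fibres

set_option autoImplicit false

noncomputable section

namespace Fermat.Agent.GAL

open ModularCurve AlgebraicCurve HahnSeries IntermediateField
open Fermat.Agent.S24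

/-- `ℚ̄` is "differentially closed" in `ℂ`: a complex number outside `ι ℚ̄` is moved by a
`ℚ`-derivation of `ℂ` (and all of them kill `ι ℚ̄`). -/
theorem h22_hder_qbar (ι : AlgebraicClosure ℚ →+* ℂ) :
    ∀ c : ℂ, c ∉ Set.range ι →
      ∃ δ : Derivation ℚ ℂ ℂ, (∀ a : AlgebraicClosure ℚ, δ (ι a) = 0) ∧ δ c ≠ 0 := by
  intro c hc
  have htr : Transcendental ℚ c := by
    intro halg
    apply hc
    obtain ⟨p, hp0, hp⟩ := halg
    have hp' : p.map (algebraMap ℚ (AlgebraicClosure ℚ)) ≠ 0 :=
      (Polynomial.map_ne_zero_iff (algebraMap ℚ (AlgebraicClosure ℚ)).injective).2 hp0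
    refine h78_mem_range_of_root ι hp' ?_
    rw [Polynomial.map_map]
    have h1 : ι.comp (algebraMap ℚ (AlgebraicClosure ℚ)) = algebraMap ℚ ℂ :=
      RingHom.ext fun q => by simp
    rw [h1, Polynomial.eval_map_algebraMap]
    exact hp
  obtain ⟨δ, hδ⟩ := h22_exists_derivation c htr
  refine ⟨δ, fun a => ?_, hδ⟩
  apply h22_derivation_algebraic
  have ha : IsAlgebraic ℚ a := (AlgebraicClosure.isAlgebraic ℚ).isAlgebraic a
  exact ha.algHom ι.toRatAlgHom

section j

variable {k K : Type*} [Field k] [Algebra ℚ k] [Field K] [Algebra ℚ K] (ι : k →+* K)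

/-- Base change maps `j` to `j`. -/
theorem h22_bc_j (N : ℕ) [NeZero N] :
    h22_bc ι (modularFunctionFieldFull N) (h78_j k N) = h78_j K N :=
  Subtype.ext (h22_coeffMap_coeffEmb ι jq)

end j

section Qbar

variable (ι : AlgebraicClosure ℚ →+* ℂ) (N : ℕ) [NeZero N]
variable [FiniteDimensional ℂ⟮h78_j ℂ N⟯ (laurentBaseChange ℂ (modularFunctionFieldFull N))]

/-- (DESC) for `ℚ̄ ⊆ ℂ` and the modular function field of level `N`: a function over `ℂ` whose
divisor is divisible by `p` is a constant times a `p`-th power times a function defined over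
`ℚ̄` whose divisor (over `ℚ̄`) is divisible by `p`. -/
theorem h22_desc_qbar (p : ℕ) (hp : 0 < p)
    (f : laurentBaseChange ℂ (modularFunctionFieldFull N)) (hf : f ≠ 0)
    (hdiv : ∀ P : Place ℂ (laurentBaseChange ℂ (modularFunctionFieldFull N)), (p : ℤ) ∣ P.ord f) :
    ∃ (c : ℂ) (g : laurentBaseChange ℂ (modularFunctionFieldFull N))
      (f₀ : laurentBaseChange (AlgebraicClosure ℚ) (modularFunctionFieldFull N)),
      c ≠ 0 ∧ g ≠ 0 ∧ f₀ ≠ 0 ∧
      f = algebraMap ℂ (laurentBaseChange ℂ (modularFunctionFieldFull N)) c * g ^ p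
            * h22_bc ι (modularFunctionFieldFull N) f₀ ∧
      ∀ Q : Place (AlgebraicClosure ℚ)
          (laurentBaseChange (AlgebraicClosure ℚ) (modularFunctionFieldFull N)),
        (p : ℤ) ∣ Q.ord f₀ := by
  haveI : FiniteDimensional (AlgebraicClosure ℚ)⟮h78_j (AlgebraicClosure ℚ) N⟯
      (laurentBaseChange (AlgebraicClosure ℚ) (modularFunctionFieldFull N)) :=
    h78_finiteDimensional N
  have e := h22_bc_j ι N
  haveI : FiniteDimensional
      ℂ⟮h22_bc ι (modularFunctionFieldFull N) (h78_j (AlgebraicClosure ℚ) N)⟯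
      (laurentBaseChange ℂ (modularFunctionFieldFull N)) := by
    rw [e]; infer_instance
  exact h22_desc ι (modularFunctionFieldFull N) (h78_j (AlgebraicClosure ℚ) N)
    (h78_j_transcendental (AlgebraicClosure ℚ) N)
    (by rw [e]; exact h78_j_transcendental ℂ N) (h22_hder_qbar ι) p hp f hf hdiv

/-- (INJ) for `ℚ̄ ⊆ ℂ`: a function over `ℚ̄` that becomes a constant times a `p`-th power over
`ℂ` already is one over `ℚ̄`. -/
theorem h22_desc_inj_qbar (p : ℕ) (hp : 0 < p)
    (f₀ : laurentBaseChange (AlgebraicClosure ℚ) (modularFunctionFieldFull N)) (hf₀ : f₀ ≠ 0)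
    (c : ℂ) (g : laurentBaseChange ℂ (modularFunctionFieldFull N))
    (h : h22_bc ι (modularFunctionFieldFull N) f₀
      = algebraMap ℂ (laurentBaseChange ℂ (modularFunctionFieldFull N)) c * g ^ p) :
    ∃ (c₀ : AlgebraicClosure ℚ)
      (g₀ : laurentBaseChange (AlgebraicClosure ℚ) (modularFunctionFieldFull N)),
      f₀ = algebraMap (AlgebraicClosure ℚ)
        (laurentBaseChange (AlgebraicClosure ℚ) (modularFunctionFieldFull N)) c₀ * g₀ ^ p := by
  haveI : FiniteDimensional (AlgebraicClosure ℚ)⟮h78_j (AlgebraicClosure ℚ) N⟯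
      (laurentBaseChange (AlgebraicClosure ℚ) (modularFunctionFieldFull N)) :=
    h78_finiteDimensional N
  have e := h22_bc_j ι N
  haveI : FiniteDimensional
      ℂ⟮h22_bc ι (modularFunctionFieldFull N) (h78_j (AlgebraicClosure ℚ) N)⟯
      (laurentBaseChange ℂ (modularFunctionFieldFull N)) := by
    rw [e]; infer_instance
  exact h22_desc_inj ι (modularFunctionFieldFull N) (h78_j (AlgebraicClosure ℚ) N)
    (h78_j_transcendental (AlgebraicClosure ℚ) N)
    (by rw [e]; exact h78_j_transcendental ℂ N) (h22_hder_qbar ι) p hp f₀ hf₀ c g h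

/-- (EXT) for `ℚ̄ ⊆ ℂ`: every place of `F_ℚ̄(N)` extends to a place of `F_ℂ(N)` with the same
orders. -/
theorem h22_exists_ext_qbar
    (Q : Place (AlgebraicClosure ℚ)
      (laurentBaseChange (AlgebraicClosure ℚ) (modularFunctionFieldFull N))) :
    ∃ P : Place ℂ (laurentBaseChange ℂ (modularFunctionFieldFull N)),
      ∀ u : laurentBaseChange (AlgebraicClosure ℚ) (modularFunctionFieldFull N),
        P.ord (h22_bc ι (modularFunctionFieldFull N) u) = Q.ord u := by
  haveI : FiniteDimensional (AlgebraicClosure ℚ)⟮h78_j (AlgebraicClosure ℚ) N⟯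
      (laurentBaseChange (AlgebraicClosure ℚ) (modularFunctionFieldFull N)) :=
    h78_finiteDimensional N
  exact h22_exists_ext ι (modularFunctionFieldFull N) (h78_j (AlgebraicClosure ℚ) N)
    (h78_j_transcendental (AlgebraicClosure ℚ) N) Q

end Qbar

end Fermat.Agent.GAL

end
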