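import Mathlib
import Fermat.Agent.S24.h83_Cusp
import Fermat.Agent.S24.h14_ProdInv
import Fermat.Agent.S24.h54_Point
import Fermat.Agent.GAL.h77_AnDefs

/-!
# GAL, analytic layer (ORD dictionary, part D): the cusp expansions over a general field

For an algebraically closed field `K` with `ι : K →+* ℂ` and `g : SL(2, ℤ)` we construct the
field embedding

  `gal_psi ι N g : F_K(N) →+* LaurentSeries ℂ`

sending `f` to the `q_N`-expansion (`q_N = exp (2πiτ/N)`) of the conjugate `τ ↦ Φ f (g⁻¹ • τ)`.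
This is the `K`-generic version of `h83_psi` (S24, `K = ℚ̄`), with the same list of properties:
specification on `A_N`, constants, right `Γ₀(N)`-invariance, the `T`-twist, the expansion of `j`,
separation of cosets and the product formula (PROD-INV).
-/

set_option autoImplicit false

open UpperHalfPlane ModularCurve HahnSeries Matrix.SpecialLinearGroup CongruenceSubgroup
open scoped MatrixGroups

namespace Fermat.Agent.GAL

open Fermat.Agent.S24

/-- The relation "`c` is the `q_N`-expansion of `f`". -/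
def h36_E (N : ℕ) (c : LaurentSeries ℂ) (f : ℍ → ℂ) : Prop :=
  h77_IsQExp (N : ℝ) c f

theorem h36_expRel (N : ℕ) [NeZero N] : h83_ExpRel (h36_E N) where
  one := h77_isQExp_one _
  add := fun h h' => h77_IsQExp.add h h'
  mul := fun h h' => h77_IsQExp.mul h h'
  neg := fun h => h77_IsQExp.neg h
  left_unique := fun h h' =>
    h77_IsQExp.unique (by exact_mod_cast Nat.pos_of_ne_zero (NeZero.ne N)) h h'
  right_unique := fun h h' => h77_IsQExp.unique_fun h h'

section Psi

variable {K : Type*} [Field K] [Algebra ℚ K] [IsAlgClosed K] (ι : K →+* ℂ) (N : ℕ) [NeZero N]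

/-- The conjugate `τ ↦ ev a (g⁻¹ • τ)` of an element of `A_N`. -/
noncomputable def h36_evConj (g : SL(2, ℤ)) : h78_AN K N →+* (ℍ → ℂ) :=
  (h83_precomp (fun τ => g⁻¹ • τ)).comp (h54_ev ι N)

omit [IsAlgClosed K] [NeZero N] in
@[simp]
theorem h36_evConj_apply (g : SL(2, ℤ)) (a : h78_AN K N) (τ : ℍ) :
    h36_evConj ι N g a τ = h54_ev ι N a (g⁻¹ • τ) := rfl

omit [IsAlgClosed K] [NeZero N] in
theorem h36_evConj_injective (g : SL(2, ℤ)) : Function.Injective (h36_evConj ι N g) := by
  intro x y hxy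
  apply h54_ev_injective ι N
  funext τ
  have := congrFun hxy (g • τ)
  simpa using this

/-- Every conjugate of an element of `A_N` has a `q_N`-expansion, with coefficients in `ι K`. -/
theorem h36_exists_expK (g : SL(2, ℤ)) (a : h78_AN K N) :
    ∃ c₀ : LaurentSeries K, h36_E N (coeffMap ι c₀) (h36_evConj ι N g a) := by
  obtain ⟨c, hc⟩ := h14_ev_conj_exp ι N a g⁻¹
  exact ⟨c, hc⟩

theorem h36_exists_exp (g : SL(2, ℤ)) (a : h78_AN K N) :
    ∃ c, h36_E N c (h36_evConj ι N g a) := by
  obtain ⟨c, hc⟩ := h36_exists_expK ι N g a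
  exact ⟨_, hc⟩

/-- The `q_N`-expansion of the `g`-conjugate, on `A_N`. -/
noncomputable def h36_cuspHom (g : SL(2, ℤ)) : h78_AN K N →+* LaurentSeries ℂ :=
  h83_expHom (h36_expRel N) (h36_evConj ι N g) (h36_exists_exp ι N g)

theorem h36_cuspHom_spec (g : SL(2, ℤ)) (a : h78_AN K N) :
    h77_IsQExp (N : ℝ) (h36_cuspHom ι N g a) (fun τ => h54_ev ι N a (g⁻¹ • τ)) :=
  h83_expHom_spec (h36_expRel N) (h36_evConj ι N g) (h36_exists_exp ι N g) a

theorem h36_cuspHom_eq (g : SL(2, ℤ)) {a : h78_AN K N} {c : LaurentSeries ℂ}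
    (h : h77_IsQExp (N : ℝ) c (fun τ => h54_ev ι N a (g⁻¹ • τ))) :
    h36_cuspHom ι N g a = c :=
  h83_expHom_eq (h36_expRel N) (h36_evConj ι N g) (h36_exists_exp ι N g) h

theorem h36_cuspHom_injective (g : SL(2, ℤ)) : Function.Injective (h36_cuspHom ι N g) :=
  h83_expHom_injective (h36_expRel N) (h36_evConj ι N g) (h36_exists_exp ι N g)
    (h36_evConj_injective ι N g)

/-- The expansion at `i∞` of the `g`-conjugate: a field embedding of the function field
`F_K(N)` into `ℂ((q_N))`. -/
noncomputable def gal_psi (g : SL(2, ℤ)) : gal_F K N →+* LaurentSeries ℂ :=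
  IsFractionRing.lift (h36_cuspHom_injective ι N g)

theorem gal_psi_algebraMap (g : SL(2, ℤ)) (a : h78_AN K N) :
    gal_psi ι N g (algebraMap (h78_AN K N) (gal_F K N) a) = h36_cuspHom ι N g a :=
  IsFractionRing.lift_algebraMap _ a

/-- **Specification on `A_N`**: `gal_psi g a` is the `q_N`-expansion of the conjugate
`τ ↦ ev a (g⁻¹ • τ)`. -/
theorem gal_psi_spec (g : SL(2, ℤ)) (a : h78_AN K N) :
    h77_IsQExp (N : ℝ) (gal_psi ι N g (algebraMap (h78_AN K N) (gal_F K N) a))
      (fun τ => h54_ev ι N a (g⁻¹ • τ)) := by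
  rw [gal_psi_algebraMap]
  exact h36_cuspHom_spec ι N g a

theorem gal_psi_eq (g : SL(2, ℤ)) {a : h78_AN K N} {c : LaurentSeries ℂ}
    (h : h77_IsQExp (N : ℝ) c (fun τ => h54_ev ι N a (g⁻¹ • τ))) :
    gal_psi ι N g (algebraMap (h78_AN K N) (gal_F K N) a) = c := by
  rw [gal_psi_algebraMap]
  exact h36_cuspHom_eq ι N g h

/-- The expansions of the elements of `A_N` have coefficients in `ι K`. -/
theorem gal_psi_rational (g : SL(2, ℤ)) (a : h78_AN K N) :
    ∃ c₀ : LaurentSeries K,
      gal_psi ι N g (algebraMap (h78_AN K N) (gal_F K N) a) = coeffMap ι c₀ := by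
  obtain ⟨c₀, hc₀⟩ := h36_exists_expK ι N g a
  exact ⟨c₀, gal_psi_eq ι N g hc₀⟩

omit [IsAlgClosed K] [NeZero N] in
/-- Two ring homomorphisms out of the function field which agree on `A_N` are equal. -/
theorem h36_ringHom_ext {L : Type*} [Field L] {φ φ' : gal_F K N →+* L}
    (h : ∀ a : h78_AN K N, φ (algebraMap (h78_AN K N) (gal_F K N) a)
      = φ' (algebraMap (h78_AN K N) (gal_F K N) a)) : φ = φ' := by
  refine IsLocalization.ringHom_ext (nonZeroDivisors (h78_AN K N)) ?_
  ext x
  exact h x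

/-- (d) the expansions are trivial on constants. -/
theorem gal_psi_const (g : SL(2, ℤ)) (c : K) :
    gal_psi ι N g (algebraMap K (gal_F K N) c) = HahnSeries.C (ι c) := by
  rw [IsScalarTower.algebraMap_apply K (h78_AN K N) (gal_F K N)]
  apply gal_psi_eq
  rw [h54_ev_const]
  exact h77_isQExp_C _ (ι c)

/-- (a) the expansions only depend on the left coset `g Γ₀(N)`. -/
theorem gal_psi_mul_right (g h : SL(2, ℤ)) (hh : h ∈ Gamma0 N) :
    gal_psi ι N (g * h) = gal_psi ι N g := by
  apply h36_ringHom_ext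
  intro a
  apply gal_psi_eq
  refine (gal_psi_spec ι N g a).congr fun τ => ?_
  rw [mul_inv_rev, mul_smul]
  exact (h54_ev_invariant ι N h⁻¹ (inv_mem hh) a _).symm

/-- (b) left multiplication by `T` twists the expansion. -/
theorem gal_psi_T_mul (g : SL(2, ℤ)) (f : gal_F K N) :
    gal_psi ι N (ModularGroup.T * g) f = h83_twist (h83_zeta N) (gal_psi ι N g f) := by
  have key : gal_psi ι N (ModularGroup.T * g)
      = (h83_twistHom (h83_zeta N) (h83_zeta_ne_zero N)).comp (gal_psi ι N g) := by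
    apply h36_ringHom_ext
    intro a
    rw [RingHom.comp_apply, h83_twistHom_apply]
    apply gal_psi_eq
    have h2 := h83_isQExp_vadd (gal_psi_spec ι N g a) (-1 : ℝ)
    rw [h83_zeta_eq] at h2
    refine h2.congr fun τ => ?_
    rw [mul_inv_rev, mul_smul]
    have h3 := UpperHalfPlane.modular_T_zpow_smul τ (-1)
    rw [zpow_neg_one] at h3
    rw [h3]
    push_cast
    rfl
  rw [key, RingHom.comp_apply, h83_twistHom_apply]

theorem gal_psi_T_mul_coeff (g : SL(2, ℤ)) (f : gal_F K N) (k : ℤ) :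
    (gal_psi ι N (ModularGroup.T * g) f).coeff k
      = h83_zeta N ^ k * (gal_psi ι N g f).coeff k := by
  rw [gal_psi_T_mul, h83_twist_coeff, mul_comm]

/-- The identity coset: the expansion is the formal series itself, in the variable `q_N`. -/
theorem gal_psi_one (f : gal_F K N) :
    gal_psi ι N 1 f = qExpand ℂ N (coeffMap ι (f : LaurentSeries K)) := by
  have key : gal_psi ι N 1
      = ((qExpand ℂ N : LaurentSeries ℂ →+* LaurentSeries ℂ).comp (coeffMap ι)).comp
          (laurentBaseChange K (modularFunctionFieldFull N)).val.toRingHom := by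
    apply h36_ringHom_ext
    intro a
    apply gal_psi_eq
    obtain ⟨x, hx⟩ := a
    show h77_IsQExp (N : ℝ) (qExpand ℂ N (coeffMap ι x)) _
    have h := (h54_ev_spec ι N x hx).qExpand_width N
    rw [mul_one] at h
    refine h.congr fun τ => ?_
    rw [inv_one, one_smul]
  rw [key]
  rfl

/-- The expansion of `j` is the same at every coset. -/
theorem gal_psi_j (g : SL(2, ℤ)) :
    gal_psi ι N g (h78_j K N) = qExpand ℂ N (coeffMap (algebraMap ℚ ℂ) jq) := by
  rw [h54_j_eq_algebraMap]
  apply gal_psi_eq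
  rw [h54_ev_j]
  have h := h77_isQExp_jq.qExpand_width N
  rw [mul_one] at h
  refine h.congr fun τ => ?_
  rw [h54_j_smul]

/-- (c) the expansion of `j` has order `-N` at every coset. -/
theorem gal_psi_j_order (g : SL(2, ℤ)) : (gal_psi ι N g (h78_j K N)).order = -(N : ℤ) := by
  rw [gal_psi_j, h83_order_qExpand_jq]

/-- The expansions at distinct cosets are distinct. -/
theorem gal_psi_sep {g g' : SL(2, ℤ)} (h : gal_psi ι N g = gal_psi ι N g') :
    (g : SL(2, ℤ) ⧸ Gamma0 N) = (g' : SL(2, ℤ) ⧸ Gamma0 N) := by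
  apply h54_ev_sep ι N g g'
  intro a τ
  have h1 := gal_psi_spec ι N g a
  have h2 := gal_psi_spec ι N g' a
  rw [h] at h1
  exact congrFun (h1.unique_fun h2) τ

/-- **PROD-INV**: the product of the cusp expansions of the conjugates of `a ∈ A_N` is the cusp
expansion of a polynomial in `j` with coefficients in `K`. -/
theorem gal_psi_prod [Fintype (SL(2, ℤ) ⧸ Gamma0 N)] (a : h78_AN K N) :
    ∃ P : Polynomial K, gal_psi ι N 1 (Polynomial.aeval (h78_j K N) P)
      = ∏ x : SL(2, ℤ) ⧸ Gamma0 N,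
          gal_psi ι N (Quotient.out x) (algebraMap (h78_AN K N) (gal_F K N) a) := by
  obtain ⟨P, -, hP2⟩ := h14_prod_inv ι N a
  refine ⟨P, ?_⟩
  have hc₀ : h77_IsQExp (N : ℝ)
      (qExpand ℂ N (coeffMap ι (Polynomial.aeval (coeffEmb K jq) P)))
      (fun τ => ∏ x : SL(2, ℤ) ⧸ Gamma0 N, h14_ev ι N a ((Quotient.out x)⁻¹ • τ)) := by
    have h := hP2.qExpand_width N
    rwa [mul_one] at h
  have hprod := h14_prod_expansion_eq (N := N) (φ := h14_ev ι N a)
    (c := fun x : SL(2, ℤ) ⧸ Gamma0 N =>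
      gal_psi ι N (Quotient.out x) (algebraMap (h78_AN K N) (gal_F K N) a))
    (fun x => gal_psi_spec ι N (Quotient.out x) a) hc₀ (fun τ => rfl)
  rw [hprod, gal_psi_one]
  congr 2
  have h := Polynomial.aeval_algHom_apply (laurentBaseChange K (modularFunctionFieldFull N)).val
    (h78_j K N) P
  rw [← h78_coe_j K N]
  exact h.symm

end Psi

end Fermat.Agent.GAL
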