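import Mathlib
import Fermat.Agent.S24.h78_FibreGen
import Fermat.Agent.S24.h56_CountNorm

/-!
# GAL, analytic layer (ORD dictionary, part A): the order formula behind the counting trick

The counting theorems of S24 (`h56_card_fibre_setoid`, `h78_card_fibre_of_family`, ...) identify
the places of `F` over `t = a` with the classes of "analytic" order functions `w x`.  Here we
extract the finer statement that the proof gives: for every place `v` over `t = a` there is an
index `x` with

  `E * v.ord f = (size of the class of x) * w x f`   for all `f ≠ 0`,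

where `E = w x (t - a)`.  (So `v.ord = w x / (E / size)`: the normalised order.)
-/

set_option autoImplicit false

open AlgebraicCurve IntermediateField
open IntermediateField.algebraAdjoinAdjoin

namespace Fermat.Agent.GAL

open Fermat.Agent.S24

section setoid

variable {K F : Type*} [Field K] [Field F] [Algebra K F] [CharZero K]

/-- ORDER FORMULA (abstract form, setoid version): every place over `t = a` is the place of one
of the order functions `w x`, and `E * v.ord f = #(class of x) * w x f`. -/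
theorem h36_ord_fibre_setoid (t : F) [FiniteDimensional K⟮t⟯ F] (a : K)
    {X : Type*} [Fintype X] (r : Setoid X)
    (w : X → F → ℤ) (hw : ∀ x, h56_IsOrd K (w x))
    (E : ℤ) (hE : 0 < E) (hwE : ∀ x, w x (t - algebraMap K F a) = E)
    (hr : ∀ x y, r x y → w x = w y)
    (hM : ∀ x (f : F), f ≠ 0 → E ∣ w x f * (Nat.card {y // r y x} : ℤ))
    (hN : ∀ h : F, h ≠ 0 → IsIntegral (Algebra.adjoin K {t}) h →
      ∃ (P : Polynomial K) (b : F), IsIntegral (Algebra.adjoin K {t}) b ∧
        Polynomial.aeval t P = h * b ∧ (P.eval a = 0 → ∃ x, 0 < w x h))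
    (n : ℕ) (hC : Fintype.card X ≤ n)
    (hfin : {v : Place K F | 0 < v.ord (t - algebraMap K F a)}.Finite)
    (hsum : ∑ᶠ v ∈ {v : Place K F | 0 < v.ord (t - algebraMap K F a)},
      v.ord (t - algebraMap K F a) = n)
    (v : Place K F) (hv : 0 < v.ord (t - algebraMap K F a)) :
    ∃ x, ∀ f : F, f ≠ 0 → E * v.ord f = (Nat.card {y // r y x} : ℤ) * w x f := by
  classical
  have ht0 : t - algebraMap K F a ≠ 0 := by
    intro h0
    rw [h0, Place.ord_zero] at hv
    exact lt_irrefl _ hv
  have hnt : ∀ x, ∃ f : F, f ≠ 0 ∧ w x f ≠ 0 :=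
    fun x => ⟨_, ht0, by rw [hwE x]; exact hE.ne'⟩
  set p : X → Place K F := fun x => h56_placeOfOrd (w x) (hw x) (hnt x) with hpdef
  have hpt : ∀ x, t ∈ (p x).toValuationSubring := by
    intro x
    have h1 : t - algebraMap K F a ∈ (p x).toValuationSubring :=
      Or.inr (by rw [hwE x]; exact hE.le)
    have h2 := (p x).toValuationSubring.add_mem _ _ h1 ((p x).algebraMap_mem' a)
    rwa [sub_add_cancel] at h2
  have hclasspos : ∀ x, 0 < Nat.card {y // r y x} := by
    intro x
    have : Nonempty {y // r y x} := ⟨⟨x, r.refl x⟩⟩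
    exact Nat.card_pos
  -- the multiplier `m x` with `w x = m x * ord_{p x}`
  have hmul : ∀ x, ∃ m : ℤ, 0 < m ∧ (∀ f : F, f ≠ 0 → w x f = m * (p x).ord f) ∧
      E = m * (p x).ord (t - algebraMap K F a) ∧
      0 < (p x).ord (t - algebraMap K F a) ∧
      (p x).ord (t - algebraMap K F a) ≤ (Nat.card {y // r y x} : ℤ) := by
    intro x
    obtain ⟨m, hm, ⟨π, hπ0, hπ⟩, hmf⟩ := h56_placeOfOrd_ord (hw x) (hnt x)
    have h1 : E = m * (p x).ord (t - algebraMap K F a) := by
      rw [← hwE x]
      exact hmf _ ht0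
    have hpos : 0 < (p x).ord (t - algebraMap K F a) := by
      by_contra hneg
      push Not at hneg
      have : m * (p x).ord (t - algebraMap K F a) ≤ 0 :=
        mul_nonpos_of_nonneg_of_nonpos hm.le hneg
      omega
    refine ⟨m, hm, hmf, h1, hpos, ?_⟩
    have h2 := hM x π hπ0
    rw [hπ, h1] at h2
    have h3 : (p x).ord (t - algebraMap K F a) ∣ (Nat.card {y // r y x} : ℤ) :=
      (mul_dvd_mul_iff_left hm.ne').mp h2
    exact Int.le_of_dvd (by exact_mod_cast hclasspos x) h3
  have hpr : ∀ x y, r x y → p x = p y := by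
    intro x y hxy
    apply Place.ext
    ext f
    show (f = 0 ∨ 0 ≤ w x f) ↔ (f = 0 ∨ 0 ≤ w y f)
    rw [hr x y hxy]
  let pbar : Quotient r → Place K F := Quotient.lift p hpr
  have hsurj : ∀ v : Place K F, 0 < v.ord (t - algebraMap K F a) → ∃ x, p x = v := by
    intro v hv
    refine h56_exists_eq_of_norm t a p hpt ?_ v (h56_mem_nonunits_of_ord_pos v hv)
    intro h hh0 hh
    obtain ⟨P, b, hb, hPb, himp⟩ := hN h hh0 hh
    refine ⟨P, b, hb, hPb, fun hP0 => ?_⟩
    obtain ⟨x, hx⟩ := himp hP0
    refine ⟨x, ?_⟩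
    rw [ValuationSubring.mem_nonunits_iff_or]
    refine Or.inr ?_
    rintro (hinv | hinv)
    · exact inv_ne_zero hh0 hinv
    · rw [(hw x).map_inv hh0] at hinv
      omega
  set S : Set (Place K F) := {v : Place K F | 0 < v.ord (t - algebraMap K F a)} with hSdef
  let _ : Fintype ↥S := hfin.fintype
  let _ : Fintype (Quotient r) := Fintype.ofFinite _
  have hsum' : ∑ v : ↥S, (v : Place K F).ord (t - algebraMap K F a) = n := by
    rw [← hsum, finsum_mem_eq_finite_toFinset_sum _ hfin]
    exact Finset.sum_set_coe (f := fun v : Place K F => v.ord (t - algebraMap K F a)) S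
  have hsurj' : ∀ v : ↥S, ∃ x, p x = v := fun v => hsurj v v.2
  choose xs hxs using hsurj'
  let φ : ↥S → Quotient r := fun v => Quotient.mk r (xs v)
  have hφ : ∀ v : ↥S, pbar (φ v) = v := fun v => hxs v
  have hφinj : Function.Injective φ :=
    fun v v' h => Subtype.ext (by rw [← hφ v, ← hφ v', h])
  let size : Quotient r → ℕ := fun q =>
    (Finset.univ.filter (fun x : X => Quotient.mk r x = q)).card
  have hsize_sum : ∑ q : Quotient r, size q = Fintype.card X := by
    rw [← Finset.card_univ]
    exact (Finset.card_eq_sum_card_fiberwise (fun x _ => Finset.mem_univ _)).symm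
  have hsize : ∀ x : X, size (Quotient.mk r x) = Nat.card {y // r y x} := by
    intro x
    show (Finset.univ.filter (fun y : X => Quotient.mk r y = Quotient.mk r x)).card = _
    rw [← Fintype.card_subtype, ← Nat.card_eq_fintype_card]
    exact Nat.card_congr (Equiv.subtypeEquivRight fun y => Quotient.eq)
  have hle : ∀ v : ↥S, (v : Place K F).ord (t - algebraMap K F a) ≤ (size (φ v) : ℤ) := by
    intro v
    obtain ⟨m, -, -, -, -, h1⟩ := hmul (xs v)
    rw [hxs v] at h1
    show _ ≤ ((size (Quotient.mk r (xs v)) : ℕ) : ℤ)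
    rw [hsize]
    exact h1
  have h2 : ∑ v : ↥S, size (φ v) = ∑ q ∈ Finset.univ.image φ, size q :=
    (Finset.sum_image (fun v _ v' _ h => hφinj h)).symm
  have h4 : ∑ q ∈ Finset.univ.image φ, size q ≤ ∑ q : Quotient r, size q :=
    Finset.sum_le_sum_of_subset (Finset.subset_univ _)
  -- both sums are equal, hence all the terms
  have hsumeq : ∑ v : ↥S, (v : Place K F).ord (t - algebraMap K F a)
      = ∑ v : ↥S, (size (φ v) : ℤ) := by
    apply le_antisymm
    · exact Finset.sum_le_sum (fun v _ => hle v)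
    · rw [hsum']
      have h5 : ((∑ v : ↥S, size (φ v) : ℕ) : ℤ) ≤ (n : ℤ) := by
        rw [h2]
        have : ∑ q ∈ Finset.univ.image φ, size q ≤ n := by
          rw [hsize_sum] at h4
          omega
        exact_mod_cast this
      push_cast at h5
      exact h5
  have hterm : ∀ v : ↥S, (v : Place K F).ord (t - algebraMap K F a) = (size (φ v) : ℤ) := by
    intro v
    exact (Finset.sum_eq_sum_iff_of_le (fun v _ => hle v)).mp hsumeq v (Finset.mem_univ v)
  -- conclusion
  refine ⟨xs ⟨v, hv⟩, fun f hf => ?_⟩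
  obtain ⟨m, hm, hmf, hEm, -, -⟩ := hmul (xs ⟨v, hv⟩)
  have hpv : p (xs ⟨v, hv⟩) = v := hxs ⟨v, hv⟩
  rw [hpv] at hmf hEm
  have hc : v.ord (t - algebraMap K F a) = (Nat.card {y // r y (xs ⟨v, hv⟩)} : ℤ) := by
    have := hterm ⟨v, hv⟩
    rw [this]
    show ((size (Quotient.mk r (xs ⟨v, hv⟩)) : ℕ) : ℤ) = _
    rw [hsize]
  rw [hmf f hf, hEm, hc]
  ring

/-- ORDER FORMULA (abstract form, group version). -/
theorem h36_ord_fibre (t : F) [FiniteDimensional K⟮t⟯ F] (a : K)
    {G X : Type*} [Group G] [MulAction G X] [Fintype X] (g : G)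
    (w : X → F → ℤ) (hw : ∀ x, h56_IsOrd K (w x))
    (E : ℤ) (hE : 0 < E) (hwE : ∀ x, w x (t - algebraMap K F a) = E)
    (hG : ∀ x, w (g • x) = w x)
    (hM : ∀ x (f : F), f ≠ 0 →
      E ∣ w x f * (Function.minimalPeriod (fun y : X => g • y) x : ℤ))
    (hN : ∀ h : F, h ≠ 0 → IsIntegral (Algebra.adjoin K {t}) h →
      ∃ (P : Polynomial K) (b : F), IsIntegral (Algebra.adjoin K {t}) b ∧
        Polynomial.aeval t P = h * b ∧ (P.eval a = 0 → ∃ x, 0 < w x h))
    (n : ℕ) (hC : Fintype.card X ≤ n)
    (hfin : {v : Place K F | 0 < v.ord (t - algebraMap K F a)}.Finite)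
    (hsum : ∑ᶠ v ∈ {v : Place K F | 0 < v.ord (t - algebraMap K F a)},
      v.ord (t - algebraMap K F a) = n)
    (v : Place K F) (hv : 0 < v.ord (t - algebraMap K F a)) :
    ∃ x, ∀ f : F, f ≠ 0 →
      E * v.ord f = (Function.minimalPeriod (fun y : X => g • y) x : ℤ) * w x f := by
  obtain ⟨x, hx⟩ := h36_ord_fibre_setoid t a (MulAction.orbitRel (Subgroup.zpowers g) X) w hw E
    hE hwE (h56_eq_of_orbitRel g w hG)
    (fun x f hf => by rw [h56_card_orbitRel_class]; exact hM x f hf) hN n hC hfin hsum v hv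
  refine ⟨x, fun f hf => ?_⟩
  rw [hx f hf, h56_card_orbitRel_class]

end setoid

section family

variable {K F : Type*} [Field K] [Field F] [Algebra K F] [CharZero K]

/-- **Order formula from a family of embeddings** (companion of `h78_card_fibre_of_family`):
for every place `v` over `t = a` there is `x` with
`E * v.ord f = (size of the g-orbit of x) * ord (σ x f)`. -/
theorem h36_ord_fibre_of_family [IsAlgClosed K] (t : F) (ht : Transcendental K t)
    [FiniteDimensional K⟮t⟯ F]
    {G X : Type*} [Group G] [MulAction G X] [Fintype X] (g : G)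
    (σ : X → F →+* LaurentSeries ℂ) (ι : K →+* ℂ)
    (hσK : ∀ x (c : K), σ x (algebraMap K F c) = HahnSeries.C (ι c))
    (hσt : ∀ x y, σ x t = σ y t)
    (hσinj : Function.Injective σ)
    (hcard : Fintype.card X = Module.finrank K⟮t⟯ F)
    (a : K) (E : ℕ) (hE : 0 < E) (hEt : ∀ x, (σ x (t - algebraMap K F a)).order = E)
    (hG : ∀ x f, (σ (g • x) f).order = (σ x f).order)
    (hM : ∀ x (f : F), f ≠ 0 →
      (E : ℤ) ∣ (σ x f).order * (Function.minimalPeriod (fun y : X => g • y) x : ℤ))
    (v : Place K F) (hv : 0 < v.ord (t - algebraMap K F a)) :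
    ∃ x, ∀ f : F, f ≠ 0 →
      (E : ℤ) * v.ord f
        = (Function.minimalPeriod (fun y : X => g • y) x : ℤ) * (σ x f).order := by
  classical
  have hta0 : t - algebraMap K F a ≠ 0 := by
    intro h0
    apply ht
    rw [sub_eq_zero.mp h0]
    exact isAlgebraic_algebraMap a
  have hXne : Nonempty X := by
    rw [← Fintype.card_pos_iff, hcard]
    exact Module.finrank_pos
  have hagree : ∀ (x y : X) (e : K⟮t⟯),
      σ x (algebraMap K⟮t⟯ F e) = σ y (algebraMap K⟮t⟯ F e) := fun x y e =>
    h78_agree_on_adjoin t (σ x) (σ y) (fun c => by rw [hσK, hσK]) (hσt x y) e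
  have hnorm : ∀ (x₀ : X) (h : F),
      σ x₀ (algebraMap K⟮t⟯ F (Algebra.norm K⟮t⟯ h)) = ∏ x, σ x h := fun x₀ h =>
    h71_norm_of_card_ringHom σ hσinj hagree hcard x₀ h
  have hw : ∀ x, h56_IsOrd K (h78_ordOf (σ x)) := fun x => h78_ordOf_isOrd (σ x) ι (hσK x)
  obtain ⟨s, hs, hsum⟩ := h24_fibre_main t ht a
  have hset : {v : Place K F | 0 < v.ord (t - algebraMap K F a)} = (s : Set (Place K F)) := by
    ext v
    simp [hs]
  obtain ⟨x, hx⟩ := h36_ord_fibre (K := K) t a g (fun x => h78_ordOf (σ x)) hw (E : ℤ)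
    (by exact_mod_cast hE)
    (by
      intro x
      rw [h78_ordOf_of_ne _ hta0, hEt x])
    (by
      intro x
      funext f
      by_cases hf : f = 0
      · rw [hf, h78_ordOf_zero, h78_ordOf_zero]
      · rw [h78_ordOf_of_ne _ hf, h78_ordOf_of_ne _ hf, hG])
    (by
      intro x f hf
      rw [h78_ordOf_of_ne _ hf]
      exact hM x f hf)
    (by
      intro h hh0 hh
      obtain ⟨P, b, hb, hPb, hPn⟩ := h78_norm_exists_poly (K := K) t h hh
      refine ⟨P, b, hb, hPb, fun hPa => ?_⟩
      obtain ⟨x₀⟩ := hXne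
      have hprod : σ x₀ (Polynomial.aeval t P) = ∏ x, σ x h := by rw [hPn, hnorm]
      have hprod0 : (∏ x, σ x h) ≠ 0 :=
        Finset.prod_ne_zero_iff.mpr fun y _ => (map_ne_zero (σ y)).mpr hh0
      have hP0 : Polynomial.aeval t P ≠ 0 := by
        intro h0
        rw [h0, map_zero] at hprod
        exact hprod0 hprod.symm
      obtain ⟨Q, rfl⟩ := Polynomial.dvd_iff_isRoot.mpr hPa
      rw [map_mul, Polynomial.aeval_sub, Polynomial.aeval_X, Polynomial.aeval_C] at hP0 hprod
      have hQ0 : Polynomial.aeval t Q ≠ 0 := right_ne_zero_of_mul hP0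
      have hQnn : 0 ≤ h78_ordOf (σ x₀) (Polynomial.aeval t Q) := by
        have htnn : t = 0 ∨ 0 ≤ h78_ordOf (σ x₀) t := by
          by_cases ha : a = 0
          · right
            have := hEt x₀
            rw [ha, map_zero, sub_zero] at this hta0
            rw [h78_ordOf_of_ne _ hta0, this]
            positivity
          · right
            have ht0 : t ≠ 0 := by
              rintro rfl
              exact ht (isAlgebraic_zero)
            have h1 := (hw x₀).map_add (t - algebraMap K F a) (algebraMap K F a) hta0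
              ((map_ne_zero (algebraMap K F)).mpr ha) (by rwa [sub_add_cancel])
            rw [sub_add_cancel, (hw x₀).map_algebraMap a ha, h78_ordOf_of_ne _ hta0, hEt x₀] at h1
            have h2 : min (E : ℤ) 0 = 0 := min_eq_right (by positivity)
            rw [h2] at h1
            exact h1
        have hint : IsIntegral (Algebra.adjoin K {t}) (Polynomial.aeval t Q) := by
          have hmem : Polynomial.aeval t Q ∈ Algebra.adjoin K {t} := by
            rw [Algebra.adjoin_singleton_eq_range_aeval]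
            exact ⟨Q, rfl⟩
          exact isIntegral_algebraMap (R := Algebra.adjoin K {t}) (A := F)
            (x := ⟨Polynomial.aeval t Q, hmem⟩)
        rcases (hw x₀).nonneg_of_isIntegral htnn hint with h0 | h0
        · exact absurd h0 hQ0
        · exact h0
      have hsumord : ∑ x, (σ x h).order = E + (σ x₀ (Polynomial.aeval t Q)).order := by
        rw [← h78_order_prod Finset.univ σ hh0, ← hprod, map_mul,
          HahnSeries.order_mul ((map_ne_zero (σ x₀)).mpr hta0) ((map_ne_zero (σ x₀)).mpr hQ0),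
          hEt x₀]
      rw [h78_ordOf_of_ne _ hQ0] at hQnn
      by_contra hcon
      push Not at hcon
      have hle : ∑ x, (σ x h).order ≤ 0 := Finset.sum_nonpos fun x _ => by
        have := hcon x
        rwa [h78_ordOf_of_ne _ hh0] at this
      have hEpos : (0 : ℤ) < E := by exact_mod_cast hE
      omega)
    (Module.finrank K⟮t⟯ F) hcard.le
    (by
      rw [hset]
      exact s.finite_toSet)
    (by
      rw [hset, finsum_mem_coe_finset]
      exact hsum) v hv
  refine ⟨x, fun f hf => ?_⟩
  have := hx f hf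
  rw [h78_ordOf_of_ne _ hf] at this
  exact this

/-- **Order formula over `t = ∞` from a family of embeddings** (companion of
`h78_card_fibre_infty_of_family`): here `σ x t` has order `-E`. -/
theorem h36_ord_fibre_infty_of_family [IsAlgClosed K] (t : F) (ht : Transcendental K t)
    [hfd : FiniteDimensional K⟮t⟯ F]
    {G X : Type*} [Group G] [MulAction G X] [Fintype X] (g : G)
    (σ : X → F →+* LaurentSeries ℂ) (ι : K →+* ℂ)
    (hσK : ∀ x (c : K), σ x (algebraMap K F c) = HahnSeries.C (ι c))
    (hσt : ∀ x y, σ x t = σ y t)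
    (hσinj : Function.Injective σ)
    (hcard : Fintype.card X = Module.finrank K⟮t⟯ F)
    (E : ℕ) (hE : 0 < E) (hEt : ∀ x, (σ x t).order = -(E : ℤ))
    (hG : ∀ x f, (σ (g • x) f).order = (σ x f).order)
    (hM : ∀ x (f : F), f ≠ 0 →
      (E : ℤ) ∣ (σ x f).order * (Function.minimalPeriod (fun y : X => g • y) x : ℤ))
    (v : Place K F) (hv : v.ord t < 0) :
    ∃ x, ∀ f : F, f ≠ 0 →
      (E : ℤ) * v.ord f
        = (Function.minimalPeriod (fun y : X => g • y) x : ℤ) * (σ x f).order := by
  have ht0 : t ≠ 0 := by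
    rintro rfl
    exact ht isAlgebraic_zero
  have ht' : Transcendental K t⁻¹ := fun h => ht (by simpa using h.inv)
  have hK : K⟮t⁻¹⟯ = K⟮t⟯ := h56_adjoin_inv_eq (K := K) t
  have hfd' : FiniteDimensional K⟮t⁻¹⟯ F := hK.symm ▸ hfd
  have hcard' : Fintype.card X = Module.finrank K⟮t⁻¹⟯ F := by
    rw [hcard]
    exact (h78_finrank_congr hK).symm
  refine h36_ord_fibre_of_family (K := K) t⁻¹ ht' g σ ι hσK
    (fun x y => by rw [map_inv₀, map_inv₀, hσt x y]) hσinj hcard' 0 E hE
    (fun x => by rw [map_zero, sub_zero, h78_order_inv _ ht0, hEt x, neg_neg]) hG hM v ?_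
  rw [map_zero, sub_zero, Place.ord_inv]
  omega

end family

end Fermat.Agent.GAL
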