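import Mathlib
import Fermat.Agent.GAL.h36_CuspK
import Fermat.Agent.GAL.h36_OrdFormula
import Fermat.Agent.S24.h14_CuspOrd
import Fermat.Agent.S24.h71_Degree
import Fermat.Agent.S24.h54_Fibres

/-!
# GAL, analytic layer (ORD dictionary, parts B + C): degree and the order dictionary over `K`

For an algebraically closed field `K` of characteristic zero with an embedding `ι : K →+* ℂ`
(e.g. `K = ℂ`), `F = F_K(N) = gal_F K N`, `j = h78_j K N`, `X = SL(2, ℤ) ⧸ Γ₀(N)`:

* `gal_degree` : `F` is finite over `K(j)` of degree `#X`;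
* `gal_ord_cusp` : every place `v` with `v.ord j < 0` comes from a coset `x`, and
  `N * v.ord f = (size of the T-orbit of x) * ord (gal_psi (out x) f)`;
* `gal_ord_point_aux` : every place `v` over `j = a` comes from a coset `x`, and
  `E * v.ord f = (size of the g-orbit of x) * h54_w ι N τ₀ x f` (`τ₀` above `a`, `g` fixing `τ₀`,
  `E = 3, 2, 1`);
* `gal_ord_point`, `gal_ord_point_1728`, `gal_ord_point_zero` : the three cases;
* `gal_place_cases` : every place is of one of these kinds.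
-/

set_option autoImplicit false

open UpperHalfPlane ModularCurve AlgebraicCurve IntermediateField CongruenceSubgroup
open scoped MatrixGroups

namespace Fermat.Agent.GAL

open Fermat.Agent.S24

section Gen

variable (K : Type*) [Field K] [Algebra ℚ K]

/-- The generators `j(q^d)`, `d ∣ N`, as elements of the function field `F_K(N)`, indexed by the
divisors of `N`. -/
noncomputable def h36_gen (N : ℕ) (d : N.divisors) : gal_F K N :=
  haveI : NeZero (d : ℕ) := ⟨(Nat.pos_of_mem_divisors d.2).ne'⟩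
  ⟨coeffEmb K (qExpand ℚ d jq), h78_mem_of_mem_AN K
    (h78_gens_subset_AN K N (h78_mem_gens K (Nat.dvd_of_mem_divisors d.2)))⟩

theorem h36_gen_mem_ANF (N : ℕ) (d : N.divisors) : h36_gen K N d ∈ h78_ANF K N := by
  have : NeZero (d : ℕ) := ⟨(Nat.pos_of_mem_divisors d.2).ne'⟩
  rw [h78_mem_ANF]
  exact h78_gens_subset_AN K N (h78_mem_gens K (Nat.dvd_of_mem_divisors d.2))

theorem h36_image_gen (N : ℕ) [NeZero N] :
    (laurentBaseChange K (modularFunctionFieldFull N)).val '' Set.range (h36_gen K N)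
      = h78_gens K N := by
  ext x
  constructor
  · rintro ⟨_, ⟨d, rfl⟩, rfl⟩
    have : NeZero (d : ℕ) := ⟨(Nat.pos_of_mem_divisors d.2).ne'⟩
    exact h78_mem_gens K (Nat.dvd_of_mem_divisors d.2)
  · rintro ⟨d, hd, hdN, rfl⟩
    exact ⟨h36_gen K N ⟨d, Nat.mem_divisors.mpr ⟨hdN, NeZero.ne N⟩⟩, ⟨_, rfl⟩, rfl⟩

/-- The function field is generated over `K` by the `h36_gen K N d`. -/
theorem h36_adjoin_gen (N : ℕ) [NeZero N] :
    IntermediateField.adjoin K (Set.range (h36_gen K N)) = ⊤ := by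
  apply IntermediateField.map_injective (laurentBaseChange K (modularFunctionFieldFull N)).val
  rw [IntermediateField.adjoin_map, h36_image_gen, ← h78_baseChange_eq_adjoin,
    ← AlgHom.fieldRange_eq_map, IntermediateField.fieldRange_val]

end Gen

section Cusp

variable {K : Type*} [Field K] [Algebra ℚ K] [IsAlgClosed K] (ι : K →+* ℂ) (N : ℕ) [NeZero N]

/-- The family of cusp expansions indexed by the cosets. -/
noncomputable def h36_cuspSigma (x : SL(2, ℤ) ⧸ Gamma0 N) : gal_F K N →+* LaurentSeries ℂ :=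
  gal_psi ι N (Quotient.out x)

theorem h36_cuspSigma_mk (g : SL(2, ℤ)) :
    h36_cuspSigma ι N (g : SL(2, ℤ) ⧸ Gamma0 N) = gal_psi ι N g :=
  h14_psi_out (ψ := gal_psi ι N) (gal_psi_mul_right ι N) g

theorem h36_cuspSigma_injective : Function.Injective (h36_cuspSigma ι N) := by
  intro x y hxy
  have h := gal_psi_sep ι N hxy
  rwa [QuotientGroup.out_eq', QuotientGroup.out_eq'] at h

/-- **Degree.** `F_K(N)` is finite over `K(j)`, of degree `[SL₂(ℤ) : Γ₀(N)]`; and the norm is the
product of the cusp expansions. -/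
theorem h36_degree_norm [Fintype (SL(2, ℤ) ⧸ Gamma0 N)] :
    FiniteDimensional K⟮h78_j K N⟯ (gal_F K N) ∧
    Module.finrank K⟮h78_j K N⟯ (gal_F K N) = Fintype.card (SL(2, ℤ) ⧸ Gamma0 N) ∧
    ∀ (x₀ : SL(2, ℤ) ⧸ Gamma0 N) (h : gal_F K N),
      h36_cuspSigma ι N x₀ (algebraMap K⟮h78_j K N⟯ (gal_F K N)
        (Algebra.norm K⟮h78_j K N⟯ h)) = ∏ x, h36_cuspSigma ι N x h := by
  have : CharZero K := algebraRat.charZero K
  have hXne : Nonempty (SL(2, ℤ) ⧸ Gamma0 N) := ⟨((1 : SL(2, ℤ)) : SL(2, ℤ) ⧸ Gamma0 N)⟩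
  refine h71_norm_core_ringHom (K := K) (E := K⟮h78_j K N⟯) (h78_ANF K N) (h36_gen K N)
    (h36_gen_mem_ANF K N) (h71_adjoin_eq_top _ (h36_adjoin_gen K N)) (h36_cuspSigma ι N)
    (h36_cuspSigma_injective ι N)
    (fun x y e => h71_agree_on_adjoin (h78_j K N) _ _
      (fun c => by
        show gal_psi ι N _ _ = gal_psi ι N _ _
        rw [gal_psi_const, gal_psi_const])
      (by
        show gal_psi ι N _ _ = gal_psi ι N _ _
        rw [gal_psi_j, gal_psi_j]) e) ?_
  intro a ha
  obtain ⟨P, hP⟩ := gal_psi_prod ι N ⟨(a : LaurentSeries K), ha⟩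
  refine ⟨Polynomial.aeval (IntermediateField.AdjoinSimple.gen K (h78_j K N)) P,
    ((1 : SL(2, ℤ)) : SL(2, ℤ) ⧸ Gamma0 N), ?_⟩
  rw [h36_cuspSigma_mk, ← Polynomial.aeval_algebraMap_apply,
    IntermediateField.AdjoinSimple.algebraMap_gen]
  exact hP

include ι in
/-- **Degree.** `F_K(N)` is finite over `K(j)`. -/
theorem gal_finiteDimensional : FiniteDimensional K⟮h78_j K N⟯ (gal_F K N) := by
  classical
  let _ : Fintype (SL(2, ℤ) ⧸ Gamma0 N) := Fintype.ofFinite _
  exact (h36_degree_norm ι N).1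

include ι in
/-- **Degree.** `[F_K(N) : K(j)] = [SL₂(ℤ) : Γ₀(N)]`. -/
theorem gal_finrank :
    Module.finrank K⟮h78_j K N⟯ (gal_F K N) = Nat.card (SL(2, ℤ) ⧸ Gamma0 N) := by
  classical
  let _ : Fintype (SL(2, ℤ) ⧸ Gamma0 N) := Fintype.ofFinite _
  rw [(h36_degree_norm ι N).2.1, Nat.card_eq_fintype_card]

/-- **Order dictionary at the cusps.**  Every place `v` of `F_K(N)` over `j = ∞` comes from a
coset `x`: `N * v.ord f = (size of the T-orbit of x) * ord (q_N-expansion of the x-conjugate)`. -/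
theorem gal_ord_cusp (v : Place K (gal_F K N)) (hv : v.ord (h78_j K N) < 0) :
    ∃ x : SL(2, ℤ) ⧸ Gamma0 N, ∀ f : gal_F K N, f ≠ 0 →
      (N : ℤ) * v.ord f
        = (Function.minimalPeriod (fun y : SL(2, ℤ) ⧸ Gamma0 N => ModularGroup.T • y) x : ℤ)
          * (gal_psi ι N (Quotient.out x) f).order := by
  classical
  have : CharZero K := algebraRat.charZero K
  let _ : Fintype (SL(2, ℤ) ⧸ Gamma0 N) := Fintype.ofFinite _
  have := gal_finiteDimensional ι N
  have hrank := (h36_degree_norm ι N).2.1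
  exact h36_ord_fibre_infty_of_family (K := K) (h78_j K N) (h78_j_transcendental K N)
    ModularGroup.T (h36_cuspSigma ι N) ι (fun x c => gal_psi_const ι N _ c)
    (fun x y => by
      show gal_psi ι N _ _ = gal_psi ι N _ _
      rw [gal_psi_j, gal_psi_j])
    (h36_cuspSigma_injective ι N) hrank.symm N (Nat.pos_of_ne_zero (NeZero.ne N))
    (fun x => gal_psi_j_order ι N _)
    (fun x f => h14_cuspW_T_smul (ψ := gal_psi ι N) (ζ := h83_zeta N) (h83_zeta_ne_zero N)
      (gal_psi_mul_right ι N) (gal_psi_T_mul_coeff ι N) x f)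
    (fun x f hf => by
      have h1 := h14_cuspW_dvd (ψ := gal_psi ι N) (ζ := h83_zeta N) (h83_zeta_zpow_eq_one N)
        (gal_psi_mul_right ι N) (gal_psi_T_mul_coeff ι N) x hf
      have h2 := h14_div_mul_minimalPeriod N x
      have h3 : ((N : ℕ) : ℤ) = ((N / Function.minimalPeriod
          (fun y : SL(2, ℤ) ⧸ Gamma0 N => ModularGroup.T • y) x : ℕ) : ℤ) *
          (Function.minimalPeriod (fun y : SL(2, ℤ) ⧸ Gamma0 N => ModularGroup.T • y) x : ℤ) := by
        exact_mod_cast h2.symm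
      rw [h3]
      exact mul_dvd_mul_right h1 _) v hv

end Cusp

section Point

variable {K : Type*} [Field K] [Algebra ℚ K] [IsAlgClosed K] (ι : K →+* ℂ) (N : ℕ) [NeZero N]

/-- **Order dictionary at the points of `ℍ`** (general form): `τ₀` above `a`, `g` fixing `τ₀`,
and the divisibility (M). -/
theorem gal_ord_point_aux (a : K) (τ₀ : ℍ) (hτ : h77_j τ₀ = ι a)
    (g : SL(2, ℤ)) (hg : g • τ₀ = τ₀)
    (hM : ∀ (x : SL(2, ℤ) ⧸ Gamma0 N) (f : gal_F K N),
      f ≠ 0 → (((if ι a = 0 then 3 else if ι a = 1728 then 2 else 1 : ℕ) : ℤ)) ∣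
        h54_w ι N τ₀ x f * (Function.minimalPeriod
          (fun y : SL(2, ℤ) ⧸ Gamma0 N => g • y) x : ℤ))
    (v : Place K (gal_F K N))
    (hv : 0 < v.ord (h78_j K N - algebraMap K (gal_F K N) a)) :
    ∃ x : SL(2, ℤ) ⧸ Gamma0 N, ∀ f : gal_F K N, f ≠ 0 →
      (((if ι a = 0 then 3 else if ι a = 1728 then 2 else 1 : ℕ) : ℤ)) * v.ord f
        = (Function.minimalPeriod (fun y : SL(2, ℤ) ⧸ Gamma0 N => g • y) x : ℤ)
          * h54_w ι N τ₀ x f := by
  classical
  have : CharZero K := algebraRat.charZero K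
  let _ : Fintype (SL(2, ℤ) ⧸ Gamma0 N) := Fintype.ofFinite _
  have := gal_finiteDimensional ι N
  have hrank := (h36_degree_norm ι N).2.1
  exact h36_ord_fibre_of_family (K := K) (h78_j K N) (h78_j_transcendental K N) g
    (h54_sigma ι N τ₀) ι (fun x c => h54_sigma_const ι N τ₀ x c)
    (fun x y => by rw [h54_sigma_j, h54_sigma_j])
    (h54_sigma_injective ι N τ₀) hrank.symm a
    (if ι a = 0 then 3 else if ι a = 1728 then 2 else 1) (by split_ifs <;> norm_num)
    (fun x => by
      have := h54_w_j_sub_of_eq ι N τ₀ x a hτ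
      unfold h54_w at this
      rw [this]
      split_ifs <;> rfl)
    (fun x f => h54_ptX_order_smul_of_fixed (h54_evData ι N) g τ₀ hg x f)
    hM v hv

/-- **Order dictionary at a point** above `a` with `ι a ≠ 0, 1728`: `v.ord f` is the order at
`τ₀` of the `x`-conjugate. -/
theorem gal_ord_point (a : K) (τ₀ : ℍ) (hτ : h77_j τ₀ = ι a) (h0 : ι a ≠ 0) (h1 : ι a ≠ 1728)
    (v : Place K (gal_F K N))
    (hv : 0 < v.ord (h78_j K N - algebraMap K (gal_F K N) a)) :
    ∃ x : SL(2, ℤ) ⧸ Gamma0 N, ∀ f : gal_F K N, f ≠ 0 → v.ord f = h54_w ι N τ₀ x f := by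
  obtain ⟨x, hx⟩ := gal_ord_point_aux ι N a τ₀ hτ 1 (one_smul _ _)
    (fun x f _ => by rw [if_neg h0, if_neg h1]; exact one_dvd _) v hv
  refine ⟨x, fun f hf => ?_⟩
  have h := hx f hf
  rw [if_neg h0, if_neg h1] at h
  have hper : Function.minimalPeriod (fun y : SL(2, ℤ) ⧸ Gamma0 N => (1 : SL(2, ℤ)) • y) x = 1 :=
    Function.minimalPeriod_eq_one_iff_isFixedPt.mpr (one_smul _ x)
  rw [hper] at h
  simpa using h

/-- **Order dictionary over `j = 1728`** (`τ₀ = i`, `g = S`). -/
theorem gal_ord_point_1728 (a : K) (ha : ι a = 1728) (v : Place K (gal_F K N))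
    (hv : 0 < v.ord (h78_j K N - algebraMap K (gal_F K N) a)) :
    ∃ x : SL(2, ℤ) ⧸ Gamma0 N, ∀ f : gal_F K N, f ≠ 0 →
      (2 : ℤ) * v.ord f
        = (Function.minimalPeriod (fun y : SL(2, ℤ) ⧸ Gamma0 N => ModularGroup.S • y) x : ℤ)
          * h54_w ι N UpperHalfPlane.I x f := by
  have hτ : h77_j UpperHalfPlane.I = ι a := by
    rw [ha]; exact h39_jfun_I
  have h0 : ι a ≠ 0 := by rw [ha]; norm_num
  obtain ⟨x, hx⟩ := gal_ord_point_aux ι N a UpperHalfPlane.I hτ ModularGroup.S h54_S_smul_I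
    (fun x f hf => by
      rw [if_neg h0, if_pos ha]
      have hper : Function.IsPeriodicPt
          (fun y : SL(2, ℤ) ⧸ Gamma0 N => ModularGroup.S • y) 2 x := by
        show (fun y : SL(2, ℤ) ⧸ Gamma0 N => ModularGroup.S • y)^[2] x = x
        rw [smul_iterate, h29_S_sq]
        exact h29_neg_one_smul N x
      have hdvd := hper.minimalPeriod_dvd
      rcases (Nat.dvd_prime Nat.prime_two).mp hdvd with h1 | h2
      · have hfix : ModularGroup.S • x = x := Function.minimalPeriod_eq_one_iff_isFixedPt.mp h1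
        exact Dvd.dvd.mul_right (h54_w_two_dvd ι N x hfix hf) _
      · rw [h2]
        exact dvd_mul_left _ _) v hv
  refine ⟨x, fun f hf => ?_⟩
  have h := hx f hf
  rw [if_neg h0, if_pos ha] at h
  exact_mod_cast h

/-- **Order dictionary over `j = 0`** (`τ₀ = ρ`, `g = S T`). -/
theorem gal_ord_point_zero (a : K) (ha : ι a = 0) (v : Place K (gal_F K N))
    (hv : 0 < v.ord (h78_j K N - algebraMap K (gal_F K N) a)) :
    ∃ x : SL(2, ℤ) ⧸ Gamma0 N, ∀ f : gal_F K N, f ≠ 0 →
      (3 : ℤ) * v.ord f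
        = (Function.minimalPeriod
            (fun y : SL(2, ℤ) ⧸ Gamma0 N => (ModularGroup.S * ModularGroup.T) • y) x : ℤ)
          * h54_w ι N ρ x f := by
  have hτ : h77_j ρ = ι a := by
    rw [ha]; exact h39_jfun_rho
  obtain ⟨x, hx⟩ := gal_ord_point_aux ι N a ρ hτ (ModularGroup.S * ModularGroup.T)
    h54_ST_smul_rho
    (fun x f hf => by
      rw [if_pos ha]
      have hper : Function.IsPeriodicPt
          (fun y : SL(2, ℤ) ⧸ Gamma0 N =>
            (ModularGroup.S * ModularGroup.T) • y) 3 x := by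
        show (fun y : SL(2, ℤ) ⧸ Gamma0 N =>
            (ModularGroup.S * ModularGroup.T) • y)^[3] x = x
        rw [smul_iterate, h29_ST_cube]
        exact h29_neg_one_smul N x
      have hdvd := hper.minimalPeriod_dvd
      rcases (Nat.dvd_prime Nat.prime_three).mp hdvd with h1 | h3
      · have hfix : (ModularGroup.S * ModularGroup.T) • x = x :=
          Function.minimalPeriod_eq_one_iff_isFixedPt.mp h1
        exact Dvd.dvd.mul_right (h54_w_three_dvd ι N x hfix hf) _
      · rw [h3]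
        exact dvd_mul_left _ _) v hv
  refine ⟨x, fun f hf => ?_⟩
  have h := hx f hf
  rw [if_pos ha] at h
  exact_mod_cast h

end Point

end Fermat.Agent.GAL
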