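import Mathlib
import Fermat.Agent.GAL.h36_DegK
import Fermat.Agent.GAL.h55_UChi
import Fermat.Agent.S24.h35_PlaceBasic

/-!
# GAL, analytic layer (ORD dictionary, part E): divisibility of the divisor of an `n`-th power

`K` algebraically closed with `ι : K →+* ℂ` (e.g. `K = ℂ`).  If `f ∈ F_K(N)` is analytically the
`n`-th power `U ^ n` of a good `χ`-automorphic function `U` (`h55_Aut N χ U`), where the
character `χ` of `Γ₀(N)` is trivial on the parabolic elements and on the elements of finite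
order, then

  `n ∣ P.ord f`  for every place `P` of `F_K(N) / K`

(`gal_ord_dvd`).  This is the hypothesis of the descent `h22_desc`.
-/

set_option autoImplicit false

open UpperHalfPlane ModularCurve AlgebraicCurve IntermediateField CongruenceSubgroup
open scoped MatrixGroups Manifold

namespace Fermat.Agent.GAL

open Fermat.Agent.S24

/-! ### Every place lies over a point of the `j`-line or over `∞` -/

section Cases

variable {K : Type*} [Field K] [Algebra ℚ K] [IsAlgClosed K] (ι : K →+* ℂ) (N : ℕ) [NeZero N]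

include ι in
/-- Every place of `F_K(N)` is a pole of `j` or a zero of `j - a` for some `a ∈ K`. -/
theorem gal_place_cases (v : Place K (gal_F K N)) :
    v.ord (h78_j K N) < 0 ∨ ∃ a : K, 0 < v.ord (h78_j K N - algebraMap K (gal_F K N) a) := by
  by_cases h : v.ord (h78_j K N) < 0
  · exact Or.inl h
  · right
    have := gal_finiteDimensional ι N
    have : Algebra.IsAlgebraic K⟮h78_j K N⟯ (gal_F K N) := Algebra.IsAlgebraic.of_finite _ _
    have hj0 : h78_j K N ≠ 0 := by
      intro h0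
      exact h78_j_transcendental K N (h0 ▸ isAlgebraic_zero)
    exact h35_exists_value_of_transcendental v (h78_j_transcendental K N)
      ((h35_mem_iff_ord_nonneg v hj0).mpr (not_lt.mp h))

end Cases

/-! ### Automorphy under conjugates -/

section Aut

variable {N : ℕ} {χ : ↥(Gamma0 N) →* ℂˣ} {U : ℍ → ℂ}

/-- If `g⁻¹ s g ∈ Γ₀(N)` and `χ (g⁻¹ s g) = 1` then `U ∘ g⁻¹` is `s`-invariant. -/
theorem h36_aut_conj (hU : h55_Aut N χ U) (g s : SL(2, ℤ)) (hmem : g⁻¹ * s * g ∈ Gamma0 N)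
    (hχ : χ ⟨g⁻¹ * s * g, hmem⟩ = 1) (z : ℍ) : U (g⁻¹ • s • z) = U (g⁻¹ • z) := by
  have h1 : g⁻¹ • s • z = (g⁻¹ * s * g) • (g⁻¹ • z) := by
    simp only [← mul_smul]
    congr 1
    group
  rw [h1]
  have h2 := hU.2.1 ⟨g⁻¹ * s * g, hmem⟩ (g⁻¹ • z)
  rw [hχ] at h2
  simpa using h2

theorem h36_conj_mem_of_fixed (g s : SL(2, ℤ))
    (hfix : s • (g : SL(2, ℤ) ⧸ Gamma0 N) = g) : g⁻¹ * s * g ∈ Gamma0 N := by
  have h1 : ((s * g : SL(2, ℤ)) : SL(2, ℤ) ⧸ Gamma0 N) = g := hfix
  have h2 := QuotientGroup.eq.mp h1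
  have h3 := inv_mem h2
  simpa [mul_assoc] using h3

theorem h36_conj_pow_eq_one (g s : SL(2, ℤ)) {k : ℕ} (hs : s ^ k = 1) :
    (g⁻¹ * s * g) ^ k = 1 := by
  have h : g⁻¹ * s * g = g⁻¹ * s * (g⁻¹)⁻¹ := by rw [inv_inv]
  rw [h, conj_pow, hs, mul_one, mul_inv_cancel]

/-- `U ∘ g⁻¹` is invariant under an element `s` of finite order fixing the coset of `g`, if `χ`
is trivial on the elements of finite order. -/
theorem h36_aut_elliptic (hU : h55_Aut N χ U)
    (hfin : ∀ γ : ↥(Gamma0 N), IsOfFinOrder γ → χ γ = 1)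
    (g s : SL(2, ℤ)) {k : ℕ} (hk : 0 < k) (hs : s ^ k = 1)
    (hfix : s • (g : SL(2, ℤ) ⧸ Gamma0 N) = g) (z : ℍ) :
    U (g⁻¹ • s • z) = U (g⁻¹ • z) := by
  have hmem := h36_conj_mem_of_fixed g s hfix
  refine h36_aut_conj hU g s hmem (hfin _ ?_) z
  rw [isOfFinOrder_iff_pow_eq_one]
  refine ⟨k, hk, Subtype.ext ?_⟩
  rw [Subgroup.coe_pow]
  exact h36_conj_pow_eq_one g s hs

/-- `U ∘ g⁻¹` is invariant under the power `T ^ m` fixing the coset of `g`, if `χ` is trivial on
the parabolic elements. -/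
theorem h36_aut_parabolic (hU : h55_Aut N χ U)
    (hpar : ∀ γ : ↥(Gamma0 N), ((γ : SL(2, ℤ)) : Matrix (Fin 2) (Fin 2) ℤ).trace ^ 2 = 4 →
      χ γ = 1)
    (g : SL(2, ℤ)) (m : ℕ)
    (hfix : (ModularGroup.T ^ m) • (g : SL(2, ℤ) ⧸ Gamma0 N) = g) (z : ℍ) :
    U (g⁻¹ • (ModularGroup.T ^ m) • z) = U (g⁻¹ • z) := by
  have hmem := h36_conj_mem_of_fixed g (ModularGroup.T ^ m) hfix
  refine h36_aut_conj hU g (ModularGroup.T ^ m) hmem (hpar _ ?_) z
  have h := h55_trace_conj_T g⁻¹ m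
  rw [inv_inv] at h
  show ((g⁻¹ * ModularGroup.T ^ m * g : SL(2, ℤ)) : Matrix (Fin 2) (Fin 2) ℤ).trace ^ 2 = 4
  rw [h]
  norm_num

end Aut

/-! ### Periodicity and the support of a `q_N`-expansion -/

/-- If `V` has the `q_N`-expansion `c` and `V (τ + m) = V τ`, then `c` is supported on the
exponents `k` with `N ∣ m * k`. -/
theorem h36_dvd_of_periodic {N : ℕ} [NeZero N] {c : LaurentSeries ℂ} {V : ℍ → ℂ}
    (hc : h77_IsQExp (N : ℝ) c V) (m : ℕ) (hper : ∀ τ : ℍ, V ((m : ℝ) +ᵥ τ) = V τ) (k : ℤ)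
    (hk : c.coeff k ≠ 0) : (N : ℤ) ∣ (m : ℤ) * k := by
  have hN : (0 : ℝ) < N := by exact_mod_cast Nat.pos_of_ne_zero (NeZero.ne N)
  have h1 := h83_isQExp_vadd hc (m : ℝ)
  have h2 : h83_twist (Complex.exp (2 * Real.pi * Complex.I * ((m : ℝ) : ℂ) / ((N : ℝ) : ℂ))) c
      = c := h77_IsQExp.unique hN (h1.congr hper) hc
  have h3 := congrArg (fun x : LaurentSeries ℂ => x.coeff k) h2
  simp only [h83_twist_coeff] at h3
  have h4 : Complex.exp (2 * Real.pi * Complex.I * ((m : ℝ) : ℂ) / ((N : ℝ) : ℂ)) ^ k = 1 := by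
    have : c.coeff k *
        (Complex.exp (2 * Real.pi * Complex.I * ((m : ℝ) : ℂ) / ((N : ℝ) : ℂ)) ^ k - 1) = 0 := by
      rw [mul_sub, h3, mul_one, sub_self]
    rcases mul_eq_zero.mp this with h | h
    · exact absurd h hk
    · exact sub_eq_zero.mp h
  rw [← Complex.exp_int_mul, Complex.exp_eq_one_iff] at h4
  obtain ⟨j, hj⟩ := h4
  have hN' : (N : ℂ) ≠ 0 := by exact_mod_cast NeZero.ne N
  have hpi : (2 * Real.pi * Complex.I : ℂ) ≠ 0 := Complex.two_pi_I_ne_zero
  refine ⟨j, ?_⟩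
  have h5 : (2 * Real.pi * Complex.I : ℂ) * ((m : ℂ) * (k : ℂ))
      = (2 * Real.pi * Complex.I) * ((N : ℂ) * (j : ℂ)) := by
    have h6 : (k : ℂ) * (2 * Real.pi * Complex.I * ((m : ℝ) : ℂ) / ((N : ℝ) : ℂ)) * (N : ℂ)
        = (j : ℂ) * (2 * Real.pi * Complex.I) * (N : ℂ) := by rw [hj]
    have h7 : (k : ℂ) * (2 * Real.pi * Complex.I * ((m : ℝ) : ℂ) / ((N : ℝ) : ℂ)) * (N : ℂ)
        = (2 * Real.pi * Complex.I) * ((m : ℂ) * (k : ℂ)) := by
      push_cast
      field_simp
    rw [h7] at h6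
    rw [h6]
    ring
  have h8 : (((m : ℤ) * k : ℤ) : ℂ) = (((N : ℤ) * j : ℤ) : ℂ) := by
    push_cast
    exact mul_left_cancel₀ hpi h5
  exact_mod_cast h8

/-! ### Taylor expansions of powers -/

theorem h36_taylor_pow {V : ℍ → ℂ} (hV : MDiff V) (τ₀ : ℍ) (n : ℕ) :
    h54_taylor τ₀ (V ^ n) = h54_taylor τ₀ V ^ n := by
  induction n with
  | zero =>
    rw [pow_zero, pow_zero]
    exact h54_taylor_one τ₀
  | succ k ih =>
    rw [pow_succ, pow_succ, h54_taylor_mul (hV.pow k) hV, ih]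

/-! ### The main theorem -/

section Main

variable {K : Type*} [Field K] [Algebra ℚ K] [IsAlgClosed K] (ι : K →+* ℂ) (N : ℕ) [NeZero N]

section Local

variable {ι N}
variable {n : ℕ} {χ : ↥(Gamma0 N) →* ℂˣ} {U : ℍ → ℂ} (hU : h55_Aut N χ U)
  {f : gal_F K N} {a b : h78_AN K N} (hb : b ≠ 0)
  (hfab : f * algebraMap (h78_AN K N) (gal_F K N) b = algebraMap (h78_AN K N) (gal_F K N) a)
  (hev : ∀ τ, h54_ev ι N a τ = U τ ^ n * h54_ev ι N b τ)

include hU hb hfab hev

omit [IsAlgClosed K] [NeZero N] in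
/-- The local expansion at `τ₀` of the `g`-conjugate of `f` is the `n`-th power of the Taylor
series of `U ∘ g⁻¹`. -/
theorem h36_pt_eq_pow (g : SL(2, ℤ)) (τ₀ : ℍ) :
    h54_pt (F := gal_F K N) (h54_evData ι N) g τ₀ f
      = h54_ofPS (h54_taylor τ₀ (fun z => U (g⁻¹ • z))) ^ n := by
  have hV : MDiff (fun z : ℍ => U (g⁻¹ • z)) := h54_mdiff_comp_smul hU.1 g⁻¹
  have hbm : MDiff (fun z : ℍ => h54_ev ι N b (g⁻¹ • z)) :=
    h54_mdiff_comp_smul (h54_ev_mdiff ι N b) g⁻¹
  have hb' : algebraMap (h78_AN K N) (gal_F K N) b ≠ 0 := by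
    intro h0
    exact hb ((injective_iff_map_eq_zero (algebraMap (h78_AN K N) (gal_F K N))).mp
      (IsFractionRing.injective (h78_AN K N) (gal_F K N)) b h0)
  have hfun : (fun z : ℍ => h54_ev ι N a (g⁻¹ • z))
      = (fun z : ℍ => U (g⁻¹ • z)) ^ n * (fun z : ℍ => h54_ev ι N b (g⁻¹ • z)) := by
    funext z
    rw [Pi.mul_apply, Pi.pow_apply]
    exact hev _
  have ha : h54_pt (F := gal_F K N) (h54_evData ι N) g τ₀
        (algebraMap (h78_AN K N) (gal_F K N) a)
      = h54_ofPS (h54_taylor τ₀ (fun z => U (g⁻¹ • z))) ^ n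
        * h54_pt (F := gal_F K N) (h54_evData ι N) g τ₀
          (algebraMap (h78_AN K N) (gal_F K N) b) := by
    rw [h54_pt_algebraMap, h54_pt_algebraMap, hfun, h54_taylor_mul (hV.pow n) hbm,
      h36_taylor_pow hV, map_mul, map_pow]
  have h1 := congrArg (h54_pt (F := gal_F K N) (h54_evData ι N) g τ₀) hfab
  rw [map_mul, ha] at h1
  exact mul_right_cancel₀ ((map_ne_zero _).mpr hb') h1

omit [IsAlgClosed K] [NeZero N] in
/-- The order at `τ₀` of the `x`-conjugate of `f` is `n` times the order of `U ∘ g⁻¹`. -/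
theorem h36_w_eq (τ₀ : ℍ) (x : SL(2, ℤ) ⧸ Gamma0 N) :
    h54_w ι N τ₀ x f
      = (n : ℤ) * (h54_ofPS (h54_taylor τ₀ (fun z => U ((Quotient.out x)⁻¹ • z)))).order := by
  unfold h54_w h54_sigma h54_ptX
  rw [h36_pt_eq_pow hU hb hfab hev, HahnSeries.order_pow, nsmul_eq_mul]

omit [IsAlgClosed K] [NeZero N] hU in
/-- `U` is not identically zero if `f ≠ 0` (and `n ≠ 0`). -/
theorem h36_U_ne_zero (hn : n ≠ 0) (hf : f ≠ 0) (g : SL(2, ℤ)) :
    (fun z : ℍ => U (g⁻¹ • z)) ≠ 0 := by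
  intro h0
  have ha0 : a = 0 := by
    apply h54_ev_injective ι N
    rw [map_zero]
    funext τ
    have h1 := congrFun h0 (g • τ)
    simp only [inv_smul_smul, Pi.zero_apply] at h1
    rw [hev τ, h1, zero_pow hn, zero_mul]
    rfl
  rw [ha0, map_zero] at hfab
  have hb' : algebraMap (h78_AN K N) (gal_F K N) b ≠ 0 := by
    intro h0
    exact hb ((injective_iff_map_eq_zero (algebraMap (h78_AN K N) (gal_F K N))).mp
      (IsFractionRing.injective (h78_AN K N) (gal_F K N)) b h0)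
  rcases mul_eq_zero.mp hfab with h | h
  · exact hf h
  · exact hb' h

omit hU in
/-- The cusp expansion of the `g`-conjugate of `f` is the `n`-th power of the `q_N`-expansion of
`U ∘ g⁻¹`. -/
theorem h36_psi_eq_pow (g : SL(2, ℤ)) {c : LaurentSeries ℂ}
    (hc : h77_IsQExp (N : ℝ) c (fun τ => U (g⁻¹ • τ))) :
    gal_psi ι N g f = c ^ n := by
  have hb' : algebraMap (h78_AN K N) (gal_F K N) b ≠ 0 := by
    intro h0
    exact hb ((injective_iff_map_eq_zero (algebraMap (h78_AN K N) (gal_F K N))).mp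
      (IsFractionRing.injective (h78_AN K N) (gal_F K N)) b h0)
  have ha : gal_psi ι N g (algebraMap (h78_AN K N) (gal_F K N) a)
      = c ^ n * gal_psi ι N g (algebraMap (h78_AN K N) (gal_F K N) b) := by
    apply gal_psi_eq
    refine ((hc.pow n).mul (gal_psi_spec ι N g b)).congr fun τ => ?_
    exact (hev _).symm
  have h1 := congrArg (gal_psi ι N g) hfab
  rw [map_mul, ha] at h1
  exact mul_right_cancel₀ ((map_ne_zero _).mpr hb') h1

end Local

/-- **Divisibility of the divisor of an `n`-th power** (fraction form).  `f = a / b` with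
`a, b ∈ A_N` and `ev a = U ^ n * ev b` for a good `χ`-automorphic `U`, `χ` trivial on parabolic
and finite order elements: then `n ∣ P.ord f` at every place `P` of `F_K(N)`. -/
theorem gal_ord_dvd_of_frac (n : ℕ) (hn : 0 < n) (χ : ↥(Gamma0 N) →* ℂˣ)
    (hpar : ∀ γ : ↥(Gamma0 N), ((γ : SL(2, ℤ)) : Matrix (Fin 2) (Fin 2) ℤ).trace ^ 2 = 4 →
      χ γ = 1)
    (hfin : ∀ γ : ↥(Gamma0 N), IsOfFinOrder γ → χ γ = 1)
    (U : ℍ → ℂ) (hU : h55_Aut N χ U)
    (f : gal_F K N) (a b : h78_AN K N) (hb : b ≠ 0)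
    (hfab : f * algebraMap (h78_AN K N) (gal_F K N) b = algebraMap (h78_AN K N) (gal_F K N) a)
    (hev : ∀ τ, h54_ev ι N a τ = U τ ^ n * h54_ev ι N b τ)
    (P : Place K (gal_F K N)) : (n : ℤ) ∣ P.ord f := by
  classical
  by_cases hf : f = 0
  · rw [hf, Place.ord_zero]
    exact dvd_zero _
  rcases gal_place_cases ι N P with hcusp | ⟨a₀, ha₀⟩
  · -- a cusp
    obtain ⟨x, hx⟩ := gal_ord_cusp ι N P hcusp
    have h1 := hx f hf
    obtain ⟨c, hc⟩ := hU.2.2 (Quotient.out x)⁻¹
    have hψ := h36_psi_eq_pow hb hfab hev (Quotient.out x) hc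
    rw [hψ, HahnSeries.order_pow, nsmul_eq_mul] at h1
    have hc0 : c ≠ 0 := by
      intro h0
      have : gal_psi ι N (Quotient.out x) f = 0 := by rw [hψ, h0, zero_pow hn.ne']
      exact hf ((map_eq_zero _).mp this)
    have hcoeff : c.coeff c.order ≠ 0 := fun h0 => hc0 (HahnSeries.coeff_order_eq_zero.mp h0)
    have hfix : (ModularGroup.T ^ Function.minimalPeriod
        (fun y : SL(2, ℤ) ⧸ Gamma0 N => ModularGroup.T • y) x) •
          (((Quotient.out x : SL(2, ℤ)) : SL(2, ℤ) ⧸ Gamma0 N)) = (Quotient.out x : SL(2, ℤ)) := by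
      rw [QuotientGroup.out_eq']
      exact h14_T_pow_minimalPeriod_smul N x
    have hper : ∀ τ : ℍ, (fun τ : ℍ => U ((Quotient.out x)⁻¹ • τ))
        (((Function.minimalPeriod (fun y : SL(2, ℤ) ⧸ Gamma0 N => ModularGroup.T • y) x : ℕ)
          : ℝ) +ᵥ τ) = (fun τ : ℍ => U ((Quotient.out x)⁻¹ • τ)) τ := by
      intro τ
      have h2 := h36_aut_parabolic hU hpar (Quotient.out x) _ hfix τ
      have h3 := UpperHalfPlane.modular_T_zpow_smul τ
        ((Function.minimalPeriod (fun y : SL(2, ℤ) ⧸ Gamma0 N => ModularGroup.T • y) x : ℕ) : ℤ)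
      rw [zpow_natCast] at h3
      rw [h3] at h2
      simpa using h2
    obtain ⟨e, he⟩ := h36_dvd_of_periodic hc _ hper c.order hcoeff
    refine ⟨e, ?_⟩
    have hN : (N : ℤ) ≠ 0 := by exact_mod_cast NeZero.ne N
    have h5 : (N : ℤ) * P.ord f = (N : ℤ) * ((n : ℤ) * e) := by
      rw [h1]
      linear_combination (n : ℤ) * he
    exact mul_left_cancel₀ hN h5
  · -- a point of the upper half plane
    by_cases h0 : ι a₀ = 0
    · -- over `j = 0`: `τ₀ = ρ`
      obtain ⟨x, hx⟩ := gal_ord_point_zero ι N a₀ h0 P ha₀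
      have h1 := hx f hf
      rw [h36_w_eq hU hb hfab hev] at h1
      have hV : MDiff (fun z : ℍ => U ((Quotient.out x)⁻¹ • z)) :=
        h54_mdiff_comp_smul hU.1 (Quotient.out x)⁻¹
      have hV0 := h36_U_ne_zero hb hfab hev hn.ne' hf (Quotient.out x)
      have htay : h54_taylor ρ (fun z => U ((Quotient.out x)⁻¹ • z)) ≠ 0 :=
        fun h => hV0 ((h54_taylor_eq_zero_iff hV ρ).mp h)
      rw [h54_order_ofPS htay] at h1
      have hper : Function.IsPeriodicPt
          (fun y : SL(2, ℤ) ⧸ Gamma0 N => (ModularGroup.S * ModularGroup.T) • y) 3 x := by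
        show (fun y : SL(2, ℤ) ⧸ Gamma0 N => (ModularGroup.S * ModularGroup.T) • y)^[3] x = x
        rw [smul_iterate, h29_ST_cube]
        exact h29_neg_one_smul N x
      rcases (Nat.dvd_prime Nat.prime_three).mp hper.minimalPeriod_dvd with hm1 | hm3
      · have hfix : (ModularGroup.S * ModularGroup.T) • x = x :=
          Function.minimalPeriod_eq_one_iff_isFixedPt.mp hm1
        have hfix' : (ModularGroup.S * ModularGroup.T) •
            (((Quotient.out x : SL(2, ℤ)) : SL(2, ℤ) ⧸ Gamma0 N)) = (Quotient.out x : SL(2, ℤ)) := by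
          rw [QuotientGroup.out_eq']
          exact hfix
        have h6 : (ModularGroup.S * ModularGroup.T) ^ 6 = 1 := by
          have h : (ModularGroup.S * ModularGroup.T) ^ 6
              = ((ModularGroup.S * ModularGroup.T) ^ 3) ^ 2 := by rw [← pow_mul]
          rw [h, h29_ST_cube]
          exact neg_one_sq
        have hinv := h36_aut_elliptic hU hfin (Quotient.out x) _ (by norm_num : 0 < 6) h6 hfix'
        have hd := h54_three_dvd_order_rho hV hV0 hinv
        rw [h54_rho_eq] at hd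
        obtain ⟨e, he⟩ := hd
        rw [hm1, he] at h1
        refine ⟨e, ?_⟩
        push_cast at h1
        linarith
      · rw [hm3] at h1
        refine ⟨((h54_taylor ρ (fun z => U ((Quotient.out x)⁻¹ • z))).order.toNat : ℤ), ?_⟩
        push_cast at h1
        linarith
    · by_cases h1728 : ι a₀ = 1728
      · -- over `j = 1728`: `τ₀ = i`
        obtain ⟨x, hx⟩ := gal_ord_point_1728 ι N a₀ h1728 P ha₀
        have h1 := hx f hf
        rw [h36_w_eq hU hb hfab hev] at h1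
        have hV : MDiff (fun z : ℍ => U ((Quotient.out x)⁻¹ • z)) :=
          h54_mdiff_comp_smul hU.1 (Quotient.out x)⁻¹
        have hV0 := h36_U_ne_zero hb hfab hev hn.ne' hf (Quotient.out x)
        have htay : h54_taylor UpperHalfPlane.I (fun z => U ((Quotient.out x)⁻¹ • z)) ≠ 0 :=
          fun h => hV0 ((h54_taylor_eq_zero_iff hV UpperHalfPlane.I).mp h)
        rw [h54_order_ofPS htay] at h1
        have hper : Function.IsPeriodicPt
            (fun y : SL(2, ℤ) ⧸ Gamma0 N => ModularGroup.S • y) 2 x := by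
          show (fun y : SL(2, ℤ) ⧸ Gamma0 N => ModularGroup.S • y)^[2] x = x
          rw [smul_iterate, h29_S_sq]
          exact h29_neg_one_smul N x
        rcases (Nat.dvd_prime Nat.prime_two).mp hper.minimalPeriod_dvd with hm1 | hm2
        · have hfix : ModularGroup.S • x = x :=
            Function.minimalPeriod_eq_one_iff_isFixedPt.mp hm1
          have hfix' : ModularGroup.S •
              (((Quotient.out x : SL(2, ℤ)) : SL(2, ℤ) ⧸ Gamma0 N))
                = (Quotient.out x : SL(2, ℤ)) := by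
            rw [QuotientGroup.out_eq']
            exact hfix
          have h4 : ModularGroup.S ^ 4 = 1 := by
            have h : ModularGroup.S ^ 4 = (ModularGroup.S ^ 2) ^ 2 := by rw [← pow_mul]
            rw [h, h29_S_sq]
            exact neg_one_sq
          have hinv := h36_aut_elliptic hU hfin (Quotient.out x) _ (by norm_num : 0 < 4) h4 hfix'
          have hd := h54_two_dvd_order_I hV hV0 hinv
          obtain ⟨e, he⟩ := hd
          rw [hm1, he] at h1
          refine ⟨e, ?_⟩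
          push_cast at h1
          linarith
        · rw [hm2] at h1
          refine ⟨((h54_taylor UpperHalfPlane.I
            (fun z => U ((Quotient.out x)⁻¹ • z))).order.toNat : ℤ), ?_⟩
          push_cast at h1
          linarith
      · -- a generic point
        obtain ⟨τ₀, hτ₀⟩ := h54_exists_point (ι a₀)
        obtain ⟨x, hx⟩ := gal_ord_point ι N a₀ τ₀ hτ₀ h0 h1728 P ha₀
        rw [hx f hf, h36_w_eq hU hb hfab hev]
        exact dvd_mul_right _ _

/-- **Divisibility of the divisor of an `n`-th power.**  If `Φ f = U ^ n` in `Mer(ℍ)` for a good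
`χ`-automorphic function `U`, where `χ` is trivial on the parabolic and on the finite order
elements of `Γ₀(N)`, then `n ∣ P.ord f` at every place `P` of `F_K(N) / K`. -/
theorem gal_ord_dvd (n : ℕ) (hn : 0 < n) (χ : ↥(Gamma0 N) →* ℂˣ)
    (hpar : ∀ γ : ↥(Gamma0 N), ((γ : SL(2, ℤ)) : Matrix (Fin 2) (Fin 2) ℤ).trace ^ 2 = 4 →
      χ γ = 1)
    (hfin : ∀ γ : ↥(Gamma0 N), IsOfFinOrder γ → χ γ = 1)
    (U : ℍ → ℂ) (hU : h55_Aut N χ U) (f : gal_F K N)
    (hf : gal_Phi ι N f = algebraMap h25_Hol h25_Mer ((⟨U, hU.1⟩ : h25_Hol) ^ n))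
    (P : Place K (gal_F K N)) : (n : ℤ) ∣ P.ord f := by
  obtain ⟨a, b, hb, hfab⟩ := h83_exists_frac (A := h78_AN K N) f
  refine gal_ord_dvd_of_frac ι N n hn χ hpar hfin U hU f a b hb hfab ?_ P
  have h1 := congrArg (gal_Phi ι N) hfab
  rw [map_mul, gal_Phi_algebraMap, gal_Phi_algebraMap, hf, ← map_mul] at h1
  have h2 := IsFractionRing.injective h25_Hol h25_Mer h1
  intro τ
  have h3 := congrArg (fun F : h25_Hol => (F : ℍ → ℂ) τ) h2
  exact h3.symm

end Main

end Fermat.Agent.GAL
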