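import Mathlib
import Fermat.Prelude.Def_AlgebraicCurve_Correspondence
import Fermat.Prelude.Def_ModularCurve_HeckeModule

/-!
# The correspondence on principal divisors (GAL-2H, part (H1))

`Divisor.correspondence φ ψ = ψ_* ∘ φ^*` sends `div f` to `div (N_ψ (φ f))`; hence the Hecke
operator sends the class of `D` with `n • D = div f₀` to the class of `D'` with
`n • D' = div (N_α (β f₀))`.
-/

set_option autoImplicit false

noncomputable section

namespace Fermat.Agent.GAL

open AlgebraicCurve ModularCurve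

section Generic

variable {K F F' : Type*} [Field K] [Field F] [Field F'] [Algebra K F] [Algebra K F']

/-- The norm `F' → F` for the algebra structure given by `ψ : F →ₐ[K] F'`. -/
def h67_normAlong (ψ : F →ₐ[K] F') (g : F') : F :=
  letI := algebraAlong ψ
  Algebra.norm F g

theorem h67_normAlong_def (ψ : F →ₐ[K] F') (g : F') :
    h67_normAlong ψ g = (letI := algebraAlong ψ; Algebra.norm F g) := rfl

theorem h67_normAlong_mul (ψ : F →ₐ[K] F') (g g' : F') :
    h67_normAlong ψ (g * g') = h67_normAlong ψ g * h67_normAlong ψ g' := by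
  letI := algebraAlong ψ
  exact map_mul (Algebra.norm F) g g'

theorem h67_normAlong_one (ψ : F →ₐ[K] F') : h67_normAlong ψ (1 : F') = 1 := by
  letI := algebraAlong ψ
  exact map_one (Algebra.norm F)

theorem h67_normAlong_pow (ψ : F →ₐ[K] F') (g : F') (n : ℕ) :
    h67_normAlong ψ (g ^ n) = h67_normAlong ψ g ^ n := by
  letI := algebraAlong ψ
  exact map_pow (Algebra.norm F) g n

theorem h67_normAlong_ne_zero (ψ : F →ₐ[K] F') (hfin : FiniteAlong K ψ) {g : F'} (hg : g ≠ 0) :
    h67_normAlong ψ g ≠ 0 := by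
  letI := algebraAlong ψ
  haveI : Module.Finite F F' := hfin
  exact Algebra.norm_ne_zero_iff.mpr hg

/-- the norm of an element of the base field is its `d`-th power, `d` the degree -/
theorem h67_normAlong_apply (ψ : F →ₐ[K] F') (x : F) :
    h67_normAlong ψ (ψ x) = x ^ finrankAlong K ψ := by
  letI := algebraAlong ψ
  exact Algebra.norm_algebraMap x

/-- pull-back of a principal divisor, explicit -/
theorem h67_pullbackAlong_principal [HasPrincipalDivisors K F'] (φ : F →ₐ[K] F')
    (hφ : φ.toRingHom.IsIntegral) {D : Divisor K F} {f : F}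
    (hD : ∀ v : Place K F, D v = v.ord f) (w : Place K F') :
    Divisor.pullbackAlong φ hφ D w = w.ord (φ f) := by
  letI := algebraAlong φ
  haveI := isScalarTower_along φ
  haveI := isIntegral_along φ hφ
  exact Divisor.pullback_apply_eq_ord hD w

/-- push-forward of a principal divisor, explicit -/
theorem h67_pushforwardAlong_principal (ψ : F →ₐ[K] F') (hψ : ψ.toRingHom.IsIntegral)
    (hfin : FiniteAlong K ψ) (hN : NormFormulaAlong K ψ hfin) {E : Divisor K F'} {g : F'}
    (hg : g ≠ 0) (hE : ∀ w : Place K F', E w = w.ord g) (v : Place K F) :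
    Divisor.pushforwardAlong ψ hψ E v = v.ord (h67_normAlong ψ g) := by
  letI := algebraAlong ψ
  haveI := isScalarTower_along ψ
  haveI := isIntegral_along ψ hψ
  haveI : Module.Finite F F' := hfin
  exact hN g hg E hE v

/-- **The correspondence on a principal divisor**: `ψ_* φ^* (div f) = div (N_ψ (φ f))`. -/
theorem h67_correspondence_principal [HasPrincipalDivisors K F'] (φ ψ : F →ₐ[K] F')
    (hφ : φ.toRingHom.IsIntegral) (hψ : ψ.toRingHom.IsIntegral)
    (hfin : FiniteAlong K ψ) (hN : NormFormulaAlong K ψ hfin) {D : Divisor K F} {f : F}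
    (hf : f ≠ 0) (hD : ∀ v : Place K F, D v = v.ord f) (v : Place K F) :
    Divisor.correspondence φ ψ hφ hψ D v = v.ord (h67_normAlong ψ (φ f)) := by
  rw [Divisor.correspondence_apply]
  exact h67_pushforwardAlong_principal ψ hψ hfin hN ((map_ne_zero φ).mpr hf)
    (h67_pullbackAlong_principal φ hφ hD) v

/-- the same for a multiple: `n • D = div f ⟹ n • (ψ_* φ^* D) = div (N_ψ (φ f))` -/
theorem h67_correspondence_nsmul [HasPrincipalDivisors K F'] (φ ψ : F →ₐ[K] F')
    (hφ : φ.toRingHom.IsIntegral) (hψ : ψ.toRingHom.IsIntegral)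
    (hfin : FiniteAlong K ψ) (hN : NormFormulaAlong K ψ hfin) {D : Divisor K F} {f : F}
    (n : ℕ) (hf : f ≠ 0) (hD : ∀ v : Place K F, (n • D) v = v.ord f) (v : Place K F) :
    (n • Divisor.correspondence φ ψ hφ hψ D) v = v.ord (h67_normAlong ψ (φ f)) := by
  rw [← map_nsmul]
  exact h67_correspondence_principal φ ψ hφ hψ hfin hN hf hD v

/-- **The correspondence on a torsion class of `Pic0`.** -/
theorem h67_pic0_correspondence_torsion [HasPrincipalDivisors K F'] (φ ψ : F →ₐ[K] F')
    (hφ : φ.toRingHom.IsIntegral) (hψ : ψ.toRingHom.IsIntegral)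
    (hFI : FundamentalIdentityAlong K φ hφ) (hfin : FiniteAlong K ψ)
    (hN : NormFormulaAlong K ψ hfin) (D : Divisor.degZero (K := K) (F := F)) {f : F} (n : ℕ)
    (hf : f ≠ 0) (hD : ∀ v : Place K F, (n • (D : Divisor K F)) v = v.ord f) :
    ∃ D' : Divisor.degZero (K := K) (F := F),
      Pic0.correspondence φ ψ hφ hψ hFI hfin hN (Pic0.mk D) = Pic0.mk D' ∧
      (D' : Divisor K F) = Divisor.correspondence φ ψ hφ hψ (D : Divisor K F) ∧
      ∀ v : Place K F, (n • (D' : Divisor K F)) v = v.ord (h67_normAlong ψ (φ f)) :=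
  ⟨Pic0.degZeroCorrespondence φ ψ hφ hψ hFI D, Pic0.correspondence_mk φ ψ hφ hψ hFI hfin hN D,
    rfl, fun v => h67_correspondence_nsmul φ ψ hφ hψ hfin hN n hf hD v⟩

end Generic

section Modular

/-- **Hecke on a torsion class via norms, any `L ⊇ ℚ`** (`T_ℓ = α_* β^*`): if `x = [D]` with
`n • D = div f`, then `T_ℓ x = [D']` with `n • D' = div (N_α (β f))`. -/
theorem h67_heckeOperatorAlong_torsion {L : Type*} [Field L] [Algebra ℚ L] (N ℓ : ℕ) [NeZero N]
    [NeZero ℓ] (hI : HeckeInputsAlong L N ℓ)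
    (D : Divisor.degZero (K := L) (F := laurentBaseChange L (modularFunctionFieldFull N)))
    {f : laurentBaseChange L (modularFunctionFieldFull N)} (n : ℕ) (hf : f ≠ 0)
    (hD : ∀ v : Place L (laurentBaseChange L (modularFunctionFieldFull N)),
      (n • (D : Divisor L (laurentBaseChange L (modularFunctionFieldFull N)))) v = v.ord f) :
    ∃ D' : Divisor.degZero (K := L) (F := laurentBaseChange L (modularFunctionFieldFull N)),
      heckeOperatorAlong L N ℓ (Pic0.mk D) = Pic0.mk D' ∧
      ∀ v : Place L (laurentBaseChange L (modularFunctionFieldFull N)),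
        (n • (D' : Divisor L (laurentBaseChange L (modularFunctionFieldFull N)))) v
          = v.ord (h67_normAlong (heckeAlphaBar L N ℓ) (heckeBetaBar L N ℓ f)) := by
  obtain ⟨hα, hβ, hP, hfin, hFI, hN⟩ := hI
  haveI := hP
  obtain ⟨D', h1, -, h3⟩ := h67_pic0_correspondence_torsion
    (heckeBetaBar L N ℓ) (heckeAlphaBar L N ℓ) hβ hα hFI hfin hN D n hf hD
  refine ⟨D', ?_, h3⟩
  rw [heckeOperatorAlong_eq hα hβ hFI hfin hN]
  exact h1

/-- **Hecke on a torsion class of `J₀(N)(ℚ̄)` via norms.** -/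
theorem h67_heckeOperatorBar_torsion (N : ℕ) [NeZero N] (l : Nat.Primes) [NeZero (l : ℕ)]
    (hI : HeckeInputsAlong (AlgebraicClosure ℚ) N (l : ℕ))
    (D : Divisor.degZero (K := AlgebraicClosure ℚ) (F := modularFunctionFieldBar N))
    {f : modularFunctionFieldBar N} (n : ℕ) (hf : f ≠ 0)
    (hD : ∀ v : Place (AlgebraicClosure ℚ) (modularFunctionFieldBar N),
      (n • (D : Divisor (AlgebraicClosure ℚ) (modularFunctionFieldBar N))) v = v.ord f) :
    ∃ D' : Divisor.degZero (K := AlgebraicClosure ℚ) (F := modularFunctionFieldBar N),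
      heckeOperatorBar N l (Pic0.mk D) = Pic0.mk D' ∧
      ∀ v : Place (AlgebraicClosure ℚ) (modularFunctionFieldBar N),
        (n • (D' : Divisor (AlgebraicClosure ℚ) (modularFunctionFieldBar N))) v
          = v.ord (h67_normAlong (heckeAlphaBar (AlgebraicClosure ℚ) N (l : ℕ))
              (heckeBetaBar (AlgebraicClosure ℚ) N (l : ℕ) f)) := by
  obtain ⟨D', h1, h3⟩ := h67_heckeOperatorAlong_torsion N (l : ℕ) hI D n hf hD
  exact ⟨D', h1, h3⟩

end Modular

end Fermat.Agent.GAL
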