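import Mathlib
import Fermat.Agent.S24.h25_Mer

/-!
# GAL-2H, part (H2): composition operators `C_g` on meromorphic functions on `ℍ`

For `g ∈ GL(2, ℝ)` with positive determinant, `C_g : h25_Mer →+* h25_Mer` is the ring
homomorphism `u ↦ u ∘ (g • ·)` (literally so on holomorphic functions, extended to fractions).
`C_g ∘ C_h = C_{h * g}`, and `C_γ = (γ⁻¹ • ·)` for `γ ∈ SL(2, ℤ)` (S24's action).
-/

set_option autoImplicit false

open UpperHalfPlane
open scoped MatrixGroups Manifold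

namespace Fermat.Agent.GAL

open Fermat.Agent.S24

/-- composition with `τ ↦ g • τ` on holomorphic functions (`det g > 0`) -/
noncomputable def h67_compHol (g : GL (Fin 2) ℝ) (hg : 0 < g.det.val) : h25_Hol →+* h25_Hol where
  toFun f := ⟨fun τ => (f : ℍ → ℂ) (g • τ), f.2.comp (mdifferentiable_smul hg)⟩
  map_one' := rfl
  map_mul' _ _ := rfl
  map_zero' := rfl
  map_add' _ _ := rfl

theorem h67_compHol_apply (g : GL (Fin 2) ℝ) (hg : 0 < g.det.val) (f : h25_Hol) (τ : ℍ) :
    ((h67_compHol g hg f : h25_Hol) : ℍ → ℂ) τ = (f : ℍ → ℂ) (g • τ) := rfl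

theorem h67_compHol_injective (g : GL (Fin 2) ℝ) (hg : 0 < g.det.val) :
    Function.Injective (h67_compHol g hg) := by
  rw [injective_iff_map_eq_zero]
  intro f hf
  apply Subtype.ext
  funext τ
  have h1 := congrArg (fun F : h25_Hol => (F : ℍ → ℂ) (g⁻¹ • τ)) hf
  simp only [h67_compHol_apply, smul_inv_smul] at h1
  exact h1

/-- **The composition operator** `C_g : u ↦ u ∘ (g • ·)` on meromorphic functions. -/
noncomputable def h67_C (g : GL (Fin 2) ℝ) (hg : 0 < g.det.val) : h25_Mer →+* h25_Mer :=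
  IsFractionRing.lift (g := (algebraMap h25_Hol h25_Mer).comp (h67_compHol g hg))
    ((IsFractionRing.injective h25_Hol h25_Mer).comp (h67_compHol_injective g hg))

theorem h67_C_algebraMap (g : GL (Fin 2) ℝ) (hg : 0 < g.det.val) (f : h25_Hol) :
    h67_C g hg (algebraMap h25_Hol h25_Mer f) = algebraMap h25_Hol h25_Mer (h67_compHol g hg f) :=
  IsFractionRing.lift_algebraMap _ f

theorem h67_C_injective (g : GL (Fin 2) ℝ) (hg : 0 < g.det.val) :
    Function.Injective (h67_C g hg) := (h67_C g hg).injective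

/-- two ring homs out of `h25_Mer` agreeing on holomorphic functions are equal -/
theorem h67_ringHom_ext_mer {R : Type*} [Field R] {φ ψ : h25_Mer →+* R}
    (h : ∀ f : h25_Hol, φ (algebraMap h25_Hol h25_Mer f) = ψ (algebraMap h25_Hol h25_Mer f)) :
    φ = ψ := by
  ext u
  obtain ⟨a, b, hb, rfl⟩ := IsFractionRing.div_surjective h25_Hol u
  rw [map_div₀, map_div₀, h a, h b]

theorem h67_C_congr {g g' : GL (Fin 2) ℝ} (h : g = g') (hg : 0 < g.det.val)
    (hg' : 0 < g'.det.val) : h67_C g hg = h67_C g' hg' := by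
  subst h
  rfl

theorem h67_det_mul_pos {g h : GL (Fin 2) ℝ} (hg : 0 < g.det.val) (hh : 0 < h.det.val) :
    0 < (h * g).det.val := by
  rw [map_mul, Units.val_mul]
  exact mul_pos hh hg

/-- `C_g ∘ C_h = C_{h * g}` -/
theorem h67_C_comp (g h : GL (Fin 2) ℝ) (hg : 0 < g.det.val) (hh : 0 < h.det.val)
    (u : h25_Mer) :
    h67_C g hg (h67_C h hh u) = h67_C (h * g) (h67_det_mul_pos hg hh) u := by
  have key : (h67_C g hg).comp (h67_C h hh) = h67_C (h * g) (h67_det_mul_pos hg hh) := by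
    apply h67_ringHom_ext_mer
    intro f
    rw [RingHom.comp_apply, h67_C_algebraMap, h67_C_algebraMap, h67_C_algebraMap]
    congr 1
    apply Subtype.ext
    funext τ
    rw [h67_compHol_apply, h67_compHol_apply, h67_compHol_apply, mul_smul]
  exact congrArg (fun φ : h25_Mer →+* h25_Mer => φ u) key

theorem h67_C_one (h1 : 0 < (1 : GL (Fin 2) ℝ).det.val) (u : h25_Mer) : h67_C 1 h1 u = u := by
  have key : h67_C 1 h1 = RingHom.id h25_Mer := by
    apply h67_ringHom_ext_mer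
    intro f
    rw [h67_C_algebraMap, RingHom.id_apply]
    congr 1
    apply Subtype.ext
    funext τ
    rw [h67_compHol_apply, one_smul]
  exact congrArg (fun φ : h25_Mer →+* h25_Mer => φ u) key

theorem h67_mapGL_det_pos (γ : SL(2, ℤ)) :
    0 < (Matrix.SpecialLinearGroup.mapGL ℝ γ).det.val := by
  have h := h25_det_pos γ
  exact h

/-- on `SL(2, ℤ)` the operator `C_γ` is S24's action of `γ⁻¹` -/
theorem h67_C_mapGL (γ : SL(2, ℤ)) (u : h25_Mer) :
    h67_C (Matrix.SpecialLinearGroup.mapGL ℝ γ) (h67_mapGL_det_pos γ) u = γ⁻¹ • u := by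
  have key : h67_C (Matrix.SpecialLinearGroup.mapGL ℝ γ) (h67_mapGL_det_pos γ)
      = MulSemiringAction.toRingHom SL(2, ℤ) h25_Mer γ⁻¹ := by
    apply h67_ringHom_ext_mer
    intro f
    rw [h67_C_algebraMap, MulSemiringAction.toRingHom_apply, h25_smul_algebraMap]
    congr 1
    apply Subtype.ext
    funext τ
    rw [h67_compHol_apply, h25_smul_Hol_apply, inv_inv]
    rfl
  exact congrArg (fun φ : h25_Mer →+* h25_Mer => φ u) key

theorem h67_smul_eq_C (γ : SL(2, ℤ)) (u : h25_Mer) :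
    γ • u = h67_C (Matrix.SpecialLinearGroup.mapGL ℝ γ⁻¹) (h67_mapGL_det_pos γ⁻¹) u := by
  rw [h67_C_mapGL, inv_inv]

theorem h67_C_ne_zero (g : GL (Fin 2) ℝ) (hg : 0 < g.det.val) {u : h25_Mer} (hu : u ≠ 0) :
    h67_C g hg u ≠ 0 :=
  (map_ne_zero _).mpr hu

theorem h67_compHol_ne_zero (g : GL (Fin 2) ℝ) (hg : 0 < g.det.val) {f : h25_Hol} (hf : f ≠ 0) :
    h67_compHol g hg f ≠ 0 := fun h =>
  hf (h67_compHol_injective g hg (h.trans (map_zero _).symm))

/-- orders: `ord_τ (f ∘ g) = ord_{g τ} f` on holomorphic functions -/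
theorem h67_ordHol_compHol (g : GL (Fin 2) ℝ) (hg : 0 < g.det.val) (τ : ℍ) (f : h25_Hol) :
    h25_ordHol τ (h67_compHol g hg f) = h25_ordHol (g • τ) f := by
  unfold h25_ordHol
  have hg' : 0 < g.val.det := by
    rw [← Matrix.GeneralLinearGroup.val_det_apply]
    exact hg
  have h := UpperHalfPlane.meromorphicOrderAt_comp_smul (f := (f : ℍ → ℂ)) (τ := τ) (g := g) hg'
  have h1 : ((h67_compHol g hg f : h25_Hol) : ℍ → ℂ) ∘ ofComplex
      = fun z => (f : ℍ → ℂ) (g • ofComplex z) := rfl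
  rw [h1, h]
  rfl

/-- orders: `ord_τ (C_g u) = ord_{g τ} u` -/
theorem h67_ord_C (g : GL (Fin 2) ℝ) (hg : 0 < g.det.val) (τ : ℍ) (u : h25_Mer) :
    h25_ord τ (h67_C g hg u) = h25_ord (g • τ) u := by
  by_cases hu : u = 0
  · subst hu
    simp [h25_ord_zero]
  obtain ⟨a, b, ha, hb, rfl⟩ := h25_exists_eq_div (A := h25_Hol) u hu
  rw [map_div₀, h67_C_algebraMap, h67_C_algebraMap,
    h25_ord_div τ (h67_compHol_ne_zero g hg ha) (h67_compHol_ne_zero g hg hb),
    h25_ord_div _ ha hb, h67_ordHol_compHol, h67_ordHol_compHol]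

end Fermat.Agent.GAL
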