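import Mathlib
import Fermat.Agent.GAL.h77_AnDefs
import Fermat.Agent.GAL.h67_MerGL
import Fermat.Agent.GAL.h67_CorrPrincipal
import Fermat.Agent.S24.h85_Galois

/-!
# GAL-2H, part (H3): the analytic norm formula

`Φ = gal_Phi ι M : F_K(M) →+* h25_Mer` (helper77).  For a prime `ℓ ∤ N`:

* `h67_Phi_alpha` : `Φ_{Nℓ} (α y) = Φ_N y`;
* `h67_Phi_beta`  : `Φ_{Nℓ} (β y) = C_{diag(ℓ,1)} (Φ_N y)`   (`y(ℓτ)`);
* `h67_Phi_norm`  : `Φ_N (N_α (β y)) = ∏ x : OnePoint (ZMod ℓ), C_{heckeRep ℓ x} (Φ_N y)`,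
  i.e. `N(y(ℓτ)) = y(ℓτ) ∏_{j<ℓ} y((τ+j)/ℓ)`, given `[F(Nℓ) : F(N)] = ℓ + 1`.
-/

set_option autoImplicit false

open UpperHalfPlane ModularCurve CongruenceSubgroup AlgebraicCurve
open scoped MatrixGroups Manifold

namespace Fermat.Agent.GAL

open Fermat.Agent.S24 Fermat.Agent.S16

section Phi

variable {K : Type*} [Field K] (ι : K →+* ℂ)

/-- convergent Laurent series as holomorphic functions -/
noncomputable def h67_toHol : h77_convAlg ι →+* h25_Hol :=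
  (h77_toFun ι).codRestrict h25_Hol (fun a => h77_toFun_mdiff ι a)

theorem h67_toHol_coe (a : h77_convAlg ι) : ((h67_toHol ι a : h25_Hol) : ℍ → ℂ) = h77_toFun ι a :=
  rfl

theorem h67_toHol_injective : Function.Injective (h67_toHol ι) := by
  intro a b h
  exact h77_toFun_injective ι (congrArg Subtype.val h)

variable [Algebra ℚ K]

theorem h67_evHol_eq (N : ℕ) (a : h78_AN K N) :
    gal_evHol ι N a = h67_toHol ι (Subalgebra.inclusion (h54_AN_le_convAlg ι N) a) := rfl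

/-- **(E0)** `Φ` of a fraction of convergent series. -/
theorem h67_Phi_mul_eq (N : ℕ) (f : gal_F K N) (a b : h77_convAlg ι)
    (h : (f : LaurentSeries K) * (b : LaurentSeries K) = (a : LaurentSeries K)) :
    gal_Phi ι N f * algebraMap h25_Hol h25_Mer (h67_toHol ι b)
      = algebraMap h25_Hol h25_Mer (h67_toHol ι a) := by
  obtain ⟨a', b', hb', rfl⟩ := IsFractionRing.div_surjective (h78_AN K N) f
  have hb0 : b' ≠ 0 := nonZeroDivisors.ne_zero hb'
  have hcoe : ((algebraMap (h78_AN K N) (gal_F K N) a' / algebraMap (h78_AN K N) (gal_F K N) b' :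
      gal_F K N) : LaurentSeries K) = (a' : LaurentSeries K) / (b' : LaurentSeries K) := rfl
  rw [hcoe] at h
  have hb0' : (b' : LaurentSeries K) ≠ 0 := fun h0 => hb0 (Subtype.ext h0)
  have h1 : (a' : LaurentSeries K) * (b : LaurentSeries K)
      = (a : LaurentSeries K) * (b' : LaurentSeries K) := by
    rw [← h]
    field_simp
  have h2 : Subalgebra.inclusion (h54_AN_le_convAlg ι N) a' * b
      = a * Subalgebra.inclusion (h54_AN_le_convAlg ι N) b' := Subtype.ext h1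
  have h3 := congrArg (fun z => algebraMap h25_Hol h25_Mer (h67_toHol ι z)) h2
  simp only [map_mul] at h3
  have hne : algebraMap h25_Hol h25_Mer (gal_evHol ι N b') ≠ 0 := by
    rw [Ne, map_eq_zero_iff _ (IsFractionRing.injective h25_Hol h25_Mer),
      map_eq_zero_iff _ (gal_evHol_injective ι N)]
    exact hb0
  rw [map_div₀, gal_Phi_algebraMap, gal_Phi_algebraMap, div_mul_eq_mul_div, div_eq_iff hne,
    h67_evHol_eq, h67_evHol_eq]
  exact h3

/-- two elements of (possibly different) levels with the same `q`-expansion have the same `Φ` -/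
theorem h67_Phi_eq_of_coe_eq (N M : ℕ) (f : gal_F K N) (f' : gal_F K M)
    (h : (f : LaurentSeries K) = (f' : LaurentSeries K)) :
    gal_Phi ι N f = gal_Phi ι M f' := by
  obtain ⟨a', b', hb', rfl⟩ := IsFractionRing.div_surjective (h78_AN K N) f
  have hb0 : b' ≠ 0 := nonZeroDivisors.ne_zero hb'
  have hb0' : (b' : LaurentSeries K) ≠ 0 := fun h0 => hb0 (Subtype.ext h0)
  have hcoe : ((algebraMap (h78_AN K N) (gal_F K N) a' / algebraMap (h78_AN K N) (gal_F K N) b' :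
      gal_F K N) : LaurentSeries K) = (a' : LaurentSeries K) / (b' : LaurentSeries K) := rfl
  set f₁ : gal_F K N :=
    algebraMap (h78_AN K N) (gal_F K N) a' / algebraMap (h78_AN K N) (gal_F K N) b' with hf₁
  have hmul : (f₁ : LaurentSeries K) * (b' : LaurentSeries K) = (a' : LaurentSeries K) := by
    rw [hcoe]
    field_simp
  have e1 := h67_Phi_mul_eq ι N f₁ (Subalgebra.inclusion (h54_AN_le_convAlg ι N) a')
    (Subalgebra.inclusion (h54_AN_le_convAlg ι N) b') hmul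
  have e2 := h67_Phi_mul_eq ι M f' (Subalgebra.inclusion (h54_AN_le_convAlg ι N) a')
    (Subalgebra.inclusion (h54_AN_le_convAlg ι N) b') (by rw [← h]; exact hmul)
  have hne : algebraMap h25_Hol h25_Mer
      (h67_toHol ι (Subalgebra.inclusion (h54_AN_le_convAlg ι N) b')) ≠ 0 := by
    rw [Ne, map_eq_zero_iff _ (IsFractionRing.injective h25_Hol h25_Mer),
      map_eq_zero_iff _ (h67_toHol_injective ι)]
    intro h0
    exact hb0 (Subalgebra.inclusion_injective _ (h0.trans (map_zero _).symm))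
  exact mul_right_cancel₀ hne (e1.trans e2.symm)

/-- **(E1)** `Φ_{Nℓ} (α y) = Φ_N y`. -/
theorem h67_Phi_alpha (N ℓ : ℕ) [NeZero N] [NeZero ℓ] (y : gal_F K N) :
    gal_Phi ι (N * ℓ) (heckeAlphaBar K N ℓ y) = gal_Phi ι N y :=
  h67_Phi_eq_of_coe_eq ι (N * ℓ) N _ _ (coe_heckeAlphaBar N ℓ y)

/-- the point `ℓ τ` is `diag(ℓ, 1) • τ` -/
theorem h67_ofComplex_mul (ℓ : ℕ) [NeZero ℓ] (τ : ℍ) :
    ofComplex ((ℓ : ℂ) * τ) = ModularForm.heckeDiagMatrix ℓ • τ := by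
  apply UpperHalfPlane.ext
  rw [h77_coe_ofComplex_mul, ModularForm.coe_heckeDiagMatrix_smul (NeZero.ne ℓ)]

theorem h67_heckeDiag_det_pos (ℓ : ℕ) : 0 < (ModularForm.heckeDiagMatrix ℓ).det.val :=
  ModularForm.det_heckeDiagMatrix_pos ℓ

theorem h67_heckeMatrix_det_pos (ℓ j : ℕ) : 0 < (ModularForm.heckeMatrix ℓ j).det.val :=
  ModularForm.det_heckeMatrix_pos ℓ j

omit [Algebra ℚ K] in
/-- `q ↦ q^ℓ` on convergent series is `τ ↦ ℓ τ` on functions -/
theorem h67_qExpand_mem (ℓ : ℕ) [NeZero ℓ] (a : h77_convAlg ι) :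
    qExpand K ℓ (a : LaurentSeries K) ∈ h77_convAlg ι := by
  refine ⟨fun τ : ℍ => h77_toFun ι a (ofComplex ((ℓ : ℂ) * τ)), ?_⟩
  rw [coeffMap_qExpand]
  exact (h77_toFun_spec ι a).comp_mul ℓ

omit [Algebra ℚ K] in
theorem h67_toHol_qExpand (ℓ : ℕ) [NeZero ℓ] (a : h77_convAlg ι) :
    h67_toHol ι ⟨qExpand K ℓ (a : LaurentSeries K), h67_qExpand_mem ι ℓ a⟩
      = h67_compHol (ModularForm.heckeDiagMatrix ℓ) (h67_heckeDiag_det_pos ℓ) (h67_toHol ι a) := by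
  apply Subtype.ext
  rw [h67_toHol_coe]
  have h1 : h77_toFun ι ⟨qExpand K ℓ (a : LaurentSeries K), h67_qExpand_mem ι ℓ a⟩
      = fun τ : ℍ => h77_toFun ι a (ofComplex ((ℓ : ℂ) * τ)) := by
    refine h77_toFun_eq ι ?_
    show h77_IsQExp 1 (coeffMap ι (qExpand K ℓ (a : LaurentSeries K))) _
    rw [coeffMap_qExpand]
    exact (h77_toFun_spec ι a).comp_mul ℓ
  rw [h1]
  funext τ
  rw [h67_compHol_apply, h67_toHol_coe, h67_ofComplex_mul]

/-- **(E2)** `Φ_{Nℓ} (β y) = C_{diag(ℓ,1)} (Φ_N y)`, i.e. `(β y)(τ) = y(ℓ τ)`. -/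
theorem h67_Phi_beta (N ℓ : ℕ) [NeZero N] [NeZero ℓ] (y : gal_F K N) :
    gal_Phi ι (N * ℓ) (heckeBetaBar K N ℓ y)
      = h67_C (ModularForm.heckeDiagMatrix ℓ) (h67_heckeDiag_det_pos ℓ) (gal_Phi ι N y) := by
  obtain ⟨a', b', hb', rfl⟩ := IsFractionRing.div_surjective (h78_AN K N) y
  have hb0 : b' ≠ 0 := nonZeroDivisors.ne_zero hb'
  have hb0' : (b' : LaurentSeries K) ≠ 0 := fun h0 => hb0 (Subtype.ext h0)
  set y₁ : gal_F K N :=
    algebraMap (h78_AN K N) (gal_F K N) a' / algebraMap (h78_AN K N) (gal_F K N) b' with hy₁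
  have hcoe : (y₁ : LaurentSeries K) = (a' : LaurentSeries K) / (b' : LaurentSeries K) := rfl
  have hmul : (y₁ : LaurentSeries K) * (b' : LaurentSeries K) = (a' : LaurentSeries K) := by
    rw [hcoe]
    field_simp
  set A : h77_convAlg ι := Subalgebra.inclusion (h54_AN_le_convAlg ι N) a' with hA
  set B : h77_convAlg ι := Subalgebra.inclusion (h54_AN_le_convAlg ι N) b' with hB
  have e1 := h67_Phi_mul_eq ι N y₁ A B hmul
  have hmul' : ((heckeBetaBar K N ℓ y₁ : gal_F K (N * ℓ)) : LaurentSeries K)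
      * qExpand K ℓ (B : LaurentSeries K) = qExpand K ℓ (A : LaurentSeries K) := by
    rw [coe_heckeBetaBar, ← map_mul]
    exact congrArg (qExpand K ℓ) hmul
  have e2 := h67_Phi_mul_eq ι (N * ℓ) (heckeBetaBar K N ℓ y₁)
    ⟨qExpand K ℓ (A : LaurentSeries K), h67_qExpand_mem ι ℓ A⟩
    ⟨qExpand K ℓ (B : LaurentSeries K), h67_qExpand_mem ι ℓ B⟩ hmul'
  rw [h67_toHol_qExpand, h67_toHol_qExpand] at e2
  have e3 := congrArg (h67_C (ModularForm.heckeDiagMatrix ℓ) (h67_heckeDiag_det_pos ℓ)) e1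
  rw [map_mul, h67_C_algebraMap, h67_C_algebraMap] at e3
  have hne : algebraMap h25_Hol h25_Mer
      (h67_compHol (ModularForm.heckeDiagMatrix ℓ) (h67_heckeDiag_det_pos ℓ) (h67_toHol ι B)) ≠ 0 := by
    rw [Ne, map_eq_zero_iff _ (IsFractionRing.injective h25_Hol h25_Mer),
      map_eq_zero_iff _ (h67_compHol_injective _ _), map_eq_zero_iff _ (h67_toHol_injective ι)]
    intro h0
    exact hb0 (Subalgebra.inclusion_injective _ (h0.trans (map_zero _).symm))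
  exact mul_right_cancel₀ hne (e2.trans e3.symm)

/-- **(E4)** separation: an element of `SL(2, ℤ)` fixing `Φ (F_K(M))` lies in `Γ₀(M)`. -/
theorem h67_mem_Gamma0_of_fix (M : ℕ) [NeZero M] (η : SL(2, ℤ))
    (h : ∀ f : gal_F K M, η • gal_Phi ι M f = gal_Phi ι M f) : η ∈ Gamma0 M := by
  have h1 : ∀ (a : h78_AN K M) (τ : ℍ), h54_ev ι M a (η⁻¹ • τ) = h54_ev ι M a ((1 : SL(2, ℤ))⁻¹ • τ) := by
    intro a τ
    have h2 := h (algebraMap (h78_AN K M) (gal_F K M) a)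
    rw [gal_Phi_algebraMap, h25_smul_algebraMap] at h2
    have h3 := IsFractionRing.injective h25_Hol h25_Mer h2
    have h4 := congrArg (fun F : h25_Hol => (F : ℍ → ℂ) τ) h3
    simp only [h25_smul_Hol_apply, gal_evHol_coe] at h4
    rw [h4, inv_one, one_smul]
  have h5 := h54_ev_sep ι M η 1 h1
  have h6 := QuotientGroup.eq.mp h5
  rw [mul_one] at h6
  exact inv_mem_iff.mp h6

end Phi

section Matrices

open P2MW.S_ModularForm_heckeT_slash_eq_self_of_mem_Gamma0.ModularForm.HeckeSlashInvariance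
open Matrix.SpecialLinearGroup
open scoped OnePoint

variable (N ℓ : ℕ) [Fact ℓ.Prime]

omit [Fact ℓ.Prime] in
theorem h67_heckeRep_det_pos (x : OnePoint (ZMod ℓ)) : 0 < (heckeRep ℓ x).det.val := by
  induction x using OnePoint.rec with
  | infty => exact h67_heckeDiag_det_pos ℓ
  | coe j => exact h67_heckeMatrix_det_pos ℓ j.val

/-- `diag(ℓ,1) η = η' diag(ℓ,1)` for `η ∈ Γ₀(ℓ)` -/
theorem h67_diag_mul (η : SL(2, ℤ)) (hη : (ℓ : ℤ) ∣ η 1 0) :
    ∃ η' : SL(2, ℤ), ModularForm.heckeDiagMatrix ℓ * mapGL ℝ η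
      = mapGL ℝ η' * ModularForm.heckeDiagMatrix ℓ := by
  obtain ⟨g', -, h⟩ := heckeRep_mul (p := ℓ) (N := 1)
    (Nat.Prime.not_dvd_one Fact.out) η (by simp) ∞
  have h1 : redMatrix ℓ η • (∞ : OnePoint (ZMod ℓ)) = ∞ := by
    rw [OnePoint.smul_infty_eq_self_iff, redMatrix_apply_one_zero]
    exact (ZMod.intCast_zmod_eq_zero_iff_dvd _ _).mpr hη
  rw [h1] at h
  exact ⟨g', h⟩

/-- every `heckeRep ℓ x` lies in `Γ₀(N) diag(ℓ,1) Γ₀(N)` -/
theorem h67_exists_decomp (hℓN : ¬ ℓ ∣ N) (x : OnePoint (ZMod ℓ)) :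
    ∃ γ δ : SL(2, ℤ), γ ∈ Gamma0 N ∧ δ ∈ Gamma0 N ∧
      ModularForm.heckeDiagMatrix ℓ * mapGL ℝ δ = mapGL ℝ γ * heckeRep ℓ x := by
  induction x using OnePoint.rec with
  | infty =>
    refine ⟨1, 1, one_mem _, one_mem _, ?_⟩
    rw [map_one, mul_one, one_mul]
    rfl
  | coe j =>
    have hcopN : IsCoprime (N : ℤ) (ℓ : ℤ) :=
      Nat.isCoprime_iff_coprime.mpr ((Nat.Prime.coprime_iff_not_dvd Fact.out).mpr hℓN).symm
    have hcop : IsCoprime (N : ℤ) ((N : ℤ) * (j.val : ℤ) + (ℓ : ℤ)) := by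
      have h1 : IsCoprime (N : ℤ) ((ℓ : ℤ) + (N : ℤ) * (j.val : ℤ)) :=
        hcopN.add_mul_left_right (j.val : ℤ)
      rwa [add_comm] at h1
    obtain ⟨δ, -, hδ⟩ := ModularGroup.bottom_row_surj (R := ℤ)
      (show ![(N : ℤ), (N : ℤ) * (j.val : ℤ) + (ℓ : ℤ)] ∈
        {cd : Fin 2 → ℤ | IsCoprime (cd 0) (cd 1)} from hcop)
    have h10 : δ 1 0 = (N : ℤ) := congrFun hδ 0
    have h11 : δ 1 1 = (N : ℤ) * (j.val : ℤ) + (ℓ : ℤ) := congrFun hδ 1
    have hδN : δ ∈ Gamma0 N := by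
      rw [Gamma0_mem, h10]
      simp
    obtain ⟨g', hg', h⟩ := heckeRep_mul (p := ℓ) hℓN δ (by rw [h10]) ∞
    have hNℓ : ((N : ℤ) : ZMod ℓ) ≠ 0 := by
      rw [Ne, ZMod.intCast_zmod_eq_zero_iff_dvd, Int.natCast_dvd_natCast]
      exact hℓN
    have hx : redMatrix ℓ δ • (∞ : OnePoint (ZMod ℓ)) = ((j : ZMod ℓ) : OnePoint (ZMod ℓ)) := by
      rw [OnePoint.smul_infty_eq_ite, redMatrix_apply_one_zero, redMatrix_apply_zero_zero, h10,
        h11, if_neg hNℓ]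
      congr 1
      push_cast
      rw [ZMod.natCast_self, add_zero, ZMod.natCast_zmod_val]
      have hN' : (N : ZMod ℓ) ≠ 0 := by simpa using hNℓ
      exact mul_div_cancel_left₀ _ hN'
    rw [hx] at h
    exact ⟨g', δ, Gamma0_mem.mpr ((ZMod.intCast_zmod_eq_zero_iff_dvd _ _).mpr hg'), hδN, h⟩

/-- the right factors of two decompositions are `Γ₀(Nℓ)`-inequivalent for distinct `x` -/
theorem h67_decomp_inj {x x' : OnePoint (ZMod ℓ)} {γ δ γ' δ' : SL(2, ℤ)}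
    (h : ModularForm.heckeDiagMatrix ℓ * mapGL ℝ δ = mapGL ℝ γ * heckeRep ℓ x)
    (h' : ModularForm.heckeDiagMatrix ℓ * mapGL ℝ δ' = mapGL ℝ γ' * heckeRep ℓ x')
    (hη : (ℓ : ℤ) ∣ (δ * δ'⁻¹) 1 0) : x = x' := by
  obtain ⟨η', hη'⟩ := h67_diag_mul ℓ (δ * δ'⁻¹) hη
  apply h30_inj_T ℓ x x'
  refine ⟨γ⁻¹ * η' * γ', ?_⟩
  have e1 : heckeRep ℓ x = (mapGL ℝ γ)⁻¹ * (ModularForm.heckeDiagMatrix ℓ * mapGL ℝ δ) := by
    rw [h, inv_mul_cancel_left]
  have e2 : ModularForm.heckeDiagMatrix ℓ * mapGL ℝ δ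
      = ModularForm.heckeDiagMatrix ℓ * mapGL ℝ (δ * δ'⁻¹) * mapGL ℝ δ' := by
    rw [mul_assoc, ← map_mul, inv_mul_cancel_right]
  rw [e1, e2, hη', mul_assoc (mapGL ℝ η'), h', map_mul, map_mul, map_inv]
  group

end Matrices

section Norm

open P2MW.S_ModularForm_heckeT_slash_eq_self_of_mem_Gamma0.ModularForm.HeckeSlashInvariance
open Matrix.SpecialLinearGroup
open scoped OnePoint

variable {K : Type*} [Field K] [Algebra ℚ K] (ι : K →+* ℂ)

/-- **(H3) the analytic norm formula.**  For a prime `ℓ ∤ N` with `[F(Nℓ) : F(N)] = ℓ + 1`,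
`Φ_N (N_α (β y)) = ∏_{x ∈ ℙ¹(𝔽_ℓ)} (Φ_N y) ∘ heckeRep ℓ x`. -/
theorem h67_Phi_norm (N ℓ : ℕ) [NeZero N] [NeZero ℓ] [Fact ℓ.Prime] (hℓN : ¬ ℓ ∣ N)
    (hdeg : finrankAlong K (heckeAlphaBar K N ℓ) = ℓ + 1) (y : gal_F K N) :
    gal_Phi ι N (h67_normAlong (heckeAlphaBar K N ℓ) (heckeBetaBar K N ℓ y))
      = ∏ x : OnePoint (ZMod ℓ),
          h67_C (heckeRep ℓ x) (h67_heckeRep_det_pos ℓ x) (gal_Phi ι N y) := by
  classical
  let _ : Algebra (gal_F K N) (gal_F K (N * ℓ)) := algebraAlong (heckeAlphaBar K N ℓ)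
  have hfr : Module.finrank (gal_F K N) (gal_F K (N * ℓ)) = ℓ + 1 := hdeg
  have : FiniteDimensional (gal_F K N) (gal_F K (N * ℓ)) :=
    Module.finite_of_finrank_pos (by rw [hfr]; omega)
  have : CharZero K := algebraRat.charZero K
  have : CharZero (gal_F K N) :=
    charZero_of_injective_algebraMap (algebraMap K (gal_F K N)).injective
  have : Algebra.IsSeparable (gal_F K N) (gal_F K (N * ℓ)) := inferInstance
  choose γ δ hγ hδ hdec using h67_exists_decomp N ℓ hℓN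
  let σ : OnePoint (ZMod ℓ) → gal_F K (N * ℓ) →+* h25_Mer := fun x =>
    (MulSemiringAction.toRingHom SL(2, ℤ) h25_Mer (δ x)⁻¹).comp (gal_Phi ι (N * ℓ))
  have hE : ∀ x e, σ x (algebraMap (gal_F K N) (gal_F K (N * ℓ)) e) = gal_Phi ι N e := by
    intro x e
    show (δ x)⁻¹ • gal_Phi ι (N * ℓ) (heckeAlphaBar K N ℓ e) = gal_Phi ι N e
    rw [h67_Phi_alpha]
    exact gal_Phi_smul ι N (inv_mem (hδ x)) e
  have hσinj : Function.Injective σ := by
    intro x x' hxx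
    apply h67_decomp_inj ℓ (hdec x) (hdec x')
    have hmem : δ x * (δ x')⁻¹ ∈ Gamma0 (N * ℓ) := by
      apply h67_mem_Gamma0_of_fix ι (N * ℓ)
      intro f
      have h1 : (δ x)⁻¹ • gal_Phi ι (N * ℓ) f = (δ x')⁻¹ • gal_Phi ι (N * ℓ) f :=
        DFunLike.congr_fun hxx f
      rw [mul_smul, ← h1, smul_inv_smul]
    rw [Gamma0_mem] at hmem
    have h2 := (ZMod.intCast_zmod_eq_zero_iff_dvd _ _).mp hmem
    exact dvd_trans (by push_cast; exact dvd_mul_left _ _) h2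
  have hcard : Fintype.card (OnePoint (ZMod ℓ))
      = Module.finrank (gal_F K N) (gal_F K (N * ℓ)) := by
    rw [hfr]
    show Fintype.card (Option (ZMod ℓ)) = ℓ + 1
    rw [Fintype.card_option, ZMod.card]
  have key := (h85_norm_of_embeddings (E := gal_F K N) σ hσinj
    (fun x x' e => (hE x e).trans (hE x' e).symm)).2 hcard ∞ (heckeBetaBar K N ℓ y)
  rw [hE] at key
  have hn : h67_normAlong (heckeAlphaBar K N ℓ) (heckeBetaBar K N ℓ y)
      = Algebra.norm (gal_F K N) (heckeBetaBar K N ℓ y) := rfl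
  rw [hn, key]
  refine Finset.prod_congr rfl (fun x _ => ?_)
  show (δ x)⁻¹ • gal_Phi ι (N * ℓ) (heckeBetaBar K N ℓ y) = _
  rw [h67_Phi_beta, ← h67_C_mapGL, h67_C_comp,
    h67_C_congr (hdec x) _ (h67_det_mul_pos (h67_heckeRep_det_pos ℓ x) (h67_mapGL_det_pos (γ x))),
    ← h67_C_comp _ _ (h67_heckeRep_det_pos ℓ x) (h67_mapGL_det_pos (γ x)), h67_C_mapGL,
    gal_Phi_smul ι N (inv_mem (hγ x))]

end Norm

end Fermat.Agent.GAL
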