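import Mathlib
import Fermat.Agent.GAL.h67_HeckeNorm
import Fermat.Agent.GAL.Root
import Fermat.Agent.S37.h88_HI
import Fermat.Agent.S37.h19_DEG

/-!
# GAL-2H, part (H4): multipliers, the transfer formula, and the Hecke-stable relation `R_n`

* `h67_IsAut N χ u` : `u ∈ Mer(ℍ)` satisfies `u (γ τ) = χ(γ) u(τ)` for `γ ∈ Γ₀(N)`.
* `h67_isAut_hecke` (transfer): if `u` has multiplier `gal_chi n ψ`, then
  `∏_{x ∈ ℙ¹(𝔽_ℓ)} u ∘ heckeRep ℓ x` has multiplier `gal_chi n (T_ℓ ψ)`.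
* `h67_Rel ι N n χ x` : the class `x ∈ J₀(N)(ℚ̄)` is `[D]` with `n D = div f₀`, and
  `Φ_ι f₀ = u ^ n` for a meromorphic `u` with multiplier `χ`.
* `h67_rel_hecke` : `R_n (gal_chi n ψ, x) ⟹ R_n (gal_chi n (T_ℓ ψ), T_ℓ x)` for every prime
  `ℓ ∤ N`, unconditionally.
-/

set_option autoImplicit false

open UpperHalfPlane ModularCurve CongruenceSubgroup AlgebraicCurve
open scoped MatrixGroups Manifold

namespace Fermat.Agent.GAL

open Fermat.Agent.S24 Fermat.Agent.S16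
open P2MW.S_ModularForm_heckeT_slash_eq_self_of_mem_Gamma0.ModularForm.HeckeSlashInvariance
open Matrix.SpecialLinearGroup

section Const

/-- composition operators fix the constants -/
theorem h67_C_const (g : GL (Fin 2) ℝ) (hg : 0 < g.det.val) (c : ℂ) :
    h67_C g hg (h74_constHom c) = h74_constHom c := by
  rw [h74_constHom_apply, h67_C_algebraMap]
  rfl

theorem h67_smul_const (γ : SL(2, ℤ)) (c : ℂ) : γ • h74_constHom c = h74_constHom c := by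
  rw [h67_smul_eq_C, h67_C_const]

end Const

section Aut

/-- `u ∈ Mer(ℍ)` has multiplier `χ` on `Γ₀(N)`: `u (γ τ) = χ(γ) u(τ)`. -/
def h67_IsAut (N : ℕ) (χ : ↥(Gamma0 N) →* ℂˣ) (u : h25_Mer) : Prop :=
  ∀ γ : ↥(Gamma0 N), h67_C (mapGL ℝ (γ : SL(2, ℤ))) (h67_mapGL_det_pos _) u
    = h74_constHom (χ γ : ℂ) * u

variable {N : ℕ} {χ χ' : ↥(Gamma0 N) →* ℂˣ} {u u' : h25_Mer}

theorem h67_isAut_iff_smul :
    h67_IsAut N χ u ↔
      ∀ γ : ↥(Gamma0 N), (γ : SL(2, ℤ))⁻¹ • u = h74_constHom (χ γ : ℂ) * u := by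
  unfold h67_IsAut
  simp only [h67_C_mapGL]

theorem h67_IsAut.smul_inv (h : h67_IsAut N χ u) (γ : ↥(Gamma0 N)) :
    (γ : SL(2, ℤ))⁻¹ • u = h74_constHom (χ γ : ℂ) * u :=
  h67_isAut_iff_smul.mp h γ

theorem h67_IsAut.mul (h : h67_IsAut N χ u) (h' : h67_IsAut N χ' u') :
    h67_IsAut N (χ * χ') (u * u') := by
  intro γ
  rw [map_mul, h γ, h' γ, MonoidHom.mul_apply, Units.val_mul, map_mul]
  ring

theorem h67_IsAut.inv (h : h67_IsAut N χ u) : h67_IsAut N χ⁻¹ u⁻¹ := by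
  intro γ
  rw [map_inv₀, h γ, MonoidHom.inv_apply, Units.val_inv_eq_inv_val, map_inv₀, mul_inv]

theorem h67_IsAut.div (h : h67_IsAut N χ u) (h' : h67_IsAut N χ' u') :
    h67_IsAut N (χ / χ') (u / u') := by
  intro γ
  rw [map_div₀, h γ, h' γ, MonoidHom.div_apply, Units.val_div_eq_div_val, map_div₀,
    mul_div_mul_comm]

theorem h67_isAut_zero (N : ℕ) (χ : ↥(Gamma0 N) →* ℂˣ) : h67_IsAut N χ 0 := by
  intro γ
  rw [map_zero, mul_zero]

theorem h67_IsAut.pow (h : h67_IsAut N χ u) (n : ℕ) : h67_IsAut N (χ ^ n) (u ^ n) := by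
  intro γ
  rw [map_pow, h γ, MonoidHom.pow_apply, Units.val_pow_eq_pow_val, map_pow, mul_pow]

theorem h67_isAut_one_iff :
    h67_IsAut N 1 u ↔ ∀ γ ∈ Gamma0 N, γ • u = u := by
  rw [h67_isAut_iff_smul]
  constructor
  · intro h γ hγ
    have h1 := h ⟨γ⁻¹, inv_mem hγ⟩
    simpa using h1
  · intro h γ
    rw [h _ (inv_mem γ.2)]
    simp

/-- constants have trivial multiplier -/
theorem h67_isAut_const (N : ℕ) (c : ℂ) : h67_IsAut N 1 (h74_constHom c) :=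
  h67_isAut_one_iff.mpr fun γ _ => h67_smul_const γ c

/-- the elements of `Φ(F_K(N))` have trivial multiplier -/
theorem h67_isAut_Phi {K : Type*} [Field K] [Algebra ℚ K] (ι : K →+* ℂ) (N : ℕ)
    (f : gal_F K N) : h67_IsAut N 1 (gal_Phi ι N f) :=
  h67_isAut_one_iff.mpr fun _ hγ => gal_Phi_smul ι N hγ f

/-- a holomorphic function with multiplier `χ` -/
theorem h67_isAut_of_fun (U : ℍ → ℂ) (hU : MDiff U)
    (h : ∀ (γ : ↥(Gamma0 N)) (τ : ℍ), U ((γ : SL(2, ℤ)) • τ) = (χ γ : ℂ) * U τ) :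
    h67_IsAut N χ (algebraMap h25_Hol h25_Mer ⟨U, hU⟩) := by
  rw [h67_isAut_iff_smul]
  intro γ
  rw [h74_constHom_apply, h25_smul_algebraMap, ← map_mul]
  congr 1
  apply Subtype.ext
  funext τ
  rw [h25_smul_Hol_apply, inv_inv]
  exact h γ τ

/-- conversely, on holomorphic functions the multiplier rule is pointwise -/
theorem h67_IsAut.apply_fun {U : h25_Hol} (h : h67_IsAut N χ (algebraMap h25_Hol h25_Mer U))
    (γ : ↥(Gamma0 N)) (τ : ℍ) :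
    (U : ℍ → ℂ) ((γ : SL(2, ℤ)) • τ) = (χ γ : ℂ) * (U : ℍ → ℂ) τ := by
  have h1 := h.smul_inv γ
  rw [h74_constHom_apply, h25_smul_algebraMap, ← map_mul] at h1
  have h2 := IsFractionRing.injective h25_Hol h25_Mer h1
  have h3 := congrArg (fun F : h25_Hol => (F : ℍ → ℂ) τ) h2
  simp only [h25_smul_Hol_apply, inv_inv] at h3
  exact h3

end Aut

section Transfer

/-- additive characters turn finite sums into products -/
theorem h67_addChar_sum {A M ι : Type*} [AddCommMonoid A] [CommMonoid M] (φ : AddChar A M)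
    (s : Finset ι) (a : ι → A) : φ (∑ x ∈ s, a x) = ∏ x ∈ s, φ (a x) := by
  classical
  induction s using Finset.induction_on with
  | empty => simp
  | insert i s hi ih =>
    rw [Finset.sum_insert hi, Finset.prod_insert hi, AddChar.map_add_eq_mul, ih]

/-- **(H4) the transfer formula.**  If `u` has multiplier `gal_chi n ψ` on `Γ₀(N)`, then
`∏_{x ∈ ℙ¹(𝔽_ℓ)} u ∘ heckeRep ℓ x` has multiplier `gal_chi n (T_ℓ ψ)`. -/
theorem h67_isAut_hecke (N ℓ : ℕ) [Fact ℓ.Prime] (hℓN : ¬ ℓ ∣ N) (n : ℕ) [NeZero n]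
    (ψ : Additive ↥(Gamma0 N) →+ ZMod n) (u : h25_Mer) (hu : h67_IsAut N (gal_chi n ψ) u) :
    h67_IsAut N (gal_chi n (h30_heckeT N ℓ hℓN ψ))
      (∏ x : OnePoint (ZMod ℓ), h67_C (heckeRep ℓ x) (h67_heckeRep_det_pos ℓ x) u) := by
  intro γ
  obtain ⟨γ', y, hdec, hT⟩ := h30_heckeT_exists ℓ hℓN γ
  rw [map_prod]
  have h1 : ∀ x : OnePoint (ZMod ℓ),
      h67_C (mapGL ℝ (γ : SL(2, ℤ))) (h67_mapGL_det_pos _)
          (h67_C (heckeRep ℓ x) (h67_heckeRep_det_pos ℓ x) u)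
        = h74_constHom (gal_chi n ψ (γ' x) : ℂ)
          * h67_C (heckeRep ℓ (y x)) (h67_heckeRep_det_pos ℓ (y x)) u := by
    intro x
    rw [h67_C_comp,
      h67_C_congr (hdec x) _
        (h67_det_mul_pos (h67_heckeRep_det_pos ℓ (y x)) (h67_mapGL_det_pos _)),
      ← h67_C_comp _ _ (h67_heckeRep_det_pos ℓ (y x)) (h67_mapGL_det_pos _), hu (γ' x), map_mul,
      h67_C_const]
  rw [Finset.prod_congr rfl (fun x _ => h1 x), Finset.prod_mul_distrib,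
    Equiv.prod_comp y (fun x => h67_C (heckeRep ℓ x) (h67_heckeRep_det_pos ℓ x) u), ← map_prod]
  congr 2
  rw [gal_chi_apply, hT (ZMod n) ψ, h67_addChar_sum]
  rfl

end Transfer

section Rel

local notation "Qb" => AlgebraicClosure ℚ

/-- **The relation `R_n(χ, x)`**: the class `x ∈ J₀(N)(ℚ̄)` is `[D]` with `n D = div f₀`
(`f₀ ≠ 0`), and `Φ_ι f₀ = u ^ n` for a meromorphic function `u` on `ℍ` with multiplier `χ`. -/
def h67_Rel (ι : Qb →+* ℂ) (N n : ℕ) (χ : ↥(Gamma0 N) →* ℂˣ) (x : JZero N) : Prop :=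
  ∃ (D : Divisor.degZero (K := Qb) (F := modularFunctionFieldBar N))
    (f₀ : modularFunctionFieldBar N) (u : h25_Mer),
    f₀ ≠ 0 ∧ x = Pic0.mk D ∧
    (∀ v : Place Qb (modularFunctionFieldBar N),
      (n • (D : Divisor Qb (modularFunctionFieldBar N))) v = v.ord f₀) ∧
    u ^ n = gal_Phi ι N f₀ ∧ h67_IsAut N χ u

variable (ι : Qb →+* ℂ)

/-- **(R-HECKE)** the relation `R_n` is stable under `T_ℓ`, `ℓ ∤ N` prime: unconditional
(Hecke inputs: `h88_HI`; degree: `h19_DEG`). -/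
theorem h67_rel_hecke (N : ℕ) [NeZero N] (ℓ : ℕ) [Fact ℓ.Prime] (hℓN : ¬ ℓ ∣ N)
    (n : ℕ) [NeZero n] (ψ : Additive ↥(Gamma0 N) →+ ZMod n) (x : JZero N)
    (h : h67_Rel ι N n (gal_chi n ψ) x) :
    h67_Rel ι N n (gal_chi n (h30_heckeT N ℓ hℓN ψ)) (heckeOperatorBar N ⟨ℓ, Fact.out⟩ x) := by
  have hℓ : ℓ.Prime := Fact.out
  have : NeZero ℓ := ⟨hℓ.ne_zero⟩
  obtain ⟨D, f₀, u, hf₀, rfl, hD, hu, haut⟩ := h
  have hI : HeckeInputsAlong Qb N ℓ := Fermat.Agent.S37.h88_HI N ℓ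
  obtain ⟨D', h1, h2⟩ := h67_heckeOperatorBar_torsion N ⟨ℓ, hℓ⟩ hI D n hf₀ hD
  refine ⟨D', h67_normAlong (heckeAlphaBar Qb N ℓ) (heckeBetaBar Qb N ℓ f₀),
    ∏ x : OnePoint (ZMod ℓ), h67_C (heckeRep ℓ x) (h67_heckeRep_det_pos ℓ x) u, ?_, h1, h2, ?_,
    h67_isAut_hecke N ℓ hℓN n ψ u haut⟩
  · exact h67_normAlong_ne_zero _ hI.2.2.2.1 ((map_ne_zero _).mpr hf₀)
  · rw [h67_Phi_norm ι N ℓ hℓN (Fermat.Agent.S37.h19_DEG N ℓ hℓ hℓN), ← Finset.prod_pow]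
    refine Finset.prod_congr rfl fun x _ => ?_
    rw [← map_pow, hu]

end Rel

end Fermat.Agent.GAL
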