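import Fermat.Agent.GAL.AnThetaMain
import Fermat.Agent.GAL.h55_FMF
import Fermat.Agent.GAL.h55_Deg
import Fermat.Agent.GAL.AnAutPow
import Fermat.Agent.GAL.h36_OrdDvd
import Fermat.Agent.GAL.h22_DescQbar
import Fermat.Agent.GAL.AnThetaAlg
import Fermat.Agent.GAL.h67_HeckeChar

/-!
# GAL, analytic layer: the interface `gal_ThetaProp N n`, unconditionally (helper77)

`gal_thetaProp N n : gal_ThetaProp N n` for every `N, n ≥ 1`: the Hecke-equivariant injection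
`Θ : Hom_pe(Γ₀(N), ℤ/n) → J₀(N)(ℚ̄)` of `h29_Iface.lean`.

Inputs (all kernel-checked rows of the GAL analytic block):
* HOLALG `h55_fmf_hol` (helper55), ORD-DVD `gal_ord_dvd` (helper36), ROOTALG `gal_rootalg`
  (helper79), DESC / DESC-INJ `h22_desc_qbar`, `h22_desc_inj_qbar` (helper22),
  T-DIV / T-PIC `gal_div_root`, `gal_pic0_mk_eq_iff` (helper79), the function `h55_u` (helper55),
  and the Hecke-equivariance `h67_rel_hecke` of the relation (helper67).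
-/

set_option autoImplicit false

open UpperHalfPlane ModularCurve CongruenceSubgroup AlgebraicCurve
open scoped MatrixGroups Manifold

namespace Fermat.Agent.GAL

open Fermat.Agent.S24 Fermat.Agent.S16

local notation "Qb" => AlgebraicClosure ℚ

variable {N : ℕ} [NeZero N]

/-- The relation `gal_R` is helper67's relation `h67_Rel`. -/
theorem gal_R_iff_h67_Rel (n : ℕ) (ι : Qb →+* ℂ) (χ : ↥(Gamma0 N) →* ℂˣ) (x : JZero N) :
    gal_R N n ι χ x ↔ h67_Rel ι N n χ x := by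
  constructor
  · rintro ⟨D, f₀, u, hf₀, hx, hD, hu, hpow⟩
    refine ⟨D, f₀, u, hf₀, hx.symm, fun v => ?_, hpow, h67_isAut_iff_smul.mpr hu⟩
    rw [← hD v, Finsupp.smul_apply, nsmul_eq_mul]
  · rintro ⟨D, f₀, u, hf₀, hx, hD, hpow, hu⟩
    refine ⟨D, f₀, u, hf₀, hx.symm, fun v => ?_, h67_isAut_iff_smul.mp hu, hpow⟩
    rw [← hD v, Finsupp.smul_apply, nsmul_eq_mul]

/-- (HECKE) for `gal_R`, from helper67's `h67_rel_hecke`. -/
theorem gal_heckeRHyp (N : ℕ) [NeZero N] (n : ℕ) [NeZero n] (ι : Qb →+* ℂ) :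
    gal_HeckeRHyp N n ι := by
  intro ℓ _ hℓN _ ψ ψ' hψ' x hx
  subst hψ'
  exact (gal_R_iff_h67_Rel n ι _ _).mpr
    (h67_rel_hecke ι N ℓ hℓN n ψ x ((gal_R_iff_h67_Rel n ι _ _).mp hx))

/-- (DESC) -/
theorem gal_descHyp (N : ℕ) [NeZero N] (n : ℕ) (hn : 0 < n) (ι : Qb →+* ℂ) :
    gal_DescHyp N n ι := by
  haveI := h55_finiteDimensional_C N
  intro f hf hdiv
  exact h22_desc_qbar ι N n hn f hf hdiv

/-- (DESC-INJ) -/
theorem gal_descInjHyp (N : ℕ) [NeZero N] (n : ℕ) (hn : 0 < n) (ι : Qb →+* ℂ) :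
    gal_DescInjHyp N n ι := by
  haveI := h55_finiteDimensional_C N
  intro f₀ hf₀ c g h
  exact h22_desc_inj_qbar ι N n hn f₀ hf₀ c g h

/-- (ROOTALG) -/
theorem gal_rootAlgHyp (N : ℕ) [NeZero N] (n : ℕ) (hn : 0 < n) : gal_RootAlgHyp N n :=
  fun u hinv x hx => gal_rootalg N n hn u hinv x hx

/-- (T-DIV) -/
theorem gal_divRootHyp (N : ℕ) [NeZero N] (n : ℕ) (hn : 0 < n) : gal_DivRootHyp N n :=
  fun f₀ hf₀ h => gal_div_root N n hn f₀ hf₀ h

/-- (T-PIC) -/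
theorem gal_picEqHyp (N : ℕ) [NeZero N] (n : ℕ) (hn : 0 < n) : gal_PicEqHyp N n :=
  fun D D' f₀ f₀' hf₀ hf₀' hD hD' => gal_pic0_mk_eq_iff N n hn D D' f₀ f₀' hf₀ hf₀' hD hD'

/-- **Existence** (unconditional): every `ψ ∈ Hom_pe(Γ₀(N), ℤ/n)` is related to a point of
`J₀(N)(ℚ̄)`. -/
theorem gal_R_exists_uncond (n : ℕ) [NeZero n] (ι : Qb →+* ℂ) (ψ : gal_Hpe N n) :
    ∃ x : JZero N, gal_R N n ι (gal_chi n (ψ : Additive ↥(Gamma0 N) →+ ZMod n)) x := by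
  have hn : 0 < n := Nat.pos_of_ne_zero (NeZero.ne n)
  have hψ : (ψ : Additive ↥(Gamma0 N) →+ ZMod n) ∈ gal_PE N (ZMod n) := ψ.2
  set χ := gal_chi n (ψ : Additive ↥(Gamma0 N) →+ ZMod n) with hχ
  have hχn : ∀ γ : ↥(Gamma0 N), χ γ ^ n = 1 := fun γ => gal_chi_pow n _ γ
  have hpar : ∀ γ : ↥(Gamma0 N),
      ((γ : SL(2, ℤ)) : Matrix (Fin 2) (Fin 2) ℤ).trace ^ 2 = 4 → χ γ = 1 :=
    fun γ h => gal_chi_of_trace hψ γ h
  have hfin : ∀ γ : ↥(Gamma0 N), IsOfFinOrder γ → χ γ = 1 :=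
    fun γ h => gal_chi_of_finOrder hψ γ h
  have hA : h55_Aut N χ (h55_u N χ) := h55_aut_u χ hn hχn hpar
  have hU0 : ∃ τ, h55_u N χ τ ≠ 0 :=
    h55_u_ne_zero χ (h55_norm_of_pow χ hn hχn) (h55_upper_of_par χ hpar)
  have hA1 : h55_Aut N 1 (fun τ => h55_u N χ τ ^ n) := hA.pow_of_pow_eq_one hχn
  obtain ⟨f, hf⟩ := h55_fmf_hol N _ hA1.1 hA1.invariant hA1.2.2
  set Uh : h25_Hol := ⟨h55_u N χ, hA.1⟩ with hUh
  have hUh0 : Uh ≠ 0 := by
    obtain ⟨τ, hτ⟩ := hU0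
    intro h0
    exact hτ (congrFun (congrArg Subtype.val h0) τ)
  have hf' : gal_Phi (RingHom.id ℂ) N f = algebraMap h25_Hol h25_Mer (Uh ^ n) := by
    rw [hf]
    rfl
  have hinj : Function.Injective (algebraMap h25_Hol h25_Mer) :=
    IsFractionRing.injective h25_Hol h25_Mer
  have hf0 : f ≠ 0 := by
    rintro rfl
    rw [map_zero] at hf'
    exact pow_ne_zero n hUh0 (hinj (by rw [← hf', map_zero]))
  have hdiv : ∀ P : Place ℂ (gal_F ℂ N), (n : ℤ) ∣ P.ord f :=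
    fun P => gal_ord_dvd (RingHom.id ℂ) N n hn χ hpar hfin (h55_u N χ) hA f hf' P
  obtain ⟨c, g, f₀, hc, hg, hf₀, hfeq, hQ⟩ := gal_descHyp N n hn ι f hf0 hdiv
  obtain ⟨D, hD⟩ := gal_div_root N n hn f₀ hf₀ hQ
  obtain ⟨c', hc'⟩ := IsAlgClosed.exists_pow_nat_eq c hn
  have hc'0 : c' ≠ 0 := by
    rintro rfl
    rw [zero_pow hn.ne'] at hc'
    exact hc hc'.symm
  have hg' : gal_Phi (RingHom.id ℂ) N g ≠ 0 := (map_ne_zero _).mpr hg
  have hk : h74_constHom c' ≠ 0 := gal_constHom_ne_zero hc'0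
  refine ⟨Pic0.mk D, D, f₀,
    (h74_constHom c')⁻¹ * (gal_Phi (RingHom.id ℂ) N g)⁻¹ * algebraMap h25_Hol h25_Mer Uh,
    hf₀, rfl, hD, ?_, ?_⟩
  · exact (((gal_isAut_const N c').inv.mul (gal_isAut_Phi (RingHom.id ℂ) N g).inv).mul
      (gal_isAut_algebraMap (χ := χ) Uh hA.2.1)).congr_char (fun γ => by simp)
  · have h1 : gal_Phi (RingHom.id ℂ) N f = h74_constHom c' ^ n *
        gal_Phi (RingHom.id ℂ) N g ^ n * gal_Phi ι N f₀ := by
      rw [hfeq, map_mul, map_mul, map_pow, gal_Phi_const, RingHom.id_apply, ← hc', map_pow,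
        gal_Phi_bc]
    rw [mul_pow, mul_pow, inv_pow, inv_pow, ← map_pow (algebraMap h25_Hol h25_Mer), ← hf', h1]
    field_simp

/-- **THETA** (the GAL analytic interface), unconditionally: for all `N, n ≥ 1` there is an
injective additive map `Θ : Hom_pe(Γ₀(N), ℤ/n) → J₀(N)(ℚ̄)` intertwining the Hecke operators
`T_ℓ`, `ℓ ∤ N n`. -/
theorem gal_thetaProp (N : ℕ) [NeZero N] (n : ℕ) [NeZero n] : gal_ThetaProp N n :=
  have hn : 0 < n := Nat.pos_of_ne_zero (NeZero.ne n)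
  gal_thetaProp_of_R N n h78_iota (gal_R_exists_uncond n h78_iota)
    (gal_R_unique hn (gal_rootAlgHyp N n hn) (gal_descInjHyp N n hn h78_iota)
      (gal_picEqHyp N n hn))
    (gal_R_char_unique hn (gal_picEqHyp N n hn)) (gal_heckeRHyp N n h78_iota)

end Fermat.Agent.GAL
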