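import Mathlib
import Fermat.Agent.S14.GalVal
import Fermat.Agent.S14.FLD_Toolkit
import Fermat.Agent.S14.h28_FldGen
import Fermat.Agent.S54.Frob

/-!
# GAL-3e (row 344): weak Chebotarev over `ℚ` in the prelude's Frobenius language

`h31_weak_chebotarev_of_inert`: the statement `gal_weak_chebotarev` of row 307, proved from the
number-field input `h5_exists_inert` (an inert degree-one prime in a cyclic extension), which is
taken as an explicit hypothesis.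
-/

set_option autoImplicit false
set_option linter.style.haveILetI false

namespace Fermat.Agent.GAL

open NumberField IsDedekindDomain

local notation "Qb" => AlgebraicClosure ℚ

/-- Elementwise form of the prelude's `IsFrobeniusAt`. -/
theorem h31_isFrobeniusAt_iff (A : ValuationSubring Qb) (σ : Qb ≃ₐ[ℚ] Qb) (ℓ : ℕ) :
    A.IsFrobeniusAt σ ℓ ↔
      σ ∈ A.decompositionSubgroup ℚ ∧ ∀ a ∈ A, σ a - a ^ ℓ ∈ A.nonunits := by
  constructor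
  · rintro ⟨hσ, h⟩
    refine ⟨hσ, fun a ha => ?_⟩
    have h1 := h (IsLocalRing.residue A ⟨a, ha⟩)
    rw [← IsLocalRing.ResidueField.residue_smul, ← map_pow] at h1
    have h2 : ((⟨σ, hσ⟩ : A.decompositionSubgroup ℚ) • (⟨a, ha⟩ : A)) - (⟨a, ha⟩ : A) ^ ℓ
        ∈ IsLocalRing.maximalIdeal A := Ideal.Quotient.eq.mp h1
    rw [← ValuationSubring.coe_mem_nonunits_iff] at h2
    exact h2
  · rintro ⟨hσ, h⟩
    refine ⟨hσ, fun x => ?_⟩
    obtain ⟨a, rfl⟩ := IsLocalRing.residue_surjective x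
    rw [← IsLocalRing.ResidueField.residue_smul, ← map_pow]
    apply Ideal.Quotient.eq.mpr
    rw [← ValuationSubring.coe_mem_nonunits_iff]
    exact h a.1 a.2

/-- Elements of the decomposition group preserve the valuation subring. -/
theorem h31_decomp_mem (A : ValuationSubring Qb) (σ : Qb ≃ₐ[ℚ] Qb)
    (hσ : σ ∈ A.decompositionSubgroup ℚ) {a : Qb} (ha : a ∈ A) : σ a ∈ A :=
  ((⟨σ, hσ⟩ : A.decompositionSubgroup ℚ) • (⟨a, ha⟩ : A)).2

/-- Elements of the inertia group act trivially modulo the maximal ideal. -/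
theorem h31_inertia_sub_mem (A : ValuationSubring Qb) (ι : Qb ≃ₐ[ℚ] Qb)
    (hι : ι ∈ A.inertiaSubgroupIn ℚ) :
    ι ∈ A.decompositionSubgroup ℚ ∧ ∀ a ∈ A, ι a - a ∈ A.nonunits := by
  obtain ⟨i, hi, rfl⟩ := hι
  refine ⟨i.2, fun a ha => ?_⟩
  have h1 : MulSemiringAction.toRingAut (A.decompositionSubgroup ℚ)
      (IsLocalRing.ResidueField A) i = 1 := hi
  have h2 : i • IsLocalRing.residue A ⟨a, ha⟩ = IsLocalRing.residue A ⟨a, ha⟩ := by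
    have := congrArg (fun f : RingAut (IsLocalRing.ResidueField A) =>
      f (IsLocalRing.residue A ⟨a, ha⟩)) h1
    simpa using this
  rw [← IsLocalRing.ResidueField.residue_smul] at h2
  have h3 : (i • (⟨a, ha⟩ : A)) - (⟨a, ha⟩ : A) ∈ IsLocalRing.maximalIdeal A :=
    Ideal.Quotient.eq.mp h2
  rw [← ValuationSubring.coe_mem_nonunits_iff] at h3
  exact h3


/-- Two distinct rational primes cannot both lie in a proper ideal. -/
theorem h31_prime_unique {R : Type*} [CommRing R] (P : Ideal R) (hP : P ≠ ⊤) {ℓ ℓ' : ℕ}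
    (hℓ : ℓ.Prime) (hℓ' : ℓ'.Prime) (h : (ℓ : R) ∈ P) (h' : (ℓ' : R) ∈ P) : ℓ = ℓ' := by
  by_contra hne
  have hc : IsCoprime (ℓ : ℤ) (ℓ' : ℤ) :=
    Nat.isCoprime_iff_coprime.mpr ((Nat.coprime_primes hℓ hℓ').mpr hne)
  obtain ⟨a, b, hab⟩ := hc
  apply hP
  rw [Ideal.eq_top_iff_one]
  have h1 : ((a * (ℓ : ℤ) + b * (ℓ' : ℤ) : ℤ) : R) = 1 := by rw [hab]; simp
  rw [← h1]
  push_cast
  exact P.add_mem (P.mul_mem_left _ h) (P.mul_mem_left _ h')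

section main

variable (L : IntermediateField ℚ Qb) [IsGalois ℚ L]

/-- Restriction to `L` of an automorphism of `Qb`, evaluated. -/
theorem h31_restrict_apply (σ : Qb ≃ₐ[ℚ] Qb) (x : ↥L) :
    ((AlgEquiv.restrictNormalHom L σ x : ↥L) : Qb) = σ (x : Qb) :=
  AlgEquiv.restrictNormal_commutes σ L x

theorem h31_restrict_apply' (σ : Qb ≃ₐ[ℚ] Qb) (x : Qb) (hx : x ∈ L) :
    σ x = ((AlgEquiv.restrictNormalHom L σ ⟨x, hx⟩ : ↥L) : Qb) :=
  (h31_restrict_apply L σ ⟨x, hx⟩).symm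

variable [FiniteDimensional ℚ L]

theorem h31_weak_chebotarev_of_inert
    (hinert : ∀ {E M : Type} [Field E] [NumberField E] [Field M] [NumberField M] [Algebra E M]
      [IsGalois E M] [IsCyclic (M ≃ₐ[E] M)] (Bad : Set (HeightOneSpectrum (𝓞 E))), Bad.Finite →
      ∃ v : HeightOneSpectrum (𝓞 E), v ∉ Bad ∧ (Ideal.absNorm v.asIdeal).Prime ∧
        ∀ w : HeightOneSpectrum (𝓞 M), w.under (𝓞 E) = v →
          w.asIdeal.ramificationIdx (𝓞 E) = 1 ∧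
            w.asIdeal.inertiaDeg (𝓞 E) = Module.finrank E M)
    (g : Qb ≃ₐ[ℚ] Qb) (S : Finset ℕ) :
    ∃ (ℓ : ℕ) (A : ValuationSubring Qb) (σ : Qb ≃ₐ[ℚ] Qb) (a b : ℕ),
      ℓ.Prime ∧ ℓ ∉ S ∧ A.LiesOverPrime ℓ ∧ A.IsFrobeniusAt σ ℓ ∧
        (∀ x ∈ L, σ x = (g ^ a) x) ∧ (∀ x ∈ L, (σ ^ b) x = g x) := by
  classical
  haveI : NumberField ↥L := { }
  haveI := Fermat.Agent.S54.normalQbar
  set g0 : ↥L ≃ₐ[ℚ] ↥L := AlgEquiv.restrictNormalHom L g with hg0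
  set H : Subgroup (↥L ≃ₐ[ℚ] ↥L) := Subgroup.zpowers g0 with hH
  set E : IntermediateField ℚ ↥L := IntermediateField.fixedField H with hE
  haveI : NumberField ↥E := { }
  have hfix : E.fixingSubgroup = H := IntermediateField.fixingSubgroup_fixedField H
  let e : ↥E.fixingSubgroup ≃* (↥L ≃ₐ[↥E] ↥L) := IntermediateField.fixingSubgroupEquiv E
  haveI hcycH : IsCyclic ↥E.fixingSubgroup := by
    rw [hfix]; infer_instance
  haveI : IsCyclic (↥L ≃ₐ[↥E] ↥L) := isCyclic_of_surjective e e.surjective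
  -- the bad set
  let Bad : Set (HeightOneSpectrum (𝓞 ↥E)) :=
    ⋃ q ∈ (S.filter Nat.Prime : Finset ℕ), {v | v.asIdeal ∣ Ideal.span {(q : 𝓞 ↥E)}}
  have hBad : Bad.Finite := by
    refine Set.Finite.biUnion (Finset.finite_toSet _) (fun q hq => ?_)
    have hq' : q.Prime := (Finset.mem_filter.mp hq).2
    refine Ideal.finite_factors ?_
    rw [Ne, Ideal.zero_eq_bot, Ideal.span_singleton_eq_bot]
    exact_mod_cast hq'.ne_zero
  obtain ⟨v, hvBad, hvprime, hvw⟩ := hinert (E := ↥E) (M := ↥L) Bad hBad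
  set ℓ : ℕ := Ideal.absNorm v.asIdeal with hℓdef
  have hℓv : (ℓ : 𝓞 ↥E) ∈ v.asIdeal := Ideal.absNorm_mem v.asIdeal
  have hℓS : ℓ ∉ S := by
    intro hS
    apply hvBad
    simp only [Bad, Set.mem_iUnion]
    exact ⟨ℓ, Finset.mem_filter.mpr ⟨hS, hvprime⟩,
      Ideal.dvd_span_singleton.mpr hℓv⟩
  -- a prime of `L` above `v`
  haveI := v.isPrime
  obtain ⟨𝔓, h𝔓prime, h𝔓under⟩ := Fermat.Agent.S14.fldT_exists_over (E := ↥E) (M := ↥L) v.asIdeal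
  have h𝔓ne : 𝔓 ≠ ⊥ := by
    rintro rfl
    apply v.ne_bot
    rw [← h𝔓under]
    exact Ideal.under_bot _ _
  let wH : HeightOneSpectrum (𝓞 ↥L) := ⟨𝔓, h𝔓prime, h𝔓ne⟩
  have hwH : wH.under (𝓞 ↥E) = v := by
    apply HeightOneSpectrum.ext
    exact h𝔓under
  have hf : 𝔓.inertiaDeg (𝓞 ↥E) = Module.finrank ↥E ↥L := (hvw wH hwH).2
  -- the valuation subring
  obtain ⟨A, ℓ', hℓ', hAℓ', hℓ'𝔓, hA⟩ :=
    Fermat.Agent.S14.gal_exists_valuationSubring ↥L (algebraMap ↥L Qb) 𝔓 h𝔓ne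
  have hℓ𝔓 : ((ℓ : ℕ) : 𝓞 ↥L) ∈ 𝔓 := by
    have h1 : algebraMap (𝓞 ↥E) (𝓞 ↥L) (ℓ : 𝓞 ↥E) ∈ 𝔓 := by
      have : (ℓ : 𝓞 ↥E) ∈ 𝔓.under (𝓞 ↥E) := by rw [h𝔓under]; exact hℓv
      exact this
    simpa using h1
  have hℓℓ' : ℓ = ℓ' := h31_prime_unique 𝔓 h𝔓prime.ne_top hvprime hℓ' hℓ𝔓 hℓ'𝔓
  have hAℓ : A.LiesOverPrime ℓ := by rw [hℓℓ']; exact hAℓ'
  -- integral elements of `L` and the prime `𝔓`
  have hint_mem : ∀ x : Qb, IsIntegral ℤ x → x ∈ A := fun x hx =>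
    Fermat.Agent.S13.h24_integral_mem A hx
  -- a Frobenius at `A`
  obtain ⟨σ₀, hσ₀⟩ := Fermat.Agent.S54.exists_isFrobeniusAt_of_liesOverPrime A ℓ hvprime hAℓ
  obtain ⟨hσ₀D, hσ₀F⟩ := (h31_isFrobeniusAt_iff A σ₀ ℓ).mp hσ₀
  -- an arithmetic Frobenius in `Gal(L/E)`
  haveI : Finite (𝓞 ↥L ⧸ 𝔓) := Ideal.finiteQuotientOfFreeOfNeBot 𝔓 h𝔓ne
  obtain ⟨φ, hφ⟩ := IsArithFrobAt.exists_of_isInvariant (𝓞 ↥E) (↥L ≃ₐ[↥E] ↥L) 𝔓
  have hcard : Nat.card (𝓞 ↥E ⧸ 𝔓.under (𝓞 ↥E)) = ℓ := by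
    rw [h𝔓under, hℓdef, Ideal.absNorm_apply, Submodule.cardQuot_apply]
  have hφ' : ∀ x : 𝓞 ↥L, φ • x - x ^ ℓ ∈ 𝔓 := by
    intro x
    have := hφ x
    rw [hcard] at this
    exact this
  -- `φ` as an element of `H ≤ Gal(L/ℚ)`
  set φ' : ↥L ≃ₐ[ℚ] ↥L := ((e.symm φ : ↥E.fixingSubgroup) : ↥L ≃ₐ[ℚ] ↥L) with hφ'def
  have hφ'H : φ' ∈ H := by
    rw [← hfix]; exact (e.symm φ).2
  have hφ'apply : ∀ x : ↥L, φ' x = φ x := fun x => rfl
  -- a lift of `φ'` to `Qb`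
  obtain ⟨φt, hφt⟩ := AlgEquiv.restrictNormalHom_surjective (F := ℚ) (K₁ := ↥L) Qb φ'
  have hφtL : ∀ x : ↥L, φt (x : Qb) = ((φ' x : ↥L) : Qb) := by
    intro x
    rw [← hφt]
    exact (h31_restrict_apply L φt x).symm
  have hφtsymm : ∀ x : ↥L, φt.symm (x : Qb) = ((φ'.symm x : ↥L) : Qb) := by
    intro x
    rw [AlgEquiv.symm_apply_eq, hφtL, AlgEquiv.apply_symm_apply]
  -- `τ = σ₀ φt⁻¹` acts trivially on integers of `L` modulo `m_A`
  set τ : Qb ≃ₐ[ℚ] Qb := σ₀ * φt⁻¹ with hτdef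
  have hτ : ∀ x ∈ L, IsIntegral ℤ x → τ x - x ∈ A.nonunits := by
    intro x hx hxint
    set yL : ↥L := φ'.symm ⟨x, hx⟩ with hyL
    have hxL : IsIntegral ℤ (⟨x, hx⟩ : ↥L) :=
      (isIntegral_algebraMap_iff (algebraMap ↥L Qb).injective).mp hxint
    have hyint : IsIntegral ℤ yL := map_isIntegral_int φ'.symm hxL
    let yO : 𝓞 ↥L := ⟨yL, hyint⟩
    have h1 := hφ' yO
    have h2 := (hA (φ • yO - yO ^ ℓ)).2.mpr h1
    have h3 : (algebraMap ↥L Qb) ((φ • yO - yO ^ ℓ : 𝓞 ↥L) : ↥L) = x - (yL : Qb) ^ ℓ := by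
      have : ((φ • yO - yO ^ ℓ : 𝓞 ↥L) : ↥L) = φ yL - yL ^ ℓ := rfl
      rw [this, ← hφ'apply, hyL, AlgEquiv.apply_symm_apply]
      rfl
    rw [h3] at h2
    have hyA : (yL : Qb) ∈ A :=
      hint_mem _ ((isIntegral_algebraMap_iff (algebraMap ↥L Qb).injective).mpr hyint)
    have h4 := hσ₀F (yL : Qb) hyA
    have h5 : τ x = σ₀ (yL : Qb) := by
      rw [hτdef, AlgEquiv.mul_apply, hyL, ← hφtsymm]
      rfl
    have h6 : τ x - x = (σ₀ (yL : Qb) - (yL : Qb) ^ ℓ) - (x - (yL : Qb) ^ ℓ) := by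
      rw [h5]; ring
    rw [h6]
    exact Fermat.Agent.S13.h24_sub_mem_nonunits A h4 h2
  obtain ⟨ι, hιI, hιL⟩ := Fermat.Agent.S13.h24_exists_inertia_lift_Qbar L A τ hτ
  have hιinvI : ι⁻¹ ∈ A.inertiaSubgroupIn ℚ := inv_mem hιI
  obtain ⟨hιinvD, hιinvsub⟩ := h31_inertia_sub_mem A ι⁻¹ hιinvI
  set σ : Qb ≃ₐ[ℚ] Qb := ι⁻¹ * σ₀ with hσdef
  have hσFrob : A.IsFrobeniusAt σ ℓ := by
    rw [h31_isFrobeniusAt_iff]
    refine ⟨mul_mem hιinvD hσ₀D, fun a ha => ?_⟩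
    have hb : σ₀ a ∈ A := h31_decomp_mem A σ₀ hσ₀D ha
    have h1 := hιinvsub (σ₀ a) hb
    have h2 := hσ₀F a ha
    have h3 : σ a - a ^ ℓ = (ι⁻¹ (σ₀ a) - σ₀ a) + (σ₀ a - a ^ ℓ) := by
      rw [hσdef, AlgEquiv.mul_apply]; ring
    rw [h3]
    exact Fermat.Agent.S13.h24_add_mem_nonunits A h1 h2
  -- `σ` restricted to `L` is `φ'`
  have hσL : ∀ x : ↥L, σ (x : Qb) = ((φ' x : ↥L) : Qb) := by
    intro x
    have h1 : ι (φt (x : Qb)) = σ₀ (x : Qb) := by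
      rw [hφtL x, hιL _ (φ' x).2, hτdef, AlgEquiv.mul_apply, ← hφtL x]
      congr 1
      exact φt.symm_apply_apply _
    rw [hσdef, AlgEquiv.mul_apply, ← h1, ← hφtL x]
    exact ι.symm_apply_apply _
  have hσres : AlgEquiv.restrictNormalHom L σ = φ' := by
    ext x
    rw [h31_restrict_apply L σ x, hσL x]
  -- `φ'` is a power of `g0`
  obtain ⟨a, ha⟩ : ∃ a : ℕ, g0 ^ a = φ' := by
    have h1 : φ' ∈ Submonoid.powers g0 := mem_powers_iff_mem_zpowers.mpr hφ'H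
    exact h1
  -- the order of `φ` is at least `[L : E]`
  have hmax : 𝔓.IsMaximal := h𝔓prime.isMaximal h𝔓ne
  letI := Ideal.Quotient.field 𝔓
  have hordφ : Module.finrank ↥E ↥L ≤ orderOf φ := by
    have hj0 : 0 < orderOf φ := orderOf_pos φ
    have hpow : ∀ y : 𝓞 ↥L ⧸ 𝔓, y ^ (ℓ ^ orderOf φ) = y := by
      intro y
      obtain ⟨x, rfl⟩ := Ideal.Quotient.mk_surjective y
      have h1 := Fermat.Agent.S14.h28_frob_pow hφ (orderOf φ) x
      rw [pow_orderOf_eq_one, one_smul, hcard] at h1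
      rw [← map_pow]
      exact (Ideal.Quotient.eq.mpr h1).symm
    have h1lt : 1 < ℓ ^ orderOf φ := Nat.one_lt_pow hj0.ne' hvprime.one_lt
    have h2 := Fermat.Agent.S14.h73_card_le_of_pow_eq (κ := 𝓞 ↥L ⧸ 𝔓) (ℓ ^ orderOf φ) h1lt hpow
    haveI : 𝔓.LiesOver v.asIdeal := ⟨h𝔓under.symm⟩
    have h3 := Ideal.absNorm_pow_inertiaDeg v.asIdeal 𝔓
    rw [hf, ← hℓdef, Ideal.absNorm_apply 𝔓, Submodule.cardQuot_apply] at h3
    rw [← h3] at h2
    exact (Nat.pow_le_pow_iff_right hvprime.one_lt).mp h2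
  have hordφ' : orderOf φ' = orderOf φ := by
    rw [hφ'def, Subgroup.orderOf_coe]
    exact MulEquiv.orderOf_eq e.symm φ
  have hcardH : Nat.card ↥H = Module.finrank ↥E ↥L := by
    rw [← IsGalois.card_aut_eq_finrank ↥E ↥L, ← hfix]
    exact Nat.card_congr e.toEquiv
  have hzp : Subgroup.zpowers φ' = H := by
    apply Subgroup.eq_of_le_of_card_ge
    · rw [Subgroup.zpowers_le]; exact hφ'H
    · calc Nat.card ↥H = Module.finrank ↥E ↥L := hcardH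
        _ ≤ orderOf φ := hordφ
        _ = orderOf φ' := hordφ'.symm
        _ = Nat.card ↥(Subgroup.zpowers φ') := (Nat.card_zpowers φ').symm
  obtain ⟨b, hb⟩ : ∃ b : ℕ, φ' ^ b = g0 := by
    have h1 : g0 ∈ Subgroup.zpowers φ' := by
      rw [hzp]; exact Subgroup.mem_zpowers g0
    exact mem_powers_iff_mem_zpowers.mpr h1
  refine ⟨ℓ, A, σ, a, b, hvprime, hℓS, hAℓ, hσFrob, fun x hx => ?_, fun x hx => ?_⟩
  · rw [h31_restrict_apply' L σ x hx, h31_restrict_apply' L (g ^ a) x hx, hσres, map_pow, ← hg0,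
      ha]
  · rw [h31_restrict_apply' L (σ ^ b) x hx, h31_restrict_apply' L g x hx, map_pow, hσres, hb]

end main

end Fermat.Agent.GAL
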