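import Mathlib
import Fermat.Agent.S14.NS

/-!
# GAL-3c (WCHEB-ARITH): splitting in intermediate fields of a cyclic extension

* `h5_exists_intermediate`: a cyclic extension has a (Galois) intermediate field of every degree
  dividing the degree;
* `h5_unramified_intermediate`: a prime unramified in `M` is unramified in every intermediate
  field;
* `h5_split_iff_dvd`: in a cyclic extension `M / E` of number fields, a prime `v` of `E` splits
  completely in the intermediate field `K` iff `[K : E]` divides the number of primes of `M`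
  above `v`.

Proof of the last statement: for a prime `u` of `K` over `v` and a prime `w` of `M` over `u`, let
`D` be the decomposition group of `w` in `G = Gal(M/E)` and `H ≤ G` the subgroup fixing `K`.
Then `|D| = e(w|v) f(w|v)`, `|D ⊓ H| = e(w|u) f(w|u)`, hence `|D| = e(u|v) f(u|v) |D ⊓ H|` and
`e(u|v) f(u|v) = 1 ↔ D ≤ H ↔ |D| ∣ |H|` (`G` cyclic) `↔ [K : E] ∣ g`.
-/

set_option autoImplicit false

namespace Fermat.Agent.GAL

open NumberField IsDedekindDomain
open Fermat.Agent.S14

/-- In a finite cyclic group, a subgroup whose order divides the order of another subgroup is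
contained in it. -/
theorem h68_cyclic_le_of_card_dvd {G : Type*} [Group G] [Finite G] [IsCyclic G]
    (D H : Subgroup G) (h : Nat.card D ∣ Nat.card H) : D ≤ H := by
  classical
  have : Fintype G := Fintype.ofFinite G
  intro x hx
  have hxa : x ^ Nat.card D = 1 := by
    have h1 : (⟨x, hx⟩ : D) ^ Nat.card D = 1 := pow_card_eq_one'
    have h2 : (((⟨x, hx⟩ : D) ^ Nat.card D : D) : G) = ((1 : D) : G) := congrArg Subtype.val h1
    rw [Subgroup.coe_pow, Subgroup.coe_one] at h2
    exact h2
  have hxb : x ^ Nat.card H = 1 := by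
    obtain ⟨c, hc⟩ := h
    rw [hc, pow_mul, hxa, one_pow]
  have hpos : 0 < Nat.card H := Nat.card_pos
  have hle := IsCyclic.card_pow_eq_one_le (α := G) hpos
  by_contra hxH
  have hsub : insert x (Finset.univ.filter (· ∈ H)) ⊆
      Finset.univ.filter (fun a : G => a ^ Nat.card H = 1) := by
    intro y hy
    rw [Finset.mem_insert] at hy
    rw [Finset.mem_filter]
    refine ⟨Finset.mem_univ _, ?_⟩
    rcases hy with rfl | hy
    · exact hxb
    · rw [Finset.mem_filter] at hy
      have h1 : (⟨y, hy.2⟩ : H) ^ Nat.card H = 1 := pow_card_eq_one'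
      have h2 : (((⟨y, hy.2⟩ : H) ^ Nat.card H : H) : G) = ((1 : H) : G) :=
        congrArg Subtype.val h1
      rw [Subgroup.coe_pow, Subgroup.coe_one] at h2
      exact h2
  have hcard : (insert x (Finset.univ.filter (· ∈ H))).card = Nat.card H + 1 := by
    rw [Finset.card_insert_of_notMem (by simpa using hxH)]
    congr 1
    rw [Nat.card_eq_fintype_card, Fintype.card_subtype]
  have := Finset.card_le_card hsub
  omega

/-- (W3a) intermediate fields of every degree in a cyclic extension. -/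
theorem h5_exists_intermediate {E M : Type*} [Field E] [Field M] [Algebra E M]
    [FiniteDimensional E M] [IsGalois E M] [IsCyclic (M ≃ₐ[E] M)] (d : ℕ)
    (hd : d ∣ Module.finrank E M) :
    ∃ K : IntermediateField E M, Module.finrank E K = d ∧ IsGalois E K := by
  classical
  obtain ⟨g, hg⟩ := IsCyclic.exists_generator (α := M ≃ₐ[E] M)
  have hn : Nat.card (M ≃ₐ[E] M) = Module.finrank E M := IsGalois.card_aut_eq_finrank E M
  have hord : orderOf g = Module.finrank E M := by
    rw [← hn]
    exact orderOf_eq_card_of_forall_mem_zpowers hg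
  have hnpos : 0 < Module.finrank E M := Module.finrank_pos
  obtain ⟨m, hm⟩ := hd
  have hmpos : 0 < m := by
    rcases Nat.eq_zero_or_pos m with h0 | h0
    · rw [h0, mul_zero] at hm
      omega
    · exact h0
  have hdpos : 0 < d := by
    rcases Nat.eq_zero_or_pos d with h0 | h0
    · rw [h0, zero_mul] at hm
      omega
    · exact h0
  let H : Subgroup (M ≃ₐ[E] M) := Subgroup.zpowers (g ^ d)
  have hH : Nat.card H = m := by
    rw [Nat.card_zpowers, orderOf_pow, hord, hm, Nat.gcd_eq_right (dvd_mul_right d m),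
      Nat.mul_div_cancel_left m hdpos]
  refine ⟨IntermediateField.fixedField H, ?_, ?_⟩
  · have h1 : Module.finrank (IntermediateField.fixedField H) M = m := by
      rw [IntermediateField.finrank_fixedField_eq_card, hH]
    have h2 := Module.finrank_mul_finrank E (IntermediateField.fixedField H) M
    rw [h1, hm] at h2
    exact Nat.eq_of_mul_eq_mul_right hmpos h2
  · exact IsGalois.of_fixedField_normal_subgroup H

/-- (W3c) unramified in `M` implies unramified in an intermediate field. -/
theorem h5_unramified_intermediate {E M : Type*} [Field E] [NumberField E] [Field M]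
    [NumberField M] [Algebra E M] (K : IntermediateField E M)
    (v : HeightOneSpectrum (𝓞 E)) (hv : h84_Unramified E M v) : h84_Unramified E K v := by
  intro u hu
  obtain ⟨⟨Q, hQ⟩⟩ := (inferInstance : Nonempty (u.asIdeal.primesOver (𝓞 M)))
  have hQ1 : Q.IsPrime := hQ.1
  have hQ2 : Q.LiesOver u.asIdeal := hQ.2
  have hQ0 : Q ≠ ⊥ := h84_ne_bot_of_liesOver (↥K) M u.asIdeal u.ne_bot Q hQ2
  have hQv : (⟨Q, hQ1, hQ0⟩ : HeightOneSpectrum (𝓞 M)).under (𝓞 E) = v := by
    rw [← hu]
    apply HeightOneSpectrum.ext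
    show Q.under (𝓞 E) = u.asIdeal.under (𝓞 E)
    rw [hQ2.over, Ideal.under_under]
  have h1 : Q.ramificationIdx (𝓞 E) = 1 := hv ⟨Q, hQ1, hQ0⟩ hQv
  have h2 : Q.ramificationIdx (𝓞 E) =
      u.asIdeal.ramificationIdx (𝓞 E) * Q.ramificationIdx (𝓞 K) :=
    Ideal.ramificationIdx_tower u.asIdeal Q
  rw [h1] at h2
  exact Nat.eq_one_of_mul_eq_one_right h2.symm

open scoped Pointwise in
/-- Key step for `h5_split_iff_dvd`: for a prime `u` of `K` over `v` (and a prime `Q` of `M`
over `u`), `e(u|v) f(u|v) = 1` iff `[K : E]` divides the number of primes of `M` over `v`. -/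
theorem h68_ef_eq_one_iff {E M : Type*} [Field E] [NumberField E] [Field M] [NumberField M]
    [Algebra E M] [IsGalois E M] [IsCyclic (M ≃ₐ[E] M)] (K : IntermediateField E M)
    (v : HeightOneSpectrum (𝓞 E)) (u : HeightOneSpectrum (𝓞 K))
    (hu : u.under (𝓞 E) = v) (Q : Ideal (𝓞 M)) [Q.IsPrime] [Q.LiesOver u.asIdeal] :
    u.asIdeal.ramificationIdx (𝓞 E) * u.asIdeal.inertiaDeg (𝓞 E) = 1 ↔
      Module.finrank E K ∣ (v.asIdeal.primesOver (𝓞 M)).ncard := by
  classical
  have hPp : u.asIdeal.LiesOver v.asIdeal := ⟨(congrArg HeightOneSpectrum.asIdeal hu).symm⟩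
  have hQp : Q.LiesOver v.asIdeal := Ideal.LiesOver.trans Q u.asIdeal v.asIdeal
  let H : Subgroup (M ≃ₐ[E] M) := fixingSubgroup (M ≃ₐ[E] M) (K : Set M)
  have hGal : IsGaloisGroup H (𝓞 K) (𝓞 M) :=
    instIsGaloisGroupRingOfIntegersOfNumberField (↥K) M ↥H
  let D : Subgroup (M ≃ₐ[E] M) := MulAction.stabilizer (M ≃ₐ[E] M) Q
  -- cardinalities of the decomposition groups
  have hD : Nat.card D = Q.ramificationIdx (𝓞 E) * Q.inertiaDeg (𝓞 E) := by
    rw [Ideal.card_stabilizer_eq (G := (M ≃ₐ[E] M)) v.asIdeal Q,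
      Ideal.ramificationIdxIn_eq_ramificationIdx v.asIdeal Q (M ≃ₐ[E] M),
      Ideal.inertiaDegIn_eq_inertiaDeg v.asIdeal Q (M ≃ₐ[E] M)]
  have hDH : Nat.card (D.subgroupOf H) = Q.ramificationIdx (𝓞 K) * Q.inertiaDeg (𝓞 K) := by
    have h := Ideal.card_stabilizer_eq (G := H) u.asIdeal Q
    rw [Ideal.ramificationIdxIn_eq_ramificationIdx u.asIdeal Q H,
      Ideal.inertiaDegIn_eq_inertiaDeg u.asIdeal Q H] at h
    rw [← h]
    refine Nat.card_congr (Equiv.subtypeEquivRight fun σ => ?_)
    rw [Subgroup.mem_subgroupOf, MulAction.mem_stabilizer_iff, MulAction.mem_stabilizer_iff]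
    exact Iff.rfl
  have he : Q.ramificationIdx (𝓞 E) =
      u.asIdeal.ramificationIdx (𝓞 E) * Q.ramificationIdx (𝓞 K) :=
    Ideal.ramificationIdx_tower u.asIdeal Q
  have hf : Q.inertiaDeg (𝓞 E) = u.asIdeal.inertiaDeg (𝓞 E) * Q.inertiaDeg (𝓞 K) :=
    Ideal.inertiaDeg_tower u.asIdeal Q
  -- `|D| = e(u|v) f(u|v) |D ⊓ H|`
  have hinf : Nat.card (D.subgroupOf H) = Nat.card (D ⊓ H : Subgroup (M ≃ₐ[E] M)) := by
    rw [← Subgroup.inf_subgroupOf_right D H]
    exact Nat.card_congr (Subgroup.subgroupOfEquivOfLe (inf_le_right : D ⊓ H ≤ H)).toEquiv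
  have hmain : Nat.card D =
      (u.asIdeal.ramificationIdx (𝓞 E) * u.asIdeal.inertiaDeg (𝓞 E)) *
        Nat.card (D ⊓ H : Subgroup (M ≃ₐ[E] M)) := by
    rw [← hinf, hDH, hD, he, hf]
    ring
  -- global cardinalities
  have hG : Nat.card (M ≃ₐ[E] M) = Module.finrank E M := IsGalois.card_aut_eq_finrank E M
  have hH : Nat.card H = Module.finrank K M := IsGaloisGroup.card_eq_finrank H K M
  have hk : Module.finrank E K * Module.finrank K M = Module.finrank E M :=
    Module.finrank_mul_finrank E K M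
  have hg : (v.asIdeal.primesOver (𝓞 M)).ncard * Nat.card D = Module.finrank E M := by
    rw [← hG, ← Ideal.ncard_primesOver_mul_ramificationIdxIn_mul_inertiaDegIn v.asIdeal (𝓞 M)
      (M ≃ₐ[E] M), Ideal.card_stabilizer_eq (G := (M ≃ₐ[E] M)) v.asIdeal Q]
  have hDpos : 0 < Nat.card D := Nat.card_pos
  have hkpos : 0 < Module.finrank E K := Module.finrank_pos
  constructor
  · intro h1
    rw [h1, one_mul] at hmain
    have hle : D ≤ H := by
      have h2 : D ⊓ H = D :=
        Subgroup.eq_of_le_of_card_ge inf_le_left (le_of_eq hmain)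
      rw [← h2]
      exact inf_le_right
    obtain ⟨c, hc⟩ := Subgroup.card_dvd_of_le hle
    refine ⟨c, ?_⟩
    have h3 : (v.asIdeal.primesOver (𝓞 M)).ncard * Nat.card D =
        (Module.finrank E K * c) * Nat.card D := by
      rw [hg, ← hk, ← hH, hc]
      ring
    exact Nat.eq_of_mul_eq_mul_right hDpos h3
  · rintro ⟨c, hc⟩
    have hdvd : Nat.card D ∣ Nat.card H := by
      refine ⟨c, ?_⟩
      have h3 : Module.finrank E K * Nat.card H = Module.finrank E K * (Nat.card D * c) := by
        rw [hH, hk, ← hg, hc]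
        ring
      exact Nat.eq_of_mul_eq_mul_left hkpos h3
    have hle : D ≤ H := h68_cyclic_le_of_card_dvd D H hdvd
    have h2 : D ⊓ H = D := inf_eq_left.mpr hle
    rw [h2] at hmain
    have h4 : (u.asIdeal.ramificationIdx (𝓞 E) * u.asIdeal.inertiaDeg (𝓞 E)) * Nat.card D =
        1 * Nat.card D := by
      rw [one_mul]
      exact hmain.symm
    exact Nat.eq_of_mul_eq_mul_right hDpos h4

/-- (W3b) splitting in an intermediate field of a cyclic extension, in terms of the number of
primes above. -/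
theorem h5_split_iff_dvd {E M : Type*} [Field E] [NumberField E] [Field M] [NumberField M]
    [Algebra E M] [IsGalois E M] [IsCyclic (M ≃ₐ[E] M)] (K : IntermediateField E M)
    (v : HeightOneSpectrum (𝓞 E)) (hv : h84_Unramified E M v) :
    h84_SplitsCompletely E K v ↔
      Module.finrank E K ∣ Nat.card {w : HeightOneSpectrum (𝓞 M) // w.under (𝓞 E) = v} := by
  have _hv := hv
  have hcard : Nat.card {w : HeightOneSpectrum (𝓞 M) // w.under (𝓞 E) = v} =
      (v.asIdeal.primesOver (𝓞 M)).ncard := by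
    rw [Nat.card_congr (h84_fibreEquiv E M v)]
    rfl
  rw [hcard]
  constructor
  · intro h
    obtain ⟨⟨P, hP⟩⟩ := (inferInstance : Nonempty (v.asIdeal.primesOver (𝓞 K)))
    have hP1 : P.IsPrime := hP.1
    have hP2 : P.LiesOver v.asIdeal := hP.2
    have hP0 : P ≠ ⊥ := h84_ne_bot_of_liesOver E (↥K) v.asIdeal v.ne_bot P hP2
    let u : HeightOneSpectrum (𝓞 K) := ⟨P, hP1, hP0⟩
    have hu : u.under (𝓞 E) = v := HeightOneSpectrum.ext hP2.over.symm
    obtain ⟨⟨Q, hQ⟩⟩ := (inferInstance : Nonempty (u.asIdeal.primesOver (𝓞 M)))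
    have hQ1 : Q.IsPrime := hQ.1
    have hQ2 : Q.LiesOver u.asIdeal := hQ.2
    refine (h68_ef_eq_one_iff K v u hu Q).mp ?_
    rw [(h u hu).1, (h u hu).2]
  · intro h u hu
    obtain ⟨⟨Q, hQ⟩⟩ := (inferInstance : Nonempty (u.asIdeal.primesOver (𝓞 M)))
    have hQ1 : Q.IsPrime := hQ.1
    have hQ2 : Q.LiesOver u.asIdeal := hQ.2
    have h1 := (h68_ef_eq_one_iff K v u hu Q).mpr h
    exact ⟨Nat.eq_one_of_mul_eq_one_right h1, Nat.eq_one_of_mul_eq_one_left h1⟩

end Fermat.Agent.GAL
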