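import Mathlib
import Fermat.Agent.S14.NS
import Fermat.Agent.S14.h35_PrimeSums

set_option autoImplicit false

/-!
# GAL-3 (weak Chebotarev), analytic half (helper5)

* `h5_moebius_sieve` (W1): an abstract Moebius sieve.  If for every `d ∣ n` the `x`-mass of
  `{v ∈ Good | d ∣ g v}` is `Λ/d + O(1)` with `Λ` unbounded, then some `v ∈ Good` has `g v = 1`.
* `h5_dens_split` (W2): in a Galois extension `K/E` of number fields, the degree-one primes
  of `E` (outside a finite set containing the ramified ones) that split completely in `K`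
  have prime sum `log (1/(σ-1)) / [K:E] + O(1)` on `1 < σ ≤ 2`.
-/

namespace Fermat.Agent.GAL

open NumberField IsDedekindDomain Filter Topology
open Fermat.Agent.S14

/-- `∑_{d ∣ n} μ(d)/d = φ(n)/n > 0`. -/
theorem h5_sum_moebius_div_pos (n : ℕ) (hn : 0 < n) :
    0 < ∑ d ∈ n.divisors, (ArithmeticFunction.moebius d : ℝ) / d := by
  have h1 : ∀ m : ℕ, m > 0 → ∑ i ∈ m.divisors, ((Nat.totient i : ℕ) : ℝ) = (m : ℝ) := by
    intro m _
    rw [← Nat.cast_sum, Nat.sum_totient]
  have h2 := (ArithmeticFunction.sum_eq_iff_sum_mul_moebius_eq (R := ℝ)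
    (f := fun i => (Nat.totient i : ℝ)) (g := fun m => (m : ℝ))).mp h1 n hn
  rw [Nat.sum_divisorsAntidiagonal
    (f := fun a b => ((ArithmeticFunction.moebius a : ℤ) : ℝ) * (b : ℝ))] at h2
  have h3 : ∑ d ∈ n.divisors, (ArithmeticFunction.moebius d : ℝ) / d
      = (Nat.totient n : ℝ) / n := by
    rw [← h2, Finset.sum_div]
    refine Finset.sum_congr rfl fun d hd => ?_
    have hd' := Nat.dvd_of_mem_divisors hd
    have hd0 : (d : ℝ) ≠ 0 := by
      have := Nat.pos_of_mem_divisors hd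
      positivity
    have hn0 : (n : ℝ) ≠ 0 := by positivity
    rw [Nat.cast_div hd' hd0]
    field_simp
  rw [h3]
  have : 0 < Nat.totient n := Nat.totient_pos.mpr hn
  positivity

/-- `∑_{d ∣ n, d ∣ m} μ(d) = 0` for `m ∣ n`, `m ≠ 1`. -/
theorem h5_sum_moebius_filter (n m : ℕ) (hn : 0 < n) (hm : m ∣ n) (hm1 : m ≠ 1) :
    ∑ d ∈ n.divisors, (if d ∣ m then (ArithmeticFunction.moebius d : ℝ) else 0) = 0 := by
  have hm0 : m ≠ 0 := by
    rintro rfl
    exact hn.ne' (Nat.eq_zero_of_zero_dvd hm)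
  have hfilt : n.divisors.filter (fun d => d ∣ m) = m.divisors := by
    ext d
    simp only [Finset.mem_filter, Nat.mem_divisors]
    constructor
    · rintro ⟨-, h⟩
      exact ⟨h, hm0⟩
    · rintro ⟨h, -⟩
      exact ⟨⟨h.trans hm, hn.ne'⟩, h⟩
  rw [← Finset.sum_filter, hfilt, ← Int.cast_sum, ← ArithmeticFunction.coe_mul_zeta_apply,
    ArithmeticFunction.moebius_mul_coe_zeta, ArithmeticFunction.one_apply_ne hm1, Int.cast_zero]

/-- (W1) Möbius sieve. -/
theorem h5_moebius_sieve {V : Type*} (n : ℕ) (hn : 0 < n) (g : V → ℕ) (Good : Set V)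
    (hg : ∀ v ∈ Good, g v ∣ n) (x : ℝ → V → ℝ)
    (hxs : ∀ σ, 1 < σ → Summable (x σ))
    (Λ : ℝ → ℝ) (hΛ : ∀ C : ℝ, ∃ σ, 1 < σ ∧ σ ≤ 2 ∧ C < Λ σ)
    (h : ∀ d, d ∣ n → ∃ B : ℝ, ∀ σ, 1 < σ → σ ≤ 2 →
      |∑' v, Set.indicator {v | v ∈ Good ∧ d ∣ g v} (x σ) v - Λ σ / d| ≤ B) :
    ∃ v ∈ Good, g v = 1 := by
  classical
  by_contra hcon
  push Not at hcon
  choose! B hB using h
  set c : ℝ := ∑ d ∈ n.divisors, (ArithmeticFunction.moebius d : ℝ) / d with hc
  have hcpos : 0 < c := h5_sum_moebius_div_pos n hn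
  set Btot : ℝ := ∑ d ∈ n.divisors, |B d| with hBtot
  obtain ⟨σ, h1, h2, hσ⟩ := hΛ (Btot / c)
  have hsum : ∀ d, Summable (Set.indicator {v | v ∈ Good ∧ d ∣ g v} (x σ)) :=
    fun d => (hxs σ h1).indicator _
  have hzero : ∑ d ∈ n.divisors, (ArithmeticFunction.moebius d : ℝ) *
      ∑' v, Set.indicator {v | v ∈ Good ∧ d ∣ g v} (x σ) v = 0 := by
    simp_rw [← tsum_mul_left]
    rw [← Summable.tsum_finsetSum (fun d _ => (hsum d).mul_left _)]
    convert tsum_zero with v
    by_cases hv : v ∈ Good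
    · have hpt : ∀ d ∈ n.divisors, (ArithmeticFunction.moebius d : ℝ) *
          Set.indicator {v | v ∈ Good ∧ d ∣ g v} (x σ) v
          = (if d ∣ g v then (ArithmeticFunction.moebius d : ℝ) else 0) * x σ v := by
        intro d _
        by_cases hd : d ∣ g v
        · rw [Set.indicator_of_mem (show v ∈ {v | v ∈ Good ∧ d ∣ g v} from ⟨hv, hd⟩), if_pos hd]
        · rw [Set.indicator_of_notMem (show v ∉ {v | v ∈ Good ∧ d ∣ g v} from fun h => hd h.2),
            if_neg hd, mul_zero, zero_mul]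
      rw [Finset.sum_congr rfl hpt, ← Finset.sum_mul,
        h5_sum_moebius_filter n (g v) hn (hg v hv) (hcon v hv), zero_mul]
    · refine Finset.sum_eq_zero fun d _ => ?_
      rw [Set.indicator_of_notMem (show v ∉ {v | v ∈ Good ∧ d ∣ g v} from fun h => hv h.1),
        mul_zero]
  have key : Λ σ * c = - ∑ d ∈ n.divisors, (ArithmeticFunction.moebius d : ℝ) *
      (∑' v, Set.indicator {v | v ∈ Good ∧ d ∣ g v} (x σ) v - Λ σ / d) := by
    simp_rw [mul_sub]
    rw [Finset.sum_sub_distrib, hzero, hc, Finset.mul_sum, zero_sub, neg_neg]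
    refine Finset.sum_congr rfl fun d _ => ?_
    ring
  have hbound : |∑ d ∈ n.divisors, (ArithmeticFunction.moebius d : ℝ) *
      (∑' v, Set.indicator {v | v ∈ Good ∧ d ∣ g v} (x σ) v - Λ σ / d)| ≤ Btot := by
    refine (Finset.abs_sum_le_sum_abs _ _).trans (Finset.sum_le_sum fun d hd => ?_)
    rw [abs_mul]
    have hμ : |((ArithmeticFunction.moebius d : ℤ) : ℝ)| ≤ 1 := by
      exact_mod_cast ArithmeticFunction.abs_moebius_le_one (n := d)
    have hBd := hB d (Nat.dvd_of_mem_divisors hd) σ h1 h2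
    calc _ ≤ 1 * B d := mul_le_mul hμ hBd (abs_nonneg _) zero_le_one
      _ ≤ |B d| := by rw [one_mul]; exact le_abs_self _
  have hle : Λ σ * c ≤ Btot := by
    rw [key]
    exact (neg_le_abs _).trans hbound
  rw [div_lt_iff₀ hcpos] at hσ
  linarith

/-- In a Galois extension, a prime with one unramified degree-one prime above it splits
completely. -/
theorem h5_splits_of_one {E K : Type*} [Field E] [NumberField E] [Field K] [NumberField K]
    [Algebra E K] [IsGalois E K] (v : HeightOneSpectrum (𝓞 E))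
    (hv : h84_Unramified E K v) (w : HeightOneSpectrum (𝓞 K)) (hw : w.under (𝓞 E) = v)
    (hf : w.asIdeal.inertiaDeg (𝓞 E) = 1) : h84_SplitsCompletely E K v := by
  intro w' hw'
  refine ⟨hv w' hw', ?_⟩
  have i1 : w.asIdeal.LiesOver v.asIdeal := ⟨(congrArg HeightOneSpectrum.asIdeal hw).symm⟩
  have i2 : w'.asIdeal.LiesOver v.asIdeal := ⟨(congrArg HeightOneSpectrum.asIdeal hw').symm⟩
  rw [← Ideal.inertiaDegIn_eq_inertiaDeg v.asIdeal w'.asIdeal Gal(K/E),
    Ideal.inertiaDegIn_eq_inertiaDeg v.asIdeal w.asIdeal Gal(K/E), hf]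

/-- (W2) density of the degree-one primes that split completely. -/
theorem h5_dens_split (E K : Type*) [Field E] [NumberField E] [Field K] [NumberField K]
    [Algebra E K] [IsGalois E K]
    (Bad : Set (HeightOneSpectrum (𝓞 E))) (hBad : Bad.Finite)
    (hram : ∀ v, ¬ h84_Unramified E K v → v ∈ Bad) :
    ∃ B : ℝ, ∀ σ : ℝ, 1 < σ → σ ≤ 2 →
      |∑' v, Set.indicator {v | v ∉ Bad ∧ (Ideal.absNorm v.asIdeal).Prime ∧
          h84_SplitsCompletely E K v} (h35_x E σ) v
        - Real.log (1 / (σ - 1)) / Module.finrank E K| ≤ B := by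
  classical
  set n := Module.finrank E K with hn
  have hn0 : 0 < n := Module.finrank_pos
  have hn1 : (1 : ℝ) ≤ n := by exact_mod_cast hn0
  obtain ⟨B₂, hB₂⟩ := h35_sum_split_le E K n (HeightOneSpectrum.under (𝓞 E))
  obtain ⟨B₁, hB₁⟩ := h35_exists_sum_prime_ge K (HeightOneSpectrum.under (𝓞 E) ⁻¹' Bad)
    (h84_finite_preimage E K hBad)
  refine ⟨|B₁| + |B₂|, fun σ h1 h2 => ?_⟩
  set A : Set (HeightOneSpectrum (𝓞 E)) := {v | v ∉ Bad ∧ (Ideal.absNorm v.asIdeal).Prime ∧
    h84_SplitsCompletely E K v} with hA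
  set L := Real.log (1 / (σ - 1)) with hL
  have hsumm : Summable (Set.indicator A (h35_x E σ)) := (h35_summable_x E h1).indicator _
  -- upper bound
  have hup : (n : ℝ) * ∑' v, Set.indicator A (h35_x E σ) v ≤ L + B₂ := by
    have hle : ∑' v, Set.indicator A (h35_x E σ) v ≤ (L + B₂) / n := by
      refine hsumm.tsum_le_of_sum_le fun S => ?_
      rw [Finset.sum_indicator_eq_sum_filter, le_div_iff₀' (by positivity)]
      refine hB₂ σ h1 h2 _ fun v hv => ?_
      have hvA : v ∈ A := (Finset.mem_filter.mp hv).2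
      have hfin : Fintype {w : HeightOneSpectrum (𝓞 K) // w.under (𝓞 E) = v} :=
        Fintype.ofFinite _
      refine ⟨(Finset.univ : Finset {w : HeightOneSpectrum (𝓞 K) // w.under (𝓞 E) = v}).map
        ⟨Subtype.val, Subtype.val_injective⟩, ?_, ?_⟩
      · rw [Finset.card_map, Finset.card_univ, ← Nat.card_eq_fintype_card,
          h84_card_fibre_of_splits E K v hvA.2.2]
      · intro w hw
        obtain ⟨w', -, rfl⟩ := Finset.mem_map.mp hw
        exact ⟨w'.2, h84_absNorm_eq_of_splits E K v hvA.2.2 w'.1 w'.2⟩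
    rwa [le_div_iff₀' (by positivity)] at hle
  -- lower bound
  have hlow : L - B₁ ≤ (n : ℝ) * ∑' v, Set.indicator A (h35_x E σ) v := by
    obtain ⟨S, hS, hSge⟩ := hB₁ σ h1 h2
    have hmem : ∀ w ∈ S, w.under (𝓞 E) ∈ A := by
      intro w hw
      have hd := h84_degree_one_under E K w (hS w hw).1
      have hnb : w.under (𝓞 E) ∉ Bad := (hS w hw).2
      have hunr : h84_Unramified E K (w.under (𝓞 E)) := by
        by_contra hcon
        exact hnb (hram _ hcon)
      refine ⟨hnb, ?_, h5_splits_of_one _ hunr w rfl hd.1⟩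
      rw [hd.2]
      exact (hS w hw).1
    have hxeq : ∀ w ∈ S, h35_x K σ w = h35_x E σ (w.under (𝓞 E)) := by
      intro w hw
      rw [h35_x, h35_x, (h84_degree_one_under E K w (hS w hw).1).2]
    calc L - B₁ ≤ ∑ w ∈ S, h35_x K σ w := hSge
      _ = ∑ w ∈ S, h35_x E σ (w.under (𝓞 E)) := Finset.sum_congr rfl hxeq
      _ = ∑ v ∈ S.image (HeightOneSpectrum.under (𝓞 E)),
            ∑ w ∈ S with w.under (𝓞 E) = v, h35_x E σ (w.under (𝓞 E)) :=
          (Finset.sum_fiberwise_of_maps_to (fun w hw => Finset.mem_image_of_mem _ hw) _).symm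
      _ ≤ ∑ v ∈ S.image (HeightOneSpectrum.under (𝓞 E)), (n : ℝ) * h35_x E σ v := by
          refine Finset.sum_le_sum fun v hv => ?_
          have hc : ∀ w ∈ S.filter (fun w => w.under (𝓞 E) = v),
              h35_x E σ (w.under (𝓞 E)) = h35_x E σ v := by
            intro w hw
            rw [(Finset.mem_filter.mp hw).2]
          rw [Finset.sum_congr rfl hc, Finset.sum_const, nsmul_eq_mul]
          refine mul_le_mul_of_nonneg_right ?_ (h35_x_nonneg E σ v)
          obtain ⟨w₀, hw₀, rfl⟩ := Finset.mem_image.mp hv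
          have hfin : Fintype {w : HeightOneSpectrum (𝓞 K) // w.under (𝓞 E) = w₀.under (𝓞 E)} :=
            Fintype.ofFinite _
          have hcard := h84_card_fibre_of_splits E K _ (hmem w₀ hw₀).2.2
          rw [Nat.card_eq_fintype_card, ← Finset.card_univ,
            ← Finset.card_map ⟨Subtype.val, Subtype.val_injective⟩] at hcard
          rw [hn, ← hcard]
          have hsub : S.filter (fun w => w.under (𝓞 E) = w₀.under (𝓞 E)) ⊆
              (Finset.univ : Finset {w : HeightOneSpectrum (𝓞 K) //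
                w.under (𝓞 E) = w₀.under (𝓞 E)}).map ⟨Subtype.val, Subtype.val_injective⟩ := by
            intro w hw
            exact Finset.mem_map.mpr ⟨⟨w, (Finset.mem_filter.mp hw).2⟩, Finset.mem_univ _, rfl⟩
          exact_mod_cast Finset.card_le_card hsub
      _ = (n : ℝ) * ∑ v ∈ S.image (HeightOneSpectrum.under (𝓞 E)),
            Set.indicator A (h35_x E σ) v := by
          rw [Finset.mul_sum]
          refine Finset.sum_congr rfl fun v hv => ?_
          obtain ⟨w₀, hw₀, rfl⟩ := Finset.mem_image.mp hv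
          rw [Set.indicator_of_mem (hmem w₀ hw₀)]
      _ ≤ (n : ℝ) * ∑' v, Set.indicator A (h35_x E σ) v := by
          refine mul_le_mul_of_nonneg_left (hsumm.sum_le_tsum _ (fun v _ =>
            Set.indicator_nonneg (fun v _ => h35_x_nonneg E σ v) v)) (by positivity)
  -- conclusion
  set T := ∑' v, Set.indicator A (h35_x E σ) v with hT
  have hdiv : T - L / n = ((n : ℝ) * T - L) / n := by
    field_simp
  have hb1 := le_abs_self B₁
  have hb1' := abs_nonneg B₁
  have hb2 := le_abs_self B₂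
  have hb2' := abs_nonneg B₂
  have hmul : |B₁| + |B₂| ≤ (|B₁| + |B₂|) * n := le_mul_of_one_le_right (by positivity) hn1
  rw [hdiv, abs_le]
  constructor
  · rw [le_div_iff₀ (by positivity)]
    linarith
  · rw [div_le_iff₀ (by positivity)]
    linarith

end Fermat.Agent.GAL
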