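import Mathlib
import Fermat.Agent.S14.NS
import Fermat.Agent.S14.h35_PrimeSums
import Fermat.Agent.GAL.h5_WChebDens
import Fermat.Agent.GAL.h5_WChebArith

set_option autoImplicit false

/-!
# GAL-3 (weak Chebotarev), number-field form (helper5)

`h5_exists_inert`: in a cyclic Galois extension `M/E` of number fields, outside any finite set
of primes of `E` there is a prime `v` of degree one (prime absolute norm) that is unramified and
inert in `M` (`e = 1`, `f = [M:E]` for every prime of `M` above it).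

Proof: Moebius sieve (`h5_moebius_sieve`) over the divisors `d` of `n = [M:E]`, with
`g v` = number of primes of `M` above `v`; the primes with `d ∣ g v` are those that split
completely in the subfield `K_d` of degree `d` (`h5_split_iff_dvd`), which have prime sum
`log (1/(σ-1)) / d + O(1)` (`h5_dens_split`).
-/

namespace Fermat.Agent.GAL

open NumberField IsDedekindDomain Filter Topology
open Fermat.Agent.S14

/-- (W4 = NF) an inert prime of degree one in a cyclic extension. -/
theorem h5_exists_inert {E M : Type*} [Field E] [NumberField E] [Field M] [NumberField M]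
    [Algebra E M] [IsGalois E M] [IsCyclic (M ≃ₐ[E] M)]
    (Bad : Set (HeightOneSpectrum (𝓞 E))) (hBad : Bad.Finite) :
    ∃ v : HeightOneSpectrum (𝓞 E), v ∉ Bad ∧ (Ideal.absNorm v.asIdeal).Prime ∧
      ∀ w : HeightOneSpectrum (𝓞 M), w.under (𝓞 E) = v →
        w.asIdeal.ramificationIdx (𝓞 E) = 1 ∧
          w.asIdeal.inertiaDeg (𝓞 E) = Module.finrank E M := by
  classical
  set n := Module.finrank E M with hn
  have hn0 : 0 < n := Module.finrank_pos
  set Bad' : Set (HeightOneSpectrum (𝓞 E)) := Bad ∪ {v | ¬ h84_Unramified E M v} with hBad'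
  have hBad'fin : Bad'.Finite := hBad.union (h84_finite_not_unramified E M)
  set Good : Set (HeightOneSpectrum (𝓞 E)) :=
    {v | v ∉ Bad' ∧ (Ideal.absNorm v.asIdeal).Prime} with hGood
  set g : HeightOneSpectrum (𝓞 E) → ℕ :=
    fun v => Nat.card {w : HeightOneSpectrum (𝓞 M) // w.under (𝓞 E) = v} with hg
  have hunr : ∀ v ∈ Good, h84_Unramified E M v := by
    intro v hv
    by_contra hcon
    exact hv.1 (Or.inr hcon)
  have hefg : ∀ v, h84_Unramified E M v → g v * v.asIdeal.inertiaDegIn (𝓞 M) = n := by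
    intro v hv
    have key := Ideal.ncard_primesOver_mul_ramificationIdxIn_mul_inertiaDegIn v.asIdeal (𝓞 M)
      Gal(M/E)
    rw [IsGalois.card_aut_eq_finrank] at key
    have hram : v.asIdeal.ramificationIdxIn (𝓞 M) = 1 := by
      obtain ⟨⟨P, hP⟩⟩ := (inferInstance : Nonempty (v.asIdeal.primesOver (𝓞 M)))
      have hP1 : P.IsPrime := hP.1
      have hP2 : P.LiesOver v.asIdeal := hP.2
      rw [Ideal.ramificationIdxIn_eq_ramificationIdx v.asIdeal P Gal(M/E)]
      exact hv ((h84_fibreEquiv E M v).symm ⟨P, hP⟩).1 ((h84_fibreEquiv E M v).symm ⟨P, hP⟩).2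
    rw [hram, one_mul] at key
    have hcard : g v = (v.asIdeal.primesOver (𝓞 M)).ncard := by
      simp only [hg]
      rw [Nat.card_congr (h84_fibreEquiv E M v)]
      rfl
    rw [hcard]
    exact key
  have hgdvd : ∀ v ∈ Good, g v ∣ n := fun v hv => Dvd.intro _ (hefg v (hunr v hv))
  have hΛ : ∀ C : ℝ, ∃ σ, 1 < σ ∧ σ ≤ 2 ∧ C < Real.log (1 / (σ - 1)) := by
    intro C
    set t : ℝ := |C| + 1 with ht
    have ht0 : 0 < t := by positivity
    refine ⟨1 + Real.exp (-t), ?_, ?_, ?_⟩
    · have := Real.exp_pos (-t)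
      linarith
    · have : Real.exp (-t) ≤ 1 := Real.exp_le_one_iff.mpr (by linarith)
      linarith
    · rw [add_sub_cancel_left, one_div, Real.log_inv, Real.log_exp, neg_neg]
      have := le_abs_self C
      linarith
  obtain ⟨v, hvG, hgv⟩ := h5_moebius_sieve n hn0 g Good hgdvd (fun σ => h35_x E σ)
    (fun σ hσ => h35_summable_x E hσ) (fun σ => Real.log (1 / (σ - 1))) hΛ (by
      intro d hd
      obtain ⟨K, hKd, hKgal⟩ := h5_exists_intermediate (E := E) (M := M) d hd
      obtain ⟨B, hB⟩ := h5_dens_split E K Bad' hBad'fin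
        (fun v hv => Or.inr (fun h => hv (h5_unramified_intermediate K v h)))
      refine ⟨B, fun σ h1 h2 => ?_⟩
      have hset : {v | v ∈ Good ∧ d ∣ g v} = {v | v ∉ Bad' ∧ (Ideal.absNorm v.asIdeal).Prime ∧
          h84_SplitsCompletely E K v} := by
        ext v
        simp only [Set.mem_ofPred_eq, hGood]
        constructor
        · rintro ⟨⟨h1, h2⟩, h3⟩
          exact ⟨h1, h2, (h5_split_iff_dvd K v (hunr v ⟨h1, h2⟩)).mpr (hKd ▸ h3)⟩
        · rintro ⟨h1, h2, h3⟩
          exact ⟨⟨h1, h2⟩, hKd ▸ (h5_split_iff_dvd K v (hunr v ⟨h1, h2⟩)).mp h3⟩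
      rw [hset, ← hKd]
      exact hB σ h1 h2)
  refine ⟨v, fun hb => hvG.1 (Or.inl hb), hvG.2, fun w hw => ⟨hunr v hvG w hw, ?_⟩⟩
  have h1 := hefg v (hunr v hvG)
  rw [hgv, one_mul] at h1
  have i : w.asIdeal.LiesOver v.asIdeal := ⟨(congrArg HeightOneSpectrum.asIdeal hw).symm⟩
  rw [← Ideal.inertiaDegIn_eq_inertiaDeg v.asIdeal w.asIdeal Gal(M/E), h1]

end Fermat.Agent.GAL
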