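import Mathlib
import Fermat.Agent.GAL.h31_WChebQbar
import Fermat.Agent.GAL.h5_WChebNF

set_option autoImplicit false

/-!
# GAL-3: weak Chebotarev over `ℚ` in the prelude's Frobenius language

For a finite Galois `L/ℚ` inside `AlgebraicClosure ℚ`, an element `g` of the absolute Galois
group and a finite set `S` of primes, there are a prime `ℓ ∉ S`, a valuation subring `A` over
`ℓ` and a Frobenius `σ` at `A` such that `σ|L` and `g|L` generate the same cyclic subgroup of
`Gal(L/ℚ)`: `σ|L = g^a|L` and `σ^b|L = g|L`.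

Assembly of `h5_exists_inert` (helper5: sieve + density; helper68: arithmetic of cyclic
extensions) and `h31_weak_chebotarev_of_inert` (helper31: translation to `ℚ̄`).
-/

namespace Fermat.Agent.GAL

open NumberField IsDedekindDomain

/-- **GAL-3** (weak Chebotarev). -/
theorem gal_weak_chebotarev (L : IntermediateField ℚ (AlgebraicClosure ℚ))
    [FiniteDimensional ℚ L] [IsGalois ℚ L]
    (g : AlgebraicClosure ℚ ≃ₐ[ℚ] AlgebraicClosure ℚ) (S : Finset ℕ) :
    ∃ (ℓ : ℕ) (A : ValuationSubring (AlgebraicClosure ℚ))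
      (σ : AlgebraicClosure ℚ ≃ₐ[ℚ] AlgebraicClosure ℚ) (a b : ℕ),
      ℓ.Prime ∧ ℓ ∉ S ∧ A.LiesOverPrime ℓ ∧ A.IsFrobeniusAt σ ℓ ∧
        (∀ x ∈ L, σ x = (g ^ a) x) ∧ (∀ x ∈ L, (σ ^ b) x = g x) :=
  h31_weak_chebotarev_of_inert L (fun Bad hBad => h5_exists_inert Bad hBad) g S

end Fermat.Agent.GAL
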