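import Mathlib
import Fermat.Prelude.Def_ExtCitation_KummerBridge
import Fermat.Prelude.Def_EllipticCurve_FrobeniusTrace
import Fermat.Agent.S55.h85_Unram

/-!
# GAL, row 368 (GAL-CYC): Frobenius lifts and the mod-`p` cyclotomic character

* `h11_frob_sub_pow_mem`   : `A.IsFrobeniusAt σ q`, `x ∈ A` ⟹ `σ x ∈ A` and `σ x - x ^ q ∈ m_A`;
* `h11_root_unique`        : two `n`-th roots of unity that are congruent modulo `m_A` coincide
                             when `n` is a unit of `A`;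
* `h11_frob_rootOfUnity`   : a Frobenius lift at `ℓ` raises every `n`-th root of unity (`ℓ ∤ n`)
                             to the power `ℓ`;
* `h11_cycloChar_frob`     : `cycloChar p σ = ℓ` in `ZMod p` for Frobenius lifts at `ℓ ≠ p`;
* `h11_cycloChar_inertia`  : `cycloChar p σ = 1` on inertia at `ℓ ≠ p`;
* `h11_cycloChar_congr`    : `cycloChar p` only depends on the action on `μ_p`;
* `h11_exists_cyclo_level` : a finite Galois extension of `ℚ` containing `μ_p`.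
-/

set_option autoImplicit false

namespace Fermat.Agent.GAL

open ExtCitation Fermat.Agent.S05 Fermat.Agent.S13 Fermat.Agent.S55

section General

variable {K L : Type*} [Field K] [Field L] [Algebra K L]

/-- The Frobenius congruence inside the field: for `x ∈ A` one has `σ x ∈ A` and
`σ x - x ^ q ∈ m_A`. -/
theorem h11_frob_sub_pow_mem (A : ValuationSubring L) {σ : L ≃ₐ[K] L} {q : ℕ}
    (hσ : A.IsFrobeniusAt σ q) {x : L} (hx : x ∈ A) :
    σ x ∈ A ∧ σ x - x ^ q ∈ A.nonunits := by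
  obtain ⟨hmem, hfr⟩ := hσ
  set G : A.decompositionSubgroup K := ⟨σ, hmem⟩ with hG
  have h1 := hfr (IsLocalRing.residue A ⟨x, hx⟩)
  rw [← IsLocalRing.ResidueField.residue_smul, ← map_pow] at h1
  have h2 : G • (⟨x, hx⟩ : A) - (⟨x, hx⟩ : A) ^ q ∈ IsLocalRing.maximalIdeal A :=
    Ideal.Quotient.eq.mp h1
  have h3 : ((G • (⟨x, hx⟩ : A) : A) : L) = σ x := rfl
  have h4 : σ x ∈ A := h3 ▸ (G • (⟨x, hx⟩ : A)).2
  refine ⟨h4, ?_⟩
  have h5 := ValuationSubring.coe_mem_nonunits_iff.mpr h2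
  exact h5

end General

section Roots

variable {L : Type*} [Field L]

/-- Two `n`-th roots of unity congruent modulo the maximal ideal of `A` are equal, provided `n`
is a unit of `A`. -/
theorem h11_root_unique (A : ValuationSubring L) {n : ℕ} (hn : (n : L) ∉ A.nonunits)
    {x y : L} (hx : x ^ n = 1) (hy : y ^ n = 1) (hxy : y - x ∈ A.nonunits) : y = x := by
  have hn0 : n ≠ 0 := by
    rintro rfl
    apply hn
    rw [Nat.cast_zero]
    exact h24_zero_mem_nonunits A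
  have hvx : A.valuation x = 1 := h85_val_pow_eq_one A x hn0 (by rw [← map_pow, hx, map_one])
  have hvy : A.valuation y = 1 := h85_val_pow_eq_one A y hn0 (by rw [← map_pow, hy, map_one])
  have hxA : x ∈ A := ((h85_val_eq_one_iff A x).mp hvx).1
  have hyA : y ∈ A := ((h85_val_eq_one_iff A y).mp hvy).1
  by_contra hne
  have hsub : y - x ≠ 0 := sub_ne_zero.mpr hne
  have hgeom : (∑ i ∈ Finset.range n, y ^ i * x ^ (n - 1 - i)) * (y - x) = 0 := by
    rw [(Commute.all y x).geom_sum₂_mul, hx, hy, sub_self]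
  have hS : (∑ i ∈ Finset.range n, y ^ i * x ^ (n - 1 - i)) = 0 :=
    (mul_eq_zero.mp hgeom).resolve_right hsub
  -- each term is congruent to `x ^ (n - 1)`
  have hterm : ∀ i ∈ Finset.range n, y ^ i * x ^ (n - 1 - i) - x ^ (n - 1) ∈ A.nonunits := by
    intro i hi
    have hi' : i ≤ n - 1 := by
      have := Finset.mem_range.mp hi
      omega
    have h1 : y ^ i * x ^ (n - 1 - i) - x ^ (n - 1) = x ^ (n - 1 - i) * (y ^ i - x ^ i) := by
      have : x ^ (n - 1) = x ^ (n - 1 - i) * x ^ i := by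
        rw [← pow_add]
        congr 1
        omega
      rw [this]
      ring
    rw [h1]
    obtain ⟨c, hc⟩ : ∃ c : L, c ∈ A ∧ y ^ i - x ^ i = c * (y - x) := by
      refine ⟨∑ j ∈ Finset.range i, y ^ j * x ^ (i - 1 - j), ?_, ?_⟩
      · exact A.sum_mem fun j _ => A.mul_mem _ _ (A.pow_mem hyA _) (A.pow_mem hxA _)
      · rw [(Commute.all y x).geom_sum₂_mul]
    rw [hc.2, ← mul_assoc]
    exact h24_mul_mem_nonunits A (A.mul_mem _ _ (A.pow_mem hxA _) hc.1) hxy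
  have hsum : (∑ i ∈ Finset.range n, (y ^ i * x ^ (n - 1 - i) - x ^ (n - 1))) ∈ A.nonunits := by
    have key : ∀ s : Finset ℕ, (∀ i ∈ s, y ^ i * x ^ (n - 1 - i) - x ^ (n - 1) ∈ A.nonunits) →
        (∑ i ∈ s, (y ^ i * x ^ (n - 1 - i) - x ^ (n - 1))) ∈ A.nonunits := by
      intro s
      induction s using Finset.induction_on with
      | empty =>
        intro _
        rw [Finset.sum_empty]
        exact h24_zero_mem_nonunits A
      | insert a s ha ih =>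
        intro h
        rw [Finset.sum_insert ha]
        exact h24_add_mem_nonunits A (h a (Finset.mem_insert_self a s))
          (ih fun i hi => h i (Finset.mem_insert_of_mem hi))
    exact key _ hterm
  rw [Finset.sum_sub_distrib, hS, zero_sub, Finset.sum_const, Finset.card_range,
    nsmul_eq_mul] at hsum
  have h2 : (n : L) * x ^ (n - 1) ∈ A.nonunits := by
    have := h24_neg_mem_nonunits A hsum
    rwa [neg_neg] at this
  -- `x ^ (n - 1)` is a unit of `A` with inverse `x`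
  have h3 : (n : L) = x * ((n : L) * x ^ (n - 1)) := by
    have : x * x ^ (n - 1) = 1 := by
      rw [← pow_succ', Nat.sub_add_cancel (Nat.one_le_iff_ne_zero.mpr hn0), hx]
    calc (n : L) = (n : L) * (x * x ^ (n - 1)) := by rw [this, mul_one]
      _ = x * ((n : L) * x ^ (n - 1)) := by ring
  apply hn
  rw [h3]
  exact h24_mul_mem_nonunits A hxA h2

end Roots

section Frob

variable {K L : Type*} [Field K] [Field L] [Algebra K L]

/-- A Frobenius lift at a place over `ℓ` raises every `n`-th root of unity, `ℓ ∤ n`, to the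
power `ℓ`. -/
theorem h11_frob_rootOfUnity' (A : ValuationSubring L) {ℓ : ℕ} (hℓ : ℓ.Prime)
    (hA : A.LiesOverPrime ℓ) {σ : L ≃ₐ[K] L} (hσ : A.IsFrobeniusAt σ ℓ) {n : ℕ}
    (hn : ¬ ℓ ∣ n) (ζ : L) (hζ : ζ ^ n = 1) : σ ζ = ζ ^ ℓ := by
  have hn0 : n ≠ 0 := by
    rintro rfl
    exact hn (dvd_zero ℓ)
  have hvζ : A.valuation ζ = 1 := h85_val_pow_eq_one A ζ hn0 (by rw [← map_pow, hζ, map_one])
  have hζA : ζ ∈ A := ((h85_val_eq_one_iff A ζ).mp hvζ).1
  have hnA : (n : L) ∉ A.nonunits := fun h => hn ((h26_natCast_mem_nonunits_iff A hℓ hA n).mp h)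
  refine h11_root_unique A hnA ?_ ?_ (h11_frob_sub_pow_mem A hσ hζA).2
  · rw [← pow_mul, mul_comm, pow_mul, hζ, one_pow]
  · rw [← map_pow, hζ, map_one]

end Frob

local notation "Qbar" => AlgebraicClosure ℚ

/-- A Frobenius lift at a place of `Qbar` over `ℓ` raises every `n`-th root of unity, `ℓ ∤ n`,
to the power `ℓ`. -/
theorem h11_frob_rootOfUnity (A : ValuationSubring Qbar) {ℓ : ℕ} (hℓ : ℓ.Prime)
    (hA : A.LiesOverPrime ℓ) {σ : Qbar ≃ₐ[ℚ] Qbar} (hσ : A.IsFrobeniusAt σ ℓ) {n : ℕ}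
    (hn : ¬ ℓ ∣ n) (ζ : Qbar) (hζ : ζ ^ n = 1) : σ ζ = ζ ^ ℓ :=
  h11_frob_rootOfUnity' A hℓ hA hσ hn ζ hζ

/-- Existence of a primitive `p`-th root of unity in `Qbar`. -/
theorem h11_exists_primitiveRoot (p : ℕ) [Fact p.Prime] : ∃ ζ : Qbar, IsPrimitiveRoot ζ p := by
  have hp : p.Prime := Fact.out
  have : NeZero p := ⟨hp.ne_zero⟩
  have : NeZero ((p : ℕ) : Qbar) := ⟨Nat.cast_ne_zero.mpr hp.ne_zero⟩
  exact HasEnoughRootsOfUnity.exists_primitiveRoot Qbar p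

/-- The defining property of `cycloChar`: `σ ζ = ζ ^ cycloExp p σ` on `μ_p`. -/
theorem h11_cycloExp_spec (p : ℕ) [Fact p.Prime] (σ : Qbar ≃ₐ[ℚ] Qbar) (ζ : Qbar)
    (hζ : ζ ^ p = 1) : σ ζ = ζ ^ cycloExp p σ := by
  have hp0 : p ≠ 0 := (Fact.out : p.Prime).ne_zero
  have : NeZero p := ⟨hp0⟩
  have hu : IsUnit ζ := IsUnit.of_pow_eq_one hζ hp0
  obtain ⟨t, rfl⟩ := hu
  have ht : t ∈ rootsOfUnity p Qbar := by
    rw [mem_rootsOfUnity]
    exact Units.ext (by simpa using hζ)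
  exact modularCyclotomicCharacter.spec Qbar (card_rootsOfUnity_eq_self p)
    (σ : Qbar ≃+* Qbar) ht

/-- If `σ` acts on a primitive `p`-th root of unity as `ζ ↦ ζ ^ m`, then `cycloChar p σ = m`
in `ZMod p`. -/
theorem h11_cycloChar_eq_of_pow {p : ℕ} [Fact p.Prime] (σ : Qbar ≃ₐ[ℚ] Qbar) (ζ : Qbar)
    (hζ : IsPrimitiveRoot ζ p) (m : ℕ) (h : σ ζ = ζ ^ m) :
    ((cycloChar p σ : (ZMod p)ˣ) : ZMod p) = (m : ZMod p) := by
  have h1 := h11_cycloExp_spec p σ ζ hζ.pow_eq_one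
  rw [h] at h1
  rw [coe_cycloChar]
  have hp : p.Prime := Fact.out
  have h2 : m ≡ cycloExp p σ [MOD p] := by
    rw [pow_eq_pow_mod m hζ.pow_eq_one, pow_eq_pow_mod (cycloExp p σ) hζ.pow_eq_one] at h1
    exact hζ.pow_inj (Nat.mod_lt _ hp.pos) (Nat.mod_lt _ hp.pos) h1
  exact ((ZMod.natCast_eq_natCast_iff _ _ _).mpr h2).symm

/-- **`χ_p(Frob_ℓ) = ℓ`.** For every Frobenius lift `σ` at every place of `Qbar` over a prime
`ℓ ≠ p`, the mod-`p` cyclotomic character of `σ` is `ℓ`. -/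
theorem h11_cycloChar_frob {p : ℕ} [Fact p.Prime] (A : ValuationSubring Qbar) {ℓ : ℕ}
    (hℓ : ℓ.Prime) (hℓp : ℓ ≠ p) (hA : A.LiesOverPrime ℓ) {σ : Qbar ≃ₐ[ℚ] Qbar}
    (hσ : A.IsFrobeniusAt σ ℓ) :
    ((cycloChar p σ : (ZMod p)ˣ) : ZMod p) = (ℓ : ZMod p) := by
  have hp : p.Prime := Fact.out
  obtain ⟨ζ, hζ⟩ := h11_exists_primitiveRoot p
  have hn : ¬ ℓ ∣ p := fun h => hℓp ((Nat.prime_dvd_prime_iff_eq hℓ hp).mp h)
  exact h11_cycloChar_eq_of_pow σ ζ hζ ℓ (h11_frob_rootOfUnity A hℓ hA hσ hn ζ hζ.pow_eq_one)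

/-- The mod-`p` cyclotomic character is trivial on inertia at `ℓ ≠ p`. -/
theorem h11_cycloChar_inertia {p : ℕ} [Fact p.Prime] (A : ValuationSubring Qbar) {ℓ : ℕ}
    (hℓ : ℓ.Prime) (hℓp : ℓ ≠ p) (hA : A.LiesOverPrime ℓ) {σ : Qbar ≃ₐ[ℚ] Qbar}
    (hσ : σ ∈ A.inertiaSubgroupIn ℚ) : cycloChar p σ = 1 := by
  have hp : p.Prime := Fact.out
  obtain ⟨ζ, hζ⟩ := h11_exists_primitiveRoot p
  have hn : ¬ ℓ ∣ p := fun h => hℓp ((Nat.prime_dvd_prime_iff_eq hℓ hp).mp h)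
  exact h85_cycloChar_eq_one σ ζ hζ (h85_inertia_fix_rootOfUnity A hℓ hA hσ hn ζ hζ.pow_eq_one)

/-- The mod-`p` cyclotomic character only depends on the action on `μ_p`. -/
theorem h11_cycloChar_congr {p : ℕ} [Fact p.Prime] (σ τ : Qbar ≃ₐ[ℚ] Qbar)
    (h : ∀ ζ : Qbar, ζ ^ p = 1 → σ ζ = τ ζ) : cycloChar p σ = cycloChar p τ := by
  have hp : p.Prime := Fact.out
  have : NeZero p := ⟨hp.ne_zero⟩
  obtain ⟨ζ, hζ⟩ := h11_exists_primitiveRoot p
  have h1 := h11_cycloExp_spec p τ ζ hζ.pow_eq_one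
  rw [← h ζ hζ.pow_eq_one] at h1
  have h2 := h11_cycloChar_eq_of_pow σ ζ hζ _ h1
  apply Units.ext
  rw [h2, coe_cycloChar]

/-- A finite Galois extension of `ℚ` inside `Qbar` containing all `p`-th roots of unity. -/
theorem h11_exists_cyclo_level (p : ℕ) [Fact p.Prime] :
    ∃ L : IntermediateField ℚ Qbar, FiniteDimensional ℚ L ∧ IsGalois ℚ L ∧
      ∀ ζ : Qbar, ζ ^ p = 1 → ζ ∈ L := by
  have hp : p.Prime := Fact.out
  have : NeZero p := ⟨hp.ne_zero⟩
  obtain ⟨ζ, hζ⟩ := h11_exists_primitiveRoot p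
  have hint : IsIntegral ℚ ζ := (hζ.isIntegral hp.pos).tower_top
  have : Algebra.IsAlgebraic ℚ Qbar := AlgebraicClosure.isAlgebraic ℚ
  have : Algebra.IsIntegral ℚ Qbar := Algebra.IsAlgebraic.isIntegral
  refine ⟨IntermediateField.adjoin ℚ {ζ}, ?_, ?_, ?_⟩
  · exact IntermediateField.adjoin.finiteDimensional hint
  · have : IsCyclotomicExtension {p} ℚ (IntermediateField.adjoin ℚ {ζ}) :=
      hζ.intermediateField_adjoin_isCyclotomicExtension ℚ
    exact IsCyclotomicExtension.isGalois {p} ℚ _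
  · intro η hη
    obtain ⟨i, -, rfl⟩ := hζ.eq_pow_of_pow_eq_one hη
    exact pow_mem (IntermediateField.mem_adjoin_simple_self ℚ ζ) i

/-! ### The cyclotomic character with values in a field of characteristic `p` -/

/-- The mod-`p` cyclotomic character with values in the units of a field `k` of
characteristic `p`. -/
noncomputable def h11_cycloCharK (p : ℕ) [Fact p.Prime] (k : Type*) [Field k] [CharP k p] :
    (Qbar ≃ₐ[ℚ] Qbar) →* kˣ :=
  (Units.map ((ZMod.castHom (dvd_refl p) k : ZMod p →+* k) : ZMod p →* k)).comp (cycloChar p)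

theorem h11_cycloCharK_coe (p : ℕ) [Fact p.Prime] (k : Type*) [Field k] [CharP k p]
    (σ : Qbar ≃ₐ[ℚ] Qbar) :
    ((h11_cycloCharK p k σ : kˣ) : k) =
      ZMod.castHom (dvd_refl p) k ((cycloChar p σ : (ZMod p)ˣ) : ZMod p) := rfl

/-- `χ_p(Frob_ℓ) = ℓ` in `k`. -/
theorem h11_cycloCharK_frob (p : ℕ) [Fact p.Prime] (k : Type*) [Field k] [CharP k p]
    (A : ValuationSubring Qbar) {ℓ : ℕ} (hℓ : ℓ.Prime) (hℓp : ℓ ≠ p) (hA : A.LiesOverPrime ℓ)
    {σ : Qbar ≃ₐ[ℚ] Qbar} (hσ : A.IsFrobeniusAt σ ℓ) :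
    ((h11_cycloCharK p k σ : kˣ) : k) = (ℓ : k) := by
  rw [h11_cycloCharK_coe, h11_cycloChar_frob A hℓ hℓp hA hσ, map_natCast]

/-- `χ_p` is trivial on inertia at `ℓ ≠ p`. -/
theorem h11_cycloCharK_inertia (p : ℕ) [Fact p.Prime] (k : Type*) [Field k] [CharP k p]
    (A : ValuationSubring Qbar) {ℓ : ℕ} (hℓ : ℓ.Prime) (hℓp : ℓ ≠ p) (hA : A.LiesOverPrime ℓ)
    {σ : Qbar ≃ₐ[ℚ] Qbar} (hσ : σ ∈ A.inertiaSubgroupIn ℚ) : h11_cycloCharK p k σ = 1 := by
  rw [h11_cycloCharK, MonoidHom.comp_apply, h11_cycloChar_inertia A hℓ hℓp hA hσ, map_one]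

/-- `χ_p` only depends on the action on `μ_p`. -/
theorem h11_cycloCharK_congr (p : ℕ) [Fact p.Prime] (k : Type*) [Field k] [CharP k p]
    (σ τ : Qbar ≃ₐ[ℚ] Qbar) (h : ∀ ζ : Qbar, ζ ^ p = 1 → σ ζ = τ ζ) :
    h11_cycloCharK p k σ = h11_cycloCharK p k τ := by
  rw [h11_cycloCharK, MonoidHom.comp_apply, MonoidHom.comp_apply, h11_cycloChar_congr σ τ h]

/-- `χ_p` is trivial on automorphisms fixing `μ_p` pointwise. -/
theorem h11_cycloCharK_eq_one (p : ℕ) [Fact p.Prime] (k : Type*) [Field k] [CharP k p]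
    (σ : Qbar ≃ₐ[ℚ] Qbar) (h : ∀ ζ : Qbar, ζ ^ p = 1 → σ ζ = ζ) : h11_cycloCharK p k σ = 1 := by
  rw [h11_cycloCharK_congr p k σ 1 (fun ζ hζ => by rw [h ζ hζ]; rfl), map_one]

end Fermat.Agent.GAL
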