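import Mathlib
import Fermat.Prelude.Def_GaloisRep_Residual
import Fermat.Agent.S13.h26_FreyP2

/-!
# GAL, row 404 (FREY-LEVEL): torsion Galois representations of elliptic curves have finite level

* `h11_torsion_finiteLevel` : if `E[n]` is finite then `galoisRepModuleEnd ℚ W n` factors through
  a finite level (the field generated by the coordinates of the `n`-torsion points);
* `h11_frey_finiteLevel`    : the case of the Frey curve and `n = p`.
-/

set_option autoImplicit false

namespace Fermat.Agent.GAL

open WeierstrassCurve WeierstrassCurve.Affine WeierstrassCurve.Affine.Point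

local notation "Qbar" => AlgebraicClosure ℚ

/-- The `x`-coordinate of an affine point (`0` at infinity). -/
noncomputable def h11_ptX {K : Type*} [Field K] {W : Affine K} : W.Point → K
  | .zero => 0
  | .some x _ _ => x

/-- The `y`-coordinate of an affine point (`0` at infinity). -/
noncomputable def h11_ptY {K : Type*} [Field K] {W : Affine K} : W.Point → K
  | .zero => 0
  | .some _ y _ => y

/-- An automorphism fixing both coordinates of a point fixes the point. -/
theorem h11_smul_eq_of_fix [DecidableEq Qbar] (W : WeierstrassCurve ℚ) (σ : Qbar ≃ₐ[ℚ] Qbar)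
    (P : (W⁄Qbar).Point) (hx : σ (h11_ptX P) = h11_ptX P) (hy : σ (h11_ptY P) = h11_ptY P) :
    σ • P = P := by
  cases P with
  | zero => rfl
  | some x y h =>
    rw [algEquiv_smul_def, Point.map_some, Point.some.injEq]
    exact ⟨hx, hy⟩

/-- If the `n`-torsion of `W` over `Qbar` is finite, the mod-`n` Galois representation factors
through a finite level. -/
theorem h11_torsion_finiteLevel [DecidableEq Qbar] (W : WeierstrassCurve ℚ) (n : ℕ)
    [Finite (Submodule.torsionBy ℤ (W⁄Qbar).Point n)] :
    GaloisFactorsThroughFiniteLevel (galoisRepModuleEnd (K := Qbar) ℚ W n) := by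
  set S : Set Qbar :=
    Set.range (fun P : Submodule.torsionBy ℤ (W⁄Qbar).Point n => h11_ptX (P : (W⁄Qbar).Point)) ∪
      Set.range (fun P : Submodule.torsionBy ℤ (W⁄Qbar).Point n => h11_ptY (P : (W⁄Qbar).Point))
    with hS
  have hfin : S.Finite := (Set.finite_range _).union (Set.finite_range _)
  have halg : Algebra.IsAlgebraic ℚ Qbar := AlgebraicClosure.isAlgebraic ℚ
  have hint : Algebra.IsIntegral ℚ Qbar := Algebra.IsAlgebraic.isIntegral
  refine ⟨IntermediateField.adjoin ℚ S, ?_, ?_⟩
  · have : Finite S := hfin.to_subtype
    exact IntermediateField.finiteDimensional_adjoin fun x _ => Algebra.IsIntegral.isIntegral x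
  · intro σ hσ
    apply LinearMap.ext
    intro P
    apply Subtype.ext
    rw [galoisRepModuleEnd_apply]
    show σ • (P : (W⁄Qbar).Point) = P
    refine h11_smul_eq_of_fix W σ P (hσ _ ?_) (hσ _ ?_)
    · exact IntermediateField.subset_adjoin ℚ S (Or.inl ⟨P, rfl⟩)
    · exact IntermediateField.subset_adjoin ℚ S (Or.inr ⟨P, rfl⟩)

/-- **FREY-LEVEL.** The mod-`p` Galois representation of the Frey curve factors through a finite
level. -/
theorem h11_frey_finiteLevel [inst : DecidableEq Qbar] (P : FreyPackage) :
    GaloisFactorsThroughFiniteLevel (galoisRepModuleEnd (K := Qbar) ℚ P.freyCurve P.p) := by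
  have hsub : inst = instDecEqAlgebraicClosureRat := Subsingleton.elim _ _
  subst hsub
  have hfin : Finite (Submodule.torsionBy ℤ (P.freyCurve⁄Qbar).Point P.p) :=
    (Fermat.Agent.S13.h26_frey_card' P).2.1
  exact h11_torsion_finiteLevel P.freyCurve P.p

end Fermat.Agent.GAL
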