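import Mathlib
import Fermat.Prelude.Def_EllipticCurve_FrobeniusTrace
import Fermat.Agent.S05.h26_Inertia

/-!
# GAL (S31 endgame): roots of unity under Frobenius and inertia; Galois levels

* `h65_root_eq_one`: a root of unity of order prime to the residue characteristic which is
  congruent to `1` is `1`.
* `h65_inertia_root`: inertia at a place over `q` fixes the `m`-th roots of unity, `q ∤ m`.
* `h65_frob_root`: a Frobenius element at a place over `ℓ` raises `m`-th roots of unity to the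
  `ℓ`-th power, `ℓ ∤ m`.
* `h65_exists_galois_level`: two finite levels and an element lie in a finite Galois level.
-/

set_option autoImplicit false

namespace Fermat.Agent.GAL

open Fermat.Agent.S05

section roots

variable {L : Type*} [Field L]

theorem h65_mem_of_pow_eq_one (A : ValuationSubring L) {ζ : L} {m : ℕ} (hm : m ≠ 0)
    (hζ : ζ ^ m = 1) : ζ ∈ A := by
  rcases A.mem_or_inv_mem ζ with h | h
  · exact h
  · have : ζ = (ζ⁻¹) ^ (m - 1) := by
      have h0 : ζ ≠ 0 := by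
        rintro rfl
        rw [zero_pow hm] at hζ
        exact zero_ne_one hζ
      obtain ⟨k, rfl⟩ : ∃ k, m = k + 1 := Nat.exists_eq_succ_of_ne_zero hm
      rw [Nat.add_sub_cancel, inv_pow]
      rw [pow_succ] at hζ
      exact (eq_inv_of_mul_eq_one_right hζ)
    rw [this]
    exact A.pow_mem h _

/-- A root of unity of order prime to the residue characteristic which is congruent to `1`
modulo the maximal ideal is `1`. -/
theorem h65_root_eq_one (A : ValuationSubring L) {η : L} {m : ℕ} (hη : η ^ m = 1)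
    (hm : (m : L) ∉ A.nonunits) (h1 : η - 1 ∈ A.nonunits) : η = 1 := by
  by_contra hne
  have hηA : η ∈ A := by
    have : η = (η - 1) + 1 := by ring
    rw [this]
    exact A.add_mem _ _ (A.nonunits_le h1) A.one_mem
  let e : A := ⟨η, hηA⟩
  have he1 : e - 1 ∈ IsLocalRing.maximalIdeal A := by
    rw [← ValuationSubring.coe_mem_nonunits_iff]
    exact h1
  have hres : IsLocalRing.residue A e = 1 := by
    have := (IsLocalRing.residue_eq_zero_iff (e - 1)).mpr he1
    rw [map_sub, map_one] at this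
    exact sub_eq_zero.mp this
  have hsum : ∑ i ∈ Finset.range m, η ^ i = 0 := by
    have h := geom_sum_mul η m
    rw [hη, sub_self] at h
    rcases mul_eq_zero.mp h with h | h
    · exact h
    · exact absurd (sub_eq_zero.mp h) hne
  have hsum' : ∑ i ∈ Finset.range m, e ^ i = 0 := by
    apply Subtype.ext
    rw [AddSubmonoidClass.coe_finsetSum]
    simpa using hsum
  have hres2 : IsLocalRing.residue A (m : A) = 0 := by
    have := congrArg (IsLocalRing.residue A) hsum'
    rw [map_sum, map_zero] at this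
    simp only [map_pow, hres, one_pow, Finset.sum_const, Finset.card_range, nsmul_eq_mul,
      mul_one] at this
    rw [map_natCast]
    exact this
  have hmem : (m : A) ∈ IsLocalRing.maximalIdeal A :=
    (IsLocalRing.residue_eq_zero_iff _).mp hres2
  apply hm
  have := ValuationSubring.coe_mem_nonunits_iff.mpr hmem
  simpa using this

end roots

section galois

variable {K L : Type*} [Field K] [Field L] [Algebra K L]

/-- Inertia at a place over `q` fixes the `m`-th roots of unity when `q ∤ m`. -/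
theorem h65_inertia_root (A : ValuationSubring L) {q : ℕ} (hq : q.Prime)
    (hA : A.LiesOverPrime q) {τ : L ≃ₐ[K] L} (hτ : τ ∈ A.inertiaSubgroupIn K) {ζ : L} {m : ℕ}
    (hqm : ¬ q ∣ m) (hζ : ζ ^ m = 1) : τ ζ = ζ := by
  have hm0 : m ≠ 0 := by
    rintro rfl
    exact hqm (dvd_zero q)
  have hmA : (m : L) ∉ A.nonunits := fun h =>
    hqm ((h26_natCast_mem_nonunits_iff A hq hA m).mp h)
  have hζA : ζ ∈ A := h65_mem_of_pow_eq_one A hm0 hζ
  have hζ0 : ζ ≠ 0 := by
    rintro rfl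
    rw [zero_pow hm0] at hζ
    exact zero_ne_one hζ
  have hinv : ζ⁻¹ ∈ A := by
    have : ζ⁻¹ ^ m = 1 := by rw [inv_pow, hζ, inv_one]
    exact h65_mem_of_pow_eq_one A hm0 this
  have h1 : τ ζ - ζ ∈ A.nonunits := h26_sub_mem_nonunits_of_mem_inertia A hτ hζA
  have h2 : τ ζ * ζ⁻¹ - 1 ∈ A.nonunits := by
    have : τ ζ * ζ⁻¹ - 1 = (τ ζ - ζ) * ζ⁻¹ := by
      rw [sub_mul, mul_inv_cancel₀ hζ0]
    rw [this]
    exact h26_mul_mem_nonunits_right A h1 hinv
  have h3 : (τ ζ * ζ⁻¹) ^ m = 1 := by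
    rw [mul_pow, ← map_pow, hζ, map_one, inv_pow, hζ, inv_one, mul_one]
  have h4 := h65_root_eq_one A h3 hmA h2
  field_simp at h4
  exact h4

/-- A Frobenius element at a place over `ℓ` is congruent to the `ℓ`-th power map. -/
theorem h65_frob_sub_pow_mem (A : ValuationSubring L) {σ : L ≃ₐ[K] L} {ℓ : ℕ}
    (hσ : A.IsFrobeniusAt σ ℓ) {x : L} (hx : x ∈ A) : σ x - x ^ ℓ ∈ A.nonunits := by
  obtain ⟨hmem, hfrob⟩ := hσ
  have h1 := hfrob (IsLocalRing.residue A ⟨x, hx⟩)
  rw [← IsLocalRing.ResidueField.residue_smul, ← map_pow] at h1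
  have h2 : ((⟨σ, hmem⟩ : A.decompositionSubgroup K) • (⟨x, hx⟩ : A)) - (⟨x, hx⟩ : A) ^ ℓ ∈
      IsLocalRing.maximalIdeal A := by
    rw [← Ideal.Quotient.eq]
    exact h1
  exact ValuationSubring.coe_mem_nonunits_iff.mpr h2

/-- A Frobenius element at a place over `ℓ` raises `m`-th roots of unity to the `ℓ`-th power
when `ℓ ∤ m`. -/
theorem h65_frob_root (A : ValuationSubring L) {ℓ : ℕ} (hℓ : ℓ.Prime)
    (hA : A.LiesOverPrime ℓ) {σ : L ≃ₐ[K] L} (hσ : A.IsFrobeniusAt σ ℓ) {ζ : L} {m : ℕ}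
    (hℓm : ¬ ℓ ∣ m) (hζ : ζ ^ m = 1) : σ ζ = ζ ^ ℓ := by
  have hm0 : m ≠ 0 := by
    rintro rfl
    exact hℓm (dvd_zero ℓ)
  have hmA : (m : L) ∉ A.nonunits := fun h =>
    hℓm ((h26_natCast_mem_nonunits_iff A hℓ hA m).mp h)
  have hζA : ζ ∈ A := h65_mem_of_pow_eq_one A hm0 hζ
  have hζ0 : ζ ≠ 0 := by
    rintro rfl
    rw [zero_pow hm0] at hζ
    exact zero_ne_one hζ
  have hinv : (ζ ^ ℓ)⁻¹ ∈ A := by
    have : ((ζ ^ ℓ)⁻¹) ^ m = 1 := by rw [inv_pow, ← pow_mul, mul_comm, pow_mul, hζ, one_pow, inv_one]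
    exact h65_mem_of_pow_eq_one A hm0 this
  have h1 : σ ζ - ζ ^ ℓ ∈ A.nonunits := h65_frob_sub_pow_mem A hσ hζA
  have h2 : σ ζ * (ζ ^ ℓ)⁻¹ - 1 ∈ A.nonunits := by
    have : σ ζ * (ζ ^ ℓ)⁻¹ - 1 = (σ ζ - ζ ^ ℓ) * (ζ ^ ℓ)⁻¹ := by
      rw [sub_mul, mul_inv_cancel₀ (pow_ne_zero ℓ hζ0)]
    rw [this]
    exact h26_mul_mem_nonunits_right A h1 hinv
  have h3 : (σ ζ * (ζ ^ ℓ)⁻¹) ^ m = 1 := by
    rw [mul_pow, ← map_pow, hζ, map_one, inv_pow, ← pow_mul, mul_comm ℓ m, pow_mul, hζ, one_pow,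
      inv_one, mul_one]
  have h4 := h65_root_eq_one A h3 hmA h2
  have h5 : σ ζ = σ ζ * (ζ ^ ℓ)⁻¹ * ζ ^ ℓ := by
    rw [mul_assoc, inv_mul_cancel₀ (pow_ne_zero ℓ hζ0), mul_one]
  rw [h5, h4, one_mul]

end galois

section level

open IntermediateField

/-- Two finite levels and an element lie in a finite Galois level. -/
theorem h65_exists_galois_level (L₁ L₂ : IntermediateField ℚ (AlgebraicClosure ℚ))
    (h₁ : FiniteDimensional ℚ L₁) (h₂ : FiniteDimensional ℚ L₂) (ζ : AlgebraicClosure ℚ) :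
    ∃ L : IntermediateField ℚ (AlgebraicClosure ℚ), FiniteDimensional ℚ L ∧ IsGalois ℚ L ∧
      L₁ ≤ L ∧ L₂ ≤ L ∧ ζ ∈ L := by
  have halg : Algebra.IsAlgebraic ℚ (AlgebraicClosure ℚ) := AlgebraicClosure.isAlgebraic ℚ
  have hclo : IsAlgClosure ℚ (AlgebraicClosure ℚ) := ⟨inferInstance, inferInstance⟩
  have hint : IsIntegral ℚ ζ := Algebra.IsIntegral.isIntegral ζ
  have h3 : FiniteDimensional ℚ (IntermediateField.adjoin ℚ {ζ}) :=
    IntermediateField.adjoin.finiteDimensional hint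
  let F : IntermediateField ℚ (AlgebraicClosure ℚ) := L₁ ⊔ L₂ ⊔ IntermediateField.adjoin ℚ {ζ}
  have hF : FiniteDimensional ℚ F := by
    have : FiniteDimensional ℚ (L₁ ⊔ L₂ : IntermediateField ℚ (AlgebraicClosure ℚ)) :=
      IntermediateField.finiteDimensional_sup L₁ L₂
    exact IntermediateField.finiteDimensional_sup _ _
  have hnor : Normal ℚ (AlgebraicClosure ℚ) := IsAlgClosure.normal ℚ (AlgebraicClosure ℚ)
  refine ⟨IntermediateField.normalClosure ℚ F (AlgebraicClosure ℚ), ?_, ?_, ?_, ?_, ?_⟩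
  · exact normalClosure.is_finiteDimensional ℚ F (AlgebraicClosure ℚ)
  · have : Normal ℚ (IntermediateField.normalClosure ℚ F (AlgebraicClosure ℚ)) :=
      normalClosure.normal ℚ F (AlgebraicClosure ℚ)
    exact ⟨⟩
  · exact le_trans (le_trans le_sup_left le_sup_left) (IntermediateField.le_normalClosure F)
  · exact le_trans (le_trans le_sup_right le_sup_left) (IntermediateField.le_normalClosure F)
  · exact IntermediateField.le_normalClosure F
      ((le_sup_right : IntermediateField.adjoin ℚ {ζ} ≤ F)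
        (IntermediateField.mem_adjoin_simple_self ℚ ζ))

end level

end Fermat.Agent.GAL
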