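import Mathlib
import Fermat.Prelude.Def_GaloisRep_Residual
import Fermat.Prelude.Def_FreyPackage_EigenformResidualAttachment
import Fermat.Agent.GAL.h11_FreyLevel
import Fermat.Agent.GAL.h65_Cyclo

/-!
# GAL, row 404 (PACK42): S42 from the statement of S29

* `h11_trace_of_charpoly`, `h11_det_of_charpoly` : trace and determinant of an endomorphism of a
  two-dimensional space from its characteristic polynomial `X² - a X + b`;
* `h11_exists_numberField_level` : two finite levels lie in a Galois number field `F ⊆ Qbar`, and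
  the kernel of the restriction to `F` fixes both levels pointwise;
* `h11_S42_of_S29` : the frozen statement S42 from the frozen statement S29.
-/

set_option autoImplicit false

namespace Fermat.Agent.GAL

open Polynomial WeierstrassCurve WeierstrassCurve.Affine.Point

local notation "Qbar" => AlgebraicClosure ℚ

section Charpoly

variable {K : Type*} [Field K] {V : Type*} [AddCommGroup V] [Module K V] [Module.Finite K V]

/-- Trace from the characteristic polynomial in dimension two. -/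
theorem h11_trace_of_charpoly (hV : Module.finrank K V = 2) (f : Module.End K V) (a b : K)
    (h : f.charpoly = X ^ 2 - C a * X + C b) : LinearMap.trace K V f = a := by
  set bas := Module.Free.chooseBasis K V with hbas
  have hcard : Fintype.card (Module.Free.ChooseBasisIndex K V) = 2 := by
    rw [← Module.finrank_eq_card_chooseBasisIndex, hV]
  have : Nonempty (Module.Free.ChooseBasisIndex K V) := by
    rw [← Fintype.card_pos_iff, hcard]
    norm_num
  rw [LinearMap.trace_eq_matrix_trace K bas f, Matrix.trace_eq_neg_charpoly_coeff, hcard]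
  have h1 : (LinearMap.toMatrix bas bas f).charpoly = X ^ 2 - C a * X + C b := h
  rw [h1]
  simp [coeff_C]

/-- Determinant from the characteristic polynomial in dimension two. -/
theorem h11_det_of_charpoly (hV : Module.finrank K V = 2) (f : Module.End K V) (a b : K)
    (h : f.charpoly = X ^ 2 - C a * X + C b) : LinearMap.det f = b := by
  set bas := Module.Free.chooseBasis K V with hbas
  have hcard : Fintype.card (Module.Free.ChooseBasisIndex K V) = 2 := by
    rw [← Module.finrank_eq_card_chooseBasisIndex, hV]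
  rw [← LinearMap.det_toMatrix bas f, Matrix.det_eq_sign_charpoly_coeff, hcard]
  have h1 : (LinearMap.toMatrix bas bas f).charpoly = X ^ 2 - C a * X + C b := h
  rw [h1]
  simp [coeff_X, coeff_C]

end Charpoly

/-- Two finite levels lie in a Galois number field `F ⊆ Qbar`; every automorphism in the kernel
of the restriction to `F` fixes both levels pointwise. -/
theorem h11_exists_numberField_level (L₁ L₂ : IntermediateField ℚ Qbar)
    (h₁ : FiniteDimensional ℚ L₁) (h₂ : FiniteDimensional ℚ L₂) :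
    ∃ L : IntermediateField ℚ Qbar, ∃ (_ : NumberField L) (_ : IsGalois ℚ L),
      ∀ σ : Qbar ≃ₐ[ℚ] Qbar, σ ∈ (AlgEquiv.restrictNormalHom (F := ℚ) (K₁ := Qbar) L).ker →
        (∀ x ∈ L₁, σ x = x) ∧ (∀ x ∈ L₂, σ x = x) := by
  obtain ⟨L, hfd, hgal, hL1, hL2, -⟩ := h65_exists_galois_level L₁ L₂ h₁ h₂ 0
  have := hfd
  have := hgal
  have hnf : NumberField L := { }
  refine ⟨L, hnf, hgal, fun σ hσ => ?_⟩
  have hfix : ∀ x ∈ L, σ x = x := by
    intro x hx
    have h1 : AlgEquiv.restrictNormalHom (F := ℚ) (K₁ := Qbar) L σ = 1 := MonoidHom.mem_ker.mp hσ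
    have h2 := AlgEquiv.restrictNormal_commutes σ L ⟨x, hx⟩
    have h3 : σ.restrictNormal L = 1 := h1
    rw [h3] at h2
    exact h2.symm
  exact ⟨fun x hx => hfix x (hL1 hx), fun x hx => hfix x (hL2 hx)⟩

/-- **PACK42.** The frozen statement S42 follows from the frozen statement S29. -/
theorem h11_S42_of_S29
    (hS29 : ∀ {N : ℕ} {g : CuspForm (CongruenceSubgroup.Gamma0 N) 2}
      (_ : g.IsNormalizedEigenform) {p : ℕ} (_ : p.Prime) {k : Type} [Field k] [CharP k p]
      (φ : integralClosure ℤ ℂ →+* k),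
      ∃ ρ : ResidualGaloisRep k, ρ.IsAttachedTo g φ ∧
        ∀ ℓ : ℕ, ℓ.Prime → ¬ ℓ ∣ N * p → ρ.IsUnramifiedAt ℓ)
    (P : FreyPackage) : ∀ M : ℕ, 0 < M → P.EigenformResidualAttachmentAt M := by
  intro M _ g hg 𝔪 h𝔪 hp𝔪
  have hp : P.p.Prime := P.pp
  let _ : Field (integralClosure ℤ ℂ ⧸ 𝔪) := Ideal.Quotient.field 𝔪
  set ψ : integralClosure ℤ ℂ →+* (integralClosure ℤ ℂ ⧸ 𝔪) := Ideal.Quotient.mk 𝔪 with hψ
  have hp0 : ((P.p : ℕ) : integralClosure ℤ ℂ ⧸ 𝔪) = 0 := by
    have : ψ (P.p : integralClosure ℤ ℂ) = 0 := Ideal.Quotient.eq_zero_iff_mem.mpr hp𝔪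
    rwa [map_natCast] at this
  have hchar : CharP (integralClosure ℤ ℂ ⧸ 𝔪) P.p := (CharP.charP_iff_prime_eq_zero hp).mpr hp0
  let _ : Algebra (ZMod P.p) (integralClosure ℤ ℂ ⧸ 𝔪) := ZMod.algebra _ P.p
  obtain ⟨ρ, hatt, -⟩ := hS29 hg hp ψ
  obtain ⟨L₁, hL₁, hρ⟩ := ρ.factorsThroughFiniteLevel
  obtain ⟨L₂, hL₂, hE⟩ := h11_frey_finiteLevel P
  obtain ⟨L, hnf, hgal, hker⟩ := h11_exists_numberField_level L₁ L₂ hL₁ hL₂
  have hℓne : ∀ ℓ : ℕ, ℓ.Prime → ℓ ≠ P.p → ((ℓ : ℕ) : integralClosure ℤ ℂ ⧸ 𝔪) ≠ 0 := by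
    intro ℓ hℓ hne h0
    have hdvd : P.p ∣ ℓ := (CharP.cast_eq_zero_iff (integralClosure ℤ ℂ ⧸ 𝔪) P.p ℓ).mp h0
    exact hne ((Nat.prime_dvd_prime_iff_eq hp hℓ).mp hdvd).symm
  refine ⟨integralClosure ℤ ℂ ⧸ 𝔪, inferInstance, inferInstance, ρ.V, inferInstance, inferInstance,
    ρ.ρ, ψ, L, inferInstance, hnf, hgal, inferInstance, inferInstance, ?_, ρ.finrank_eq, ?_, ?_, ?_⟩
  · rw [hψ, Ideal.mk_ker]
  · intro σ hσ
    obtain ⟨h1, h2⟩ := hker σ hσ
    exact ⟨MonoidHom.mem_ker.mpr (hE σ h2), MonoidHom.mem_ker.mpr (hρ σ h1)⟩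
  · intro ℓ hℓ hℓM hℓp A hA τ hτ
    obtain ⟨a, ha, hcp⟩ := hatt ℓ hℓ hℓM (hℓne ℓ hℓ hℓp) A hA τ hτ
    exact ⟨a, ha, h11_trace_of_charpoly ρ.finrank_eq (ρ.ρ τ) (ψ a) _ hcp⟩
  · intro ℓ hℓ hℓM hℓp A hA τ hτ
    obtain ⟨a, -, hcp⟩ := hatt ℓ hℓ hℓM (hℓne ℓ hℓ hℓp) A hA τ hτ
    exact h11_det_of_charpoly ρ.finrank_eq (ρ.ρ τ) (ψ a) _ hcp

end Fermat.Agent.GAL
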