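import Mathlib
import Fermat.Agent.S54.Frob
import Fermat.Prelude.Def_EllipticCurve_FrobeniusTrace

/-!
# Frobenius lifts and roots of unity (shared utility, GAL + S41)

* `h14_frob_sub_pow_mem` : a Frobenius lift `σ` at `ℓ` satisfies `σ x ≡ x ^ ℓ` modulo the maximal
  ideal, for every `x` of the valuation ring;
* `h14_rootOfUnity_eq_of_sub_mem_nonunits` : reduction is injective on `n`-th roots of unity when
  `ℓ ∤ n`;
* `h14_frob_rootOfUnity` : `σ ζ = ζ ^ ℓ` for every `n`-th root of unity `ζ`, `ℓ ∤ n`;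
* `h14_dvd_sub_one_of_frob_fix` : if `σ` fixes a primitive `n`-th root of unity then `n ∣ ℓ - 1`.
-/

set_option autoImplicit false

namespace Fermat.Agent.GAL

open Fermat.Agent.S54

/-- An element of `ℚ̄` that is integral over `ℤ` lies in every valuation subring. -/
theorem h14_mem_of_pow_eq_one (v : ValuationSubring (AlgebraicClosure ℚ)) (n : ℕ) (hn : n ≠ 0)
    (x : AlgebraicClosure ℚ) (hx : x ^ n = 1) : x ∈ v := by
  apply mem_valuationSubring_of_isIntegral
  refine ⟨Polynomial.X ^ n - 1, Polynomial.monic_X_pow_sub_C (1 : ℤ) hn, ?_⟩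
  simp [hx]

/-- The raw Frobenius congruence: `σ x ≡ x ^ ℓ` modulo the maximal ideal. -/
theorem h14_frob_sub_pow_mem (v : ValuationSubring (AlgebraicClosure ℚ)) (ℓ : ℕ)
    (σ : AlgebraicClosure ℚ ≃ₐ[ℚ] AlgebraicClosure ℚ) (hσ : v.IsFrobeniusAt σ ℓ)
    (x : AlgebraicClosure ℚ) (hx : x ∈ v) : σ x - x ^ ℓ ∈ v.nonunits := by
  obtain ⟨hmem, hfrob⟩ := hσ
  set G : v.decompositionSubgroup ℚ := ⟨σ, hmem⟩ with hG
  let a : v := ⟨x, hx⟩
  have h1 := hfrob (IsLocalRing.residue v a)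
  rw [← IsLocalRing.ResidueField.residue_smul, ← map_pow] at h1
  have h2 : G • a - a ^ ℓ ∈ IsLocalRing.maximalIdeal v := Ideal.Quotient.eq.mp h1
  rw [← ValuationSubring.coe_mem_nonunits_iff] at h2
  exact h2

/-- Reduction modulo a place over `ℓ` is injective on `n`-th roots of unity, `ℓ ∤ n`. -/
theorem h14_rootOfUnity_eq_of_sub_mem_nonunits (v : ValuationSubring (AlgebraicClosure ℚ))
    (ℓ n : ℕ) (hℓ : ℓ.Prime) (hv : v.LiesOverPrime ℓ) (hn : ¬ ℓ ∣ n)
    (x y : AlgebraicClosure ℚ) (hx : x ^ n = 1) (hy : y ^ n = 1) (h : x - y ∈ v.nonunits) :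
    x = y := by
  have hn0 : n ≠ 0 := by
    rintro rfl
    exact hn (dvd_zero _)
  by_contra hne
  have hy0 : y ≠ 0 := by
    rintro rfl
    rw [zero_pow hn0] at hy
    exact zero_ne_one hy
  set η : AlgebraicClosure ℚ := x * y⁻¹ with hη
  have hηn : η ^ n = 1 := by
    rw [hη, mul_pow, inv_pow, hx, hy]; simp
  have hη1 : η ≠ 1 := by
    intro h1
    apply hne
    have : x = η * y := by rw [hη]; field_simp
    rw [this, h1, one_mul]
  have hyinv : y⁻¹ ∈ v := by
    apply h14_mem_of_pow_eq_one v n hn0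
    rw [inv_pow, hy, inv_one]
  -- `η - 1` is a nonunit
  have hη_sub : v.valuation (η - 1) < 1 := by
    have e : η - 1 = (x - y) * y⁻¹ := by rw [hη]; field_simp
    rw [e, map_mul]
    have h1 : v.valuation (x - y) < 1 := (ValuationSubring.mem_nonunits_iff v).mp h
    have h2 : v.valuation y⁻¹ ≤ 1 := (ValuationSubring.valuation_le_one_iff v _).mpr hyinv
    calc v.valuation (x - y) * v.valuation y⁻¹ ≤ v.valuation (x - y) * 1 :=
          mul_le_mul_right h2 _
      _ = v.valuation (x - y) := mul_one _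
      _ < 1 := h1
  have hηv : ∀ k : ℕ, v.valuation (η ^ k) ≤ 1 := by
    intro k
    apply (ValuationSubring.valuation_le_one_iff v _).mpr
    exact v.pow_mem (h14_mem_of_pow_eq_one v n hn0 η hηn) k
  -- `η ^ k - 1` is a nonunit for every `k`
  have hk : ∀ k : ℕ, v.valuation (η ^ k - 1) < 1 := by
    intro k
    have e : η ^ k - 1 = (η - 1) * ∑ j ∈ Finset.range k, η ^ j := by
      rw [mul_comm, geom_sum_mul]
    rw [e, map_mul]
    have h2 : v.valuation (∑ j ∈ Finset.range k, η ^ j) ≤ 1 :=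
      Valuation.map_sum_le _ (fun j _ => hηv j)
    calc v.valuation (η - 1) * v.valuation (∑ j ∈ Finset.range k, η ^ j)
          ≤ v.valuation (η - 1) * 1 := mul_le_mul_right h2 _
      _ = v.valuation (η - 1) := mul_one _
      _ < 1 := hη_sub
  -- the geometric sum vanishes
  have hgeom : ∑ j ∈ Finset.range n, η ^ j = 0 := by
    have h1 : (∑ j ∈ Finset.range n, η ^ j) * (η - 1) = 0 := by
      rw [geom_sum_mul, hηn, sub_self]
    rcases mul_eq_zero.mp h1 with h2 | h2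
    · exact h2
    · exact absurd (sub_eq_zero.mp h2) hη1
  -- hence `n` is a nonunit
  have hnval : v.valuation (n : AlgebraicClosure ℚ) < 1 := by
    have e : (n : AlgebraicClosure ℚ) = - ∑ j ∈ Finset.range n, (η ^ j - 1) := by
      rw [Finset.sum_sub_distrib, hgeom]; simp
    rw [e, Valuation.map_neg]
    exact Valuation.map_sum_lt _ one_ne_zero (fun j _ => hk j)
  have hℓval : v.valuation (ℓ : AlgebraicClosure ℚ) < 1 := (ValuationSubring.mem_nonunits_iff v).mp hv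
  -- Bezout
  have hcop : Nat.Coprime ℓ n := (Nat.Prime.coprime_iff_not_dvd hℓ).mpr hn
  have hbez : (1 : ℤ) = ℓ * Nat.gcdA ℓ n + n * Nat.gcdB ℓ n := by
    have := Nat.gcd_eq_gcd_ab ℓ n
    rw [hcop] at this
    exact_mod_cast this
  have hint : ∀ z : ℤ, v.valuation (z : AlgebraicClosure ℚ) ≤ 1 := by
    intro z
    apply (ValuationSubring.valuation_le_one_iff v _).mpr
    exact mem_valuationSubring_of_isIntegral v isIntegral_algebraMap
  have h1 : (1 : AlgebraicClosure ℚ) =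
      (ℓ : AlgebraicClosure ℚ) * (Nat.gcdA ℓ n : AlgebraicClosure ℚ) +
        (n : AlgebraicClosure ℚ) * (Nat.gcdB ℓ n : AlgebraicClosure ℚ) := by
    have := congrArg (Int.cast : ℤ → AlgebraicClosure ℚ) hbez
    push_cast at this
    exact this
  have hlt : v.valuation (1 : AlgebraicClosure ℚ) < 1 := by
    rw [h1]
    apply Valuation.map_add_lt
    · rw [map_mul]
      calc v.valuation (ℓ : AlgebraicClosure ℚ) * v.valuation (Nat.gcdA ℓ n : AlgebraicClosure ℚ)
            ≤ v.valuation (ℓ : AlgebraicClosure ℚ) * 1 := mul_le_mul_right (hint _) _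
        _ = v.valuation (ℓ : AlgebraicClosure ℚ) := mul_one _
        _ < 1 := hℓval
    · rw [map_mul]
      calc v.valuation (n : AlgebraicClosure ℚ) * v.valuation (Nat.gcdB ℓ n : AlgebraicClosure ℚ)
            ≤ v.valuation (n : AlgebraicClosure ℚ) * 1 := mul_le_mul_right (hint _) _
        _ = v.valuation (n : AlgebraicClosure ℚ) := mul_one _
        _ < 1 := hnval
  rw [map_one] at hlt
  exact lt_irrefl _ hlt

/-- A Frobenius lift at `ℓ` raises every `n`-th root of unity (`ℓ ∤ n`) to the `ℓ`-th power. -/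
theorem h14_frob_rootOfUnity (v : ValuationSubring (AlgebraicClosure ℚ)) (ℓ n : ℕ)
    (hℓ : ℓ.Prime) (hv : v.LiesOverPrime ℓ) (hn : ¬ ℓ ∣ n)
    (σ : AlgebraicClosure ℚ ≃ₐ[ℚ] AlgebraicClosure ℚ) (hσ : v.IsFrobeniusAt σ ℓ)
    (ζ : AlgebraicClosure ℚ) (hζ : ζ ^ n = 1) : σ ζ = ζ ^ ℓ := by
  have hn0 : n ≠ 0 := by
    rintro rfl
    exact hn (dvd_zero _)
  apply h14_rootOfUnity_eq_of_sub_mem_nonunits v ℓ n hℓ hv hn
  · rw [← map_pow, hζ, map_one]
  · rw [← pow_mul, mul_comm, pow_mul, hζ, one_pow]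
  · exact h14_frob_sub_pow_mem v ℓ σ hσ ζ (h14_mem_of_pow_eq_one v n hn0 ζ hζ)

/-- If a Frobenius lift at `ℓ` fixes a primitive `n`-th root of unity (`ℓ ∤ n`), then
`ℓ ≡ 1 mod n`. -/
theorem h14_dvd_sub_one_of_frob_fix (v : ValuationSubring (AlgebraicClosure ℚ)) (ℓ n : ℕ)
    (hℓ : ℓ.Prime) (hv : v.LiesOverPrime ℓ) (hn : ¬ ℓ ∣ n)
    (σ : AlgebraicClosure ℚ ≃ₐ[ℚ] AlgebraicClosure ℚ) (hσ : v.IsFrobeniusAt σ ℓ)
    (ζ : AlgebraicClosure ℚ) (hζ : IsPrimitiveRoot ζ n) (hfix : σ ζ = ζ) : n ∣ ℓ - 1 := by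
  have h1 := h14_frob_rootOfUnity v ℓ n hℓ hv hn σ hσ ζ hζ.pow_eq_one
  rw [hfix] at h1
  have hζ0 : ζ ≠ 0 := by
    have hn0 : n ≠ 0 := by
      rintro rfl
      exact hn (dvd_zero _)
    exact hζ.ne_zero hn0
  have h2 : ζ ^ (ℓ - 1) = 1 := by
    have h3 : ζ ^ (ℓ - 1) * ζ = 1 * ζ := by
      rw [← pow_succ, Nat.sub_add_cancel hℓ.one_le, one_mul]
      exact h1.symm
    exact mul_right_cancel₀ hζ0 h3
  exact (hζ.pow_eq_one_iff_dvd _).mp h2

end Fermat.Agent.GAL
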