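import Mathlib

/-!
# GAL (S30 endgame): from a two-dimensional pseudo-character to a representation

Let `(t, d)` be a two-dimensional pseudo-character of a group `G` over a field `K` of
characteristic `≠ 2` (`d` multiplicative, `t` central, `t 1 = 2`,
`t g * t h = t (g h) + d h * t (g h⁻¹)`) and let `c ∈ G` with `c² = 1`, `d c = -1`
("complex conjugation").  Then there is a homomorphism `ρ : G → M₂(K)` with `tr ρ = t`,
`det ρ = d`, whose entries are explicit combinations of values of `t` divided by a fixed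
denominator.  In particular `ρ u = 1` whenever `t (g u) = t g` for all `g`, and `ρ u` is close to
`1` when `t (g u) - t g` is small for all `g`.

The proof works in the group algebra `K[G]` with the linear extension `T` of `t` and the
idempotents `e = (1 + c) / 2`, `f = 1 - e`: the two identities
`T (e x e y) = T (e x) T (e y)` and `T (f x f y) = T (f x) T (f y)` and the centrality of `T`
give the four "matrix coefficient" identities for `a x = T (e x)`, `δ x = T (f x)`,
`b x y = T (e x f y)`.  No quotient algebra is needed.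
-/

set_option autoImplicit false

namespace Fermat.Agent.GAL

open Matrix

section abstract

variable {K : Type*} [Field K] {A : Type*} [Ring A] [Algebra K A]

/-- A central linear functional `T` on an algebra together with two complementary orthogonal
idempotents `e`, `f` on whose corners `T` is multiplicative. -/
structure h16_TraceData (T : A →ₗ[K] K) (e f : A) : Prop where
  comm : ∀ x y, T (x * y) = T (y * x)
  add : e + f = 1
  ef : e * f = 0
  fe : f * e = 0
  Te : T e = 1
  Tf : T f = 1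
  E : ∀ x y, T (e * x * e * y) = T (e * x) * T (e * y)
  F : ∀ x y, T (f * x * f * y) = T (f * x) * T (f * y)

variable {T : A →ₗ[K] K} {e f : A}

/-- Insert `1 = e + f`. -/
theorem h16_split (H : h16_TraceData T e f) (x y : A) : x * y = x * e * y + x * f * y := by
  rw [← add_mul, ← mul_add, H.add, mul_one]

theorem h16_a_mul (H : h16_TraceData T e f) (x y : A) :
    T (e * (x * y)) = T (e * x) * T (e * y) + T (e * x * f * y) := by
  rw [← mul_assoc, h16_split H (e * x) y, map_add, H.E]

theorem h16_dl_mul (H : h16_TraceData T e f) (x y : A) :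
    T (f * (x * y)) = T (f * x) * T (f * y) + T (e * y * f * x) := by
  rw [← mul_assoc, h16_split H (f * x) y, map_add, H.F, add_comm]
  congr 1
  rw [show f * x * e * y = (f * x) * (e * y) by noncomm_ring, H.comm]
  congr 1
  noncomm_ring

/-- The rank-one law for the off-diagonal coefficients. -/
theorem h16_rank_one (H : h16_TraceData T e f) (x y z w : A) :
    T (e * x * f * y) * T (e * z * f * w) = T (e * x * f * w) * T (e * z * f * y) := by
  have h1 : T (e * x * f * y) * T (e * z * f * w) = T (e * x * f * y * e * z * f * w) := by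
    have := H.E (x * f * y) (z * f * w)
    have e1 : e * (x * f * y) * e * (z * f * w) = e * x * f * y * e * z * f * w := by
      noncomm_ring
    have e2 : e * (x * f * y) = e * x * f * y := by noncomm_ring
    have e3 : e * (z * f * w) = e * z * f * w := by noncomm_ring
    rw [e1, e2, e3] at this
    exact this.symm
  have h2 : T (e * x * f * w) = T (f * (w * e * x)) := by
    rw [show e * x * f * w = (e * x) * (f * w) by noncomm_ring, H.comm]
    congr 1
    noncomm_ring
  have h3 : T (e * z * f * y) = T (f * (y * e * z)) := by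
    rw [show e * z * f * y = (e * z) * (f * y) by noncomm_ring, H.comm]
    congr 1
    noncomm_ring
  have h4 : T (f * (y * e * z)) * T (f * (w * e * x)) = T (e * x * f * y * e * z * f * w) := by
    rw [← H.F (y * e * z) (w * e * x)]
    rw [show f * (y * e * z) * f * (w * e * x) = (f * y * e * z * f * w) * (e * x) by
      noncomm_ring, H.comm]
    congr 1
    noncomm_ring
  rw [h1, h2, h3, mul_comm, h4]

theorem h16_b_mul_left (H : h16_TraceData T e f) (x y z : A) :
    T (e * (x * y) * f * z) = T (e * x) * T (e * y * f * z) + T (f * y) * T (e * x * f * z) := by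
  have h0 : e * (x * y) * f * z = e * x * e * (y * f * z) + e * x * f * (y * f * z) := by
    rw [← h16_split H (e * x) (y * f * z)]
    noncomm_ring
  rw [h0, map_add, H.E]
  congr 1
  · rw [show e * (y * f * z) = e * y * f * z by noncomm_ring]
  · rw [show e * x * f * (y * f * z) = (e * x) * (f * y * f * z) by noncomm_ring, H.comm,
      show f * y * f * z * (e * x) = f * y * f * (z * e * x) by noncomm_ring, H.F]
    congr 1
    rw [show f * (z * e * x) = (f * z) * (e * x) by noncomm_ring, H.comm]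
    congr 1
    noncomm_ring

theorem h16_b_mul_right (H : h16_TraceData T e f) (x y z : A) :
    T (e * x * f * (y * z)) = T (e * x * f * y) * T (e * z) + T (f * y) * T (e * x * f * z) := by
  have h0 : e * x * f * (y * z) = (e * x * f * y) * e * z + (e * x * f * y) * f * z := by
    rw [← h16_split H (e * x * f * y) z]
    noncomm_ring
  rw [h0, map_add]
  congr 1
  · rw [show e * x * f * y * e * z = (e * x * f * y) * (e * z) by noncomm_ring, H.comm,
      show e * z * (e * x * f * y) = e * z * e * (x * f * y) by noncomm_ring, H.E, mul_comm]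
    congr 1
    noncomm_ring
  · rw [show e * x * f * y * f * z = (e * x) * (f * y * f * z) by noncomm_ring, H.comm,
      show f * y * f * z * (e * x) = f * y * f * (z * e * x) by noncomm_ring, H.F]
    congr 1
    rw [show f * (z * e * x) = (f * z) * (e * x) by noncomm_ring, H.comm]
    congr 1
    noncomm_ring

theorem h16_b_one_left (H : h16_TraceData T e f) (y : A) : T (e * 1 * f * y) = 0 := by
  rw [mul_one, H.ef, zero_mul, map_zero]

theorem h16_b_one_right (H : h16_TraceData T e f) (x : A) : T (e * x * f * 1) = 0 := by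
  rw [mul_one, H.comm (e * x) f, ← mul_assoc, H.fe, zero_mul, map_zero]

theorem h16_a_add_dl (H : h16_TraceData T e f) (x : A) : T (e * x) + T (f * x) = T x := by
  rw [← map_add, ← add_mul, H.add, one_mul]

end abstract

section group

variable {G : Type*} [Group G] {K : Type*} [Field K]

/-- A two-dimensional pseudo-character `(t, d)` together with an involution `c` of
"determinant" `-1`. -/
structure h16_IsPseudo (t d : G → K) (c : G) : Prop where
  d_mul : ∀ g h, d (g * h) = d g * d h
  t_one : t 1 = 2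
  t_comm : ∀ g h, t (g * h) = t (h * g)
  t_mul : ∀ g h, t g * t h = t (g * h) + d h * t (g * h⁻¹)
  c_sq : c * c = 1
  d_c : d c = -1

/-- The linear extension of `t` to the group algebra. -/
noncomputable def h16_T (t : G → K) : MonoidAlgebra K G →ₗ[K] K :=
  (Finsupp.linearCombination K t).comp (MonoidAlgebra.coeffLinearEquiv K).toLinearMap

theorem h16_T_of (t : G → K) (g : G) : h16_T t (MonoidAlgebra.of K G g) = t g := by
  simp [h16_T, MonoidAlgebra.of_apply, MonoidAlgebra.coeffLinearEquiv]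

theorem h16_T_of_mul (t : G → K) (g h : G) :
    h16_T t (MonoidAlgebra.of K G g * MonoidAlgebra.of K G h) = t (g * h) := by
  rw [← map_mul, h16_T_of]

theorem h16_T_one (t : G → K) : h16_T t (1 : MonoidAlgebra K G) = t 1 := by
  rw [← map_one (MonoidAlgebra.of K G), h16_T_of]

/-- The idempotent `(1 + c) / 2`. -/
noncomputable def h16_e (K : Type*) [Field K] (c : G) : MonoidAlgebra K G :=
  (2⁻¹ : K) • (1 + MonoidAlgebra.of K G c)

/-- The idempotent `(1 - c) / 2`. -/
noncomputable def h16_f (K : Type*) [Field K] (c : G) : MonoidAlgebra K G :=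
  (2⁻¹ : K) • (1 - MonoidAlgebra.of K G c)

theorem h16_e_mul_of (c g : G) :
    h16_e K c * MonoidAlgebra.of K G g =
      (2⁻¹ : K) • (MonoidAlgebra.of K G g + MonoidAlgebra.of K G (c * g)) := by
  rw [h16_e, smul_mul_assoc, add_mul, one_mul, ← map_mul]

theorem h16_f_mul_of (c g : G) :
    h16_f K c * MonoidAlgebra.of K G g =
      (2⁻¹ : K) • (MonoidAlgebra.of K G g - MonoidAlgebra.of K G (c * g)) := by
  rw [h16_f, smul_mul_assoc, sub_mul, one_mul, ← map_mul]

variable {t d : G → K} {c : G}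

theorem h16_c_inv (H : h16_IsPseudo t d c) : c⁻¹ = c :=
  inv_eq_of_mul_eq_one_right H.c_sq

theorem h16_t_c (H : h16_IsPseudo t d c) : t c = 0 := by
  have h := H.t_mul c c
  rw [H.c_sq, mul_inv_cancel, H.d_c] at h
  have h0 : t c * t c = 0 := by rw [h]; ring
  exact mul_self_eq_zero.mp h0

theorem h16_T_comm (H : h16_IsPseudo t d c) (x y : MonoidAlgebra K G) :
    h16_T t (x * y) = h16_T t (y * x) := by
  induction x using MonoidAlgebra.induction_on with
  | of g =>
    induction y using MonoidAlgebra.induction_on with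
    | of h => rw [h16_T_of_mul, h16_T_of_mul, H.t_comm]
    | add y₁ y₂ h₁ h₂ => rw [mul_add, add_mul, map_add, map_add, h₁, h₂]
    | smul r y hy => rw [mul_smul_comm, smul_mul_assoc, map_smul, map_smul, hy]
  | add x₁ x₂ h₁ h₂ => rw [add_mul, mul_add, map_add, map_add, h₁, h₂]
  | smul r x hx => rw [smul_mul_assoc, mul_smul_comm, map_smul, map_smul, hx]

/-- The four instances of the pseudo-character relation used for the corner identities. -/
theorem h16_four (H : h16_IsPseudo t d c) (g h : G) :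
    t g * t h = t (g * h) + d h * t (g * h⁻¹) ∧
    t g * t (c * h) = t (g * (c * h)) - d h * t (c * (g * h⁻¹)) ∧
    t (c * g) * t h = t (c * g * h) + d h * t (c * (g * h⁻¹)) ∧
    t (c * g) * t (c * h) = t (c * g * (c * h)) - d h * t (g * h⁻¹) := by
  have hci := h16_c_inv H
  refine ⟨H.t_mul g h, ?_, ?_, ?_⟩
  · have k := H.t_mul g (c * h)
    rw [H.d_mul, H.d_c, _root_.mul_inv_rev, hci, ← mul_assoc g h⁻¹ c, H.t_comm (g * h⁻¹) c] at k
    rw [k]; ring
  · have k := H.t_mul (c * g) h
    rw [mul_assoc c g h⁻¹] at k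
    exact k
  · have k := H.t_mul (c * g) (c * h)
    have e1 : c * g * (c * h)⁻¹ = c * (g * h⁻¹ * c) := by
      rw [_root_.mul_inv_rev, hci]; group
    have e2 : g * h⁻¹ * c * c = g * h⁻¹ := by rw [mul_assoc, H.c_sq, mul_one]
    rw [H.d_mul, H.d_c, e1, H.t_comm c (g * h⁻¹ * c), e2] at k
    rw [k]; ring

theorem h16_E_of (H : h16_IsPseudo t d c) (g h : G) :
    h16_T t (h16_e K c * MonoidAlgebra.of K G g * h16_e K c * MonoidAlgebra.of K G h) =
      h16_T t (h16_e K c * MonoidAlgebra.of K G g) *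
        h16_T t (h16_e K c * MonoidAlgebra.of K G h) := by
  obtain ⟨k1, k2, k3, k4⟩ := h16_four H g h
  rw [mul_assoc (h16_e K c * MonoidAlgebra.of K G g), h16_e_mul_of, h16_e_mul_of,
    smul_mul_smul_comm, mul_add, add_mul, add_mul]
  simp only [map_smul, map_add, h16_T_of_mul, h16_T_of, smul_eq_mul]
  linear_combination (-(2⁻¹ * 2⁻¹ : K)) * (k1 + k2 + k3 + k4)

theorem h16_F_of (H : h16_IsPseudo t d c) (g h : G) :
    h16_T t (h16_f K c * MonoidAlgebra.of K G g * h16_f K c * MonoidAlgebra.of K G h) =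
      h16_T t (h16_f K c * MonoidAlgebra.of K G g) *
        h16_T t (h16_f K c * MonoidAlgebra.of K G h) := by
  obtain ⟨k1, k2, k3, k4⟩ := h16_four H g h
  rw [mul_assoc (h16_f K c * MonoidAlgebra.of K G g), h16_f_mul_of, h16_f_mul_of,
    smul_mul_smul_comm, mul_sub, sub_mul, sub_mul]
  simp only [map_smul, map_sub, h16_T_of_mul, h16_T_of, smul_eq_mul]
  linear_combination (-(2⁻¹ * 2⁻¹ : K)) * (k1 - k2 - k3 + k4)

theorem h16_E (H : h16_IsPseudo t d c) (x y : MonoidAlgebra K G) :
    h16_T t (h16_e K c * x * h16_e K c * y) =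
      h16_T t (h16_e K c * x) * h16_T t (h16_e K c * y) := by
  induction x using MonoidAlgebra.induction_on with
  | of g =>
    induction y using MonoidAlgebra.induction_on with
    | of h => exact h16_E_of H g h
    | add y₁ y₂ h₁ h₂ => rw [mul_add, mul_add, map_add, map_add, h₁, h₂, mul_add]
    | smul r y hy =>
      rw [mul_smul_comm, mul_smul_comm, map_smul, map_smul, hy, smul_eq_mul, smul_eq_mul]
      ring
  | add x₁ x₂ h₁ h₂ => rw [mul_add, add_mul, add_mul, map_add, map_add, h₁, h₂, add_mul]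
  | smul r x hx =>
    rw [mul_smul_comm, smul_mul_assoc, smul_mul_assoc, map_smul, map_smul, hx, smul_eq_mul,
      smul_eq_mul]
    ring

theorem h16_F (H : h16_IsPseudo t d c) (x y : MonoidAlgebra K G) :
    h16_T t (h16_f K c * x * h16_f K c * y) =
      h16_T t (h16_f K c * x) * h16_T t (h16_f K c * y) := by
  induction x using MonoidAlgebra.induction_on with
  | of g =>
    induction y using MonoidAlgebra.induction_on with
    | of h => exact h16_F_of H g h
    | add y₁ y₂ h₁ h₂ => rw [mul_add, mul_add, map_add, map_add, h₁, h₂, mul_add]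
    | smul r y hy =>
      rw [mul_smul_comm, mul_smul_comm, map_smul, map_smul, hy, smul_eq_mul, smul_eq_mul]
      ring
  | add x₁ x₂ h₁ h₂ => rw [mul_add, add_mul, add_mul, map_add, map_add, h₁, h₂, add_mul]
  | smul r x hx =>
    rw [mul_smul_comm, smul_mul_assoc, smul_mul_assoc, map_smul, map_smul, hx, smul_eq_mul,
      smul_eq_mul]
    ring

theorem h16_traceData (h2 : (2 : K) ≠ 0) (H : h16_IsPseudo t d c) :
    h16_TraceData (h16_T t) (h16_e K c) (h16_f K c) := by
  have hcc : MonoidAlgebra.of K G c * MonoidAlgebra.of K G c = 1 := by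
    rw [← map_mul, H.c_sq, map_one]
  have hadd : h16_e K c + h16_f K c = 1 := by
    rw [h16_e, h16_f, ← smul_add]
    have : (1 + MonoidAlgebra.of K G c) + (1 - MonoidAlgebra.of K G c) =
        (2 : K) • (1 : MonoidAlgebra K G) := by
      rw [two_smul]; abel
    rw [this, smul_smul, inv_mul_cancel₀ h2, one_smul]
  have hef : h16_e K c * h16_f K c = 0 := by
    rw [h16_e, h16_f, smul_mul_smul_comm]
    have : (1 + MonoidAlgebra.of K G c) * (1 - MonoidAlgebra.of K G c) = 0 := by
      calc (1 + MonoidAlgebra.of K G c) * (1 - MonoidAlgebra.of K G c)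
          = 1 - MonoidAlgebra.of K G c * MonoidAlgebra.of K G c := by noncomm_ring
        _ = 0 := by rw [hcc, sub_self]
    rw [this, smul_zero]
  have hfe : h16_f K c * h16_e K c = 0 := by
    rw [h16_e, h16_f, smul_mul_smul_comm]
    have : (1 - MonoidAlgebra.of K G c) * (1 + MonoidAlgebra.of K G c) = 0 := by
      calc (1 - MonoidAlgebra.of K G c) * (1 + MonoidAlgebra.of K G c)
          = 1 - MonoidAlgebra.of K G c * MonoidAlgebra.of K G c := by noncomm_ring
        _ = 0 := by rw [hcc, sub_self]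
    rw [this, smul_zero]
  refine ⟨h16_T_comm H, hadd, hef, hfe, ?_, ?_, h16_E H, h16_F H⟩
  · rw [h16_e, map_smul, map_add, h16_T_one, h16_T_of, H.t_one, h16_t_c H, add_zero,
      smul_eq_mul, inv_mul_cancel₀ h2]
  · rw [h16_f, map_smul, map_sub, h16_T_one, h16_T_of, H.t_one, h16_t_c H, sub_zero,
      smul_eq_mul, inv_mul_cancel₀ h2]

/-- The diagonal coefficient `a g = T (e g)`. -/
noncomputable def h16_A (t : G → K) (c g : G) : K :=
  h16_T t (h16_e K c * MonoidAlgebra.of K G g)

/-- The diagonal coefficient `δ g = T (f g)`. -/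
noncomputable def h16_D (t : G → K) (c g : G) : K :=
  h16_T t (h16_f K c * MonoidAlgebra.of K G g)

/-- The off-diagonal coefficient `b g h = T (e g f h)`. -/
noncomputable def h16_B (t : G → K) (c g h : G) : K :=
  h16_T t (h16_e K c * MonoidAlgebra.of K G g * h16_f K c * MonoidAlgebra.of K G h)

/-- The numerator of `4 b g h`. -/
def h16_N (t : G → K) (c g h : G) : K :=
  t (g * h) - t (g * (c * h)) + t (c * g * h) - t (c * g * (c * h))

theorem h16_A_eq (t : G → K) (c g : G) : h16_A t c g = 2⁻¹ * (t g + t (c * g)) := by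
  rw [h16_A, h16_e_mul_of, map_smul, map_add, h16_T_of, h16_T_of, smul_eq_mul]

theorem h16_D_eq (t : G → K) (c g : G) : h16_D t c g = 2⁻¹ * (t g - t (c * g)) := by
  rw [h16_D, h16_f_mul_of, map_smul, map_sub, h16_T_of, h16_T_of, smul_eq_mul]

theorem h16_B_eq (t : G → K) (c g h : G) : h16_B t c g h = 2⁻¹ * 2⁻¹ * h16_N t c g h := by
  rw [h16_B, mul_assoc (h16_e K c * MonoidAlgebra.of K G g), h16_e_mul_of, h16_f_mul_of,
    smul_mul_smul_comm, mul_sub, add_mul, add_mul]
  simp only [map_smul, map_add, map_sub, h16_T_of_mul, smul_eq_mul, h16_N]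
  ring

theorem h16_four_B (h2 : (2 : K) ≠ 0) (t : G → K) (c g h : G) :
    4 * h16_B t c g h = h16_N t c g h := by
  rw [h16_B_eq]
  field_simp
  ring

theorem h16_two_A (h2 : (2 : K) ≠ 0) (t : G → K) (c g : G) :
    2 * h16_A t c g = t g + t (c * g) := by
  rw [h16_A_eq]
  field_simp

theorem h16_two_D (h2 : (2 : K) ≠ 0) (t : G → K) (c g : G) :
    2 * h16_D t c g = t g - t (c * g) := by
  rw [h16_D_eq]
  field_simp

section identities

variable (h2 : (2 : K) ≠ 0) (H : h16_IsPseudo t d c)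
include h2 H

theorem h16_A_mul (g h : G) :
    h16_A t c (g * h) = h16_A t c g * h16_A t c h + h16_B t c g h := by
  rw [h16_A, map_mul (MonoidAlgebra.of K G) g h, h16_a_mul (h16_traceData h2 H)]
  rfl

theorem h16_D_mul (g h : G) :
    h16_D t c (g * h) = h16_D t c g * h16_D t c h + h16_B t c h g := by
  rw [h16_D, map_mul (MonoidAlgebra.of K G) g h, h16_dl_mul (h16_traceData h2 H)]
  rfl

theorem h16_B_rank (g h g' h' : G) :
    h16_B t c g h * h16_B t c g' h' = h16_B t c g h' * h16_B t c g' h :=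
  h16_rank_one (h16_traceData h2 H) _ _ _ _

theorem h16_B_mul_left (g h k : G) :
    h16_B t c (g * h) k = h16_A t c g * h16_B t c h k + h16_D t c h * h16_B t c g k := by
  rw [h16_B, map_mul (MonoidAlgebra.of K G) g h, h16_b_mul_left (h16_traceData h2 H)]
  rfl

theorem h16_B_mul_right (g h k : G) :
    h16_B t c g (h * k) = h16_B t c g h * h16_A t c k + h16_D t c h * h16_B t c g k := by
  rw [h16_B, map_mul (MonoidAlgebra.of K G) h k, h16_b_mul_right (h16_traceData h2 H)]
  rfl

theorem h16_A_one : h16_A t c 1 = 1 := by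
  rw [h16_A, map_one, mul_one, (h16_traceData h2 H).Te]

theorem h16_D_one : h16_D t c 1 = 1 := by
  rw [h16_D, map_one, mul_one, (h16_traceData h2 H).Tf]

theorem h16_B_one_left (h : G) : h16_B t c 1 h = 0 := by
  rw [h16_B, map_one, h16_b_one_left (h16_traceData h2 H)]

theorem h16_B_one_right (g : G) : h16_B t c g 1 = 0 := by
  rw [h16_B, map_one, h16_b_one_right (h16_traceData h2 H)]

theorem h16_A_add_D (g : G) : h16_A t c g + h16_D t c g = t g := by
  rw [h16_A, h16_D, h16_a_add_dl (h16_traceData h2 H), h16_T_of]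

/-- The "determinant" identity. -/
theorem h16_det_aux (g : G) : h16_A t c g * t g - h16_A t c (g * g) = d g := by
  have k1 := H.t_mul g g
  have k3 := H.t_mul (c * g) g
  rw [mul_inv_cancel, H.t_one] at k1
  rw [mul_assoc c g g⁻¹, mul_inv_cancel, mul_one, h16_t_c H, mul_zero, add_zero] at k3
  rw [h16_A_eq, h16_A_eq, ← mul_assoc c g g]
  field_simp
  linear_combination k1 + k3

end identities

/-- The matrix attached to `g` (depending on two auxiliary elements `g₁`, `g₂`). -/
noncomputable def h16_mat (t : G → K) (c g₁ g₂ g : G) : Matrix (Fin 2) (Fin 2) K :=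
  !![h16_A t c g, h16_B t c g g₁; h16_B t c g₂ g / h16_B t c g₂ g₁, h16_D t c g]

/-- For a suitable choice of `g₁`, `g₂` the off-diagonal coefficients factor. -/
theorem h16_exists_key (h2 : (2 : K) ≠ 0) (H : h16_IsPseudo t d c) :
    ∃ g₁ g₂ : G, ∀ x y : G,
      h16_B t c x y = h16_B t c x g₁ * (h16_B t c g₂ y / h16_B t c g₂ g₁) := by
  by_cases hb : ∃ g₁ g₂ : G, h16_B t c g₂ g₁ ≠ 0
  · obtain ⟨g₁, g₂, h0⟩ := hb
    refine ⟨g₁, g₂, fun x y => ?_⟩
    have := h16_B_rank h2 H x g₁ g₂ y
    field_simp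
    linear_combination -this
  · have hb' : ∀ g₁ g₂ : G, h16_B t c g₂ g₁ = 0 := fun g₁ g₂ =>
      by_contra fun h => hb ⟨g₁, g₂, h⟩
    refine ⟨1, 1, fun x y => ?_⟩
    rw [hb', hb', zero_mul]

section rep

variable (h2 : (2 : K) ≠ 0) (H : h16_IsPseudo t d c)
include h2 H

theorem h16_mat_one (g₁ g₂ : G) : h16_mat t c g₁ g₂ 1 = 1 := by
  rw [h16_mat, h16_A_one h2 H, h16_D_one h2 H, h16_B_one_left h2 H, h16_B_one_right h2 H,
    zero_div, Matrix.one_fin_two]

theorem h16_mat_mul {g₁ g₂ : G}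
    (hkey : ∀ x y : G, h16_B t c x y = h16_B t c x g₁ * (h16_B t c g₂ y / h16_B t c g₂ g₁))
    (g h : G) : h16_mat t c g₁ g₂ (g * h) = h16_mat t c g₁ g₂ g * h16_mat t c g₁ g₂ h := by
  have e00 : h16_A t c (g * h) = h16_A t c g * h16_A t c h +
      h16_B t c g g₁ * (h16_B t c g₂ h / h16_B t c g₂ g₁) := by
    rw [h16_A_mul h2 H, hkey g h]
  have e01 : h16_B t c (g * h) g₁ = h16_A t c g * h16_B t c h g₁ +
      h16_B t c g g₁ * h16_D t c h := by
    rw [h16_B_mul_left h2 H]; ring
  have e10 : h16_B t c g₂ (g * h) / h16_B t c g₂ g₁ =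
      h16_B t c g₂ g / h16_B t c g₂ g₁ * h16_A t c h +
        h16_D t c g * (h16_B t c g₂ h / h16_B t c g₂ g₁) := by
    rw [h16_B_mul_right h2 H]; ring
  have e11 : h16_D t c (g * h) = h16_B t c g₂ g / h16_B t c g₂ g₁ * h16_B t c h g₁ +
      h16_D t c g * h16_D t c h := by
    rw [h16_D_mul h2 H, hkey h g]; ring
  rw [h16_mat, h16_mat, h16_mat, Matrix.mul_fin_two, e00, e01, e10, e11]

theorem h16_mat_trace (g₁ g₂ g : G) : (h16_mat t c g₁ g₂ g).trace = t g := by
  rw [h16_mat, Matrix.trace_fin_two_of, h16_A_add_D h2 H]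

theorem h16_mat_det {g₁ g₂ : G}
    (hkey : ∀ x y : G, h16_B t c x y = h16_B t c x g₁ * (h16_B t c g₂ y / h16_B t c g₂ g₁))
    (g : G) : (h16_mat t c g₁ g₂ g).det = d g := by
  rw [h16_mat, Matrix.det_fin_two_of, ← hkey g g]
  have hA := h16_A_mul h2 H g g
  have hD := h16_A_add_D h2 H g
  have hdet := h16_det_aux h2 H g
  linear_combination hdet + hA + h16_A t c g * hD

end rep

theorem h16_N_left_mem (H : h16_IsPseudo t d c) (I : AddSubgroup K) (u : G)
    (hu : ∀ g, t (g * u) - t g ∈ I) (g : G) : h16_N t c u g ∈ I := by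
  have r1 : t (u * g) = t (g * u) := H.t_comm u g
  have r2 : t (u * (c * g)) = t (c * g * u) := H.t_comm u (c * g)
  have r3 : t (c * u * g) = t (g * c * u) := by rw [H.t_comm (c * u) g, mul_assoc]
  have r4 : t (c * u * (c * g)) = t (c * g * c * u) := by
    rw [H.t_comm (c * u) (c * g), mul_assoc (c * g) c u]
  have r5 : t (g * c) = t (c * g) := H.t_comm g c
  have r6 : t (c * g * c) = t g := by
    rw [mul_assoc, H.t_comm c (g * c), mul_assoc, H.c_sq, mul_one]
  have e : h16_N t c u g = (t (g * u) - t g) - (t (c * g * u) - t (c * g)) +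
      (t (g * c * u) - t (g * c)) - (t (c * g * c * u) - t (c * g * c)) := by
    rw [h16_N, r1, r2, r3, r4, r5, r6]; ring
  rw [e]
  exact I.sub_mem (I.add_mem (I.sub_mem (hu g) (hu (c * g))) (hu (g * c))) (hu (c * g * c))

theorem h16_N_right_mem (H : h16_IsPseudo t d c) (I : AddSubgroup K) (u : G)
    (hu : ∀ g, t (g * u) - t g ∈ I) (g : G) : h16_N t c g u ∈ I := by
  have r5 : t (g * c) = t (c * g) := H.t_comm g c
  have r6 : t (c * g * c) = t g := by
    rw [mul_assoc, H.t_comm c (g * c), mul_assoc, H.c_sq, mul_one]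
  have e : h16_N t c g u = (t (g * u) - t g) - (t (g * c * u) - t (g * c)) +
      (t (c * g * u) - t (c * g)) - (t (c * g * c * u) - t (c * g * c)) := by
    rw [h16_N, ← mul_assoc g c u, ← mul_assoc (c * g) c u, r5, r6]; ring
  rw [e]
  exact I.sub_mem (I.add_mem (I.sub_mem (hu g) (hu (g * c))) (hu (c * g))) (hu (c * g * c))

theorem h16_N_mem (Ω : Subring K) (hΩ : ∀ g, t g ∈ Ω) (c g h : G) : h16_N t c g h ∈ Ω :=
  Ω.sub_mem (Ω.add_mem (Ω.sub_mem (hΩ _) (hΩ _)) (hΩ _)) (hΩ _)

/-- **From a pseudo-character to a representation.**  The entries of `ρ` have the bounded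
denominator `s`, and `ρ u - 1` is controlled by the differences `t (g u) - t g`. -/
theorem h16_pseudo_rep (h2 : (2 : K) ≠ 0) (H : h16_IsPseudo t d c) (Ω : Subring K)
    (hΩ : ∀ g, t g ∈ Ω) :
    ∃ (ρ : G →* Matrix (Fin 2) (Fin 2) K) (s : K), s ≠ 0 ∧ s ∈ Ω ∧
      (∀ g, (ρ g).trace = t g) ∧ (∀ g, (ρ g).det = d g) ∧
      (∀ g i j, s * ρ g i j ∈ Ω) ∧
      (∀ I : AddSubgroup K, (∀ a ∈ Ω, ∀ x ∈ I, a * x ∈ I) → ∀ u : G,
        (∀ g, t (g * u) - t g ∈ I) → ∀ i j, s * (ρ u - 1) i j ∈ I) := by
  obtain ⟨g₁, g₂, hkey⟩ := h16_exists_key h2 H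
  have h4 : (4 : K) ≠ 0 := by
    have : (4 : K) = 2 * 2 := by norm_num
    rw [this]; exact mul_ne_zero h2 h2
  have h2Ω : (2 : K) ∈ Ω := by
    have := Ω.add_mem Ω.one_mem Ω.one_mem
    rwa [one_add_one_eq_two] at this
  have h4Ω : (4 : K) ∈ Ω := by
    have := Ω.mul_mem h2Ω h2Ω
    have e : (2 : K) * 2 = 4 := by norm_num
    rwa [e] at this
  let ρ : G →* Matrix (Fin 2) (Fin 2) K :=
    { toFun := h16_mat t c g₁ g₂
      map_one' := h16_mat_one h2 H g₁ g₂
      map_mul' := h16_mat_mul h2 H hkey }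
  have hρ : ∀ g, ρ g = h16_mat t c g₁ g₂ g := fun g => rfl
  -- the entries
  have h00 : ∀ g, ρ g 0 0 = h16_A t c g := fun g => rfl
  have h01 : ∀ g, ρ g 0 1 = h16_B t c g g₁ := fun g => rfl
  have h10 : ∀ g, ρ g 1 0 = h16_B t c g₂ g / h16_B t c g₂ g₁ := fun g => rfl
  have h11 : ∀ g, ρ g 1 1 = h16_D t c g := fun g => rfl
  have hAΩ : ∀ g, 2 * h16_A t c g ∈ Ω := fun g => by
    rw [h16_two_A h2]; exact Ω.add_mem (hΩ _) (hΩ _)
  have hDΩ : ∀ g, 2 * h16_D t c g ∈ Ω := fun g => by
    rw [h16_two_D h2]; exact Ω.sub_mem (hΩ _) (hΩ _)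
  have hBΩ : ∀ g h, 4 * h16_B t c g h ∈ Ω := fun g h => by
    rw [h16_four_B h2]; exact h16_N_mem Ω hΩ c g h
  -- the diagonal differences
  have hAI : ∀ (I : AddSubgroup K) (u : G), (∀ g, t (g * u) - t g ∈ I) →
      2 * (h16_A t c u - 1) ∈ I := fun I u hu => by
    have e : 2 * (h16_A t c u - 1) = (t (1 * u) - t 1) + (t (c * u) - t c) := by
      rw [mul_sub, h16_two_A h2, H.t_one, h16_t_c H, one_mul]; ring
    rw [e]; exact I.add_mem (hu 1) (hu c)
  have hDI : ∀ (I : AddSubgroup K) (u : G), (∀ g, t (g * u) - t g ∈ I) →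
      2 * (h16_D t c u - 1) ∈ I := fun I u hu => by
    have e : 2 * (h16_D t c u - 1) = (t (1 * u) - t 1) - (t (c * u) - t c) := by
      rw [mul_sub, h16_two_D h2, H.t_one, h16_t_c H, one_mul]; ring
    rw [e]; exact I.sub_mem (hu 1) (hu c)
  by_cases hx : h16_B t c g₂ g₁ = 0
  · -- the reducible case: denominator `4`
    refine ⟨ρ, 4, h4, h4Ω, fun g => h16_mat_trace h2 H g₁ g₂ g,
      fun g => h16_mat_det h2 H hkey g, ?_, ?_⟩
    · intro g i j
      fin_cases i <;> fin_cases j
      · show 4 * ρ g 0 0 ∈ Ω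
        rw [h00, show (4 : K) * h16_A t c g = 2 * (2 * h16_A t c g) by ring]
        exact Ω.mul_mem h2Ω (hAΩ g)
      · show 4 * ρ g 0 1 ∈ Ω
        rw [h01]; exact hBΩ g g₁
      · show 4 * ρ g 1 0 ∈ Ω
        rw [h10, hx, div_zero, mul_zero]; exact Ω.zero_mem
      · show 4 * ρ g 1 1 ∈ Ω
        rw [h11, show (4 : K) * h16_D t c g = 2 * (2 * h16_D t c g) by ring]
        exact Ω.mul_mem h2Ω (hDΩ g)
    · intro I hI u hu i j
      fin_cases i <;> fin_cases j
      · show 4 * (ρ u - 1) 0 0 ∈ I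
        rw [Matrix.sub_apply, h00, Matrix.one_apply_eq,
          show (4 : K) * (h16_A t c u - 1) = 2 * (2 * (h16_A t c u - 1)) by ring]
        exact hI 2 h2Ω _ (hAI I u hu)
      · show 4 * (ρ u - 1) 0 1 ∈ I
        rw [Matrix.sub_apply, h01, Matrix.one_apply_ne (by decide), sub_zero, h16_four_B h2]
        exact h16_N_left_mem H I u hu g₁
      · show 4 * (ρ u - 1) 1 0 ∈ I
        rw [Matrix.sub_apply, h10, Matrix.one_apply_ne (by decide), sub_zero, hx, div_zero,
          mul_zero]
        exact I.zero_mem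
      · show 4 * (ρ u - 1) 1 1 ∈ I
        rw [Matrix.sub_apply, h11, Matrix.one_apply_eq,
          show (4 : K) * (h16_D t c u - 1) = 2 * (2 * (h16_D t c u - 1)) by ring]
        exact hI 2 h2Ω _ (hDI I u hu)
  · -- the irreducible case: denominator `16 b(g₂, g₁) = 4 N(g₂, g₁)`
    have hN0 : 4 * h16_B t c g₂ g₁ = h16_N t c g₂ g₁ := h16_four_B h2 t c g₂ g₁
    have hN0Ω : h16_N t c g₂ g₁ ∈ Ω := h16_N_mem Ω hΩ c g₂ g₁
    have hN0ne : h16_N t c g₂ g₁ ≠ 0 := by rw [← hN0]; exact mul_ne_zero h4 hx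
    refine ⟨ρ, 4 * h16_N t c g₂ g₁, mul_ne_zero h4 hN0ne, Ω.mul_mem h4Ω hN0Ω,
      fun g => h16_mat_trace h2 H g₁ g₂ g, fun g => h16_mat_det h2 H hkey g, ?_, ?_⟩
    · intro g i j
      fin_cases i <;> fin_cases j
      · show 4 * h16_N t c g₂ g₁ * ρ g 0 0 ∈ Ω
        rw [h00, show 4 * h16_N t c g₂ g₁ * h16_A t c g =
          2 * h16_N t c g₂ g₁ * (2 * h16_A t c g) by ring]
        exact Ω.mul_mem (Ω.mul_mem h2Ω hN0Ω) (hAΩ g)
      · show 4 * h16_N t c g₂ g₁ * ρ g 0 1 ∈ Ω
        rw [h01, show 4 * h16_N t c g₂ g₁ * h16_B t c g g₁ =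
          h16_N t c g₂ g₁ * (4 * h16_B t c g g₁) by ring]
        exact Ω.mul_mem hN0Ω (hBΩ g g₁)
      · show 4 * h16_N t c g₂ g₁ * ρ g 1 0 ∈ Ω
        have e : 4 * h16_N t c g₂ g₁ * (h16_B t c g₂ g / h16_B t c g₂ g₁) =
            4 * (4 * h16_B t c g₂ g) := by
          rw [← hN0]; field_simp
        rw [h10, e]
        exact Ω.mul_mem h4Ω (hBΩ g₂ g)
      · show 4 * h16_N t c g₂ g₁ * ρ g 1 1 ∈ Ω
        rw [h11, show 4 * h16_N t c g₂ g₁ * h16_D t c g =
          2 * h16_N t c g₂ g₁ * (2 * h16_D t c g) by ring]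
        exact Ω.mul_mem (Ω.mul_mem h2Ω hN0Ω) (hDΩ g)
    · intro I hI u hu i j
      fin_cases i <;> fin_cases j
      · show 4 * h16_N t c g₂ g₁ * (ρ u - 1) 0 0 ∈ I
        rw [Matrix.sub_apply, h00, Matrix.one_apply_eq,
          show 4 * h16_N t c g₂ g₁ * (h16_A t c u - 1) =
            2 * h16_N t c g₂ g₁ * (2 * (h16_A t c u - 1)) by ring]
        exact hI _ (Ω.mul_mem h2Ω hN0Ω) _ (hAI I u hu)
      · show 4 * h16_N t c g₂ g₁ * (ρ u - 1) 0 1 ∈ I
        rw [Matrix.sub_apply, h01, Matrix.one_apply_ne (by decide), sub_zero,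
          show 4 * h16_N t c g₂ g₁ * h16_B t c u g₁ =
            h16_N t c g₂ g₁ * (4 * h16_B t c u g₁) by ring, h16_four_B h2]
        exact hI _ hN0Ω _ (h16_N_left_mem H I u hu g₁)
      · show 4 * h16_N t c g₂ g₁ * (ρ u - 1) 1 0 ∈ I
        have e : 4 * h16_N t c g₂ g₁ * (h16_B t c g₂ u / h16_B t c g₂ g₁) =
            4 * (4 * h16_B t c g₂ u) := by
          rw [← hN0]; field_simp
        rw [Matrix.sub_apply, h10, Matrix.one_apply_ne (by decide), sub_zero, e, h16_four_B h2]
        exact hI 4 h4Ω _ (h16_N_right_mem H I u hu g₂)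
      · show 4 * h16_N t c g₂ g₁ * (ρ u - 1) 1 1 ∈ I
        rw [Matrix.sub_apply, h11, Matrix.one_apply_eq,
          show 4 * h16_N t c g₂ g₁ * (h16_D t c u - 1) =
            2 * h16_N t c g₂ g₁ * (2 * (h16_D t c u - 1)) by ring]
        exact hI _ (Ω.mul_mem h2Ω hN0Ω) _ (hDI I u hu)

end group

end Fermat.Agent.GAL
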