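import Mathlib
import Fermat.Prelude.Def_FreyPackage_EigenformResidualAttachment
import Fermat.Agent.GAL.h29_Iface
import Fermat.Agent.S13.h26_FreyP2
import Fermat.Agent.S13.h6_MinkV

/-!
# GAL, row GAL-PACK42: `EigenformResidualAttachmentAt` from the core statement

`gal_S42_of_core` : if every normalised eigenform of level `M` has, for every maximal ideal `𝔪`
of `ℤ̄` over `p`, a matrix representation over `ℤ̄ ⧸ 𝔪` as in `gal_CoreStatement`, then the Frey
package satisfies `EigenformResidualAttachmentAt M`.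

The finite Galois level `F` is the normal closure of the compositum of a finite level of the
matrix representation and a finite level of the Frey representation on `E[p]` (which is finite).
-/

set_option autoImplicit false

namespace Fermat.Agent.GAL

open WeierstrassCurve WeierstrassCurve.Affine WeierstrassCurve.Affine.Point Polynomial

local notation "GQ" => (AlgebraicClosure ℚ ≃ₐ[ℚ] AlgebraicClosure ℚ)

/-- The representation of `Gal(ℚ̄/ℚ)` on the `p`-torsion of the Frey curve factors through a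
finite level. -/
theorem h21_frey_finite_level (P : FreyPackage) :
    ∃ E : IntermediateField ℚ (AlgebraicClosure ℚ), FiniteDimensional ℚ E ∧
      ∀ σ : GQ, (∀ x ∈ E, σ x = x) →
        galoisRepModuleEnd (S := ℚ) (K := AlgebraicClosure ℚ) P.freyCurve P.p σ = 1 := by
  obtain ⟨-, hfin, -⟩ := Fermat.Agent.S13.h26_frey_card' P
  have hopen : IsOpen (⋂ x : Submodule.torsionBy ℤ (P.freyCurve⁄(AlgebraicClosure ℚ)).Point P.p,
      {σ : GQ | σ • x = x}) :=
    isOpen_iInter_of_finite (fun x => Fermat.Agent.S13.h6_stab_torsion_isOpen _ _ x)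
  have hmem : (⋂ x : Submodule.torsionBy ℤ (P.freyCurve⁄(AlgebraicClosure ℚ)).Point P.p,
      {σ : GQ | σ • x = x}) ∈ nhds (1 : GQ) :=
    hopen.mem_nhds (Set.mem_iInter.mpr fun x => one_smul _ x)
  obtain ⟨E, hE, hsub⟩ := (krullTopology_mem_nhds_one_iff ℚ (AlgebraicClosure ℚ) _).mp hmem
  refine ⟨E, hE, fun σ hσ => ?_⟩
  have hσ' : σ ∈ E.fixingSubgroup := (IntermediateField.mem_fixingSubgroup_iff _ σ).mpr hσ
  have h1 := hsub hσ'
  rw [Set.mem_iInter] at h1
  apply LinearMap.ext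
  intro x
  exact h1 x

/-- Two finite levels are contained in a finite Galois level. -/
theorem h21_exists_galois_level (L1 E : IntermediateField ℚ (AlgebraicClosure ℚ))
    [FiniteDimensional ℚ L1] [FiniteDimensional ℚ E] :
    ∃ F : IntermediateField ℚ (AlgebraicClosure ℚ), FiniteDimensional ℚ F ∧ IsGalois ℚ F ∧
      L1 ≤ F ∧ E ≤ F := by
  refine ⟨IntermediateField.normalClosure ℚ ↥(L1 ⊔ E) (AlgebraicClosure ℚ), inferInstance, ?_,
    ?_, ?_⟩
  · have halg : Algebra.IsAlgebraic ℚ (AlgebraicClosure ℚ) := AlgebraicClosure.isAlgebraic ℚ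
    have hclo : IsAlgClosure ℚ (AlgebraicClosure ℚ) := ⟨inferInstance, inferInstance⟩
    have hn : Normal ℚ (AlgebraicClosure ℚ) := IsAlgClosure.normal ℚ (AlgebraicClosure ℚ)
    have : Normal ℚ (IntermediateField.normalClosure ℚ ↥(L1 ⊔ E) (AlgebraicClosure ℚ)) :=
      normalClosure.normal ℚ ↥(L1 ⊔ E) (AlgebraicClosure ℚ)
    exact IsGalois.mk
  · exact le_sup_left.trans (IntermediateField.le_normalClosure _)
  · exact le_sup_right.trans (IntermediateField.le_normalClosure _)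

/-- An element of the kernel of the restriction to a Galois level fixes the level pointwise. -/
theorem h21_fixes_of_mem_ker (F : IntermediateField ℚ (AlgebraicClosure ℚ)) [Normal ℚ F]
    (σ : GQ)
    (hσ : σ ∈ (AlgEquiv.restrictNormalHom (F := ℚ) (K₁ := AlgebraicClosure ℚ) F).ker)
    (x : AlgebraicClosure ℚ) (hx : x ∈ F) : σ x = x := by
  have h1 : AlgEquiv.restrictNormalHom (F := ℚ) (K₁ := AlgebraicClosure ℚ) F σ = 1 :=
    MonoidHom.mem_ker.mp hσ
  have h2 := AlgEquiv.restrictNormal_commutes σ F ⟨x, hx⟩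
  have h3 : σ.restrictNormal F = 1 := h1
  rw [h3] at h2
  exact h2.symm

/-- Trace and determinant of a `2 × 2` matrix from its characteristic polynomial. -/
theorem h21_trace_det_of_charpoly {K : Type*} [Field K] (A : Matrix (Fin 2) (Fin 2) K) (t d : K)
    (h : A.charpoly = X ^ 2 - C t * X + C d) : A.trace = t ∧ A.det = d := by
  constructor
  · rw [Matrix.trace_eq_neg_charpoly_coeff, h]
    simp [coeff_C]
  · rw [Matrix.det_eq_sign_charpoly_coeff, h]
    simp [coeff_X, coeff_C]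

/-- The abstract packaging: a matrix representation over a field `K` with the expected
characteristic polynomials gives the data of `EigenformResidualAttachmentAt`. -/
theorem h21_pack (P : FreyPackage) (M : ℕ) (g : CuspForm (CongruenceSubgroup.Gamma0 M) 2)
    (𝔪 : Ideal (integralClosure ℤ ℂ)) (K : Type) [Field K] [Algebra (ZMod P.p) K]
    (ψ : integralClosure ℤ ℂ →+* K) (hψ : 𝔪 ≤ RingHom.ker ψ)
    (ρ0 : GQ →* Matrix (Fin 2) (Fin 2) K) (hfl : GaloisFactorsThroughFiniteLevel ρ0)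
    (hchar : ∀ ℓ : ℕ, ℓ.Prime → ¬ ℓ ∣ M * P.p →
      ∀ A : ValuationSubring (AlgebraicClosure ℚ), A.LiesOverPrime ℓ →
        ∀ σ : GQ, A.IsFrobeniusAt σ ℓ →
          ∃ a : integralClosure ℤ ℂ, (a : ℂ) = ModularFormClass.qCoeff g ℓ ∧
            (ρ0 σ).charpoly = X ^ 2 - C (ψ a) * X + C ((ℓ : ℕ) : K)) :
    ∃ (K : Type) (_ : Field K) (_ : Algebra (ZMod P.p) K)
        (V : Type) (_ : AddCommGroup V) (_ : Module K V)
        (ρ : Representation K (AlgebraicClosure ℚ ≃ₐ[ℚ] AlgebraicClosure ℚ) V)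
        (ψ : integralClosure ℤ ℂ →+* K)
        (F : Type) (_ : Field F) (_ : NumberField F) (_ : IsGalois ℚ F)
        (_ : Algebra F (AlgebraicClosure ℚ)) (_ : IsScalarTower ℚ F (AlgebraicClosure ℚ)),
        𝔪 ≤ RingHom.ker ψ ∧
        Module.finrank K V = 2 ∧
        (AlgEquiv.restrictNormalHom (F := ℚ) (K₁ := AlgebraicClosure ℚ) F).ker ≤
          (galoisRepModuleEnd (S := ℚ) (K := AlgebraicClosure ℚ) P.freyCurve P.p).ker ⊓
            ρ.ker ∧
        (∀ ℓ : ℕ, ℓ.Prime → ¬ ℓ ∣ M → ℓ ≠ P.p →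
          ∀ A : ValuationSubring (AlgebraicClosure ℚ), A.LiesOverPrime ℓ →
            ∀ τ : AlgebraicClosure ℚ ≃ₐ[ℚ] AlgebraicClosure ℚ, A.IsFrobeniusAt τ ℓ →
              ∃ a : integralClosure ℤ ℂ, (a : ℂ) = ModularFormClass.qCoeff g ℓ ∧
                LinearMap.trace K V (ρ τ) = ψ a) ∧
        (∀ ℓ : ℕ, ℓ.Prime → ¬ ℓ ∣ M → ℓ ≠ P.p →
          ∀ A : ValuationSubring (AlgebraicClosure ℚ), A.LiesOverPrime ℓ →
            ∀ τ : AlgebraicClosure ℚ ≃ₐ[ℚ] AlgebraicClosure ℚ, A.IsFrobeniusAt τ ℓ →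
              LinearMap.det (ρ τ) = (ℓ : K)) := by
  obtain ⟨L1, hL1, hL1ρ⟩ := hfl
  obtain ⟨E, hE, hEρ⟩ := h21_frey_finite_level P
  obtain ⟨F, hFfin, hFgal, hL1F, hEF⟩ := h21_exists_galois_level L1 E
  have hFnf : NumberField F := NumberField.mk
  let ρ : Representation K GQ (Fin 2 → K) :=
    ((Matrix.toLinAlgEquiv' : Matrix (Fin 2) (Fin 2) K ≃ₐ[K] _) : _ →* _).comp ρ0
  have hρ : ∀ σ : GQ, ρ σ = Matrix.toLin' (ρ0 σ) := fun σ => rfl
  have hnd : ∀ ℓ : ℕ, ℓ.Prime → ¬ ℓ ∣ M → ℓ ≠ P.p → ¬ ℓ ∣ M * P.p := by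
    intro ℓ hℓ hℓM hℓp hdvd
    rcases hℓ.dvd_mul.mp hdvd with h | h
    · exact hℓM h
    · exact hℓp ((Nat.prime_dvd_prime_iff_eq hℓ P.pp).mp h)
  refine ⟨K, inferInstance, inferInstance, Fin 2 → K, inferInstance, inferInstance, ρ, ψ,
    F, inferInstance, hFnf, hFgal, inferInstance, inferInstance, hψ, ?_, ?_, ?_, ?_⟩
  · simp
  · intro σ hσ
    have hfix := h21_fixes_of_mem_ker F σ hσ
    refine ⟨?_, ?_⟩
    · exact MonoidHom.mem_ker.mpr (hEρ σ fun x hx => hfix x (hEF hx))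
    · refine MonoidHom.mem_ker.mpr ?_
      rw [hρ, hL1ρ σ fun x hx => hfix x (hL1F hx)]
      exact Matrix.toLin'_one
  · intro ℓ hℓ hℓM hℓp A hA τ hτ
    obtain ⟨a, ha, hcp⟩ := hchar ℓ hℓ (hnd ℓ hℓ hℓM hℓp) A hA τ hτ
    refine ⟨a, ha, ?_⟩
    rw [hρ, LinearMap.trace_eq_matrix_trace K (Pi.basisFun K (Fin 2)), LinearMap.toMatrix_eq_toMatrix',
      LinearMap.toMatrix'_toLin']
    exact (h21_trace_det_of_charpoly _ _ _ hcp).1
  · intro ℓ hℓ hℓM hℓp A hA τ hτ
    obtain ⟨a, ha, hcp⟩ := hchar ℓ hℓ (hnd ℓ hℓ hℓM hℓp) A hA τ hτ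
    rw [hρ, LinearMap.det_toLin']
    exact (h21_trace_det_of_charpoly _ _ _ hcp).2

/-- **GAL-PACK42**: `EigenformResidualAttachmentAt M` from the core statement. -/
theorem gal_S42_of_core (P : FreyPackage) (M : ℕ) (_hM : 0 < M)
    (hcore : ∀ g : CuspForm (CongruenceSubgroup.Gamma0 M) 2, g.IsNormalizedEigenform →
      ∀ 𝔪 : Ideal (integralClosure ℤ ℂ), 𝔪.IsMaximal → (P.p : integralClosure ℤ ℂ) ∈ 𝔪 →
        gal_CoreStatement M g P.p 𝔪) :
    P.EigenformResidualAttachmentAt M := by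
  intro g hg 𝔪 h𝔪 hp𝔪
  obtain ⟨ρ0, hfl, hchar, -⟩ := hcore g hg 𝔪 h𝔪 hp𝔪
  have hp0 : ((P.p : ℕ) : integralClosure ℤ ℂ ⧸ 𝔪) = 0 := by
    have h : Ideal.Quotient.mk 𝔪 ((P.p : ℕ) : integralClosure ℤ ℂ) = 0 :=
      Ideal.Quotient.eq_zero_iff_mem.mpr hp𝔪
    simpa using h
  have hcharP : @CharP (integralClosure ℤ ℂ ⧸ 𝔪) _ P.p :=
    @CharP.charP_iff_prime_eq_zero (integralClosure ℤ ℂ ⧸ 𝔪) _ (Ideal.Quotient.field 𝔪).toNontrivial
      _ P.pp |>.mpr hp0
  exact @h21_pack P M g 𝔪 (integralClosure ℤ ℂ ⧸ 𝔪) (Ideal.Quotient.field 𝔪)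
    (@ZMod.algebra (integralClosure ℤ ℂ ⧸ 𝔪) _ P.p hcharP) (Ideal.Quotient.mk 𝔪)
    (le_of_eq Ideal.mk_ker.symm) ρ0 hfl hchar

end Fermat.Agent.GAL
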