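/-
GAL / DESCENT block, sub-row DESC-B (helper66): linear disjointness of `K` and `F_k` inside
`K((q))`; representation of `F_K` as quotients of the `K`-span of `F_k`; independent
representations in the span; descent of membership.
-/
import Mathlib
import Fermat.Agent.GAL.h22_DescDefs

set_option autoImplicit false

noncomputable section

namespace Fermat.Agent.GAL

open ModularCurve AlgebraicCurve HahnSeries

variable {k K : Type*} [Field k] [Algebra ℚ k] [Field K] [Algebra ℚ K] (ι : k →+* K)
variable (F₀ : IntermediateField ℚ (LaurentSeries ℚ))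

/-! ### (SPAN) `F_K` is the field of quotients of the span -/

/-- Closure form of (SPAN): every element of the subfield generated by `K` and `F₀` is a
quotient of two elements of the span. -/
theorem h66_span_div_aux (x : LaurentSeries K) (hx : x ∈ laurentBaseChange K F₀) :
    ∃ A B : laurentBaseChange K F₀, A ∈ h22_span ι F₀ ∧ B ∈ h22_span ι F₀ ∧ B ≠ 0 ∧
      x = (A : LaurentSeries K) / (B : LaurentSeries K) := by
  have hone : (1 : laurentBaseChange K F₀) ∈ h22_span ι F₀ := by
    have := h22_bc_mem_span ι F₀ 1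
    rwa [map_one] at this
  rw [mem_laurentBaseChange_iff] at hx
  induction hx using Subfield.closure_induction with
  | mem y hy =>
      rcases hy with ⟨a, rfl⟩ | ⟨z, hz, rfl⟩
      · refine ⟨algebraMap K (laurentBaseChange K F₀) a, 1, h22_algebraMap_mem_span ι F₀ a, hone,
          one_ne_zero, ?_⟩
        simp
      · refine ⟨h22_bc ι F₀ ⟨coeffEmb k z, coeffEmb_mem_laurentBaseChange k hz⟩, 1,
          h22_bc_mem_span ι F₀ _, hone, one_ne_zero, ?_⟩
        rw [h22_coe_bc, h22_coeffMap_coeffEmb]
        simp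
  | one => exact ⟨1, 1, hone, hone, one_ne_zero, by simp⟩
  | add x y _ _ hx hy =>
      obtain ⟨A, B, hA, hB, hB0, rfl⟩ := hx
      obtain ⟨C, D, hC, hD, hD0, rfl⟩ := hy
      refine ⟨A * D + C * B, B * D, add_mem (h22_span_mul ι F₀ hA hD) (h22_span_mul ι F₀ hC hB),
        h22_span_mul ι F₀ hB hD, mul_ne_zero hB0 hD0, ?_⟩
      have hB0' : (B : LaurentSeries K) ≠ 0 := fun h => hB0 (Subtype.ext h)
      have hD0' : (D : LaurentSeries K) ≠ 0 := fun h => hD0 (Subtype.ext h)
      push_cast
      field_simp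
  | neg x _ hx =>
      obtain ⟨A, B, hA, hB, hB0, rfl⟩ := hx
      refine ⟨-A, B, neg_mem hA, hB, hB0, ?_⟩
      push_cast
      ring
  | inv x _ hx =>
      obtain ⟨A, B, hA, hB, hB0, rfl⟩ := hx
      by_cases hA0 : A = 0
      · refine ⟨0, 1, zero_mem _, hone, one_ne_zero, ?_⟩
        rw [hA0]
        simp
      · refine ⟨B, A, hB, hA, hA0, ?_⟩
        rw [inv_div]
  | mul x y _ _ hx hy =>
      obtain ⟨A, B, hA, hB, hB0, rfl⟩ := hx
      obtain ⟨C, D, hC, hD, hD0, rfl⟩ := hy
      refine ⟨A * C, B * D, h22_span_mul ι F₀ hA hC, h22_span_mul ι F₀ hB hD,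
        mul_ne_zero hB0 hD0, ?_⟩
      push_cast
      rw [div_mul_div_comm]

/-- (SPAN) every element of `F_K` is a quotient of two elements of the `K`-span of `F_k`. -/
theorem h22_exists_span_div (f : laurentBaseChange K F₀) :
    ∃ A B : laurentBaseChange K F₀, A ∈ h22_span ι F₀ ∧ B ∈ h22_span ι F₀ ∧ B ≠ 0 ∧
      f = A / B := by
  obtain ⟨A, B, hA, hB, hB0, h⟩ := h66_span_div_aux ι F₀ (f : LaurentSeries K) f.2
  refine ⟨A, B, hA, hB, hB0, Subtype.ext ?_⟩
  rw [h]
  rfl

/-! ### (LD) linear disjointness -/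

omit [Algebra ℚ k] [Algebra ℚ K] in
/-- Series form of (LD): a family of `K` which is independent over `ι k` stays independent
over coefficientwise images of Laurent series over `k`. -/
theorem h66_linDisj_series {m : ℕ} (ε : Fin m → K)
    (hε : ∀ c : Fin m → k, ∑ i, ι (c i) * ε i = 0 → ∀ i, c i = 0)
    (y : Fin m → LaurentSeries k)
    (h : ∑ i, algebraMap K (LaurentSeries K) (ε i) * coeffMap ι (y i) = 0) : ∀ i, y i = 0 := by
  have hcoef : ∀ n : ℤ, ∀ i, (y i).coeff n = 0 := by
    intro n
    apply hε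
    have h1 := congrArg (fun z : LaurentSeries K => z.coeff n) h
    simp only [HahnSeries.coeff_sum, algebraMap_laurentSeries_eq_single,
      HahnSeries.coeff_single_zero_mul, coeffMap_coeff, HahnSeries.coeff_zero] at h1
    rw [← h1]
    exact Finset.sum_congr rfl fun i _ => mul_comm _ _
  intro i
  ext n
  rw [hcoef n i]
  rfl

/-- Coercion of a `K`-linear combination of elements of `F_K` to `K((q))`. -/
theorem h66_coe_sum_smul {m : ℕ} (ε : Fin m → K) (z : Fin m → laurentBaseChange K F₀) :
    ((∑ i, ε i • z i : laurentBaseChange K F₀) : LaurentSeries K) =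
      ∑ i, algebraMap K (LaurentSeries K) (ε i) * (z i : LaurentSeries K) := by
  simp only [Algebra.smul_def]
  push_cast
  rfl

/-- (LD) linear disjointness of `K` and `F_k` inside `F_K`. -/
theorem h22_linDisj {m : ℕ} (ε : Fin m → K)
    (hε : ∀ c : Fin m → k, ∑ i, ι (c i) * ε i = 0 → ∀ i, c i = 0)
    (y : Fin m → laurentBaseChange k F₀) (h : ∑ i, ε i • h22_bc ι F₀ (y i) = 0) :
    ∀ i, y i = 0 := by
  have h1 : ∑ i, algebraMap K (LaurentSeries K) (ε i) * coeffMap ι (y i : LaurentSeries k) = 0 := by
    have h2 := congrArg (fun z : laurentBaseChange K F₀ => (z : LaurentSeries K)) h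
    simp only [h66_coe_sum_smul, h22_coe_bc] at h2
    exact h2
  intro i
  exact Subtype.ext (h66_linDisj_series ι ε hε (fun i => (y i : LaurentSeries k)) h1 i)

/-! ### (NF) independent representations in the span -/

omit [Algebra ℚ k] [Algebra ℚ K] in
/-- Every finite family of `K` lies in the `ι k`-span of a finite family which is independent
over `ι k`. -/
theorem h66_exists_indep {J : Type*} [Finite J] (a : J → K) :
    ∃ (m : ℕ) (ε : Fin m → K) (c : J → Fin m → k),
      (∀ d : Fin m → k, ∑ j, ι (d j) * ε j = 0 → ∀ j, d j = 0) ∧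
      ∀ i, a i = ∑ j, ι (c i j) * ε j := by
  classical
  let _ : Module k K := Module.compHom K ι
  have hsmul : ∀ (r : k) (v : K), r • v = ι r * v := fun r v => rfl
  let W : Submodule k K := Submodule.span k (Set.range a)
  have : FiniteDimensional k W := FiniteDimensional.span_of_finite k (Set.finite_range a)
  let b := Module.finBasis k W
  refine ⟨Module.finrank k W, fun j => (b j : K),
    fun i j => b.repr ⟨a i, Submodule.subset_span ⟨i, rfl⟩⟩ j, ?_, ?_⟩
  · intro d hd
    have hli : LinearIndependent k (fun j => (b j : K)) :=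
      b.linearIndependent.map' W.subtype (Submodule.ker_subtype W)
    rw [Fintype.linearIndependent_iff] at hli
    apply hli d
    simp only [hsmul]
    exact hd
  · intro i
    have h1 := b.sum_repr ⟨a i, Submodule.subset_span ⟨i, rfl⟩⟩
    have h2 := congrArg (fun w : W => (w : K)) h1
    simp only [Submodule.coe_sum, Submodule.coe_smul, hsmul] at h2
    exact h2.symm

/-- `bc` is semilinear along `ι`. -/
theorem h66_bc_smul (r : k) (v : laurentBaseChange k F₀) :
    h22_bc ι F₀ (r • v) = ι r • h22_bc ι F₀ v := by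
  rw [Algebra.smul_def, map_mul, h22_bc_algebraMap, ← Algebra.smul_def]

/-- (NF) for a finite family: a common independent family. -/
theorem h66_exists_indep_repr_fam {J : Type*} [Finite J] (x : J → laurentBaseChange K F₀)
    (hx : ∀ j, x j ∈ h22_span ι F₀) :
    ∃ (m : ℕ) (ε : Fin m → K) (y : J → Fin m → laurentBaseChange k F₀),
      (∀ c : Fin m → k, ∑ i, ι (c i) * ε i = 0 → ∀ i, c i = 0) ∧
      ∀ j, x j = ∑ i, ε i • h22_bc ι F₀ (y j i) := by
  classical
  have := Fintype.ofFinite J
  choose n a u hxj using fun j => (h22_mem_span_iff ι F₀ (x j)).1 (hx j)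
  obtain ⟨m, ε, c, hε, hc⟩ := h66_exists_indep ι (fun p : Σ j, Fin (n j) => a p.1 p.2)
  refine ⟨m, ε, fun j l => ∑ i, c ⟨j, i⟩ l • u j i, hε, fun j => ?_⟩
  rw [hxj j]
  simp only [map_sum, h66_bc_smul, Finset.smul_sum, smul_smul]
  rw [Finset.sum_comm]
  refine Finset.sum_congr rfl fun i _ => ?_
  rw [← Finset.sum_smul]
  have h1 := hc ⟨j, i⟩
  simp only at h1
  rw [h1]
  exact congrArg (· • h22_bc ι F₀ (u j i)) (Finset.sum_congr rfl fun l _ => mul_comm _ _)

/-- (NF) every element of the span is a combination of images of `F_k` with coefficients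
independent over `ι k`. -/
theorem h22_exists_indep_repr (x : laurentBaseChange K F₀) (hx : x ∈ h22_span ι F₀) :
    ∃ (m : ℕ) (ε : Fin m → K) (y : Fin m → laurentBaseChange k F₀),
      (∀ c : Fin m → k, ∑ i, ι (c i) * ε i = 0 → ∀ i, c i = 0) ∧
      x = ∑ i, ε i • h22_bc ι F₀ (y i) := by
  obtain ⟨m, ε, y, hε, hy⟩ := h66_exists_indep_repr_fam ι F₀ (fun _ : Unit => x) (fun _ => hx)
  exact ⟨m, ε, y (), hε, hy ()⟩

/-! ### (D2) descent of membership -/

/-- (D2) an element of `F_K` all of whose coefficients lie in `ι k` comes from `F_k`. -/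
theorem h22_mem_of_coeff_mem (x : laurentBaseChange K F₀)
    (hc : ∀ n : ℤ, (x : LaurentSeries K).coeff n ∈ Set.range ι) :
    ∃ y : laurentBaseChange k F₀, h22_bc ι F₀ y = x := by
  classical
  have hg0 : Function.invFun ι (0 : K) = 0 := by
    have h := Function.leftInverse_invFun ι.injective (0 : k)
    rwa [map_zero] at h
  let g : ZeroHom K k := ⟨Function.invFun ι, hg0⟩
  let x₀ : LaurentSeries k := (x : LaurentSeries K).map g
  have hx₀ : coeffMap ι x₀ = (x : LaurentSeries K) := by
    ext n
    rw [coeffMap_coeff]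
    obtain ⟨a, ha⟩ := hc n
    show ι (Function.invFun ι ((x : LaurentSeries K).coeff n)) = _
    rw [← ha, Function.leftInverse_invFun ι.injective a]
  obtain ⟨A, B, hA, hB, hB0, hxAB⟩ := h22_exists_span_div ι F₀ x
  obtain ⟨m, ε, y, hε, hy⟩ := h66_exists_indep_repr_fam ι F₀
    (fun b : Bool => if b then A else B) (by intro b; cases b <;> simpa)
  have hA' : A = ∑ i, ε i • h22_bc ι F₀ (y true i) := by simpa using hy true
  have hB' : B = ∑ i, ε i • h22_bc ι F₀ (y false i) := by simpa using hy false
  have hmul : x * B = A := by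
    rw [hxAB, div_mul_cancel₀ _ hB0]
  have hser : ∑ i, algebraMap K (LaurentSeries K) (ε i) *
      coeffMap ι (x₀ * (y false i : LaurentSeries k) - (y true i : LaurentSeries k)) = 0 := by
    have h1 := congrArg (fun z : laurentBaseChange K F₀ => (z : LaurentSeries K)) hmul
    have h2 : ((x * B : laurentBaseChange K F₀) : LaurentSeries K) =
        (x : LaurentSeries K) * (B : LaurentSeries K) := rfl
    simp only [h2] at h1
    rw [hA', hB'] at h1
    simp only [h66_coe_sum_smul, h22_coe_bc] at h1
    simp only [map_sub, map_mul, hx₀, mul_sub, Finset.sum_sub_distrib]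
    rw [sub_eq_zero, ← h1, Finset.mul_sum]
    exact Finset.sum_congr rfl fun i _ => by ring
  have hall := h66_linDisj_series ι ε hε _ hser
  have hex : ∃ j, y false j ≠ 0 := by
    by_contra hne
    push Not at hne
    apply hB0
    rw [hB']
    simp [hne]
  obtain ⟨j, hj⟩ := hex
  have hj' : (y false j : LaurentSeries k) ≠ 0 := fun h => hj (Subtype.ext h)
  have hx₀eq : x₀ = (y true j : LaurentSeries k) / (y false j : LaurentSeries k) := by
    rw [eq_div_iff hj']
    exact sub_eq_zero.1 (hall j)
  have hx₀mem : x₀ ∈ laurentBaseChange k F₀ := by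
    rw [hx₀eq]
    exact div_mem (y true j).2 (y false j).2
  exact ⟨⟨x₀, hx₀mem⟩, Subtype.ext hx₀⟩

end Fermat.Agent.GAL

end
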