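/-
GAL / DESCENT block, row DESC-C (helper68): abstract core.

Setting: fields `k ⊂ K` (via `ι`), function fields `F / k` and `E / K`, a ring hom
`bc : F →+* E` compatible with the constants.  Under the linear-disjointness hypothesis
`h68_LD` and the span/quotient hypothesis `h68_SD` (both provided for Laurent-series function
fields by row DESC-B) and the existence of values at places of `F` we prove:

* `h68_gauss_core`: a place `P` of `E` that is nontrivial on `bc F` is the Gauss extension of a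
  place of `F` (uniformizer `bc t`, every `f ≠ 0` is `bc t ^ ord f * A / B` with `A`, `B` units
  at `P` lying in the span of the regular elements of `bc F`);
* `h68_ext_core`: every place `Q` of `F` extends to a place `P` of `E` with
  `P.ord (bc u) = Q.ord u`.
-/
import Mathlib
import Fermat.Agent.S24.h35_PlaceBasic
import Fermat.Agent.S24.h35_PlaceOfOrd

set_option autoImplicit false

noncomputable section

namespace Fermat.Agent.GAL

open AlgebraicCurve
open Fermat.Agent.S24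

theorem h68_exists_indep {k K : Type*} [Field k] [Field K] (ι : k →+* K) {n : ℕ} (a : Fin n → K) :
    ∃ (m : ℕ) (ε : Fin m → K) (c : Fin n → Fin m → k),
      (∀ d : Fin m → k, ∑ j, ι (d j) * ε j = 0 → ∀ j, d j = 0) ∧
        ∀ i, a i = ∑ j, ι (c i j) * ε j := by
  let _ : Module k K := Module.compHom K ι
  have hsmul : ∀ (c : k) (x : K), c • x = ι c * x := fun c x => rfl
  let W : Submodule k K := Submodule.span k (Set.range a)
  have : FiniteDimensional k W := FiniteDimensional.span_of_finite k (Set.finite_range a)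
  let b := Module.finBasis k W
  refine ⟨Module.finrank k W, fun j => (b j : K),
    fun i j => b.repr ⟨a i, Submodule.subset_span (Set.mem_range_self i)⟩ j, ?_, ?_⟩
  · intro d hd
    have h0 : ∑ j, d j • b j = 0 := by
      apply Subtype.ext
      simpa [hsmul] using hd
    exact Fintype.linearIndependent_iff.1 b.linearIndependent d h0
  · intro i
    have h := b.sum_repr ⟨a i, Submodule.subset_span (Set.mem_range_self i)⟩
    have h' : a i = ((∑ j, b.repr ⟨a i, Submodule.subset_span (Set.mem_range_self i)⟩ j • b j : W) : K) := by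
      rw [h]
    rw [h', Submodule.coe_sum]
    rfl

section Core

variable {k K F E : Type*} [Field k] [Field K] [Field F] [Field E] [Algebra k F] [Algebra K E]
variable (ι : k →+* K) (bc : F →+* E)

omit [Field k] [Field K] [Algebra k F] [Algebra K E] in
theorem h68_bc_ne_zero {u : F} (hu : u ≠ 0) : bc u ≠ 0 := by
  intro h
  exact hu (bc.injective (by rw [h, map_zero]))

theorem h68_bc_smul (hbc : ∀ a : k, bc (algebraMap k F a) = algebraMap K E (ι a)) (c : k) (u : F) :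
    bc (c • u) = ι c • bc u := by
  rw [Algebra.smul_def, map_mul, hbc, Algebra.smul_def]

/-- Regrouping a linear combination along a change of coefficient family. -/
theorem h68_regroup (hbc : ∀ a : k, bc (algebraMap k F a) = algebraMap K E (ι a))
    {n m : ℕ} (a : Fin n → K) (ε : Fin m → K) (c : Fin n → Fin m → k)
    (hac : ∀ i, a i = ∑ j, ι (c i j) * ε j) (u : Fin n → F) :
    ∑ i, a i • bc (u i) = ∑ j, ε j • bc (∑ i, c i j • u i) := by
  have h1 : ∀ j, ε j • bc (∑ i, c i j • u i) = ∑ i, (ι (c i j) * ε j) • bc (u i) := by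
    intro j
    rw [map_sum, Finset.smul_sum]
    refine Finset.sum_congr rfl fun i _ => ?_
    rw [h68_bc_smul ι bc hbc, smul_smul, mul_comm]
  rw [Finset.sum_congr rfl fun j _ => h1 j, Finset.sum_comm]
  refine Finset.sum_congr rfl fun i _ => ?_
  rw [hac i, Finset.sum_smul]

/-- The `K`-span of the image of the valuation ring of a place `Q` of `F`. -/
def h68_S (K : Type*) [Field K] [Algebra K E] (Q : Place k F) : Submodule K E :=
  Submodule.span K (bc '' (Q.toValuationSubring : Set F))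

theorem h68_bc_mem_S (Q : Place k F) {u : F} (hu : u ∈ Q.toValuationSubring) :
    bc u ∈ h68_S bc K Q :=
  Submodule.subset_span ⟨u, hu, rfl⟩

theorem h68_algebraMap_mem_S (Q : Place k F) (a : K) : algebraMap K E a ∈ h68_S bc K Q := by
  have h1 : bc 1 ∈ h68_S bc K Q := h68_bc_mem_S bc Q (one_mem _)
  have := Submodule.smul_mem _ a h1
  rwa [map_one, Algebra.smul_def, mul_one] at this

theorem h68_S_mul (Q : Place k F) {x y : E} (hx : x ∈ h68_S bc K Q) (hy : y ∈ h68_S bc K Q) :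
    x * y ∈ h68_S bc K Q := by
  refine Submodule.span_induction₂ (p := fun x y _ _ => x * y ∈ h68_S bc K Q)
    ?_ ?_ ?_ ?_ ?_ ?_ ?_ hx hy
  · rintro _ _ ⟨u, hu, rfl⟩ ⟨v, hv, rfl⟩
    rw [← map_mul]
    exact h68_bc_mem_S bc Q (mul_mem hu hv)
  · intro y _; simp
  · intro x _; simp
  · intro x y z _ _ _ h1 h2; rw [add_mul]; exact add_mem h1 h2
  · intro x y z _ _ _ h1 h2; rw [mul_add]; exact add_mem h1 h2
  · intro r x y _ _ h; rw [smul_mul_assoc]; exact Submodule.smul_mem _ _ h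
  · intro r x y _ _ h; rw [mul_smul_comm]; exact Submodule.smul_mem _ _ h

theorem h68_S_pow (Q : Place k F) {x : E} (hx : x ∈ h68_S bc K Q) (n : ℕ) :
    x ^ n ∈ h68_S bc K Q := by
  induction n with
  | zero =>
      rw [pow_zero, ← map_one (algebraMap K E)]
      exact h68_algebraMap_mem_S bc Q 1
  | succ n ih => rw [pow_succ]; exact h68_S_mul bc Q ih hx

theorem h68_mem_S_iff (Q : Place k F) (x : E) :
    x ∈ h68_S bc K Q ↔ ∃ (n : ℕ) (a : Fin n → K) (u : Fin n → F),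
      (∀ i, u i ∈ Q.toValuationSubring) ∧ x = ∑ i, a i • bc (u i) := by
  constructor
  · intro hx
    obtain ⟨n, a, g, rfl⟩ := (Submodule.mem_span_set'
      (s := bc '' (Q.toValuationSubring : Set F))).1 hx
    choose u hu using fun i => (g i).2
    exact ⟨n, a, u, fun i => (hu i).1, by simp [hu]⟩
  · rintro ⟨n, a, u, hu, rfl⟩
    exact Submodule.sum_mem _ fun i _ => Submodule.smul_mem _ _ (h68_bc_mem_S bc Q (hu i))

theorem h68_S_le_span (Q : Place k F) : h68_S bc K Q ≤ Submodule.span K (Set.range bc) :=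
  Submodule.span_mono (by rintro _ ⟨u, -, rfl⟩; exact ⟨u, rfl⟩)

theorem h68_mem_span_iff (x : E) :
    x ∈ Submodule.span K (Set.range bc) ↔ ∃ (n : ℕ) (a : Fin n → K) (u : Fin n → F),
      x = ∑ i, a i • bc (u i) := by
  constructor
  · intro hx
    obtain ⟨n, a, g, rfl⟩ := (Submodule.mem_span_set' (s := Set.range bc)).1 hx
    choose u hu using fun i => (g i).2
    exact ⟨n, a, u, by simp [hu]⟩
  · rintro ⟨n, a, u, rfl⟩
    exact Submodule.sum_mem _ fun i _ =>
      Submodule.smul_mem _ _ (Submodule.subset_span ⟨u i, rfl⟩)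

/-- "Principal units up to constants": elements `r + bc t * s`, `r ∈ Kˣ`, `s ∈ S`. -/
def h68_U (K : Type*) [Field K] [Algebra K E] (Q : Place k F) (t : F) (x : E) : Prop :=
  ∃ r : K, r ≠ 0 ∧ ∃ s ∈ h68_S bc K Q, x = algebraMap K E r + bc t * s

theorem h68_U_algebraMap (Q : Place k F) (t : F) {r : K} (hr : r ≠ 0) :
    h68_U bc K Q t (algebraMap K E r) :=
  ⟨r, hr, 0, zero_mem _, by simp⟩

theorem h68_U_one (Q : Place k F) (t : F) : h68_U bc K Q t (1 : E) := by
  have := h68_U_algebraMap bc Q t (one_ne_zero (α := K))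
  rwa [map_one] at this

theorem h68_U_mem_S (Q : Place k F) {t : F} (ht : t ∈ Q.toValuationSubring) {x : E}
    (hx : h68_U bc K Q t x) : x ∈ h68_S bc K Q := by
  obtain ⟨r, -, s, hs, rfl⟩ := hx
  exact add_mem (h68_algebraMap_mem_S bc Q r) (h68_S_mul bc Q (h68_bc_mem_S bc Q ht) hs)

theorem h68_U_mul (Q : Place k F) {t : F} (ht : t ∈ Q.toValuationSubring) {x y : E}
    (hx : h68_U bc K Q t x) (hy : h68_U bc K Q t y) : h68_U bc K Q t (x * y) := by
  obtain ⟨r, hr, s, hs, rfl⟩ := hx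
  obtain ⟨r', hr', s', hs', rfl⟩ := hy
  refine ⟨r * r', mul_ne_zero hr hr', r • s' + r' • s + bc t * (s * s'), ?_, ?_⟩
  · exact add_mem (add_mem (Submodule.smul_mem _ _ hs') (Submodule.smul_mem _ _ hs))
      (h68_S_mul bc Q (h68_bc_mem_S bc Q ht) (h68_S_mul bc Q hs hs'))
  · rw [map_mul, Algebra.smul_def, Algebra.smul_def]
    ring

/-- The linear-disjointness hypothesis. -/
def h68_LD : Prop :=
  ∀ (m : ℕ) (ε : Fin m → K), (∀ c : Fin m → k, ∑ i, ι (c i) * ε i = 0 → ∀ i, c i = 0) →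
    ∀ y : Fin m → F, ∑ i, ε i • bc (y i) = 0 → ∀ i, y i = 0

theorem h68_t_ne_zero (Q : Place k F) {t : F} (ht : Q.ord t = 1) : t ≠ 0 := by
  rintro rfl
  simp at ht

theorem h68_t_mem (Q : Place k F) {t : F} (ht : Q.ord t = 1) : t ∈ Q.toValuationSubring := by
  rw [h35_mem_iff_ord_nonneg Q (h68_t_ne_zero Q ht), ht]
  exact zero_le_one

/-- Lemma N: `1 ∉ bc t • S`. -/
theorem h68_not_one (hbc : ∀ a : k, bc (algebraMap k F a) = algebraMap K E (ι a))
    (hLD : h68_LD ι bc) (Q : Place k F) {t : F} (ht : Q.ord t = 1)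
    {s : E} (hs : s ∈ h68_S bc K Q) : bc t * s ≠ 1 := by
  intro h1
  have ht0 : t ≠ 0 := h68_t_ne_zero Q ht
  obtain ⟨n, a, u, hu, rfl⟩ := (h68_mem_S_iff bc Q s).1 hs
  obtain ⟨m, ε, c, hε, hc⟩ := h68_exists_indep ι (Fin.cons 1 a : Fin (n + 1) → K)
  have hreg := h68_regroup ι bc hbc (Fin.cons 1 a : Fin (n + 1) → K) ε c hc
    (Fin.cons (-1) (fun i => t * u i) : Fin (n + 1) → F)
  have hzero : ∑ i : Fin (n + 1), (Fin.cons 1 a : Fin (n + 1) → K) i •
      bc ((Fin.cons (-1) (fun i => t * u i) : Fin (n + 1) → F) i) = 0 := by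
    rw [Fin.sum_univ_succ]
    simp only [Fin.cons_zero, Fin.cons_succ, one_smul, map_neg, map_one, map_mul]
    rw [Finset.mul_sum] at h1
    rw [neg_add_eq_zero, ← h1]
    refine Finset.sum_congr rfl fun i _ => ?_
    rw [mul_smul_comm]
  rw [hzero] at hreg
  have hy := hLD m ε hε _ hreg.symm
  have hex : ∃ j, c 0 j ≠ 0 := by
    by_contra hcon
    push Not at hcon
    have h := hc 0
    simp [hcon] at h
  obtain ⟨j, hj⟩ := hex
  have hyj := hy j
  rw [Fin.sum_univ_succ] at hyj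
  simp only [Fin.cons_zero, Fin.cons_succ] at hyj
  have hzmem : (∑ i : Fin n, c i.succ j • u i) ∈ Q.toValuationSubring :=
    sum_mem fun i _ => by
      rw [Algebra.smul_def]
      exact mul_mem (Q.algebraMap_mem' _) (hu i)
  have htz : t * (∑ i : Fin n, c i.succ j • u i) = algebraMap k F (c 0 j) := by
    rw [Finset.mul_sum]
    have h2 : ∑ i : Fin n, c i.succ j • (t * u i) = c 0 j • (1 : F) := by
      rw [smul_neg, neg_add_eq_zero] at hyj
      exact hyj.symm
    rw [Algebra.smul_def, mul_one] at h2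
    rw [← h2]
    refine Finset.sum_congr rfl fun i _ => ?_
    rw [mul_smul_comm]
  have hz0 : (∑ i : Fin n, c i.succ j • u i) ≠ 0 := by
    intro h
    rw [h, mul_zero] at htz
    exact hj ((map_eq_zero (algebraMap k F)).1 htz.symm)
  have h3 := Q.ord_mul ht0 hz0
  rw [htz, h35_ord_algebraMap, ht] at h3
  have h4 := (h35_mem_iff_ord_nonneg Q hz0).1 hzmem
  omega

theorem h68_U_not_mul (hbc : ∀ a : k, bc (algebraMap k F a) = algebraMap K E (ι a))
    (hLD : h68_LD ι bc) (Q : Place k F) {t : F} (ht : Q.ord t = 1) {x : E}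
    (hx : h68_U bc K Q t x) {s : E} (hs : s ∈ h68_S bc K Q) : x ≠ bc t * s := by
  obtain ⟨r, hr, s₁, hs₁, rfl⟩ := hx
  intro h
  refine h68_not_one ι bc hbc hLD Q ht (s := r⁻¹ • (s - s₁))
    (Submodule.smul_mem _ _ (sub_mem hs hs₁)) ?_
  have hr' : algebraMap K E r ≠ 0 := by simpa using hr
  have h2 : bc t * (s - s₁) = algebraMap K E r := by
    rw [mul_sub, ← h]; ring
  rw [mul_smul_comm, h2, Algebra.smul_def, ← map_mul, inv_mul_cancel₀ hr, map_one]

theorem h68_U_ne_zero (hbc : ∀ a : k, bc (algebraMap k F a) = algebraMap K E (ι a))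
    (hLD : h68_LD ι bc) (Q : Place k F) {t : F} (ht : Q.ord t = 1) {x : E}
    (hx : h68_U bc K Q t x) : x ≠ 0 := by
  have := h68_U_not_mul ι bc hbc hLD Q ht hx (zero_mem _)
  rwa [mul_zero] at this

theorem h68_value_split (Q : Place k F) {t : F} (ht : Q.ord t = 1)
    (hval : ∀ f : F, f ∈ Q.toValuationSubring →
      ∃ a : k, f = algebraMap k F a ∨ 0 < Q.ord (f - algebraMap k F a))
    {v : F} (hv : v ∈ Q.toValuationSubring) :
    ∃ (a : k) (w : F), w ∈ Q.toValuationSubring ∧ v = algebraMap k F a + t * w := by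
  have ht0 : t ≠ 0 := h68_t_ne_zero Q ht
  obtain ⟨a, ha | ha⟩ := hval v hv
  · exact ⟨a, 0, zero_mem _, by simpa using ha⟩
  · have hne : v - algebraMap k F a ≠ 0 := by
      intro h
      rw [h, Q.ord_zero] at ha
      exact lt_irrefl 0 ha
    refine ⟨a, (v - algebraMap k F a) / t, ?_, by field_simp; ring⟩
    rw [h35_mem_iff_ord_nonneg Q (div_ne_zero hne ht0), h35_ord_div Q hne ht0, ht]
    omega

/-- Key lemma: Gauss normal form of the elements of the span. -/
theorem h68_key (hbc : ∀ a : k, bc (algebraMap k F a) = algebraMap K E (ι a))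
    (Q : Place k F) {t : F} (ht : Q.ord t = 1)
    (hval : ∀ f : F, f ∈ Q.toValuationSubring →
      ∃ a : k, f = algebraMap k F a ∨ 0 < Q.ord (f - algebraMap k F a))
    {x : E} (hx : x ∈ Submodule.span K (Set.range bc)) (hx0 : x ≠ 0) :
    ∃ (m : ℤ) (x₀ : E), h68_U bc K Q t x₀ ∧ x = bc t ^ m * x₀ := by
  classical
  have ht0 : t ≠ 0 := h68_t_ne_zero Q ht
  obtain ⟨n, a, u, rfl⟩ := (h68_mem_span_iff bc x).1 hx
  obtain ⟨m, ε, c, hε, hc⟩ := h68_exists_indep ι a
  rw [h68_regroup ι bc hbc a ε c hc u] at hx0 ⊢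
  set y : Fin m → F := fun j => ∑ i, c i j • u i with hy
  have hJ : (Finset.univ.filter fun j => y j ≠ 0).Nonempty := by
    by_contra hcon
    rw [Finset.not_nonempty_iff_eq_empty] at hcon
    apply hx0
    refine Finset.sum_eq_zero fun j _ => ?_
    have hyj : y j = 0 := by
      by_contra h
      have hmem : j ∈ (Finset.univ.filter fun j => y j ≠ 0) := by simp [h]
      rw [hcon] at hmem
      simp at hmem
    show ε j • bc (y j) = 0
    rw [hyj, map_zero, smul_zero]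
  obtain ⟨j₀, hj₀, hmin⟩ := Finset.exists_min_image _ (fun j => Q.ord (y j)) hJ
  have hj₀' : y j₀ ≠ 0 := by simpa using hj₀
  have htM : ∀ M : ℤ, t ^ M ≠ 0 := fun M => zpow_ne_zero _ ht0
  have hvmem : ∀ j, y j / t ^ (Q.ord (y j₀)) ∈ Q.toValuationSubring := by
    intro j
    by_cases h : y j = 0
    · rw [h, zero_div]; exact zero_mem _
    · have h1 := hmin j (by simp [h])
      rw [h35_mem_iff_ord_nonneg Q (div_ne_zero h (htM _)), h35_ord_div Q h (htM _),
        Q.ord_zpow, ht]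
      omega
  have hyv : ∀ j, y j = t ^ (Q.ord (y j₀)) * (y j / t ^ (Q.ord (y j₀))) := by
    intro j
    field_simp
  choose al w hw hvw using fun j => h68_value_split Q ht hval (hvmem j)
  refine ⟨Q.ord (y j₀), ∑ j, ε j • bc (y j / t ^ (Q.ord (y j₀))),
    ⟨∑ j, ι (al j) * ε j, ?_, ∑ j, ε j • bc (w j), ?_, ?_⟩, ?_⟩
  · intro hr
    have h0 := hε al hr j₀
    have hv0 : y j₀ / t ^ (Q.ord (y j₀)) ≠ 0 := div_ne_zero hj₀' (htM _)
    have hord : Q.ord (y j₀ / t ^ (Q.ord (y j₀))) = 0 := by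
      rw [h35_ord_div Q hj₀' (htM _), Q.ord_zpow, ht]
      omega
    have hvw0 := hvw j₀
    rw [h0, map_zero, zero_add] at hvw0
    have hw0 : w j₀ ≠ 0 := by
      intro h
      rw [h, mul_zero] at hvw0
      exact hv0 hvw0
    have h5 := Q.ord_mul ht0 hw0
    rw [← hvw0, hord, ht] at h5
    have h6 := (h35_mem_iff_ord_nonneg Q hw0).1 (hw j₀)
    omega
  · exact Submodule.sum_mem _ fun j _ => Submodule.smul_mem _ _ (h68_bc_mem_S bc Q (hw j))
  · rw [map_sum, Finset.mul_sum, ← Finset.sum_add_distrib]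
    refine Finset.sum_congr rfl fun j _ => ?_
    conv_lhs => rw [hvw j]
    rw [map_add, map_mul, hbc, smul_add, mul_smul_comm, map_mul, Algebra.smul_def,
      mul_comm (algebraMap K E (ι (al j)))]
  · rw [Finset.mul_sum]
    refine Finset.sum_congr rfl fun j _ => ?_
    show ε j • bc (y j) = _
    conv_lhs => rw [hyv j]
    rw [map_mul, map_zpow₀, mul_smul_comm]

/-- The span/quotient hypothesis. -/
def h68_SD (K : Type*) [Field K] [Algebra K E] : Prop :=
  ∀ f : E, ∃ A B : E, A ∈ Submodule.span K (Set.range bc) ∧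
    B ∈ Submodule.span K (Set.range bc) ∧ B ≠ 0 ∧ f = A / B

theorem h68_repr (hbc : ∀ a : k, bc (algebraMap k F a) = algebraMap K E (ι a))
    (hLD : h68_LD ι bc) (hSD : h68_SD bc K) (Q : Place k F) {t : F} (ht : Q.ord t = 1)
    (hval : ∀ f : F, f ∈ Q.toValuationSubring →
      ∃ a : k, f = algebraMap k F a ∨ 0 < Q.ord (f - algebraMap k F a))
    {f : E} (hf : f ≠ 0) :
    ∃ (m : ℤ) (A B : E), h68_U bc K Q t A ∧ h68_U bc K Q t B ∧ f = bc t ^ m * A / B := by
  obtain ⟨A, B, hA, hB, hB0, rfl⟩ := hSD f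
  have hA0 : A ≠ 0 := by
    rintro rfl
    simp at hf
  obtain ⟨m, A₀, hA₀, rfl⟩ := h68_key ι bc hbc Q ht hval hA hA0
  obtain ⟨m', B₀, hB₀, rfl⟩ := h68_key ι bc hbc Q ht hval hB hB0
  refine ⟨m - m', A₀, B₀, hA₀, hB₀, ?_⟩
  have hb : bc t ≠ 0 := h68_bc_ne_zero bc (h68_t_ne_zero Q ht)
  have hB₀0 := h68_U_ne_zero ι bc hbc hLD Q ht hB₀
  have hz : bc t ^ m' ≠ 0 := zpow_ne_zero _ hb
  rw [zpow_sub₀ hb]
  field_simp

theorem h68_repr_unique_aux (hbc : ∀ a : k, bc (algebraMap k F a) = algebraMap K E (ι a))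
    (hLD : h68_LD ι bc) (Q : Place k F) {t : F} (ht : Q.ord t = 1) {A B A' B' : E}
    (hA : h68_U bc K Q t A) (hB : h68_U bc K Q t B) (hA' : h68_U bc K Q t A')
    (hB' : h68_U bc K Q t B') {m m' : ℤ} (h : bc t ^ m * A / B = bc t ^ m' * A' / B') :
    m ≤ m' := by
  by_contra hlt
  push Not at hlt
  obtain ⟨j, hj⟩ : ∃ j : ℕ, m = m' + ((j + 1 : ℕ) : ℤ) := ⟨(m - m' - 1).toNat, by omega⟩
  have hb : bc t ≠ 0 := h68_bc_ne_zero bc (h68_t_ne_zero Q ht)
  have htm := h68_t_mem Q ht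
  have hB0 := h68_U_ne_zero ι bc hbc hLD Q ht hB
  have hB'0 := h68_U_ne_zero ι bc hbc hLD Q ht hB'
  have hz : bc t ^ m' ≠ 0 := zpow_ne_zero _ hb
  rw [hj, zpow_add₀ hb, zpow_natCast, div_eq_div_iff hB0 hB'0] at h
  have h3 : bc t ^ m' * (bc t * (bc t ^ j * (A * B'))) = bc t ^ m' * (A' * B) := by
    rw [pow_succ] at h
    linear_combination h
  have h4 := mul_left_cancel₀ hz h3
  exact h68_U_not_mul ι bc hbc hLD Q ht (h68_U_mul bc Q htm hA' hB)
    (h68_S_mul bc Q (h68_S_pow bc Q (h68_bc_mem_S bc Q htm) j)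
      (h68_S_mul bc Q (h68_U_mem_S bc Q htm hA) (h68_U_mem_S bc Q htm hB'))) h4.symm

theorem h68_S_key (hbc : ∀ a : k, bc (algebraMap k F a) = algebraMap K E (ι a))
    (hLD : h68_LD ι bc) (Q : Place k F) {t : F} (ht : Q.ord t = 1)
    (hval : ∀ f : F, f ∈ Q.toValuationSubring →
      ∃ a : k, f = algebraMap k F a ∨ 0 < Q.ord (f - algebraMap k F a))
    {x : E} (hx : x ∈ h68_S bc K Q) (hx0 : x ≠ 0) :
    ∃ (a : ℕ) (x₀ : E), h68_U bc K Q t x₀ ∧ x = bc t ^ a * x₀ := by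
  obtain ⟨m, x₀, hx₀, hxe⟩ := h68_key ι bc hbc Q ht hval (h68_S_le_span bc Q hx) hx0
  have hb : bc t ≠ 0 := h68_bc_ne_zero bc (h68_t_ne_zero Q ht)
  have htm := h68_t_mem Q ht
  by_cases hm : 0 ≤ m
  · obtain ⟨a, rfl⟩ := Int.eq_ofNat_of_zero_le hm
    exact ⟨a, x₀, hx₀, by rw [hxe, zpow_natCast]⟩
  · exfalso
    obtain ⟨j, hj⟩ : ∃ j : ℕ, m = -(((j + 1 : ℕ)) : ℤ) := ⟨(-m - 1).toNat, by omega⟩
    refine h68_U_not_mul ι bc hbc hLD Q ht hx₀ (s := bc t ^ j * x)
      (h68_S_mul bc Q (h68_S_pow bc Q (h68_bc_mem_S bc Q htm) j) hx) ?_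
    rw [hxe, hj, zpow_neg, zpow_natCast, pow_succ]
    field_simp

/-- The order function attached to `Q` on `E`. -/
def h68_w (K : Type*) [Field K] [Algebra K E] (Q : Place k F) (t : F) (f : E) : ℤ :=
  open Classical in
  if h : ∃ (m : ℤ) (A B : E), h68_U bc K Q t A ∧ h68_U bc K Q t B ∧ f = bc t ^ m * A / B
  then h.choose else 0

theorem h68_w_eq (hbc : ∀ a : k, bc (algebraMap k F a) = algebraMap K E (ι a))
    (hLD : h68_LD ι bc) (Q : Place k F) {t : F} (ht : Q.ord t = 1) {A B : E}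
    (hA : h68_U bc K Q t A) (hB : h68_U bc K Q t B) (m : ℤ) :
    h68_w bc K Q t (bc t ^ m * A / B) = m := by
  have hex : ∃ (m' : ℤ) (A' B' : E), h68_U bc K Q t A' ∧ h68_U bc K Q t B' ∧
      bc t ^ m * A / B = bc t ^ m' * A' / B' := ⟨m, A, B, hA, hB, rfl⟩
  rw [h68_w, dif_pos hex]
  obtain ⟨A', B', hA', hB', h⟩ := hex.choose_spec
  exact le_antisymm (h68_repr_unique_aux ι bc hbc hLD Q ht hA' hB' hA hB h.symm)
    (h68_repr_unique_aux ι bc hbc hLD Q ht hA hB hA' hB' h)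

theorem h68_w_mul (hbc : ∀ a : k, bc (algebraMap k F a) = algebraMap K E (ι a))
    (hLD : h68_LD ι bc) (hSD : h68_SD bc K) (Q : Place k F) {t : F} (ht : Q.ord t = 1)
    (hval : ∀ f : F, f ∈ Q.toValuationSubring →
      ∃ a : k, f = algebraMap k F a ∨ 0 < Q.ord (f - algebraMap k F a))
    (f g : E) (hf : f ≠ 0) (hg : g ≠ 0) :
    h68_w bc K Q t (f * g) = h68_w bc K Q t f + h68_w bc K Q t g := by
  obtain ⟨m, A, B, hA, hB, rfl⟩ := h68_repr ι bc hbc hLD hSD Q ht hval hf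
  obtain ⟨m', A', B', hA', hB', rfl⟩ := h68_repr ι bc hbc hLD hSD Q ht hval hg
  have hb : bc t ≠ 0 := h68_bc_ne_zero bc (h68_t_ne_zero Q ht)
  have htm := h68_t_mem Q ht
  have hB0 := h68_U_ne_zero ι bc hbc hLD Q ht hB
  have hB'0 := h68_U_ne_zero ι bc hbc hLD Q ht hB'
  have he : bc t ^ m * A / B * (bc t ^ m' * A' / B') = bc t ^ (m + m') * (A * A') / (B * B') := by
    rw [zpow_add₀ hb]
    field_simp
  rw [he, h68_w_eq ι bc hbc hLD Q ht (h68_U_mul bc Q htm hA hA') (h68_U_mul bc Q htm hB hB'),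
    h68_w_eq ι bc hbc hLD Q ht hA hB, h68_w_eq ι bc hbc hLD Q ht hA' hB']

theorem h68_w_add_aux (hbc : ∀ a : k, bc (algebraMap k F a) = algebraMap K E (ι a))
    (hLD : h68_LD ι bc) (hSD : h68_SD bc K) (Q : Place k F) {t : F} (ht : Q.ord t = 1)
    (hval : ∀ f : F, f ∈ Q.toValuationSubring →
      ∃ a : k, f = algebraMap k F a ∨ 0 < Q.ord (f - algebraMap k F a))
    (f g : E) (hf : f ≠ 0) (hg : g ≠ 0) (hfg : f + g ≠ 0)
    (hle : h68_w bc K Q t f ≤ h68_w bc K Q t g) :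
    h68_w bc K Q t f ≤ h68_w bc K Q t (f + g) := by
  obtain ⟨m, A, B, hA, hB, rfl⟩ := h68_repr ι bc hbc hLD hSD Q ht hval hf
  obtain ⟨m', A', B', hA', hB', rfl⟩ := h68_repr ι bc hbc hLD hSD Q ht hval hg
  have hb : bc t ≠ 0 := h68_bc_ne_zero bc (h68_t_ne_zero Q ht)
  have htm := h68_t_mem Q ht
  have hB0 := h68_U_ne_zero ι bc hbc hLD Q ht hB
  have hB'0 := h68_U_ne_zero ι bc hbc hLD Q ht hB'
  rw [h68_w_eq ι bc hbc hLD Q ht hA hB, h68_w_eq ι bc hbc hLD Q ht hA' hB'] at hle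
  rw [h68_w_eq ι bc hbc hLD Q ht hA hB]
  obtain ⟨j, hj⟩ : ∃ j : ℕ, m' = m + (j : ℤ) := ⟨(m' - m).toNat, by omega⟩
  have hz : bc t ^ m ≠ 0 := zpow_ne_zero _ hb
  have he : bc t ^ m * A / B + bc t ^ m' * A' / B'
      = bc t ^ m * (A * B' + bc t ^ j * (A' * B)) / (B * B') := by
    rw [hj, zpow_add₀ hb, zpow_natCast]
    field_simp
  have hN : A * B' + bc t ^ j * (A' * B) ∈ h68_S bc K Q :=
    add_mem (h68_S_mul bc Q (h68_U_mem_S bc Q htm hA) (h68_U_mem_S bc Q htm hB'))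
      (h68_S_mul bc Q (h68_S_pow bc Q (h68_bc_mem_S bc Q htm) j)
        (h68_S_mul bc Q (h68_U_mem_S bc Q htm hA') (h68_U_mem_S bc Q htm hB)))
  have hN0 : A * B' + bc t ^ j * (A' * B) ≠ 0 := by
    intro h
    apply hfg
    rw [he, h, mul_zero, zero_div]
  obtain ⟨a, N₀, hN₀, hNe⟩ := h68_S_key ι bc hbc hLD Q ht hval hN hN0
  have he2 : bc t ^ m * A / B + bc t ^ m' * A' / B'
      = bc t ^ (m + (a : ℤ)) * N₀ / (B * B') := by
    rw [he, hNe, zpow_add₀ hb, zpow_natCast]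
    ring
  rw [he2, h68_w_eq ι bc hbc hLD Q ht hN₀ (h68_U_mul bc Q htm hB hB')]
  omega

theorem h68_w_add (hbc : ∀ a : k, bc (algebraMap k F a) = algebraMap K E (ι a))
    (hLD : h68_LD ι bc) (hSD : h68_SD bc K) (Q : Place k F) {t : F} (ht : Q.ord t = 1)
    (hval : ∀ f : F, f ∈ Q.toValuationSubring →
      ∃ a : k, f = algebraMap k F a ∨ 0 < Q.ord (f - algebraMap k F a))
    (f g : E) (hf : f ≠ 0) (hg : g ≠ 0) (hfg : f + g ≠ 0) :
    min (h68_w bc K Q t f) (h68_w bc K Q t g) ≤ h68_w bc K Q t (f + g) := by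
  rcases le_total (h68_w bc K Q t f) (h68_w bc K Q t g) with h | h
  · rw [min_eq_left h]
    exact h68_w_add_aux ι bc hbc hLD hSD Q ht hval f g hf hg hfg h
  · rw [min_eq_right h, add_comm]
    exact h68_w_add_aux ι bc hbc hLD hSD Q ht hval g f hg hf (by rwa [add_comm]) h

theorem h68_w_U (hbc : ∀ a : k, bc (algebraMap k F a) = algebraMap K E (ι a))
    (hLD : h68_LD ι bc) (Q : Place k F) {t : F} (ht : Q.ord t = 1) {A : E}
    (hA : h68_U bc K Q t A) (m : ℤ) : h68_w bc K Q t (bc t ^ m * A) = m := by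
  have := h68_w_eq ι bc hbc hLD Q ht hA (h68_U_one bc Q t) m
  rwa [div_one] at this

/-- Units of `O_Q` map into `U`. -/
theorem h68_U_bc (hbc : ∀ a : k, bc (algebraMap k F a) = algebraMap K E (ι a))
    (Q : Place k F) {t : F} (ht : Q.ord t = 1)
    (hval : ∀ f : F, f ∈ Q.toValuationSubring →
      ∃ a : k, f = algebraMap k F a ∨ 0 < Q.ord (f - algebraMap k F a))
    {v : F} (hv0 : v ≠ 0) (hv : Q.ord v = 0) : h68_U bc K Q t (bc v) := by
  have ht0 : t ≠ 0 := h68_t_ne_zero Q ht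
  have hvm : v ∈ Q.toValuationSubring := by
    rw [h35_mem_iff_ord_nonneg Q hv0, hv]
  obtain ⟨a, w, hw, hvw⟩ := h68_value_split Q ht hval hvm
  have ha : a ≠ 0 := by
    rintro rfl
    rw [map_zero, zero_add] at hvw
    have hw0 : w ≠ 0 := by
      rintro rfl
      rw [mul_zero] at hvw
      exact hv0 hvw
    have h1 := Q.ord_mul ht0 hw0
    rw [← hvw, hv, ht] at h1
    have h2 := (h35_mem_iff_ord_nonneg Q hw0).1 hw
    omega
  refine ⟨ι a, (map_ne_zero ι).2 ha, bc w, h68_bc_mem_S bc Q hw, ?_⟩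
  conv_lhs => rw [hvw]
  rw [map_add, map_mul, hbc]

theorem h68_w_bc (hbc : ∀ a : k, bc (algebraMap k F a) = algebraMap K E (ι a))
    (hLD : h68_LD ι bc) (Q : Place k F) {t : F} (ht : Q.ord t = 1)
    (hval : ∀ f : F, f ∈ Q.toValuationSubring →
      ∃ a : k, f = algebraMap k F a ∨ 0 < Q.ord (f - algebraMap k F a))
    {u : F} (hu : u ≠ 0) : h68_w bc K Q t (bc u) = Q.ord u := by
  have ht0 : t ≠ 0 := h68_t_ne_zero Q ht
  have hz : t ^ (Q.ord u) ≠ 0 := zpow_ne_zero _ ht0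
  have hv0 : u / t ^ (Q.ord u) ≠ 0 := div_ne_zero hu hz
  have hv : Q.ord (u / t ^ (Q.ord u)) = 0 := by
    rw [h35_ord_div Q hu hz, Q.ord_zpow, ht]
    omega
  have he : bc u = bc t ^ (Q.ord u) * bc (u / t ^ (Q.ord u)) := by
    rw [← map_zpow₀, ← map_mul]
    congr 1
    field_simp
  rw [he]
  exact h68_w_U ι bc hbc hLD Q ht (h68_U_bc ι bc hbc Q ht hval hv0 hv) _

/-- **Extension of places** (abstract form). -/
theorem h68_ext_core (hbc : ∀ a : k, bc (algebraMap k F a) = algebraMap K E (ι a))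
    (hLD : h68_LD ι bc) (hSD : h68_SD bc K) (Q : Place k F)
    (hval : ∀ f : F, f ∈ Q.toValuationSubring →
      ∃ a : k, f = algebraMap k F a ∨ 0 < Q.ord (f - algebraMap k F a)) :
    ∃ P : Place K E, ∀ u : F, P.ord (bc u) = Q.ord u := by
  obtain ⟨π, hπ⟩ := IsDiscreteValuationRing.exists_irreducible Q.toValuationSubring
  have ht : Q.ord (π : F) = 1 := Q.ord_coe_irreducible hπ
  have ht0 : (π : F) ≠ 0 := h68_t_ne_zero Q ht
  have hb : bc (π : F) ≠ 0 := h68_bc_ne_zero bc ht0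
  have hwt : h68_w bc K Q (π : F) (bc (π : F)) = 1 := by
    rw [h68_w_bc ι bc hbc hLD Q ht hval ht0, ht]
  obtain ⟨P, d, hd, hP⟩ := h35_exists_place_of_ord (K := K) (h68_w bc K Q (π : F))
    (h68_w_mul ι bc hbc hLD hSD Q ht hval) (h68_w_add ι bc hbc hLD hSD Q ht hval)
    (fun a ha => by
      have := h68_w_U ι bc hbc hLD Q ht (h68_U_algebraMap bc Q (π : F) ha) 0
      rwa [zpow_zero, one_mul] at this)
    ⟨bc (π : F), hb, by rw [hwt]; exact one_ne_zero⟩
  have hd1 : d = 1 := by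
    have h1 := hP _ hb
    rw [hwt] at h1
    have h2 : (d : ℤ) ∣ 1 := ⟨_, h1⟩
    have h3 := Int.eq_one_of_dvd_one (by positivity) h2
    exact_mod_cast h3
  refine ⟨P, fun u => ?_⟩
  by_cases hu : u = 0
  · rw [hu, map_zero, P.ord_zero, Q.ord_zero]
  · have h1 := hP _ (h68_bc_ne_zero bc hu)
    rw [h68_w_bc ι bc hbc hLD Q ht hval hu, hd1] at h1
    rw [h1]
    simp

theorem h68_spanAt_mem (P : Place K E) {x : E}
    (hx : x ∈ Submodule.span K {x | x ∈ P.toValuationSubring ∧ x ∈ Set.range bc}) :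
    x ∈ P.toValuationSubring := by
  refine Submodule.span_induction (p := fun x _ => x ∈ P.toValuationSubring) ?_ ?_ ?_ ?_ hx
  · rintro x ⟨hx, -⟩; exact hx
  · exact zero_mem _
  · intro x y _ _ h1 h2; exact add_mem h1 h2
  · intro a x _ h
    rw [Algebra.smul_def]
    exact mul_mem (P.algebraMap_mem' a) h

theorem h68_ord_add_eq_zero (P : Place K E) {a b : E} (ha0 : a ≠ 0) (ha : P.ord a = 0)
    (hb : b = 0 ∨ 0 < P.ord b) : a + b ≠ 0 ∧ P.ord (a + b) = 0 := by
  rcases hb with rfl | hb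
  · simp [ha0, ha]
  · have hb0 : b ≠ 0 := by
      rintro rfl
      simp at hb
    have hab : a + b ≠ 0 := by
      intro h
      have h' : b = -a := by linear_combination h
      rw [h', h35_ord_neg, ha] at hb
      exact lt_irrefl 0 hb
    refine ⟨hab, ?_⟩
    have h1 := h35_ord_add P ha0 hb0 hab
    have h2 := h35_ord_sub P hab hb0 (by simpa using ha0)
    rw [add_sub_cancel_right] at h2
    rw [ha] at h1 h2
    rcases min_le_iff.1 h2 with h | h
    · have h3 : min 0 (P.ord b) = 0 := min_eq_left hb.le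
      omega
    · omega

/-- **Rational places are Gauss extensions** (abstract form). -/
theorem h68_gauss_core (hbc : ∀ a : k, bc (algebraMap k F a) = algebraMap K E (ι a))
    (hLD : h68_LD ι bc) (hSD : h68_SD bc K)
    (hval : ∀ (Q : Place k F) (f : F), f ∈ Q.toValuationSubring →
      ∃ a : k, f = algebraMap k F a ∨ 0 < Q.ord (f - algebraMap k F a))
    (P : Place K E) (hP : ∃ u : F, u ≠ 0 ∧ P.ord (bc u) ≠ 0) :
    ∃ t : F, P.ord (bc t) = 1 ∧ ∀ f : E, f ≠ 0 → ∃ A B : E,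
      A ∈ Submodule.span K {x | x ∈ P.toValuationSubring ∧ x ∈ Set.range bc} ∧
      B ∈ Submodule.span K {x | x ∈ P.toValuationSubring ∧ x ∈ Set.range bc} ∧
      A ≠ 0 ∧ P.ord A = 0 ∧ B ≠ 0 ∧ P.ord B = 0 ∧ f = bc t ^ (P.ord f) * A / B := by
  obtain ⟨Q, hmem, d, hd, hod⟩ := h35_exists_place_of_ord' (K := k) (fun u => P.ord (bc u))
    (fun f g hf hg => by
      show P.ord (bc (f * g)) = _
      rw [map_mul]
      exact P.ord_mul (h68_bc_ne_zero bc hf) (h68_bc_ne_zero bc hg))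
    (fun f g hf hg hfg => by
      show _ ≤ P.ord (bc (f + g))
      rw [map_add]
      exact h35_ord_add P (h68_bc_ne_zero bc hf) (h68_bc_ne_zero bc hg)
        (by rw [← map_add]; exact h68_bc_ne_zero bc hfg))
    (fun a _ => by
      show P.ord (bc (algebraMap k F a)) = 0
      rw [hbc]
      exact h35_ord_algebraMap P _)
    hP
  obtain ⟨π, hπ⟩ := IsDiscreteValuationRing.exists_irreducible Q.toValuationSubring
  have ht : Q.ord (π : F) = 1 := Q.ord_coe_irreducible hπ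
  have ht0 : (π : F) ≠ 0 := h68_t_ne_zero Q ht
  have hb : bc (π : F) ≠ 0 := h68_bc_ne_zero bc ht0
  have htm := h68_t_mem Q ht
  have hPt : P.ord (bc (π : F)) = d := by
    have h := hod _ ht0
    rw [ht, mul_one] at h
    exact h
  have hOQ : ∀ u : F, u ∈ Q.toValuationSubring → bc u ∈ P.toValuationSubring := by
    intro u hu
    by_cases hu0 : u = 0
    · rw [hu0, map_zero]; exact zero_mem _
    · rw [h35_mem_iff_ord_nonneg P (h68_bc_ne_zero bc hu0)]
      exact ((hmem u).1 hu).resolve_left hu0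
  have hS : h68_S bc K Q ≤
      Submodule.span K {x | x ∈ P.toValuationSubring ∧ x ∈ Set.range bc} :=
    Submodule.span_mono (by rintro _ ⟨u, hu, rfl⟩; exact ⟨hOQ u hu, u, rfl⟩)
  have hU : ∀ x : E, h68_U bc K Q (π : F) x →
      x ∈ Submodule.span K {x | x ∈ P.toValuationSubring ∧ x ∈ Set.range bc} ∧
        x ≠ 0 ∧ P.ord x = 0 := by
    intro x hx
    refine ⟨hS (h68_U_mem_S bc Q htm hx), ?_⟩
    obtain ⟨r, hr, s, hs, rfl⟩ := hx
    have hr' : algebraMap K E r ≠ 0 := by simpa using hr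
    refine h68_ord_add_eq_zero P hr' (h35_ord_algebraMap P r) ?_
    by_cases hs0 : s = 0
    · left; rw [hs0, mul_zero]
    · right
      rw [P.ord_mul hb hs0, hPt]
      have h1 := (h35_mem_iff_ord_nonneg P hs0).1 (h68_spanAt_mem bc P (hS hs))
      have hd' : (1 : ℤ) ≤ d := by exact_mod_cast hd
      omega
  have hrep : ∀ f : E, f ≠ 0 → ∃ (m : ℤ) (A B : E), h68_U bc K Q (π : F) A ∧
      h68_U bc K Q (π : F) B ∧ f = bc (π : F) ^ m * A / B ∧ P.ord f = m * d := by
    intro f hf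
    obtain ⟨m, A, B, hA, hB, rfl⟩ := h68_repr ι bc hbc hLD hSD Q ht (hval Q) hf
    refine ⟨m, A, B, hA, hB, rfl, ?_⟩
    obtain ⟨-, hA0, hAo⟩ := hU A hA
    obtain ⟨-, hB0, hBo⟩ := hU B hB
    rw [h35_ord_div P (mul_ne_zero (zpow_ne_zero _ hb) hA0) hB0,
      P.ord_mul (zpow_ne_zero _ hb) hA0, P.ord_zpow, hPt, hAo, hBo]
    ring
  have hd1 : (d : ℤ) = 1 := by
    obtain ⟨ϖ, hϖ⟩ := IsDiscreteValuationRing.exists_irreducible P.toValuationSubring
    have h1 : P.ord (ϖ : E) = 1 := P.ord_coe_irreducible hϖ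
    have hϖ0 : (ϖ : E) ≠ 0 := h68_t_ne_zero P h1
    obtain ⟨m, A, B, -, -, -, hm⟩ := hrep _ hϖ0
    rw [h1] at hm
    exact Int.eq_one_of_dvd_one (by positivity) ⟨m, by rw [hm]; ring⟩
  refine ⟨(π : F), by rw [hPt, hd1], fun f hf => ?_⟩
  obtain ⟨m, A, B, hA, hB, hfe, hm⟩ := hrep f hf
  obtain ⟨hAm, hA0, hAo⟩ := hU A hA
  obtain ⟨hBm, hB0, hBo⟩ := hU B hB
  refine ⟨A, B, hAm, hBm, hA0, hAo, hB0, hBo, ?_⟩
  rw [hm, hd1, mul_one]
  exact hfe

end Core

end Fermat.Agent.GAL
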