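/-
GAL / DESCENT block, row DESC-C (helper68): rational places of `F_K` are Gauss extensions of
places of `F_k`, and every place of `F_k` extends to `F_K`.

Wrapper: the mathematics is in the abstract core `h68_DescCCore.lean`; this file plugs in
row DESC-B (`h22_linDisj`, `h22_exists_span_div`) and the values at places of `F_k`
(`h35_exists_value`).
-/
import Mathlib
import Fermat.Agent.GAL.h22_DescDefs
import Fermat.Agent.GAL.h22_DescB
import Fermat.Agent.S24.h35_Places
import Fermat.Agent.S24.h35_PlaceOfOrd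
import Fermat.Agent.S24.h56_Count
import Fermat.Agent.GAL.h68_DescCCore

set_option autoImplicit false

noncomputable section

namespace Fermat.Agent.GAL

open ModularCurve AlgebraicCurve HahnSeries IntermediateField
open Fermat.Agent.S24

variable {k K : Type*} [Field k] [Algebra ℚ k] [Field K] [Algebra ℚ K] (ι : k →+* K)
variable (F₀ : IntermediateField ℚ (LaurentSeries ℚ))

theorem h68_LD_bc : h68_LD ι (h22_bc ι F₀) :=
  fun _ ε hε y h => h22_linDisj ι F₀ ε hε y h

theorem h68_SD_bc : h68_SD (h22_bc ι F₀) K :=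
  fun f => h22_exists_span_div ι F₀ f

variable [IsAlgClosed k] [CharZero k]
variable (t₁ : laurentBaseChange k F₀) (ht₁ : Transcendental k t₁)
  [FiniteDimensional k⟮t₁⟯ (laurentBaseChange k F₀)]

include ht₁ in
theorem h22_gauss (P : Place K (laurentBaseChange K F₀)) (hP : h22_IsRational ι F₀ P) :
    ∃ t : laurentBaseChange k F₀, P.ord (h22_bc ι F₀ t) = 1 ∧
      ∀ f : laurentBaseChange K F₀, f ≠ 0 → ∃ A B : laurentBaseChange K F₀,
        A ∈ h22_spanAt ι F₀ P ∧ B ∈ h22_spanAt ι F₀ P ∧ A ≠ 0 ∧ P.ord A = 0 ∧ B ≠ 0 ∧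
          P.ord B = 0 ∧ f = h22_bc ι F₀ t ^ (P.ord f) * A / B :=
  h68_gauss_core ι (h22_bc ι F₀) (h22_bc_algebraMap ι F₀) (h68_LD_bc ι F₀) (h68_SD_bc ι F₀)
    (fun Q _ hf => h35_exists_value ht₁ Q hf) P hP

include ht₁ in
theorem h22_exists_ext (Q : Place k (laurentBaseChange k F₀)) :
    ∃ P : Place K (laurentBaseChange K F₀), ∀ u : laurentBaseChange k F₀,
      P.ord (h22_bc ι F₀ u) = Q.ord u :=
  h68_ext_core ι (h22_bc ι F₀) (h22_bc_algebraMap ι F₀) (h68_LD_bc ι F₀) (h68_SD_bc ι F₀) Q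
    (fun _ hf => h35_exists_value ht₁ Q hf)

end Fermat.Agent.GAL
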