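import Mathlib
import Fermat.Agent.GAL.h22_DescDefs
import Fermat.Agent.S24.h35_Places

/-!
# GAL / DESCENT, row DESC-D (helper81): generic places, abstract core

Setting: fields `k ⊆ K` (`ι : k →+* K`), function fields `Fk / k` and `F / K`, a ring hom
`bc : Fk →+* F` over `ι`, the `K`-subalgebra `R` of `F` spanned by `bc Fk`, a place `P` of `F / K`
with residue field `K` which is *generic*: every nonzero `bc u` is a unit at `P`.

Then, for `t₁ ∈ Fk` transcendental over `k` with `Fk / k(t₁)` separable algebraic and `c` the value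
of `bc t₁` at `P`:  `c ∉ ι k`, `π = bc t₁ - c` is a uniformizer at `P`, and every nonzero `f ∈ F`
is `π ^ ord_P f * A / B` with `A, B ∈ R` units at `P` (`h81_generic_core`), provided every element
of `F` is a quotient of two elements of `R`.

Proof: `S = R[(R ∖ 𝔪_P)⁻¹]` is a local subring of `O_P`; in `S / π S` the two ring homs
`u ↦ bc u` and `u ↦ (bc u)(P)` from `Fk` agree on `k(t₁)`, hence everywhere because the minimal
polynomial of `u` over `k(t₁)` is separable (its value polynomial has the simple root `(bc u)(P)`).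
-/

set_option autoImplicit false

noncomputable section

namespace Fermat.Agent.GAL

open AlgebraicCurve IntermediateField
open Fermat.Agent.S24

section Val

variable {K F : Type*} [Field K] [Field F] [Algebra K F]

/-- The value map `O_P → K` of a place with residue field `K`. -/
def h81_val (P : Place K F) (hres : Function.Surjective (algebraMap K P.ResidueField)) :
    P.toValuationSubring →+* K :=
  ((RingEquiv.ofBijective (algebraMap K P.ResidueField)
      ⟨(algebraMap K P.ResidueField).injective, hres⟩).symm : P.ResidueField →+* K).comp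
    (IsLocalRing.residue P.toValuationSubring)

theorem h81_val_algebraMap (P : Place K F)
    (hres : Function.Surjective (algebraMap K P.ResidueField)) (a : K) :
    h81_val P hres (algebraMap K P.toValuationSubring a) = a := by
  unfold h81_val
  rw [RingHom.comp_apply]
  exact (RingEquiv.ofBijective (algebraMap K P.ResidueField)
      ⟨(algebraMap K P.ResidueField).injective, hres⟩).symm_apply_apply a

theorem h81_val_eq_zero_iff (P : Place K F)
    (hres : Function.Surjective (algebraMap K P.ResidueField)) (x : P.toValuationSubring) :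
    h81_val P hres x = 0 ↔ IsLocalRing.residue P.toValuationSubring x = 0 := by
  unfold h81_val
  rw [RingHom.comp_apply]
  exact map_eq_zero_iff _ (RingEquiv.injective _)

theorem h81_val_eq_zero_iff_ord_pos (P : Place K F)
    (hres : Function.Surjective (algebraMap K P.ResidueField)) (x : P.toValuationSubring)
    (hx : (x : F) ≠ 0) : h81_val P hres x = 0 ↔ 0 < P.ord (x : F) := by
  rw [h81_val_eq_zero_iff]
  exact ⟨h35_ord_pos_of_residue_eq_zero P x hx, h35_residue_eq_zero_of_ord_pos P x⟩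

end Val

section Loc

variable {K F : Type*} [Field K] [Field F] [Algebra K F]

/-- The localisation of a `K`-subalgebra `R ⊆ F` at the elements which are units at `P`
(as a subalgebra of `F`). -/
def h81_S (R : Subalgebra K F) (P : Place K F) : Subalgebra K F where
  carrier := {s | ∃ a b : F, a ∈ R ∧ b ∈ R ∧ b ≠ 0 ∧ P.ord b = 0 ∧ s * b = a}
  mul_mem' := by
    rintro s s' ⟨a, b, ha, hb, hb0, hbo, h⟩ ⟨a', b', ha', hb', hb0', hbo', h'⟩
    refine ⟨a * a', b * b', R.mul_mem ha ha', R.mul_mem hb hb', mul_ne_zero hb0 hb0', ?_, ?_⟩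
    · rw [P.ord_mul hb0 hb0', hbo, hbo', add_zero]
    · rw [← h, ← h']; ring
  add_mem' := by
    rintro s s' ⟨a, b, ha, hb, hb0, hbo, h⟩ ⟨a', b', ha', hb', hb0', hbo', h'⟩
    refine ⟨a * b' + a' * b, b * b', R.add_mem (R.mul_mem ha hb') (R.mul_mem ha' hb),
      R.mul_mem hb hb', mul_ne_zero hb0 hb0', ?_, ?_⟩
    · rw [P.ord_mul hb0 hb0', hbo, hbo', add_zero]
    · rw [← h, ← h']; ring
  algebraMap_mem' c :=
    ⟨algebraMap K F c, 1, R.algebraMap_mem c, R.one_mem, one_ne_zero, P.ord_one, mul_one _⟩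

theorem h81_mem_S {R : Subalgebra K F} {P : Place K F} {s : F} :
    s ∈ h81_S R P ↔ ∃ a b : F, a ∈ R ∧ b ∈ R ∧ b ≠ 0 ∧ P.ord b = 0 ∧ s * b = a := Iff.rfl

theorem h81_R_le_S (R : Subalgebra K F) (P : Place K F) {x : F} (hx : x ∈ R) :
    x ∈ h81_S R P :=
  ⟨x, 1, hx, R.one_mem, one_ne_zero, P.ord_one, mul_one _⟩

theorem h81_S_le (R : Subalgebra K F) (P : Place K F)
    (hRO : ∀ x ∈ R, x ∈ P.toValuationSubring) {s : F} (hs : s ∈ h81_S R P) :
    s ∈ P.toValuationSubring := by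
  obtain ⟨a, b, ha, hb, hb0, hbo, h⟩ := hs
  by_cases hs0 : s = 0
  · rw [hs0]; exact zero_mem _
  · rw [h35_mem_iff_ord_nonneg P hs0]
    have h1 : P.ord a = P.ord s + P.ord b := by rw [← h, P.ord_mul hs0 hb0]
    have h2 := h35_ord_nonneg_of_mem P (hRO a ha)
    omega

/-- The value map on `S`, as a `K`-algebra hom. -/
def h81_valS (R : Subalgebra K F) (P : Place K F)
    (hRO : ∀ x ∈ R, x ∈ P.toValuationSubring)
    (hres : Function.Surjective (algebraMap K P.ResidueField)) : h81_S R P →ₐ[K] K where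
  toFun s := h81_val P hres ⟨(s : F), h81_S_le R P hRO s.2⟩
  map_one' := (h81_val P hres).map_one
  map_mul' s s' := (h81_val P hres).map_mul ⟨(s : F), h81_S_le R P hRO s.2⟩
    ⟨(s' : F), h81_S_le R P hRO s'.2⟩
  map_zero' := (h81_val P hres).map_zero
  map_add' s s' := (h81_val P hres).map_add ⟨(s : F), h81_S_le R P hRO s.2⟩
    ⟨(s' : F), h81_S_le R P hRO s'.2⟩
  commutes' c := h81_val_algebraMap P hres c

theorem h81_valS_eq_zero_iff (R : Subalgebra K F) (P : Place K F)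
    (hRO : ∀ x ∈ R, x ∈ P.toValuationSubring)
    (hres : Function.Surjective (algebraMap K P.ResidueField)) (s : h81_S R P)
    (hs : (s : F) ≠ 0) : h81_valS R P hRO hres s = 0 ↔ 0 < P.ord (s : F) :=
  h81_val_eq_zero_iff_ord_pos P hres ⟨(s : F), h81_S_le R P hRO s.2⟩ hs

/-- `S` is local: an element with nonzero value is a unit. -/
theorem h81_S_isUnit (R : Subalgebra K F) (P : Place K F)
    (hRO : ∀ x ∈ R, x ∈ P.toValuationSubring)
    (hres : Function.Surjective (algebraMap K P.ResidueField)) (s : h81_S R P)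
    (hs : h81_valS R P hRO hres s ≠ 0) : IsUnit s := by
  have hs0 : (s : F) ≠ 0 := by
    intro h
    apply hs
    have : s = 0 := Subtype.ext h
    rw [this, map_zero]
  have hord : P.ord (s : F) = 0 := by
    have h1 := h35_ord_nonneg_of_mem P (h81_S_le R P hRO s.2)
    have h2 : ¬ 0 < P.ord (s : F) := fun h => hs ((h81_valS_eq_zero_iff R P hRO hres s hs0).2 h)
    omega
  obtain ⟨a, b, ha, hb, hb0, hbo, h⟩ := s.2
  have ha0 : a ≠ 0 := by rw [← h]; exact mul_ne_zero hs0 hb0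
  have hao : P.ord a = 0 := by rw [← h, P.ord_mul hs0 hb0, hord, hbo, add_zero]
  have hinv : (s : F)⁻¹ ∈ h81_S R P := by
    refine ⟨b, a, hb, ha, ha0, hao, ?_⟩
    rw [← h, ← mul_assoc, inv_mul_cancel₀ hs0, one_mul]
  exact IsUnit.of_mul_eq_one (⟨(s : F)⁻¹, hinv⟩ : h81_S R P) (Subtype.ext (mul_inv_cancel₀ hs0))

end Loc

section Core

variable {k K Fk F : Type*} [Field k] [Field K] [Field Fk] [Field F] [Algebra k Fk] [Algebra K F]

/-- `bc` with values in `S`. -/
def h81_bcS (bc : Fk →+* F) (R : Subalgebra K F) (P : Place K F) (hR : ∀ u, bc u ∈ R) :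
    Fk →+* h81_S R P :=
  bc.codRestrict (h81_S R P) (fun u => h81_R_le_S R P (hR u))

/-- The uniformizer `bc t₁ - (bc t₁)(P)`, as an element of `S`. -/
def h81_piS (bc : Fk →+* F) (R : Subalgebra K F) (P : Place K F) (hR : ∀ u, bc u ∈ R)
    (hRO : ∀ x ∈ R, x ∈ P.toValuationSubring)
    (hres : Function.Surjective (algebraMap K P.ResidueField)) (t₁ : Fk) : h81_S R P :=
  h81_bcS bc R P hR t₁ -
    algebraMap K (h81_S R P) (h81_valS R P hRO hres (h81_bcS bc R P hR t₁))

/-- **Key step**: modulo `π S`, every `bc u` is congruent to its value at `P`. -/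
theorem h81_mk_bcS (ι : k →+* K) (bc : Fk →+* F)
    (hbc : ∀ a : k, bc (algebraMap k Fk a) = algebraMap K F (ι a))
    (R : Subalgebra K F) (P : Place K F) (hR : ∀ u, bc u ∈ R)
    (hRO : ∀ x ∈ R, x ∈ P.toValuationSubring)
    (hres : Function.Surjective (algebraMap K P.ResidueField)) (t₁ : Fk)
    [Algebra.IsSeparable k⟮t₁⟯ Fk] (u : Fk) :
    Ideal.Quotient.mk (Ideal.span {h81_piS bc R P hR hRO hres t₁}) (h81_bcS bc R P hR u) =
      algebraMap K (h81_S R P ⧸ Ideal.span {h81_piS bc R P hR hRO hres t₁})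
        (h81_valS R P hRO hres (h81_bcS bc R P hR u)) := by
  set I : Ideal (h81_S R P) := Ideal.span {h81_piS bc R P hR hRO hres t₁} with hI
  set bcS := h81_bcS bc R P hR with hbcS
  set valS := h81_valS R P hRO hres with hvalS
  let valk : Fk →+* K := (valS : h81_S R P →+* K).comp bcS
  let β : Fk →+* (h81_S R P ⧸ I) := (Ideal.Quotient.mk I).comp bcS
  let γ : Fk →+* (h81_S R P ⧸ I) := (algebraMap K (h81_S R P ⧸ I)).comp valk
  show β u = γ u
  -- agreement on `k`
  have hk : ∀ a : k, β (algebraMap k Fk a) = γ (algebraMap k Fk a) := by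
    intro a
    have h1 : bcS (algebraMap k Fk a) = algebraMap K (h81_S R P) (ι a) := Subtype.ext (hbc a)
    show Ideal.Quotient.mk I (bcS (algebraMap k Fk a)) =
      algebraMap K (h81_S R P ⧸ I) (valS (bcS (algebraMap k Fk a)))
    rw [h1, AlgHom.commutes]
    rfl
  -- agreement at `t₁`
  have ht : β t₁ = γ t₁ := by
    show Ideal.Quotient.mk I (bcS t₁) = Ideal.Quotient.mk I (algebraMap K (h81_S R P) (valS (bcS t₁)))
    rw [Ideal.Quotient.eq]
    exact Ideal.mem_span_singleton_self _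
  -- agreement on `k(t₁)`
  have hE : ∀ x : Fk, x ∈ k⟮t₁⟯ → β x = γ x := by
    intro x hx
    induction hx using IntermediateField.adjoin_induction with
    | mem x hx => rw [Set.mem_singleton_iff.mp hx]; exact ht
    | algebraMap x => exact hk x
    | add x y _ _ hx hy => rw [map_add, map_add, hx, hy]
    | inv x _ hx =>
      by_cases hx0 : x = 0
      · rw [hx0, inv_zero, map_zero, map_zero]
      · have h1 : β x * β x⁻¹ = 1 := by rw [← map_mul, mul_inv_cancel₀ hx0, map_one]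
        have h2 : γ x * γ x⁻¹ = 1 := by rw [← map_mul, mul_inv_cancel₀ hx0, map_one]
        calc β x⁻¹ = β x⁻¹ * (γ x * γ x⁻¹) := by rw [h2, mul_one]
          _ = (β x * β x⁻¹) * γ x⁻¹ := by rw [← hx]; ring
          _ = γ x⁻¹ := by rw [h1, one_mul]
    | mul x y _ _ hx hy => rw [map_mul, map_mul, hx, hy]
  -- the general case, via the minimal polynomial over `k(t₁)`
  have hg0 : Polynomial.aeval u (minpoly k⟮t₁⟯ u) = 0 := minpoly.aeval k⟮t₁⟯ u
  have hsep : Polynomial.aeval u (Polynomial.derivative (minpoly k⟮t₁⟯ u)) ≠ 0 :=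
    (Algebra.IsSeparable.isSeparable k⟮t₁⟯ u).aeval_derivative_ne_zero hg0
  let δ : k⟮t₁⟯ →+* K := valk.comp (algebraMap k⟮t₁⟯ Fk)
  set gb : Polynomial K := (minpoly k⟮t₁⟯ u).map δ with hgb
  have h1 : gb.eval (valk u) = 0 := by
    rw [hgb, Polynomial.eval_map, ← Polynomial.hom_eval₂, ← Polynomial.aeval_def, hg0, map_zero]
  have h2 : gb.derivative.eval (valk u) ≠ 0 := by
    rw [hgb, Polynomial.derivative_map, Polynomial.eval_map, ← Polynomial.hom_eval₂,
      ← Polynomial.aeval_def]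
    intro h
    exact hsep (valk.injective (by rw [h, map_zero]))
  obtain ⟨h, hh⟩ : Polynomial.X - Polynomial.C (valk u) ∣ gb := Polynomial.dvd_iff_isRoot.2 h1
  have h3 : h.eval (valk u) ≠ 0 := by
    have h4 : gb.derivative.eval (valk u) = h.eval (valk u) := by
      rw [hh, Polynomial.derivative_mul]
      simp
    rwa [h4] at h2
  have hcoef : (algebraMap K (h81_S R P ⧸ I)).comp δ = β.comp (algebraMap k⟮t₁⟯ Fk) := by
    ext x
    exact (hE x.1 x.2).symm
  have h4 : Polynomial.aeval (β u) gb = 0 := by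
    rw [hgb, Polynomial.aeval_def, Polynomial.eval₂_map, hcoef, ← Polynomial.hom_eval₂,
      ← Polynomial.aeval_def, hg0, map_zero]
  rw [hh, map_mul, map_sub, Polynomial.aeval_X, Polynomial.aeval_C] at h4
  have h5 : IsUnit (Polynomial.aeval (β u) h) := by
    have h6 : Polynomial.aeval (β u) h =
        Ideal.Quotient.mkₐ K I (Polynomial.aeval (bcS u) h) :=
      Polynomial.aeval_algHom_apply (Ideal.Quotient.mkₐ K I) (bcS u) h
    rw [h6]
    apply IsUnit.map
    apply h81_S_isUnit R P hRO hres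
    have h7 : valS (Polynomial.aeval (bcS u) h) = Polynomial.aeval (valS (bcS u)) h :=
      (Polynomial.aeval_algHom_apply valS (bcS u) h).symm
    rw [← hvalS, h7, Polynomial.coe_aeval_eq_eval]
    exact h3
  have h6 : β u - algebraMap K (h81_S R P ⧸ I) (valk u) = 0 := (IsUnit.mul_left_eq_zero h5).1 h4
  exact sub_eq_zero.1 h6

/-- Modulo `π S`, every element of the span of `bc Fk` is congruent to its value at `P`. -/
theorem h81_mk_span (ι : k →+* K) (bc : Fk →+* F)
    (hbc : ∀ a : k, bc (algebraMap k Fk a) = algebraMap K F (ι a))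
    (R : Subalgebra K F) (P : Place K F) (hR : ∀ u, bc u ∈ R)
    (hRO : ∀ x ∈ R, x ∈ P.toValuationSubring)
    (hres : Function.Surjective (algebraMap K P.ResidueField)) (t₁ : Fk)
    [Algebra.IsSeparable k⟮t₁⟯ Fk] (x : F) (hx : x ∈ Submodule.span K (Set.range bc)) :
    ∀ hxS : x ∈ h81_S R P,
      Ideal.Quotient.mk (Ideal.span {h81_piS bc R P hR hRO hres t₁}) ⟨x, hxS⟩ =
        algebraMap K (h81_S R P ⧸ Ideal.span {h81_piS bc R P hR hRO hres t₁})
          (h81_valS R P hRO hres ⟨x, hxS⟩) := by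
  have hle : Submodule.span K (Set.range bc) ≤ Subalgebra.toSubmodule (h81_S R P) := by
    rw [Submodule.span_le]
    rintro _ ⟨u, rfl⟩
    exact h81_R_le_S R P (hR u)
  induction hx using Submodule.span_induction with
  | mem x hx =>
    obtain ⟨u, rfl⟩ := hx
    intro hxS
    exact h81_mk_bcS ι bc hbc R P hR hRO hres t₁ u
  | zero =>
    intro hxS
    have h0 : (⟨0, hxS⟩ : h81_S R P) = 0 := rfl
    rw [h0, map_zero, map_zero, map_zero]
  | add x y hx hy ihx ihy =>
    intro hxS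
    have h0 : (⟨x + y, hxS⟩ : h81_S R P) = ⟨x, hle hx⟩ + ⟨y, hle hy⟩ := rfl
    rw [h0, map_add, map_add, map_add, ihx (hle hx), ihy (hle hy)]
  | smul a x hx ihx =>
    intro hxS
    have h0 : (⟨a • x, hxS⟩ : h81_S R P) = algebraMap K (h81_S R P) a * ⟨x, hle hx⟩ := by
      apply Subtype.ext
      show a • x = algebraMap K F a * x
      rw [Algebra.smul_def]
    rw [h0, map_mul, map_mul, map_mul, ihx (hle hx), AlgHom.commutes]
    rfl

/-- An element of `R` of positive order at `P` is divisible by `π` in `S`. -/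
theorem h81_exists_mul_pi (ι : k →+* K) (bc : Fk →+* F)
    (hbc : ∀ a : k, bc (algebraMap k Fk a) = algebraMap K F (ι a))
    (R : Subalgebra K F) (P : Place K F) (hR : ∀ u, bc u ∈ R)
    (hspan : ∀ x ∈ R, x ∈ Submodule.span K (Set.range bc))
    (hRO : ∀ x ∈ R, x ∈ P.toValuationSubring)
    (hres : Function.Surjective (algebraMap K P.ResidueField)) (t₁ : Fk)
    [Algebra.IsSeparable k⟮t₁⟯ Fk] (x : F) (hx : x ∈ R) (hx0 : x ≠ 0) (hpos : 0 < P.ord x) :
    ∃ y b : F, y ∈ R ∧ b ∈ R ∧ b ≠ 0 ∧ P.ord b = 0 ∧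
      x * b = ((h81_piS bc R P hR hRO hres t₁ : h81_S R P) : F) * y := by
  have hxS : x ∈ h81_S R P := h81_R_le_S R P hx
  have h1 := h81_mk_span ι bc hbc R P hR hRO hres t₁ x (hspan x hx) hxS
  have h2 : h81_valS R P hRO hres ⟨x, hxS⟩ = 0 :=
    (h81_valS_eq_zero_iff R P hRO hres ⟨x, hxS⟩ hx0).2 hpos
  rw [h2, map_zero, Ideal.Quotient.eq_zero_iff_mem, Ideal.mem_span_singleton'] at h1
  obtain ⟨s, hs⟩ := h1
  obtain ⟨a, b, ha, hb, hb0, hbo, h⟩ := s.2
  refine ⟨a, b, ha, hb, hb0, hbo, ?_⟩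
  have h3 : x = (s : F) * ((h81_piS bc R P hR hRO hres t₁ : h81_S R P) : F) :=
    (congrArg (fun z : h81_S R P => (z : F)) hs).symm
  rw [h3, ← h]
  ring

/-- Every nonzero element of `R` is `π ^ m * A / B` with `A, B ∈ R` units at `P`. -/
theorem h81_exists_pow (ι : k →+* K) (bc : Fk →+* F)
    (hbc : ∀ a : k, bc (algebraMap k Fk a) = algebraMap K F (ι a))
    (R : Subalgebra K F) (P : Place K F) (hR : ∀ u, bc u ∈ R)
    (hspan : ∀ x ∈ R, x ∈ Submodule.span K (Set.range bc))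
    (hRO : ∀ x ∈ R, x ∈ P.toValuationSubring)
    (hres : Function.Surjective (algebraMap K P.ResidueField)) (t₁ : Fk)
    [Algebra.IsSeparable k⟮t₁⟯ Fk]
    (hπ0 : ((h81_piS bc R P hR hRO hres t₁ : h81_S R P) : F) ≠ 0)
    (hπpos : 0 < P.ord ((h81_piS bc R P hR hRO hres t₁ : h81_S R P) : F)) :
    ∀ (n : ℕ) (x : F), x ∈ R → x ≠ 0 → P.ord x ≤ n →
      ∃ (m : ℕ) (A B : F), A ∈ R ∧ B ∈ R ∧ A ≠ 0 ∧ P.ord A = 0 ∧ B ≠ 0 ∧ P.ord B = 0 ∧
        x * B = ((h81_piS bc R P hR hRO hres t₁ : h81_S R P) : F) ^ m * A := by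
  set π : F := ((h81_piS bc R P hR hRO hres t₁ : h81_S R P) : F) with hπ
  have hbase : ∀ x : F, x ∈ R → x ≠ 0 → P.ord x = 0 →
      ∃ (m : ℕ) (A B : F), A ∈ R ∧ B ∈ R ∧ A ≠ 0 ∧ P.ord A = 0 ∧ B ≠ 0 ∧ P.ord B = 0 ∧
        x * B = π ^ m * A := by
    intro x hx hx0 hxo
    exact ⟨0, x, 1, hx, R.one_mem, hx0, hxo, one_ne_zero, P.ord_one, by rw [pow_zero, mul_one, one_mul]⟩
  intro n
  induction n with
  | zero =>
    intro x hx hx0 hle
    have h1 := h35_ord_nonneg_of_mem P (hRO x hx)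
    exact hbase x hx hx0 (by omega)
  | succ n ih =>
    intro x hx hx0 hle
    by_cases hxo : P.ord x = 0
    · exact hbase x hx hx0 hxo
    · have h1 := h35_ord_nonneg_of_mem P (hRO x hx)
      have hpos : 0 < P.ord x := by omega
      obtain ⟨y, b, hy, hb, hb0, hbo, h⟩ :=
        h81_exists_mul_pi ι bc hbc R P hR hspan hRO hres t₁ x hx hx0 hpos
      have hy0 : y ≠ 0 := by
        rintro rfl
        rw [mul_zero] at h
        exact mul_ne_zero hx0 hb0 h
      have h2 : P.ord x + P.ord b = P.ord π + P.ord y := by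
        rw [← P.ord_mul hx0 hb0, ← P.ord_mul hπ0 hy0, h]
      have h3 : P.ord y ≤ n := by
        push_cast at hle
        omega
      obtain ⟨m, A, B, hA, hB, hA0, hAo, hB0, hBo, h4⟩ := ih y hy hy0 h3
      refine ⟨m + 1, A, b * B, hA, R.mul_mem hb hB, hA0, hAo, mul_ne_zero hb0 hB0, ?_, ?_⟩
      · rw [P.ord_mul hb0 hB0, hbo, hBo, add_zero]
      · calc x * (b * B) = (x * b) * B := by ring
          _ = π * (y * B) := by rw [h]; ring
          _ = π ^ (m + 1) * A := by rw [h4]; ring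

/-- **Generic places, abstract form.**  `c = (bc t₁)(P) ∉ ι k`, `π = bc t₁ - c` is a uniformizer
at `P`, and every nonzero `f ∈ F` is `π ^ ord_P f * A / B` with `A, B ∈ R` units at `P`. -/
theorem h81_generic_core (ι : k →+* K) (bc : Fk →+* F)
    (hbc : ∀ a : k, bc (algebraMap k Fk a) = algebraMap K F (ι a))
    (R : Subalgebra K F) (P : Place K F) (hR : ∀ u, bc u ∈ R)
    (hspan : ∀ x ∈ R, x ∈ Submodule.span K (Set.range bc))
    (hres : Function.Surjective (algebraMap K P.ResidueField))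
    (hgen : ∀ u : Fk, u ≠ 0 → P.ord (bc u) = 0)
    (hdiv : ∀ f : F, ∃ A B : F, A ∈ R ∧ B ∈ R ∧ B ≠ 0 ∧ f = A / B)
    (t₁ : Fk) (ht₁ : Transcendental k t₁) (hT : Transcendental K (bc t₁))
    [Algebra.IsSeparable k⟮t₁⟯ Fk] :
    ∃ c : K, c ∉ Set.range ι ∧ P.ord (bc t₁ - algebraMap K F c) = 1 ∧
      ∀ f : F, f ≠ 0 → ∃ A B : F, A ∈ R ∧ B ∈ R ∧ A ≠ 0 ∧ P.ord A = 0 ∧ B ≠ 0 ∧ P.ord B = 0 ∧
        f = (bc t₁ - algebraMap K F c) ^ (P.ord f) * A / B := by
  -- `R ⊆ O_P`
  have hRO : ∀ x ∈ R, x ∈ P.toValuationSubring := by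
    intro x hx
    have h1 := hspan x hx
    refine Submodule.span_induction (p := fun x _ => x ∈ P.toValuationSubring) ?_ ?_ ?_ ?_ h1
    · rintro _ ⟨u, rfl⟩
      by_cases hu : u = 0
      · rw [hu, map_zero]; exact zero_mem _
      · have h0 : bc u ≠ 0 := fun h => hu (bc.injective (by rw [h, map_zero]))
        rw [h35_mem_iff_ord_nonneg P h0, hgen u hu]
    · exact zero_mem _
    · intro x y _ _ h1 h2; exact add_mem h1 h2
    · intro a x _ h
      rw [Algebra.smul_def]
      exact mul_mem (P.algebraMap_mem' a) h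
  set c : K := h81_valS R P hRO hres (h81_bcS bc R P hR t₁) with hc
  set π : F := ((h81_piS bc R P hR hRO hres t₁ : h81_S R P) : F) with hπ
  have hπeq : π = bc t₁ - algebraMap K F c := rfl
  have hπ0 : π ≠ 0 := by
    intro h
    rw [hπeq, sub_eq_zero] at h
    apply hT
    rw [h]
    exact isAlgebraic_algebraMap c
  have hπpos : 0 < P.ord π := by
    have h1 : h81_valS R P hRO hres (h81_piS bc R P hR hRO hres t₁) = 0 := by
      unfold h81_piS
      rw [map_sub, AlgHom.commutes]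
      exact sub_self _
    exact (h81_valS_eq_zero_iff R P hRO hres (h81_piS bc R P hR hRO hres t₁) hπ0).1 h1
  have hM := h81_exists_pow ι bc hbc R P hR hspan hRO hres t₁ hπ0 hπpos
  -- orders of elements of `R`
  have hMord : ∀ x : F, x ∈ R → x ≠ 0 →
      ∃ (m : ℕ) (A B : F), A ∈ R ∧ B ∈ R ∧ A ≠ 0 ∧ P.ord A = 0 ∧ B ≠ 0 ∧ P.ord B = 0 ∧
        x * B = π ^ m * A ∧ P.ord x = m * P.ord π := by
    intro x hx hx0
    have h1 := h35_ord_nonneg_of_mem P (hRO x hx)
    obtain ⟨m, A, B, hA, hB, hA0, hAo, hB0, hBo, h⟩ :=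
      hM (P.ord x).toNat x hx hx0 (by omega)
    refine ⟨m, A, B, hA, hB, hA0, hAo, hB0, hBo, h, ?_⟩
    have h2 : P.ord (x * B) = P.ord (π ^ m * A) := by rw [h]
    rw [P.ord_mul hx0 hB0, P.ord_mul (pow_ne_zero m hπ0) hA0, hBo, hAo, add_zero, add_zero,
      ← zpow_natCast, P.ord_zpow] at h2
    exact h2
  -- the decomposition of an arbitrary nonzero `f`
  have hdec : ∀ f : F, f ≠ 0 → ∃ (d : ℤ) (A B : F), A ∈ R ∧ B ∈ R ∧ A ≠ 0 ∧ P.ord A = 0 ∧
      B ≠ 0 ∧ P.ord B = 0 ∧ f = π ^ d * A / B ∧ P.ord f = d * P.ord π := by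
    intro f hf
    obtain ⟨X, Y, hX, hY, hY0, hXY⟩ := hdiv f
    have hX0 : X ≠ 0 := by
      rintro rfl
      rw [zero_div] at hXY
      exact hf hXY
    obtain ⟨n, A, B, hA, hB, hA0, hAo, hB0, hBo, h1, h1o⟩ := hMord X hX hX0
    obtain ⟨m, A', B', hA', hB', hA0', hAo', hB0', hBo', h2, h2o⟩ := hMord Y hY hY0
    refine ⟨(n : ℤ) - m, A * B', B * A', R.mul_mem hA hB', R.mul_mem hB hA',
      mul_ne_zero hA0 hB0', ?_, mul_ne_zero hB0 hA0', ?_, ?_, ?_⟩
    · rw [P.ord_mul hA0 hB0', hAo, hBo', add_zero]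
    · rw [P.ord_mul hB0 hA0', hBo, hAo', add_zero]
    · have hX' : X = π ^ n * A / B := eq_div_of_mul_eq hB0 h1
      have hY' : Y = π ^ m * A' / B' := eq_div_of_mul_eq hB0' h2
      have hπn : π ^ n ≠ 0 := pow_ne_zero n hπ0
      have hπm : π ^ m ≠ 0 := pow_ne_zero m hπ0
      rw [hXY, hX', hY', zpow_sub₀ hπ0, zpow_natCast, zpow_natCast]
      field_simp
    · rw [hXY, h35_ord_div P hX0 hY0, h1o, h2o]
      ring
  -- `π` is a uniformizer
  have hπ1 : P.ord π = 1 := by
    obtain ⟨ϖ, hϖ⟩ := IsDiscreteValuationRing.exists_irreducible P.toValuationSubring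
    have hϖ1 : P.ord (ϖ : F) = 1 := P.ord_coe_irreducible hϖ
    have hϖ0 : (ϖ : F) ≠ 0 := by
      intro h
      rw [h, P.ord_zero] at hϖ1
      exact zero_ne_one hϖ1
    obtain ⟨d, A, B, -, -, -, -, -, -, -, hd⟩ := hdec (ϖ : F) hϖ0
    rw [hϖ1] at hd
    exact Int.eq_one_of_dvd_one hπpos.le ⟨d, by rw [hd]; ring⟩
  refine ⟨c, ?_, ?_, ?_⟩
  · rintro ⟨c₀, hc₀⟩
    have h1 : π = bc (t₁ - algebraMap k Fk c₀) := by
      rw [hπeq, map_sub, hbc, hc₀]
    have h2 : t₁ - algebraMap k Fk c₀ ≠ 0 := by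
      intro h
      rw [sub_eq_zero] at h
      apply ht₁
      rw [h]
      exact isAlgebraic_algebraMap c₀
    have h3 := hgen _ h2
    rw [← h1] at h3
    omega
  · rw [← hπeq]
    exact hπ1
  · intro f hf
    obtain ⟨d, A, B, hA, hB, hA0, hAo, hB0, hBo, h, hd⟩ := hdec f hf
    refine ⟨A, B, hA, hB, hA0, hAo, hB0, hBo, ?_⟩
    rw [hπ1, mul_one] at hd
    rw [← hπeq, hd]
    exact h

end Core

/-! ### The Laurent-series function fields -/

section Concrete

open ModularCurve HahnSeries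

variable {k K : Type*} [Field k] [Algebra ℚ k] [Field K] [Algebra ℚ K] (ι : k →+* K)
variable (F₀ : IntermediateField ℚ (LaurentSeries ℚ))

/-- The `K`-span of `bc F_k`, as a `K`-subalgebra of `F_K`. -/
def h81_spanAlg : Subalgebra K (laurentBaseChange K F₀) where
  carrier := h22_span ι F₀
  mul_mem' := h22_span_mul ι F₀
  add_mem' := add_mem
  algebraMap_mem' := h22_algebraMap_mem_span ι F₀

theorem h81_mem_spanAlg (x : laurentBaseChange K F₀) :
    x ∈ h81_spanAlg ι F₀ ↔ x ∈ h22_span ι F₀ := Iff.rfl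

variable [IsAlgClosed k] [CharZero k] [IsAlgClosed K] [CharZero K]
variable (t₁ : laurentBaseChange k F₀) (ht₁ : Transcendental k t₁)
  [FiniteDimensional k⟮t₁⟯ (laurentBaseChange k F₀)]
  (ht : Transcendental K (h22_bc ι F₀ t₁))
  [FiniteDimensional K⟮h22_bc ι F₀ t₁⟯ (laurentBaseChange K F₀)]

include ht₁ ht in
/-- Row DESC-D, with the quotient representation (row DESC-B) as a hypothesis. -/
theorem h81_generic_of_div
    (hdiv : ∀ f : laurentBaseChange K F₀, ∃ A B : laurentBaseChange K F₀,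
      A ∈ h22_span ι F₀ ∧ B ∈ h22_span ι F₀ ∧ B ≠ 0 ∧ f = A / B)
    (P : Place K (laurentBaseChange K F₀)) (hP : h22_IsGeneric ι F₀ P) :
    ∃ c : K, c ∉ Set.range ι ∧
      P.ord (h22_bc ι F₀ t₁ - algebraMap K (laurentBaseChange K F₀) c) = 1 ∧
      ∀ f : laurentBaseChange K F₀, f ≠ 0 → ∃ A B : laurentBaseChange K F₀,
        A ∈ h22_spanAt ι F₀ P ∧ B ∈ h22_spanAt ι F₀ P ∧ A ≠ 0 ∧ P.ord A = 0 ∧ B ≠ 0 ∧
          P.ord B = 0 ∧
          f = (h22_bc ι F₀ t₁ - algebraMap K (laurentBaseChange K F₀) c) ^ (P.ord f) * A / B := by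
  haveI : Algebra.IsSeparable k⟮t₁⟯ (laurentBaseChange k F₀) := inferInstance
  obtain ⟨c, hc, hord, hf⟩ := h81_generic_core ι (h22_bc ι F₀) (h22_bc_algebraMap ι F₀)
    (h81_spanAlg ι F₀) P (h22_bc_mem_span ι F₀) (fun x hx => hx)
    (h35_residue_surjective ht P) hP hdiv t₁ ht₁ ht
  refine ⟨c, hc, hord, fun f hf0 => ?_⟩
  obtain ⟨A, B, hA, hB, hA0, hAo, hB0, hBo, h⟩ := hf f hf0
  exact ⟨A, B, h22_span_le_spanAt_of_generic ι F₀ P hP hA,
    h22_span_le_spanAt_of_generic ι F₀ P hP hB, hA0, hAo, hB0, hBo, h⟩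

end Concrete

end Fermat.Agent.GAL
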