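/-
GAL / DESCENT block, sub-row DESC-D GEN (helper81): structure of the generic places of `F_K`.

For a generic place `P` of `F_K / K` (every nonzero element of `bc F_k` is a unit at `P`), the
value `c` of `bc t₁` at `P` is not in `ι k`, `bc t₁ - c` is a uniformizer at `P`, and every nonzero
`f ∈ F_K` is `(bc t₁ - c) ^ ord_P f * A / B` with `A, B` in the `K`-span of `bc F_k`, units at `P`.
The proof is in `h81_DescDCore.lean` (abstract form `h81_generic_core`).
-/
import Mathlib
import Fermat.Agent.GAL.h22_DescDefs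
import Fermat.Agent.GAL.h22_DescB
import Fermat.Agent.S24.h35_Places
import Fermat.Agent.GAL.h81_DescDCore

set_option autoImplicit false

noncomputable section

namespace Fermat.Agent.GAL

open ModularCurve AlgebraicCurve HahnSeries IntermediateField
open Fermat.Agent.S24

variable {k K : Type*} [Field k] [Algebra ℚ k] [Field K] [Algebra ℚ K] (ι : k →+* K)
variable (F₀ : IntermediateField ℚ (LaurentSeries ℚ))
variable [IsAlgClosed k] [CharZero k] [IsAlgClosed K] [CharZero K]
variable (t₁ : laurentBaseChange k F₀) (ht₁ : Transcendental k t₁)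
  [FiniteDimensional k⟮t₁⟯ (laurentBaseChange k F₀)]
  (ht : Transcendental K (h22_bc ι F₀ t₁))
  [FiniteDimensional K⟮h22_bc ι F₀ t₁⟯ (laurentBaseChange K F₀)]

include ht₁ ht in
/-- **Generic places** (row DESC-D). -/
theorem h22_generic (P : Place K (laurentBaseChange K F₀)) (hP : h22_IsGeneric ι F₀ P) :
    ∃ c : K, c ∉ Set.range ι ∧
      P.ord (h22_bc ι F₀ t₁ - algebraMap K (laurentBaseChange K F₀) c) = 1 ∧
      ∀ f : laurentBaseChange K F₀, f ≠ 0 → ∃ A B : laurentBaseChange K F₀,
        A ∈ h22_spanAt ι F₀ P ∧ B ∈ h22_spanAt ι F₀ P ∧ A ≠ 0 ∧ P.ord A = 0 ∧ B ≠ 0 ∧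
          P.ord B = 0 ∧
          f = (h22_bc ι F₀ t₁ - algebraMap K (laurentBaseChange K F₀) c) ^ (P.ord f) * A / B :=
  h81_generic_of_div ι F₀ t₁ ht₁ ht (h22_exists_span_div ι F₀) P hP

end Fermat.Agent.GAL
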