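/-
GAL / DESCENT block (helper22), D1a: a derivation `δ : Derivation ℚ K K` acts coefficientwise on
Laurent series over `K`, preserves the function field `F_K = laurentBaseChange K F₀`, satisfies the
Leibniz rule and kills the image of `F_k` when `δ` kills `ι k`.
-/
import Mathlib
import Fermat.Agent.GAL.h22_DescDefs

set_option autoImplicit false

noncomputable section

namespace Fermat.Agent.GAL

open ModularCurve AlgebraicCurve HahnSeries

section D1a

variable {K : Type*} [Field K] [Algebra ℚ K]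

/-- coefficientwise derivation on Laurent series -/
def h22_dser (δ : Derivation ℚ K K) : LaurentSeries K →+ LaurentSeries K where
  toFun x := x.map (δ : K →+ K)
  map_zero' := by
    ext n
    simp
  map_add' x y := by
    ext n
    simp

@[simp]
theorem h22_dser_coeff (δ : Derivation ℚ K K) (x : LaurentSeries K) (n : ℤ) :
    (h22_dser δ x).coeff n = δ (x.coeff n) := rfl

theorem h22_dser_support (δ : Derivation ℚ K K) (x : LaurentSeries K) :
    (h22_dser δ x).support ⊆ x.support := by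
  intro n hn
  rw [HahnSeries.mem_support] at hn ⊢
  intro h
  apply hn
  rw [h22_dser_coeff, h, map_zero]

theorem h22_dser_mul (δ : Derivation ℚ K K) (x y : LaurentSeries K) :
    h22_dser δ (x * y) = h22_dser δ x * y + x * h22_dser δ y := by
  ext n
  rw [h22_dser_coeff, HahnSeries.coeff_add, HahnSeries.coeff_mul,
    HahnSeries.coeff_mul_left' x.isPWO_support (h22_dser_support δ x),
    HahnSeries.coeff_mul_right' y.isPWO_support (h22_dser_support δ y), map_sum,
    ← Finset.sum_add_distrib]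
  refine Finset.sum_congr rfl fun ij _ => ?_
  rw [Derivation.leibniz, h22_dser_coeff, h22_dser_coeff, smul_eq_mul, smul_eq_mul]
  ring

theorem h22_dser_single (δ : Derivation ℚ K K) (n : ℤ) (a : K) :
    h22_dser δ (HahnSeries.single n a) = HahnSeries.single n (δ a) := by
  ext m
  rcases eq_or_ne m n with rfl | hm
  · simp [HahnSeries.coeff_single_same]
  · simp [HahnSeries.coeff_single_of_ne hm]

theorem h22_dser_algebraMap (δ : Derivation ℚ K K) (a : K) :
    h22_dser δ (algebraMap K (LaurentSeries K) a) = algebraMap K (LaurentSeries K) (δ a) := by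
  rw [algebraMap_laurentSeries_eq_single, algebraMap_laurentSeries_eq_single, h22_dser_single]

theorem h22_dser_one (δ : Derivation ℚ K K) : h22_dser δ (1 : LaurentSeries K) = 0 := by
  have h := h22_dser_algebraMap δ (1 : K)
  rwa [map_one, Derivation.map_one_eq_zero, map_zero] at h

theorem h22_dser_coeffEmb (δ : Derivation ℚ K K) (x : LaurentSeries ℚ) :
    h22_dser δ (coeffEmb K x) = 0 := by
  ext n
  rw [h22_dser_coeff, coeffEmb_coeff, Derivation.map_algebraMap, HahnSeries.coeff_zero]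

theorem h22_dser_inv (δ : Derivation ℚ K K) (x : LaurentSeries K) :
    h22_dser δ x⁻¹ = -(h22_dser δ x * x⁻¹ * x⁻¹) := by
  rcases eq_or_ne x 0 with rfl | hx
  · simp
  · have h1 : h22_dser δ (x * x⁻¹) = 0 := by
      rw [mul_inv_cancel₀ hx, h22_dser_one]
    rw [h22_dser_mul] at h1
    have h2 : x * h22_dser δ x⁻¹ = -(h22_dser δ x * x⁻¹) := eq_neg_of_add_eq_zero_right h1
    have h3 : h22_dser δ x⁻¹ = x⁻¹ * (x * h22_dser δ x⁻¹) := by
      rw [← mul_assoc, inv_mul_cancel₀ hx, one_mul]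
    rw [h3, h2]
    ring

theorem h22_dser_mem (δ : Derivation ℚ K K) (F₀ : IntermediateField ℚ (LaurentSeries ℚ))
    {x : LaurentSeries K} (hx : x ∈ laurentBaseChange K F₀) :
    h22_dser δ x ∈ laurentBaseChange K F₀ := by
  have key : ∀ y : LaurentSeries K, y ∈ laurentBaseChange K F₀ →
      y ∈ laurentBaseChange K F₀ ∧ h22_dser δ y ∈ laurentBaseChange K F₀ := by
    intro y hy
    rw [mem_laurentBaseChange_iff] at hy
    induction hy using Subfield.closure_induction with
    | mem y hy =>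
        rcases hy with ⟨a, rfl⟩ | ⟨z, hz, rfl⟩
        · refine ⟨(laurentBaseChange K F₀).algebraMap_mem _, ?_⟩
          rw [h22_dser_algebraMap]
          exact (laurentBaseChange K F₀).algebraMap_mem _
        · refine ⟨coeffEmb_mem_laurentBaseChange K hz, ?_⟩
          rw [h22_dser_coeffEmb]
          exact zero_mem _
    | one => exact ⟨one_mem _, by rw [h22_dser_one]; exact zero_mem _⟩
    | add x y _ _ hx hy => exact ⟨add_mem hx.1 hy.1, by rw [map_add]; exact add_mem hx.2 hy.2⟩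
    | neg x _ hx => exact ⟨neg_mem hx.1, by rw [map_neg]; exact neg_mem hx.2⟩
    | inv x _ hx =>
        refine ⟨inv_mem hx.1, ?_⟩
        rw [h22_dser_inv]
        exact neg_mem (mul_mem (mul_mem hx.2 (inv_mem hx.1)) (inv_mem hx.1))
    | mul x y _ _ hx hy =>
        refine ⟨mul_mem hx.1 hy.1, ?_⟩
        rw [h22_dser_mul]
        exact add_mem (mul_mem hx.2 hy.1) (mul_mem hx.1 hy.2)
  exact (key x hx).2

/-- the induced additive map on `F_K` -/
def h22_dF (δ : Derivation ℚ K K) (F₀ : IntermediateField ℚ (LaurentSeries ℚ)) :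
    laurentBaseChange K F₀ →+ laurentBaseChange K F₀ where
  toFun x := ⟨h22_dser δ (x : LaurentSeries K), h22_dser_mem δ F₀ x.2⟩
  map_zero' := Subtype.ext (map_zero (h22_dser δ))
  map_add' x y := Subtype.ext (map_add (h22_dser δ) _ _)

@[simp]
theorem h22_coe_dF (δ : Derivation ℚ K K) (F₀ : IntermediateField ℚ (LaurentSeries ℚ))
    (x : laurentBaseChange K F₀) :
    (h22_dF δ F₀ x : LaurentSeries K) = h22_dser δ (x : LaurentSeries K) := rfl

theorem h22_dF_mul (δ : Derivation ℚ K K) (F₀ : IntermediateField ℚ (LaurentSeries ℚ))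
    (x y : laurentBaseChange K F₀) :
    h22_dF δ F₀ (x * y) = h22_dF δ F₀ x * y + x * h22_dF δ F₀ y :=
  Subtype.ext (h22_dser_mul δ _ _)

theorem h22_dF_algebraMap (δ : Derivation ℚ K K) (F₀ : IntermediateField ℚ (LaurentSeries ℚ))
    (a : K) :
    h22_dF δ F₀ (algebraMap K (laurentBaseChange K F₀) a)
      = algebraMap K (laurentBaseChange K F₀) (δ a) :=
  Subtype.ext (h22_dser_algebraMap δ a)

theorem h22_dF_one (δ : Derivation ℚ K K) (F₀ : IntermediateField ℚ (LaurentSeries ℚ)) :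
    h22_dF δ F₀ 1 = 0 :=
  Subtype.ext (h22_dser_one δ)

theorem h22_dF_smul (δ : Derivation ℚ K K) (F₀ : IntermediateField ℚ (LaurentSeries ℚ))
    (a : K) (x : laurentBaseChange K F₀) :
    h22_dF δ F₀ (a • x) = δ a • x + a • h22_dF δ F₀ x := by
  rw [Algebra.smul_def, h22_dF_mul, h22_dF_algebraMap, Algebra.smul_def, Algebra.smul_def]

theorem h22_dF_inv (δ : Derivation ℚ K K) (F₀ : IntermediateField ℚ (LaurentSeries ℚ))
    (x : laurentBaseChange K F₀) :
    h22_dF δ F₀ x⁻¹ = -(h22_dF δ F₀ x * x⁻¹ * x⁻¹) :=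
  Subtype.ext (by
    show h22_dser δ ((x : LaurentSeries K)⁻¹) = _
    rw [h22_dser_inv]
    rfl)

theorem h22_dF_div (δ : Derivation ℚ K K) (F₀ : IntermediateField ℚ (LaurentSeries ℚ))
    (x y : laurentBaseChange K F₀) (hy : y ≠ 0) :
    h22_dF δ F₀ (x / y) = (h22_dF δ F₀ x * y - x * h22_dF δ F₀ y) / (y * y) := by
  rw [div_eq_mul_inv, h22_dF_mul, h22_dF_inv]
  field_simp
  ring

theorem h22_dF_pow (δ : Derivation ℚ K K) (F₀ : IntermediateField ℚ (LaurentSeries ℚ))
    (x : laurentBaseChange K F₀) (n : ℕ) :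
    h22_dF δ F₀ (x ^ n) = (n : laurentBaseChange K F₀) * x ^ (n - 1) * h22_dF δ F₀ x := by
  induction n with
  | zero => simp [h22_dF_one]
  | succ n ih =>
    rw [pow_succ, h22_dF_mul, ih]
    rcases Nat.eq_zero_or_pos n with rfl | hn
    · simp
    · have : x ^ n = x ^ (n - 1) * x := by
        rw [← pow_succ, Nat.sub_add_cancel hn]
      simp only [Nat.add_sub_cancel, Nat.cast_add, Nat.cast_one]
      rw [this]
      ring

/-- logarithmic derivative of a product -/
theorem h22_dlog_mul (δ : Derivation ℚ K K) (F₀ : IntermediateField ℚ (LaurentSeries ℚ))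
    (x y : laurentBaseChange K F₀) (hx : x ≠ 0) (hy : y ≠ 0) :
    h22_dF δ F₀ (x * y) / (x * y) = h22_dF δ F₀ x / x + h22_dF δ F₀ y / y := by
  rw [h22_dF_mul]
  field_simp

theorem h22_dlog_inv (δ : Derivation ℚ K K) (F₀ : IntermediateField ℚ (LaurentSeries ℚ))
    (x : laurentBaseChange K F₀) (hx : x ≠ 0) :
    h22_dF δ F₀ x⁻¹ / x⁻¹ = -(h22_dF δ F₀ x / x) := by
  rw [h22_dF_inv]
  field_simp

theorem h22_dlog_div (δ : Derivation ℚ K K) (F₀ : IntermediateField ℚ (LaurentSeries ℚ))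
    (x y : laurentBaseChange K F₀) (hx : x ≠ 0) (hy : y ≠ 0) :
    h22_dF δ F₀ (x / y) / (x / y) = h22_dF δ F₀ x / x - h22_dF δ F₀ y / y := by
  have h : x / y = x * y⁻¹ := div_eq_mul_inv x y
  rw [h, h22_dlog_mul δ F₀ x y⁻¹ hx (inv_ne_zero hy), h22_dlog_inv δ F₀ y hy,
    sub_eq_add_neg]

theorem h22_dlog_pow (δ : Derivation ℚ K K) (F₀ : IntermediateField ℚ (LaurentSeries ℚ))
    (x : laurentBaseChange K F₀) (hx : x ≠ 0) (n : ℕ) :
    h22_dF δ F₀ (x ^ n) / x ^ n = (n : ℤ) • (h22_dF δ F₀ x / x) := by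
  induction n with
  | zero => simp [h22_dF_one]
  | succ n ih =>
    rw [pow_succ, h22_dlog_mul δ F₀ _ _ (pow_ne_zero n hx) hx, ih]
    push_cast
    rw [add_smul, one_smul]

theorem h22_dlog_zpow (δ : Derivation ℚ K K) (F₀ : IntermediateField ℚ (LaurentSeries ℚ))
    (x : laurentBaseChange K F₀) (hx : x ≠ 0) (n : ℤ) :
    h22_dF δ F₀ (x ^ n) / x ^ n = n • (h22_dF δ F₀ x / x) := by
  obtain ⟨m, rfl | rfl⟩ := n.eq_nat_or_neg
  · rw [zpow_natCast, h22_dlog_pow δ F₀ x hx]
  · rw [zpow_neg, zpow_natCast, h22_dlog_inv δ F₀ _ (pow_ne_zero m hx), h22_dlog_pow δ F₀ x hx,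
      neg_smul]

theorem h22_dF_bc {k : Type*} [Field k] [Algebra ℚ k] (ι : k →+* K) (δ : Derivation ℚ K K)
    (hδ : ∀ a : k, δ (ι a) = 0) (F₀ : IntermediateField ℚ (LaurentSeries ℚ))
    (u : laurentBaseChange k F₀) : h22_dF δ F₀ (h22_bc ι F₀ u) = 0 := by
  apply Subtype.ext
  ext n
  show δ (ι ((u : LaurentSeries k).coeff n)) = 0
  exact hδ _

/-- `δ~` maps the `K`-span of `bc F_k` regular at `P` into itself. -/
theorem h22_dF_mem_spanAt {k : Type*} [Field k] [Algebra ℚ k] (ι : k →+* K)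
    (δ : Derivation ℚ K K) (hδ : ∀ a : k, δ (ι a) = 0)
    (F₀ : IntermediateField ℚ (LaurentSeries ℚ)) (P : Place K (laurentBaseChange K F₀))
    {x : laurentBaseChange K F₀} (hx : x ∈ h22_spanAt ι F₀ P) :
    h22_dF δ F₀ x ∈ h22_spanAt ι F₀ P := by
  refine Submodule.span_induction (p := fun x _ => h22_dF δ F₀ x ∈ h22_spanAt ι F₀ P)
    ?_ ?_ ?_ ?_ hx
  · rintro _ ⟨-, u, rfl⟩
    rw [h22_dF_bc ι δ hδ]
    exact zero_mem _
  · rw [map_zero]; exact zero_mem _
  · intro x y _ _ h1 h2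
    rw [map_add]; exact add_mem h1 h2
  · intro a x hx' h
    rw [h22_dF_smul]
    exact add_mem (Submodule.smul_mem _ _ hx') (Submodule.smul_mem _ _ h)

end D1a

end Fermat.Agent.GAL

end
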