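/-
GAL / DESCENT block (helper22): the two descent inputs of the THETA assembly
(`gal_DescHyp`, `gal_DescInjHyp` of `AnThetaR.lean`), unconditionally, for every `n ≥ 1` and
every embedding `ι : ℚ̄ →+* ℂ`.
-/
import Mathlib
import Fermat.Agent.GAL.h22_DescQbar
import Fermat.Agent.GAL.h55_Deg
import Fermat.Agent.GAL.AnThetaR

set_option autoImplicit false

noncomputable section

namespace Fermat.Agent.GAL

open ModularCurve AlgebraicCurve HahnSeries IntermediateField
open Fermat.Agent.S24

/-- (DESC), as consumed by the THETA assembly. -/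
theorem h22_descHyp (N : ℕ) [NeZero N] (n : ℕ) (hn : 0 < n)
    (ι : AlgebraicClosure ℚ →+* ℂ) : gal_DescHyp N n ι := by
  haveI : FiniteDimensional ℂ⟮h78_j ℂ N⟯ (laurentBaseChange ℂ (modularFunctionFieldFull N)) :=
    h55_finiteDimensional_C N
  intro f hf hdiv
  exact h22_desc_qbar ι N n hn f hf hdiv

/-- (DESC-INJ), as consumed by the THETA assembly. -/
theorem h22_descInjHyp (N : ℕ) [NeZero N] (n : ℕ) (hn : 0 < n)
    (ι : AlgebraicClosure ℚ →+* ℂ) : gal_DescInjHyp N n ι := by
  haveI : FiniteDimensional ℂ⟮h78_j ℂ N⟯ (laurentBaseChange ℂ (modularFunctionFieldFull N)) :=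
    h55_finiteDimensional_C N
  intro f₀ hf₀ c g h
  exact h22_desc_inj_qbar ι N n hn f₀ hf₀ c g h

end Fermat.Agent.GAL

end
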