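/-
GAL / DESCENT block (helper22): the Riemann–Roch-free counting step, for an abstract function
field `F / K` (`K` algebraically closed, `F` finite over `K(t)`).

For `f ≠ 0` whose divisor is divisible by `p` there are `g ≠ 0` and an effective `R` supported on
the poles of `t` such that `E := div f / p + R + div g ≥ 0` and `L(E) = K`.
-/
import Mathlib
import Fermat.Agent.S24.h35_Places
import Fermat.Agent.S18.h53_CoreBasic

set_option autoImplicit false

noncomputable section

namespace Fermat.Agent.GAL

open AlgebraicCurve IntermediateField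
open Fermat.Agent.S24 Fermat.Agent.S18

section RR

variable {K F : Type*} [Field K] [Field F] [Algebra K F]

omit [Field K] [Algebra K F] in
theorem h22_ordGE_prod {K : Type*} [Field K] [Algebra K F] {ι : Type*} (P : Place K F)
    (s : Finset ι) (f : ι → F) (n : ι → ℤ)
    (h : ∀ i ∈ s, h53_OrdGE P (f i) (n i)) : h53_OrdGE P (∏ i ∈ s, f i) (∑ i ∈ s, n i) := by
  classical
  induction s using Finset.induction_on with
  | empty => simpa using (h53_OrdGE.one : h53_OrdGE P (1 : F) 0)
  | insert a s ha ih =>
    rw [Finset.prod_insert ha, Finset.sum_insert ha]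
    exact (h a (Finset.mem_insert_self a s)).mul
      (ih fun i hi => h i (Finset.mem_insert_of_mem hi))

variable [IsAlgClosed K] [CharZero K]

/-- A function without poles is constant. -/
theorem h22_const_of_regular {t : F} (ht : Transcendental K t) [FiniteDimensional K⟮t⟯ F]
    (x : F) (hx : ∀ P : Place K F, x ∈ P.toValuationSubring) :
    ∃ a : K, x = algebraMap K F a := by
  by_cases hxa : IsAlgebraic K x
  · obtain ⟨a, ha⟩ := h35_exists_algebraMap_eq_of_isAlgebraic x hxa
    exact ⟨a, ha.symm⟩
  · exfalso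
    haveI : FiniteDimensional K⟮x⟯ F := h35_finiteDimensional_of_transcendental ht hxa
    obtain ⟨hfin, hsum⟩ := h35_poles_sum x hxa
    have hempty : hfin.toFinset = ∅ := by
      ext v
      simp only [Set.Finite.mem_toFinset, Set.mem_ofPred_eq, Finset.notMem_empty, iff_false,
        not_lt]
      exact h35_ord_nonneg_of_mem v (hx v)
    rw [hempty, Finset.sum_empty] at hsum
    have hpos : 0 < Module.finrank K⟮x⟯ F := Module.finrank_pos
    omega

/-- The value of a regular function at a place. -/
theorem h22_value {t : F} (ht : Transcendental K t) [FiniteDimensional K⟮t⟯ F]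
    (P : Place K F) (x : F) (hx : x ∈ P.toValuationSubring) :
    ∃ a : K, h53_OrdGE P (x - algebraMap K F a) 1 := by
  obtain ⟨a, ha⟩ := h35_exists_value ht P hx
  refine ⟨a, ?_⟩
  rcases ha with ha | ha
  · exact Or.inl (by rw [ha, sub_self])
  · exact Or.inr (by omega)

/-- One point condition costs at most one dimension. -/
theorem h22_drop {t : F} (ht : Transcendental K t) [FiniteDimensional K⟮t⟯ F]
    (P₀ : Place K F) (m : ℤ) (x y : F) (hx0 : x ≠ 0) (hxy : ∀ a : K, y ≠ a • x)
    (hx : h53_OrdGE P₀ x m) (hy : h53_OrdGE P₀ y m) :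
    ∃ a b : K, a • x + b • y ≠ 0 ∧ h53_OrdGE P₀ (a • x + b • y) (m + 1) := by
  obtain ⟨π, hπ⟩ := IsDiscreteValuationRing.exists_irreducible P₀.toValuationSubring
  have hπ1 : P₀.ord (π : F) = 1 := P₀.ord_coe_irreducible hπ
  have hπ0 : (π : F) ≠ 0 := by
    intro h
    rw [h, P₀.ord_zero] at hπ1
    exact zero_ne_one hπ1
  set w : F := (π : F) ^ (-m) with hw
  have hw0 : w ≠ 0 := zpow_ne_zero _ hπ0
  have hwo : P₀.ord w = -m := by rw [hw, P₀.ord_zpow, hπ1, mul_one]
  have hwG : h53_OrdGE P₀ w (-m) := Or.inr hwo.ge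
  have hwiG : h53_OrdGE P₀ w⁻¹ m := Or.inr (by rw [P₀.ord_inv, hwo, neg_neg])
  have hxw : x * w ∈ P₀.toValuationSubring := by
    rw [← h53_OrdGE.mem_iff]
    have := hx.mul hwG
    rwa [add_neg_cancel] at this
  have hyw : y * w ∈ P₀.toValuationSubring := by
    rw [← h53_OrdGE.mem_iff]
    have := hy.mul hwG
    rwa [add_neg_cancel] at this
  obtain ⟨a, ha⟩ := h22_value ht P₀ _ hxw
  obtain ⟨b, hb⟩ := h22_value ht P₀ _ hyw
  by_cases ha0 : a = 0
  · refine ⟨1, 0, ?_, ?_⟩
    · simpa using hx0
    · rw [one_smul, zero_smul, add_zero]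
      rw [ha0, map_zero, sub_zero] at ha
      have := ha.mul hwiG
      rwa [mul_assoc, mul_inv_cancel₀ hw0, mul_one, add_comm (1 : ℤ) m] at this
  · refine ⟨-(b / a), 1, ?_, ?_⟩
    · rw [one_smul]
      intro h
      apply hxy (b / a)
      have : y = -(-(b / a) • x) := eq_neg_of_add_eq_zero_right h
      rw [this, neg_smul, neg_neg]
    · have h1 : (-(b / a) • x + (1 : K) • y) * w
          = (y * w - algebraMap K F b) - algebraMap K F (b / a) * (x * w - algebraMap K F a) := by
        rw [one_smul, Algebra.smul_def, map_neg]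
        have : algebraMap K F (b / a) * algebraMap K F a = algebraMap K F b := by
          rw [← map_mul, div_mul_cancel₀ b ha0]
        linear_combination (-1 : F) * this
      have h2 : h53_OrdGE P₀ ((-(b / a) • x + (1 : K) • y) * w) 1 := by
        rw [h1]
        refine hb.sub ?_
        have := (h53_OrdGE.const (P := P₀) (b / a)).mul ha
        rwa [zero_add] at this
      have := h2.mul hwiG
      rwa [mul_assoc, mul_inv_cancel₀ hw0, mul_one, add_comm (1 : ℤ) m] at this

/-- An explicit nonzero section after adding enough poles of `t`. -/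
theorem h22_exists_section {t : F} (ht : Transcendental K t) [FiniteDimensional K⟮t⟯ F]
    (D : Place K F → ℤ) (hD : {P | D P ≠ 0}.Finite) :
    ∃ (g : F) (R : Place K F → ℕ), g ≠ 0 ∧ (∀ P, R P ≠ 0 → P.ord t < 0) ∧
      ∀ P, h53_OrdGE P g (-(D P + R P)) := by
  classical
  have ht0 : t ≠ 0 := by
    rintro rfl
    exact ht isAlgebraic_zero
  have hval : ∀ P : Place K F, ∃ a : K, ¬ P.ord t < 0 →
      h53_OrdGE P (t - algebraMap K F a) 1 := by
    intro P
    by_cases h : P.ord t < 0
    · exact ⟨0, fun h' => absurd h h'⟩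
    · obtain ⟨a, ha⟩ := h22_value ht P t
        ((h35_mem_iff_ord_nonneg P ht0).2 (not_lt.1 h))
      exact ⟨a, fun _ => ha⟩
  choose a ha using hval
  have hta : ∀ c : K, t - algebraMap K F c ≠ 0 := by
    intro c h
    apply ht
    rw [sub_eq_zero.1 h]
    exact isAlgebraic_algebraMap c
  set S : Finset (Place K F) := hD.toFinset.filter (fun P => ¬ P.ord t < 0) with hS
  set e : Place K F → ℕ := fun P => (-D P).toNat with he
  set g : F := ∏ P ∈ S, (t - algebraMap K F (a P)) ^ e P with hg
  set N₁ : ℕ := ∑ P ∈ S, e P with hN₁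
  set R : Place K F → ℕ :=
    fun Q => if Q.ord t < 0 then N₁ * (-Q.ord t).toNat + (D Q).natAbs else 0 with hRdef
  have hRpos : ∀ Q : Place K F, Q.ord t < 0 → R Q = N₁ * (-Q.ord t).toNat + (D Q).natAbs :=
    fun Q h => if_pos h
  have hRneg : ∀ Q : Place K F, ¬ Q.ord t < 0 → R Q = 0 := fun Q h => if_neg h
  refine ⟨g, R, ?_, ?_, ?_⟩
  · exact Finset.prod_ne_zero_iff.2 fun P _ => pow_ne_zero _ (hta _)
  · intro P hP
    by_contra h
    exact hP (hRneg P h)
  · intro P
    by_cases hPt : P.ord t < 0
    · -- at a pole of `t`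
      have h1 : ∀ Q ∈ S, h53_OrdGE P ((t - algebraMap K F (a Q)) ^ e Q) ((e Q : ℤ) * P.ord t) := by
        intro Q _
        refine h53_OrdGE.pow ?_ _
        refine h53_OrdGE.sub (Or.inr le_rfl) ?_
        exact (h53_OrdGE.const (P := P) (a Q)).mono hPt.le
      have h2 := h22_ordGE_prod P S _ _ h1
      refine h2.mono ?_
      rw [hRpos P hPt, ← Finset.sum_mul]
      have h3 : ((∑ i ∈ S, (e i : ℤ))) = (N₁ : ℤ) := by
        rw [hN₁]; push_cast; rfl
      rw [h3]
      have h4 : ((-P.ord t).toNat : ℤ) = -P.ord t := Int.toNat_of_nonneg (by omega)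
      push_cast
      rw [h4]
      linarith [neg_le_abs (D P)]
    · -- at a place where `t` is regular
      rw [hRneg P hPt]
      have hreg : ∀ Q ∈ S, h53_OrdGE P ((t - algebraMap K F (a Q)) ^ e Q) 0 := by
        intro Q _
        have h0 : h53_OrdGE P (t - algebraMap K F (a Q)) 0 :=
          h53_OrdGE.sub (Or.inr (not_lt.1 hPt)) (h53_OrdGE.const (P := P) (a Q))
        have := h0.pow (e Q)
        rwa [mul_zero] at this
      by_cases hDP : 0 ≤ D P
      · have h2 := h22_ordGE_prod P S _ (fun _ => (0 : ℤ)) hreg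
        rw [Finset.sum_const_zero] at h2
        refine h2.mono ?_
        push_cast
        omega
      · have hPS : P ∈ S := by
          rw [hS, Finset.mem_filter, Set.Finite.mem_toFinset]
          refine ⟨?_, hPt⟩
          show D P ≠ 0
          omega
        have h1 : h53_OrdGE P ((t - algebraMap K F (a P)) ^ e P) ((e P : ℤ) * 1) :=
          (ha P hPt).pow _
        have h2 : h53_OrdGE P (∏ Q ∈ S.erase P, (t - algebraMap K F (a Q)) ^ e Q) 0 := by
          have := h22_ordGE_prod P (S.erase P) _ (fun _ => (0 : ℤ))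
            (fun Q hQ => hreg Q (Finset.mem_of_mem_erase hQ))
          rwa [Finset.sum_const_zero] at this
        have h3 := h1.mul h2
        rw [hg, ← Finset.mul_prod_erase S _ hPS]
        refine h3.mono ?_
        have h4 : ((e P : ℕ) : ℤ) = -D P := by
          rw [he]
          exact Int.toNat_of_nonneg (by omega)
        rw [h4]
        push_cast
        omega

/-- **Minimal section.** For `f ≠ 0` with divisor divisible by `p` there are `g ≠ 0` and an
effective `R` supported on the poles of `t` such that `E := div f / p + R + div g` is effective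
and every function with poles bounded by `E` is constant. -/
theorem h22_exists_minimal {t : F} (ht : Transcendental K t) [FiniteDimensional K⟮t⟯ F]
    (f : F) (hf : f ≠ 0) (p : ℕ) (hp : 0 < p) (hdiv : ∀ P : Place K F, (p : ℤ) ∣ P.ord f) :
    ∃ (g : F) (R : Place K F → ℕ), g ≠ 0 ∧ (∀ P, R P ≠ 0 → P.ord t < 0) ∧
      (∀ P, 0 ≤ P.ord f / p + R P + P.ord g) ∧
      ∀ θ : F, (∀ P, h53_OrdGE P θ (-(P.ord f / p + R P + P.ord g))) →
        ∃ a : K, θ = algebraMap K F a := by
  classical
  obtain ⟨hfinf, -⟩ := h35_principal ht f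
  obtain ⟨hfint, -⟩ := h35_poles_sum t ht
  set D : Place K F → ℤ := fun P => P.ord f / p with hD
  have hDfin : {P | D P ≠ 0}.Finite := by
    refine hfinf.subset ?_
    intro P hP
    show P.ord f ≠ 0
    intro h
    apply hP
    show P.ord f / (p : ℤ) = 0
    rw [h, Int.zero_ediv]
  obtain ⟨g₀, R₀, hg₀, hR₀, hg₀L⟩ := h22_exists_section ht D hDfin
  set S : Finset (Place K F) := hfint.toFinset with hS
  have hpz : (p : ℤ) ≠ 0 := by exact_mod_cast hp.ne'
  have hpD : ∀ P : Place K F, (p : ℤ) * D P = P.ord f := fun P => Int.mul_ediv_cancel' (hdiv P)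
  -- the induction
  have main : ∀ (n : ℕ) (R : Place K F → ℕ) (g : F), g ≠ 0 → (∀ P, R P ≠ 0 → P.ord t < 0) →
      (∀ P, h53_OrdGE P g (-(D P + R P))) → ∑ P ∈ S, R P = n →
      ∃ (g : F) (R : Place K F → ℕ), g ≠ 0 ∧ (∀ P, R P ≠ 0 → P.ord t < 0) ∧
        (∀ P, 0 ≤ D P + R P + P.ord g) ∧
        ∀ θ : F, (∀ P, h53_OrdGE P θ (-(D P + R P + P.ord g))) →
          ∃ a : K, θ = algebraMap K F a := by
    intro n
    induction n with
    | zero =>
      intro R g hg hR hgL hsum
      have hE : ∀ P, 0 ≤ D P + R P + P.ord g := by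
        intro P
        have := (h53_OrdGE.of_ne hg).1 (hgL P)
        omega
      have hR0 : ∀ P, R P = 0 := by
        intro P
        by_contra h
        have hPS : P ∈ S := by
          rw [hS, Set.Finite.mem_toFinset]
          exact hR P h
        have := (Finset.sum_eq_zero_iff.1 hsum) P hPS
        exact h this
      -- `f * g ^ p` has no poles, hence is constant, hence `E = 0`
      have hfg0 : f * g ^ p ≠ 0 := mul_ne_zero hf (pow_ne_zero _ hg)
      have hord : ∀ P : Place K F, P.ord (f * g ^ p) = p * (D P + R P + P.ord g) := by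
        intro P
        rw [P.ord_mul hf (pow_ne_zero _ hg), ← zpow_natCast, P.ord_zpow, hR0 P, ← hpD P]
        push_cast
        ring
      obtain ⟨c, hc⟩ := h22_const_of_regular ht (f * g ^ p) (fun P => by
        rw [h35_mem_iff_ord_nonneg P hfg0, hord P]
        exact mul_nonneg (Int.natCast_nonneg p) (hE P))
      have hE0 : ∀ P, D P + R P + P.ord g = 0 := by
        intro P
        have h1 := hord P
        rw [hc, h35_ord_algebraMap] at h1
        rcases mul_eq_zero.1 h1.symm with h | h
        · exact absurd h hpz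
        · exact h
      refine ⟨g, R, hg, hR, hE, fun θ hθ => ?_⟩
      refine h22_const_of_regular ht θ fun P => ?_
      rw [← h53_OrdGE.mem_iff]
      have := hθ P
      rwa [hE0 P, neg_zero] at this
    | succ n ih =>
      intro R g hg hR hgL hsum
      have hE : ∀ P, 0 ≤ D P + R P + P.ord g := by
        intro P
        have := (h53_OrdGE.of_ne hg).1 (hgL P)
        omega
      by_cases hL : ∀ θ : F, (∀ P, h53_OrdGE P θ (-(D P + R P + P.ord g))) →
          ∃ a : K, θ = algebraMap K F a
      · exact ⟨g, R, hg, hR, hE, hL⟩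
      · push Not at hL
        obtain ⟨θ, hθ, hθc⟩ := hL
        -- a pole `P₀` of `t` with `R P₀ > 0`
        obtain ⟨P₀, hP₀S, hP₀⟩ : ∃ P₀ ∈ S, R P₀ ≠ 0 := by
          by_contra h
          push Not at h
          rw [Finset.sum_eq_zero (fun P hP => h P hP)] at hsum
          exact absurd hsum (by omega)
        have hgθL : ∀ P, h53_OrdGE P (g * θ) (-(D P + R P)) := by
          intro P
          have h1 : h53_OrdGE P g (P.ord g) := Or.inr le_rfl
          have := h1.mul (hθ P)
          refine this.mono ?_
          omega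
        have hxy : ∀ a : K, g * θ ≠ a • g := by
          intro a h
          apply hθc a
          rw [Algebra.smul_def, mul_comm] at h
          exact mul_right_cancel₀ hg h
        obtain ⟨a, b, hz0, hzP₀⟩ := h22_drop ht P₀ _ g (g * θ) hg hxy (hgL P₀) (hgθL P₀)
        set R' : Place K F → ℕ := Function.update R P₀ (R P₀ - 1) with hR'
        have hR'P₀ : R' P₀ = R P₀ - 1 := by rw [hR', Function.update_self]
        have hR'ne : ∀ P, P ≠ P₀ → R' P = R P := fun P hP => by
          rw [hR', Function.update_of_ne hP]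
        refine ih R' (a • g + b • (g * θ)) hz0 ?_ ?_ ?_
        · intro P hP
          by_cases hPP : P = P₀
          · rw [hPP]
            exact hR P₀ hP₀
          · rw [hR'ne P hPP] at hP
            exact hR P hP
        · intro P
          by_cases hPP : P = P₀
          · rw [hPP, hR'P₀]
            refine hzP₀.mono ?_
            have : 1 ≤ R P₀ := Nat.one_le_iff_ne_zero.2 hP₀
            push_cast [Nat.cast_sub this]
            omega
          · rw [hR'ne P hPP]
            exact ((hgL P).smul a).add ((hgθL P).smul b)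
        · have h1 : ∑ P ∈ S, R P = R P₀ + ∑ P ∈ S.erase P₀, R P :=
            (Finset.add_sum_erase S R hP₀S).symm
          have h2 : ∑ P ∈ S, R' P = R' P₀ + ∑ P ∈ S.erase P₀, R' P :=
            (Finset.add_sum_erase S R' hP₀S).symm
          have h3 : ∑ P ∈ S.erase P₀, R' P = ∑ P ∈ S.erase P₀, R P :=
            Finset.sum_congr rfl fun P hP => hR'ne P (Finset.ne_of_mem_erase hP)
          rw [h2, h3, hR'P₀]
          have : 1 ≤ R P₀ := Nat.one_le_iff_ne_zero.2 hP₀
          omega
  exact main _ R₀ g₀ hg₀ hR₀ hg₀L rfl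

end RR

end Fermat.Agent.GAL

end
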