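/-
GAL / DESCENT block (helper22): local behaviour of logarithmic derivatives `δ~ f / f` at rational
and generic places, and the descent of functions whose divisor is supported on rational places.
-/
import Mathlib
import Fermat.Agent.GAL.h22_DescDefs
import Fermat.Agent.GAL.h22_DescDer
import Fermat.Agent.GAL.h22_DescB
import Fermat.Agent.GAL.h22_DescC
import Fermat.Agent.GAL.h22_DescD
import Fermat.Agent.GAL.h22_DescRR

set_option autoImplicit false

noncomputable section

namespace Fermat.Agent.GAL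

open ModularCurve AlgebraicCurve HahnSeries IntermediateField
open Fermat.Agent.S24 Fermat.Agent.S18

section Loc

variable {k K : Type*} [Field k] [Algebra ℚ k] [Field K] [Algebra ℚ K] (ι : k →+* K)
variable (F₀ : IntermediateField ℚ (LaurentSeries ℚ))

/-- If `f = π ^ m * A / B` with `A`, `B` units at `P` in `h22_spanAt`, then the logarithmic
derivative of `f` differs from `m • dlog π` by a function regular at `P`. -/
theorem h22_dlog_struct (P : Place K (laurentBaseChange K F₀)) (δ : Derivation ℚ K K)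
    (hδ : ∀ a : k, δ (ι a) = 0) (π A B : laurentBaseChange K F₀) (m : ℤ) (hπ : π ≠ 0)
    (hA : A ∈ h22_spanAt ι F₀ P) (hB : B ∈ h22_spanAt ι F₀ P)
    (hA0 : A ≠ 0) (hAo : P.ord A = 0) (hB0 : B ≠ 0) (hBo : P.ord B = 0) :
    h22_dF δ F₀ (π ^ m * A / B) / (π ^ m * A / B) - m • (h22_dF δ F₀ π / π)
      ∈ P.toValuationSubring := by
  have hπm : π ^ m ≠ 0 := zpow_ne_zero _ hπ
  rw [h22_dlog_div δ F₀ _ _ (mul_ne_zero hπm hA0) hB0, h22_dlog_mul δ F₀ _ _ hπm hA0,
    h22_dlog_zpow δ F₀ π hπ m]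
  have key : ∀ X : laurentBaseChange K F₀, X ∈ h22_spanAt ι F₀ P → X ≠ 0 → P.ord X = 0 →
      h22_dF δ F₀ X / X ∈ P.toValuationSubring := by
    intro X hX hX0 hXo
    have h1 : h22_dF δ F₀ X ∈ P.toValuationSubring :=
      h22_spanAt_mem ι F₀ P (h22_dF_mem_spanAt ι δ hδ F₀ P hX)
    have h2 : X⁻¹ ∈ P.toValuationSubring := by
      rw [h35_mem_iff_ord_nonneg P (inv_ne_zero hX0), P.ord_inv, hXo, neg_zero]
    rw [div_eq_mul_inv]
    exact mul_mem h1 h2
  have e : m • (h22_dF δ F₀ π / π) + h22_dF δ F₀ A / A - h22_dF δ F₀ B / B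
      - m • (h22_dF δ F₀ π / π) = h22_dF δ F₀ A / A - h22_dF δ F₀ B / B := by ring
  rw [e]
  exact sub_mem (key A hA hA0 hAo) (key B hB hB0 hBo)

variable [IsAlgClosed k] [CharZero k] [IsAlgClosed K] [CharZero K]
variable (t₁ : laurentBaseChange k F₀) (ht₁ : Transcendental k t₁)
  [FiniteDimensional k⟮t₁⟯ (laurentBaseChange k F₀)]
  (ht : Transcendental K (h22_bc ι F₀ t₁))
  [FiniteDimensional K⟮h22_bc ι F₀ t₁⟯ (laurentBaseChange K F₀)]

include ht₁ in
/-- (L-R) at a rational place logarithmic derivatives are regular. -/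
theorem h22_dlog_rational (P : Place K (laurentBaseChange K F₀)) (hP : h22_IsRational ι F₀ P)
    (δ : Derivation ℚ K K) (hδ : ∀ a : k, δ (ι a) = 0) (f : laurentBaseChange K F₀)
    (hf : f ≠ 0) : h22_dF δ F₀ f / f ∈ P.toValuationSubring := by
  obtain ⟨t, ht1, hstr⟩ := h22_gauss ι F₀ t₁ ht₁ P hP
  obtain ⟨A, B, hA, hB, hA0, hAo, hB0, hBo, hfe⟩ := hstr f hf
  have hπ : h22_bc ι F₀ t ≠ 0 := by
    intro h
    rw [h, P.ord_zero] at ht1
    exact zero_ne_one ht1
  have h1 := h22_dlog_struct ι F₀ P δ hδ (h22_bc ι F₀ t) A B (P.ord f) hπ hA hB hA0 hAo hB0 hBo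
  rw [← hfe, h22_dF_bc ι δ hδ F₀ t, zero_div, smul_zero, sub_zero] at h1
  exact h1

include ht₁ ht in
/-- (L-N) at a generic place: `bc t₁ - c` is a uniformizer for the value `c` of `bc t₁`, `c` is
not in `ι k`, and logarithmic derivatives have the explicit polar part. -/
theorem h22_dlog_generic (P : Place K (laurentBaseChange K F₀)) (hP : h22_IsGeneric ι F₀ P) :
    ∃ c : K, c ∉ Set.range ι ∧
      P.ord (h22_bc ι F₀ t₁ - algebraMap K (laurentBaseChange K F₀) c) = 1 ∧
      ∀ (δ : Derivation ℚ K K), (∀ a : k, δ (ι a) = 0) → ∀ f : laurentBaseChange K F₀, f ≠ 0 →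
        h22_dF δ F₀ f / f
          + (P.ord f : ℤ) • (algebraMap K (laurentBaseChange K F₀) (δ c)
              / (h22_bc ι F₀ t₁ - algebraMap K (laurentBaseChange K F₀) c))
          ∈ P.toValuationSubring := by
  obtain ⟨c, hc, hc1, hstr⟩ := h22_generic ι F₀ t₁ ht₁ ht P hP
  refine ⟨c, hc, hc1, fun δ hδ f hf => ?_⟩
  obtain ⟨A, B, hA, hB, hA0, hAo, hB0, hBo, hfe⟩ := hstr f hf
  set π : laurentBaseChange K F₀ := h22_bc ι F₀ t₁ - algebraMap K (laurentBaseChange K F₀) c
    with hπdef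
  have hπ : π ≠ 0 := by
    intro h
    rw [h, P.ord_zero] at hc1
    exact zero_ne_one hc1
  have h1 := h22_dlog_struct ι F₀ P δ hδ π A B (P.ord f) hπ hA hB hA0 hAo hB0 hBo
  rw [← hfe] at h1
  have h2 : h22_dF δ F₀ π = -algebraMap K (laurentBaseChange K F₀) (δ c) := by
    rw [hπdef, map_sub, h22_dF_bc ι δ hδ F₀ t₁, h22_dF_algebraMap, zero_sub]
  rw [h2, neg_div, smul_neg, sub_neg_eq_add] at h1
  exact h1

include ht₁ ht in
/-- (L-U) a function whose divisor is supported on rational places is a constant times an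
element of `F_k`. -/
theorem h22_unit_desc
    (hder : ∀ c : K, c ∉ Set.range ι → ∃ δ : Derivation ℚ K K, (∀ a : k, δ (ι a) = 0) ∧ δ c ≠ 0)
    (f : laurentBaseChange K F₀) (hf : f ≠ 0)
    (h : ∀ P : Place K (laurentBaseChange K F₀), h22_IsGeneric ι F₀ P → P.ord f = 0) :
    ∃ (c : K) (u : laurentBaseChange k F₀), c ≠ 0 ∧ u ≠ 0 ∧
      f = algebraMap K (laurentBaseChange K F₀) c * h22_bc ι F₀ u := by
  -- logarithmic derivatives of `f` are constants
  have hconst : ∀ δ : Derivation ℚ K K, (∀ a : k, δ (ι a) = 0) →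
      ∃ κ : K, h22_dF δ F₀ f = algebraMap K (laurentBaseChange K F₀) κ * f := by
    intro δ hδ
    obtain ⟨κ, hκ⟩ := h22_const_of_regular ht (h22_dF δ F₀ f / f) (fun P => by
      rcases h22_rational_or_generic ι F₀ P with hP | hP
      · exact h22_dlog_rational ι F₀ t₁ ht₁ P hP δ hδ f hf
      · obtain ⟨c, -, -, hN⟩ := h22_dlog_generic ι F₀ t₁ ht₁ ht P hP
        have := hN δ hδ f hf
        rwa [h P hP, zero_smul, add_zero] at this)
    exact ⟨κ, by rw [← hκ, div_mul_cancel₀ _ hf]⟩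
  -- the leading coefficient
  have hfs : (f : LaurentSeries K) ≠ 0 := fun h0 => hf (Subtype.ext h0)
  set n₀ : ℤ := (f : LaurentSeries K).order with hn₀
  set a₀ : K := (f : LaurentSeries K).coeff n₀ with ha₀
  have ha₀0 : a₀ ≠ 0 := fun h0 => hfs (HahnSeries.coeff_order_eq_zero.1 h0)
  have hcoe : ∀ (a : K) (x : laurentBaseChange K F₀) (n : ℤ),
      ((algebraMap K (laurentBaseChange K F₀) a * x : laurentBaseChange K F₀) :
        LaurentSeries K).coeff n = a * (x : LaurentSeries K).coeff n := by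
    intro a x n
    show (algebraMap K (LaurentSeries K) a * (x : LaurentSeries K)).coeff n = _
    rw [algebraMap_laurentSeries_eq_single, HahnSeries.coeff_single_zero_mul]
  -- all coefficients of `f / a₀` are killed by every derivation vanishing on `ι k`
  have hcoeff : ∀ n : ℤ, a₀⁻¹ * (f : LaurentSeries K).coeff n ∈ Set.range ι := by
    intro n
    by_contra hn
    obtain ⟨δ, hδ, hδn⟩ := hder _ hn
    obtain ⟨κ, hκ⟩ := hconst δ hδ
    have hc : ∀ m : ℤ, δ ((f : LaurentSeries K).coeff m) = κ * (f : LaurentSeries K).coeff m := by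
      intro m
      have := congrArg (fun z : laurentBaseChange K F₀ => (z : LaurentSeries K).coeff m) hκ
      have h2 := hcoe κ f m
      rw [← h2]
      exact this
    apply hδn
    rw [Derivation.leibniz, Derivation.leibniz_inv, hc n, hc n₀, smul_eq_mul, smul_eq_mul,
      smul_eq_mul]
    field_simp
    ring
  obtain ⟨u, hu⟩ := h22_mem_of_coeff_mem ι F₀
    (algebraMap K (laurentBaseChange K F₀) a₀⁻¹ * f) (fun n => by rw [hcoe]; exact hcoeff n)
  refine ⟨a₀, u, ha₀0, ?_, ?_⟩
  · rintro rfl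
    rw [map_zero] at hu
    have : algebraMap K (laurentBaseChange K F₀) a₀⁻¹ ≠ 0 := by
      simpa using ha₀0
    exact hf ((mul_eq_zero.1 hu.symm).resolve_left this)
  · rw [hu, ← mul_assoc, ← map_mul, mul_inv_cancel₀ ha₀0, map_one, one_mul]

end Loc

end Fermat.Agent.GAL

end
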