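import Mathlib

/-!
# GAL (S31 endgame): Dickson identities

* `h65_dickson_inv`: in any ring, if `h * hi = 1 = hi * h` then
  `D_b(h + c hi, c) = h ^ b + c ^ b hi ^ b` (`D_b` the Dickson polynomial of the first kind).
* `h65_trace_pow`: for an endomorphism `f` of a free module of rank two with characteristic
  polynomial `X ^ 2 - t X + d`, `tr (f ^ b) = D_b(t, d)`.
-/

set_option autoImplicit false

namespace Fermat.Agent.GAL

open Polynomial

/-- Dickson in a (possibly noncommutative) ring: if `h * hi = 1 = hi * h` then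
`D_b(h + c hi, c) = h ^ b + c ^ b hi ^ b`. -/
theorem h65_dickson_inv {A : Type*} [Ring A] (h hi : A) (h1 : h * hi = 1) (h2 : hi * h = 1)
    (c : ℤ) (b : ℕ) :
    Polynomial.aeval (h + c • hi) (Polynomial.dickson 1 c b) = h ^ b + c ^ b • hi ^ b := by
  have key : ∀ b : ℕ,
      Polynomial.aeval (h + c • hi) (Polynomial.dickson 1 c b) = h ^ b + c ^ b • hi ^ b ∧
      Polynomial.aeval (h + c • hi) (Polynomial.dickson 1 c (b + 1)) =
        h ^ (b + 1) + c ^ (b + 1) • hi ^ (b + 1) := by
    intro b
    induction b with
    | zero =>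
      refine ⟨?_, ?_⟩
      · rw [Polynomial.dickson_zero]
        simp only [Nat.cast_one, pow_zero, one_smul]
        have : (3 - 1 : ℤ[X]) = C (2 : ℤ) := by
          rw [show (C (2 : ℤ) : ℤ[X]) = 2 from rfl]; norm_num
        rw [this, Polynomial.aeval_C]
        simp only [eq_intCast, Int.cast_ofNat]
        norm_num
      · rw [zero_add, Polynomial.dickson_one, Polynomial.aeval_X, pow_one, pow_one, pow_one]
    | succ n ih =>
      obtain ⟨ih0, ih1⟩ := ih
      refine ⟨ih1, ?_⟩
      rw [show n + 1 + 1 = n + 2 from rfl, Polynomial.dickson_add_two, map_sub, map_mul, map_mul,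
        Polynomial.aeval_X, Polynomial.aeval_C, ih0, ih1]
      have hcomm : h * hi ^ (n + 1) = hi ^ n := by
        rw [pow_succ', ← mul_assoc, h1, one_mul]
      have hcomm' : hi * h ^ (n + 1) = h ^ n := by
        rw [pow_succ', ← mul_assoc, h2, one_mul]
      have e1 : (algebraMap ℤ A) c = c • (1 : A) := by
        rw [Algebra.algebraMap_eq_smul_one]
      rw [e1, add_mul, mul_add, mul_add, smul_mul_assoc, smul_mul_assoc, mul_smul_comm,
        mul_smul_comm, hcomm, hcomm', smul_smul, smul_mul_assoc, one_mul, smul_add, smul_smul]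
      rw [show h * h ^ (n + 1) = h ^ (n + 2) by rw [← pow_succ'],
        show hi * hi ^ (n + 1) = hi ^ (n + 2) by rw [← pow_succ'],
        show c * c ^ (n + 1) = c ^ (n + 2) by rw [← pow_succ'],
        show c * c ^ n = c ^ (n + 1) by rw [← pow_succ']]
      abel
  exact (key b).1

/-- For a `2 × 2` matrix with characteristic polynomial `X ^ 2 - t X + d`,
`tr (M ^ b) = D_b(t, d)`. -/
theorem h65_trace_pow_matrix {R : Type*} [CommRing R] [Nontrivial R]
    (M : Matrix (Fin 2) (Fin 2) R) (t d : R)
    (hM : M.charpoly = X ^ 2 - C t * X + C d) (b : ℕ) :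
    (M ^ b).trace = (Polynomial.dickson 1 d b).eval t := by
  have h2 := Matrix.charpoly_fin_two M
  rw [hM] at h2
  have htr : M.trace = t := by
    have := congrArg (fun q : R[X] => q.coeff 1) h2
    simp only [coeff_add, coeff_sub, coeff_X_pow, coeff_C_mul, coeff_X_one, coeff_C] at this
    simpa using this.symm
  have hdet : M.det = d := by
    have := congrArg (fun q : R[X] => q.coeff 0) h2
    simp only [coeff_add, coeff_sub, coeff_X_pow, coeff_C_mul, coeff_X_zero, coeff_C] at this
    simpa using this.symm
  have hCH : M ^ 2 = t • M - d • (1 : Matrix (Fin 2) (Fin 2) R) := by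
    have h := Matrix.aeval_self_charpoly M
    rw [hM] at h
    simp only [map_add, map_sub, map_mul, map_pow, aeval_X, aeval_C] at h
    rw [Algebra.algebraMap_eq_smul_one, Algebra.algebraMap_eq_smul_one, smul_mul_assoc,
      one_mul] at h
    rw [← sub_eq_zero, ← h]
    abel
  have key : ∀ b : ℕ, (M ^ b).trace = (Polynomial.dickson 1 d b).eval t ∧
      (M ^ (b + 1)).trace = (Polynomial.dickson 1 d (b + 1)).eval t := by
    intro b
    induction b with
    | zero =>
      refine ⟨?_, ?_⟩
      · rw [pow_zero, Polynomial.dickson_zero, Matrix.trace_one]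
        simp only [Nat.cast_one, Fintype.card_fin, eval_sub, eval_ofNat, eval_one]
        norm_num
      · rw [zero_add, pow_one, Polynomial.dickson_one, eval_X, htr]
    | succ n ih =>
      obtain ⟨ih0, ih1⟩ := ih
      refine ⟨ih1, ?_⟩
      rw [show n + 1 + 1 = n + 2 from rfl, Polynomial.dickson_add_two, pow_add, hCH, mul_sub,
        Matrix.mul_smul, Matrix.mul_smul, mul_one, ← pow_succ, Matrix.trace_sub,
        Matrix.trace_smul, Matrix.trace_smul, ih0, ih1]
      simp only [eval_sub, eval_mul, eval_X, eval_C, smul_eq_mul]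
  exact (key b).1

/-- For an endomorphism of a free module of rank two with characteristic polynomial
`X ^ 2 - t X + d`, `tr (f ^ b) = D_b(t, d)`. -/
theorem h65_trace_pow {R : Type*} [CommRing R] [Nontrivial R] {V : Type*} [AddCommGroup V]
    [Module R V] [Module.Free R V] [Module.Finite R V] (hV : Module.finrank R V = 2)
    (f : Module.End R V) (t d : R) (hf : f.charpoly = X ^ 2 - C t * X + C d) (b : ℕ) :
    LinearMap.trace R V (f ^ b) = (Polynomial.dickson 1 d b).eval t := by
  let bas : Module.Basis (Fin 2) R V := Module.finBasisOfFinrankEq R V hV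
  have h1 : (LinearMap.toMatrix bas bas f).charpoly = X ^ 2 - C t * X + C d := by
    rw [LinearMap.charpoly_toMatrix, hf]
  have h2 := h65_trace_pow_matrix (LinearMap.toMatrix bas bas f) t d h1 b
  rw [LinearMap.trace_eq_matrix_trace R bas, ← h2]
  congr 1
  exact map_pow (LinearMap.toMatrixAlgEquiv bas) f b

/-- The integral Dickson polynomial evaluated in a commutative ring. -/
theorem h65_aeval_dickson_int {R : Type*} [CommRing R] (t : R) (c : ℤ) (b : ℕ) :
    Polynomial.aeval t (Polynomial.dickson 1 c b) = (Polynomial.dickson 1 (c : R) b).eval t := by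
  rw [Polynomial.aeval_def, Polynomial.eval₂_eq_eval_map, Polynomial.map_dickson]
  simp

end Fermat.Agent.GAL
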