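import Mathlib

/-!
# GAL (S31 endgame): the saturation lemma

A ring `R` acting faithfully on a finite free `ℤ`-module `Λ` (think: a Hecke algebra acting on a
lattice) is "almost saturated" in `End Λ`: there is a constant `c` such that every `x : R` acting
as `0` on `Λ / p ^ n` is divisible by `p ^ (n - c)` in `R`.
-/

set_option autoImplicit false

namespace Fermat.Agent.GAL

theorem h65_saturation {R : Type*} [Ring R] {Λ : Type*} [AddCommGroup Λ] [Module.Free ℤ Λ]
    [Module.Finite ℤ Λ] (ι : R →+* Module.End ℤ Λ) (hι : Function.Injective ι) (p : ℕ) :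
    ∃ c : ℕ, ∀ (n : ℕ) (x : R), (∀ v : Λ, ∃ w : Λ, ι x v = (p ^ n : ℤ) • w) →
      ∃ y : R, x = (p ^ (n - c) : ℤ) • y := by
  classical
  let E := Module.End ℤ Λ
  let ιl : R →ₗ[ℤ] E := (ι : R →+ E).toIntLinearMap
  let R' : Submodule ℤ E := LinearMap.range ιl
  let Q := E ⧸ R'
  have hNoeth : IsNoetherian ℤ Q := inferInstance
  -- the chain of `p ^ n`-torsion submodules of `Q`
  let K : ℕ →o Submodule ℤ Q :=
    { toFun := fun n => LinearMap.ker (LinearMap.lsmul ℤ Q ((p : ℤ) ^ n))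
      monotone' := by
        intro m n hmn q hq
        rw [LinearMap.mem_ker] at hq ⊢
        obtain ⟨k, rfl⟩ := Nat.exists_eq_add_of_le hmn
        have : (LinearMap.lsmul ℤ Q ((p : ℤ) ^ (m + k))) q =
            (p : ℤ) ^ k • (LinearMap.lsmul ℤ Q ((p : ℤ) ^ m)) q := by
          simp only [LinearMap.lsmul_apply, smul_smul]
          rw [pow_add, mul_comm]
        rw [this, hq, smul_zero] }
  obtain ⟨c, hc⟩ := (monotone_stabilizes_iff_noetherian (R := ℤ) (M := Q)).mpr hNoeth K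
  refine ⟨c, fun n x hx => ?_⟩
  rcases Nat.lt_or_ge n c with hnc | hnc
  · refine ⟨x, ?_⟩
    rw [Nat.sub_eq_zero_of_le hnc.le, pow_zero, one_smul]
  -- the endomorphism `y'` with `ι x = p ^ n • y'`
  let bas := Module.Free.chooseBasis ℤ Λ
  choose w hw using hx
  let y' : E := bas.constr ℤ fun i => w (bas i)
  have hy' : ι x = ((p : ℤ) ^ n) • y' := by
    apply bas.ext
    intro i
    rw [hw (bas i), LinearMap.smul_apply]
    congr 1
    simp [y']
  have hmemK : (Submodule.Quotient.mk y' : Q) ∈ K n := by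
    show (LinearMap.lsmul ℤ Q ((p : ℤ) ^ n)) (Submodule.Quotient.mk y') = 0
    rw [LinearMap.lsmul_apply, ← Submodule.Quotient.mk_smul, ← hy',
      Submodule.Quotient.mk_eq_zero]
    exact ⟨x, rfl⟩
  rw [← hc n hnc] at hmemK
  have h2 : ((p : ℤ) ^ c) • y' ∈ R' := by
    have : (LinearMap.lsmul ℤ Q ((p : ℤ) ^ c)) (Submodule.Quotient.mk y') = 0 := hmemK
    rw [LinearMap.lsmul_apply, ← Submodule.Quotient.mk_smul,
      Submodule.Quotient.mk_eq_zero] at this
    exact this
  obtain ⟨z, hz⟩ := h2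
  refine ⟨z, hι ?_⟩
  have hz' : ι z = ((p : ℤ) ^ c) • y' := hz
  have e : ι (((p : ℤ) ^ (n - c)) • z) = ((p : ℤ) ^ (n - c)) • ι z := by
    rw [zsmul_eq_mul, map_mul, map_intCast, ← zsmul_eq_mul]
  rw [e, hz', hy', smul_smul, ← pow_add, Nat.sub_add_cancel hnc]

end Fermat.Agent.GAL
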