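import Mathlib
import Fermat.Prelude.Def_GaloisRep_Adic
import Fermat.Agent.S53.Burnside

/-!
# GAL (S31 endgame): a trace criterion for `ρ τ = 1`

If the residual representation of `ρ : GaloisRepAdic T` is absolutely irreducible and
`tr ρ(g τ) = tr ρ(g)` for all `g`, then `ρ τ = 1` (Burnside + Nakayama + nondegeneracy of the
trace pairing on `2 × 2` matrices).
-/

set_option autoImplicit false

open scoped TensorProduct

namespace Fermat.Agent.GAL

/-- The `T`-span of the matrices of an adic representation with absolutely irreducible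
residual representation is the full matrix algebra. -/
theorem h65_span_matrix_eq_top {T : Type} [CommRing T] [IsLocalRing T] (ρ : GaloisRepAdic T)
    (habs : ρ.residual.IsAbsolutelyIrreducible) (b : Module.Basis (Fin 2) T ρ.V) :
    Submodule.span T (Set.range fun g => LinearMap.toMatrix b b (ρ.ρ g)) = ⊤ := by
  classical
  set k := IsLocalRing.ResidueField T with hk
  let res : T →+* k := IsLocalRing.residue T
  let bk : Module.Basis (Fin 2) k (k ⊗[T] ρ.V) := Algebra.TensorProduct.basis k b
  set Sp : Submodule T (Matrix (Fin 2) (Fin 2) T) :=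
    Submodule.span T (Set.range fun g => LinearMap.toMatrix b b (ρ.ρ g)) with hSp
  -- the reduction of the matrices
  have hred : ∀ g, LinearMap.toMatrix bk bk (ρ.residual.ρ g) =
      (LinearMap.toMatrix b b (ρ.ρ g)).map res := by
    intro g
    have h1 : ρ.residual.ρ g = (ρ.ρ g).baseChange k := rfl
    rw [h1, LinearMap.toMatrix_baseChange]
    rfl
  -- every matrix over `k` lifts to an element of `Sp`
  have hlift : ∀ N : Matrix (Fin 2) (Fin 2) k, ∃ Y ∈ Sp, Y.map res = N := by
    intro N
    have hN := Fermat.Agent.S53.burnside ρ.residual habs bk N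
    induction hN using Submodule.span_induction with
    | mem x hx =>
      obtain ⟨g, rfl⟩ := hx
      exact ⟨LinearMap.toMatrix b b (ρ.ρ g), Submodule.subset_span ⟨g, rfl⟩, (hred g).symm⟩
    | zero => exact ⟨0, Sp.zero_mem, by simp⟩
    | add x y _ _ hx hy =>
      obtain ⟨Y1, hY1, rfl⟩ := hx
      obtain ⟨Y2, hY2, rfl⟩ := hy
      exact ⟨Y1 + Y2, Sp.add_mem hY1 hY2, by simp [Matrix.map_add]⟩
    | smul c x _ hx =>
      obtain ⟨Y, hY, rfl⟩ := hx
      obtain ⟨c', rfl⟩ := IsLocalRing.residue_surjective c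
      refine ⟨c' • Y, Sp.smul_mem c' hY, ?_⟩
      ext i j
      simp [Matrix.map_apply, Matrix.smul_apply, res]
  -- Nakayama
  have hNak : (⊤ : Submodule T (Matrix (Fin 2) (Fin 2) T)) ≤
      Sp ⊔ IsLocalRing.maximalIdeal T • (⊤ : Submodule T (Matrix (Fin 2) (Fin 2) T)) := by
    intro X _
    obtain ⟨Y, hY, hYX⟩ := hlift (X.map res)
    have hent : ∀ i j, (X - Y) i j ∈ IsLocalRing.maximalIdeal T := by
      intro i j
      have h1 := congrFun (congrFun hYX i) j
      simp only [Matrix.map_apply] at h1
      rw [← IsLocalRing.residue_eq_zero_iff, Matrix.sub_apply, map_sub]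
      exact sub_eq_zero.mpr h1.symm
    have hmem : X - Y ∈ IsLocalRing.maximalIdeal T •
        (⊤ : Submodule T (Matrix (Fin 2) (Fin 2) T)) := by
      rw [Matrix.matrix_eq_sum_single (X - Y)]
      refine Submodule.sum_mem _ fun i _ => Submodule.sum_mem _ fun j _ => ?_
      have : Matrix.single i j ((X - Y) i j) =
          (X - Y) i j • Matrix.single i j (1 : T) := by
        rw [Matrix.smul_single, smul_eq_mul, mul_one]
      rw [this]
      exact Submodule.smul_mem_smul (hent i j) Submodule.mem_top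
    have : X = Y + (X - Y) := by abel
    rw [this]
    exact Submodule.add_mem _ (Submodule.mem_sup_left hY) (Submodule.mem_sup_right hmem)
  have hfg : (⊤ : Submodule T (Matrix (Fin 2) (Fin 2) T)).FG :=
    Module.finite_def.mp inferInstance
  have hjac : IsLocalRing.maximalIdeal T ≤ Ideal.jacobson ⊥ := by
    rw [IsLocalRing.jacobson_eq_maximalIdeal ⊥ bot_ne_top]
  exact top_le_iff.mp (Submodule.le_of_le_smul_of_le_jacobson_bot hfg hjac hNak)

/-- **Trace criterion.** If the residual representation is absolutely irreducible and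
`tr ρ(g τ) = tr ρ(g)` for all `g`, then `ρ τ = 1`. -/
theorem h65_eq_one_of_trace {T : Type} [CommRing T] [IsLocalRing T] (ρ : GaloisRepAdic T)
    (habs : ρ.residual.IsAbsolutelyIrreducible)
    (τ : AlgebraicClosure ℚ ≃ₐ[ℚ] AlgebraicClosure ℚ)
    (h : ∀ g : AlgebraicClosure ℚ ≃ₐ[ℚ] AlgebraicClosure ℚ,
      LinearMap.trace T ρ.V (ρ.ρ (g * τ)) = LinearMap.trace T ρ.V (ρ.ρ g)) :
    ρ.ρ τ = 1 := by
  classical
  let b : Module.Basis (Fin 2) T ρ.V := Module.finBasisOfFinrankEq T ρ.V ρ.finrank_eq
  set X : Matrix (Fin 2) (Fin 2) T := LinearMap.toMatrix b b (ρ.ρ τ) - 1 with hX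
  -- the functional `Y ↦ tr (Y * X)` vanishes on the span of the image
  let φ : Matrix (Fin 2) (Fin 2) T →ₗ[T] T :=
    (Matrix.traceLinearMap (Fin 2) T T).comp (LinearMap.mulRight T X)
  have hφ : ∀ Y, φ Y = (Y * X).trace := fun Y => rfl
  have hgen : ∀ g, φ (LinearMap.toMatrix b b (ρ.ρ g)) = 0 := by
    intro g
    rw [hφ, hX, mul_sub, mul_one, Matrix.trace_sub, ← LinearMap.toMatrix_mul,
      ← LinearMap.trace_eq_matrix_trace T b, ← LinearMap.trace_eq_matrix_trace T b,
      sub_eq_zero]
    have := h g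
    rw [map_mul] at this
    exact this
  have hker : Submodule.span T (Set.range fun g => LinearMap.toMatrix b b (ρ.ρ g)) ≤
      LinearMap.ker φ := by
    rw [Submodule.span_le]
    rintro _ ⟨g, rfl⟩
    exact hgen g
  rw [h65_span_matrix_eq_top ρ habs b, top_le_iff] at hker
  have hφ0 : ∀ Y, φ Y = 0 := fun Y => by
    have : Y ∈ LinearMap.ker φ := by rw [hker]; exact Submodule.mem_top
    exact this
  have hX0 : X = 0 := by
    ext i j
    have h1 := hφ0 (Matrix.single j i 1)
    rw [hφ, Matrix.trace] at h1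
    simp only [Matrix.diag_apply, Matrix.mul_apply, Matrix.single_apply] at h1
    fin_cases i <;> fin_cases j <;> simpa [Fin.sum_univ_two] using h1
  have h2 : LinearMap.toMatrix b b (ρ.ρ τ) = LinearMap.toMatrix b b (1 : Module.End T ρ.V) := by
    rw [LinearMap.toMatrix_one]
    exact sub_eq_zero.mp hX0
  exact (LinearMap.toMatrix b b).injective h2

end Fermat.Agent.GAL
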