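import Mathlib
import Fermat.Prelude.Def_CuspForm_HeckeGaloisRepDatum
import Fermat.Agent.GAL.h65_Dickson
import Fermat.Agent.GAL.h65_TraceRigid
import Fermat.Agent.GAL.h65_Sat
import Fermat.Agent.GAL.h65_Cyclo

/-!
# GAL: the S31 endgame as an abstract theorem

`h65_S31_of_levels`: the frozen statement S31 (`H.ρ` is unramified at every prime `q ∉ S`)
follows from

* a finite free `ℤ`-module `Λ` with a faithful action `ι` of the Hecke algebra,
* for every `n` a "level": a quotient `q : Λ → M` with kernel `p ^ n Λ` carrying a Galois action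
  of finite level satisfying the Eichler–Shimura relation at Frobenius elements and trivial on
  inertia outside `S` (`h65_HasLevel`),
* the weak Chebotarev statement `h65_WCheb`.

No completion, no Tate module, no compatibility between the levels is needed.
-/

set_option autoImplicit false

open Polynomial

namespace Fermat.Agent.GAL

/-- The weak Chebotarev statement (implied by the statement of row GAL-3). -/
def h65_WCheb : Prop :=
  ∀ (L : IntermediateField ℚ (AlgebraicClosure ℚ)), FiniteDimensional ℚ L → IsGalois ℚ L →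
    ∀ (g : AlgebraicClosure ℚ ≃ₐ[ℚ] AlgebraicClosure ℚ) (S : Finset ℕ),
      ∃ (ℓ : ℕ) (A : ValuationSubring (AlgebraicClosure ℚ))
        (σ : AlgebraicClosure ℚ ≃ₐ[ℚ] AlgebraicClosure ℚ) (b : ℕ),
        ℓ.Prime ∧ ℓ ∉ S ∧ A.LiesOverPrime ℓ ∧ A.IsFrobeniusAt σ ℓ ∧ ∀ x ∈ L, (σ ^ b) x = g x

/-- A level `n` structure on the Hecke lattice `(Λ, ι)`: a Galois module `M ≅ Λ / p ^ n Λ` of
finite level, with the Eichler–Shimura relation `σ² - T_ℓ σ + ℓ = 0` at Frobenius elements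
at `ℓ ∉ S` and trivial inertia at `q ∉ S`. -/
def h65_HasLevel (p N : ℕ) [NeZero N] (S : Finset ℕ) {Λ : Type} [AddCommGroup Λ]
    (ι : CuspForm.heckeAlgebra N 2 (↑S : Set ℕ) →+* Module.End ℤ Λ) (n : ℕ) : Prop :=
  ∃ (M : Type) (_ : AddCommGroup M) (q : Λ →+ M)
    (r : (AlgebraicClosure ℚ ≃ₐ[ℚ] AlgebraicClosure ℚ) →* AddMonoid.End M),
    Function.Surjective q ∧ (∀ x : Λ, q x = 0 → ∃ y : Λ, x = (p ^ n : ℤ) • y) ∧
    (∀ m : M, p ^ n • m = 0) ∧
    GaloisFactorsThroughFiniteLevel r ∧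
    (∀ (ℓ : ℕ) (hℓ : ℓ.Prime) (hℓN : ¬ ℓ ∣ N) (hℓS : ℓ ∉ (↑S : Set ℕ))
      (A : ValuationSubring (AlgebraicClosure ℚ)), A.LiesOverPrime ℓ →
      ∀ σ : AlgebraicClosure ℚ ≃ₐ[ℚ] AlgebraicClosure ℚ, A.IsFrobeniusAt σ ℓ →
        ∀ x y : Λ, r σ (q x) = q y →
          r σ (q y) + ℓ • q x = q (ι (CuspForm.heckeAlgebra.T hℓ hℓN hℓS) y)) ∧
    (∀ q' : ℕ, q'.Prime → q' ∉ S → ∀ A : ValuationSubring (AlgebraicClosure ℚ),
      A.LiesOverPrime q' → ∀ τ ∈ A.inertiaSubgroupIn ℚ, r τ = 1)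

section trace

variable {T : Type*} [CommRing T] {V : Type*} [AddCommGroup V] [Module T V] [Module.Free T V]
  [Module.Finite T V]

/-- The trace of an endomorphism with image in `I • V` lies in `I`. -/
theorem h65_trace_mem (I : Ideal T) (f : Module.End T V)
    (h : ∀ v, f v ∈ I • (⊤ : Submodule T V)) : LinearMap.trace T V f ∈ I := by
  classical
  let b := Module.Free.chooseBasis T V
  rw [LinearMap.trace_eq_matrix_trace T b, Matrix.trace]
  refine Ideal.sum_mem _ fun i _ => ?_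
  rw [Matrix.diag_apply, LinearMap.toMatrix_apply]
  have key : ∀ w ∈ I • (⊤ : Submodule T V), b.repr w i ∈ I := by
    intro w hw
    refine Submodule.smul_induction_on hw ?_ ?_
    · intro a ha v _
      rw [map_smul, Finsupp.smul_apply, smul_eq_mul]
      exact I.mul_mem_right _ ha
    · intro x y hx hy
      rw [map_add, Finsupp.add_apply]
      exact I.add_mem hx hy
  exact key _ (h _)

omit [Module.Free T V] [Module.Finite T V] in
/-- Linear maps preserve `I • ⊤`. -/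
theorem h65_map_smul_top (I : Ideal T) (f : Module.End T V) {w : V}
    (hw : w ∈ I • (⊤ : Submodule T V)) : f w ∈ I • (⊤ : Submodule T V) := by
  refine Submodule.smul_induction_on hw ?_ ?_
  · intro a ha v _
    rw [map_smul]
    exact Submodule.smul_mem_smul ha Submodule.mem_top
  · intro x y hx hy
    rw [map_add]
    exact Submodule.add_mem _ hx hy

end trace

section adic

variable {T : Type} [CommRing T] [IsLocalRing T]

/-- Two Galois elements agreeing on the level-`n` field have congruent traces. -/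
theorem h65_trace_congr (ρ : GaloisRepAdic T) (n : ℕ)
    (L : IntermediateField ℚ (AlgebraicClosure ℚ))
    (hL : ∀ σ : AlgebraicClosure ℚ ≃ₐ[ℚ] AlgebraicClosure ℚ, (∀ x ∈ L, σ x = x) →
      ∀ v : ρ.V, ρ.ρ σ v - v ∈ (IsLocalRing.maximalIdeal T ^ n) • (⊤ : Submodule T ρ.V))
    (g h : AlgebraicClosure ℚ ≃ₐ[ℚ] AlgebraicClosure ℚ) (hgh : ∀ x ∈ L, h x = g x) :
    LinearMap.trace T ρ.V (ρ.ρ g) - LinearMap.trace T ρ.V (ρ.ρ h) ∈
      IsLocalRing.maximalIdeal T ^ n := by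
  have hu : ∀ x ∈ L, (h⁻¹ * g) x = x := by
    intro x hx
    show h⁻¹ (g x) = x
    rw [← hgh x hx]
    exact h.symm_apply_apply x
  have e : ρ.ρ g = ρ.ρ h * ρ.ρ (h⁻¹ * g) := by rw [← map_mul, mul_inv_cancel_left]
  have e2 : ρ.ρ g - ρ.ρ h = ρ.ρ h * (ρ.ρ (h⁻¹ * g) - 1) := by rw [mul_sub, mul_one, ← e]
  rw [← map_sub, e2]
  apply h65_trace_mem
  intro v
  rw [Module.End.mul_apply]
  apply h65_map_smul_top
  rw [LinearMap.sub_apply, Module.End.one_apply]
  exact hL _ hu v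

/-- The trace of the `b`-th power of an element with characteristic polynomial
`X ^ 2 - t X + ℓ` is the Dickson polynomial `D_b(t, ℓ)`. -/
theorem h65_trace_frob_pow (ρ : GaloisRepAdic T)
    (σ : AlgebraicClosure ℚ ≃ₐ[ℚ] AlgebraicClosure ℚ) (t : T) (ℓ : ℕ)
    (hchar : LinearMap.charpoly (ρ.ρ σ) = X ^ 2 - C t * X + C (ℓ : T)) (b : ℕ) :
    LinearMap.trace T ρ.V (ρ.ρ (σ ^ b)) =
      Polynomial.aeval t (Polynomial.dickson 1 (ℓ : ℤ) b) := by
  rw [map_pow, h65_trace_pow ρ.finrank_eq (ρ.ρ σ) t (ℓ : T) hchar b, h65_aeval_dickson_int]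
  simp

end adic

section level

/-- The lattice side: on a level module, the Dickson polynomial of the Hecke operator is
`σ ^ b + ℓ ^ b σ ^ (-b)`. -/
theorem h65_level_side {R : Type*} [CommRing R] {Λ : Type*} [AddCommGroup Λ]
    (ι : R →+* Module.End ℤ Λ) {M : Type*} [AddCommGroup M] (q : Λ →+ M)
    (hq : Function.Surjective q) {G : Type*} [Group G] (r : G →* AddMonoid.End M)
    (t : R) (ℓ : ℕ) (σ : G)
    (hfrob : ∀ x y : Λ, r σ (q x) = q y → r σ (q y) + ℓ • q x = q (ι t y)) (b : ℕ) (x : Λ) :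
    q (ι (Polynomial.aeval t (Polynomial.dickson 1 (ℓ : ℤ) b)) x) =
      r (σ ^ b) (q x) + ℓ ^ b • r ((σ ^ b)⁻¹) (q x) := by
  -- the action as `ℤ`-linear endomorphisms
  let rl : G →* Module.End ℤ M :=
    { toFun := fun g => (r g).toIntLinearMap
      map_one' := by
        ext m
        rw [map_one]
        rfl
      map_mul' := fun g h => by
        ext m
        rw [map_mul]
        rfl }
  have hrl : ∀ g m, rl g m = r g m := fun g m => rfl
  set u : Module.End ℤ M := rl σ with hu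
  set ui : Module.End ℤ M := rl σ⁻¹ with hui
  have h1 : u * ui = 1 := by rw [hu, hui, ← map_mul, mul_inv_cancel, map_one]
  have h2 : ui * u = 1 := by rw [hu, hui, ← map_mul, inv_mul_cancel, map_one]
  set tM : Module.End ℤ M := u + (ℓ : ℤ) • ui with htM
  have hA : ∀ x : Λ, q (ι t x) = tM (q x) := by
    intro x
    obtain ⟨x', hx'⟩ := hq (ui (q x))
    have e1 : r σ (q x') = q x := by
      rw [hx', ← hrl σ, ← Module.End.mul_apply, ← hu, h1, Module.End.one_apply]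
    have e2 := hfrob x' x e1
    rw [← e2, htM, LinearMap.add_apply, LinearMap.smul_apply, hx', natCast_zsmul]
    rfl
  have hB0 : ∀ (n : ℕ) (x : Λ), q ((ι t ^ n) x) = (tM ^ n) (q x) := by
    intro n
    induction n with
    | zero => intro x; simp
    | succ n ih =>
      intro x
      rw [pow_succ, pow_succ, Module.End.mul_apply, Module.End.mul_apply, ih, hA]
  have hB : ∀ (P : ℤ[X]) (x : Λ), q (ι (Polynomial.aeval t P) x) =
      (Polynomial.aeval tM P) (q x) := by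
    intro P x
    have e : ι (Polynomial.aeval t P) = Polynomial.aeval (ι t) P :=
      (Polynomial.aeval_algHom_apply ι.toIntAlgHom t P).symm
    rw [e, Polynomial.aeval_eq_sum_range, Polynomial.aeval_eq_sum_range, LinearMap.sum_apply,
      LinearMap.sum_apply, map_sum]
    refine Finset.sum_congr rfl fun i _ => ?_
    rw [LinearMap.smul_apply, LinearMap.smul_apply, map_zsmul, hB0]
  rw [hB, htM, h65_dickson_inv u ui h1 h2, LinearMap.add_apply, LinearMap.smul_apply]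
  have e3 : (u ^ b) (q x) = r (σ ^ b) (q x) := by rw [hu, ← map_pow, hrl]
  have e4 : (ui ^ b) (q x) = r ((σ ^ b)⁻¹) (q x) := by
    rw [hui, ← map_pow, hrl, inv_pow]
  rw [e3, e4]
  congr 1
  rw [← Nat.cast_pow, natCast_zsmul]

theorem h65_nsmul_eq_of_modEq {M : Type*} [AddCommGroup M] {k a a' : ℕ} (h : a ≡ a' [MOD k])
    (m : M) (hm : k • m = 0) : a • m = a' • m := by
  have h1 : (a : ℤ) ≡ a' [ZMOD k] := Int.natCast_modEq_iff.mpr h
  obtain ⟨e, he⟩ := h1.symm.dvd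
  have h2 : ((a : ℤ) - a') • m = 0 := by
    rw [he, mul_comm, mul_zsmul, natCast_zsmul, hm, smul_zero]
  rw [sub_zsmul, natCast_zsmul, natCast_zsmul] at h2
  exact add_neg_eq_zero.mp h2

end level

section main

variable {p : ℕ} {N : ℕ} [NeZero N] {S : Finset ℕ}
  {𝒪 : Type} [CommRing 𝒪] [IsDomain 𝒪] [IsDiscreteValuationRing 𝒪]
  [IsAdicComplete (IsLocalRing.maximalIdeal 𝒪) 𝒪]
  {θ : CuspForm.heckeAlgebra N 2 (↑S : Set ℕ) →+* IsLocalRing.ResidueField 𝒪}
  {T : Type} [CommRing T] [IsLocalRing T] [IsNoetherianRing T]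
  [IsAdicComplete (IsLocalRing.maximalIdeal T) T] [Algebra 𝒪 T] [IsLocalHom (algebraMap 𝒪 T)]
  [Module.Finite 𝒪 T] [Module.Free 𝒪 T]

/-- **The S31 endgame.** The frozen statement S31 from a Hecke lattice with level structures
and the weak Chebotarev statement. -/
theorem h65_S31_of_levels (hp : p.Prime)
    (hp𝒪 : (p : 𝒪) ∈ IsLocalRing.maximalIdeal 𝒪) (hpS : p ∈ S)
    (hNS : ∀ q : ℕ, q.Prime → q ∣ N → q ∈ S)
    (H : CuspForm.HeckeGaloisRepDatum N (↑S : Set ℕ) 𝒪 θ T)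
    {Λ : Type} [AddCommGroup Λ] [Module.Free ℤ Λ] [Module.Finite ℤ Λ]
    (ι : CuspForm.heckeAlgebra N 2 (↑S : Set ℕ) →+* Module.End ℤ Λ)
    (hι : Function.Injective ι)
    (hlev : ∀ n : ℕ, h65_HasLevel p N S ι n)
    (hcheb : h65_WCheb)
    (q : ℕ) (hq : q.Prime) (hqS : q ∉ S) :
    H.ρ.IsUnramifiedAt q := by
  intro P hP τ hτ
  apply h65_eq_one_of_trace H.ρ H.residual_absIrr τ
  intro g
  obtain ⟨c, hc⟩ := h65_saturation ι hι p
  have hpT : (p : T) ∈ IsLocalRing.maximalIdeal T := by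
    have e : (p : T) = algebraMap 𝒪 T (p : 𝒪) := (map_natCast _ _).symm
    rw [e, IsLocalRing.mem_maximalIdeal, mem_nonunits_iff]
    intro hu
    exact hp𝒪 (isUnit_of_map_unit (algebraMap 𝒪 T) _ hu)
  have key : ∀ k : ℕ, LinearMap.trace T H.ρ.V (H.ρ.ρ (g * τ)) -
      LinearMap.trace T H.ρ.V (H.ρ.ρ g) ∈ IsLocalRing.maximalIdeal T ^ k := by
    intro k
    set n := k + c with hn
    obtain ⟨M, _, qM, r, hsurj, hker, htors, ⟨L₁, hL₁fin, hL₁⟩, hfrob, hinert⟩ := hlev n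
    obtain ⟨L₂, hL₂fin, hL₂⟩ := H.ρ.isAdicContinuous n
    have : NeZero (p ^ n) := ⟨pow_ne_zero n hp.ne_zero⟩
    obtain ⟨ζ, hζ⟩ := HasEnoughRootsOfUnity.exists_primitiveRoot (AlgebraicClosure ℚ) (p ^ n)
    obtain ⟨L, hLfin, hLgal, hL₁L, hL₂L, hζL⟩ :=
      h65_exists_galois_level L₁ L₂ hL₁fin hL₂fin ζ
    have fact : ∀ g' : AlgebraicClosure ℚ ≃ₐ[ℚ] AlgebraicClosure ℚ,
        ∃ (D : CuspForm.heckeAlgebra N 2 (↑S : Set ℕ)) (a : ℕ),
          LinearMap.trace T H.ρ.V (H.ρ.ρ g') - H.π D ∈ IsLocalRing.maximalIdeal T ^ n ∧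
          (∀ x : Λ, qM (ι D x) = r g' (qM x) + a • r g'⁻¹ (qM x)) ∧ g' ζ = ζ ^ a := by
      intro g'
      obtain ⟨ℓ, A, σ, b, hℓ, hℓS, hA, hσ, hσg⟩ := hcheb L hLfin hLgal g' S
      have hℓN : ¬ ℓ ∣ N := fun h => hℓS (hNS ℓ hℓ h)
      have hℓS' : ℓ ∉ (↑S : Set ℕ) := by simpa using hℓS
      have hℓp : ℓ ≠ p := fun h => hℓS (h ▸ hpS)
      set t := CuspForm.heckeAlgebra.T hℓ hℓN hℓS' with ht
      refine ⟨Polynomial.aeval t (Polynomial.dickson 1 (ℓ : ℤ) b), ℓ ^ b, ?_, ?_, ?_⟩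
      · have e1 := h65_trace_frob_pow H.ρ σ (H.π t) ℓ
          (H.charpoly_frob ℓ hℓ hℓN hℓS' A hA σ hσ) b
        have e2 : H.π (Polynomial.aeval t (Polynomial.dickson 1 (ℓ : ℤ) b)) =
            Polynomial.aeval (H.π t) (Polynomial.dickson 1 (ℓ : ℤ) b) :=
          (Polynomial.aeval_algHom_apply H.π.toIntAlgHom t _).symm
        rw [e2, ← e1]
        exact h65_trace_congr H.ρ n L₂ hL₂ g' (σ ^ b) (fun x hx => hσg x (hL₂L hx))
      · intro x
        have e := h65_level_side ι qM hsurj r t ℓ σ (hfrob ℓ hℓ hℓN hℓS' A hA σ hσ) b x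
        have hr : r (σ ^ b) = r g' := by
          have h1 : r ((σ ^ b)⁻¹ * g') = 1 := hL₁ _ (fun x hx => by
            show (σ ^ b)⁻¹ (g' x) = x
            rw [← hσg x (hL₁L hx)]
            exact (σ ^ b).symm_apply_apply x)
          rw [map_mul] at h1
          calc r (σ ^ b) = r (σ ^ b) * (r ((σ ^ b)⁻¹) * r g') := by rw [h1, mul_one]
            _ = r g' := by rw [← mul_assoc, ← map_mul, mul_inv_cancel, map_one, one_mul]
        have hr' : r ((σ ^ b)⁻¹) = r g'⁻¹ := by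
          have h3 : r ((σ ^ b)⁻¹) * r g' = 1 := by
            rw [← hr, ← map_mul, inv_mul_cancel, map_one]
          calc r ((σ ^ b)⁻¹) = r ((σ ^ b)⁻¹) * (r g' * r g'⁻¹) := by
                rw [← map_mul r g', mul_inv_cancel, map_one, mul_one]
            _ = r g'⁻¹ := by rw [← mul_assoc, h3, one_mul]
        rw [e, hr, hr']
      · have hℓpn : ¬ ℓ ∣ p ^ n := fun h =>
          hℓp ((Nat.prime_dvd_prime_iff_eq hℓ hp).mp (hℓ.dvd_of_dvd_pow h))
        have h1 : σ ζ = ζ ^ ℓ := h65_frob_root A hℓ hA hσ hℓpn hζ.pow_eq_one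
        have h2 : ∀ j : ℕ, (σ ^ j) ζ = ζ ^ (ℓ ^ j) := by
          intro j
          induction j with
          | zero => simp
          | succ j ih =>
            rw [pow_succ', AlgEquiv.mul_apply, ih, map_pow, h1, ← pow_mul, pow_succ']
        rw [← hσg ζ hζL, h2]
    obtain ⟨D, a, hD1, hD2, hD3⟩ := fact g
    obtain ⟨D', a', hD'1, hD'2, hD'3⟩ := fact (g * τ)
    have hrτ : r τ = 1 := hinert q hq hqS P hP τ hτ
    have hrg : r (g * τ) = r g := by rw [map_mul, hrτ, mul_one]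
    have hrgi : r (g * τ)⁻¹ = r g⁻¹ := by
      rw [mul_inv_rev, map_mul]
      have : r τ⁻¹ = 1 := by
        have h := map_mul r τ⁻¹ τ
        rw [inv_mul_cancel, map_one, hrτ, mul_one] at h
        exact h.symm
      rw [this, one_mul]
    have hqp : ¬ q ∣ p ^ n := fun h => hqS (by
      have := (Nat.prime_dvd_prime_iff_eq hq hp).mp (hq.dvd_of_dvd_pow h)
      rw [this]
      exact hpS)
    have hτζ : τ ζ = ζ := h65_inertia_root P hq hP hτ hqp hζ.pow_eq_one
    have haa : ζ ^ a = ζ ^ a' := by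
      rw [← hD3, ← hD'3]
      show g ζ = g (τ ζ)
      rw [hτζ]
    have hmod : a ≡ a' [MOD p ^ n] := by
      have hζ0 : ζ ≠ 0 := hζ.ne_zero (NeZero.ne _)
      have h1 : ζ ^ ((a' : ℤ) - a) = 1 := by
        rw [zpow_sub₀ hζ0, zpow_natCast, zpow_natCast, haa, div_self (pow_ne_zero _ hζ0)]
      have h2 := (hζ.zpow_eq_one_iff_dvd _).mp h1
      exact Int.natCast_modEq_iff.mp (Int.modEq_iff_dvd.mpr h2)
    have hzero : ∀ x : Λ, qM (ι (D - D') x) = 0 := by
      intro x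
      rw [map_sub, LinearMap.sub_apply, map_sub, hD2, hD'2, hrg, hrgi,
        h65_nsmul_eq_of_modEq hmod _ (htors _)]
      abel
    obtain ⟨y, hy⟩ := hc n (D - D') (fun v => hker _ (hzero v))
    have hπ : H.π D - H.π D' ∈ IsLocalRing.maximalIdeal T ^ k := by
      rw [← map_sub, hy, show n - c = k by omega, zsmul_eq_mul, map_mul, map_intCast]
      push_cast
      exact Ideal.mul_mem_right _ _ (Ideal.pow_mem_pow hpT k)
    have hle : IsLocalRing.maximalIdeal T ^ n ≤ IsLocalRing.maximalIdeal T ^ k :=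
      Ideal.pow_le_pow_right (by omega)
    have e : LinearMap.trace T H.ρ.V (H.ρ.ρ (g * τ)) - LinearMap.trace T H.ρ.V (H.ρ.ρ g) =
        (LinearMap.trace T H.ρ.V (H.ρ.ρ (g * τ)) - H.π D') -
          (LinearMap.trace T H.ρ.V (H.ρ.ρ g) - H.π D) - (H.π D - H.π D') := by ring
    rw [e]
    exact Ideal.sub_mem _ (Ideal.sub_mem _ (hle hD'1) (hle hD1)) hπ
  have hbot := Ideal.iInf_pow_eq_bot_of_isLocalRing (IsLocalRing.maximalIdeal T)
    Ideal.IsPrime.ne_top'
  have hmem : LinearMap.trace T H.ρ.V (H.ρ.ρ (g * τ)) - LinearMap.trace T H.ρ.V (H.ρ.ρ g) ∈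
      (⨅ i : ℕ, IsLocalRing.maximalIdeal T ^ i) := by
    rw [Ideal.mem_iInf]
    exact key
  rw [hbot] at hmem
  exact sub_eq_zero.mp hmem

end main

end Fermat.Agent.GAL
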