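import Mathlib
import Fermat.Agent.GAL.h65_Dickson
import Fermat.Agent.GAL.h65_S31Core

/-!
# GAL / S30, part (C): admissible pairs at one level (pure algebra)

A *level* is an additive map `q : Λ → M` into a `G`-module `M` (`r : G →* AddMonoid.End M`), with
a ring `R` acting on `Λ` through `ι`.  A pair `(D, a) ∈ R × ℕ` is *admissible* for `g ∈ G`
(`h23_Adm`) if there is an additive endomorphism `E` of `M` commuting with `G`, inducing `ι D` on
`q Λ`, and equal to `r g + a • r g⁻¹` on the `G`-span of `q Λ`.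

This file proves the formal properties of admissible pairs: uniqueness modulo the torsion
exponent, the pseudo-character identity, centrality, invariance under elements acting trivially,
and existence from a Frobenius-type relation `σ² - T σ + ℓ = 0` (Dickson polynomials).
-/

set_option autoImplicit false

namespace Fermat.Agent.GAL

section adm

variable {G : Type*} [Group G] {Λ : Type*} [AddCommGroup Λ] {M : Type*} [AddCommGroup M]
  {R : Type*} [CommRing R] (ι : R →+* Module.End ℤ Λ) (q : Λ →+ M) (r : G →* AddMonoid.End M)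

omit [AddCommGroup Λ] in
theorem h23_r_mul (g h : G) (m : M) : r (g * h) m = r g (r h m) := by
  rw [map_mul]
  rfl

theorem h23_r_one (m : M) : r 1 m = m := by
  rw [map_one]
  rfl

theorem h23_r_inv_apply (g : G) (m : M) : r g⁻¹ (r g m) = m := by
  rw [← h23_r_mul, inv_mul_cancel, h23_r_one]

theorem h23_r_apply_inv (g : G) (m : M) : r g (r g⁻¹ m) = m := by
  rw [← h23_r_mul, mul_inv_cancel, h23_r_one]

/-- `(D, a)` is admissible for `g` at the level `(q, r)`. -/
def h23_Adm (g : G) (D : R) (a : ℕ) : Prop :=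
  ∃ E : M →+ M, (∀ (g' : G) (m : M), E (r g' m) = r g' (E m)) ∧
    (∀ x : Λ, q (ι D x) = E (q x)) ∧
    ∀ (g' : G) (x : Λ), E (r g' (q x)) = r g (r g' (q x)) + a • r g⁻¹ (r g' (q x))

variable {ι q r}

/-- Two admissible pairs for the same element differ by something killing `q Λ`. -/
theorem h23_Adm_sub {k : ℕ} (hk : ∀ m : M, k • m = 0) {g : G} {D D' : R} {a a' : ℕ}
    (h : h23_Adm ι q r g D a) (h' : h23_Adm ι q r g D' a') (haa : a ≡ a' [MOD k]) (x : Λ) :
    q (ι (D - D') x) = 0 := by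
  obtain ⟨E, -, hE2, hE3⟩ := h
  obtain ⟨E', -, hE'2, hE'3⟩ := h'
  have e1 := hE3 1 x
  have e2 := hE'3 1 x
  rw [h23_r_one] at e1 e2
  rw [map_sub, LinearMap.sub_apply, map_sub, hE2, hE'2, e1, e2,
    h65_nsmul_eq_of_modEq haa _ (hk _)]
  abel

/-- `(2, 1)` is admissible for `1`. -/
theorem h23_Adm_one : h23_Adm ι q r 1 2 1 := by
  refine ⟨AddMonoidHom.id M + AddMonoidHom.id M, fun g' m => ?_, fun x => ?_, fun g' x => ?_⟩
  · simp only [AddMonoidHom.add_apply, AddMonoidHom.id_apply, map_add]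
  · rw [map_ofNat, Module.End.ofNat_apply, AddMonoidHom.add_apply, AddMonoidHom.id_apply,
      ofNat_smul_eq_nsmul, two_nsmul, map_add]
  · rw [AddMonoidHom.add_apply, AddMonoidHom.id_apply, inv_one, h23_r_one, one_smul]

/-- The pseudo-character identity on admissible pairs. -/
theorem h23_Adm_mul {k : ℕ} (hk : ∀ m : M, k • m = 0) {g h : G} {Dg Dh Dgh D' : R}
    {ag ah agh a' : ℕ} (hg : h23_Adm ι q r g Dg ag) (hh : h23_Adm ι q r h Dh ah)
    (hgh : h23_Adm ι q r (g * h) Dgh agh) (hgh' : h23_Adm ι q r (g * h⁻¹) D' a')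
    (h1 : agh ≡ ag * ah [MOD k]) (h2 : ah * a' ≡ ag [MOD k]) (x : Λ) :
    q (ι (Dg * Dh - Dgh - (ah : R) * D') x) = 0 := by
  obtain ⟨Eg, -, hg2, hg3⟩ := hg
  obtain ⟨Eh, hh1, hh2, hh3⟩ := hh
  obtain ⟨Egh, -, hgh2, hgh3⟩ := hgh
  obtain ⟨E', -, h'2, h'3⟩ := hgh'
  have eg := hg3 1 (ι Dh x)
  have eh := hh3 1 x
  have eh' := hh3 g⁻¹ x
  have egh := hgh3 1 x
  have e' := h'3 1 x
  rw [h23_r_one] at eg eh egh e'
  -- `q (ι Dg (ι Dh x))`
  have A1 : q (ι Dg (ι Dh x)) = r (g * h) (q x) + ah • r (g * h⁻¹) (q x) +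
      ag • r (h * g⁻¹) (q x) + (ag * ah) • r (h⁻¹ * g⁻¹) (q x) := by
    rw [hg2, eg, hh2, eh, map_add, map_nsmul, ← h23_r_mul, ← h23_r_mul, ← eh, ← hh1, eh',
      ← h23_r_mul, ← h23_r_mul, smul_add, mul_smul]
    abel
  have A2 : q (ι Dgh x) = r (g * h) (q x) + agh • r (h⁻¹ * g⁻¹) (q x) := by
    rw [hgh2, egh, mul_inv_rev]
  have A3 : q (ι D' x) = r (g * h⁻¹) (q x) + a' • r (h * g⁻¹) (q x) := by
    rw [h'2, e', mul_inv_rev, inv_inv]
  have B1 := h65_nsmul_eq_of_modEq h1 (r (h⁻¹ * g⁻¹) (q x)) (hk _)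
  have B2 := h65_nsmul_eq_of_modEq h2 (r (h * g⁻¹) (q x)) (hk _)
  rw [map_sub, map_sub, map_mul, map_mul, map_natCast, LinearMap.sub_apply, LinearMap.sub_apply,
    Module.End.mul_apply, Module.End.mul_apply, Module.End.natCast_apply, map_sub, map_sub,
    map_nsmul, A1, A2, A3, B1, smul_add, ← mul_smul, B2]
  abel

/-- Admissible pairs are central: `(D, a)` admissible for `g * h` is admissible for `h * g`. -/
theorem h23_Adm_comm {g h : G} {D : R} {a : ℕ} (H : h23_Adm ι q r (g * h) D a) :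
    h23_Adm ι q r (h * g) D a := by
  obtain ⟨E, hE1, hE2, hE3⟩ := H
  refine ⟨E, hE1, hE2, fun g' x => ?_⟩
  have e := hE3 (g * g') x
  have e1 : E (r g' (q x)) = r g⁻¹ (E (r (g * g') (q x))) := by
    rw [h23_r_mul, hE1 g (r g' (q x)), h23_r_inv_apply]
  rw [e1, e, map_add, map_nsmul, ← h23_r_mul, ← h23_r_mul, ← h23_r_mul, ← h23_r_mul,
    ← h23_r_mul, ← h23_r_mul]
  congr 2
  · congr 1
    group
  · congr 1
    group

/-- If `u` acts trivially on the `G`-span of `q Λ`, admissible pairs for `h` are admissible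
for `u * h`. -/
theorem h23_Adm_left_triv {u h : G} {D : R} {a : ℕ}
    (hu : ∀ (g' : G) (x : Λ), r u (r g' (q x)) = r g' (q x)) (H : h23_Adm ι q r h D a) :
    h23_Adm ι q r (u * h) D a := by
  obtain ⟨E, hE1, hE2, hE3⟩ := H
  refine ⟨E, hE1, hE2, fun g' x => ?_⟩
  have hu' : r u⁻¹ (r g' (q x)) = r g' (q x) := by
    conv_lhs => rw [← hu g' x]
    rw [h23_r_inv_apply]
  rw [hE3 g' x, mul_inv_rev, h23_r_mul r u h, h23_r_mul r h⁻¹ u⁻¹, hu', ← h23_r_mul r h g',
    hu (h * g') x]

end adm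

section frob

variable {G : Type*} [Group G] {Λ : Type*} [AddCommGroup Λ] {M : Type*} [AddCommGroup M]
  {R : Type*} [CommRing R] {ι : R →+* Module.End ℤ Λ} {q : Λ →+ M} {r : G →* AddMonoid.End M}

theorem h23_aeval_commute {A : Type*} [Ring A] {x y : A} (h : Commute x y) (P : Polynomial ℤ) :
    Commute (Polynomial.aeval x P) y := by
  rw [Polynomial.aeval_eq_sum_range]
  refine Commute.sum_left _ _ _ fun i _ => ?_
  exact Commute.smul_left (h.pow_left i) _

/-- Existence of admissible pairs from the Eichler–Shimura relation: if `σ ^ b` acts like `g`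
on the `G`-span of `q Λ`, then `(D_b(T, ℓ), ℓ ^ b)` is admissible for `g`. -/
theorem h23_Adm_frob_pow (T : R) (tM : M →+ M) (ℓ : ℕ) (σ : G)
    (hhecke : ∀ x : Λ, q (ι T x) = tM (q x))
    (hES : ∀ m : M, r σ (r σ m) + ℓ • m = tM (r σ m))
    (hcomm : ∀ (g : G) (m : M), tM (r g m) = r g (tM m)) (b : ℕ) (g : G)
    (hg : ∀ (g' : G) (x : Λ), r (σ ^ b) (r g' (q x)) = r g (r g' (q x))) :
    h23_Adm ι q r g (Polynomial.aeval T (Polynomial.dickson 1 (ℓ : ℤ) b)) (ℓ ^ b) := by
  let rl : G →* Module.End ℤ M :=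
    { toFun := fun g => (r g).toIntLinearMap
      map_one' := by
        ext m
        rw [map_one]
        rfl
      map_mul' := fun g h => by
        ext m
        rw [map_mul]
        rfl }
  have hrl : ∀ g m, rl g m = r g m := fun g m => rfl
  set u : Module.End ℤ M := rl σ with hu
  set ui : Module.End ℤ M := rl σ⁻¹ with hui
  have h1 : u * ui = 1 := by rw [hu, hui, ← map_mul, mul_inv_cancel, map_one]
  have h2 : ui * u = 1 := by rw [hu, hui, ← map_mul, inv_mul_cancel, map_one]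
  set tl : Module.End ℤ M := u + (ℓ : ℤ) • ui with htl
  have htM : ∀ m : M, tM m = tl m := by
    intro m
    have e1 : u (ui m) = m := by
      rw [← Module.End.mul_apply, h1, Module.End.one_apply]
    have e2 := hES (ui m)
    have e3 : r σ (ui m) = m := e1
    rw [e3] at e2
    rw [← e2, htl, LinearMap.add_apply, LinearMap.smul_apply, natCast_zsmul]
    rfl
  have hA : ∀ x : Λ, q (ι T x) = tl (q x) := fun x => by rw [hhecke, htM]
  have hB0 : ∀ (n : ℕ) (x : Λ), q ((ι T ^ n) x) = (tl ^ n) (q x) := by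
    intro n
    induction n with
    | zero => intro x; simp
    | succ n ih =>
      intro x
      rw [pow_succ, pow_succ, Module.End.mul_apply, Module.End.mul_apply, ih, hA]
  have hB : ∀ (P : Polynomial ℤ) (x : Λ), q (ι (Polynomial.aeval T P) x) =
      (Polynomial.aeval tl P) (q x) := by
    intro P x
    have e : ι (Polynomial.aeval T P) = Polynomial.aeval (ι T) P :=
      (Polynomial.aeval_algHom_apply ι.toIntAlgHom T P).symm
    rw [e, Polynomial.aeval_eq_sum_range, Polynomial.aeval_eq_sum_range, LinearMap.sum_apply,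
      LinearMap.sum_apply, map_sum]
    refine Finset.sum_congr rfl fun i _ => ?_
    rw [LinearMap.smul_apply, LinearMap.smul_apply, map_zsmul, hB0]
  have hC : ∀ g' : G, Commute tl (rl g') := by
    intro g'
    ext m
    rw [Module.End.mul_apply, Module.End.mul_apply, ← htM, ← htM, hrl, hrl, hcomm]
  set E : Module.End ℤ M := Polynomial.aeval tl (Polynomial.dickson 1 (ℓ : ℤ) b) with hE
  have hEeq : E = u ^ b + (ℓ : ℤ) ^ b • ui ^ b := by
    rw [hE, htl, h65_dickson_inv u ui h1 h2]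
  refine ⟨E.toAddMonoidHom, fun g' m => ?_, fun x => ?_, fun g' x => ?_⟩
  · have := (h23_aeval_commute (hC g') (Polynomial.dickson 1 (ℓ : ℤ) b))
    exact congrArg (fun f : Module.End ℤ M => f m) this.eq
  · exact hB _ x
  · show E (r g' (q x)) = _
    have e3 : ∀ m : M, (u ^ b) m = r (σ ^ b) m := fun m => by rw [hu, ← map_pow, hrl]
    have e4 : ∀ m : M, (ui ^ b) m = r ((σ ^ b)⁻¹) m := fun m => by
      rw [hui, ← map_pow, hrl, inv_pow]
    have e5 : r ((σ ^ b)⁻¹) (r g' (q x)) = r g⁻¹ (r g' (q x)) := by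
      have := hg (g⁻¹ * g') x
      rw [h23_r_mul r g⁻¹ g', h23_r_apply_inv] at this
      calc r ((σ ^ b)⁻¹) (r g' (q x))
          = r ((σ ^ b)⁻¹) (r (σ ^ b) (r g⁻¹ (r g' (q x)))) := by rw [this]
        _ = r g⁻¹ (r g' (q x)) := h23_r_inv_apply r _ _
    rw [hEeq, LinearMap.add_apply, LinearMap.smul_apply, e3, e4, hg, e5, ← Nat.cast_pow,
      natCast_zsmul]

end frob

end Fermat.Agent.GAL
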