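import Mathlib
import Fermat.Prelude.Def_CuspForm_HeckeGaloisRepDatum
import Fermat.Agent.GAL.h65_S31Core

/-!
# GAL: the S31 endgame, weak-level version

`h65_S31_of_levelsW`: the frozen statement S31 from

* a finite free `ℤ`-module `Λ` with a faithful action `ι` of the Hecke algebra,
* for every `n` a *weak* level (`h65_HasLevelW`): a Galois module `M` killed by `p ^ n`
  (think `M = J[p ^ n]`, not assumed finite) with Hecke operators `tM ℓ`, and an additive map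
  `q : Λ → M` with kernel `p ^ n Λ` (NOT assumed surjective) intertwining the Hecke operators;
  every `q x` has an open stabiliser; Eichler–Shimura `σ² - T_ℓ σ + ℓ = 0` on `M` at Frobenius
  elements; inertia outside `S` acts trivially on `M`,
* the weak Chebotarev statement `h65_WCheb`.

So only an INJECTIVE Hecke-equivariant comparison `Λ / p ^ n → J[p ^ n]` is needed.
-/

set_option autoImplicit false

open Polynomial

namespace Fermat.Agent.GAL

/-- A weak level `n` structure on the Hecke lattice `(Λ, ι)`. -/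
def h65_HasLevelW (p N : ℕ) [NeZero N] (S : Finset ℕ) {Λ : Type} [AddCommGroup Λ]
    (ι : CuspForm.heckeAlgebra N 2 (↑S : Set ℕ) →+* Module.End ℤ Λ) (n : ℕ) : Prop :=
  ∃ (M : Type) (_ : AddCommGroup M) (q : Λ →+ M)
    (r : (AlgebraicClosure ℚ ≃ₐ[ℚ] AlgebraicClosure ℚ) →* AddMonoid.End M)
    (tM : Nat.Primes → M →+ M),
    (∀ x : Λ, q x = 0 → ∃ y : Λ, x = (p ^ n : ℤ) • y) ∧
    (∀ m : M, p ^ n • m = 0) ∧
    (∀ x : Λ, ∃ L : IntermediateField ℚ (AlgebraicClosure ℚ), FiniteDimensional ℚ L ∧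
      ∀ σ : AlgebraicClosure ℚ ≃ₐ[ℚ] AlgebraicClosure ℚ, (∀ y ∈ L, σ y = y) →
        r σ (q x) = q x) ∧
    (∀ (ℓ : ℕ) (hℓ : ℓ.Prime) (hℓN : ¬ ℓ ∣ N) (hℓS : ℓ ∉ (↑S : Set ℕ)) (x : Λ),
      q (ι (CuspForm.heckeAlgebra.T hℓ hℓN hℓS) x) = tM ⟨ℓ, hℓ⟩ (q x)) ∧
    (∀ (ℓ : ℕ) (hℓ : ℓ.Prime), ¬ ℓ ∣ N → ℓ ∉ (↑S : Set ℕ) →
      ∀ A : ValuationSubring (AlgebraicClosure ℚ), A.LiesOverPrime ℓ →
      ∀ σ : AlgebraicClosure ℚ ≃ₐ[ℚ] AlgebraicClosure ℚ, A.IsFrobeniusAt σ ℓ →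
        ∀ m : M, r σ (r σ m) + ℓ • m = tM ⟨ℓ, hℓ⟩ (r σ m)) ∧
    (∀ q' : ℕ, q'.Prime → q' ∉ S → ∀ A : ValuationSubring (AlgebraicClosure ℚ),
      A.LiesOverPrime q' → ∀ τ ∈ A.inertiaSubgroupIn ℚ, r τ = 1)

section level

/-- The lattice side, weak version: `q` need not be surjective, the Hecke operator `tM` on `M`
is given and satisfies `σ² - tM σ + ℓ = 0` on all of `M`. -/
theorem h65_level_sideW {R : Type*} [CommRing R] {Λ : Type*} [AddCommGroup Λ]
    (ι : R →+* Module.End ℤ Λ) {M : Type*} [AddCommGroup M] (q : Λ →+ M)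
    {G : Type*} [Group G] (r : G →* AddMonoid.End M)
    (t : R) (tM : M →+ M) (ℓ : ℕ) (σ : G)
    (hhecke : ∀ x : Λ, q (ι t x) = tM (q x))
    (hfrob : ∀ m : M, r σ (r σ m) + ℓ • m = tM (r σ m)) (b : ℕ) (x : Λ) :
    q (ι (Polynomial.aeval t (Polynomial.dickson 1 (ℓ : ℤ) b)) x) =
      r (σ ^ b) (q x) + ℓ ^ b • r ((σ ^ b)⁻¹) (q x) := by
  let rl : G →* Module.End ℤ M :=
    { toFun := fun g => (r g).toIntLinearMap
      map_one' := by
        ext m
        rw [map_one]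
        rfl
      map_mul' := fun g h => by
        ext m
        rw [map_mul]
        rfl }
  have hrl : ∀ g m, rl g m = r g m := fun g m => rfl
  set u : Module.End ℤ M := rl σ with hu
  set ui : Module.End ℤ M := rl σ⁻¹ with hui
  have h1 : u * ui = 1 := by rw [hu, hui, ← map_mul, mul_inv_cancel, map_one]
  have h2 : ui * u = 1 := by rw [hu, hui, ← map_mul, inv_mul_cancel, map_one]
  set tl : Module.End ℤ M := u + (ℓ : ℤ) • ui with htl
  have htM : ∀ m : M, tM m = tl m := by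
    intro m
    have e1 : u (ui m) = m := by
      rw [← Module.End.mul_apply, h1, Module.End.one_apply]
    have e2 := hfrob (ui m)
    have e3 : r σ (ui m) = m := e1
    rw [e3] at e2
    rw [← e2, htl, LinearMap.add_apply, LinearMap.smul_apply, natCast_zsmul]
    rfl
  have hA : ∀ x : Λ, q (ι t x) = tl (q x) := fun x => by rw [hhecke, htM]
  have hB0 : ∀ (n : ℕ) (x : Λ), q ((ι t ^ n) x) = (tl ^ n) (q x) := by
    intro n
    induction n with
    | zero => intro x; simp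
    | succ n ih =>
      intro x
      rw [pow_succ, pow_succ, Module.End.mul_apply, Module.End.mul_apply, ih, hA]
  have hB : ∀ (P : ℤ[X]) (x : Λ), q (ι (Polynomial.aeval t P) x) =
      (Polynomial.aeval tl P) (q x) := by
    intro P x
    have e : ι (Polynomial.aeval t P) = Polynomial.aeval (ι t) P :=
      (Polynomial.aeval_algHom_apply ι.toIntAlgHom t P).symm
    rw [e, Polynomial.aeval_eq_sum_range, Polynomial.aeval_eq_sum_range, LinearMap.sum_apply,
      LinearMap.sum_apply, map_sum]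
    refine Finset.sum_congr rfl fun i _ => ?_
    rw [LinearMap.smul_apply, LinearMap.smul_apply, map_zsmul, hB0]
  rw [hB, htl, h65_dickson_inv u ui h1 h2, LinearMap.add_apply, LinearMap.smul_apply]
  have e3 : (u ^ b) (q x) = r (σ ^ b) (q x) := by rw [hu, ← map_pow, hrl]
  have e4 : (ui ^ b) (q x) = r ((σ ^ b)⁻¹) (q x) := by
    rw [hui, ← map_pow, hrl, inv_pow]
  rw [e3, e4]
  congr 1
  rw [← Nat.cast_pow, natCast_zsmul]

/-- A common finite level for the image of a finitely generated free lattice. -/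
theorem h65_exists_common_level {Λ : Type*} [AddCommGroup Λ] [Module.Free ℤ Λ]
    [Module.Finite ℤ Λ] {M : Type*} [AddCommGroup M] (q : Λ →+ M)
    (r : (AlgebraicClosure ℚ ≃ₐ[ℚ] AlgebraicClosure ℚ) →* AddMonoid.End M)
    (hstab : ∀ x : Λ, ∃ L : IntermediateField ℚ (AlgebraicClosure ℚ), FiniteDimensional ℚ L ∧
      ∀ σ : AlgebraicClosure ℚ ≃ₐ[ℚ] AlgebraicClosure ℚ, (∀ y ∈ L, σ y = y) →
        r σ (q x) = q x) :
    ∃ L : IntermediateField ℚ (AlgebraicClosure ℚ), FiniteDimensional ℚ L ∧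
      ∀ σ : AlgebraicClosure ℚ ≃ₐ[ℚ] AlgebraicClosure ℚ, (∀ y ∈ L, σ y = y) →
        ∀ x : Λ, r σ (q x) = q x := by
  classical
  let bas := Module.Free.chooseBasis ℤ Λ
  choose Lx hfin hfix using fun i => hstab (bas i)
  have : ∀ i, FiniteDimensional ℚ (Lx i) := hfin
  refine ⟨⨆ i, Lx i, IntermediateField.finiteDimensional_iSup_of_finite, fun σ hσ x => ?_⟩
  have hb : ∀ i, r σ (q (bas i)) = q (bas i) := fun i =>
    hfix i σ (fun y hy => hσ y ((le_iSup Lx i) hy))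
  have e : ((r σ).comp q).toIntLinearMap = q.toIntLinearMap := by
    apply bas.ext
    intro i
    exact hb i
  exact congrArg (fun f : Λ →ₗ[ℤ] M => f x) e

end level

section main

variable {p : ℕ} {N : ℕ} [NeZero N] {S : Finset ℕ}
  {𝒪 : Type} [CommRing 𝒪] [IsDomain 𝒪] [IsDiscreteValuationRing 𝒪]
  [IsAdicComplete (IsLocalRing.maximalIdeal 𝒪) 𝒪]
  {θ : CuspForm.heckeAlgebra N 2 (↑S : Set ℕ) →+* IsLocalRing.ResidueField 𝒪}
  {T : Type} [CommRing T] [IsLocalRing T] [IsNoetherianRing T]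
  [IsAdicComplete (IsLocalRing.maximalIdeal T) T] [Algebra 𝒪 T] [IsLocalHom (algebraMap 𝒪 T)]
  [Module.Finite 𝒪 T] [Module.Free 𝒪 T]

/-- **The S31 endgame, weak-level version.** -/
theorem h65_S31_of_levelsW (hp : p.Prime)
    (hp𝒪 : (p : 𝒪) ∈ IsLocalRing.maximalIdeal 𝒪) (hpS : p ∈ S)
    (hNS : ∀ q : ℕ, q.Prime → q ∣ N → q ∈ S)
    (H : CuspForm.HeckeGaloisRepDatum N (↑S : Set ℕ) 𝒪 θ T)
    {Λ : Type} [AddCommGroup Λ] [Module.Free ℤ Λ] [Module.Finite ℤ Λ]
    (ι : CuspForm.heckeAlgebra N 2 (↑S : Set ℕ) →+* Module.End ℤ Λ)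
    (hι : Function.Injective ι)
    (hlev : ∀ n : ℕ, h65_HasLevelW p N S ι n)
    (hcheb : h65_WCheb)
    (q : ℕ) (hq : q.Prime) (hqS : q ∉ S) :
    H.ρ.IsUnramifiedAt q := by
  intro P hP τ hτ
  apply h65_eq_one_of_trace H.ρ H.residual_absIrr τ
  intro g
  obtain ⟨c, hc⟩ := h65_saturation ι hι p
  have hpT : (p : T) ∈ IsLocalRing.maximalIdeal T := by
    have e : (p : T) = algebraMap 𝒪 T (p : 𝒪) := (map_natCast _ _).symm
    rw [e, IsLocalRing.mem_maximalIdeal, mem_nonunits_iff]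
    intro hu
    exact hp𝒪 (isUnit_of_map_unit (algebraMap 𝒪 T) _ hu)
  have key : ∀ k : ℕ, LinearMap.trace T H.ρ.V (H.ρ.ρ (g * τ)) -
      LinearMap.trace T H.ρ.V (H.ρ.ρ g) ∈ IsLocalRing.maximalIdeal T ^ k := by
    intro k
    set n := k + c with hn
    obtain ⟨M, _, qM, r, tM, hker, htors, hstab, hhecke, hfrob, hinert⟩ := hlev n
    obtain ⟨L₁, hL₁fin, hL₁⟩ := h65_exists_common_level qM r hstab
    obtain ⟨L₂, hL₂fin, hL₂⟩ := H.ρ.isAdicContinuous n
    have : NeZero (p ^ n) := ⟨pow_ne_zero n hp.ne_zero⟩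
    obtain ⟨ζ, hζ⟩ := HasEnoughRootsOfUnity.exists_primitiveRoot (AlgebraicClosure ℚ) (p ^ n)
    obtain ⟨L, hLfin, hLgal, hL₁L, hL₂L, hζL⟩ :=
      h65_exists_galois_level L₁ L₂ hL₁fin hL₂fin ζ
    have hLnor : Normal ℚ L := hLgal.to_normal
    have halg : Algebra.IsAlgebraic ℚ (AlgebraicClosure ℚ) := AlgebraicClosure.isAlgebraic ℚ
    have hclo : IsAlgClosure ℚ (AlgebraicClosure ℚ) := ⟨inferInstance, inferInstance⟩
    have hnorQ : Normal ℚ (AlgebraicClosure ℚ) := IsAlgClosure.normal ℚ (AlgebraicClosure ℚ)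
    have fact : ∀ g' : AlgebraicClosure ℚ ≃ₐ[ℚ] AlgebraicClosure ℚ,
        ∃ (D : CuspForm.heckeAlgebra N 2 (↑S : Set ℕ)) (a : ℕ),
          LinearMap.trace T H.ρ.V (H.ρ.ρ g') - H.π D ∈ IsLocalRing.maximalIdeal T ^ n ∧
          (∀ x : Λ, qM (ι D x) = r g' (qM x) + a • r g'⁻¹ (qM x)) ∧ g' ζ = ζ ^ a := by
      intro g'
      obtain ⟨ℓ, A, σ, b, hℓ, hℓS, hA, hσ, hσg⟩ := hcheb L hLfin hLgal g' S
      have hℓN : ¬ ℓ ∣ N := fun h => hℓS (hNS ℓ hℓ h)
      have hℓS' : ℓ ∉ (↑S : Set ℕ) := by simpa using hℓS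
      have hℓp : ℓ ≠ p := fun h => hℓS (h ▸ hpS)
      set t := CuspForm.heckeAlgebra.T hℓ hℓN hℓS' with ht
      refine ⟨Polynomial.aeval t (Polynomial.dickson 1 (ℓ : ℤ) b), ℓ ^ b, ?_, ?_, ?_⟩
      · have e1 := h65_trace_frob_pow H.ρ σ (H.π t) ℓ
          (H.charpoly_frob ℓ hℓ hℓN hℓS' A hA σ hσ) b
        have e2 : H.π (Polynomial.aeval t (Polynomial.dickson 1 (ℓ : ℤ) b)) =
            Polynomial.aeval (H.π t) (Polynomial.dickson 1 (ℓ : ℤ) b) :=
          (Polynomial.aeval_algHom_apply H.π.toIntAlgHom t _).symm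
        rw [e2, ← e1]
        exact h65_trace_congr H.ρ n L₂ hL₂ g' (σ ^ b) (fun x hx => hσg x (hL₂L hx))
      · intro x
        have e := h65_level_sideW ι qM r t (tM ⟨ℓ, hℓ⟩) ℓ σ (hhecke ℓ hℓ hℓN hℓS')
          (hfrob ℓ hℓ hℓN hℓS' A hA σ hσ) b x
        -- `g'⁻¹ * σ ^ b` fixes `L`
        have hfix1 : ∀ y ∈ L, (g'⁻¹ * σ ^ b) y = y := by
          intro y hy
          show g'⁻¹ ((σ ^ b) y) = y
          rw [hσg y hy]
          exact g'.symm_apply_apply y
        -- `g' * (σ ^ b)⁻¹` fixes `L` (normality)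
        have hfix2 : ∀ y ∈ L, (g' * (σ ^ b)⁻¹) y = y := by
          intro y hy
          have hz : (σ ^ b)⁻¹ y ∈ L := by
            have hmap := (IntermediateField.normal_iff_forall_map_le'.mp hLnor) (σ ^ b)⁻¹
            exact hmap ⟨y, hy, rfl⟩
          show g' ((σ ^ b)⁻¹ y) = y
          rw [← hσg _ hz]
          exact (σ ^ b).apply_symm_apply y
        have hr : r (σ ^ b) (qM x) = r g' (qM x) := by
          have h1 := hL₁ _ (fun y hy => hfix1 y (hL₁L hy)) x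
          have h2 : r (σ ^ b) = r g' * r (g'⁻¹ * σ ^ b) := by
            rw [← map_mul, mul_inv_cancel_left]
          rw [h2]
          show r g' (r (g'⁻¹ * σ ^ b) (qM x)) = r g' (qM x)
          rw [h1]
        have hr' : r ((σ ^ b)⁻¹) (qM x) = r g'⁻¹ (qM x) := by
          have h1 := hL₁ _ (fun y hy => hfix2 y (hL₁L hy)) x
          have h2 : r ((σ ^ b)⁻¹) = r g'⁻¹ * r (g' * (σ ^ b)⁻¹) := by
            rw [← map_mul, inv_mul_cancel_left]
          rw [h2]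
          show r g'⁻¹ (r (g' * (σ ^ b)⁻¹) (qM x)) = r g'⁻¹ (qM x)
          rw [h1]
        rw [e, hr, hr']
      · have hℓpn : ¬ ℓ ∣ p ^ n := fun h =>
          hℓp ((Nat.prime_dvd_prime_iff_eq hℓ hp).mp (hℓ.dvd_of_dvd_pow h))
        have h1 : σ ζ = ζ ^ ℓ := h65_frob_root A hℓ hA hσ hℓpn hζ.pow_eq_one
        have h2 : ∀ j : ℕ, (σ ^ j) ζ = ζ ^ (ℓ ^ j) := by
          intro j
          induction j with
          | zero => simp
          | succ j ih =>
            rw [pow_succ', AlgEquiv.mul_apply, ih, map_pow, h1, ← pow_mul, pow_succ']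
        rw [← hσg ζ hζL, h2]
    obtain ⟨D, a, hD1, hD2, hD3⟩ := fact g
    obtain ⟨D', a', hD'1, hD'2, hD'3⟩ := fact (g * τ)
    have hrτ : r τ = 1 := hinert q hq hqS P hP τ hτ
    have hrg : r (g * τ) = r g := by rw [map_mul, hrτ, mul_one]
    have hrgi : r (g * τ)⁻¹ = r g⁻¹ := by
      rw [mul_inv_rev, map_mul]
      have : r τ⁻¹ = 1 := by
        have h := map_mul r τ⁻¹ τ
        rw [inv_mul_cancel, map_one, hrτ, mul_one] at h
        exact h.symm
      rw [this, one_mul]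
    have hqp : ¬ q ∣ p ^ n := fun h => hqS (by
      have := (Nat.prime_dvd_prime_iff_eq hq hp).mp (hq.dvd_of_dvd_pow h)
      rw [this]
      exact hpS)
    have hτζ : τ ζ = ζ := h65_inertia_root P hq hP hτ hqp hζ.pow_eq_one
    have haa : ζ ^ a = ζ ^ a' := by
      rw [← hD3, ← hD'3]
      show g ζ = g (τ ζ)
      rw [hτζ]
    have hmod : a ≡ a' [MOD p ^ n] := by
      have hζ0 : ζ ≠ 0 := hζ.ne_zero (NeZero.ne _)
      have h1 : ζ ^ ((a' : ℤ) - a) = 1 := by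
        rw [zpow_sub₀ hζ0, zpow_natCast, zpow_natCast, haa, div_self (pow_ne_zero _ hζ0)]
      have h2 := (hζ.zpow_eq_one_iff_dvd _).mp h1
      exact Int.natCast_modEq_iff.mp (Int.modEq_iff_dvd.mpr h2)
    have hzero : ∀ x : Λ, qM (ι (D - D') x) = 0 := by
      intro x
      rw [map_sub, LinearMap.sub_apply, map_sub, hD2, hD'2, hrg, hrgi,
        h65_nsmul_eq_of_modEq hmod _ (htors _)]
      abel
    obtain ⟨y, hy⟩ := hc n (D - D') (fun v => hker _ (hzero v))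
    have hπ : H.π D - H.π D' ∈ IsLocalRing.maximalIdeal T ^ k := by
      rw [← map_sub, hy, show n - c = k by omega, zsmul_eq_mul, map_mul, map_intCast]
      push_cast
      exact Ideal.mul_mem_right _ _ (Ideal.pow_mem_pow hpT k)
    have hle : IsLocalRing.maximalIdeal T ^ n ≤ IsLocalRing.maximalIdeal T ^ k :=
      Ideal.pow_le_pow_right (by omega)
    have e : LinearMap.trace T H.ρ.V (H.ρ.ρ (g * τ)) - LinearMap.trace T H.ρ.V (H.ρ.ρ g) =
        (LinearMap.trace T H.ρ.V (H.ρ.ρ (g * τ)) - H.π D') -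
          (LinearMap.trace T H.ρ.V (H.ρ.ρ g) - H.π D) - (H.π D - H.π D') := by ring
    rw [e]
    exact Ideal.sub_mem _ (Ideal.sub_mem _ (hle hD'1) (hle hD1)) hπ
  have hbot := Ideal.iInf_pow_eq_bot_of_isLocalRing (IsLocalRing.maximalIdeal T)
    Ideal.IsPrime.ne_top'
  have hmem : LinearMap.trace T H.ρ.V (H.ρ.ρ (g * τ)) - LinearMap.trace T H.ρ.V (H.ρ.ρ g) ∈
      (⨅ i : ℕ, IsLocalRing.maximalIdeal T ^ i) := by
    rw [Ideal.mem_iInf]
    exact key
  rw [hbot] at hmem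
  exact sub_eq_zero.mp hmem

end main

end Fermat.Agent.GAL
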