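import Mathlib
import Fermat.Agent.GAL.h65_S31Core2

/-!
# GAL: the level predicate shared by the S31 and S30 endgames

`h65_HasLevelS p N S ι n` is the strong form of `h65_HasLevelW`: a Galois module `M` killed by
`p ^ n` (think `M = J₀(N)[p ^ n]`) with Hecke operators `tM ℓ` and an additive map `q : Λ → M`
with kernel `p ^ n Λ` intertwining the Hecke operators, such that

* (KER)   `q x = 0 → x ∈ p ^ n Λ`;
* (TORS)  `p ^ n • m = 0` for all `m : M`;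
* (STAB)  EVERY `m : M` is fixed by the automorphisms fixing some number field;
* (HECKE) `q (ι (T_ℓ) x) = tM ℓ (q x)` for `ℓ ∤ N`, `ℓ ∉ S`;
* (ES)    `σ² m + ℓ m = tM ℓ (σ m)` for a Frobenius element `σ` at ANY prime `ℓ ∤ N`, `ℓ ≠ p`;
* (INERT) inertia at ANY prime `q' ∤ N`, `q' ≠ p` acts trivially on `M`;
* (COMM)  the operators `tM ℓ` commute with the Galois action.

`h65_HasLevelS.toW` : it implies `h65_HasLevelW` when `p ∈ S` and the primes dividing `N` are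
in `S`.
-/

set_option autoImplicit false

namespace Fermat.Agent.GAL

/-- A strong level `n` structure on the Hecke lattice `(Λ, ι)`. -/
def h65_HasLevelS (p N : ℕ) [NeZero N] (S : Finset ℕ) {Λ : Type} [AddCommGroup Λ]
    (ι : CuspForm.heckeAlgebra N 2 (↑S : Set ℕ) →+* Module.End ℤ Λ) (n : ℕ) : Prop :=
  ∃ (M : Type) (_ : AddCommGroup M) (q : Λ →+ M)
    (r : (AlgebraicClosure ℚ ≃ₐ[ℚ] AlgebraicClosure ℚ) →* AddMonoid.End M)
    (tM : Nat.Primes → M →+ M),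
    (∀ x : Λ, q x = 0 → ∃ y : Λ, x = (p ^ n : ℤ) • y) ∧
    (∀ m : M, p ^ n • m = 0) ∧
    (∀ m : M, ∃ L : IntermediateField ℚ (AlgebraicClosure ℚ), FiniteDimensional ℚ L ∧
      ∀ σ : AlgebraicClosure ℚ ≃ₐ[ℚ] AlgebraicClosure ℚ, (∀ y ∈ L, σ y = y) → r σ m = m) ∧
    (∀ (ℓ : ℕ) (hℓ : ℓ.Prime) (hℓN : ¬ ℓ ∣ N) (hℓS : ℓ ∉ (↑S : Set ℕ)) (x : Λ),
      q (ι (CuspForm.heckeAlgebra.T hℓ hℓN hℓS) x) = tM ⟨ℓ, hℓ⟩ (q x)) ∧
    (∀ (ℓ : ℕ) (hℓ : ℓ.Prime), ¬ ℓ ∣ N → ℓ ≠ p →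
      ∀ A : ValuationSubring (AlgebraicClosure ℚ), A.LiesOverPrime ℓ →
      ∀ σ : AlgebraicClosure ℚ ≃ₐ[ℚ] AlgebraicClosure ℚ, A.IsFrobeniusAt σ ℓ →
        ∀ m : M, r σ (r σ m) + ℓ • m = tM ⟨ℓ, hℓ⟩ (r σ m)) ∧
    (∀ q' : ℕ, q'.Prime → ¬ q' ∣ N → q' ≠ p → ∀ A : ValuationSubring (AlgebraicClosure ℚ),
      A.LiesOverPrime q' → ∀ τ ∈ A.inertiaSubgroupIn ℚ, r τ = 1) ∧
    (∀ (ℓ : Nat.Primes) (g : AlgebraicClosure ℚ ≃ₐ[ℚ] AlgebraicClosure ℚ) (m : M),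
      tM ℓ (r g m) = r g (tM ℓ m))

/-- The strong level predicate implies the weak one. -/
theorem h65_HasLevelS.toW {p N : ℕ} [NeZero N] {S : Finset ℕ} {Λ : Type} [AddCommGroup Λ]
    {ι : CuspForm.heckeAlgebra N 2 (↑S : Set ℕ) →+* Module.End ℤ Λ} {n : ℕ}
    (hpS : p ∈ S) (hNS : ∀ q : ℕ, q.Prime → q ∣ N → q ∈ S)
    (h : h65_HasLevelS p N S ι n) : h65_HasLevelW p N S ι n := by
  obtain ⟨M, instM, q, r, tM, hker, htors, hstab, hhecke, hes, hinert, -⟩ := h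
  refine ⟨M, instM, q, r, tM, hker, htors, fun x => hstab (q x), hhecke, ?_, ?_⟩
  · intro ℓ hℓ hℓN hℓS
    exact hes ℓ hℓ hℓN (fun h => hℓS (by rw [h]; exact Finset.mem_coe.2 hpS))
  · intro q' hq' hq'S
    exact hinert q' hq' (fun h => hq'S (hNS q' hq' h)) (fun h => hq'S (by rw [h]; exact hpS))

end Fermat.Agent.GAL
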