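import Mathlib
import Fermat.Prelude.Def_CuspForm_HeckeGaloisRepDatum
import Fermat.Agent.GAL.h65_S31Core2
import Fermat.Agent.GAL.h65_LevelDef
import Fermat.Agent.GAL.h23_S30Adm

/-!
# GAL / S30, part (C): the pseudo-character from the levels

`h23_pseudo_of_levels_aux`: from a Hecke lattice `(Λ, ι)` with a level structure at every
`p ^ n` (a family `M n`, `q n : Λ → M n` with kernel `p ^ n Λ`, Galois action, Hecke operators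
commuting with Galois, Eichler–Shimura relation, trivial inertia outside `N p`) and the weak
Chebotarev statement, we construct

* `t : G_ℚ → 𝒪` with `t 1 = 2`, `t (g h) + d h * t (g h⁻¹) = t g * t h`, central,
* `d : G_ℚ →* 𝒪ˣ`, the `p`-adic cyclotomic character,

with `t (Frob_ℓ) = χ (T_ℓ)`, `d (Frob_ℓ) = ℓ`, `t (τ h) = t h` for inertia `τ` at `q ∤ N p`,
and adic continuity.  No compatibility between the levels is needed.
-/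

set_option autoImplicit false

open Polynomial

namespace Fermat.Agent.GAL

section limit

/-- Elements in all powers of `I` vanish (separatedness). -/
theorem h23_eq_zero_of_forall_mem {𝒪 : Type*} [CommRing 𝒪] (I : Ideal 𝒪) [IsAdicComplete I 𝒪]
    (x : 𝒪) (h : ∀ n : ℕ, x ∈ I ^ n) : x = 0 := by
  apply IsHausdorff.haus' (I := I) x
  intro n
  rw [SModEq.zero, smul_eq_mul, Ideal.mul_top]
  exact h n

/-- Limit of a system of approximations: if every `g` has approximations at all levels, any two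
levels have a common approximation and approximations at level `n` are unique modulo `I ^ n`,
then there is a function whose values are approximated at every level. -/
theorem h23_limit {𝒪 : Type*} [CommRing 𝒪] (I : Ideal 𝒪) [IsAdicComplete I 𝒪] {G : Type*}
    (Apx : ℕ → G → 𝒪 → Prop) (hex : ∀ (n m : ℕ) (g : G), ∃ τ, Apx n g τ ∧ Apx m g τ)
    (huniq : ∀ (n : ℕ) (g : G) (τ τ' : 𝒪), Apx n g τ → Apx n g τ' → τ - τ' ∈ I ^ n) :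
    ∃ t : G → 𝒪, ∀ (n : ℕ) (g : G) (τ : 𝒪), Apx n g τ → t g - τ ∈ I ^ n := by
  have key : ∀ g : G, ∃ L : 𝒪, ∀ (n : ℕ) (τ : 𝒪), Apx n g τ → L - τ ∈ I ^ n := by
    intro g
    choose f hf using fun n => hex n n g
    have hc : ∀ {m n : ℕ}, m ≤ n → f m ≡ f n [SMOD (I ^ m • ⊤ : Submodule 𝒪 𝒪)] := by
      intro m n hmn
      obtain ⟨τ, h1, h2⟩ := hex m n g
      have e1 := huniq m g _ _ (hf m).1 h1
      have e2 := huniq n g _ _ (hf n).1 h2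
      rw [SModEq.sub_mem, smul_eq_mul, Ideal.mul_top]
      have : f m - f n = (f m - τ) - (f n - τ) := by ring
      rw [this]
      exact Ideal.sub_mem _ e1 (Ideal.pow_le_pow_right hmn e2)
    obtain ⟨L, hL⟩ := IsPrecomplete.prec' (I := I) f hc
    refine ⟨L, fun n τ hτ => ?_⟩
    have e1 := hL n
    rw [SModEq.sub_mem, smul_eq_mul, Ideal.mul_top] at e1
    have e2 := huniq n g _ _ (hf n).1 hτ
    have : L - τ = (f n - τ) - (f n - L) := by ring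
    rw [this]
    exact Ideal.sub_mem _ e2 e1
  choose t ht using key
  exact ⟨t, fun n g τ h => ht g n τ h⟩

end limit

section roots

variable {F : Type*} [Field F]

theorem h23_modEq_of_pow_eq {ζ : F} {k a a' : ℕ} (hk : k ≠ 0) (hζ : IsPrimitiveRoot ζ k)
    (h : ζ ^ a = ζ ^ a') : a ≡ a' [MOD k] := by
  have hζ0 : ζ ≠ 0 := hζ.ne_zero hk
  have h1 : ζ ^ ((a' : ℤ) - a) = 1 := by
    rw [zpow_sub₀ hζ0, zpow_natCast, zpow_natCast, h, div_self (pow_ne_zero _ hζ0)]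
  have h2 := (hζ.zpow_eq_one_iff_dvd _).mp h1
  exact Int.natCast_modEq_iff.mp (Int.modEq_iff_dvd.mpr h2)

/-- Every automorphism raises a primitive root to a power. -/
theorem h23_exists_exponent {K₀ : Type*} [Field K₀] [Algebra K₀ F] {ζ : F} {k : ℕ} (hk : k ≠ 0)
    (hζ : IsPrimitiveRoot ζ k) (g : F ≃ₐ[K₀] F) : ∃ a : ℕ, g ζ = ζ ^ a := by
  have : NeZero k := ⟨hk⟩
  have h1 : (g ζ) ^ k = 1 := by rw [← map_pow, hζ.pow_eq_one, map_one]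
  obtain ⟨i, -, hi⟩ := hζ.eq_pow_of_pow_eq_one h1
  exact ⟨i, hi.symm⟩

/-- The exponent on a primitive root is the exponent on every root of the same order. -/
theorem h23_exponent_of_root {K₀ : Type*} [Field K₀] [Algebra K₀ F] {ζ ξ : F} {k : ℕ}
    (hk : k ≠ 0) (hζ : IsPrimitiveRoot ζ k) (hξ : ξ ^ k = 1) (g : F ≃ₐ[K₀] F) {a : ℕ}
    (h : g ζ = ζ ^ a) : g ξ = ξ ^ a := by
  have : NeZero k := ⟨hk⟩
  obtain ⟨i, -, hi⟩ := hζ.eq_pow_of_pow_eq_one hξ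
  rw [← hi, map_pow, h, ← pow_mul, ← pow_mul, mul_comm]

theorem h23_exponent_mul {K₀ : Type*} [Field K₀] [Algebra K₀ F] {ζ : F} (g h : F ≃ₐ[K₀] F)
    {a b : ℕ} (hg : g ζ = ζ ^ a) (hh : h ζ = ζ ^ b) : (g * h) ζ = ζ ^ (a * b) := by
  rw [AlgEquiv.mul_apply, hh, map_pow, hg, ← pow_mul]

end roots

section cast

theorem h23_cast_sub_mem {𝒪 : Type*} [CommRing 𝒪] (I : Ideal 𝒪) {p : ℕ} (hp : (p : 𝒪) ∈ I)
    {n a a' : ℕ} (h : a ≡ a' [MOD p ^ n]) : (a : 𝒪) - (a' : 𝒪) ∈ I ^ n := by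
  have h1 : (a' : ℤ) ≡ a [ZMOD ((p ^ n : ℕ) : ℤ)] := (Int.natCast_modEq_iff.mpr h).symm
  obtain ⟨e, he⟩ := h1.dvd
  have h2 : (a : 𝒪) - (a' : 𝒪) = (p : 𝒪) ^ n * (e : 𝒪) := by
    have := congrArg (Int.cast : ℤ → 𝒪) he
    push_cast at this
    exact this
  rw [h2]
  exact Ideal.mul_mem_right _ _ (Ideal.pow_mem_pow hp n)

end cast

section span

/-- If the stabiliser field of `q Λ` is contained in a normal field `L`, then the elements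
fixing `L` act trivially on the whole Galois span of `q Λ`. -/
theorem h23_triv_on_span {Λ M : Type*} [AddCommGroup Λ] [AddCommGroup M] (q : Λ →+ M)
    (r : (AlgebraicClosure ℚ ≃ₐ[ℚ] AlgebraicClosure ℚ) →* AddMonoid.End M)
    (L₁ L : IntermediateField ℚ (AlgebraicClosure ℚ))
    (hL₁ : ∀ σ : AlgebraicClosure ℚ ≃ₐ[ℚ] AlgebraicClosure ℚ, (∀ y ∈ L₁, σ y = y) →
      ∀ x : Λ, r σ (q x) = q x)
    (hLnor : Normal ℚ L) (hL₁L : L₁ ≤ L) (u : AlgebraicClosure ℚ ≃ₐ[ℚ] AlgebraicClosure ℚ)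
    (hu : ∀ y ∈ L, u y = y) (g' : AlgebraicClosure ℚ ≃ₐ[ℚ] AlgebraicClosure ℚ) (x : Λ) :
    r u (r g' (q x)) = r g' (q x) := by
  have halg : Algebra.IsAlgebraic ℚ (AlgebraicClosure ℚ) := AlgebraicClosure.isAlgebraic ℚ
  have hclo : IsAlgClosure ℚ (AlgebraicClosure ℚ) := ⟨inferInstance, inferInstance⟩
  have hnorQ : Normal ℚ (AlgebraicClosure ℚ) := IsAlgClosure.normal ℚ (AlgebraicClosure ℚ)
  have hw : ∀ y ∈ L₁, (g'⁻¹ * u * g') y = y := by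
    intro y hy
    have hz : g' y ∈ L := by
      have hmap := (IntermediateField.normal_iff_forall_map_le'.mp hLnor) g'
      exact hmap ⟨y, hL₁L hy, rfl⟩
    show g'⁻¹ (u (g' y)) = y
    rw [hu _ hz]
    exact g'.symm_apply_apply y
  have h1 := hL₁ _ hw x
  have h2 : u * g' = g' * (g'⁻¹ * u * g') := by group
  rw [← h23_r_mul, h2, h23_r_mul, h1]

end span

section main

variable (p : ℕ) [Fact p.Prime] (N : ℕ) [NeZero N] (S : Finset ℕ)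

/-- **(C) for a fixed family of level structures.** -/
theorem h23_pseudo_of_levels_aux
    (hpS : p ∈ S) (hNS : ∀ q : ℕ, q.Prime → q ∣ N → q ∈ S)
    (𝒪 : Type) [CommRing 𝒪] [IsLocalRing 𝒪] [IsAdicComplete (IsLocalRing.maximalIdeal 𝒪) 𝒪]
    (hp𝒪 : (p : 𝒪) ∈ IsLocalRing.maximalIdeal 𝒪)
    (χ : CuspForm.heckeAlgebra N 2 (↑S : Set ℕ) →+* 𝒪)
    {Λ : Type} [AddCommGroup Λ] [Module.Free ℤ Λ] [Module.Finite ℤ Λ]
    (ι : CuspForm.heckeAlgebra N 2 (↑S : Set ℕ) →+* Module.End ℤ Λ)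
    (hι : Function.Injective ι)
    (M : ℕ → Type) [∀ n, AddCommGroup (M n)] (qM : ∀ n, Λ →+ M n)
    (r : ∀ n, (AlgebraicClosure ℚ ≃ₐ[ℚ] AlgebraicClosure ℚ) →* AddMonoid.End (M n))
    (tM : ∀ n, Nat.Primes → M n →+ M n)
    (hker : ∀ (n : ℕ) (x : Λ), qM n x = 0 → ∃ y : Λ, x = (p ^ n : ℤ) • y)
    (htors : ∀ (n : ℕ) (m : M n), p ^ n • m = 0)
    (hstab : ∀ (n : ℕ) (x : Λ), ∃ L : IntermediateField ℚ (AlgebraicClosure ℚ),
      FiniteDimensional ℚ L ∧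
      ∀ σ : AlgebraicClosure ℚ ≃ₐ[ℚ] AlgebraicClosure ℚ, (∀ y ∈ L, σ y = y) →
        r n σ (qM n x) = qM n x)
    (hhecke : ∀ (n : ℕ) (ℓ : ℕ) (hℓ : ℓ.Prime) (hℓN : ¬ ℓ ∣ N) (hℓS : ℓ ∉ (↑S : Set ℕ)) (x : Λ),
      qM n (ι (CuspForm.heckeAlgebra.T hℓ hℓN hℓS) x) = tM n ⟨ℓ, hℓ⟩ (qM n x))
    (hES : ∀ (n : ℕ) (ℓ : ℕ) (hℓ : ℓ.Prime), ¬ ℓ ∣ N → ℓ ∉ (↑S : Set ℕ) →
      ∀ A : ValuationSubring (AlgebraicClosure ℚ), A.LiesOverPrime ℓ →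
      ∀ σ : AlgebraicClosure ℚ ≃ₐ[ℚ] AlgebraicClosure ℚ, A.IsFrobeniusAt σ ℓ →
        ∀ m : M n, r n σ (r n σ m) + ℓ • m = tM n ⟨ℓ, hℓ⟩ (r n σ m))
    (hcomm : ∀ (n : ℕ) (ℓ : Nat.Primes) (g : AlgebraicClosure ℚ ≃ₐ[ℚ] AlgebraicClosure ℚ)
      (m : M n), tM n ℓ (r n g m) = r n g (tM n ℓ m))
    (hinert : ∀ (n : ℕ) (q' : ℕ), q'.Prime → ¬ q' ∣ N → q' ≠ p →
      ∀ A : ValuationSubring (AlgebraicClosure ℚ), A.LiesOverPrime q' →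
      ∀ τ ∈ A.inertiaSubgroupIn ℚ, r n τ = 1)
    (hcheb : h65_WCheb) :
    ∃ (t : (AlgebraicClosure ℚ ≃ₐ[ℚ] AlgebraicClosure ℚ) → 𝒪)
      (d : (AlgebraicClosure ℚ ≃ₐ[ℚ] AlgebraicClosure ℚ) →* 𝒪ˣ),
      t 1 = 2 ∧
      (∀ g h, t (g * h) + (d h : 𝒪) * t (g * h⁻¹) = t g * t h) ∧
      (∀ g h, t (g * h) = t (h * g)) ∧
      (∀ (n : ℕ) (g : AlgebraicClosure ℚ ≃ₐ[ℚ] AlgebraicClosure ℚ) (ζ : AlgebraicClosure ℚ)
        (a : ℕ), IsPrimitiveRoot ζ (p ^ n) → g ζ = ζ ^ a →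
        (d g : 𝒪) - (a : 𝒪) ∈ IsLocalRing.maximalIdeal 𝒪 ^ n) ∧
      (∀ (ℓ : ℕ) (hℓ : ℓ.Prime) (hℓN : ¬ ℓ ∣ N) (hℓS : ℓ ∉ (↑S : Set ℕ))
        (A : ValuationSubring (AlgebraicClosure ℚ)), A.LiesOverPrime ℓ →
        ∀ σ : AlgebraicClosure ℚ ≃ₐ[ℚ] AlgebraicClosure ℚ, A.IsFrobeniusAt σ ℓ →
          t σ = χ (CuspForm.heckeAlgebra.T hℓ hℓN hℓS) ∧ (d σ : 𝒪) = (ℓ : 𝒪)) ∧
      (∀ q : ℕ, q.Prime → ¬ q ∣ N → q ≠ p → ∀ A : ValuationSubring (AlgebraicClosure ℚ),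
        A.LiesOverPrime q → ∀ τ ∈ A.inertiaSubgroupIn ℚ, (∀ h, t (τ * h) = t h) ∧ d τ = 1) ∧
      (∀ n : ℕ, ∃ L : IntermediateField ℚ (AlgebraicClosure ℚ), FiniteDimensional ℚ L ∧
        ∀ u : AlgebraicClosure ℚ ≃ₐ[ℚ] AlgebraicClosure ℚ, (∀ x ∈ L, u x = x) →
          (∀ h, t (u * h) - t h ∈ IsLocalRing.maximalIdeal 𝒪 ^ n) ∧
          (d u : 𝒪) - 1 ∈ IsLocalRing.maximalIdeal 𝒪 ^ n) := by
  classical
  have hp : p.Prime := Fact.out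
  have hpk : ∀ k : ℕ, p ^ k ≠ 0 := fun k => pow_ne_zero k hp.ne_zero
  obtain ⟨c₀, hc₀⟩ := h65_saturation ι hι p
  -- primitive roots of unity
  have hroot : ∀ n : ℕ, ∃ ζ : AlgebraicClosure ℚ, IsPrimitiveRoot ζ (p ^ n) := fun n => by
    have : NeZero (p ^ n) := ⟨hpk n⟩
    exact HasEnoughRootsOfUnity.exists_primitiveRoot (AlgebraicClosure ℚ) (p ^ n)
  choose ζ hζ using hroot
  -- Galois level fields
  have hlevel : ∀ n : ℕ, ∃ L : IntermediateField ℚ (AlgebraicClosure ℚ),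
      FiniteDimensional ℚ L ∧ IsGalois ℚ L ∧
      (∀ σ : AlgebraicClosure ℚ ≃ₐ[ℚ] AlgebraicClosure ℚ, (∀ y ∈ L, σ y = y) →
        ∀ (g' : AlgebraicClosure ℚ ≃ₐ[ℚ] AlgebraicClosure ℚ) (x : Λ),
          r n σ (r n g' (qM n x)) = r n g' (qM n x)) ∧ ζ n ∈ L := by
    intro n
    obtain ⟨L₁, hL₁fin, hL₁⟩ := h65_exists_common_level (qM n) (r n) (hstab n)
    obtain ⟨L, hLfin, hLgal, hL₁L, -, hζL⟩ :=
      h65_exists_galois_level L₁ L₁ hL₁fin hL₁fin (ζ n)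
    exact ⟨L, hLfin, hLgal, fun σ hσ g' x =>
      h23_triv_on_span (qM n) (r n) L₁ L hL₁ hLgal.to_normal hL₁L σ hσ g' x, hζL⟩
  choose Lv hLvfin hLvgal hLvtriv hLvζ using hlevel
  -- Frobenius powers give admissible pairs
  have hfrobpow : ∀ (k : ℕ) (ℓ : ℕ) (hℓ : ℓ.Prime) (hℓN : ¬ ℓ ∣ N) (hℓS : ℓ ∉ (↑S : Set ℕ))
      (A : ValuationSubring (AlgebraicClosure ℚ)), A.LiesOverPrime ℓ →
      ∀ σ : AlgebraicClosure ℚ ≃ₐ[ℚ] AlgebraicClosure ℚ, A.IsFrobeniusAt σ ℓ →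
      ∀ (b : ℕ) (g : AlgebraicClosure ℚ ≃ₐ[ℚ] AlgebraicClosure ℚ),
        (∀ y ∈ Lv k, (σ ^ b) y = g y) →
        h23_Adm ι (qM k) (r k) g
          (Polynomial.aeval (CuspForm.heckeAlgebra.T hℓ hℓN hℓS)
            (Polynomial.dickson 1 (ℓ : ℤ) b)) (ℓ ^ b) ∧ g (ζ k) = ζ k ^ (ℓ ^ b) := by
    intro k ℓ hℓ hℓN hℓS A hA σ hσ b g hσg
    have hℓp : ℓ ≠ p := fun h => hℓS (by rw [h]; exact_mod_cast hpS)
    refine ⟨h23_Adm_frob_pow (CuspForm.heckeAlgebra.T hℓ hℓN hℓS) (tM k ⟨ℓ, hℓ⟩) ℓ σ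
      (hhecke k ℓ hℓ hℓN hℓS) (hES k ℓ hℓ hℓN hℓS A hA σ hσ) (hcomm k ⟨ℓ, hℓ⟩) b g
      (fun g' x => ?_), ?_⟩
    · have hw : ∀ y ∈ Lv k, (g⁻¹ * σ ^ b) y = y := by
        intro y hy
        show g⁻¹ ((σ ^ b) y) = y
        rw [hσg y hy]
        exact g.symm_apply_apply y
      have h1 := hLvtriv k (g⁻¹ * σ ^ b) hw g' x
      calc r k (σ ^ b) (r k g' (qM k x))
          = r k (g * (g⁻¹ * σ ^ b)) (r k g' (qM k x)) := by rw [mul_inv_cancel_left]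
        _ = r k g (r k (g⁻¹ * σ ^ b) (r k g' (qM k x))) := h23_r_mul _ _ _ _
        _ = r k g (r k g' (qM k x)) := by rw [h1]
    · have hℓpk : ¬ ℓ ∣ p ^ k := fun h =>
        hℓp ((Nat.prime_dvd_prime_iff_eq hℓ hp).mp (hℓ.dvd_of_dvd_pow h))
      have h1 : σ (ζ k) = ζ k ^ ℓ := h65_frob_root A hℓ hA hσ hℓpk (hζ k).pow_eq_one
      have h2 : ∀ j : ℕ, (σ ^ j) (ζ k) = ζ k ^ (ℓ ^ j) := by
        intro j
        induction j with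
        | zero => simp
        | succ j ih =>
          rw [pow_succ', AlgEquiv.mul_apply, ih, map_pow, h1, ← pow_mul, pow_succ']
      rw [← hσg (ζ k) (hLvζ k), h2]
  -- simultaneous existence at two levels
  have hex2 : ∀ (k k' : ℕ) (g : AlgebraicClosure ℚ ≃ₐ[ℚ] AlgebraicClosure ℚ),
      ∃ (D : CuspForm.heckeAlgebra N 2 (↑S : Set ℕ)) (a : ℕ),
        (h23_Adm ι (qM k) (r k) g D a ∧ g (ζ k) = ζ k ^ a) ∧
        (h23_Adm ι (qM k') (r k') g D a ∧ g (ζ k') = ζ k' ^ a) := by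
    intro k k' g
    obtain ⟨L, hLfin, hLgal, hL₁, hL₂, -⟩ :=
      h65_exists_galois_level (Lv k) (Lv k') (hLvfin k) (hLvfin k') 0
    obtain ⟨ℓ, A, σ, b, hℓ, hℓS, hA, hσ, hσg⟩ := hcheb L hLfin hLgal g S
    have hℓN : ¬ ℓ ∣ N := fun h => hℓS (hNS ℓ hℓ h)
    have hℓS' : ℓ ∉ (↑S : Set ℕ) := by simpa using hℓS
    exact ⟨_, _, hfrobpow k ℓ hℓ hℓN hℓS' A hA σ hσ b g (fun y hy => hσg y (hL₁ hy)),
      hfrobpow k' ℓ hℓ hℓN hℓS' A hA σ hσ b g (fun y hy => hσg y (hL₂ hy))⟩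
  have hex1 : ∀ (k : ℕ) (g : AlgebraicClosure ℚ ≃ₐ[ℚ] AlgebraicClosure ℚ),
      ∃ (D : CuspForm.heckeAlgebra N 2 (↑S : Set ℕ)) (a : ℕ),
        h23_Adm ι (qM k) (r k) g D a ∧ g (ζ k) = ζ k ^ a := by
    intro k g
    obtain ⟨D, a, h, -⟩ := hex2 k k g
    exact ⟨D, a, h⟩
  -- reduction to the saturation constant
  have hsat : ∀ (n : ℕ) (D : CuspForm.heckeAlgebra N 2 (↑S : Set ℕ)),
      (∀ x : Λ, qM (n + c₀) (ι D x) = 0) → χ D ∈ IsLocalRing.maximalIdeal 𝒪 ^ n := by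
    intro n D hD
    obtain ⟨y, hy⟩ := hc₀ (n + c₀) D (fun v => hker _ _ (hD v))
    rw [hy, show n + c₀ - c₀ = n by omega, zsmul_eq_mul, map_mul, map_intCast]
    push_cast
    exact Ideal.mul_mem_right _ _ (Ideal.pow_mem_pow hp𝒪 n)
  -- the approximations of the trace
  let Apx : ℕ → (AlgebraicClosure ℚ ≃ₐ[ℚ] AlgebraicClosure ℚ) → 𝒪 → Prop := fun n g τ =>
    ∃ (D : CuspForm.heckeAlgebra N 2 (↑S : Set ℕ)) (a : ℕ),
      h23_Adm ι (qM (n + c₀)) (r (n + c₀)) g D a ∧ g (ζ (n + c₀)) = ζ (n + c₀) ^ a ∧ τ = χ D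
  have hApx_ex : ∀ (n m : ℕ) (g : AlgebraicClosure ℚ ≃ₐ[ℚ] AlgebraicClosure ℚ),
      ∃ τ, Apx n g τ ∧ Apx m g τ := by
    intro n m g
    obtain ⟨D, a, ⟨h1, h2⟩, ⟨h3, h4⟩⟩ := hex2 (n + c₀) (m + c₀) g
    exact ⟨χ D, ⟨D, a, h1, h2, rfl⟩, ⟨D, a, h3, h4, rfl⟩⟩
  have hApx_uniq : ∀ (n : ℕ) (g : AlgebraicClosure ℚ ≃ₐ[ℚ] AlgebraicClosure ℚ) (τ τ' : 𝒪),
      Apx n g τ → Apx n g τ' → τ - τ' ∈ IsLocalRing.maximalIdeal 𝒪 ^ n := by
    rintro n g _ _ ⟨D, a, hD, ha, rfl⟩ ⟨D', a', hD', ha', rfl⟩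
    have hmod : a ≡ a' [MOD p ^ (n + c₀)] :=
      h23_modEq_of_pow_eq (hpk _) (hζ _) (ha.symm.trans ha')
    rw [← map_sub]
    exact hsat n _ (fun x => h23_Adm_sub (htors (n + c₀)) hD hD' hmod x)
  obtain ⟨t, ht⟩ := h23_limit (IsLocalRing.maximalIdeal 𝒪) Apx hApx_ex hApx_uniq
  -- the approximations of the cyclotomic character
  let Apd : ℕ → (AlgebraicClosure ℚ ≃ₐ[ℚ] AlgebraicClosure ℚ) → 𝒪 → Prop := fun n g δ =>
    ∃ a : ℕ, g (ζ n) = ζ n ^ a ∧ δ = (a : 𝒪)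
  have hApd_ex : ∀ (n m : ℕ) (g : AlgebraicClosure ℚ ≃ₐ[ℚ] AlgebraicClosure ℚ),
      ∃ δ, Apd n g δ ∧ Apd m g δ := by
    intro n m g
    obtain ⟨a, ha⟩ := h23_exists_exponent (hpk (max n m)) (hζ (max n m)) g
    have h1 : ζ n ^ p ^ max n m = 1 := by
      obtain ⟨e, he⟩ := pow_dvd_pow p (le_max_left n m)
      rw [he, pow_mul, (hζ n).pow_eq_one, one_pow]
    have h2 : ζ m ^ p ^ max n m = 1 := by
      obtain ⟨e, he⟩ := pow_dvd_pow p (le_max_right n m)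
      rw [he, pow_mul, (hζ m).pow_eq_one, one_pow]
    exact ⟨(a : 𝒪), ⟨a, h23_exponent_of_root (hpk _) (hζ _) h1 g ha, rfl⟩,
      ⟨a, h23_exponent_of_root (hpk _) (hζ _) h2 g ha, rfl⟩⟩
  have hApd_uniq : ∀ (n : ℕ) (g : AlgebraicClosure ℚ ≃ₐ[ℚ] AlgebraicClosure ℚ) (δ δ' : 𝒪),
      Apd n g δ → Apd n g δ' → δ - δ' ∈ IsLocalRing.maximalIdeal 𝒪 ^ n := by
    rintro n g _ _ ⟨a, ha, rfl⟩ ⟨a', ha', rfl⟩
    exact h23_cast_sub_mem _ hp𝒪 (h23_modEq_of_pow_eq (hpk _) (hζ _) (ha.symm.trans ha'))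
  obtain ⟨d₀, hd₀'⟩ := h23_limit (IsLocalRing.maximalIdeal 𝒪) Apd hApd_ex hApd_uniq
  have hd₀ : ∀ (n : ℕ) (g : AlgebraicClosure ℚ ≃ₐ[ℚ] AlgebraicClosure ℚ) (a : ℕ),
      g (ζ n) = ζ n ^ a → d₀ g - (a : 𝒪) ∈ IsLocalRing.maximalIdeal 𝒪 ^ n :=
    fun n g a ha => hd₀' n g a ⟨a, ha, rfl⟩
  have hsep : ∀ x : 𝒪, (∀ n : ℕ, x ∈ IsLocalRing.maximalIdeal 𝒪 ^ n) → x = 0 :=
    h23_eq_zero_of_forall_mem _
  have hle : ∀ n : ℕ, IsLocalRing.maximalIdeal 𝒪 ^ (n + c₀) ≤ IsLocalRing.maximalIdeal 𝒪 ^ n :=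
    fun n => Ideal.pow_le_pow_right (Nat.le_add_right n c₀)
  -- `d₀` is a monoid homomorphism
  have hd1 : d₀ 1 = 1 := by
    refine sub_eq_zero.mp (hsep _ fun n => ?_)
    have := hd₀ n 1 1 (by simp)
    simpa using this
  have hdmul : ∀ g h, d₀ (g * h) = d₀ g * d₀ h := by
    intro g h
    refine sub_eq_zero.mp (hsep _ fun n => ?_)
    obtain ⟨a, ha⟩ := h23_exists_exponent (hpk n) (hζ n) g
    obtain ⟨b, hb⟩ := h23_exists_exponent (hpk n) (hζ n) h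
    have e1 := hd₀ n g a ha
    have e2 := hd₀ n h b hb
    have e3 := hd₀ n (g * h) (a * b) (h23_exponent_mul g h ha hb)
    have : d₀ (g * h) - d₀ g * d₀ h =
        (d₀ (g * h) - ((a * b : ℕ) : 𝒪)) - (d₀ g - a) * d₀ h - a * (d₀ h - b) := by
      push_cast
      ring
    rw [this]
    exact Ideal.sub_mem _ (Ideal.sub_mem _ e3 (Ideal.mul_mem_right _ _ e1))
      (Ideal.mul_mem_left _ _ e2)
  let dm : (AlgebraicClosure ℚ ≃ₐ[ℚ] AlgebraicClosure ℚ) →* 𝒪 :=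
    { toFun := d₀, map_one' := hd1, map_mul' := hdmul }
  have hdm : ∀ g, ((dm.toHomUnits g : 𝒪ˣ) : 𝒪) = d₀ g := fun g => rfl
  -- transport of admissibility along elements acting trivially
  have htriv : ∀ (n : ℕ) (u h : AlgebraicClosure ℚ ≃ₐ[ℚ] AlgebraicClosure ℚ),
      (∀ (g' : AlgebraicClosure ℚ ≃ₐ[ℚ] AlgebraicClosure ℚ) (x : Λ),
        r (n + c₀) u (r (n + c₀) g' (qM (n + c₀) x)) = r (n + c₀) g' (qM (n + c₀) x)) →
      u (ζ (n + c₀)) = ζ (n + c₀) →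
      t (u * h) - t h ∈ IsLocalRing.maximalIdeal 𝒪 ^ n := by
    intro n u h hu huζ
    obtain ⟨D, a, hD, ha⟩ := hex1 (n + c₀) h
    have e1 := ht n h (χ D) ⟨D, a, hD, ha, rfl⟩
    have e2 := ht n (u * h) (χ D) ⟨D, a, h23_Adm_left_triv hu hD, by
      rw [AlgEquiv.mul_apply, ha, map_pow, huζ], rfl⟩
    have : t (u * h) - t h = (t (u * h) - χ D) - (t h - χ D) := by ring
    rw [this]
    exact Ideal.sub_mem _ e2 e1
  refine ⟨t, dm.toHomUnits, ?_, ?_, ?_, ?_, ?_, ?_, ?_⟩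
  · -- t 1 = 2
    refine sub_eq_zero.mp (hsep _ fun n => ?_)
    have := ht n 1 (χ 2) ⟨2, 1, h23_Adm_one, by simp, rfl⟩
    rwa [map_ofNat] at this
  · -- the pseudo-character identity
    intro g h
    refine sub_eq_zero.mp (hsep _ fun n => ?_)
    obtain ⟨Dg, ag, hDg, hag⟩ := hex1 (n + c₀) g
    obtain ⟨Dh, ah, hDh, hah⟩ := hex1 (n + c₀) h
    obtain ⟨Dgh, agh, hDgh, hagh⟩ := hex1 (n + c₀) (g * h)
    obtain ⟨D', a', hD', ha'⟩ := hex1 (n + c₀) (g * h⁻¹)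
    have h1 : agh ≡ ag * ah [MOD p ^ (n + c₀)] :=
      h23_modEq_of_pow_eq (hpk _) (hζ _) (hagh.symm.trans (h23_exponent_mul g h hag hah))
    have h2 : ah * a' ≡ ag [MOD p ^ (n + c₀)] := by
      have e : (g * h⁻¹ * h) (ζ (n + c₀)) = ζ (n + c₀) ^ (a' * ah) :=
        h23_exponent_mul (g * h⁻¹) h ha' hah
      rw [inv_mul_cancel_right, hag] at e
      rw [mul_comm]
      exact (h23_modEq_of_pow_eq (hpk _) (hζ _) e).symm
    have e0 : χ Dg * χ Dh - χ Dgh - (ah : 𝒪) * χ D' ∈ IsLocalRing.maximalIdeal 𝒪 ^ n := by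
      have := hsat n _ (fun x => h23_Adm_mul (htors (n + c₀)) hDg hDh hDgh hD' h1 h2 x)
      simpa only [map_sub, map_mul, map_natCast] using this
    have e1 := ht n g (χ Dg) ⟨Dg, ag, hDg, hag, rfl⟩
    have e2 := ht n h (χ Dh) ⟨Dh, ah, hDh, hah, rfl⟩
    have e3 := ht n (g * h) (χ Dgh) ⟨Dgh, agh, hDgh, hagh, rfl⟩
    have e4 := ht n (g * h⁻¹) (χ D') ⟨D', a', hD', ha', rfl⟩
    have e5 := hle n (hd₀ (n + c₀) h ah hah)
    rw [hdm]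
    have : t (g * h) + d₀ h * t (g * h⁻¹) - t g * t h =
        (t (g * h) - χ Dgh) + (d₀ h - ah) * t (g * h⁻¹) + ah * (t (g * h⁻¹) - χ D') -
          (t g - χ Dg) * t h - χ Dg * (t h - χ Dh) -
          (χ Dg * χ Dh - χ Dgh - (ah : 𝒪) * χ D') := by ring
    rw [this]
    exact Ideal.sub_mem _ (Ideal.sub_mem _ (Ideal.sub_mem _ (Ideal.add_mem _ (Ideal.add_mem _ e3
      (Ideal.mul_mem_right _ _ e5)) (Ideal.mul_mem_left _ _ e4)) (Ideal.mul_mem_right _ _ e1))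
      (Ideal.mul_mem_left _ _ e2)) e0
  · -- centrality
    intro g h
    refine sub_eq_zero.mp (hsep _ fun n => ?_)
    obtain ⟨D, a, hD, ha⟩ := hex1 (n + c₀) (g * h)
    obtain ⟨ag, hag⟩ := h23_exists_exponent (hpk (n + c₀)) (hζ (n + c₀)) g
    obtain ⟨ah, hah⟩ := h23_exists_exponent (hpk (n + c₀)) (hζ (n + c₀)) h
    have ha2 : (h * g) (ζ (n + c₀)) = ζ (n + c₀) ^ a := by
      rw [h23_exponent_mul h g hah hag, mul_comm, ← h23_exponent_mul g h hag hah, ha]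
    have e1 := ht n (g * h) (χ D) ⟨D, a, hD, ha, rfl⟩
    have e2 := ht n (h * g) (χ D) ⟨D, a, h23_Adm_comm hD, ha2, rfl⟩
    have : t (g * h) - t (h * g) = (t (g * h) - χ D) - (t (h * g) - χ D) := by ring
    rw [this]
    exact Ideal.sub_mem _ e1 e2
  · -- the cyclotomic character
    intro n g ζ' a hζ' ha
    rw [hdm]
    exact hd₀ n g a (h23_exponent_of_root (hpk n) hζ' (hζ n).pow_eq_one g ha)
  · -- Frobenius elements
    intro ℓ hℓ hℓN hℓS A hA σ hσ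
    have hℓp : ℓ ≠ p := fun h => hℓS (by rw [h]; exact_mod_cast hpS)
    constructor
    · refine sub_eq_zero.mp (hsep _ fun n => ?_)
      obtain ⟨h1, h2⟩ := hfrobpow (n + c₀) ℓ hℓ hℓN hℓS A hA σ hσ 1 σ (fun y _ => by rw [pow_one])
      rw [Polynomial.dickson_one, Polynomial.aeval_X, pow_one] at h1
      rw [pow_one] at h2
      exact ht n σ _ ⟨_, ℓ, h1, h2, rfl⟩
    · rw [hdm]
      refine sub_eq_zero.mp (hsep _ fun n => ?_)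
      have hℓpk : ¬ ℓ ∣ p ^ n := fun h =>
        hℓp ((Nat.prime_dvd_prime_iff_eq hℓ hp).mp (hℓ.dvd_of_dvd_pow h))
      exact hd₀ n σ ℓ (h65_frob_root A hℓ hA hσ hℓpk (hζ n).pow_eq_one)
  · -- inertia
    intro q' hq' hq'N hq'p A hA τ hτ
    have hτζ : ∀ k : ℕ, τ (ζ k) = ζ k := fun k => by
      have hqpk : ¬ q' ∣ p ^ k := fun h =>
        hq'p ((Nat.prime_dvd_prime_iff_eq hq' hp).mp (hq'.dvd_of_dvd_pow h))
      exact h65_inertia_root A hq' hA hτ hqpk (hζ k).pow_eq_one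
    constructor
    · intro h
      refine sub_eq_zero.mp (hsep _ fun n => ?_)
      refine htriv n τ h (fun g' x => ?_) (hτζ _)
      rw [hinert (n + c₀) q' hq' hq'N hq'p A hA τ hτ]
      rfl
    · apply Units.ext
      rw [hdm, Units.val_one]
      refine sub_eq_zero.mp (hsep _ fun n => ?_)
      have := hd₀ n τ 1 (by rw [hτζ, pow_one])
      simpa using this
  · -- continuity
    intro n
    refine ⟨Lv (n + c₀), hLvfin _, fun u hu => ⟨fun h => ?_, ?_⟩⟩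
    · exact htriv n u h (hLvtriv (n + c₀) u hu) (hu _ (hLvζ _))
    · rw [hdm]
      have := hle n (hd₀ (n + c₀) u 1 (by rw [hu _ (hLvζ _), pow_one]))
      simpa using this

/-- **(C): the pseudo-character from the levels** (official level predicate `h65_HasLevelS`). -/
theorem h23_pseudo_of_levels
    (hpS : p ∈ S) (hNS : ∀ q : ℕ, q.Prime → q ∣ N → q ∈ S)
    (𝒪 : Type) [CommRing 𝒪] [IsLocalRing 𝒪] [IsAdicComplete (IsLocalRing.maximalIdeal 𝒪) 𝒪]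
    (hp𝒪 : (p : 𝒪) ∈ IsLocalRing.maximalIdeal 𝒪)
    (χ : CuspForm.heckeAlgebra N 2 (↑S : Set ℕ) →+* 𝒪)
    {Λ : Type} [AddCommGroup Λ] [Module.Free ℤ Λ] [Module.Finite ℤ Λ]
    (ι : CuspForm.heckeAlgebra N 2 (↑S : Set ℕ) →+* Module.End ℤ Λ)
    (hι : Function.Injective ι)
    (hlev : ∀ n : ℕ, h65_HasLevelS p N S ι n)
    (hcheb : h65_WCheb) :
    ∃ (t : (AlgebraicClosure ℚ ≃ₐ[ℚ] AlgebraicClosure ℚ) → 𝒪)
      (d : (AlgebraicClosure ℚ ≃ₐ[ℚ] AlgebraicClosure ℚ) →* 𝒪ˣ),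
      t 1 = 2 ∧
      (∀ g h, t (g * h) + (d h : 𝒪) * t (g * h⁻¹) = t g * t h) ∧
      (∀ g h, t (g * h) = t (h * g)) ∧
      (∀ (n : ℕ) (g : AlgebraicClosure ℚ ≃ₐ[ℚ] AlgebraicClosure ℚ) (ζ : AlgebraicClosure ℚ)
        (a : ℕ), IsPrimitiveRoot ζ (p ^ n) → g ζ = ζ ^ a →
        (d g : 𝒪) - (a : 𝒪) ∈ IsLocalRing.maximalIdeal 𝒪 ^ n) ∧
      (∀ (ℓ : ℕ) (hℓ : ℓ.Prime) (hℓN : ¬ ℓ ∣ N) (hℓS : ℓ ∉ (↑S : Set ℕ))
        (A : ValuationSubring (AlgebraicClosure ℚ)), A.LiesOverPrime ℓ →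
        ∀ σ : AlgebraicClosure ℚ ≃ₐ[ℚ] AlgebraicClosure ℚ, A.IsFrobeniusAt σ ℓ →
          t σ = χ (CuspForm.heckeAlgebra.T hℓ hℓN hℓS) ∧ (d σ : 𝒪) = (ℓ : 𝒪)) ∧
      (∀ q : ℕ, q.Prime → ¬ q ∣ N → q ≠ p → ∀ A : ValuationSubring (AlgebraicClosure ℚ),
        A.LiesOverPrime q → ∀ τ ∈ A.inertiaSubgroupIn ℚ, (∀ h, t (τ * h) = t h) ∧ d τ = 1) ∧
      (∀ n : ℕ, ∃ L : IntermediateField ℚ (AlgebraicClosure ℚ), FiniteDimensional ℚ L ∧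
        ∀ u : AlgebraicClosure ℚ ≃ₐ[ℚ] AlgebraicClosure ℚ, (∀ x ∈ L, u x = x) →
          (∀ h, t (u * h) - t h ∈ IsLocalRing.maximalIdeal 𝒪 ^ n) ∧
          (d u : 𝒪) - 1 ∈ IsLocalRing.maximalIdeal 𝒪 ^ n) := by
  choose M instM qM r tM hker htors hstab hhecke hes hinert hcomm using hlev
  exact h23_pseudo_of_levels_aux p N S hpS hNS 𝒪 hp𝒪 χ ι hι M qM r tM hker htors
    (fun n x => hstab n (qM n x)) hhecke
    (fun n ℓ hℓ hℓN hℓS => hes n ℓ hℓ hℓN (fun h => hℓS (by rw [h]; exact Finset.mem_coe.2 hpS)))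
    hcomm hinert hcheb

end main

end Fermat.Agent.GAL
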