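import Mathlib
import Fermat.Prelude.Def_GaloisRep_Residual
import Fermat.Agent.GAL.Pow

/-!
# GAL, abstract assembly

A `K`-vector space `V` with commuting actions of `Gal(ℚ̄/ℚ)` and of operators `T_ℓ`, satisfying the
Eichler–Shimura relation at Frobenius lifts and trivial inertia outside `N p`, and containing a
nonzero `T`-eigenvector `w` with an open stabiliser, yields (via weak Chebotarev, the power trick
and the BLR lemma, all taken as hypotheses) a two-dimensional representation with the expected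
characteristic polynomials of Frobenius.
-/

set_option autoImplicit false

namespace Fermat.Agent.GAL

open Polynomial

universe u

/-- A function on the Galois group that only depends on the restriction to a finite-dimensional
subfield has finite range. -/
theorem h29_orbit_finite {V : Type*} (f : (AlgebraicClosure ℚ ≃ₐ[ℚ] AlgebraicClosure ℚ) → V)
    (L : IntermediateField ℚ (AlgebraicClosure ℚ)) [FiniteDimensional ℚ L]
    (hf : ∀ g g' : AlgebraicClosure ℚ ≃ₐ[ℚ] AlgebraicClosure ℚ, (∀ x ∈ L, g x = g' x) → f g = f g') :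
    (Set.range f).Finite := by
  classical
  let res : (AlgebraicClosure ℚ ≃ₐ[ℚ] AlgebraicClosure ℚ) → (L →ₐ[ℚ] AlgebraicClosure ℚ) :=
    fun g => (g : AlgebraicClosure ℚ →ₐ[ℚ] AlgebraicClosure ℚ).comp L.val
  have hres : ∀ g g', res g = res g' → f g = f g' := by
    intro g g' h
    refine hf g g' fun x hx => ?_
    exact congrArg (fun e : L →ₐ[ℚ] AlgebraicClosure ℚ => e ⟨x, hx⟩) h
  let F : (L →ₐ[ℚ] AlgebraicClosure ℚ) → V := fun e =>
    if h : ∃ g, res g = e then f h.choose else f 1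
  refine (Set.finite_range F).subset ?_
  rintro _ ⟨g, rfl⟩
  refine ⟨res g, ?_⟩
  have h : ∃ g', res g' = res g := ⟨g, rfl⟩
  simp only [F, dif_pos h]
  exact hres _ _ h.choose_spec

/-- Every finite-dimensional subfield of `ℚ̄` lies in a finite Galois one, stable under the
Galois group. -/
theorem h29_exists_galois_level (L : IntermediateField ℚ (AlgebraicClosure ℚ))
    [FiniteDimensional ℚ L] :
    ∃ L' : IntermediateField ℚ (AlgebraicClosure ℚ), L ≤ L' ∧ FiniteDimensional ℚ L' ∧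
      IsGalois ℚ L' ∧
      ∀ (g : AlgebraicClosure ℚ ≃ₐ[ℚ] AlgebraicClosure ℚ), ∀ x ∈ L', g x ∈ L' := by
  have hA : Algebra.IsAlgebraic ℚ (AlgebraicClosure ℚ) := AlgebraicClosure.isAlgebraic ℚ
  have hC : IsAlgClosure ℚ (AlgebraicClosure ℚ) := ⟨inferInstance, inferInstance⟩
  have hN : Normal ℚ (AlgebraicClosure ℚ) := IsAlgClosure.normal ℚ (AlgebraicClosure ℚ)
  have hN' : Normal ℚ (IntermediateField.normalClosure ℚ L (AlgebraicClosure ℚ)) :=
    normalClosure.normal ℚ L (AlgebraicClosure ℚ)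
  refine ⟨IntermediateField.normalClosure ℚ L (AlgebraicClosure ℚ),
    IntermediateField.le_normalClosure L, inferInstance, ⟨⟩, ?_⟩
  intro g x hx
  have h := AlgHom.fieldRange_of_normal
    (E := IntermediateField.normalClosure ℚ L (AlgebraicClosure ℚ))
    ((g : AlgebraicClosure ℚ →ₐ[ℚ] AlgebraicClosure ℚ).comp
      (IntermediateField.normalClosure ℚ L (AlgebraicClosure ℚ)).val)
  rw [← h]
  exact ⟨⟨x, hx⟩, rfl⟩

section Abs

variable {K : Type} [Field K] {V : Type u} [AddCommGroup V] [Module K V]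

/-- The span of the Galois orbit of a vector. -/
def h29_orbitSpan (r : (AlgebraicClosure ℚ ≃ₐ[ℚ] AlgebraicClosure ℚ) →* Module.End K V) (w : V) :
    Submodule K V :=
  Submodule.span K (Set.range fun g : AlgebraicClosure ℚ ≃ₐ[ℚ] AlgebraicClosure ℚ => r g w)

theorem h29_orbitSpan_stable (r : (AlgebraicClosure ℚ ≃ₐ[ℚ] AlgebraicClosure ℚ) →* Module.End K V)
    (w : V) (g : AlgebraicClosure ℚ ≃ₐ[ℚ] AlgebraicClosure ℚ) {v : V}
    (hv : v ∈ h29_orbitSpan r w) : r g v ∈ h29_orbitSpan r w := by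
  induction hv using Submodule.span_induction with
  | mem x hx =>
    obtain ⟨h, rfl⟩ := hx
    refine Submodule.subset_span ⟨g * h, ?_⟩
    simp only [map_mul, Module.End.mul_apply]
  | zero => rw [map_zero]; exact Submodule.zero_mem _
  | add x y _ _ hx hy => rw [map_add]; exact Submodule.add_mem _ hx hy
  | smul c x _ hx => rw [map_smul]; exact Submodule.smul_mem _ c hx

/-- The representation restricted to the span of an orbit. -/
noncomputable def h29_resRep (r : (AlgebraicClosure ℚ ≃ₐ[ℚ] AlgebraicClosure ℚ) →* Module.End K V) (w : V) :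
    (AlgebraicClosure ℚ ≃ₐ[ℚ] AlgebraicClosure ℚ) →* Module.End K (h29_orbitSpan r w) where
  toFun g := (r g).restrict (fun _ hv => h29_orbitSpan_stable r w g hv)
  map_one' := by
    ext v
    simp
  map_mul' g h := by
    ext v
    simp [map_mul]

theorem h29_resRep_apply (r : (AlgebraicClosure ℚ ≃ₐ[ℚ] AlgebraicClosure ℚ) →* Module.End K V)
    (w : V) (g : AlgebraicClosure ℚ ≃ₐ[ℚ] AlgebraicClosure ℚ) (v : h29_orbitSpan r w) :
    ((h29_resRep r w g v : h29_orbitSpan r w) : V) = r g (v : V) := rfl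

theorem h29_smul_one_inj {W : Type*} [AddCommGroup W] [Module K W] [Nontrivial W] {a b : K}
    (h : a • (1 : Module.End K W) = b • (1 : Module.End K W)) : a = b := by
  obtain ⟨w, hw⟩ := exists_ne (0 : W)
  have h1 := congrArg (fun f : Module.End K W => f w) h
  simp only [LinearMap.smul_apply, Module.End.one_apply] at h1
  exact smul_left_injective K hw h1

/-- **Abstract assembly.** -/
theorem h29_asm_abs (p N : ℕ) (hNp : N * p ≠ 0)
    (r : (AlgebraicClosure ℚ ≃ₐ[ℚ] AlgebraicClosure ℚ) →* Module.End K V)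
    (T : Nat.Primes → Module.End K V) (θ : Nat.Primes → K)
    (ε : (AlgebraicClosure ℚ ≃ₐ[ℚ] AlgebraicClosure ℚ) →* Kˣ)
    (hεlevel : ∃ L : IntermediateField ℚ (AlgebraicClosure ℚ), FiniteDimensional ℚ L ∧
      ∀ σ : AlgebraicClosure ℚ ≃ₐ[ℚ] AlgebraicClosure ℚ, (∀ x ∈ L, σ x = x) → ε σ = 1)
    (hεfrob : ∀ ℓ : ℕ, ℓ.Prime → ¬ ℓ ∣ N * p →
      ∀ A : ValuationSubring (AlgebraicClosure ℚ), A.LiesOverPrime ℓ →
        ∀ σ : AlgebraicClosure ℚ ≃ₐ[ℚ] AlgebraicClosure ℚ, A.IsFrobeniusAt σ ℓ →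
          ((ε σ : Kˣ) : K) = (ℓ : K))
    (hεunr : ∀ ℓ : ℕ, ℓ.Prime → ¬ ℓ ∣ N * p →
      ∀ A : ValuationSubring (AlgebraicClosure ℚ), A.LiesOverPrime ℓ →
        ∀ σ ∈ A.inertiaSubgroupIn ℚ, ε σ = 1)
    (hcomm : ∀ (ℓ : Nat.Primes) (σ : AlgebraicClosure ℚ ≃ₐ[ℚ] AlgebraicClosure ℚ),
      T ℓ * r σ = r σ * T ℓ)
    (hunr : ∀ ℓ : ℕ, ℓ.Prime → ¬ ℓ ∣ N * p →
      ∀ A : ValuationSubring (AlgebraicClosure ℚ), A.LiesOverPrime ℓ →
        ∀ σ ∈ A.inertiaSubgroupIn ℚ, ∀ v : V, r σ v = v)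
    (hES : ∀ (ℓ : ℕ) (hℓ : ℓ.Prime), ¬ ℓ ∣ N * p →
      ∀ A : ValuationSubring (AlgebraicClosure ℚ), A.LiesOverPrime ℓ →
        ∀ σ : AlgebraicClosure ℚ ≃ₐ[ℚ] AlgebraicClosure ℚ, A.IsFrobeniusAt σ ℓ →
          ∀ v : V, r σ (r σ v) - T ⟨ℓ, hℓ⟩ (r σ v) + (ℓ : K) • v = 0)
    (w : V) (hw : w ≠ 0)
    (hwlevel : ∃ L : IntermediateField ℚ (AlgebraicClosure ℚ), FiniteDimensional ℚ L ∧
      ∀ σ : AlgebraicClosure ℚ ≃ₐ[ℚ] AlgebraicClosure ℚ, (∀ x ∈ L, σ x = x) → r σ w = w)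
    (hweig : ∀ (ℓ : ℕ) (hℓ : ℓ.Prime), ¬ ℓ ∣ N * p → T ⟨ℓ, hℓ⟩ w = θ ⟨ℓ, hℓ⟩ • w)
    (hcheb : ∀ (L : IntermediateField ℚ (AlgebraicClosure ℚ)) [FiniteDimensional ℚ L]
      [IsGalois ℚ L] (g : AlgebraicClosure ℚ ≃ₐ[ℚ] AlgebraicClosure ℚ) (S : Finset ℕ),
      ∃ (ℓ : ℕ) (A : ValuationSubring (AlgebraicClosure ℚ))
        (σ : AlgebraicClosure ℚ ≃ₐ[ℚ] AlgebraicClosure ℚ) (a b : ℕ),
        ℓ.Prime ∧ ℓ ∉ S ∧ A.LiesOverPrime ℓ ∧ A.IsFrobeniusAt σ ℓ ∧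
          (∀ x ∈ L, σ x = (g ^ a) x) ∧ (∀ x ∈ L, (σ ^ b) x = g x))
    (hblr : ∀ {W : Type u} [AddCommGroup W] [Module K W] [Module.Finite K W] [Nontrivial W]
      (r : (AlgebraicClosure ℚ ≃ₐ[ℚ] AlgebraicClosure ℚ) →* (W →ₗ[K] W))
      (d : (AlgebraicClosure ℚ ≃ₐ[ℚ] AlgebraicClosure ℚ) →* Kˣ)
      (t : (AlgebraicClosure ℚ ≃ₐ[ℚ] AlgebraicClosure ℚ) → K),
      (∀ (g : AlgebraicClosure ℚ ≃ₐ[ℚ] AlgebraicClosure ℚ) (w : W),
        r g w + (d g : K) • r g⁻¹ w = t g • w) →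
      ∃ ρ : (AlgebraicClosure ℚ ≃ₐ[ℚ] AlgebraicClosure ℚ) →* Matrix (Fin 2) (Fin 2) K,
        (∀ g, (ρ g).charpoly = X ^ 2 - C (t g) * X + C (d g : K)) ∧
        (∀ g, r g = 1 → d g = 1 → ρ g = 1)) :
    ∃ ρ : (AlgebraicClosure ℚ ≃ₐ[ℚ] AlgebraicClosure ℚ) →* Matrix (Fin 2) (Fin 2) K,
      GaloisFactorsThroughFiniteLevel ρ ∧
      (∀ (ℓ : ℕ) (hℓ : ℓ.Prime), ¬ ℓ ∣ N * p →
        ∀ A : ValuationSubring (AlgebraicClosure ℚ), A.LiesOverPrime ℓ →
          ∀ σ : AlgebraicClosure ℚ ≃ₐ[ℚ] AlgebraicClosure ℚ, A.IsFrobeniusAt σ ℓ →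
            (ρ σ).charpoly = X ^ 2 - C (θ ⟨ℓ, hℓ⟩) * X + C (ℓ : K)) ∧
      (∀ ℓ : ℕ, ℓ.Prime → ¬ ℓ ∣ N * p →
        ∀ A : ValuationSubring (AlgebraicClosure ℚ), A.LiesOverPrime ℓ →
          ∀ σ ∈ A.inertiaSubgroupIn ℚ, ρ σ = 1) := by
  classical
  obtain ⟨L0, hL0, hL0w⟩ := hwlevel
  obtain ⟨Lε, hLε, hLεε⟩ := hεlevel
  have := hL0
  have := hLε
  obtain ⟨L, hLle, hLfin, hLgal, hLstab⟩ := h29_exists_galois_level (L0 ⊔ Lε)
  have hwW : w ∈ h29_orbitSpan r w := Submodule.subset_span ⟨1, by simp⟩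
  -- automorphisms fixing `L` act trivially on the orbit span
  have hfixW : ∀ σ : AlgebraicClosure ℚ ≃ₐ[ℚ] AlgebraicClosure ℚ, (∀ x ∈ L, σ x = x) →
      ∀ v ∈ h29_orbitSpan r w, r σ v = v := by
    intro σ hσ v hv
    induction hv using Submodule.span_induction with
    | mem x hx =>
      obtain ⟨g, rfl⟩ := hx
      have h1 : r σ (r g w) = r g (r (g⁻¹ * σ * g) w) := by
        rw [← Module.End.mul_apply, ← Module.End.mul_apply, ← map_mul, ← map_mul]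
        congr 2
        group
      rw [h1, hL0w]
      intro x hx
      have hxL : g x ∈ L := hLstab g x (hLle (le_sup_left (a := L0) (b := Lε) hx))
      show g⁻¹ (σ (g x)) = x
      rw [hσ _ hxL]
      exact g.symm_apply_apply x
    | zero => rw [map_zero]
    | add x y _ _ hx hy => rw [map_add, hx, hy]
    | smul c x _ hx => rw [map_smul, hx]
  have hfixε : ∀ σ : AlgebraicClosure ℚ ≃ₐ[ℚ] AlgebraicClosure ℚ, (∀ x ∈ L, σ x = x) →
      ε σ = 1 := fun σ hσ =>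
    hLεε σ fun x hx => hσ x (hLle (le_sup_right (a := L0) (b := Lε) hx))
  have hfinrange :
      (Set.range fun g : AlgebraicClosure ℚ ≃ₐ[ℚ] AlgebraicClosure ℚ => r g w).Finite := by
    refine h29_orbit_finite _ L0 ?_
    intro g g' h
    have h1 : r g w = r g' (r (g'⁻¹ * g) w) := by
      rw [← Module.End.mul_apply, ← map_mul]
      congr 2
      group
    show r g w = r g' w
    rw [h1, hL0w]
    intro x hx
    show g'⁻¹ (g x) = x
    rw [h x hx]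
    exact g'.symm_apply_apply x
  have : Module.Finite K (h29_orbitSpan r w) := FiniteDimensional.span_of_finite K hfinrange
  have : Nontrivial (h29_orbitSpan r w) :=
    ⟨⟨⟨w, hwW⟩, 0, fun h => hw (congrArg Subtype.val h)⟩⟩
  -- `T_ℓ` acts as `θ_ℓ` on the orbit span
  have hTW : ∀ (ℓ : ℕ) (hℓ : ℓ.Prime), ¬ ℓ ∣ N * p → ∀ v ∈ h29_orbitSpan r w,
      T ⟨ℓ, hℓ⟩ v = θ ⟨ℓ, hℓ⟩ • v := by
    intro ℓ hℓ hℓNp v hv
    induction hv using Submodule.span_induction with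
    | mem x hx =>
      obtain ⟨g, rfl⟩ := hx
      have := congrArg (fun f : Module.End K V => f w) (hcomm ⟨ℓ, hℓ⟩ g)
      simp only [Module.End.mul_apply] at this
      rw [this, hweig ℓ hℓ hℓNp, map_smul]
    | zero => rw [map_zero, smul_zero]
    | add x y _ _ hx hy => rw [map_add, hx, hy, smul_add]
    | smul c x _ hx => rw [map_smul, hx, smul_comm]
  -- the quadratic relation at Frobenius lifts
  have hfrobW : ∀ (ℓ : ℕ) (hℓ : ℓ.Prime), ¬ ℓ ∣ N * p →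
      ∀ A : ValuationSubring (AlgebraicClosure ℚ), A.LiesOverPrime ℓ →
        ∀ σ : AlgebraicClosure ℚ ≃ₐ[ℚ] AlgebraicClosure ℚ, A.IsFrobeniusAt σ ℓ →
          h29_resRep r w σ + (ℓ : K) • h29_resRep r w σ⁻¹ =
            θ ⟨ℓ, hℓ⟩ • (1 : Module.End K (h29_orbitSpan r w)) := by
    intro ℓ hℓ hℓNp A hA σ hσ
    ext v
    have hu : r σ⁻¹ (v : V) ∈ h29_orbitSpan r w := h29_orbitSpan_stable r w σ⁻¹ v.2
    have h1 := hES ℓ hℓ hℓNp A hA σ hσ (r σ⁻¹ (v : V))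
    have h2 : r σ (r σ⁻¹ (v : V)) = v := by
      rw [← Module.End.mul_apply, ← map_mul, mul_inv_cancel, map_one]
      rfl
    rw [h2, hTW ℓ hℓ hℓNp _ v.2] at h1
    show r σ (v : V) + (ℓ : K) • r σ⁻¹ (v : V) = θ ⟨ℓ, hℓ⟩ • (v : V)
    have h3 : r σ (v : V) + (ℓ : K) • r σ⁻¹ (v : V) - θ ⟨ℓ, hℓ⟩ • (v : V) = 0 := by
      rw [← h1]
      abel
    exact sub_eq_zero.mp h3
  -- the quadratic relation for every element
  have hquad : ∀ g : AlgebraicClosure ℚ ≃ₐ[ℚ] AlgebraicClosure ℚ, ∃ t : K,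
      h29_resRep r w g + ((ε g : Kˣ) : K) • h29_resRep r w g⁻¹ =
        t • (1 : Module.End K (h29_orbitSpan r w)) := by
    intro g
    have := hLfin
    have := hLgal
    obtain ⟨ℓ, A, σ, a, b, hℓ, hℓS, hA, hσ, -, hσb⟩ := hcheb L g (N * p).primeFactors
    have hℓNp : ¬ ℓ ∣ N * p := fun h => hℓS (Nat.mem_primeFactors.mpr ⟨hℓ, h, hNp⟩)
    have h1 := hfrobW ℓ hℓ hℓNp A hA σ hσ
    obtain ⟨t, ht⟩ := h5_pow_scalar_end (h29_resRep r w σ) (h29_resRep r w σ⁻¹)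
      (by rw [← map_mul, mul_inv_cancel, map_one]) (by rw [← map_mul, inv_mul_cancel, map_one])
      (ℓ : K) (θ ⟨ℓ, hℓ⟩) h1 b
    refine ⟨t, ?_⟩
    have hfix : ∀ x ∈ L, (g⁻¹ * σ ^ b) x = x := by
      intro x hx
      show g⁻¹ ((σ ^ b) x) = x
      rw [hσb x hx]
      exact g.symm_apply_apply x
    have hfix' : ∀ x ∈ L, (g⁻¹ * σ ^ b)⁻¹ x = x := by
      intro x hx
      have h2 := hfix x hx
      calc (g⁻¹ * σ ^ b)⁻¹ x = (g⁻¹ * σ ^ b)⁻¹ ((g⁻¹ * σ ^ b) x) := by rw [h2]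
        _ = x := (g⁻¹ * σ ^ b).symm_apply_apply x
    have e1 : h29_resRep r w (σ ^ b) = h29_resRep r w g := by
      have h2 : h29_resRep r w (g⁻¹ * σ ^ b) = 1 := by
        ext v
        exact hfixW _ hfix v v.2
      have h3 : σ ^ b = g * (g⁻¹ * σ ^ b) := by group
      rw [h3, map_mul, h2, mul_one]
    have e1' : h29_resRep r w (σ⁻¹ ^ b) = h29_resRep r w g⁻¹ := by
      have h2 : h29_resRep r w (g⁻¹ * σ ^ b)⁻¹ = 1 := by
        ext v
        exact hfixW _ hfix' v v.2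
      have h3 : σ⁻¹ ^ b = (g⁻¹ * σ ^ b)⁻¹ * g⁻¹ := by group
      rw [h3, map_mul, h2, one_mul]
    have e2 : ε (σ ^ b) = ε g := by
      have h2 : ε (g⁻¹ * σ ^ b) = 1 := hfixε _ hfix
      have h3 : σ ^ b = g * (g⁻¹ * σ ^ b) := by group
      rw [h3, map_mul, h2, mul_one]
    have e3 : ((ε g : Kˣ) : K) = (ℓ : K) ^ b := by
      rw [← e2, map_pow, Units.val_pow_eq_pow_val, hεfrob ℓ hℓ hℓNp A hA σ hσ]
    rw [← map_pow, ← map_pow, e1, e1', ← e3] at ht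
    exact ht
  obtain ⟨ρ, hρchar, hρker⟩ := hblr (h29_resRep r w) ε (fun g => (hquad g).choose)
    (fun g v => by
      have h := congrArg (fun f : Module.End K (h29_orbitSpan r w) => f v) (hquad g).choose_spec
      exact h)
  refine ⟨ρ, ⟨L, hLfin, fun σ hσ => hρker σ ?_ (hfixε σ hσ)⟩, ?_, ?_⟩
  · ext v
    exact hfixW σ hσ v v.2
  · intro ℓ hℓ hℓNp A hA σ hσ
    have h1 := hfrobW ℓ hℓ hℓNp A hA σ hσ
    have h2 := (hquad σ).choose_spec
    have hc := hρchar σ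
    generalize (hquad σ).choose = t at h2 hc
    rw [hεfrob ℓ hℓ hℓNp A hA σ hσ] at h2 hc
    rw [h1] at h2
    rw [hc, ← h29_smul_one_inj h2]
  · intro ℓ hℓ hℓNp A hA σ hσ
    refine hρker σ ?_ (hεunr ℓ hℓ hℓNp A hA σ hσ)
    ext v
    exact hunr ℓ hℓ hℓNp A hA σ hσ v

end Abs

end Fermat.Agent.GAL
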