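import Mathlib

/-!
# GAL, the carrier of the assembly

For a field `K` of characteristic `p` and an abelian group `J`, the group
`h29_V p K J = Hom(Hom(K, ℤ/p), J)` is a `K`-vector space (through the source); every additive
endomorphism of `J` acts `K`-linearly on it (through the target).  It contains `K ⊗ J[p]`, and it
is the carrier of the Galois/Hecke module used by the assembly.
-/

set_option autoImplicit false

namespace Fermat.Agent.GAL

section Carrier

variable (p : ℕ) (K : Type*) [Field K] (J : Type*) [AddCommGroup J]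

/-- Precomposition with the multiplication by `a`. -/
def h29_dmul (a : K) : (K →+ ZMod p) →+ (K →+ ZMod p) where
  toFun π := π.comp (AddMonoidHom.mulLeft a)
  map_zero' := rfl
  map_add' _ _ := rfl

@[simp] theorem h29_dmul_apply (a : K) (π : K →+ ZMod p) (x : K) :
    h29_dmul p K a π x = π (a * x) := rfl

/-- The carrier `Hom(Hom(K, ℤ/p), J)`. -/
def h29_V : Type _ := (K →+ ZMod p) →+ J

instance : AddCommGroup (h29_V p K J) := inferInstanceAs (AddCommGroup ((K →+ ZMod p) →+ J))

instance : FunLike (h29_V p K J) (K →+ ZMod p) J :=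
  inferInstanceAs (FunLike ((K →+ ZMod p) →+ J) (K →+ ZMod p) J)

instance : AddMonoidHomClass (h29_V p K J) (K →+ ZMod p) J :=
  inferInstanceAs (AddMonoidHomClass ((K →+ ZMod p) →+ J) (K →+ ZMod p) J)

variable {p K J}

/-- Build an element of the carrier. -/
def h29_V.mk (f : (K →+ ZMod p) →+ J) : h29_V p K J := f

@[simp] theorem h29_V.mk_apply (f : (K →+ ZMod p) →+ J) (π : K →+ ZMod p) :
    h29_V.mk f π = f π := rfl

@[ext] theorem h29_V.ext {Φ Ψ : h29_V p K J} (h : ∀ π, Φ π = Ψ π) : Φ = Ψ :=
  DFunLike.ext _ _ h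

@[simp] theorem h29_V.add_apply (Φ Ψ : h29_V p K J) (π : K →+ ZMod p) :
    (Φ + Ψ) π = Φ π + Ψ π := rfl

@[simp] theorem h29_V.zero_apply (π : K →+ ZMod p) : (0 : h29_V p K J) π = 0 := rfl

@[simp] theorem h29_V.sub_apply (Φ Ψ : h29_V p K J) (π : K →+ ZMod p) :
    (Φ - Ψ) π = Φ π - Ψ π := rfl

instance : Module K (h29_V p K J) where
  smul a Φ := h29_V.mk (AddMonoidHom.comp (Φ : (K →+ ZMod p) →+ J) (h29_dmul p K a))
  one_smul Φ := by
    ext π
    show Φ (h29_dmul p K 1 π) = Φ π
    congr 1
    ext x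
    simp
  mul_smul a b Φ := by
    ext π
    show Φ (h29_dmul p K (a * b) π) = Φ (h29_dmul p K b (h29_dmul p K a π))
    congr 1
    ext x
    simp [mul_assoc]
  smul_zero a := rfl
  smul_add a Φ Ψ := rfl
  add_smul a b Φ := by
    ext π
    show Φ (h29_dmul p K (a + b) π) = Φ (h29_dmul p K a π) + Φ (h29_dmul p K b π)
    rw [← map_add]
    congr 1
    ext x
    simp [add_mul]
  zero_smul Φ := by
    ext π
    show Φ (h29_dmul p K 0 π) = 0
    have : h29_dmul p K 0 π = 0 := by
      ext x
      simp
    rw [this, map_zero]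

theorem h29_V.smul_apply (a : K) (Φ : h29_V p K J) (π : K →+ ZMod p) :
    (a • Φ) π = Φ (h29_dmul p K a π) := rfl

/-- Post-composition with an additive endomorphism of `J`, as a `K`-linear endomorphism. -/
def h29_post (f : J →+ J) : Module.End K (h29_V p K J) where
  toFun Φ := h29_V.mk (f.comp (Φ : (K →+ ZMod p) →+ J))
  map_add' Φ Ψ := by
    ext π
    show f (Φ π + Ψ π) = f (Φ π) + f (Ψ π)
    rw [map_add]
  map_smul' a Φ := rfl

@[simp] theorem h29_post_apply (f : J →+ J) (Φ : h29_V p K J) (π : K →+ ZMod p) :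
    h29_post f Φ π = f (Φ π) := rfl

/-- The values of an element of the carrier are `p`-torsion. -/
theorem h29_V.nsmul_apply_eq_zero (Φ : h29_V p K J) (π : K →+ ZMod p) : p • Φ π = 0 := by
  rw [← map_nsmul]
  have : p • π = 0 := by
    ext x
    simp
  rw [this, map_zero]

/-- Natural scalars act through the target. -/
theorem h29_V.natCast_smul_apply (n : ℕ) (Φ : h29_V p K J) (π : K →+ ZMod p) :
    ((n : K) • Φ) π = n • Φ π := by
  rw [h29_V.smul_apply, ← map_nsmul]
  congr 1
  ext x
  simp [← nsmul_eq_mul]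

end Carrier

end Fermat.Agent.GAL
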