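import Mathlib
import Fermat.Prelude.Def_FLTPrelim_ModularRep
import Fermat.Prelude.Def_ModularCurve_PeriodHomPair
import Fermat.Agent.S16.h30_PerHecke
import Fermat.Agent.S22.Gamma0FG
import Fermat.Agent.S21.h20_Inj
import Fermat.Agent.S49.Coeff

/-!
# GAL-COH (row 347): eigenform ⇒ nonzero parabolic Hecke eigen-homomorphism `Γ₀(N) → k`

For a normalised eigenform `g` of weight 2 on `Γ₀(N)` and a ring homomorphism
`φ : integralClosure ℤ ℂ →+* k` with maximal kernel, we produce a nonzero homomorphism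
`ψ : Γ₀(N) → k`, killing parabolic and finite-order elements, with
`T_ℓ ψ = φ (a_ℓ) • ψ` for all primes `ℓ ∤ N` (`T_ℓ = h30_heckeT`).
-/

set_option autoImplicit false

namespace Fermat.Agent.GAL

open CongruenceSubgroup ModularCurve ModularCurve.Period ModularFormClass
open scoped MatrixGroups
open Fermat.Agent.S16 Fermat.Agent.S21 Fermat.Agent.S22 Fermat.Agent.S49

/-! ### (A) A normalised eigenform is a `T_ℓ`-eigenvector -/

theorem h42_heckeT_eigen {N : ℕ} {g : CuspForm (Gamma0 N) 2} (hg : g.IsNormalizedEigenform)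
    {ℓ : ℕ} (hℓ : ℓ.Prime) (hℓN : ¬ ℓ ∣ N) :
    CuspForm.heckeTLin 2 hℓ hℓN g = qCoeff g ℓ • g := by
  rw [← sub_eq_zero]
  refine qc_eq_zero fun n => ?_
  rw [qc_sub, qc_heckeT, qc_smul, sub_eq_zero]
  rcases Nat.eq_zero_or_pos n with rfl | hn
  · have h0 : qCoeff (⇑g) 0 = 0 := qc_coeff_zero g
    simp [h0]
  · obtain ⟨r, m, hm, rfl⟩ := Nat.exists_eq_pow_mul_and_not_dvd hn.ne' ℓ hℓ.ne_one
    have hcop : ∀ s : ℕ, (ℓ ^ s).Coprime m := fun s =>
      Nat.Coprime.pow_left s ((Nat.Prime.coprime_iff_not_dvd hℓ).mpr hm)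
    rcases r with _ | s
    · have h1 : ¬ ℓ ∣ ℓ ^ 0 * m := by simpa using hm
      rw [if_neg h1, add_zero]
      have h2 : ℓ ^ 0 * m * ℓ = ℓ * m := by ring
      have h3 : ℓ ^ 0 * m = m := by ring
      rw [h2, h3, hg.qCoeff_mul_of_coprime ℓ m (by simpa using hcop 1)]
    · have h1 : ℓ ∣ ℓ ^ (s + 1) * m := Dvd.dvd.mul_right (dvd_pow_self ℓ (Nat.succ_ne_zero s)) m
      rw [if_pos h1]
      have h2 : ℓ ^ (s + 1) * m * ℓ = ℓ ^ (s + 2) * m := by ring
      have h3 : ℓ ^ (s + 1) * m / ℓ = ℓ ^ s * m := by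
        rw [pow_succ, mul_assoc, mul_comm ℓ m, ← mul_assoc]
        exact Nat.mul_div_cancel _ hℓ.pos
      rw [h2, h3, hg.qCoeff_mul_of_coprime _ _ (hcop (s + 2)),
        hg.qCoeff_mul_of_coprime _ _ (hcop s), hg.qCoeff_mul_of_coprime _ _ (hcop (s + 1)),
        hg.qCoeff_prime_pow_of_not_dvd ℓ s hℓ hℓN]
      ring

/-! ### (B) The period homomorphism of an eigenform is a `T_ℓ`-eigenvector -/

theorem h42_periodMap_smul {N : ℕ} [NeZero N] (c : ℂ) (f : CuspForm (Gamma0 N) 2) :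
    periodMap N (c • f) = c • periodMap N f := (h58_pml N).map_smul c f

theorem h42_period_eigen {N : ℕ} [NeZero N] {g : CuspForm (Gamma0 N) 2}
    (hg : g.IsNormalizedEigenform) (ℓ : ℕ) [Fact ℓ.Prime] (hℓN : ¬ ℓ ∣ N) :
    h30_heckeT N ℓ hℓN (periodMap N g) = qCoeff g ℓ • periodMap N g := by
  rw [← h30_periodMap_heckeT, h42_heckeT_eigen hg (Fact.out : ℓ.Prime) hℓN, h42_periodMap_smul]

theorem h42_periodMap_ne_zero {N : ℕ} [NeZero N] {g : CuspForm (Gamma0 N) 2}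
    (hg : g ≠ 0) : periodMap N g ≠ 0 := by
  intro h
  have hinj := h20_periodHomPair_injective N (h58_existsPeriodMapLinear N)
    (fun f => h58_hasEquivariantPrimitive f)
  have h0 : periodMap N (0 : CuspForm (Gamma0 N) 2) = 0 := (h58_pml N).map_zero
  have h1 : periodHomPair N (g, 0) = periodHomPair N (0, 0) := by
    rw [h58_periodHomPair_apply, h58_periodHomPair_apply, h, h0]
  exact hg (congrArg Prod.fst (hinj h1))

/-! ### (C) Finite generation and integrality of the eigenvalues -/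

theorem h42_gamma0_fg (N : ℕ) [NeZero N] : Group.FG (Gamma0 N) := by
  have : Group.FG SL(2, ℤ) := gamma0FG_group_fg_SL2Z
  exact Subgroup.fg_of_index_ne_zero _

theorem h42_range_fg {N : ℕ} [NeZero N] {A : Type*} [AddCommGroup A]
    (ψ : Additive (Gamma0 N) →+ A) :
    (AddSubgroup.toIntSubmodule (AddMonoidHom.range ψ)).FG := by
  have := h42_gamma0_fg N
  have h1 : AddGroup.FG (Additive (Gamma0 N)) := inferInstance
  have h2 : AddGroup.FG (AddMonoidHom.range ψ) := AddGroup.fg_range ψ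
  rw [Submodule.fg_iff_addSubgroup_fg]
  exact (AddGroup.fg_iff_addSubgroup_fg (AddMonoidHom.range ψ)).mp h2

/-- The value of `T_ℓ ψ` at `γ` lies in every additive subgroup containing the values of `ψ`. -/
theorem h42_heckeT_apply_mem {N : ℕ} (ℓ : ℕ) [Fact ℓ.Prime] (hℓN : ¬ ℓ ∣ N)
    {A : Type*} [AddCommGroup A] (ψ : Additive (Gamma0 N) →+ A) (S : AddSubgroup A)
    (hS : ∀ γ, ψ γ ∈ S) (γ : Additive (Gamma0 N)) : h30_heckeT N ℓ hℓN ψ γ ∈ S := by
  obtain ⟨γ', -, -, h⟩ := h30_heckeT_exists ℓ hℓN (Additive.toMul γ)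
  have h' := h A ψ
  rw [ofMul_toMul] at h'
  rw [h']
  exact S.sum_mem fun x _ => hS _

theorem h42_isIntegral_of_hecke {N : ℕ} [NeZero N] (ℓ : ℕ) [Fact ℓ.Prime] (hℓN : ¬ ℓ ∣ N)
    {ψ : Additive (Gamma0 N) →+ ℂ} (hψ : ψ ≠ 0) {c : ℂ}
    (h : h30_heckeT N ℓ hℓN ψ = c • ψ) : IsIntegral ℤ c := by
  refine isIntegral_of_smul_mem_submodule (AddSubgroup.toIntSubmodule (AddMonoidHom.range ψ))
    ?_ (h42_range_fg ψ) c ?_
  · intro hbot
    apply hψ
    refine AddMonoidHom.ext fun γ => ?_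
    have : ψ γ ∈ AddSubgroup.toIntSubmodule (AddMonoidHom.range ψ) := ⟨γ, rfl⟩
    rw [hbot] at this
    simpa using this
  · rintro _ ⟨γ, rfl⟩
    have h1 := h42_heckeT_apply_mem ℓ hℓN ψ (AddMonoidHom.range ψ) (fun γ => ⟨γ, rfl⟩) γ
    rw [h] at h1
    exact h1

theorem h42_qCoeff_isIntegral {N : ℕ} [NeZero N] {g : CuspForm (Gamma0 N) 2}
    (hg : g.IsNormalizedEigenform) {ℓ : ℕ} (hℓ : ℓ.Prime) (hℓN : ¬ ℓ ∣ N) :
    IsIntegral ℤ (qCoeff g ℓ) := by
  have : Fact ℓ.Prime := ⟨hℓ⟩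
  exact h42_isIntegral_of_hecke ℓ hℓN (h42_periodMap_ne_zero hg.ne_zero)
    (h42_period_eigen hg ℓ hℓN)

/-! ### (D) Nakayama: a semilinear functional on a finitely generated torsion-free module -/

theorem h42_nak {O : Type*} [CommRing O] {k : Type*} [Field k] (φ : O →+* k)
    (hφ : (RingHom.ker φ).IsMaximal) {E : Type*} [AddCommGroup E] [Module O E]
    (htf : ∀ (r : O) (x : E), r • x = 0 → r = 0 ∨ x = 0)
    (Q : Submodule O E) (hfg : Q.FG) (hQ : Q ≠ ⊥) :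
    ∃ Φ : Q →+ k, (∀ (a : O) (q : Q), Φ (a • q) = φ a * Φ q) ∧ ∃ q : Q, Φ q ≠ 0 := by
  classical
  have hne : (RingHom.ker φ • (⊤ : Submodule O Q)) ≠ ⊤ := by
    intro htop
    obtain ⟨r, hr, hr0⟩ := Submodule.exists_sub_one_mem_and_smul_eq_zero_of_fg_of_le_smul
      (RingHom.ker φ) (⊤ : Submodule O Q) ((Submodule.fg_top Q).mpr hfg) (le_of_eq htop.symm)
    obtain ⟨q, hq, hq0⟩ := (Submodule.ne_bot_iff Q).mp hQ
    have h1 : r • (⟨q, hq⟩ : Q) = 0 := hr0 _ Submodule.mem_top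
    have h2 : r = 0 := (htf r q (congrArg Subtype.val h1)).resolve_right hq0
    rw [h2, zero_sub] at hr
    exact hφ.ne_top ((Ideal.eq_top_iff_one _).mpr (by simpa using (RingHom.ker φ).neg_mem hr))
  obtain ⟨q0, hq0⟩ : ∃ q0 : Q, q0 ∉ RingHom.ker φ • (⊤ : Submodule O Q) := by
    by_contra hall
    push Not at hall
    exact hne (Submodule.eq_top_iff'.mpr hall)
  let _ : Field (O ⧸ RingHom.ker φ) := Ideal.Quotient.field (RingHom.ker φ)
  have hmk : (Submodule.Quotient.mk q0 : Q ⧸ RingHom.ker φ • (⊤ : Submodule O Q)) ≠ 0 := by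
    rwa [Ne, Submodule.Quotient.mk_eq_zero]
  obtain ⟨f, hf⟩ : ∃ f : Module.Dual (O ⧸ RingHom.ker φ)
      (Q ⧸ RingHom.ker φ • (⊤ : Submodule O Q)), f (Submodule.Quotient.mk q0) ≠ 0 := by
    by_contra hall
    push Not at hall
    exact hmk ((Module.forall_dual_apply_eq_zero_iff (O ⧸ RingHom.ker φ) _).mp hall)
  refine ⟨(RingHom.kerLift φ).toAddMonoidHom.comp (f.toAddMonoidHom.comp
    (Submodule.mkQ (RingHom.ker φ • (⊤ : Submodule O Q))).toAddMonoidHom), ?_, q0, ?_⟩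
  · intro a q
    show RingHom.kerLift φ (f (Submodule.Quotient.mk (a • q))) =
      φ a * RingHom.kerLift φ (f (Submodule.Quotient.mk q))
    rw [← Module.Quotient.mk_smul_mk, map_smul, smul_eq_mul, map_mul, RingHom.kerLift_mk]
  · show RingHom.kerLift φ (f (Submodule.Quotient.mk q0)) ≠ 0
    exact fun h => hf ((map_eq_zero_iff _ (RingHom.kerLift_injective φ)).mp h)

/-! ### (E) The eigen-homomorphism with values in `k` -/

/-- **GAL-COH.** A normalised eigenform `g` and a ring homomorphism `φ : ℤ̄ → k` with maximal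
kernel give a nonzero homomorphism `ψ : Γ₀(N) → k`, vanishing wherever the period homomorphism
of `g` vanishes (in particular on parabolic and on finite-order elements), which is an
eigenvector of every `T_ℓ` (`ℓ ∤ N`) with eigenvalue `φ (a_ℓ)`. -/
theorem h42_coh {N : ℕ} [NeZero N] {g : CuspForm (Gamma0 N) 2} (hg : g.IsNormalizedEigenform)
    {k : Type*} [Field k] (φ : integralClosure ℤ ℂ →+* k) (hφ : (RingHom.ker φ).IsMaximal) :
    ∃ (a : ℕ → integralClosure ℤ ℂ) (ψ : Additive (Gamma0 N) →+ k),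
      (∀ ℓ : ℕ, ℓ.Prime → ¬ ℓ ∣ N → (a ℓ : ℂ) = qCoeff g ℓ) ∧
      ψ ≠ 0 ∧
      (∀ γ : Gamma0 N, periodMap N g (Additive.ofMul γ) = 0 → ψ (Additive.ofMul γ) = 0) ∧
      IsParabolicHom (Gamma0 N) ψ ∧
      (∀ γ : Gamma0 N, IsOfFinOrder γ → ψ (Additive.ofMul γ) = 0) ∧
      ∀ (ℓ : ℕ) [Fact ℓ.Prime] (hℓN : ¬ ℓ ∣ N),
        h30_heckeT N ℓ hℓN ψ = φ (a ℓ) • ψ := by
  classical
  have hψ₀ne : periodMap N g ≠ 0 := h42_periodMap_ne_zero hg.ne_zero
  -- the eigenvalues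
  let a : ℕ → integralClosure ℤ ℂ := fun ℓ =>
    if h : ℓ.Prime ∧ ¬ ℓ ∣ N then ⟨qCoeff g ℓ, h42_qCoeff_isIntegral hg h.1 h.2⟩ else 0
  have ha : ∀ ℓ : ℕ, ℓ.Prime → ¬ ℓ ∣ N → (a ℓ : ℂ) = qCoeff g ℓ := by
    intro ℓ h1 h2
    simp only [a, dif_pos (And.intro h1 h2)]
  -- the `ℤ̄`-span of the period module
  let Q : Submodule (integralClosure ℤ ℂ) ℂ := Submodule.span _ (Set.range (periodMap N g))
  have hmem : ∀ γ, periodMap N g γ ∈ Q := fun γ => Submodule.subset_span ⟨γ, rfl⟩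
  have hQfg : Q.FG := by
    obtain ⟨t, ht⟩ := h42_range_fg (periodMap N g)
    refine ⟨t, ?_⟩
    have h1 : (Set.range (periodMap N g)) =
        ((AddSubgroup.toIntSubmodule (AddMonoidHom.range (periodMap N g)) : Submodule ℤ ℂ) :
          Set ℂ) := rfl
    show Submodule.span _ (t : Set ℂ) = Submodule.span _ (Set.range (periodMap N g))
    rw [h1, ← ht, Submodule.span_span_of_tower]
  have hQne : Q ≠ ⊥ := by
    intro hbot
    apply hψ₀ne
    refine AddMonoidHom.ext fun γ => ?_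
    have := hmem γ
    rw [hbot] at this
    simpa using this
  obtain ⟨Φ, hΦ, q1, hq1⟩ := h42_nak φ hφ (E := ℂ) (fun r x h => by
      rcases mul_eq_zero.mp (show (r : ℂ) * x = 0 from h) with h | h
      · left; exact Subtype.ext h
      · right; exact h) Q hQfg hQne
  -- the period homomorphism with values in `Q`
  let ψQ : Additive (Gamma0 N) →+ Q := (periodMap N g).codRestrict Q hmem
  have hψQ : ∀ γ, (ψQ γ : ℂ) = periodMap N g γ := fun γ => rfl
  have hex : ∃ γ, Φ (ψQ γ) ≠ 0 := by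
    by_contra hall
    push Not at hall
    apply hq1
    have key : ∀ x (hx : x ∈ Q), Φ ⟨x, hx⟩ = 0 := by
      intro x hx
      refine Submodule.span_induction (p := fun x hx => Φ ⟨x, hx⟩ = 0) ?_ ?_ ?_ ?_ hx
      · rintro _ ⟨γ, rfl⟩
        exact hall γ
      · exact map_zero Φ
      · intro x y hx hy ihx ihy
        have h1 : (⟨x + y, Q.add_mem hx hy⟩ : Q) = ⟨x, hx⟩ + ⟨y, hy⟩ := rfl
        rw [h1, map_add, ihx, ihy, add_zero]
      · intro c x hx ih
        have h1 : (⟨c • x, Q.smul_mem c hx⟩ : Q) = c • (⟨x, hx⟩ : Q) := rfl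
        rw [h1, hΦ, ih, mul_zero]
    exact key q1 q1.2
  have hzero : ∀ γ : Gamma0 N, periodMap N g (Additive.ofMul γ) = 0 →
      (Φ.comp ψQ) (Additive.ofMul γ) = 0 := by
    intro γ h
    have h1 : ψQ (Additive.ofMul γ) = 0 := Subtype.ext h
    show Φ (ψQ (Additive.ofMul γ)) = 0
    rw [h1, map_zero]
  refine ⟨a, Φ.comp ψQ, ha, ?_, hzero, ?_, ?_, ?_⟩
  · obtain ⟨γ, hγ⟩ := hex
    intro h
    exact hγ (by simpa using DFunLike.congr_fun h γ)
  · intro γ hγ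
    exact hzero γ (h58_periodMap_mem_parabolicHoms g γ hγ)
  · intro γ hγ
    apply hzero
    obtain ⟨n, hn, hγn⟩ := (isOfFinOrder_iff_pow_eq_one).mp hγ
    have h1 : n • periodMap N g (Additive.ofMul γ) = 0 := by
      rw [← map_nsmul, ← ofMul_pow, hγn, ofMul_one, map_zero]
    rcases smul_eq_zero.mp h1 with h | h
    · exact absurd h hn.ne'
    · exact h
  · intro ℓ _ hℓN
    have hℓ : ℓ.Prime := Fact.out
    have h1 : ∀ γ, h30_heckeT N ℓ hℓN ψQ γ = a ℓ • ψQ γ := by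
      intro γ
      apply Subtype.ext
      have h2 := h30_heckeT_comp ℓ hℓN Q.subtype.toAddMonoidHom ψQ
      have h3 : Q.subtype.toAddMonoidHom.comp ψQ = periodMap N g := rfl
      rw [h3, h42_period_eigen hg ℓ hℓN] at h2
      have h4 := DFunLike.congr_fun h2 γ
      have h5 : ((a ℓ • ψQ γ : Q) : ℂ) = (a ℓ : ℂ) * periodMap N g γ := rfl
      rw [h5, ha ℓ hℓ hℓN]
      exact h4.symm
    refine AddMonoidHom.ext fun γ => ?_
    rw [h30_heckeT_comp]
    show Φ (h30_heckeT N ℓ hℓN ψQ γ) = φ (a ℓ) * Φ (ψQ γ)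
    rw [h1, hΦ]

/-- In characteristic `p`, the kernel of a ring homomorphism `ℤ̄ → k` is a maximal ideal. -/
theorem h42_ker_isMaximal {p : ℕ} (hp : p.Prime) {k : Type*} [Field k] [CharP k p]
    (φ : integralClosure ℤ ℂ →+* k) : (RingHom.ker φ).IsMaximal := by
  have hprime : (RingHom.ker φ).IsPrime := RingHom.ker_isPrime φ
  refine Ideal.isMaximal_of_isIntegral_of_isMaximal_comap (R := ℤ) (RingHom.ker φ) ?_
  have h1 : (RingHom.ker φ).comap (algebraMap ℤ (integralClosure ℤ ℂ)) =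
      Ideal.span {(p : ℤ)} := by
    ext n
    rw [Ideal.mem_comap, RingHom.mem_ker, Ideal.mem_span_singleton]
    have h2 : φ (algebraMap ℤ _ n) = (n : k) := by simp
    rw [h2, CharP.intCast_eq_zero_iff k p]
  rw [h1]
  exact PrincipalIdealRing.isMaximal_of_irreducible (Nat.prime_iff_prime_int.mp hp).irreducible

/-- **GAL-COH, characteristic `p` form** (the shape of S29 / S42). -/
theorem h42_coh_charP {N : ℕ} [NeZero N] {g : CuspForm (Gamma0 N) 2}
    (hg : g.IsNormalizedEigenform) {p : ℕ} (hp : p.Prime) {k : Type*} [Field k] [CharP k p]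
    (φ : integralClosure ℤ ℂ →+* k) :
    ∃ (a : ℕ → integralClosure ℤ ℂ) (ψ : Additive (Gamma0 N) →+ k),
      (∀ ℓ : ℕ, ℓ.Prime → ¬ ℓ ∣ N → (a ℓ : ℂ) = qCoeff g ℓ) ∧
      ψ ≠ 0 ∧
      (∀ γ : Gamma0 N, periodMap N g (Additive.ofMul γ) = 0 → ψ (Additive.ofMul γ) = 0) ∧
      IsParabolicHom (Gamma0 N) ψ ∧
      (∀ γ : Gamma0 N, IsOfFinOrder γ → ψ (Additive.ofMul γ) = 0) ∧
      ∀ (ℓ : ℕ) [Fact ℓ.Prime] (hℓN : ¬ ℓ ∣ N),
        h30_heckeT N ℓ hℓN ψ = φ (a ℓ) • ψ :=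
  h42_coh hg φ (h42_ker_isMaximal hp φ)

end Fermat.Agent.GAL
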