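import Mathlib
import Fermat.Prelude.Def_AlgebraicCurve_Correspondence

/-!
# Semilinear automorphisms commute with correspondences (generic part of GAL-GH)

`g : SemilinearAut K F`, `g' : SemilinearAut K F'` intertwined along `φ : F →ₐ[K] F'`
(`SemilinearAut.IntertwinesAlong (φ : F →+* F') g g'`, i.e. `g' • φ x = φ (g • x)`).
Then restriction of places, ramification indices, inertia degrees, pull-back and
push-forward of divisors, and the correspondence on `Divisor` and on `Pic0` are all
equivariant.  No hypothesis on the fields beyond what the Prelude definitions need.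
-/

set_option autoImplicit false

noncomputable section

namespace Fermat.Agent.GAL

open AlgebraicCurve
open scoped Pointwise

section Generic

variable {K F F' : Type*} [Field K] [Field F] [Field F'] [Algebra K F] [Algebra K F']

/-- membership in the restricted place, unfolded -/
theorem h67_mem_restrictAlong (φ : F →ₐ[K] F') (hφ : φ.toRingHom.IsIntegral)
    (w : Place K F') (x : F) :
    x ∈ (w.restrictAlong φ hφ).toValuationSubring ↔ φ x ∈ w.toValuationSubring :=
  Iff.rfl

/-- membership in a translated place, unfolded -/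
theorem h67_mem_smul_place (g : SemilinearAut K F) (v : Place K F) (x : F) :
    x ∈ (g • v).toValuationSubring ↔ g⁻¹ • x ∈ v.toValuationSubring := by
  rw [SemilinearAut.smul_toValuationSubring]
  exact ValuationSubring.mem_pointwise_smul_iff_inv_smul_mem

theorem h67_smul_mem_smul_place (g : SemilinearAut K F) (v : Place K F) {x : F}
    (hx : x ∈ v.toValuationSubring) : g • x ∈ (g • v).toValuationSubring := by
  rw [h67_mem_smul_place, inv_smul_smul]
  exact hx

/-- **Restriction of places is equivariant.** -/
theorem h67_restrictAlong_smul (φ : F →ₐ[K] F') (hφ : φ.toRingHom.IsIntegral)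
    {g : SemilinearAut K F} {g' : SemilinearAut K F'}
    (h : SemilinearAut.IntertwinesAlong (φ : F →+* F') g g') (w : Place K F') :
    (g' • w).restrictAlong φ hφ = g • (w.restrictAlong φ hφ) := by
  apply Place.ext
  ext x
  have hi := h.inv x
  change x ∈ ((g' • w).restrictAlong φ hφ).toValuationSubring ↔
    x ∈ (g • w.restrictAlong φ hφ).toValuationSubring
  rw [h67_mem_restrictAlong, h67_mem_smul_place, h67_mem_smul_place, h67_mem_restrictAlong]
  have hi' : g'⁻¹ • φ x = φ (g⁻¹ • x) := hi
  rw [hi']

theorem h67_ord_along_smul (φ : F →ₐ[K] F')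
    {g : SemilinearAut K F} {g' : SemilinearAut K F'}
    (h : SemilinearAut.IntertwinesAlong (φ : F →+* F') g g') (w : Place K F') (f : F) :
    (g' • w).ord (φ (g • f)) = w.ord (φ f) := by
  have h1 : g' • φ f = φ (g • f) := h f
  rw [← h1]
  exact SemilinearAut.ord_smul g' w (φ f)

theorem h67_ramificationIndexAlong_def (φ : F →ₐ[K] F') (w : Place K F') :
    w.ramificationIndexAlong φ
      = sInf {n : ℕ | 0 < n ∧ ∃ f : F, f ≠ 0 ∧ w.ord (φ f) = n} :=
  rfl

/-- **Ramification indices are invariant.** -/
theorem h67_ramificationIndexAlong_smul (φ : F →ₐ[K] F')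
    {g : SemilinearAut K F} {g' : SemilinearAut K F'}
    (h : SemilinearAut.IntertwinesAlong (φ : F →+* F') g g') (w : Place K F') :
    (g' • w).ramificationIndexAlong φ = w.ramificationIndexAlong φ := by
  rw [h67_ramificationIndexAlong_def, h67_ramificationIndexAlong_def]
  congr 1
  ext n
  simp only [Set.mem_ofPred_eq]
  constructor
  · rintro ⟨hn, f, hf, hfo⟩
    refine ⟨hn, g⁻¹ • f, ?_, ?_⟩
    · intro h0
      apply hf
      have := congrArg (g • ·) h0
      simpa using this
    · rw [← hfo, ← h67_ord_along_smul φ h w (g⁻¹ • f), smul_inv_smul]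
  · rintro ⟨hn, f, hf, hfo⟩
    refine ⟨hn, g • f, ?_, ?_⟩
    · intro h0
      apply hf
      have := congrArg (g⁻¹ • ·) h0
      simpa using this
    · rw [← hfo, h67_ord_along_smul φ h w f]

/-- the ring isomorphism between the valuation rings of `w.restrict` and `(g' • w).restrict` -/
def h67_restrictSMulEquiv (φ : F →ₐ[K] F') (hφ : φ.toRingHom.IsIntegral)
    {g : SemilinearAut K F} {g' : SemilinearAut K F'}
    (h : SemilinearAut.IntertwinesAlong (φ : F →+* F') g g') (w : Place K F') :
    (w.restrictAlong φ hφ).toValuationSubring ≃+*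
      ((g' • w).restrictAlong φ hφ).toValuationSubring where
  toFun x := ⟨g • (x : F), by
    rw [h67_mem_restrictAlong]
    have h1 : g' • φ (x : F) = φ (g • (x : F)) := h x
    rw [← h1]
    exact h67_smul_mem_smul_place g' w ((h67_mem_restrictAlong φ hφ w x).mp x.2)⟩
  invFun y := ⟨g⁻¹ • (y : F), by
    rw [h67_mem_restrictAlong]
    have h1 : g'⁻¹ • φ (y : F) = φ (g⁻¹ • (y : F)) := h.inv y
    rw [← h1]
    exact (h67_mem_smul_place g' w _).mp ((h67_mem_restrictAlong φ hφ (g' • w) y).mp y.2)⟩
  left_inv x := by ext; simp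
  right_inv y := by ext; simp
  map_mul' x y := by ext; simp
  map_add' x y := by ext; simp

@[simp]
theorem h67_coe_restrictSMulEquiv (φ : F →ₐ[K] F') (hφ : φ.toRingHom.IsIntegral)
    {g : SemilinearAut K F} {g' : SemilinearAut K F'}
    (h : SemilinearAut.IntertwinesAlong (φ : F →+* F') g g') (w : Place K F')
    (x : (w.restrictAlong φ hφ).toValuationSubring) :
    ((h67_restrictSMulEquiv φ hφ h w x : ((g' • w).restrictAlong φ hφ).toValuationSubring) : F)
      = g • (x : F) :=
  rfl

/-- auxiliary form of the invariance of inertia degrees, for an `Algebra F F'` instance -/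
theorem h67_inertiaDeg_smul_aux {K F F' : Type*} [Field K] [Field F] [Field F']
    [Algebra K F] [Algebra K F'] [Algebra F F'] [IsScalarTower K F F']
    [Algebra.IsIntegral F F'] (g' : SemilinearAut K F') (w : Place K F')
    (e0 : (w.restrict F).toValuationSubring ≃+* ((g' • w).restrict F).toValuationSubring)
    (he0 : ∀ x, algebraMap F F' ((e0 x : ((g' • w).restrict F).toValuationSubring) : F)
      = g' • algebraMap F F' (x : F)) :
    (g' • w).inertiaDeg F = w.inertiaDeg F := by
  change Module.finrank ((g' • w).restrict F).ResidueField (g' • w).ResidueField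
    = Module.finrank (w.restrict F).ResidueField w.ResidueField
  symm
  refine Algebra.finrank_eq_of_equiv_equiv
    (IsLocalRing.ResidueField.mapEquiv e0)
    (SemilinearAut.smulResidueRingEquiv g' w) ?_
  ext a
  obtain ⟨b, rfl⟩ := IsLocalRing.residue_surjective a
  change Place.restrictResidueMap F (g' • w)
      (IsLocalRing.ResidueField.mapEquiv e0 (IsLocalRing.residue _ b))
    = IsLocalRing.ResidueField.mapEquiv
        (SemilinearAut.smulValuationSubringEquiv g' w.toValuationSubring)
        (Place.restrictResidueMap F w (IsLocalRing.residue _ b))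
  rw [IsLocalRing.ResidueField.mapEquiv_apply, IsLocalRing.ResidueField.map_residue,
    Place.restrictResidueMap_residue, Place.restrictResidueMap_residue,
    IsLocalRing.ResidueField.mapEquiv_apply, IsLocalRing.ResidueField.map_residue]
  refine congrArg _ (Subtype.ext ?_)
  exact he0 b

/-- **Inertia degrees are invariant.** -/
theorem h67_inertiaDegAlong_smul (φ : F →ₐ[K] F') (hφ : φ.toRingHom.IsIntegral)
    {g : SemilinearAut K F} {g' : SemilinearAut K F'}
    (h : SemilinearAut.IntertwinesAlong (φ : F →+* F') g g') (w : Place K F') :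
    (g' • w).inertiaDegAlong φ hφ = w.inertiaDegAlong φ hφ := by
  letI := algebraAlong φ
  haveI := isScalarTower_along φ
  haveI := isIntegral_along φ hφ
  exact h67_inertiaDeg_smul_aux g' w (h67_restrictSMulEquiv φ hφ h w)
    (fun x => (h (x : F)).symm)

/-- **Push-forward of divisors is equivariant.** -/
theorem h67_pushforwardAlong_smul (φ : F →ₐ[K] F') (hφ : φ.toRingHom.IsIntegral)
    {g : SemilinearAut K F} {g' : SemilinearAut K F'}
    (h : SemilinearAut.IntertwinesAlong (φ : F →+* F') g g') (E : Divisor K F') :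
    Divisor.pushforwardAlong φ hφ (g' • E) = g • Divisor.pushforwardAlong φ hφ E := by
  induction E using Finsupp.induction with
  | zero => simp
  | single_add w n E _ _ ih =>
    rw [smul_add, map_add, map_add, smul_add, ih, SemilinearAut.smul_single,
      Divisor.pushforwardAlong_single, Divisor.pushforwardAlong_single,
      SemilinearAut.smul_single, h67_restrictAlong_smul φ hφ h,
      h67_inertiaDegAlong_smul φ hφ h]

/-- **Pull-back of divisors is equivariant.** -/
theorem h67_pullbackAlong_smul [HasPrincipalDivisors K F'] (φ : F →ₐ[K] F')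
    (hφ : φ.toRingHom.IsIntegral)
    {g : SemilinearAut K F} {g' : SemilinearAut K F'}
    (h : SemilinearAut.IntertwinesAlong (φ : F →+* F') g g') (D : Divisor K F) :
    Divisor.pullbackAlong φ hφ (g • D) = g' • Divisor.pullbackAlong φ hφ D := by
  ext w
  rw [Divisor.pullbackAlong_apply, SemilinearAut.divisor_smul_apply,
    SemilinearAut.divisor_smul_apply, Divisor.pullbackAlong_apply,
    h67_restrictAlong_smul φ hφ h.inv, h67_ramificationIndexAlong_smul φ h.inv]

/-- **The divisor correspondence `ψ_* ∘ φ^*` is equivariant.** -/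
theorem h67_correspondence_smul [HasPrincipalDivisors K F'] (φ ψ : F →ₐ[K] F')
    (hφ : φ.toRingHom.IsIntegral) (hψ : ψ.toRingHom.IsIntegral)
    {g : SemilinearAut K F} {g' : SemilinearAut K F'}
    (h : SemilinearAut.IntertwinesAlong (φ : F →+* F') g g')
    (h' : SemilinearAut.IntertwinesAlong (ψ : F →+* F') g g') (D : Divisor K F) :
    Divisor.correspondence φ ψ hφ hψ (g • D) = g • Divisor.correspondence φ ψ hφ hψ D := by
  rw [Divisor.correspondence_apply, Divisor.correspondence_apply,
    h67_pullbackAlong_smul φ hφ h, h67_pushforwardAlong_smul ψ hψ h']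

/-- **The correspondence on `Pic0` is equivariant.** -/
theorem h67_pic0_correspondence_smul [HasPrincipalDivisors K F'] (φ ψ : F →ₐ[K] F')
    (hφ : φ.toRingHom.IsIntegral) (hψ : ψ.toRingHom.IsIntegral)
    (hFI : FundamentalIdentityAlong K φ hφ) (hfin : FiniteAlong K ψ)
    (hN : NormFormulaAlong K ψ hfin)
    {g : SemilinearAut K F} {g' : SemilinearAut K F'}
    (h : SemilinearAut.IntertwinesAlong (φ : F →+* F') g g')
    (h' : SemilinearAut.IntertwinesAlong (ψ : F →+* F') g g') (x : Pic0 K F) :
    Pic0.correspondence φ ψ hφ hψ hFI hfin hN (g • x)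
      = g • Pic0.correspondence φ ψ hφ hψ hFI hfin hN x := by
  obtain ⟨D, rfl⟩ := Pic0.mk_surjective x
  rw [SemilinearAut.pic0_smul_mk, Pic0.correspondence_mk, Pic0.correspondence_mk,
    SemilinearAut.pic0_smul_mk]
  refine congrArg Pic0.mk (Subtype.ext ?_)
  rw [Pic0.coe_degZeroCorrespondence, SemilinearAut.coe_degZeroSMulHom,
    SemilinearAut.coe_degZeroSMulHom, Pic0.coe_degZeroCorrespondence,
    h67_correspondence_smul φ ψ hφ hψ h h']

end Generic

section Torsion

variable {K F : Type*} [Field K] [Field F] [Algebra K F]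

/-- If `n • D = div f` with `n ≠ 0` and `g` fixes `f`, then `g` fixes `D`
(divisors are torsion-free). -/
theorem h67_smul_divisor_eq_of_fix (g : SemilinearAut K F) (D : Divisor K F) {n : ℤ}
    (hn : n ≠ 0) {f : F} (hD : ∀ v : Place K F, (n • D) v = v.ord f) (hg : g • f = f) :
    g • D = D := by
  have h1 : g • (n • D) = n • D := by
    ext w
    rw [SemilinearAut.divisor_smul_apply, hD, hD]
    have h2 := SemilinearAut.ord_smul g (g⁻¹ • w) f
    rw [smul_inv_smul, hg] at h2
    exact h2.symm
  have h3 : n • (g • D) = n • D := by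
    rw [← h1]
    exact (map_zsmul (DistribSMul.toAddMonoidHom (Divisor K F) g) n D).symm
  ext w
  have h4 := DFunLike.congr_fun h3 w
  rw [Finsupp.smul_apply, Finsupp.smul_apply, smul_eq_mul, smul_eq_mul] at h4
  exact mul_left_cancel₀ hn h4

/-- **Torsion classes are fixed by every semilinear automorphism fixing one function.** -/
theorem h67_exists_function_of_torsion {n : ℕ} (hn : 0 < n) (x : Pic0 K F)
    (hx : n • x = 0) :
    ∃ f : F, f ≠ 0 ∧ ∀ g : SemilinearAut K F, g • f = f → g • x = x := by
  obtain ⟨D, rfl⟩ := Pic0.mk_surjective x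
  have h0 : (n • D : Divisor.degZero (K := K) (F := F)) ∈
      (Divisor.principal (K := K) (F := F)).addSubgroupOf (Divisor.degZero (K := K) (F := F)) := by
    have h1 : Pic0.mk (n • D) = 0 := hx
    exact (QuotientAddGroup.eq_zero_iff _).mp h1
  rw [AddSubgroup.mem_addSubgroupOf] at h0
  obtain ⟨f, hf, hDf⟩ := h0
  refine ⟨f, hf, fun g hg => ?_⟩
  rw [SemilinearAut.pic0_smul_mk]
  refine congrArg Pic0.mk (Subtype.ext ?_)
  rw [SemilinearAut.coe_degZeroSMulHom]
  refine h67_smul_divisor_eq_of_fix g (D : Divisor K F) (n := (n : ℤ))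
    (by exact_mod_cast hn.ne') (fun v => ?_) hg
  rw [← hDf v]
  simp

end Torsion

end Fermat.Agent.GAL
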