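import Mathlib
import Fermat.Prelude.Def_ModularCurve_HeckeModule
import Fermat.Prelude.Thm_ModularCurve_coeffMap_qExpand
import Fermat.Prelude.Def_GaloisRep_Residual
import Fermat.Agent.GAL.h67_GalPlace

/-!
# GAL-GH: Hecke operators commute with Galois on `J₀(N)`; torsion has finite level

* `h67_hecke_galois_comm` (COMM): `heckeOperatorBar N l (σ • x) = σ • heckeOperatorBar N l x`,
  no hypothesis.
* `h67_torsion_stabiliser` (FINORBIT): every torsion class of `JZero N` is fixed by the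
  absolute Galois group of a number field; `h67_torsion_stabiliser_isOpen`: the stabiliser
  is a Krull-neighbourhood of the identity.
-/

set_option autoImplicit false

noncomputable section

namespace Fermat.Agent.GAL

open AlgebraicCurve ModularCurve

section Comm

variable {L : Type*} [Field L] [Algebra ℚ L] (N ℓ : ℕ) [NeZero N] [NeZero ℓ]

/-- the arithmetic Galois action commutes with the degeneracy map `α` (inclusion) -/
theorem h67_intertwines_alpha (σ : L ≃ₐ[ℚ] L) :
    SemilinearAut.IntertwinesAlong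
      ((heckeAlphaBar L N ℓ :
        laurentBaseChange L (modularFunctionFieldFull N) →ₐ[L]
          laurentBaseChange L (modularFunctionFieldFull (N * ℓ))) :
        laurentBaseChange L (modularFunctionFieldFull N) →+*
          laurentBaseChange L (modularFunctionFieldFull (N * ℓ)))
      (arithmeticGalois (modularFunctionFieldFull N) σ)
      (arithmeticGalois (modularFunctionFieldFull (N * ℓ)) σ) := by
  intro x
  apply Subtype.ext
  rw [coe_arithmeticGalois_smul]
  change coeffMap (σ : L →+* L) ((heckeAlphaBar L N ℓ x : _) : LaurentSeries L)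
    = ((heckeAlphaBar L N ℓ (arithmeticGalois (modularFunctionFieldFull N) σ • x) : _) :
        LaurentSeries L)
  rw [coe_heckeAlphaBar, coe_heckeAlphaBar, coe_arithmeticGalois_smul]

omit [NeZero N] in
/-- the arithmetic Galois action commutes with the degeneracy map `β` (`q ↦ q^ℓ`) -/
theorem h67_intertwines_beta (σ : L ≃ₐ[ℚ] L) :
    SemilinearAut.IntertwinesAlong
      ((heckeBetaBar L N ℓ :
        laurentBaseChange L (modularFunctionFieldFull N) →ₐ[L]
          laurentBaseChange L (modularFunctionFieldFull (N * ℓ))) :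
        laurentBaseChange L (modularFunctionFieldFull N) →+*
          laurentBaseChange L (modularFunctionFieldFull (N * ℓ)))
      (arithmeticGalois (modularFunctionFieldFull N) σ)
      (arithmeticGalois (modularFunctionFieldFull (N * ℓ)) σ) := by
  intro x
  apply Subtype.ext
  rw [coe_arithmeticGalois_smul]
  change coeffMap (σ : L →+* L) ((heckeBetaBar L N ℓ x : _) : LaurentSeries L)
    = ((heckeBetaBar L N ℓ (arithmeticGalois (modularFunctionFieldFull N) σ • x) : _) :
        LaurentSeries L)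
  rw [coe_heckeBetaBar, coe_heckeBetaBar, coe_arithmeticGalois_smul, coeffMap_qExpand]

/-- **Hecke commutes with Galois, over any field `L ⊇ ℚ`** (divisor level, given the
integrality inputs). -/
theorem h67_heckeDivBar_galois (hα : HeckeAlphaBarIntegral L N ℓ)
    (hβ : HeckeBetaBarIntegral L N ℓ)
    [HasPrincipalDivisors L (laurentBaseChange L (modularFunctionFieldFull (N * ℓ)))]
    (σ : L ≃ₐ[ℚ] L) (D : Divisor L (laurentBaseChange L (modularFunctionFieldFull N))) :
    heckeDivBar hα hβ (arithmeticGalois (modularFunctionFieldFull N) σ • D)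
      = arithmeticGalois (modularFunctionFieldFull N) σ • heckeDivBar hα hβ D :=
  h67_correspondence_smul _ _ hβ hα (h67_intertwines_beta N ℓ σ) (h67_intertwines_alpha N ℓ σ) D

/-- **Hecke commutes with Galois, over any field `L ⊇ ℚ`** (`heckePic0Bar`). -/
theorem h67_heckePic0Bar_galois (hα : HeckeAlphaBarIntegral L N ℓ)
    (hβ : HeckeBetaBarIntegral L N ℓ)
    [HasPrincipalDivisors L (laurentBaseChange L (modularFunctionFieldFull (N * ℓ)))]
    (hFI : FundamentalIdentityAlong L (heckeBetaBar L N ℓ) hβ)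
    (hfin : FiniteAlong L (heckeAlphaBar L N ℓ))
    (hN : NormFormulaAlong L (heckeAlphaBar L N ℓ) hfin)
    (σ : L ≃ₐ[ℚ] L) (x : Pic0 L (laurentBaseChange L (modularFunctionFieldFull N))) :
    heckePic0Bar hα hβ hFI hfin hN (σ • x) = σ • heckePic0Bar hα hβ hFI hfin hN x := by
  rw [galois_smul_pic0_def, galois_smul_pic0_def]
  exact h67_pic0_correspondence_smul _ _ hβ hα hFI hfin hN
    (h67_intertwines_beta N ℓ σ) (h67_intertwines_alpha N ℓ σ) x

/-- **Hecke commutes with Galois, over any field `L ⊇ ℚ`** (total operator, no hypothesis). -/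
theorem h67_heckeOperatorAlong_galois (σ : L ≃ₐ[ℚ] L)
    (x : Pic0 L (laurentBaseChange L (modularFunctionFieldFull N))) :
    heckeOperatorAlong L N ℓ (σ • x) = σ • heckeOperatorAlong L N ℓ x := by
  by_cases hI : HeckeInputsAlong L N ℓ
  · obtain ⟨hα, hβ, hP, hfin, hFI, hN⟩ := hI
    haveI := hP
    rw [heckeOperatorAlong_eq hα hβ hFI hfin hN]
    exact h67_heckePic0Bar_galois N ℓ hα hβ hFI hfin hN σ x
  · rw [heckeOperatorAlong_of_not hI]
    simp

end Comm

/-- **(COMM)** The Hecke operator `T_l` on `J₀(N)(ℚ̄)` commutes with the Galois action. -/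
theorem h67_hecke_galois_comm (N : ℕ) [NeZero N] (l : Nat.Primes)
    (σ : AlgebraicClosure ℚ ≃ₐ[ℚ] AlgebraicClosure ℚ) (x : JZero N) :
    heckeOperatorBar N l (σ • x) = σ • heckeOperatorBar N l x := by
  haveI : NeZero (l : ℕ) := ⟨l.2.ne_zero⟩
  rw [heckeOperatorBar_apply, heckeOperatorBar_apply]
  exact h67_heckeOperatorAlong_galois N l σ x

section FinOrbit

variable {L : Type*} [Field L] [Algebra ℚ L] [Algebra.IsAlgebraic ℚ L]

/-- every element of `laurentBaseChange L F₀` is fixed by the coefficientwise action of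
the automorphisms fixing a suitable finite extension of `ℚ` -/
theorem h67_exists_level_coeffMap {F₀ : IntermediateField ℚ (LaurentSeries ℚ)}
    {y : LaurentSeries L} (hy : y ∈ laurentBaseChange L F₀) :
    ∃ E : IntermediateField ℚ L, FiniteDimensional ℚ E ∧
      ∀ σ : L ≃ₐ[ℚ] L, (∀ a ∈ E, σ a = a) → coeffMap (σ : L →+* L) y = y := by
  rw [mem_laurentBaseChange_iff] at hy
  induction hy using Subfield.closure_induction with
  | mem y hy =>
      rcases hy with ⟨a, rfl⟩ | ⟨z, hz, rfl⟩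
      · refine ⟨IntermediateField.adjoin ℚ {a},
          IntermediateField.adjoin.finiteDimensional
            (Algebra.IsIntegral.isIntegral a), fun σ hσ => ?_⟩
        rw [coeffMap_algebraMap]
        congr 1
        exact hσ a (IntermediateField.mem_adjoin_simple_self ℚ a)
      · exact ⟨⊥, inferInstance, fun σ _ => coeffMap_coeffEmb σ z⟩
  | one => exact ⟨⊥, inferInstance, fun σ _ => map_one _⟩
  | add x y _ _ hx hy =>
      obtain ⟨E₁, h1, h1'⟩ := hx
      obtain ⟨E₂, h2, h2'⟩ := hy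
      refine ⟨E₁ ⊔ E₂, inferInstance, fun σ hσ => ?_⟩
      rw [map_add, h1' σ (fun a ha => hσ a ((le_sup_left : E₁ ≤ E₁ ⊔ E₂) ha)),
        h2' σ (fun a ha => hσ a ((le_sup_right : E₂ ≤ E₁ ⊔ E₂) ha))]
  | neg x _ hx =>
      obtain ⟨E₁, h1, h1'⟩ := hx
      exact ⟨E₁, h1, fun σ hσ => by rw [map_neg, h1' σ hσ]⟩
  | inv x _ hx =>
      obtain ⟨E₁, h1, h1'⟩ := hx
      exact ⟨E₁, h1, fun σ hσ => by rw [map_inv₀, h1' σ hσ]⟩
  | mul x y _ _ hx hy =>
      obtain ⟨E₁, h1, h1'⟩ := hx
      obtain ⟨E₂, h2, h2'⟩ := hy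
      refine ⟨E₁ ⊔ E₂, inferInstance, fun σ hσ => ?_⟩
      rw [map_mul, h1' σ (fun a ha => hσ a ((le_sup_left : E₁ ≤ E₁ ⊔ E₂) ha)),
        h2' σ (fun a ha => hσ a ((le_sup_right : E₂ ≤ E₁ ⊔ E₂) ha))]

/-- **(FINORBIT), general algebraic `L`**: a torsion class of `Pic0` of an arithmetic
function field is fixed by all automorphisms fixing a suitable finite extension of `ℚ`. -/
theorem h67_torsion_stabiliser_gen (F₀ : IntermediateField ℚ (LaurentSeries ℚ))
    (n : ℕ) (hn : 0 < n) (x : Pic0 L (laurentBaseChange L F₀)) (hx : n • x = 0) :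
    ∃ E : IntermediateField ℚ L, FiniteDimensional ℚ E ∧
      ∀ σ : L ≃ₐ[ℚ] L, (∀ a ∈ E, σ a = a) → σ • x = x := by
  obtain ⟨f, -, hf⟩ := h67_exists_function_of_torsion hn x hx
  obtain ⟨E, hE, hE'⟩ := h67_exists_level_coeffMap (F₀ := F₀) f.2
  refine ⟨E, hE, fun σ hσ => ?_⟩
  rw [galois_smul_pic0_def]
  refine hf _ (Subtype.ext ?_)
  rw [coe_arithmeticGalois_smul]
  exact hE' σ hσ

end FinOrbit

/-- **(FINORBIT)** Every torsion class of `J₀(N)(ℚ̄)` is fixed by `Gal(ℚ̄/E)` for a number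
field `E ⊆ ℚ̄`. -/
theorem h67_torsion_stabiliser (N : ℕ) [NeZero N] (n : ℕ) (hn : 0 < n) (x : JZero N)
    (hx : n • x = 0) :
    ∃ E : IntermediateField ℚ (AlgebraicClosure ℚ), FiniteDimensional ℚ E ∧
      ∀ σ : AlgebraicClosure ℚ ≃ₐ[ℚ] AlgebraicClosure ℚ, (∀ a ∈ E, σ a = a) → σ • x = x := by
  haveI : Algebra.IsAlgebraic ℚ (AlgebraicClosure ℚ) := AlgebraicClosure.isAlgebraic ℚ
  exact h67_torsion_stabiliser_gen (modularFunctionFieldFull N) n hn x hx

/-- (FINORBIT), topological form: the stabiliser of a torsion class is a neighbourhood of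
the identity for the Krull topology. -/
theorem h67_torsion_stabiliser_isOpen (N : ℕ) [NeZero N] (n : ℕ) (hn : 0 < n) (x : JZero N)
    (hx : n • x = 0) :
    IsOpen {σ : AlgebraicClosure ℚ ≃ₐ[ℚ] AlgebraicClosure ℚ | σ • x = x} := by
  obtain ⟨E, hE, hE'⟩ := h67_torsion_stabiliser N n hn x hx
  have h1 : (E.fixingSubgroup : Set (AlgebraicClosure ℚ ≃ₐ[ℚ] AlgebraicClosure ℚ)) ⊆
      ((MulAction.stabilizer (AlgebraicClosure ℚ ≃ₐ[ℚ] AlgebraicClosure ℚ) x :
        Subgroup (AlgebraicClosure ℚ ≃ₐ[ℚ] AlgebraicClosure ℚ)) : Set _) := by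
    intro σ hσ
    rw [SetLike.mem_coe, MulAction.mem_stabilizer_iff]
    refine hE' σ (fun a ha => ?_)
    exact (IntermediateField.mem_fixingSubgroup_iff E σ).mp hσ a ha
  have h2 := Subgroup.isOpen_mono (H₁ := E.fixingSubgroup)
    (H₂ := MulAction.stabilizer (AlgebraicClosure ℚ ≃ₐ[ℚ] AlgebraicClosure ℚ) x) h1
    (IntermediateField.fixingSubgroup_isOpen E)
  exact h2

/-- (FINORBIT) for a finite set of torsion classes: one number field works for all. -/
theorem h67_finite_torsion_stabiliser (N : ℕ) [NeZero N] (S : Set (JZero N)) (hS : S.Finite)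
    (hS' : ∀ x ∈ S, ∃ n : ℕ, 0 < n ∧ n • x = 0) :
    ∃ E : IntermediateField ℚ (AlgebraicClosure ℚ), FiniteDimensional ℚ E ∧
      ∀ σ : AlgebraicClosure ℚ ≃ₐ[ℚ] AlgebraicClosure ℚ, (∀ a ∈ E, σ a = a) →
        ∀ x ∈ S, σ • x = x := by
  classical
  have h1 : ∀ x : S, ∃ E : IntermediateField ℚ (AlgebraicClosure ℚ), FiniteDimensional ℚ E ∧
      ∀ σ : AlgebraicClosure ℚ ≃ₐ[ℚ] AlgebraicClosure ℚ, (∀ a ∈ E, σ a = a) →
        σ • (x : JZero N) = x := by
    rintro ⟨x, hx⟩
    obtain ⟨n, hn, hnx⟩ := hS' x hx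
    exact h67_torsion_stabiliser N n hn x hnx
  choose E hE hE' using h1
  haveI : Finite S := hS.to_subtype
  haveI : ∀ x : S, FiniteDimensional ℚ (E x) := hE
  refine ⟨⨆ x : S, E x, IntermediateField.finiteDimensional_iSup_of_finite, ?_⟩
  intro σ hσ x hx
  exact hE' ⟨x, hx⟩ σ (fun a ha => hσ a ((le_iSup E (⟨x, hx⟩ : S)) ha))

/-- If the `n`-torsion of `J₀(N)(ℚ̄)` is finite, the Galois representation on it factors
through a finite level. -/
theorem h67_torsionGaloisRep_factors (N : ℕ) [NeZero N] (n : ℕ) (hn : 0 < n)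
    [Finite (Pic0.torsion (AlgebraicClosure ℚ) (modularFunctionFieldBar N) n)] :
    GaloisFactorsThroughFiniteLevel (JZero.torsionGaloisRep N n) := by
  obtain ⟨E, hE, hE'⟩ := h67_finite_torsion_stabiliser N
    ((Pic0.torsion (AlgebraicClosure ℚ) (modularFunctionFieldBar N) n : Set (JZero N)))
    (Set.toFinite _) (fun x hx => ⟨n, hn, by
      have h1 : ((n : ℤ) • x) = 0 := Pic0.mem_torsion.mp hx
      rw [← h1]
      exact (natCast_zsmul x n).symm⟩)
  refine ⟨E, hE, fun σ hσ => ?_⟩
  ext x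
  rw [JZero.coe_torsionGaloisRep_apply]
  exact hE' σ hσ x x.2

end Fermat.Agent.GAL
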