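import Mathlib

/-!
# GAL, row ALGCL: the residue fields of `ℤ̄ = integralClosure ℤ ℂ` are algebraically closed

`gal_isAlgClosed_quot`: for a maximal ideal `𝔪` of `integralClosure ℤ ℂ`, the field
`integralClosure ℤ ℂ ⧸ 𝔪` is algebraically closed.
-/

set_option autoImplicit false

namespace Fermat.Agent.GAL

open Polynomial

/-- A monic polynomial over `integralClosure ℤ ℂ` of positive degree has a root in
`integralClosure ℤ ℂ`. -/
theorem h70_exists_root_integralClosure (F : (integralClosure ℤ ℂ)[X]) (hF : F.Monic)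
    (hdeg : 0 < F.natDegree) : ∃ a : integralClosure ℤ ℂ, F.eval a = 0 := by
  have hmonic : (F.map (algebraMap (integralClosure ℤ ℂ) ℂ)).Monic := hF.map _
  have hdeg' : (F.map (algebraMap (integralClosure ℤ ℂ) ℂ)).degree ≠ 0 := by
    rw [Polynomial.degree_eq_natDegree hmonic.ne_zero, hF.natDegree_map]
    exact_mod_cast hdeg.ne'
  obtain ⟨α, hα⟩ := IsAlgClosed.exists_root _ hdeg'
  have hα' : Polynomial.eval₂ (algebraMap (integralClosure ℤ ℂ) ℂ) α F = 0 := by
    rwa [Polynomial.IsRoot.def, Polynomial.eval_map] at hα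
  have hint : IsIntegral (integralClosure ℤ ℂ) α := ⟨F, hF, hα'⟩
  have hintZ : IsIntegral ℤ α := isIntegral_trans α hint
  refine ⟨⟨α, hintZ⟩, ?_⟩
  apply Subtype.ext
  have h1 : ((F.eval (⟨α, hintZ⟩ : integralClosure ℤ ℂ) : integralClosure ℤ ℂ) : ℂ)
      = Polynomial.eval₂ (algebraMap (integralClosure ℤ ℂ) ℂ) α F := by
    have h2 := Polynomial.hom_eval₂ F (RingHom.id (integralClosure ℤ ℂ))
      (algebraMap (integralClosure ℤ ℂ) ℂ) (⟨α, hintZ⟩ : integralClosure ℤ ℂ)
    rw [RingHom.comp_id] at h2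
    exact h2
  rw [h1, hα']
  rfl

/-- **[ALGCL]** The residue field `ℤ̄ ⧸ 𝔪` is algebraically closed. -/
theorem gal_isAlgClosed_quot (𝔪 : Ideal (integralClosure ℤ ℂ)) [𝔪.IsMaximal] :
    letI := Ideal.Quotient.field 𝔪; IsAlgClosed (integralClosure ℤ ℂ ⧸ 𝔪) := by
  let _ := Ideal.Quotient.field 𝔪
  refine IsAlgClosed.of_exists_root _ (fun f hf hirr => ?_)
  have hlift : f ∈ Polynomial.lifts (Ideal.Quotient.mk 𝔪) := by
    rw [Polynomial.mem_lifts]
    exact Polynomial.map_surjective _ Ideal.Quotient.mk_surjective f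
  obtain ⟨F, hFmap, hFdeg, hFmonic⟩ := Polynomial.lifts_and_natDegree_eq_and_monic hlift hf
  have hpos : 0 < F.natDegree := by
    rw [hFdeg]; exact hirr.natDegree_pos
  obtain ⟨a, ha⟩ := h70_exists_root_integralClosure F hFmonic hpos
  refine ⟨Ideal.Quotient.mk 𝔪 a, ?_⟩
  rw [← hFmap, Polynomial.eval_map, Polynomial.eval₂_at_apply, ha, map_zero]

end Fermat.Agent.GAL
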