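import Mathlib
import Fermat.Agent.GAL.h29_Iface
import Fermat.Agent.GAL.h29_Carrier
import Fermat.Agent.GAL.h29_AsmAbs
import Fermat.Agent.GAL.h42_Coh
import Fermat.Agent.GAL.h67_GalHecke
import Fermat.Agent.GAL.h11_CycFrob
import Fermat.Agent.GAL.WCheb
import Fermat.Agent.GAL.BLR
import Fermat.Agent.GAL.h70_AlgCl
import Fermat.Agent.S37.h87_Assembly

/-!
# GAL, the assembly: `gal_core`

The residual Galois representation attached to a weight-two eigenform, from the reduction datum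
of `S37` (`h87_RedData`) and the analytic comparison (`gal_ThetaProp`).
-/

set_option autoImplicit false

namespace Fermat.Agent.GAL

open Polynomial CongruenceSubgroup ModularCurve ModularCurve.Period
open Fermat.Agent.S16 Fermat.Agent.S37

/-- Inertia acts trivially on the `p`-torsion of `J₀(N)` (from the reduction datum). -/
theorem h29_red_unr (N p : ℕ) [NeZero N] {ℓ : ℕ} (hℓ : ℓ.Prime)
    (A : ValuationSubring (AlgebraicClosure ℚ)) (h : h87_RedData N p ℓ hℓ A)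
    (σ : AlgebraicClosure ℚ ≃ₐ[ℚ] AlgebraicClosure ℚ) (hσ : σ ∈ A.inertiaSubgroupIn ℚ)
    (x : JZero N) (hx : p • x = 0) : σ • x = x := by
  obtain ⟨Jbar, _, red, φ, hI, hF, hT, hinj⟩ := h
  have e1 : p • (σ • x) = 0 := by
    have := (DistribSMul.toAddMonoidHom (JZero N) σ).map_nsmul p x
    simp only [DistribSMul.toAddMonoidHom_apply] at this
    rw [← this, hx, smul_zero]
  have h1 : σ • x - x = 0 := by
    apply hinj
    · exact ⟨1, by rw [pow_one, nsmul_sub, e1, hx, sub_self]⟩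
    · rw [map_sub, hI σ hσ x, sub_self]
  exact sub_eq_zero.mp h1

/-- The Eichler–Shimura relation on the `p`-torsion of `J₀(N)` (from the reduction datum). -/
theorem h29_red_es (N p : ℕ) [NeZero N] {ℓ : ℕ} (hℓ : ℓ.Prime)
    (A : ValuationSubring (AlgebraicClosure ℚ)) (h : h87_RedData N p ℓ hℓ A)
    (σ : AlgebraicClosure ℚ ≃ₐ[ℚ] AlgebraicClosure ℚ) (hσ : A.IsFrobeniusAt σ ℓ)
    (x : JZero N) (hx : p • x = 0) :
    σ • σ • x - heckeOperatorBar N ⟨ℓ, hℓ⟩ (σ • x) + ℓ • x = 0 := by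
  obtain ⟨Jbar, _, red, φ, hI, hF, hT, hinj⟩ := h
  have e0 : ∀ y : JZero N, p • y = 0 → p • (σ • y) = 0 := by
    intro y hy
    have := (DistribSMul.toAddMonoidHom (JZero N) σ).map_nsmul p y
    simp only [DistribSMul.toAddMonoidHom_apply] at this
    rw [← this, hy, smul_zero]
  have e1 : p • (σ • x) = 0 := e0 x hx
  have e2 : p • (σ • σ • x) = 0 := e0 _ e1
  have e3 : p • heckeOperatorBar N ⟨ℓ, hℓ⟩ (σ • x) = 0 := by
    rw [← map_nsmul, e1, map_zero]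
  apply hinj
  · refine ⟨1, ?_⟩
    rw [pow_one, nsmul_add, nsmul_sub, e2, e3, nsmul_left_comm, hx, smul_zero, sub_self, add_zero]
  · rw [map_add, map_sub, hF σ hσ, hF σ hσ, hT, hF σ hσ, map_nsmul, AddEquiv.symm_apply_apply]
    abel

section Core

variable {K : Type} [Field K] (N p : ℕ)

/-- The Galois action on the carrier. -/
noncomputable def h29_galRep :
    (AlgebraicClosure ℚ ≃ₐ[ℚ] AlgebraicClosure ℚ) →* Module.End K (h29_V p K (JZero N)) where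
  toFun σ := h29_post (DistribSMul.toAddMonoidHom (JZero N) σ)
  map_one' := by
    ext Φ π
    simp
  map_mul' σ τ := by
    ext Φ π
    simp [mul_smul]

theorem h29_galRep_apply (σ : AlgebraicClosure ℚ ≃ₐ[ℚ] AlgebraicClosure ℚ)
    (Φ : h29_V p K (JZero N)) (π : K →+ ZMod p) :
    h29_galRep (K := K) N p σ Φ π = σ • Φ π := rfl

/-- The homomorphisms `π ∘ ψ`. -/
noncomputable def h29_lam (ψ : Additive (Gamma0 N) →+ K) (hψpar : IsParabolicHom (Gamma0 N) ψ)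
    (hψfin : ∀ γ : Gamma0 N, IsOfFinOrder γ → ψ (Additive.ofMul γ) = 0) :
    (K →+ ZMod p) →+ gal_Hpe N p where
  toFun π := ⟨π.comp ψ, fun γ hγ => by
      rw [AddMonoidHom.comp_apply, hψpar γ hγ, map_zero], fun γ hγ => by
      rw [AddMonoidHom.comp_apply, hψfin γ hγ, map_zero]⟩
  map_zero' := rfl
  map_add' _ _ := rfl

theorem h29_finite_hom [NeZero N] (n : ℕ) [NeZero n] : Finite (Additive (Gamma0 N) →+ ZMod n) := by
  have hfg : Group.FG (Gamma0 N) := h42_gamma0_fg N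
  have h1 : AddGroup.FG (Additive (Gamma0 N)) := inferInstance
  obtain ⟨S, hS, hSfin⟩ := AddGroup.fg_iff.mp h1
  have := hSfin.to_subtype
  refine Finite.of_injective (fun (χ : Additive (Gamma0 N) →+ ZMod n) (s : S) => χ s) ?_
  intro χ χ' h
  refine AddMonoidHom.eq_of_eqOn_dense hS fun s hs => ?_
  exact congrFun h ⟨s, hs⟩

/-- **The core, over an algebraically closed field of characteristic `p`**, from a Hecke
eigen-homomorphism `ψ : Γ₀(N) → K`. -/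
theorem h29_core_of [NeZero N] [Fact p.Prime] [CharP K p] [IsAlgClosed K]
    (hred : ∀ (ℓ : ℕ) (hℓ : ℓ.Prime), ¬ ℓ ∣ N * p →
      ∀ A : ValuationSubring (AlgebraicClosure ℚ), A.LiesOverPrime ℓ → h87_RedData N p ℓ hℓ A)
    (hΘ : gal_ThetaProp N p)
    (ψ : Additive (Gamma0 N) →+ K) (hψ0 : ψ ≠ 0) (hψpar : IsParabolicHom (Gamma0 N) ψ)
    (hψfin : ∀ γ : Gamma0 N, IsOfFinOrder γ → ψ (Additive.ofMul γ) = 0)
    (θ : ℕ → K)
    (hψeig : ∀ (ℓ : ℕ) [Fact ℓ.Prime] (hℓN : ¬ ℓ ∣ N), h30_heckeT N ℓ hℓN ψ = θ ℓ • ψ) :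
    ∃ ρ : (AlgebraicClosure ℚ ≃ₐ[ℚ] AlgebraicClosure ℚ) →* Matrix (Fin 2) (Fin 2) K,
      GaloisFactorsThroughFiniteLevel ρ ∧
      (∀ (ℓ : ℕ), ℓ.Prime → ¬ ℓ ∣ N * p →
        ∀ A : ValuationSubring (AlgebraicClosure ℚ), A.LiesOverPrime ℓ →
          ∀ σ : AlgebraicClosure ℚ ≃ₐ[ℚ] AlgebraicClosure ℚ, A.IsFrobeniusAt σ ℓ →
            (ρ σ).charpoly = X ^ 2 - C (θ ℓ) * X + C (ℓ : K)) ∧
      (∀ ℓ : ℕ, ℓ.Prime → ¬ ℓ ∣ N * p →
        ∀ A : ValuationSubring (AlgebraicClosure ℚ), A.LiesOverPrime ℓ →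
          ∀ σ ∈ A.inertiaSubgroupIn ℚ, ρ σ = 1) := by
  classical
  have hp : p.Prime := Fact.out
  have hNp : N * p ≠ 0 := Nat.mul_ne_zero (NeZero.ne N) hp.ne_zero
  have hne : ∀ ℓ : ℕ, ℓ.Prime → ¬ ℓ ∣ N * p → ¬ ℓ ∣ N ∧ ℓ ≠ p := by
    intro ℓ _ h
    exact ⟨fun h' => h (Dvd.dvd.mul_right h' p), fun h' => h (h' ▸ Dvd.intro_left N rfl)⟩
  obtain ⟨Θ, hΘinj, hΘT⟩ := hΘ
  -- the eigenvector
  let w : h29_V p K (JZero N) := h29_V.mk (Θ.comp (h29_lam N p ψ hψpar hψfin))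
  have hw_apply : ∀ π : K →+ ZMod p, w π = Θ (h29_lam N p ψ hψpar hψfin π) := fun _ => rfl
  -- the torsion of the image of Θ
  have hΘtors : ∀ χ : gal_Hpe N p, p • Θ χ = 0 := by
    intro χ
    rw [← map_nsmul]
    have : p • χ = 0 := by
      apply Subtype.ext
      ext γ
      simp
    rw [this, map_zero]
  have hfinΘ : (Set.range Θ).Finite := by
    have : NeZero p := ⟨hp.ne_zero⟩
    have := h29_finite_hom N p
    exact Set.finite_range Θ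
  refine (fun h => ?_) (h29_asm_abs (K := K) (V := h29_V p K (JZero N)) p N hNp
    (h29_galRep N p) (fun ℓ => h29_post (heckeOperatorBar N ℓ).toAddMonoidHom)
    (fun ℓ => θ ℓ) (h11_cycloCharK p K) ?_ ?_ ?_ ?_ ?_ ?_ w ?_ ?_ ?_
    gal_weak_chebotarev (fun r d t h => gal_blr_ker r d t h))
  · obtain ⟨ρ, h1, h2, h3⟩ := h
    exact ⟨ρ, h1, fun ℓ hℓ hℓNp A hA σ hσ => h2 ℓ hℓ hℓNp A hA σ hσ, h3⟩
  · -- level of the cyclotomic character
    obtain ⟨L, hL, -, hLζ⟩ := h11_exists_cyclo_level p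
    exact ⟨L, hL, fun σ hσ => h11_cycloCharK_eq_one p K σ fun ζ hζ => hσ ζ (hLζ ζ hζ)⟩
  · intro ℓ hℓ hℓNp A hA σ hσ
    exact h11_cycloCharK_frob p K A hℓ (hne ℓ hℓ hℓNp).2 hA hσ
  · intro ℓ hℓ hℓNp A hA σ hσ
    exact h11_cycloCharK_inertia p K A hℓ (hne ℓ hℓ hℓNp).2 hA hσ
  · -- Hecke commutes with Galois
    intro ℓ σ
    ext Φ π
    exact h67_hecke_galois_comm N ℓ σ (Φ π)
  · -- unramified
    intro ℓ hℓ hℓNp A hA σ hσ Φ
    ext π
    exact h29_red_unr N p hℓ A (hred ℓ hℓ hℓNp A hA) σ hσ (Φ π) (h29_V.nsmul_apply_eq_zero Φ π)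
  · -- Eichler–Shimura
    intro ℓ hℓ hℓNp A hA σ hσ Φ
    ext π
    have h := h29_red_es N p hℓ A (hred ℓ hℓ hℓNp A hA) σ hσ (Φ π)
      (h29_V.nsmul_apply_eq_zero Φ π)
    rw [h29_V.add_apply, h29_V.sub_apply, h29_V.natCast_smul_apply]
    exact h
  · -- w ≠ 0
    intro hw0
    apply hψ0
    have h1 : ∀ π : K →+ ZMod p, π.comp ψ = 0 := by
      intro π
      have h2 : Θ (h29_lam N p ψ hψpar hψfin π) = Θ 0 := by
        rw [← hw_apply, hw0, map_zero]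
        rfl
      exact congrArg Subtype.val (hΘinj h2)
    letI : Algebra (ZMod p) K := ZMod.algebra K p
    refine DFunLike.ext _ _ fun γ => ?_
    rw [AddMonoidHom.zero_apply, ← Module.forall_dual_apply_eq_zero_iff (ZMod p)]
    intro f
    exact DFunLike.congr_fun (h1 f.toAddMonoidHom) γ
  · -- level of w
    obtain ⟨E, hE, hEfix⟩ := h67_finite_torsion_stabiliser N (Set.range Θ) hfinΘ (by
      rintro _ ⟨χ, rfl⟩
      exact ⟨p, hp.pos, hΘtors χ⟩)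
    refine ⟨E, hE, fun σ hσ => ?_⟩
    ext π
    exact hEfix σ hσ _ ⟨_, rfl⟩
  · -- w is an eigenvector
    intro ℓ hℓ hℓNp
    have := Fact.mk hℓ
    ext π
    rw [h29_V.smul_apply]
    refine hΘT ℓ (hne ℓ hℓ hℓNp).1 (fun h => (hne ℓ hℓ hℓNp).2
      ((Nat.prime_dvd_prime_iff_eq hℓ hp).mp h)) _ _ ?_
    show (h29_dmul p K (θ ℓ) π).comp ψ = h30_heckeT N ℓ (hne ℓ hℓ hℓNp).1 (π.comp ψ)
    rw [h30_heckeT_comp, hψeig ℓ (hne ℓ hℓ hℓNp).1]
    ext γ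
    simp

end Core

/-- **GAL core.** The residual representation over `ℤ̄ ⧸ 𝔪` attached to a normalised eigenform,
from the reduction datum and the analytic comparison. -/
theorem gal_core_of (N : ℕ) [NeZero N] {g : CuspForm (Gamma0 N) 2}
    (hg : g.IsNormalizedEigenform) (p : ℕ) [Fact p.Prime]
    (𝔪 : Ideal (integralClosure ℤ ℂ)) [𝔪.IsMaximal] (hp𝔪 : (p : integralClosure ℤ ℂ) ∈ 𝔪)
    (hred : ∀ (ℓ : ℕ) (hℓ : ℓ.Prime), ¬ ℓ ∣ N * p →
      ∀ A : ValuationSubring (AlgebraicClosure ℚ), A.LiesOverPrime ℓ → h87_RedData N p ℓ hℓ A)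
    (hΘ : gal_ThetaProp N p) :
    gal_CoreStatement N g p 𝔪 := by
  classical
  letI : Field (integralClosure ℤ ℂ ⧸ 𝔪) := Ideal.Quotient.field 𝔪
  have hAC : IsAlgClosed (integralClosure ℤ ℂ ⧸ 𝔪) := gal_isAlgClosed_quot 𝔪
  have hp : p.Prime := Fact.out
  have hchar : CharP (integralClosure ℤ ℂ ⧸ 𝔪) p := (CharP.charP_iff_prime_eq_zero hp).mpr (by
    have h := Ideal.Quotient.eq_zero_iff_mem.mpr hp𝔪
    rwa [map_natCast] at h)
  obtain ⟨a, ψ, ha, hψ0, -, hψpar, hψfin, hψeig⟩ := h42_coh hg (Ideal.Quotient.mk 𝔪)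
    (by rw [Ideal.mk_ker]; infer_instance)
  obtain ⟨ρ, h1, h2, h3⟩ := h29_core_of N p hred hΘ ψ hψ0 hψpar hψfin
    (fun ℓ => Ideal.Quotient.mk 𝔪 (a ℓ)) (fun ℓ _ hℓN => hψeig ℓ hℓN)
  refine ⟨ρ, h1, fun ℓ hℓ hℓNp A hA σ hσ => ⟨a ℓ, ha ℓ hℓ fun h => hℓNp (Dvd.dvd.mul_right h p),
    ?_⟩, h3⟩
  rw [h2 ℓ hℓ hℓNp A hA σ hσ]

end Fermat.Agent.GAL
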