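import Mathlib
import Fermat.Agent.GAL.h29_Iface
import Fermat.Agent.GAL.h77_AnDefs

/-!
# GAL: adapter from the analytic layer's `gal_theta` shape to the interface `gal_ThetaProp`
-/

set_option autoImplicit false

namespace Fermat.Agent.GAL

open CongruenceSubgroup ModularCurve Fermat.Agent.S16

theorem h29_Hpe_eq_PE (N n : ℕ) : gal_Hpe N n = gal_PE N (ZMod n) := rfl

/-- The interface `gal_ThetaProp N n` from the statement of the analytic layer (`gal_theta`)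
and `HeckeInputsAlong`. -/
theorem gal_ThetaProp_of_theta (N n : ℕ) [NeZero N]
    (hHI : ∀ (ℓ : ℕ) [NeZero ℓ], ℓ.Prime → ¬ ℓ ∣ N → HeckeInputsAlong (AlgebraicClosure ℚ) N ℓ)
    (hθ : ∃ Θ : ↥(gal_PE N (ZMod n)) →+ JZero N,
      Function.Injective Θ ∧
      ∀ (ℓ : Nat.Primes) (hℓN : ¬ (ℓ : ℕ) ∣ N),
        (haveI : NeZero (ℓ : ℕ) := ⟨ℓ.2.ne_zero⟩;
          HeckeInputsAlong (AlgebraicClosure ℚ) N (ℓ : ℕ)) →
        ∀ (ψ : ↥(gal_PE N (ZMod n)))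
          (hT : (haveI : Fact (ℓ : ℕ).Prime := ⟨ℓ.2⟩;
            h30_heckeT N (ℓ : ℕ) hℓN (ψ : Additive ↥(Gamma0 N) →+ ZMod n)) ∈ gal_PE N (ZMod n)),
          heckeOperatorBar N ℓ (Θ ψ) = Θ ⟨_, hT⟩) :
    gal_ThetaProp N n := by
  obtain ⟨Θ, hinj, hT⟩ := hθ
  refine ⟨Θ, hinj, ?_⟩
  intro ℓ hℓ hℓN _ χ χ' h
  have hℓ' : ℓ.Prime := hℓ.out
  have hne : NeZero ℓ := ⟨hℓ'.ne_zero⟩
  have hmem : h30_heckeT N ℓ hℓN (χ : Additive ↥(Gamma0 N) →+ ZMod n) ∈ gal_PE N (ZMod n) := by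
    rw [← h]
    exact χ'.2
  have h1 := hT ⟨ℓ, hℓ'⟩ hℓN (hHI ℓ hℓ' hℓN) χ hmem
  have h2 : χ' = ⟨_, hmem⟩ := Subtype.ext h
  rw [h2]
  exact h1

end Fermat.Agent.GAL
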