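import Fermat.Agent.GAL.h29_Iface
import Fermat.Agent.S53.Mat

/-!
# GAL-PACK29 (row 414, helper84): the frozen shape of S29 from `gal_CoreStatement`

`gal_S29_of_core` : if for `N ≠ 0` the core statement holds for the ideal `ker φ`
(`φ : ℤ̄ →+* k`, `k` a field of characteristic `p`), then there is a `ResidualGaloisRep k`
attached to `g` via `φ` and unramified outside `N p`.  For `N = 0` both clauses are vacuous.
-/

set_option autoImplicit false

namespace Fermat.Agent.GAL

open Polynomial CongruenceSubgroup Fermat.Agent.S53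

/-- Finite level passes along a ring homomorphism of the coefficients (no field hypotheses). -/
theorem h84_finiteLevel_mapHom {A B : Type} [CommRing A] [CommRing B] (ι : A →+* B)
    {s : Gal →* M2 A} (hs : GaloisFactorsThroughFiniteLevel s) :
    GaloisFactorsThroughFiniteLevel (mapHom ι s) := by
  obtain ⟨L, hL, h⟩ := hs
  refine ⟨L, hL, fun σ hσ => ?_⟩
  rw [mapHom_apply', h σ hσ]
  exact Matrix.map_one _ (map_zero ι) (map_one ι)

/-- The characteristic polynomial of the residual representation attached to a matrix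
representation pushed forward along `ι`. -/
theorem h84_charpoly_ofMatRes_mapHom {A k : Type} [CommRing A] [Field k] (ι : A →+* k)
    (s : Gal →* M2 A) (hs : GaloisFactorsThroughFiniteLevel (mapHom ι s)) (σ : Gal) :
    LinearMap.charpoly ((ofMatRes (mapHom ι s) hs).ρ σ) = (s σ).charpoly.map ι := by
  change LinearMap.charpoly (Matrix.toLin' (mapHom ι s σ)) = _
  rw [Matrix.charpoly_toLin', mapHom_apply', Matrix.charpoly_map]

/-- **GAL-PACK29**: the frozen statement S29 from the core statement. -/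
theorem gal_S29_of_core {N : ℕ} {g : CuspForm (CongruenceSubgroup.Gamma0 N) 2}
    (hg : g.IsNormalizedEigenform) {p : ℕ} (hp : p.Prime) {k : Type} [Field k] [CharP k p]
    (φ : integralClosure ℤ ℂ →+* k)
    (hcore : N ≠ 0 → gal_CoreStatement N g p (RingHom.ker φ)) :
    ∃ ρ : ResidualGaloisRep k, ρ.IsAttachedTo g φ ∧
      ∀ ℓ : ℕ, ℓ.Prime → ¬ ℓ ∣ N * p → ρ.IsUnramifiedAt ℓ := by
  by_cases hN : N = 0
  · -- level `0`: every clause is vacuous
    subst hN
    have h1 : GaloisFactorsThroughFiniteLevel (1 : Gal →* M2 k) :=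
      ⟨⊥, inferInstance, fun _ _ => rfl⟩
    refine ⟨ofMatRes (1 : Gal →* M2 k) h1, ?_, ?_⟩
    · intro ℓ _ hℓN
      exact absurd (dvd_zero ℓ) hℓN
    · intro ℓ _ hℓN
      rw [zero_mul] at hℓN
      exact absurd (dvd_zero ℓ) hℓN
  · obtain ⟨ρ0, hfin, hchar, hin⟩ := hcore hN
    have hfin' : GaloisFactorsThroughFiniteLevel (mapHom (RingHom.kerLift φ) ρ0) :=
      h84_finiteLevel_mapHom (RingHom.kerLift φ) hfin
    refine ⟨ofMatRes (mapHom (RingHom.kerLift φ) ρ0) hfin', ?_, ?_⟩
    · intro ℓ hℓ hℓN hℓk A hA σ hσ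
      have hℓp : ¬ ℓ ∣ N * p := by
        intro h
        rcases (Nat.Prime.dvd_mul hℓ).1 h with h | h
        · exact hℓN h
        · have : ℓ = p := (Nat.prime_dvd_prime_iff_eq hℓ hp).1 h
          rw [this] at hℓk
          exact hℓk (CharP.cast_eq_zero k p)
      obtain ⟨a, ha, hcp⟩ := hchar ℓ hℓ hℓp A hA σ hσ
      refine ⟨a, ha, ?_⟩
      rw [h84_charpoly_ofMatRes_mapHom, hcp, Polynomial.map_add, Polynomial.map_sub,
        Polynomial.map_mul, Polynomial.map_pow, Polynomial.map_X, Polynomial.map_C,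
        Polynomial.map_C, RingHom.kerLift_mk, map_natCast]
    · intro ℓ hℓ hℓp A hA σ hσ
      change Matrix.toLin' (mapHom (RingHom.kerLift φ) ρ0 σ) = 1
      rw [mapHom_apply', hin ℓ hℓ hℓp A hA σ hσ,
        Matrix.map_one _ (map_zero _) (map_one _), Matrix.toLin'_one]
      rfl

end Fermat.Agent.GAL
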