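import Mathlib
import Fermat.Agent.GAL.h29_Asm
import Fermat.Agent.GAL.h84_Pack29
import Fermat.Agent.GAL.h11_S42Pack

/-!
# GAL, top: `S29` and `S42` from the two remaining inputs

* `hred` : the reduction datum `h87_RedData` of `S37` at every `ℓ ∤ N p`;
* `hΘ`  : the analytic comparison `gal_ThetaProp N p`.
-/

set_option autoImplicit false

namespace Fermat.Agent.GAL

open CongruenceSubgroup Fermat.Agent.S37

/-- The statement of `S29` from the two inputs. -/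
theorem gal_S29_of_inputs
    (hred : ∀ (N p : ℕ) [NeZero N], p.Prime → ∀ (ℓ : ℕ) (hℓ : ℓ.Prime), ¬ ℓ ∣ N * p →
      ∀ A : ValuationSubring (AlgebraicClosure ℚ), A.LiesOverPrime ℓ → h87_RedData N p ℓ hℓ A)
    (hΘ : ∀ (N p : ℕ) [NeZero N], p.Prime → gal_ThetaProp N p)
    {N : ℕ} {g : CuspForm (Gamma0 N) 2} (hg : g.IsNormalizedEigenform)
    {p : ℕ} (hp : p.Prime) {k : Type} [Field k] [CharP k p]
    (φ : integralClosure ℤ ℂ →+* k) :
    ∃ ρ : ResidualGaloisRep k, ρ.IsAttachedTo g φ ∧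
      ∀ ℓ : ℕ, ℓ.Prime → ¬ ℓ ∣ N * p → ρ.IsUnramifiedAt ℓ := by
  refine gal_S29_of_core hg hp φ fun hN => ?_
  have : NeZero N := ⟨hN⟩
  have : Fact p.Prime := ⟨hp⟩
  have hmax : (RingHom.ker φ).IsMaximal := h42_ker_isMaximal hp φ
  refine gal_core_of N hg p (RingHom.ker φ) ?_ (hred N p hp) (hΘ N p hp)
  rw [RingHom.mem_ker, map_natCast]
  exact CharP.cast_eq_zero k p

/-- The statement of `S42` from the two inputs. -/
theorem gal_S42_of_inputs
    (hred : ∀ (N p : ℕ) [NeZero N], p.Prime → ∀ (ℓ : ℕ) (hℓ : ℓ.Prime), ¬ ℓ ∣ N * p →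
      ∀ A : ValuationSubring (AlgebraicClosure ℚ), A.LiesOverPrime ℓ → h87_RedData N p ℓ hℓ A)
    (hΘ : ∀ (N p : ℕ) [NeZero N], p.Prime → gal_ThetaProp N p)
    (P : FreyPackage) : ∀ M : ℕ, 0 < M → P.EigenformResidualAttachmentAt M :=
  h11_S42_of_S29 (fun hg _ hp _ _ _ φ => gal_S29_of_inputs hred hΘ hg hp φ) P

end Fermat.Agent.GAL
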