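import Mathlib
import Fermat.Prelude.Def_GaloisRep_ComplexConjugation
import Fermat.Agent.GAL.h65_S31Core2

/-!
# GAL / S30 endgame, part (C): the pseudo-character attached to a Hecke character

From a Hecke lattice `(Λ, ι)` with levels (`h31_HasLevelA`) and the weak Chebotarev statement
we construct, for every ring homomorphism `χ` from the Hecke algebra to an adically complete ring
`𝒪` (with `p` in the ideal), a function `t : G_ℚ → 𝒪` and a character `d : G_ℚ →* 𝒪` with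

* `t 1 = 2`, `t (g h) + d h * t (g h⁻¹) = t g * t h` (two-dimensional pseudo-character),
* `t (Frob_ℓ) = χ (T_ℓ)`, `d (Frob_ℓ) = ℓ`,
* `t (τ g) = t g` for inertia elements `τ` at primes not dividing `N p`,
* `t` is adically continuous, `d (complex conjugation) = -1`.

The construction is a limit of scalars: no compatibility between the levels is needed.
-/

set_option autoImplicit false

open Polynomial

namespace Fermat.Agent.GAL

local instance h31_isAlgebraicQbar : Algebra.IsAlgebraic ℚ (AlgebraicClosure ℚ) :=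
  AlgebraicClosure.isAlgebraic ℚ
local instance h31_isAlgClosureQbar : IsAlgClosure ℚ (AlgebraicClosure ℚ) :=
  ⟨inferInstance, inferInstance⟩
local instance h31_normalQbar : Normal ℚ (AlgebraicClosure ℚ) :=
  IsAlgClosure.normal ℚ (AlgebraicClosure ℚ)

/-- A level `n` structure (for S30) on the Hecke lattice `(Λ, ι)`, on given data. -/
def h31_IsLevel (p N : ℕ) [NeZero N] (S : Finset ℕ) {Λ : Type} [AddCommGroup Λ]
    (ι : CuspForm.heckeAlgebra N 2 (↑S : Set ℕ) →+* Module.End ℤ Λ) (n : ℕ)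
    {M : Type} [AddCommGroup M] (q : Λ →+ M)
    (r : (AlgebraicClosure ℚ ≃ₐ[ℚ] AlgebraicClosure ℚ) →* AddMonoid.End M)
    (tM : Nat.Primes → M →+ M) : Prop :=
  (∀ x : Λ, q x = 0 → ∃ y : Λ, x = (p ^ n : ℤ) • y) ∧
  (∀ m : M, p ^ n • m = 0) ∧
  (∀ x : Λ, ∃ L : IntermediateField ℚ (AlgebraicClosure ℚ), FiniteDimensional ℚ L ∧
    ∀ σ : AlgebraicClosure ℚ ≃ₐ[ℚ] AlgebraicClosure ℚ, (∀ y ∈ L, σ y = y) →
      r σ (q x) = q x) ∧
  (∀ (ℓ : ℕ) (hℓ : ℓ.Prime) (hℓN : ¬ ℓ ∣ N) (hℓS : ℓ ∉ (↑S : Set ℕ)) (x : Λ),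
    q (ι (CuspForm.heckeAlgebra.T hℓ hℓN hℓS) x) = tM ⟨ℓ, hℓ⟩ (q x)) ∧
  (∀ (ℓ : ℕ) (hℓ : ℓ.Prime), ¬ ℓ ∣ N → ℓ ∉ (↑S : Set ℕ) →
    ∀ A : ValuationSubring (AlgebraicClosure ℚ), A.LiesOverPrime ℓ →
    ∀ σ : AlgebraicClosure ℚ ≃ₐ[ℚ] AlgebraicClosure ℚ, A.IsFrobeniusAt σ ℓ →
      ∀ m : M, r σ (r σ m) + ℓ • m = tM ⟨ℓ, hℓ⟩ (r σ m)) ∧
  (∀ q' : ℕ, q'.Prime → ¬ q' ∣ N → q' ≠ p →
    ∀ A : ValuationSubring (AlgebraicClosure ℚ), A.LiesOverPrime q' →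
      ∀ τ ∈ A.inertiaSubgroupIn ℚ, r τ = 1) ∧
  (∀ (ℓ : Nat.Primes) (g : AlgebraicClosure ℚ ≃ₐ[ℚ] AlgebraicClosure ℚ) (m : M),
    tM ℓ (r g m) = r g (tM ℓ m))

/-- A level `n` structure (for S30) on the Hecke lattice `(Λ, ι)`: a Galois module `M` killed
by `p ^ n` with Hecke operators `tM ℓ` commuting with the Galois action, an additive map
`q : Λ → M` with kernel `p ^ n Λ` intertwining the Hecke operators, open stabilisers of the
`q x`, the Eichler–Shimura relation on `M` at Frobenius elements outside `S`, and trivial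
inertia at all primes not dividing `N p`. -/
def h31_HasLevelA (p N : ℕ) [NeZero N] (S : Finset ℕ) {Λ : Type} [AddCommGroup Λ]
    (ι : CuspForm.heckeAlgebra N 2 (↑S : Set ℕ) →+* Module.End ℤ Λ) (n : ℕ) : Prop :=
  ∃ (M : Type) (_ : AddCommGroup M) (q : Λ →+ M)
    (r : (AlgebraicClosure ℚ ≃ₐ[ℚ] AlgebraicClosure ℚ) →* AddMonoid.End M)
    (tM : Nat.Primes → M →+ M), h31_IsLevel p N S ι n q r tM

section action

variable {M : Type*} [AddCommGroup M] {G : Type*} [Group G] (r : G →* AddMonoid.End M)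

theorem h31_r_mul (g h : G) (m : M) : r (g * h) m = r g (r h m) := by
  rw [map_mul]; rfl

theorem h31_r_one (m : M) : r 1 m = m := by
  rw [map_one]; rfl

theorem h31_r_inv_cancel (g : G) (m : M) : r g (r g⁻¹ m) = m := by
  rw [← h31_r_mul, mul_inv_cancel, h31_r_one]

theorem h31_r_inv_cancel' (g : G) (m : M) : r g⁻¹ (r g m) = m := by
  rw [← h31_r_mul, inv_mul_cancel, h31_r_one]

end action

section cyc

/-- `g` acts on the `pn`-th roots of unity by `ζ ↦ ζ ^ e`. -/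
def h31_Cyc (pn : ℕ) (g : AlgebraicClosure ℚ ≃ₐ[ℚ] AlgebraicClosure ℚ) (e : ℕ) : Prop :=
  ∀ ζ : AlgebraicClosure ℚ, ζ ^ pn = 1 → g ζ = ζ ^ e

theorem h31_Cyc_one (pn : ℕ) : h31_Cyc pn 1 1 := by
  intro ζ _
  rw [pow_one]; rfl

theorem h31_Cyc_mul {pn : ℕ} {g h : AlgebraicClosure ℚ ≃ₐ[ℚ] AlgebraicClosure ℚ} {e e' : ℕ}
    (hg : h31_Cyc pn g e) (hh : h31_Cyc pn h e') : h31_Cyc pn (g * h) (e * e') := by
  intro ζ hζ
  rw [AlgEquiv.mul_apply, hh ζ hζ, map_pow, hg ζ hζ, ← pow_mul]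

theorem h31_Cyc_mono {pn pm : ℕ} (h : pn ∣ pm)
    {g : AlgebraicClosure ℚ ≃ₐ[ℚ] AlgebraicClosure ℚ} {e : ℕ} (hg : h31_Cyc pm g e) :
    h31_Cyc pn g e := by
  intro ζ hζ
  obtain ⟨k, rfl⟩ := h
  exact hg ζ (by rw [pow_mul, hζ, one_pow])

theorem h31_Cyc_exists {pn : ℕ} (hpn : 0 < pn)
    (g : AlgebraicClosure ℚ ≃ₐ[ℚ] AlgebraicClosure ℚ) : ∃ e : ℕ, h31_Cyc pn g e := by
  have : NeZero pn := ⟨hpn.ne'⟩
  obtain ⟨ζ, hζ⟩ := HasEnoughRootsOfUnity.exists_primitiveRoot (AlgebraicClosure ℚ) pn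
  have h1 : (g ζ) ^ pn = 1 := by rw [← map_pow, hζ.pow_eq_one, map_one]
  obtain ⟨e, -, he⟩ := hζ.eq_pow_of_pow_eq_one h1
  refine ⟨e, fun η hη => ?_⟩
  obtain ⟨i, -, rfl⟩ := hζ.eq_pow_of_pow_eq_one hη
  rw [map_pow, ← he, ← pow_mul, ← pow_mul, mul_comm]

theorem h31_Cyc_modEq {pn : ℕ} (hpn : 0 < pn)
    {g : AlgebraicClosure ℚ ≃ₐ[ℚ] AlgebraicClosure ℚ} {e e' : ℕ}
    (h : h31_Cyc pn g e) (h' : h31_Cyc pn g e') : e ≡ e' [MOD pn] := by
  have : NeZero pn := ⟨hpn.ne'⟩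
  obtain ⟨ζ, hζ⟩ := HasEnoughRootsOfUnity.exists_primitiveRoot (AlgebraicClosure ℚ) pn
  have h1 : ζ ^ e = ζ ^ e' := by rw [← h ζ hζ.pow_eq_one, ← h' ζ hζ.pow_eq_one]
  have hfin : IsOfFinOrder ζ := isOfFinOrder_iff_pow_eq_one.mpr ⟨pn, hpn, hζ.pow_eq_one⟩
  have h2 := hfin.pow_eq_pow_iff_modEq.mp h1
  rwa [← hζ.eq_orderOf] at h2

/-- Complex conjugation inverts the roots of unity. -/
theorem h31_complexConjugation_root {ζ : AlgebraicClosure ℚ} {n : ℕ} (hn : n ≠ 0)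
    (hζ : ζ ^ n = 1) : complexConjugation ζ = ζ⁻¹ := by
  apply complexEmbedding.injective
  show complexEmbedding (complexConjugation ζ) = complexEmbedding ζ⁻¹
  rw [complexEmbedding_complexConjugation, map_inv₀]
  have h1 : (complexEmbedding ζ) ^ n = 1 := by rw [← map_pow, hζ, map_one]
  have h2 : ‖complexEmbedding ζ‖ = 1 := Complex.norm_eq_one_of_pow_eq_one h1 hn
  exact (Complex.inv_eq_conj h2).symm

theorem h31_Cyc_conj {pn : ℕ} (hpn : 0 < pn) : h31_Cyc pn complexConjugation (pn - 1) := by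
  intro ζ hζ
  rw [h31_complexConjugation_root hpn.ne' hζ]
  have h0 : ζ ≠ 0 := by
    rintro rfl
    rw [zero_pow hpn.ne'] at hζ
    exact zero_ne_one hζ
  apply inv_eq_of_mul_eq_one_left
  rw [← pow_succ, Nat.sub_add_cancel hpn, hζ]

end cyc

section good

variable {Λ : Type} [AddCommGroup Λ] {R : Type*} [CommRing R] (ι : R →+* Module.End ℤ Λ)
  {M : Type} [AddCommGroup M] (q : Λ →+ M)
  (r : (AlgebraicClosure ℚ ≃ₐ[ℚ] AlgebraicClosure ℚ) →* AddMonoid.End M)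

/-- The pair `(x, e)` is good for `g`: `g` acts on the `pn`-th roots of unity through `e`, and
`g + e g⁻¹` acts on the Galois translates of `q Λ` through `ι x`. -/
def h31_Good (pn : ℕ) (g : AlgebraicClosure ℚ ≃ₐ[ℚ] AlgebraicClosure ℚ) (x : R) (e : ℕ) : Prop :=
  h31_Cyc pn g e ∧
  ∀ (g' : AlgebraicClosure ℚ ≃ₐ[ℚ] AlgebraicClosure ℚ) (y : Λ),
    r g' (q (ι x y)) = r g (r g' (q y)) + e • r g⁻¹ (r g' (q y))

/-- `σ` acts trivially on the Galois translates of `q Λ`. -/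
def h31_Triv (σ : AlgebraicClosure ℚ ≃ₐ[ℚ] AlgebraicClosure ℚ) : Prop :=
  ∀ (g' : AlgebraicClosure ℚ ≃ₐ[ℚ] AlgebraicClosure ℚ) (y : Λ), r σ (r g' (q y)) = r g' (q y)

/-- `L` is a level for `(q, r)` and contains the `pn`-th roots of unity. -/
def h31_IsLev (pn : ℕ) (L : IntermediateField ℚ (AlgebraicClosure ℚ)) : Prop :=
  (∀ σ : AlgebraicClosure ℚ ≃ₐ[ℚ] AlgebraicClosure ℚ, (∀ y ∈ L, σ y = y) →
    ∀ x : Λ, r σ (q x) = q x) ∧
  ∀ ζ : AlgebraicClosure ℚ, ζ ^ pn = 1 → ζ ∈ L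

variable {q r}

theorem h31_IsLev.mono {pn : ℕ} {L L' : IntermediateField ℚ (AlgebraicClosure ℚ)} (h : L ≤ L')
    (hL : h31_IsLev q r pn L) : h31_IsLev q r pn L' :=
  ⟨fun σ hσ x => hL.1 σ (fun y hy => hσ y (h hy)) x, fun ζ hζ => h (hL.2 ζ hζ)⟩

theorem h31_triv_of_eq_one {τ : AlgebraicClosure ℚ ≃ₐ[ℚ] AlgebraicClosure ℚ} (h : r τ = 1) :
    h31_Triv q r τ := by
  intro g' y
  rw [h]; rfl

theorem h31_triv_of_fix {pn : ℕ} {L : IntermediateField ℚ (AlgebraicClosure ℚ)}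
    (hLnor : Normal ℚ L) (hL : h31_IsLev q r pn L)
    {τ : AlgebraicClosure ℚ ≃ₐ[ℚ] AlgebraicClosure ℚ} (hτ : ∀ y ∈ L, τ y = y) :
    h31_Triv q r τ := by
  intro g' y
  have hfix : ∀ z ∈ L, (g'⁻¹ * τ * g') z = z := by
    intro z hz
    have hz' : g' z ∈ L := by
      have hmap := (IntermediateField.normal_iff_forall_map_le'.mp hLnor) g'
      exact hmap ⟨z, hz, rfl⟩
    show g'⁻¹ (τ (g' z)) = z
    rw [hτ _ hz']
    exact g'.symm_apply_apply z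
  have h1 := hL.1 _ hfix y
  have h2 : r τ (r g' (q y)) = r g' (r (g'⁻¹ * τ * g') (q y)) := by
    rw [← h31_r_mul, ← h31_r_mul]
    congr 2
    group
  rw [h2, h1]

theorem h31_cyc_of_fix {pn : ℕ} {L : IntermediateField ℚ (AlgebraicClosure ℚ)}
    (hL : h31_IsLev q r pn L)
    {τ : AlgebraicClosure ℚ ≃ₐ[ℚ] AlgebraicClosure ℚ} (hτ : ∀ y ∈ L, τ y = y) :
    h31_Cyc pn τ 1 := by
  intro ζ hζ
  rw [pow_one]
  exact hτ ζ (hL.2 ζ hζ)

variable (q r)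

theorem h31_exists_isLev [Module.Free ℤ Λ] [Module.Finite ℤ Λ] {pn : ℕ} (hpn : 0 < pn)
    (hstab : ∀ x : Λ, ∃ L : IntermediateField ℚ (AlgebraicClosure ℚ), FiniteDimensional ℚ L ∧
      ∀ σ : AlgebraicClosure ℚ ≃ₐ[ℚ] AlgebraicClosure ℚ, (∀ y ∈ L, σ y = y) →
        r σ (q x) = q x) :
    ∃ L : IntermediateField ℚ (AlgebraicClosure ℚ), FiniteDimensional ℚ L ∧ IsGalois ℚ L ∧
      h31_IsLev q r pn L := by
  obtain ⟨L₁, hL₁fin, hL₁⟩ := h65_exists_common_level q r hstab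
  have : NeZero pn := ⟨hpn.ne'⟩
  obtain ⟨ζ, hζ⟩ := HasEnoughRootsOfUnity.exists_primitiveRoot (AlgebraicClosure ℚ) pn
  obtain ⟨L, hLfin, hLgal, hL₁L, -, hζL⟩ := h65_exists_galois_level L₁ L₁ hL₁fin hL₁fin ζ
  refine ⟨L, hLfin, hLgal, fun σ hσ x => hL₁ σ (fun y hy => hσ y (hL₁L hy)) x, fun η hη => ?_⟩
  obtain ⟨i, -, rfl⟩ := hζ.eq_pow_of_pow_eq_one hη
  exact pow_mem hζL i

variable {q r} {ι}

theorem h31_good_one (pn : ℕ) : h31_Good ι q r pn 1 2 1 := by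
  refine ⟨h31_Cyc_one pn, fun g' y => ?_⟩
  have h2 : (2 : R) = 1 + 1 := by norm_num
  rw [h2, map_add, map_one, LinearMap.add_apply, Module.End.one_apply, map_add, map_add,
    inv_one, h31_r_one, one_smul]

theorem h31_good_left_mul {pn : ℕ} {σ g : AlgebraicClosure ℚ ≃ₐ[ℚ] AlgebraicClosure ℚ}
    {x : R} {e : ℕ} (hσ1 : h31_Cyc pn σ 1) (hσ : h31_Triv q r σ)
    (hg : h31_Good ι q r pn g x e) : h31_Good ι q r pn (σ * g) x e := by
  refine ⟨?_, fun g' y => ?_⟩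
  · have := h31_Cyc_mul hσ1 hg.1
    rwa [one_mul] at this
  · rw [hg.2 g' y]
    have e1 : r (σ * g) (r g' (q y)) = r g (r g' (q y)) := by
      rw [h31_r_mul, ← h31_r_mul r g g', hσ (g * g') y, h31_r_mul]
    have e2 : r (σ * g)⁻¹ (r g' (q y)) = r g⁻¹ (r g' (q y)) := by
      rw [mul_inv_rev, h31_r_mul]
      congr 1
      have := hσ g' y
      calc r σ⁻¹ (r g' (q y)) = r σ⁻¹ (r σ (r g' (q y))) := by rw [this]
        _ = r g' (q y) := h31_r_inv_cancel' r σ _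
    rw [e1, e2]

theorem h31_good_of_agree {pn : ℕ} {L : IntermediateField ℚ (AlgebraicClosure ℚ)}
    (hLnor : Normal ℚ L) (hL : h31_IsLev q r pn L)
    {g g₀ : AlgebraicClosure ℚ ≃ₐ[ℚ] AlgebraicClosure ℚ} (hag : ∀ y ∈ L, g₀ y = g y)
    {x : R} {e : ℕ} (h : h31_Good ι q r pn g₀ x e) : h31_Good ι q r pn g x e := by
  have hfix : ∀ y ∈ L, (g * g₀⁻¹) y = y := by
    intro y hy
    have hz : g₀⁻¹ y ∈ L := by
      have hmap := (IntermediateField.normal_iff_forall_map_le'.mp hLnor) g₀⁻¹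
      exact hmap ⟨y, hy, rfl⟩
    show g (g₀⁻¹ y) = y
    rw [← hag _ hz]
    exact g₀.apply_symm_apply y
  have := h31_good_left_mul (h31_cyc_of_fix hL hfix) (h31_triv_of_fix hLnor hL hfix) h
  rwa [inv_mul_cancel_right] at this

theorem h31_good_frob {pn : ℕ} (t : R) (tM : M →+ M) (ℓ : ℕ)
    (σ : AlgebraicClosure ℚ ≃ₐ[ℚ] AlgebraicClosure ℚ) (hcyc : h31_Cyc pn σ ℓ)
    (hhecke : ∀ x : Λ, q (ι t x) = tM (q x))
    (hfrob : ∀ m : M, r σ (r σ m) + ℓ • m = tM (r σ m))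
    (hcomm : ∀ (g : AlgebraicClosure ℚ ≃ₐ[ℚ] AlgebraicClosure ℚ) (m : M),
      tM (r g m) = r g (tM m)) :
    h31_Good ι q r pn σ t ℓ := by
  refine ⟨hcyc, fun g' y => ?_⟩
  have h1 := hfrob (r σ⁻¹ (r g' (q y)))
  rw [h31_r_inv_cancel] at h1
  rw [hhecke, ← hcomm, ← h1]

theorem h31_good_pow {pn : ℕ} (t : R) (tM : M →+ M) (ℓ : ℕ)
    (σ : AlgebraicClosure ℚ ≃ₐ[ℚ] AlgebraicClosure ℚ) (hcyc : h31_Cyc pn σ ℓ)
    (hhecke : ∀ x : Λ, q (ι t x) = tM (q x))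
    (hfrob : ∀ m : M, r σ (r σ m) + ℓ • m = tM (r σ m))
    (hcomm : ∀ (g : AlgebraicClosure ℚ ≃ₐ[ℚ] AlgebraicClosure ℚ) (m : M),
      tM (r g m) = r g (tM m)) (b : ℕ) :
    h31_Good ι q r pn (σ ^ b) (Polynomial.aeval t (Polynomial.dickson 1 (ℓ : ℤ) b)) (ℓ ^ b) := by
  refine ⟨?_, fun g' y => ?_⟩
  · induction b with
    | zero => simpa using h31_Cyc_one pn
    | succ b ih =>
      rw [pow_succ, pow_succ]
      exact h31_Cyc_mul ih hcyc
  · have hh : ∀ x : Λ, (AddMonoidHom.comp (r g') q) (ι t x) = tM ((AddMonoidHom.comp (r g') q) x) := by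
      intro x
      show r g' (q (ι t x)) = tM (r g' (q x))
      rw [hhecke, hcomm]
    exact h65_level_sideW ι (AddMonoidHom.comp (r g') q) r t tM ℓ σ hh hfrob b y

theorem h31_good_unique {pn : ℕ} (hpn : 0 < pn) (htors : ∀ m : M, pn • m = 0)
    {g : AlgebraicClosure ℚ ≃ₐ[ℚ] AlgebraicClosure ℚ} {x x' : R} {e e' : ℕ}
    (h : h31_Good ι q r pn g x e) (h' : h31_Good ι q r pn g x' e') (v : Λ) :
    q (ι (x - x') v) = 0 := by
  have hm : e ≡ e' [MOD pn] := h31_Cyc_modEq hpn h.1 h'.1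
  have a1 := h.2 1 v
  have a2 := h'.2 1 v
  rw [h31_r_one, h31_r_one] at a1 a2
  rw [map_sub, LinearMap.sub_apply, map_sub, a1, a2,
    h65_nsmul_eq_of_modEq hm _ (htors _), sub_self]

theorem h31_good_rel {pn : ℕ} (hpn : 0 < pn) (htors : ∀ m : M, pn • m = 0)
    {g h : AlgebraicClosure ℚ ≃ₐ[ℚ] AlgebraicClosure ℚ} {xg xh x1 x2 : R} {eg eh e1 e2 : ℕ}
    (hg : h31_Good ι q r pn g xg eg) (hh : h31_Good ι q r pn h xh eh)
    (h1 : h31_Good ι q r pn (g * h) x1 e1) (h2 : h31_Good ι q r pn (g * h⁻¹) x2 e2) (v : Λ) :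
    q (ι (x1 + eh • x2 - xg * xh) v) = 0 := by
  have m1 : e1 ≡ eg * eh [MOD pn] := h31_Cyc_modEq hpn h1.1 (h31_Cyc_mul hg.1 hh.1)
  have m2 : eh * e2 ≡ eg [MOD pn] := by
    have := h31_Cyc_mul h2.1 hh.1
    rw [inv_mul_cancel_right] at this
    rw [mul_comm]
    exact h31_Cyc_modEq hpn this hg.1
  have A1 := h1.2 1 v
  have A2 := h2.2 1 v
  have Ah := hh.2 1 v
  have Ah' := hh.2 g⁻¹ v
  have Ag := hg.2 1 (ι xh v)
  rw [h31_r_one, h31_r_one] at A1 A2 Ah Ag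
  rw [h31_r_mul, mul_inv_rev, h31_r_mul] at A1
  rw [h31_r_mul, mul_inv_rev, inv_inv, h31_r_mul] at A2
  rw [Ah'] at Ag
  rw [Ah, map_add, map_nsmul] at Ag
  have B1 : e1 • r h⁻¹ (r g⁻¹ (q v)) = (eg * eh) • r h⁻¹ (r g⁻¹ (q v)) :=
    h65_nsmul_eq_of_modEq m1 _ (htors _)
  have B2 : (eh * e2) • r h (r g⁻¹ (q v)) = eg • r h (r g⁻¹ (q v)) :=
    h65_nsmul_eq_of_modEq m2 _ (htors _)
  rw [map_sub, map_add, map_mul, map_nsmul, LinearMap.sub_apply, LinearMap.add_apply,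
    LinearMap.smul_apply, Module.End.mul_apply, map_sub, map_add, map_nsmul, A1, A2, Ag, B1,
    smul_add, smul_add, ← mul_nsmul', ← mul_nsmul', B2]
  abel

end good

section limit

variable {𝒪 : Type*} [CommRing 𝒪] (I : Ideal 𝒪) [IsAdicComplete I 𝒪]

/-- Limits of compatible families of approximations in an adically complete ring. -/
theorem h31_exists_limit (P : ℕ → 𝒪 → Prop) (hex : ∀ k, ∃ a, ∀ j ≤ k, P j a)
    (huniq : ∀ k a b, P k a → P k b → a - b ∈ I ^ k) :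
    ∃ L : 𝒪, ∀ k a, P k a → L - a ∈ I ^ k := by
  choose f hf using hex
  have h1 : ∀ {m n : ℕ}, m ≤ n → f m ≡ f n [SMOD (I ^ m • ⊤ : Submodule 𝒪 𝒪)] := by
    intro m n hmn
    rw [SModEq.sub_mem, smul_eq_mul, Ideal.mul_top]
    exact huniq m _ _ (hf m m le_rfl) (hf n m hmn)
  obtain ⟨L, hL⟩ := IsPrecomplete.prec' (I := I) f h1
  refine ⟨L, fun k a ha => ?_⟩
  have h2 : f k - L ∈ I ^ k := by
    have := hL k
    rwa [SModEq.sub_mem, smul_eq_mul, Ideal.mul_top] at this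
  have h3 : f k - a ∈ I ^ k := huniq k _ _ (hf k k le_rfl) ha
  have e : L - a = (f k - a) - (f k - L) := by ring
  rw [e]
  exact Ideal.sub_mem _ h3 h2

theorem h31_eq_zero_of_forall_mem {x : 𝒪} (h : ∀ k, x ∈ I ^ k) : x = 0 := by
  apply IsHausdorff.haus' (I := I) x
  intro n
  rw [SModEq.zero, smul_eq_mul, Ideal.mul_top]
  exact h n

theorem h31_eq_of_forall_sub_mem {x y : 𝒪} (h : ∀ k, x - y ∈ I ^ k) : x = y :=
  sub_eq_zero.mp (h31_eq_zero_of_forall_mem I h)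

omit [IsAdicComplete I 𝒪] in
theorem h31_cast_sub_mem {p : ℕ} (hpI : (p : 𝒪) ∈ I) {k a b : ℕ} (h : a ≡ b [MOD p ^ k]) :
    (a : 𝒪) - (b : 𝒪) ∈ I ^ k := by
  have h1 : (a : ℤ) ≡ b [ZMOD ((p ^ k : ℕ) : ℤ)] := Int.natCast_modEq_iff.mpr h
  obtain ⟨z, hz⟩ := h1.symm.dvd
  have h2 : (a : 𝒪) - (b : 𝒪) = (p : 𝒪) ^ k * (z : 𝒪) := by
    have := congrArg (Int.cast : ℤ → 𝒪) hz
    push_cast at this
    exact this
  rw [h2]
  exact Ideal.mul_mem_right _ _ (Ideal.pow_mem_pow hpI k)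

end limit

section main

variable {p N : ℕ} [NeZero N] {S : Finset ℕ}

/-- **The pseudo-character attached to a Hecke character** (limit of scalars). -/
theorem h31_exists_pseudo (hp : p.Prime) (hpS : p ∈ S)
    (hNS : ∀ q : ℕ, q.Prime → q ∣ N → q ∈ S)
    {𝒪 : Type*} [CommRing 𝒪] (I : Ideal 𝒪) [IsAdicComplete I 𝒪] (hpI : (p : 𝒪) ∈ I)
    (χ : CuspForm.heckeAlgebra N 2 (↑S : Set ℕ) →+* 𝒪)
    {Λ : Type} [AddCommGroup Λ] [Module.Free ℤ Λ] [Module.Finite ℤ Λ]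
    (ι : CuspForm.heckeAlgebra N 2 (↑S : Set ℕ) →+* Module.End ℤ Λ)
    (hι : Function.Injective ι)
    (hlev : ∀ n : ℕ, h31_HasLevelA p N S ι n) (hcheb : h65_WCheb) :
    ∃ (t : (AlgebraicClosure ℚ ≃ₐ[ℚ] AlgebraicClosure ℚ) → 𝒪)
      (d : (AlgebraicClosure ℚ ≃ₐ[ℚ] AlgebraicClosure ℚ) →* 𝒪),
      t 1 = 2 ∧ (∀ g h, t (g * h) + d h * t (g * h⁻¹) = t g * t h) ∧
      d complexConjugation = -1 ∧
      (∀ (ℓ : ℕ) (hℓ : ℓ.Prime) (hℓN : ¬ ℓ ∣ N) (hℓS : ℓ ∉ (↑S : Set ℕ))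
        (A : ValuationSubring (AlgebraicClosure ℚ)), A.LiesOverPrime ℓ →
        ∀ σ : AlgebraicClosure ℚ ≃ₐ[ℚ] AlgebraicClosure ℚ, A.IsFrobeniusAt σ ℓ →
          t σ = χ (CuspForm.heckeAlgebra.T hℓ hℓN hℓS) ∧ d σ = (ℓ : 𝒪)) ∧
      (∀ q' : ℕ, q'.Prime → ¬ q' ∣ N → q' ≠ p →
        ∀ A : ValuationSubring (AlgebraicClosure ℚ), A.LiesOverPrime q' →
          ∀ τ ∈ A.inertiaSubgroupIn ℚ, ∀ g, t (τ * g) = t g) ∧
      (∀ n : ℕ, ∃ L : IntermediateField ℚ (AlgebraicClosure ℚ), FiniteDimensional ℚ L ∧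
        ∀ σ : AlgebraicClosure ℚ ≃ₐ[ℚ] AlgebraicClosure ℚ, (∀ x ∈ L, σ x = x) →
          ∀ g, t (σ * g) - t g ∈ I ^ n) := by
  classical
  choose M instM qM r tM hlevel using hlev
  obtain ⟨c, hc⟩ := h65_saturation ι hι p
  have hppos : ∀ n, 0 < p ^ n := fun n => pow_pos hp.pos n
  have hker : ∀ (n : ℕ) (x : Λ), qM n x = 0 → ∃ y : Λ, x = (p ^ n : ℤ) • y :=
    fun n => (hlevel n).1
  have htors : ∀ (n : ℕ) (m : M n), p ^ n • m = 0 := fun n => (hlevel n).2.1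
  have hstab := fun n => (hlevel n).2.2.1
  have hhecke := fun n => (hlevel n).2.2.2.1
  have hfrob := fun n => (hlevel n).2.2.2.2.1
  have hinert := fun n => (hlevel n).2.2.2.2.2.1
  have hcomm := fun n => (hlevel n).2.2.2.2.2.2
  -- Galois levels
  choose Lv hLvfin hLvgal hLv using
    fun n => h31_exists_isLev (qM n) (r n) (hppos n) (hstab n)
  have hmulti : ∀ m : ℕ, ∃ L : IntermediateField ℚ (AlgebraicClosure ℚ),
      FiniteDimensional ℚ L ∧ IsGalois ℚ L ∧ ∀ n ≤ m, Lv n ≤ L := by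
    intro m
    induction m with
    | zero =>
      exact ⟨Lv 0, hLvfin 0, hLvgal 0, fun n hn => by rw [Nat.le_zero.mp hn]⟩
    | succ m ih =>
      obtain ⟨L, hLfin, hLgal, hL⟩ := ih
      obtain ⟨L', hL'fin, hL'gal, h1, h2, -⟩ :=
        h65_exists_galois_level L (Lv (m + 1)) hLfin (hLvfin (m + 1)) 1
      refine ⟨L', hL'fin, hL'gal, fun n hn => ?_⟩
      rcases Nat.lt_or_ge n (m + 1) with h | h
      · exact le_trans (hL n (by omega)) h1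
      · have : n = m + 1 := by omega
        subst this
        exact h2
  -- Frobenius elements are good
  have hfrobgood : ∀ (n : ℕ) (ℓ : ℕ) (hℓ : ℓ.Prime) (hℓN : ¬ ℓ ∣ N) (hℓS : ℓ ∉ (↑S : Set ℕ))
      (A : ValuationSubring (AlgebraicClosure ℚ)), A.LiesOverPrime ℓ →
      ∀ σ : AlgebraicClosure ℚ ≃ₐ[ℚ] AlgebraicClosure ℚ, A.IsFrobeniusAt σ ℓ →
        h31_Cyc (p ^ n) σ ℓ ∧ ∀ b : ℕ, h31_Good ι (qM n) (r n) (p ^ n) (σ ^ b)
          (Polynomial.aeval (CuspForm.heckeAlgebra.T hℓ hℓN hℓS)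
            (Polynomial.dickson 1 (ℓ : ℤ) b)) (ℓ ^ b) := by
    intro n ℓ hℓ hℓN hℓS A hA σ hσ
    have hℓp : ℓ ≠ p := fun h => hℓS (by rw [h]; exact_mod_cast hpS)
    have hℓpn : ¬ ℓ ∣ p ^ n := fun h =>
      hℓp ((Nat.prime_dvd_prime_iff_eq hℓ hp).mp (hℓ.dvd_of_dvd_pow h))
    have hcyc : h31_Cyc (p ^ n) σ ℓ := fun ζ hζ => h65_frob_root A hℓ hA hσ hℓpn hζ
    exact ⟨hcyc, fun b => h31_good_pow _ (tM n ⟨ℓ, hℓ⟩) ℓ σ hcyc (hhecke n ℓ hℓ hℓN hℓS)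
      (hfrob n ℓ hℓ hℓN hℓS A hA σ hσ) (fun g m => hcomm n ⟨ℓ, hℓ⟩ g m) b⟩
  -- existence of good pairs, simultaneously at all levels `≤ m`
  have hexist : ∀ (m : ℕ) (g : AlgebraicClosure ℚ ≃ₐ[ℚ] AlgebraicClosure ℚ),
      ∃ (x : CuspForm.heckeAlgebra N 2 (↑S : Set ℕ)) (e : ℕ),
        ∀ n ≤ m, h31_Good ι (qM n) (r n) (p ^ n) g x e := by
    intro m g
    obtain ⟨L, hLfin, hLgal, hL⟩ := hmulti m
    obtain ⟨ℓ, A, σ, b, hℓ, hℓS, hA, hσ, hσg⟩ := hcheb L hLfin hLgal g S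
    have hℓN : ¬ ℓ ∣ N := fun h => hℓS (hNS ℓ hℓ h)
    have hℓS' : ℓ ∉ (↑S : Set ℕ) := by simpa using hℓS
    refine ⟨Polynomial.aeval (CuspForm.heckeAlgebra.T hℓ hℓN hℓS')
      (Polynomial.dickson 1 (ℓ : ℤ) b), ℓ ^ b, fun n hn => ?_⟩
    have hLn : h31_IsLev (qM n) (r n) (p ^ n) L := (hLv n).mono (hL n hn)
    exact h31_good_of_agree hLgal.to_normal hLn hσg
      ((hfrobgood n ℓ hℓ hℓN hℓS' A hA σ hσ).2 b)
  -- saturation
  have hsat : ∀ (k : ℕ) (z : CuspForm.heckeAlgebra N 2 (↑S : Set ℕ)),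
      (∀ v : Λ, qM (k + c) (ι z v) = 0) → χ z ∈ I ^ k := by
    intro k z hz
    obtain ⟨y, hy⟩ := hc (k + c) z (fun v => hker (k + c) _ (hz v))
    rw [hy, show k + c - c = k by omega, zsmul_eq_mul, map_mul, map_intCast]
    push_cast
    exact Ideal.mul_mem_right _ _ (Ideal.pow_mem_pow hpI k)
  -- the trace function
  have ht_ex : ∀ g : AlgebraicClosure ℚ ≃ₐ[ℚ] AlgebraicClosure ℚ, ∃ L : 𝒪,
      ∀ (k : ℕ) (a : 𝒪), (∃ (x : CuspForm.heckeAlgebra N 2 (↑S : Set ℕ)) (e : ℕ),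
        h31_Good ι (qM (k + c)) (r (k + c)) (p ^ (k + c)) g x e ∧ a = χ x) → L - a ∈ I ^ k := by
    intro g
    apply h31_exists_limit I
    · intro k
      obtain ⟨x, e, hxe⟩ := hexist (k + c) g
      exact ⟨χ x, fun j hj => ⟨x, e, hxe (j + c) (by omega), rfl⟩⟩
    · rintro k a b ⟨x, e, hx, rfl⟩ ⟨x', e', hx', rfl⟩
      rw [← map_sub]
      exact hsat k _ (h31_good_unique (hppos _) (htors _) hx hx')
  choose t ht using ht_ex
  have htspec : ∀ (g : AlgebraicClosure ℚ ≃ₐ[ℚ] AlgebraicClosure ℚ) (k : ℕ)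
      (x : CuspForm.heckeAlgebra N 2 (↑S : Set ℕ)) (e : ℕ),
      h31_Good ι (qM (k + c)) (r (k + c)) (p ^ (k + c)) g x e → t g - χ x ∈ I ^ k :=
    fun g k x e h => ht g k _ ⟨x, e, h, rfl⟩
  -- the cyclotomic character
  have hd_ex : ∀ g : AlgebraicClosure ℚ ≃ₐ[ℚ] AlgebraicClosure ℚ, ∃ L : 𝒪,
      ∀ (k : ℕ) (a : 𝒪), (∃ e : ℕ, h31_Cyc (p ^ k) g e ∧ a = (e : 𝒪)) → L - a ∈ I ^ k := by
    intro g
    apply h31_exists_limit I
    · intro k
      obtain ⟨e, he⟩ := h31_Cyc_exists (hppos k) g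
      exact ⟨(e : 𝒪), fun j hj => ⟨e, h31_Cyc_mono (pow_dvd_pow p hj) he, rfl⟩⟩
    · rintro k a b ⟨e, he, rfl⟩ ⟨e', he', rfl⟩
      exact h31_cast_sub_mem I hpI (h31_Cyc_modEq (hppos k) he he')
  choose d0 hd0 using hd_ex
  have hdspec : ∀ (g : AlgebraicClosure ℚ ≃ₐ[ℚ] AlgebraicClosure ℚ) (k : ℕ) (e : ℕ),
      h31_Cyc (p ^ k) g e → d0 g - (e : 𝒪) ∈ I ^ k :=
    fun g k e h => hd0 g k _ ⟨e, h, rfl⟩
  have hd_one : d0 1 = 1 := by
    apply h31_eq_of_forall_sub_mem I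
    intro k
    have := hdspec 1 k 1 (h31_Cyc_one _)
    simpa using this
  have hd_mul : ∀ g h, d0 (g * h) = d0 g * d0 h := by
    intro g h
    apply h31_eq_of_forall_sub_mem I
    intro k
    obtain ⟨eg, heg⟩ := h31_Cyc_exists (hppos k) g
    obtain ⟨eh, heh⟩ := h31_Cyc_exists (hppos k) h
    have h1 := hdspec g k eg heg
    have h2 := hdspec h k eh heh
    have h3 := hdspec (g * h) k (eg * eh) (h31_Cyc_mul heg heh)
    have e : d0 (g * h) - d0 g * d0 h = (d0 (g * h) - ((eg * eh : ℕ) : 𝒪)) -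
        ((d0 g - (eg : 𝒪)) * d0 h + (eg : 𝒪) * (d0 h - (eh : 𝒪))) := by
      push_cast; ring
    rw [e]
    exact Ideal.sub_mem _ h3 (Ideal.add_mem _ (Ideal.mul_mem_right _ _ h1)
      (Ideal.mul_mem_left _ _ h2))
  let d : (AlgebraicClosure ℚ ≃ₐ[ℚ] AlgebraicClosure ℚ) →* 𝒪 :=
    { toFun := d0, map_one' := hd_one, map_mul' := hd_mul }
  have hd_apply : ∀ g, d g = d0 g := fun g => rfl
  refine ⟨t, d, ?_, ?_, ?_, ?_, ?_, ?_⟩
  · -- t 1 = 2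
    apply h31_eq_of_forall_sub_mem I
    intro k
    have := htspec 1 k 2 1 (h31_good_one _)
    rwa [map_ofNat] at this
  · -- the pseudo-character identity
    intro g h
    apply h31_eq_of_forall_sub_mem I
    intro k
    obtain ⟨xg, eg, hg⟩ := hexist (k + c) g
    obtain ⟨xh, eh, hh⟩ := hexist (k + c) h
    obtain ⟨x1, e1, h1⟩ := hexist (k + c) (g * h)
    obtain ⟨x2, e2, h2⟩ := hexist (k + c) (g * h⁻¹)
    have Hg := hg (k + c) le_rfl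
    have Hh := hh (k + c) le_rfl
    have H1 := h1 (k + c) le_rfl
    have H2 := h2 (k + c) le_rfl
    have hrel := hsat k _ (h31_good_rel (hppos _) (htors _) Hg Hh H1 H2)
    rw [map_sub, map_add, map_nsmul, map_mul, nsmul_eq_mul] at hrel
    have a1 := htspec _ k _ _ H1
    have a2 := htspec _ k _ _ H2
    have ag := htspec _ k _ _ Hg
    have ah := htspec _ k _ _ Hh
    have ad : d0 h - (eh : 𝒪) ∈ I ^ k :=
      Ideal.pow_le_pow_right (Nat.le_add_right k c) (hdspec h (k + c) eh Hh.1)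
    have e : t (g * h) + d h * t (g * h⁻¹) - t g * t h =
        (t (g * h) - χ x1) + (d0 h - (eh : 𝒪)) * t (g * h⁻¹) +
          (eh : 𝒪) * (t (g * h⁻¹) - χ x2) - (t g - χ xg) * t h - χ xg * (t h - χ xh) +
          (χ x1 + (eh : 𝒪) * χ x2 - χ xg * χ xh) := by
      rw [hd_apply]; ring
    rw [e]
    exact Ideal.add_mem _ (Ideal.sub_mem _ (Ideal.sub_mem _ (Ideal.add_mem _ (Ideal.add_mem _ a1
      (Ideal.mul_mem_right _ _ ad)) (Ideal.mul_mem_left _ _ a2)) (Ideal.mul_mem_right _ _ ag))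
      (Ideal.mul_mem_left _ _ ah)) hrel
  · -- complex conjugation
    rw [hd_apply]
    apply h31_eq_of_forall_sub_mem I
    intro k
    have h1 := hdspec complexConjugation k (p ^ k - 1) (h31_Cyc_conj (hppos k))
    have h2 : ((p ^ k - 1 : ℕ) : 𝒪) = (p : 𝒪) ^ k - 1 := by
      rw [Nat.cast_sub (hppos k)]; push_cast; ring
    rw [h2] at h1
    have e : d0 complexConjugation - -1 =
        (d0 complexConjugation - ((p : 𝒪) ^ k - 1)) + (p : 𝒪) ^ k := by ring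
    rw [e]
    exact Ideal.add_mem _ h1 (Ideal.pow_mem_pow hpI k)
  · -- Frobenius elements
    intro ℓ hℓ hℓN hℓS A hA σ hσ
    constructor
    · apply h31_eq_of_forall_sub_mem I
      intro k
      have h1 := (hfrobgood (k + c) ℓ hℓ hℓN hℓS A hA σ hσ).2 1
      rw [pow_one, Polynomial.dickson_one, Polynomial.aeval_X, pow_one] at h1
      exact htspec σ k _ _ h1
    · rw [hd_apply]
      apply h31_eq_of_forall_sub_mem I
      intro k
      exact hdspec σ k ℓ (hfrobgood k ℓ hℓ hℓN hℓS A hA σ hσ).1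
  · -- inertia
    intro q' hq' hq'N hq'p A hA τ hτ g
    apply h31_eq_of_forall_sub_mem I
    intro k
    obtain ⟨x, e, hx⟩ := hexist (k + c) g
    have Hx := hx (k + c) le_rfl
    have hrτ : r (k + c) τ = 1 := hinert (k + c) q' hq' hq'N hq'p A hA τ hτ
    have hq'pn : ¬ q' ∣ p ^ (k + c) := fun h =>
      hq'p ((Nat.prime_dvd_prime_iff_eq hq' hp).mp (hq'.dvd_of_dvd_pow h))
    have hcyc : h31_Cyc (p ^ (k + c)) τ 1 := by
      intro ζ hζ
      rw [pow_one]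
      exact h65_inertia_root A hq' hA hτ hq'pn hζ
    have Hx' := h31_good_left_mul hcyc (h31_triv_of_eq_one hrτ) Hx
    have a1 := htspec _ k _ _ Hx
    have a2 := htspec _ k _ _ Hx'
    have e : t (τ * g) - t g = (t (τ * g) - χ x) - (t g - χ x) := by ring
    rw [e]
    exact Ideal.sub_mem _ a2 a1
  · -- continuity
    intro n
    refine ⟨Lv (n + c), hLvfin (n + c), fun σ hσ g => ?_⟩
    obtain ⟨x, e, hx⟩ := hexist (n + c) g
    have Hx := hx (n + c) le_rfl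
    have Hx' := h31_good_left_mul (h31_cyc_of_fix (hLv (n + c)) hσ)
      (h31_triv_of_fix (hLvgal (n + c)).to_normal (hLv (n + c)) hσ) Hx
    have a1 := htspec _ n _ _ Hx
    have a2 := htspec _ n _ _ Hx'
    have e : t (σ * g) - t g = (t (σ * g) - χ x) - (t g - χ x) := by ring
    rw [e]
    exact Ideal.sub_mem _ a2 a1

end main

end Fermat.Agent.GAL
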