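/-
GAL-S30-B (helper34): a bounded 2-dimensional representation over the fraction field of a PID
has a stable free lattice of rank 2, with the same characteristic polynomials and the adic
continuity clause (`h31_exists_lattice`).  Mathlib only.
-/
import Mathlib

set_option autoImplicit false

open Polynomial

namespace Fermat.Agent.GAL

section Lattice

variable {𝒪 : Type} [CommRing 𝒪] {K : Type} [Field K] [Algebra 𝒪 K] {G : Type*} [Group G]

/-- the `𝒪`-span of the columns of all `ρ g`. -/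
def h34_V0 (𝒪 : Type) [CommRing 𝒪] {K : Type} [Field K] [Algebra 𝒪 K] {G : Type*} [Group G]
    (ρ : G →* Matrix (Fin 2) (Fin 2) K) : Submodule 𝒪 (Fin 2 → K) :=
  Submodule.span 𝒪 {v | ∃ g i, v = (ρ g).mulVec (Pi.single i 1)}

/-- `ρ g` as an `𝒪`-linear map. -/
noncomputable def h34_T (𝒪 : Type) [CommRing 𝒪] {K : Type} [Field K] [Algebra 𝒪 K] {G : Type*}
    [Group G] (ρ : G →* Matrix (Fin 2) (Fin 2) K) (g : G) : (Fin 2 → K) →ₗ[𝒪] (Fin 2 → K) :=
  (Matrix.mulVecLin (ρ g)).restrictScalars 𝒪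

theorem h34_T_apply (ρ : G →* Matrix (Fin 2) (Fin 2) K) (g : G) (v : Fin 2 → K) :
    h34_T 𝒪 ρ g v = (ρ g).mulVec v := rfl

theorem h34_V0_stable (ρ : G →* Matrix (Fin 2) (Fin 2) K) (g : G) :
    ∀ v ∈ h34_V0 𝒪 ρ, h34_T 𝒪 ρ g v ∈ h34_V0 𝒪 ρ := by
  have h : h34_V0 𝒪 ρ ≤ (h34_V0 𝒪 ρ).comap (h34_T 𝒪 ρ g) := by
    refine Submodule.span_le.2 ?_
    rintro _ ⟨h, i, rfl⟩
    show (ρ g).mulVec ((ρ h).mulVec (Pi.single i 1)) ∈ h34_V0 𝒪 ρ
    rw [Matrix.mulVec_mulVec, ← map_mul]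
    exact Submodule.subset_span ⟨g * h, i, rfl⟩
  exact h

/-- the representation on the lattice. -/
noncomputable def h34_r (𝒪 : Type) [CommRing 𝒪] {K : Type} [Field K] [Algebra 𝒪 K] {G : Type*}
    [Group G] (ρ : G →* Matrix (Fin 2) (Fin 2) K) : G →* Module.End 𝒪 (h34_V0 𝒪 ρ) where
  toFun g := (h34_T 𝒪 ρ g).restrict (h34_V0_stable ρ g)
  map_one' := by
    refine LinearMap.ext fun v => Subtype.ext ?_
    show (ρ 1).mulVec (v : Fin 2 → K) = v
    rw [map_one, Matrix.one_mulVec]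
  map_mul' g h := by
    refine LinearMap.ext fun v => Subtype.ext ?_
    show (ρ (g * h)).mulVec (v : Fin 2 → K) = (ρ g).mulVec ((ρ h).mulVec (v : Fin 2 → K))
    rw [map_mul, Matrix.mulVec_mulVec]

theorem h34_r_coe (ρ : G →* Matrix (Fin 2) (Fin 2) K) (g : G) (v : h34_V0 𝒪 ρ) :
    ((h34_r 𝒪 ρ g v : h34_V0 𝒪 ρ) : Fin 2 → K) = (ρ g).mulVec (v : Fin 2 → K) := rfl

theorem h34_single_mem (ρ : G →* Matrix (Fin 2) (Fin 2) K) (i : Fin 2) :
    (Pi.single i 1 : Fin 2 → K) ∈ h34_V0 𝒪 ρ :=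
  Submodule.subset_span ⟨1, i, by rw [map_one, Matrix.one_mulVec]⟩

/-- the coordinates of `ϖ • v` are integral. -/
theorem h34_coord (ρ : G →* Matrix (Fin 2) (Fin 2) K) (ϖ : 𝒪)
    (hb : ∀ g i j, ∃ y : 𝒪, algebraMap 𝒪 K ϖ * ρ g i j = algebraMap 𝒪 K y)
    {v : Fin 2 → K} (hv : v ∈ h34_V0 𝒪 ρ) (i : Fin 2) :
    ∃ y : 𝒪, algebraMap 𝒪 K ϖ * v i = algebraMap 𝒪 K y := by
  induction hv using Submodule.span_induction with
  | mem x hx =>
    obtain ⟨g, j, rfl⟩ := hx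
    rw [Matrix.mulVec_single_one]
    exact hb g i j
  | zero => exact ⟨0, by rw [Pi.zero_apply, mul_zero, map_zero]⟩
  | add x y _ _ hx hy =>
    obtain ⟨a, ha⟩ := hx
    obtain ⟨b, hb'⟩ := hy
    exact ⟨a + b, by rw [Pi.add_apply, mul_add, ha, hb', map_add]⟩
  | smul a x _ hx =>
    obtain ⟨y, hy⟩ := hx
    exact ⟨a * y, by rw [Pi.smul_apply, Algebra.smul_def, mul_left_comm, hy, map_mul]⟩

/-- the lattice embeds into `𝒪²`. -/
theorem h34_exists_inj (hK : Function.Injective (algebraMap 𝒪 K))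
    (ρ : G →* Matrix (Fin 2) (Fin 2) K) (ϖ : 𝒪) (hϖ : ϖ ≠ 0)
    (hb : ∀ g i j, ∃ y : 𝒪, algebraMap 𝒪 K ϖ * ρ g i j = algebraMap 𝒪 K y) :
    ∃ Φ : h34_V0 𝒪 ρ →ₗ[𝒪] (Fin 2 → 𝒪), Function.Injective Φ := by
  classical
  choose y hy using fun (v : h34_V0 𝒪 ρ) (i : Fin 2) => h34_coord ρ ϖ hb v.2 i
  refine ⟨{ toFun := y, map_add' := ?_, map_smul' := ?_ }, ?_⟩
  · intro v w
    funext i
    apply hK
    rw [Pi.add_apply, map_add, ← hy, ← hy, ← hy, ← mul_add]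
    rfl
  · intro a v
    funext i
    apply hK
    rw [RingHom.id_apply, Pi.smul_apply, smul_eq_mul, map_mul, ← hy, ← hy, Submodule.coe_smul,
      Pi.smul_apply, Algebra.smul_def, mul_left_comm]
  · intro v w h
    apply Subtype.ext
    funext i
    have h0 : y v i = y w i := congrFun h i
    have h1 : algebraMap 𝒪 K ϖ * (v : Fin 2 → K) i = algebraMap 𝒪 K ϖ * (w : Fin 2 → K) i := by
      rw [hy, hy, h0]
    exact mul_left_cancel₀ ((map_ne_zero_iff _ hK).2 hϖ) h1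

/-- `𝒪²` embeds into the lattice. -/
theorem h34_exists_inj' (hK : Function.Injective (algebraMap 𝒪 K))
    (ρ : G →* Matrix (Fin 2) (Fin 2) K) :
    ∃ Ψ : (Fin 2 → 𝒪) →ₗ[𝒪] h34_V0 𝒪 ρ, Function.Injective Ψ := by
  classical
  let ψ : (Fin 2 → 𝒪) →ₗ[𝒪] (Fin 2 → K) := (Algebra.linearMap 𝒪 K).compLeft (Fin 2)
  have hψ : ∀ y : Fin 2 → 𝒪, ψ y = ∑ i : Fin 2, y i • (Pi.single i (1 : K) : Fin 2 → K) := by
    intro y
    funext j
    rw [Finset.sum_apply]
    have h1 : ∀ i : Fin 2, (y i • (Pi.single i (1 : K) : Fin 2 → K)) j =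
        if i = j then algebraMap 𝒪 K (y i) else 0 := by
      intro i
      rw [Pi.smul_apply, Pi.single_apply, Algebra.smul_def]
      by_cases hij : j = i
      · rw [if_pos hij, if_pos hij.symm, mul_one]
      · rw [if_neg hij, if_neg (fun h => hij h.symm), mul_zero]
    rw [Finset.sum_congr rfl fun i _ => h1 i, Finset.sum_ite_eq' Finset.univ j,
      if_pos (Finset.mem_univ j)]
    rfl
  have hmem : ∀ y : Fin 2 → 𝒪, ψ y ∈ h34_V0 𝒪 ρ := by
    intro y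
    rw [hψ]
    exact Submodule.sum_mem _ fun i _ => Submodule.smul_mem _ _ (h34_single_mem ρ i)
  refine ⟨ψ.codRestrict (h34_V0 𝒪 ρ) hmem, ?_⟩
  intro y y' h
  have h1 : ψ y = ψ y' := congrArg Subtype.val h
  funext i
  exact hK (congrFun h1 i)

end Lattice

theorem h31_exists_lattice {𝒪 : Type} [CommRing 𝒪] [IsDomain 𝒪] [IsPrincipalIdealRing 𝒪]
    {K : Type} [Field K] [Algebra 𝒪 K] [IsFractionRing 𝒪 K] {G : Type*} [Group G]
    (ρ : G →* Matrix (Fin 2) (Fin 2) K) (ϖ : 𝒪) (hϖ : ϖ ≠ 0)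
    (hb : ∀ g i j, ∃ y : 𝒪, algebraMap 𝒪 K ϖ * ρ g i j = algebraMap 𝒪 K y) :
    ∃ (V : Type) (_ : AddCommGroup V) (_ : Module 𝒪 V) (_ : Module.Free 𝒪 V)
      (_ : Module.Finite 𝒪 V) (r : G →* Module.End 𝒪 V),
      Module.finrank 𝒪 V = 2 ∧
      (∀ g, (r g).charpoly.map (algebraMap 𝒪 K) = (ρ g).charpoly) ∧
      (∀ g, ρ g = 1 → r g = 1) ∧
      ∀ (g : G) (I : Ideal 𝒪),
        (∀ h i j, ∃ y ∈ I, ρ (g * h) i j - ρ h i j = algebraMap 𝒪 K y) →
        ∀ v : V, r g v - v ∈ I • (⊤ : Submodule 𝒪 V) := by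
  classical
  have hK : Function.Injective (algebraMap 𝒪 K) := IsFractionRing.injective 𝒪 K
  obtain ⟨Φ, hΦ⟩ := h34_exists_inj hK ρ ϖ hϖ hb
  obtain ⟨Ψ, hΨ⟩ := h34_exists_inj' hK ρ
  have hfin : Module.Finite 𝒪 (h34_V0 𝒪 ρ) := Module.Finite.of_injective Φ hΦ
  have hfree : Module.Free 𝒪 (h34_V0 𝒪 ρ) := inferInstance
  have hrank : Module.finrank 𝒪 (h34_V0 𝒪 ρ) = 2 := by
    have h1 := LinearMap.finrank_le_finrank_of_injective hΦ
    have h2 := LinearMap.finrank_le_finrank_of_injective hΨ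
    rw [Module.finrank_fin_fun] at h1 h2
    omega
  refine ⟨h34_V0 𝒪 ρ, inferInstance, inferInstance, hfree, hfin, h34_r 𝒪 ρ, hrank, ?_, ?_, ?_⟩
  · intro g
    let b : Module.Basis (Fin 2) 𝒪 (h34_V0 𝒪 ρ) := Module.finBasisOfFinrankEq 𝒪 _ hrank
    have hli : LinearIndependent 𝒪 (fun i => ((b i : h34_V0 𝒪 ρ) : Fin 2 → K)) :=
      b.linearIndependent.map' (h34_V0 𝒪 ρ).subtype (Submodule.ker_subtype _)
    have hliK : LinearIndependent K (fun i => ((b i : h34_V0 𝒪 ρ) : Fin 2 → K)) :=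
      (LinearIndependent.iff_fractionRing 𝒪 K).1 hli
    let b' : Module.Basis (Fin 2) K (Fin 2 → K) :=
      basisOfLinearIndependentOfCardEqFinrank hliK (by simp)
    have hb' : ∀ i, b' i = ((b i : h34_V0 𝒪 ρ) : Fin 2 → K) := fun i => by
      rw [coe_basisOfLinearIndependentOfCardEqFinrank]
    have hrepr : ∀ (v : h34_V0 𝒪 ρ) (i : Fin 2),
        b'.repr (v : Fin 2 → K) i = algebraMap 𝒪 K (b.repr v i) := by
      intro v i
      have h1 : (v : Fin 2 → K) = ∑ j, algebraMap 𝒪 K (b.repr v j) • b' j := by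
        conv_lhs => rw [← b.sum_repr v]
        rw [Submodule.coe_sum]
        refine Finset.sum_congr rfl fun j _ => ?_
        rw [Submodule.coe_smul, hb', algebraMap_smul]
      rw [h1, b'.repr_sum_self]
    have hmat : LinearMap.toMatrix b' b' (Matrix.mulVecLin (ρ g)) =
        (LinearMap.toMatrix b b (h34_r 𝒪 ρ g)).map (algebraMap 𝒪 K) := by
      ext i j
      rw [LinearMap.toMatrix_apply, Matrix.map_apply, LinearMap.toMatrix_apply, ← hrepr, hb']
      rfl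
    rw [← LinearMap.charpoly_toMatrix (h34_r 𝒪 ρ g) b, ← Matrix.charpoly_map, ← hmat,
      LinearMap.charpoly_toMatrix, Matrix.charpoly_mulVecLin]
  · intro g hg
    refine LinearMap.ext fun v => Subtype.ext ?_
    show (ρ g).mulVec (v : Fin 2 → K) = v
    rw [hg, Matrix.one_mulVec]
  · intro g I hI v
    let S : Submodule 𝒪 (h34_V0 𝒪 ρ) := Submodule.comap (h34_r 𝒪 ρ g - 1) (I • ⊤)
    have hle : h34_V0 𝒪 ρ ≤ S.map (h34_V0 𝒪 ρ).subtype := by
      refine Submodule.span_le.2 ?_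
      rintro _ ⟨h, j, rfl⟩
      refine ⟨⟨(ρ h).mulVec (Pi.single j 1), Submodule.subset_span ⟨h, j, rfl⟩⟩, ?_, rfl⟩
      choose y hyI hy using fun i => hI h i j
      have h1 : (h34_r 𝒪 ρ g - 1)
          ⟨(ρ h).mulVec (Pi.single j 1), Submodule.subset_span ⟨h, j, rfl⟩⟩ =
          ∑ i, y i • (⟨Pi.single i 1, h34_single_mem ρ i⟩ : h34_V0 𝒪 ρ) := by
        apply Subtype.ext
        funext i
        rw [Submodule.coe_sum, Finset.sum_apply]
        show ((ρ g).mulVec ((ρ h).mulVec (Pi.single j 1))) i - ((ρ h).mulVec (Pi.single j 1)) i =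
          ∑ c, (y c • (Pi.single c (1 : K) : Fin 2 → K)) i
        rw [Matrix.mulVec_mulVec, ← map_mul, Matrix.mulVec_single_one, Matrix.mulVec_single_one]
        have h2 : ∀ c : Fin 2, (y c • (Pi.single c (1 : K) : Fin 2 → K)) i =
            if c = i then algebraMap 𝒪 K (y c) else 0 := by
          intro c
          rw [Pi.smul_apply, Pi.single_apply, Algebra.smul_def]
          by_cases hci : i = c
          · rw [if_pos hci, if_pos hci.symm, mul_one]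
          · rw [if_neg hci, if_neg (fun h => hci h.symm), mul_zero]
        rw [Finset.sum_congr rfl fun c _ => h2 c, Finset.sum_ite_eq' Finset.univ i,
          if_pos (Finset.mem_univ i), ← hy i]
        rfl
      show (h34_r 𝒪 ρ g - 1)
          ⟨(ρ h).mulVec (Pi.single j 1), Submodule.subset_span ⟨h, j, rfl⟩⟩ ∈
        I • (⊤ : Submodule 𝒪 (h34_V0 𝒪 ρ))
      rw [h1]
      exact Submodule.sum_mem _ fun i _ => Submodule.smul_mem_smul (hyI i) Submodule.mem_top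
    obtain ⟨v', hv', hvv'⟩ := hle v.2
    have hv'' : v' = v := Subtype.ext hvv'
    rw [hv''] at hv'
    exact hv'

end Fermat.Agent.GAL
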