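/-
helper85: GAL row 445 (GAL-S30-A).  A 2-dimensional pseudo-character `(t, d)` of a group `G` over
a field `K` of characteristic `≠ 2`, with an element `c` of order two and `d c = -1`, is the
trace/determinant of a representation `ρ : G →* M₂(K)` over the SAME field (explicit construction
of Wiles), and every matrix entry of `ρ g` is a fixed `K`-linear combination of finitely many
right translates `t (g * a_k)`.
-/
import Mathlib

set_option autoImplicit false

namespace Fermat.Agent.GAL

section Peirce

variable {K : Type*} [Field K] {A : Type*} [Ring A] [Algebra K A]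
  (T : A →ₗ[K] K) (e f : A)

theorem h85_split (hadd : e + f = 1) (u v : A) : u * v = u * e * v + u * f * v := by
  rw [← add_mul, ← mul_add, hadd, mul_one]

theorem h85_pa_mul (hadd : e + f = 1)
    (hkE : ∀ x y, T (e * x * e * y) = T (e * x) * T (e * y)) (x y : A) :
    T (e * (x * y)) = T (e * x) * T (e * y) + T (e * x * f * y) := by
  rw [← mul_assoc, h85_split e f hadd (e * x) y, map_add, hkE]

theorem h85_pd_mul (hcomm : ∀ x y, T (x * y) = T (y * x)) (hadd : e + f = 1)
    (hkF : ∀ x y, T (f * x * f * y) = T (f * x) * T (f * y)) (x y : A) :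
    T (f * (x * y)) = T (f * x) * T (f * y) + T (e * y * f * x) := by
  rw [← mul_assoc, h85_split e f hadd (f * x) y, map_add, hkF, add_comm]
  have h1 : f * x * e * y = (f * x) * (e * y) := by simp only [mul_assoc]
  have h2 : e * y * (f * x) = e * y * f * x := by simp only [mul_assoc]
  rw [h1, hcomm (f * x) (e * y), h2]

theorem h85_pa_add_pd (hadd : e + f = 1) (x : A) : T (e * x) + T (f * x) = T x := by
  rw [← map_add, ← add_mul, hadd, one_mul]

theorem h85_px_mul_left (hcomm : ∀ x y, T (x * y) = T (y * x)) (hadd : e + f = 1)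
    (hkE : ∀ x y, T (e * x * e * y) = T (e * x) * T (e * y))
    (hkF : ∀ x y, T (f * x * f * y) = T (f * x) * T (f * y)) (x y z : A) :
    T (e * (x * y) * f * z) = T (e * x) * T (e * y * f * z) + T (f * y) * T (e * x * f * z) := by
  have h1 : e * (x * y) * f * z = (e * x) * (y * f * z) := by simp only [mul_assoc]
  rw [h1, h85_split e f hadd (e * x) (y * f * z), map_add, hkE]
  have h2 : e * x * f * (y * f * z) = (e * x) * (f * y * f * z) := by simp only [mul_assoc]
  have h3 : f * y * f * z * (e * x) = f * y * f * (z * e * x) := by simp only [mul_assoc]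
  have h4 : f * (z * e * x) = (f * z) * (e * x) := by simp only [mul_assoc]
  have h5 : e * x * (f * z) = e * x * f * z := by simp only [mul_assoc]
  have h6 : e * (y * f * z) = e * y * f * z := by simp only [mul_assoc]
  rw [h2, hcomm (e * x) (f * y * f * z), h3, hkF, h4, hcomm (f * z) (e * x), h5, h6]

theorem h85_px_mul_right (hcomm : ∀ x y, T (x * y) = T (y * x)) (hadd : e + f = 1)
    (hkE : ∀ x y, T (e * x * e * y) = T (e * x) * T (e * y))
    (hkF : ∀ x y, T (f * x * f * y) = T (f * x) * T (f * y)) (z x y : A) :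
    T (e * z * f * (x * y)) = T (e * z * f * x) * T (e * y) + T (f * x) * T (e * z * f * y) := by
  have h1 : e * z * f * (x * y) = (e * z * f * x) * y := by simp only [mul_assoc]
  rw [h1, h85_split e f hadd (e * z * f * x) y, map_add]
  have h2 : e * z * f * x * e * y = (e * z * f * x) * (e * y) := by simp only [mul_assoc]
  have h3 : e * y * (e * z * f * x) = e * y * e * (z * f * x) := by simp only [mul_assoc]
  have h4 : e * (z * f * x) = e * z * f * x := by simp only [mul_assoc]
  have h5 : e * z * f * x * f * y = (e * z) * (f * x * f * y) := by simp only [mul_assoc]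
  have h6 : f * x * f * y * (e * z) = f * x * f * (y * e * z) := by simp only [mul_assoc]
  have h7 : f * (y * e * z) = (f * y) * (e * z) := by simp only [mul_assoc]
  have h8 : e * z * (f * y) = e * z * f * y := by simp only [mul_assoc]
  rw [h2, hcomm (e * z * f * x) (e * y), h3, hkE, h4, h5, hcomm (e * z) (f * x * f * y), h6, hkF, h7,
    hcomm (f * y) (e * z), h8, mul_comm (T (e * y))]

theorem h85_px_rank (hcomm : ∀ x y, T (x * y) = T (y * x))
    (hkE : ∀ x y, T (e * x * e * y) = T (e * x) * T (e * y))
    (hkF : ∀ x y, T (f * x * f * y) = T (f * x) * T (f * y)) (x y x' y' : A) :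
    T (e * x * f * y) * T (e * x' * f * y') = T (e * x * f * y') * T (e * x' * f * y) := by
  have h1 : T (e * x * f * y) * T (e * x' * f * y') = T (e * (x * f * y) * e * (x' * f * y')) := by
    rw [hkE]
    simp only [mul_assoc]
  have h2 : e * (x * f * y) * e * (x' * f * y') = (e * x) * (f * (y * e * x') * f * y') := by
    simp only [mul_assoc]
  have h3 : f * (y * e * x') * f * y' * (e * x) = f * (y * e * x') * f * (y' * e * x) := by
    simp only [mul_assoc]
  have h4 : f * (y * e * x') = (f * y) * (e * x') := by simp only [mul_assoc]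
  have h5 : f * (y' * e * x) = (f * y') * (e * x) := by simp only [mul_assoc]
  have h6 : e * x' * (f * y) = e * x' * f * y := by simp only [mul_assoc]
  have h7 : e * x * (f * y') = e * x * f * y' := by simp only [mul_assoc]
  rw [h1, h2, hcomm (e * x) (f * (y * e * x') * f * y'), h3, hkF, h4, h5, hcomm (f * y) (e * x'),
    hcomm (f * y') (e * x), h6, h7]
  exact mul_comm _ _

theorem h85_px_one_left (hef : e * f = 0) (y : A) : T (e * 1 * f * y) = 0 := by
  rw [mul_one, hef, zero_mul, map_zero]

theorem h85_px_one_right (hcomm : ∀ x y, T (x * y) = T (y * x)) (hfe : f * e = 0) (x : A) :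
    T (e * x * f * 1) = 0 := by
  have h1 : e * x * f * 1 = (e * x) * f := by rw [mul_one]
  rw [h1, hcomm (e * x) f, ← mul_assoc, hfe, zero_mul, map_zero]

/-- The abstract construction: a central linear form `T` on an algebra `A` with a pair of
orthogonal idempotents `e + f = 1` of trace one satisfying the Peirce identities gives a
two-dimensional representation of every group mapping to `A` on which `T` satisfies the
determinant identity. -/
theorem h85_peirce_rep (hcomm : ∀ x y, T (x * y) = T (y * x))
    (hef : e * f = 0) (hfe : f * e = 0) (hadd : e + f = 1) (hTe : T e = 1) (hTf : T f = 1)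
    (hkE : ∀ x y, T (e * x * e * y) = T (e * x) * T (e * y))
    (hkF : ∀ x y, T (f * x * f * y) = T (f * x) * T (f * y))
    {G : Type*} [Group G] (ι : G →* A) (d : G →* Kˣ) (h2 : (2 : K) ≠ 0)
    (hdet : ∀ g, T (ι g * ι g) = T (ι g) ^ 2 - 2 * (d g : K)) :
    ∃ (ρ : G →* Matrix (Fin 2) (Fin 2) K) (Z : Fin 2 → Fin 2 → A),
      (∀ g, (ρ g).trace = T (ι g)) ∧ (∀ g, (ρ g).det = (d g : K)) ∧
      ∀ g i j, ρ g i j = T (ι g * Z i j) := by
  have ha_mul : ∀ g h : G, T (e * ι (g * h)) = T (e * ι g) * T (e * ι h) + T (e * ι g * f * ι h) :=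
    fun g h => by rw [map_mul ι g h]; exact h85_pa_mul T e f hadd hkE _ _
  have hd_mul : ∀ g h : G, T (f * ι (g * h)) = T (f * ι g) * T (f * ι h) + T (e * ι h * f * ι g) :=
    fun g h => by rw [map_mul ι g h]; exact h85_pd_mul T e f hcomm hadd hkF _ _
  have hsum : ∀ g : G, T (e * ι g) + T (f * ι g) = T (ι g) :=
    fun g => h85_pa_add_pd T e f hadd _
  have hxl : ∀ g h k : G, T (e * ι (g * h) * f * ι k) =
      T (e * ι g) * T (e * ι h * f * ι k) + T (f * ι h) * T (e * ι g * f * ι k) :=
    fun g h k => by rw [map_mul ι g h]; exact h85_px_mul_left T e f hcomm hadd hkE hkF _ _ _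
  have hxr : ∀ k g h : G, T (e * ι k * f * ι (g * h)) =
      T (e * ι k * f * ι g) * T (e * ι h) + T (f * ι g) * T (e * ι k * f * ι h) :=
    fun k g h => by rw [map_mul ι g h]; exact h85_px_mul_right T e f hcomm hadd hkE hkF _ _ _
  have hrank : ∀ g h g' h' : G, T (e * ι g * f * ι h) * T (e * ι g' * f * ι h') =
      T (e * ι g * f * ι h') * T (e * ι g' * f * ι h) :=
    fun g h g' h' => h85_px_rank T e f hcomm hkE hkF _ _ _ _
  have hx1l : ∀ h : G, T (e * ι 1 * f * ι h) = 0 :=
    fun h => by rw [map_one ι]; exact h85_px_one_left T e f hef _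
  have hx1r : ∀ g : G, T (e * ι g * f * ι 1) = 0 :=
    fun g => by rw [map_one ι]; exact h85_px_one_right T e f hcomm hfe _
  have ha1 : T (e * ι 1) = 1 := by rw [map_one ι, mul_one, hTe]
  have hd1 : T (f * ι 1) = 1 := by rw [map_one ι, mul_one, hTf]
  have hdet' : ∀ g : G, T (e * ι g) * T (f * ι g) - T (e * ι g * f * ι g) = (d g : K) := by
    intro g
    have h1 := ha_mul g g
    have h2' := hd_mul g g
    have h3 := hsum (g * g)
    have h4 := hsum g
    have h5 := hdet g
    rw [← map_mul ι g g] at h5
    have h6 : 2 * (T (e * ι g) * T (f * ι g) - T (e * ι g * f * ι g) - (d g : K)) = 0 := by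
      linear_combination h1 + h2' - h3 - h5 + (T (e * ι g) + T (f * ι g) + T (ι g)) * h4
    exact sub_eq_zero.mp ((mul_eq_zero.mp h6).resolve_left h2)
  by_cases hgen : ∃ g₀ h₀ : G, T (e * ι g₀ * f * ι h₀) ≠ 0
  · obtain ⟨g₀, h₀, h0⟩ := hgen
    have hm11 : ∀ g h : G, T (e * ι (g * h)) = T (e * ι g) * T (e * ι h) +
        T (e * ι g * f * ι h₀) / T (e * ι g₀ * f * ι h₀) * T (e * ι g₀ * f * ι h) := by
      intro g h
      rw [ha_mul]
      have := hrank g h₀ g₀ h
      field_simp
      linear_combination -this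
    have hm12 : ∀ g h : G, T (e * ι (g * h) * f * ι h₀) / T (e * ι g₀ * f * ι h₀) =
        T (e * ι g) * (T (e * ι h * f * ι h₀) / T (e * ι g₀ * f * ι h₀)) +
        T (e * ι g * f * ι h₀) / T (e * ι g₀ * f * ι h₀) * T (f * ι h) := by
      intro g h
      rw [hxl]
      ring
    have hm22 : ∀ g h : G, T (f * ι (g * h)) =
        T (e * ι g₀ * f * ι g) * (T (e * ι h * f * ι h₀) / T (e * ι g₀ * f * ι h₀)) +
        T (f * ι g) * T (f * ι h) := by
      intro g h
      rw [hd_mul]
      have := hrank g₀ g h h₀
      field_simp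
      linear_combination -this
    refine ⟨{ toFun := fun g => !![T (e * ι g), T (e * ι g * f * ι h₀) / T (e * ι g₀ * f * ι h₀);
                                  T (e * ι g₀ * f * ι g), T (f * ι g)]
              map_one' := ?_
              map_mul' := ?_ },
      fun i j => ![![e, (T (e * ι g₀ * f * ι h₀))⁻¹ • (f * ι h₀ * e)], ![e * ι g₀ * f, f]] i j,
      ?_, ?_, ?_⟩
    · rw [ha1, hd1, hx1l, hx1r, zero_div, Matrix.one_fin_two]
    · intro g h
      rw [Matrix.mul_fin_two, ← hm11, ← hm12, ← hm22, ← hxr]
    · intro g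
      show Matrix.trace !![T (e * ι g), T (e * ι g * f * ι h₀) / T (e * ι g₀ * f * ι h₀);
                                  T (e * ι g₀ * f * ι g), T (f * ι g)] = T (ι g)
      rw [Matrix.trace_fin_two_of]
      exact hsum g
    · intro g
      show Matrix.det !![T (e * ι g), T (e * ι g * f * ι h₀) / T (e * ι g₀ * f * ι h₀);
                                  T (e * ι g₀ * f * ι g), T (f * ι g)] = (d g : K)
      rw [Matrix.det_fin_two_of, ← hdet' g, div_mul_eq_mul_div, hrank g h₀ g₀ g, mul_div_assoc,
        div_self h0, mul_one]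
    · intro g i j
      fin_cases i <;> fin_cases j
      · show T (e * ι g) = T (ι g * e)
        exact hcomm _ _
      · show T (e * ι g * f * ι h₀) / T (e * ι g₀ * f * ι h₀) =
          T (ι g * ((T (e * ι g₀ * f * ι h₀))⁻¹ • (f * ι h₀ * e)))
        rw [mul_smul_comm, map_smul, smul_eq_mul, div_eq_inv_mul]
        congr 1
        have h1 : ι g * (f * ι h₀ * e) = (ι g * f * ι h₀) * e := by simp only [mul_assoc]
        have h2 : e * (ι g * f * ι h₀) = e * ι g * f * ι h₀ := by simp only [mul_assoc]
        rw [h1, hcomm (ι g * f * ι h₀) e, h2]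
      · show T (e * ι g₀ * f * ι g) = T (ι g * (e * ι g₀ * f))
        exact hcomm _ _
      · show T (f * ι g) = T (ι g * f)
        exact hcomm _ _
  · push Not at hgen
    refine ⟨{ toFun := fun g => !![T (e * ι g), 0; 0, T (f * ι g)]
              map_one' := ?_
              map_mul' := ?_ },
      fun i j => ![![e, 0], ![0, f]] i j, ?_, ?_, ?_⟩
    · rw [ha1, hd1, Matrix.one_fin_two]
    · intro g h
      rw [Matrix.mul_fin_two, ha_mul, hd_mul, hgen, hgen]
      simp
    · intro g
      show Matrix.trace !![T (e * ι g), 0; 0, T (f * ι g)] = T (ι g)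
      rw [Matrix.trace_fin_two_of]
      exact hsum g
    · intro g
      show Matrix.det !![T (e * ι g), 0; 0, T (f * ι g)] = (d g : K)
      rw [Matrix.det_fin_two_of, ← hdet' g, hgen]
      ring
    · intro g i j
      fin_cases i <;> fin_cases j
      · show T (e * ι g) = T (ι g * e)
        exact hcomm _ _
      · show (0 : K) = T (ι g * 0)
        rw [mul_zero, map_zero]
      · show (0 : K) = T (ι g * 0)
        rw [mul_zero, map_zero]
      · show T (f * ι g) = T (ι g * f)
        exact hcomm _ _

end Peirce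

section Pseudo

variable {K : Type*} [Field K] {G : Type*} [Group G]

/-- The linear extension of a function `t : G → K` to the group algebra. -/
noncomputable def h85_T (t : G → K) : MonoidAlgebra K G →ₗ[K] K :=
  (Finsupp.linearCombination K t).comp (MonoidAlgebra.coeffLinearEquiv K).toLinearMap

theorem h85_T_of (t : G → K) (g : G) : h85_T t (MonoidAlgebra.of K G g) = t g := by
  simp [h85_T]

omit [Group G] in
theorem h85_T_apply (t : G → K) (z : MonoidAlgebra K G) :
    h85_T t z = ∑ h ∈ z.coeff.support, z.coeff h * t h := by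
  simp [h85_T, Finsupp.linearCombination_apply, Finsupp.sum]

/-- `T (g z)` is the linear extension of the left translate of `t`. -/
theorem h85_T_of_mul (t : G → K) (g : G) (z : MonoidAlgebra K G) :
    h85_T t (MonoidAlgebra.of K G g * z) = h85_T (fun h => t (g * h)) z := by
  induction z using MonoidAlgebra.induction_on with
  | of h => rw [← map_mul, h85_T_of, h85_T_of]
  | add x y hx hy => rw [mul_add, map_add, map_add, hx, hy]
  | smul r x hx => rw [mul_smul_comm, map_smul, map_smul, hx]

/-- A central function extends to a central linear form. -/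
theorem h85_T_comm (t : G → K) (hcentral : ∀ g h : G, t (g * h) = t (h * g))
    (x y : MonoidAlgebra K G) : h85_T t (x * y) = h85_T t (y * x) := by
  induction x using MonoidAlgebra.induction_on with
  | of g =>
    induction y using MonoidAlgebra.induction_on with
    | of h => rw [← map_mul, ← map_mul, h85_T_of, h85_T_of]; exact hcentral g h
    | add y₁ y₂ h₁ h₂ => rw [mul_add, add_mul, map_add, map_add, h₁, h₂]
    | smul r y h => rw [mul_smul_comm, smul_mul_assoc, map_smul, map_smul, h]
  | add x₁ x₂ h₁ h₂ => rw [add_mul, mul_add, map_add, map_add, h₁, h₂]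
  | smul r x h => rw [smul_mul_assoc, mul_smul_comm, map_smul, map_smul, h]

/-- The linearised pseudo-character identity. -/
theorem h85_T_step (t : G → K) (d : G →* Kˣ)
    (hP2 : ∀ g h : G, t (g * h) + (d g : K) * t (g⁻¹ * h) = t g * t h)
    (g : G) (y : MonoidAlgebra K G) :
    h85_T t (MonoidAlgebra.of K G g * y) + (d g : K) * h85_T t (MonoidAlgebra.of K G g⁻¹ * y) =
      t g * h85_T t y := by
  induction y using MonoidAlgebra.induction_on with
  | of h => rw [← map_mul, ← map_mul, h85_T_of, h85_T_of, h85_T_of]; exact hP2 g h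
  | add y₁ y₂ h₁ h₂ =>
    rw [mul_add, mul_add, map_add, map_add, map_add]
    linear_combination h₁ + h₂
  | smul r y h =>
    rw [mul_smul_comm, mul_smul_comm, map_smul, map_smul, map_smul, smul_eq_mul, smul_eq_mul,
      smul_eq_mul]
    linear_combination r * h

open MonoidAlgebra in
/-- The Peirce identity for the (unnormalised) idempotents `1 + ε c`, `ε = ± 1`. -/
theorem h85_key (t : G → K) (d : G →* Kˣ) (h2 : (2 : K) ≠ 0)
    (hcentral : ∀ g h : G, t (g * h) = t (h * g))
    (hP2 : ∀ g h : G, t (g * h) + (d g : K) * t (g⁻¹ * h) = t g * t h)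
    (c : G) (hc : c * c = 1) (hdc : d c = -1) (ε : K) (hε : ε * ε = 1)
    (x y : MonoidAlgebra K G) :
    h85_T t ((1 + ε • of K G c) * x * (1 + ε • of K G c) * y) =
      h85_T t ((1 + ε • of K G c) * x) * h85_T t ((1 + ε • of K G c) * y) := by
  have huu : of K G c * of K G c = 1 := by rw [← map_mul, hc, map_one]
  have hcinv : c⁻¹ = c := inv_eq_of_mul_eq_one_left hc
  have hsq : (1 + ε • of K G c) * (1 + ε • of K G c) = (2 : K) • (1 + ε • of K G c) := by
    have h1 : (1 + ε • of K G c) * (1 + ε • of K G c) =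
        1 + ε • of K G c + ε • of K G c + (ε * ε) • (of K G c * of K G c) := by
      simp only [add_mul, mul_add, one_mul, mul_one, smul_mul_assoc, mul_smul_comm]
      module
    rw [h1, hε, huu, one_smul]
    module
  have hzero : (1 + (-ε) • of K G c) * (1 + ε • of K G c) = 0 := by
    have h1 : (1 + (-ε) • of K G c) * (1 + ε • of K G c) =
        1 + ε • of K G c + (-ε) • of K G c + ((-ε) * ε) • (of K G c * of K G c) := by
      simp only [add_mul, mul_add, one_mul, mul_one, smul_mul_assoc, mul_smul_comm]
      module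
    rw [h1, huu, neg_mul, hε]
    module
  have hexp : ∀ (η : K), η * η = 1 → ∀ g' : G,
      (1 + η • of K G c) * of K G g' * (1 + η • of K G c) =
        of K G g' + η • of K G (c * g') + η • of K G (g' * c) + of K G (c * g' * c) := by
    intro η hη g'
    have h1 : (1 + η • of K G c) * of K G g' * (1 + η • of K G c) =
        of K G g' + η • (of K G c * of K G g') + η • (of K G g' * of K G c) +
          (η * η) • (of K G c * of K G g' * of K G c) := by
      simp only [add_mul, mul_add, one_mul, mul_one, smul_mul_assoc, mul_smul_comm]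
      module
    rw [h1, hη, one_smul, map_mul, map_mul, map_mul, map_mul]
  induction x using MonoidAlgebra.induction_on with
  | of g =>
    have hP := hexp ε hε g
    have hQ := hexp (-ε) (by rw [neg_mul_neg]; exact hε) g⁻¹
    have s1 := h85_T_step t d hP2 g ((1 + ε • of K G c) * y)
    have s2 := h85_T_step t d hP2 (c * g) ((1 + ε • of K G c) * y)
    have s3 := h85_T_step t d hP2 (g * c) ((1 + ε • of K G c) * y)
    have s4 := h85_T_step t d hP2 (c * g * c) ((1 + ε • of K G c) * y)
    have hd2 : ((d (c * g) : Kˣ) : K) = -(d g : K) := by rw [map_mul, hdc]; simp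
    have hd3 : ((d (g * c) : Kˣ) : K) = -(d g : K) := by rw [map_mul, hdc]; simp
    have hd4 : ((d (c * g * c) : Kˣ) : K) = (d g : K) := by rw [map_mul, map_mul, hdc]; simp
    have hi2 : (c * g)⁻¹ = g⁻¹ * c := by rw [mul_inv_rev, hcinv]
    have hi3 : (g * c)⁻¹ = c * g⁻¹ := by rw [mul_inv_rev, hcinv]
    have hi4 : (c * g * c)⁻¹ = c * g⁻¹ * c := by rw [mul_inv_rev, mul_inv_rev, hcinv, mul_assoc]
    rw [hd2, hi2] at s2
    rw [hd3, hi3] at s3
    rw [hd4, hi4] at s4
    have hQY : (1 + (-ε) • of K G c) * of K G g⁻¹ * (1 + (-ε) • of K G c) *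
        ((1 + ε • of K G c) * y) = 0 := by
      rw [mul_assoc _ (1 + (-ε) • of K G c) _, ← mul_assoc (1 + (-ε) • of K G c) _ y, hzero,
        zero_mul, mul_zero]
    have tQ : h85_T t (of K G g⁻¹ * ((1 + ε • of K G c) * y)) +
        (-ε) * h85_T t (of K G (c * g⁻¹) * ((1 + ε • of K G c) * y)) +
        (-ε) * h85_T t (of K G (g⁻¹ * c) * ((1 + ε • of K G c) * y)) +
        h85_T t (of K G (c * g⁻¹ * c) * ((1 + ε • of K G c) * y)) = 0 := by
      have h1 := congrArg (h85_T t) hQY
      rw [hQ, add_mul, add_mul, add_mul, smul_mul_assoc, smul_mul_assoc, map_add, map_add,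
        map_add, map_smul, map_smul, map_zero, smul_eq_mul, smul_eq_mul] at h1
      exact h1
    have tP : h85_T t ((1 + ε • of K G c) * of K G g * (1 + ε • of K G c) *
          ((1 + ε • of K G c) * y)) =
        h85_T t (of K G g * ((1 + ε • of K G c) * y)) +
        ε * h85_T t (of K G (c * g) * ((1 + ε • of K G c) * y)) +
        ε * h85_T t (of K G (g * c) * ((1 + ε • of K G c) * y)) +
        h85_T t (of K G (c * g * c) * ((1 + ε • of K G c) * y)) := by
      rw [hP, add_mul, add_mul, add_mul, smul_mul_assoc, smul_mul_assoc, map_add, map_add,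
        map_add, map_smul, map_smul, smul_eq_mul, smul_eq_mul]
    have tP1 : h85_T t ((1 + ε • of K G c) * of K G g * (1 + ε • of K G c)) =
        t g + ε * t (c * g) + ε * t (g * c) + t (c * g * c) := by
      rw [hP, map_add, map_add, map_add, map_smul, map_smul, h85_T_of, h85_T_of, h85_T_of,
        h85_T_of, smul_eq_mul, smul_eq_mul]
    have tP2 : h85_T t ((1 + ε • of K G c) * of K G g * (1 + ε • of K G c)) =
        2 * h85_T t ((1 + ε • of K G c) * of K G g) := by
      rw [h85_T_comm t hcentral ((1 + ε • of K G c) * of K G g) (1 + ε • of K G c), ← mul_assoc,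
        hsq, smul_mul_assoc, map_smul, smul_eq_mul]
    have tP3 : t g + ε * t (c * g) + ε * t (g * c) + t (c * g * c) =
        2 * h85_T t ((1 + ε • of K G c) * of K G g) := by rw [← tP1, tP2]
    have hL : (1 + ε • of K G c) * of K G g * (1 + ε • of K G c) * ((1 + ε • of K G c) * y) =
        (2 : K) • ((1 + ε • of K G c) * of K G g * (1 + ε • of K G c) * y) := by
      rw [← mul_assoc, mul_assoc ((1 + ε • of K G c) * of K G g) (1 + ε • of K G c)
        (1 + ε • of K G c), hsq, mul_smul_comm, smul_mul_assoc]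
    have main : h85_T t ((1 + ε • of K G c) * of K G g * (1 + ε • of K G c) *
          ((1 + ε • of K G c) * y)) =
        2 * h85_T t ((1 + ε • of K G c) * of K G g) * h85_T t ((1 + ε • of K G c) * y) := by
      rw [tP]
      linear_combination s1 + ε * s2 + ε * s3 + s4 - (d g : K) * tQ +
        h85_T t ((1 + ε • of K G c) * y) * tP3
    have h3 := congrArg (h85_T t) hL
    rw [map_smul, smul_eq_mul, main] at h3
    have h4 : 2 * h85_T t ((1 + ε • of K G c) * of K G g * (1 + ε • of K G c) * y) =
        2 * (h85_T t ((1 + ε • of K G c) * of K G g) * h85_T t ((1 + ε • of K G c) * y)) := by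
      rw [← h3]
      ring
    exact mul_left_cancel₀ h2 h4
  | add x₁ x₂ h₁ h₂ =>
    rw [mul_add (1 + ε • of K G c) x₁ x₂,
      add_mul ((1 + ε • of K G c) * x₁) ((1 + ε • of K G c) * x₂) (1 + ε • of K G c),
      add_mul ((1 + ε • of K G c) * x₁ * (1 + ε • of K G c)) _ y, map_add, map_add, h₁, h₂]
    ring
  | smul r x h =>
    rw [mul_smul_comm r (1 + ε • of K G c) x, smul_mul_assoc r _ (1 + ε • of K G c),
      smul_mul_assoc r _ y, map_smul, map_smul, h, smul_eq_mul, smul_eq_mul]
    ring

open MonoidAlgebra in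
/-- **GAL-S30-A.** A two-dimensional pseudo-character with a "complex conjugation" is the
trace and determinant of a representation over the same field, whose matrix entries are fixed
linear combinations of finitely many right translates of the trace. -/
theorem h31_rep_of_pseudo {K : Type*} [Field K] (h2 : (2 : K) ≠ 0) {G : Type*} [Group G]
    (t : G → K) (d : G →* Kˣ) (ht1 : t 1 = 2)
    (ht : ∀ g h : G, t (g * h) + (d h : K) * t (g * h⁻¹) = t g * t h)
    (c : G) (hc : c * c = 1) (hdc : d c = -1) :
    ∃ (ρ : G →* Matrix (Fin 2) (Fin 2) K) (n : ℕ) (a : Fin n → G)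
      (μ : Fin 2 → Fin 2 → Fin n → K),
      (∀ g, (ρ g).trace = t g) ∧ (∀ g, (ρ g).det = (d g : K)) ∧
      ∀ g i j, ρ g i j = ∑ k, μ i j k * t (g * a k) := by
  classical
  -- elementary consequences of the pseudo-character identity
  have hP3 : ∀ h : G, (d h : K) * t h⁻¹ = t h := by
    intro h
    have h1 := ht 1 h
    rw [one_mul, one_mul, ht1] at h1
    linear_combination h1
  have hcentral : ∀ g h : G, t (g * h) = t (h * g) := by
    intro g h
    have h1 := ht g h
    have h2' := ht h g
    have h3 := hP3 (g * h⁻¹)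
    rw [mul_inv_rev, inv_inv, map_mul, map_inv, Units.val_mul, Units.val_inv_eq_inv_val] at h3
    have hdh : (d h : K) ≠ 0 := (d h).ne_zero
    have h4 : (d g : K) * t (h * g⁻¹) = (d h : K) * t (g * h⁻¹) := by
      rw [← h3]
      field_simp
    linear_combination h1 - h2' + h4
  have hP2 : ∀ g h : G, t (g * h) + (d g : K) * t (g⁻¹ * h) = t g * t h := by
    intro g h
    have h1 := ht h g
    rw [hcentral h g, hcentral h g⁻¹] at h1
    linear_combination h1
  have htc : t c = 0 := by
    have h1 := ht c c
    rw [hc, mul_inv_cancel, hdc, ht1, Units.val_neg, Units.val_one] at h1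
    have h3 : t c * t c = 0 := by
      rw [← h1]
      ring
    exact mul_self_eq_zero.mp h3
  have hdet : ∀ g : G, t (g * g) = t g ^ 2 - 2 * (d g : K) := by
    intro g
    have h1 := ht g g
    rw [mul_inv_cancel, ht1] at h1
    linear_combination h1
  -- the group algebra, its trace and the two idempotents
  have hcomm := h85_T_comm t hcentral
  have huu : of K G c * of K G c = 1 := by rw [← map_mul, hc, map_one]
  have hT1 : h85_T t 1 = 2 := by rw [← map_one (of K G), h85_T_of, ht1]
  have hzero : ∀ ε : K, ε * ε = 1 → (1 + (-ε) • of K G c) * (1 + ε • of K G c) = 0 := by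
    intro ε hε
    have h1 : (1 + (-ε) • of K G c) * (1 + ε • of K G c) =
        1 + ε • of K G c + (-ε) • of K G c + ((-ε) * ε) • (of K G c * of K G c) := by
      simp only [add_mul, mul_add, one_mul, mul_one, smul_mul_assoc, mul_smul_comm]
      module
    rw [h1, huu, neg_mul, hε]
    module
  have hone : (1 : K) * 1 = 1 := one_mul 1
  have hmone : (-1 : K) * -1 = 1 := by ring
  have hTE : ∀ ε : K, h85_T t ((2 : K)⁻¹ • (1 + ε • of K G c)) = 1 := by
    intro ε
    rw [map_smul, map_add, map_smul, hT1, h85_T_of, htc, smul_eq_mul, smul_eq_mul, mul_zero,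
      add_zero, inv_mul_cancel₀ h2]
  have hkey : ∀ ε : K, ε * ε = 1 → ∀ x y : MonoidAlgebra K G,
      h85_T t ((2 : K)⁻¹ • (1 + ε • of K G c) * x * (2 : K)⁻¹ • (1 + ε • of K G c) * y) =
        h85_T t ((2 : K)⁻¹ • (1 + ε • of K G c) * x) *
          h85_T t ((2 : K)⁻¹ • (1 + ε • of K G c) * y) := by
    intro ε hε x y
    have h1 := h85_key t d h2 hcentral hP2 c hc hdc ε hε x y
    have h3 : (2 : K)⁻¹ • (1 + ε • of K G c) * x * (2 : K)⁻¹ • (1 + ε • of K G c) * y =
        ((2 : K)⁻¹ * (2 : K)⁻¹) • ((1 + ε • of K G c) * x * (1 + ε • of K G c) * y) := by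
      simp only [smul_mul_assoc, mul_smul_comm, smul_smul]
    rw [h3, map_smul, h1, smul_mul_assoc, smul_mul_assoc, map_smul, map_smul, smul_eq_mul,
      smul_eq_mul, smul_eq_mul]
    ring
  have hef : (2 : K)⁻¹ • (1 + (1 : K) • of K G c) * (2 : K)⁻¹ • (1 + (-1 : K) • of K G c) = 0 := by
    have h1 := hzero (-1) hmone
    rw [neg_neg] at h1
    rw [smul_mul_assoc, mul_smul_comm, h1, smul_zero, smul_zero]
  have hfe : (2 : K)⁻¹ • (1 + (-1 : K) • of K G c) * (2 : K)⁻¹ • (1 + (1 : K) • of K G c) = 0 := by
    have h1 := hzero 1 hone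
    rw [smul_mul_assoc, mul_smul_comm, h1, smul_zero, smul_zero]
  have hadd : (2 : K)⁻¹ • (1 + (1 : K) • of K G c) + (2 : K)⁻¹ • (1 + (-1 : K) • of K G c) = 1 := by
    have h1 : (1 + (1 : K) • of K G c) + (1 + (-1 : K) • of K G c) =
        (2 : K) • (1 : MonoidAlgebra K G) := by module
    rw [← smul_add, h1, smul_smul, inv_mul_cancel₀ h2, one_smul]
  obtain ⟨ρ, Z, htr, hdt, hent⟩ := h85_peirce_rep (h85_T t)
    ((2 : K)⁻¹ • (1 + (1 : K) • of K G c)) ((2 : K)⁻¹ • (1 + (-1 : K) • of K G c))
    hcomm hef hfe hadd (hTE 1) (hTE (-1)) (hkey 1 hone) (hkey (-1) hmone) (of K G) d h2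
    (fun g => by rw [← map_mul, h85_T_of, h85_T_of]; exact hdet g)
  -- the finite list of translates
  let s : Finset G := Finset.univ.biUnion fun i : Fin 2 =>
    Finset.univ.biUnion fun j : Fin 2 => (Z i j).coeff.support
  refine ⟨ρ, s.card, fun k => (s.equivFin.symm k : G),
    fun i j k => (Z i j).coeff (s.equivFin.symm k : G), ?_, hdt, ?_⟩
  · intro g
    rw [htr, h85_T_of]
  · intro g i j
    rw [hent, h85_T_of_mul, h85_T_apply]
    have hsub : (Z i j).coeff.support ⊆ s := by
      intro h hh
      simp only [s, Finset.mem_biUnion, Finset.mem_univ, true_and]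
      exact ⟨i, j, hh⟩
    rw [Finset.sum_subset hsub
      (fun h _ hn => by rw [Finsupp.notMem_support_iff.mp hn, zero_mul]),
      ← Finset.sum_coe_sort s (fun h => (Z i j).coeff h * t (g * h))]
    exact (Equiv.sum_comp s.equivFin.symm (fun x : s => (Z i j).coeff x * t (g * x))).symm

end Pseudo

end Fermat.Agent.GAL
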