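import Mathlib
import Fermat.Prelude.Def_GaloisRep_Adic
import Fermat.Agent.GAL.h31_S30Pseudo
import Fermat.Agent.GAL.h85_S30A
import Fermat.Agent.GAL.h34_S30B
import Fermat.Agent.GAL.h65_LevelDef

/-!
# GAL / S30 endgame, part (E): the assembly

* `h31_adicRep_of_pseudo`: a continuous two-dimensional pseudo-character `(t, d)` of `G_ℚ` with
  values in a discrete valuation ring `𝒪` of characteristic zero, odd at complex conjugation,
  is the characteristic polynomial of a `GaloisRepAdic 𝒪` (over `𝒪` itself).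
* `h31_S30_of_levelsA`, `h31_S30_of_levels`: the frozen statement S30 from a Hecke lattice with
  levels (`h31_HasLevelA`, resp. the shared strong predicate `h65_HasLevelS`) and the weak
  Chebotarev statement.

The two pure-algebra inputs are `h31_rep_of_pseudo` (`h85_S30A.lean`, helper85) and
`h31_exists_lattice` (`h34_S30B.lean`, helper34).
-/

set_option autoImplicit false

open Polynomial

namespace Fermat.Agent.GAL

/-- In a discrete valuation ring, `𝔪 ^ (n + v) ≤ (ϖ) * 𝔪 ^ n` for a suitable `v`. -/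
theorem h31_exists_pow_le {𝒪 : Type*} [CommRing 𝒪] [IsDomain 𝒪] [IsDiscreteValuationRing 𝒪]
    {ϖ : 𝒪} (hϖ : ϖ ≠ 0) :
    ∃ v : ℕ, ∀ n : ℕ, IsLocalRing.maximalIdeal 𝒪 ^ (n + v) ≤
      Ideal.span {ϖ} * IsLocalRing.maximalIdeal 𝒪 ^ n := by
  obtain ⟨π, hπ⟩ := IsDiscreteValuationRing.exists_irreducible 𝒪
  obtain ⟨v, u, hu⟩ := IsDiscreteValuationRing.eq_unit_mul_pow_irreducible hϖ hπ
  refine ⟨v, fun n x hx => ?_⟩
  rw [hπ.maximalIdeal_eq, Ideal.span_singleton_pow, Ideal.mem_span_singleton] at hx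
  obtain ⟨w, rfl⟩ := hx
  rw [Ideal.mem_span_singleton_mul]
  refine ⟨(↑u⁻¹ : 𝒪) * (π ^ n * w), ?_, ?_⟩
  · rw [hπ.maximalIdeal_eq, Ideal.span_singleton_pow]
    exact Ideal.mul_mem_left _ _ (Ideal.mul_mem_right _ _ (Ideal.mem_span_singleton_self _))
  · rw [hu, pow_add]
    have : (u : 𝒪) * (↑u⁻¹ : 𝒪) = 1 := Units.mul_inv u
    linear_combination (π ^ v * π ^ n * w) * this

/-- A continuous, odd two-dimensional pseudo-character with values in a discrete valuation ring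
of characteristic zero comes from a `GaloisRepAdic` over the same ring. -/
theorem h31_adicRep_of_pseudo {𝒪 : Type} [CommRing 𝒪] [IsDomain 𝒪] [IsDiscreteValuationRing 𝒪]
    [CharZero 𝒪]
    (t : (AlgebraicClosure ℚ ≃ₐ[ℚ] AlgebraicClosure ℚ) → 𝒪)
    (d : (AlgebraicClosure ℚ ≃ₐ[ℚ] AlgebraicClosure ℚ) →* 𝒪)
    (ht1 : t 1 = 2) (ht : ∀ g h, t (g * h) + d h * t (g * h⁻¹) = t g * t h)
    (hdc : d complexConjugation = -1)
    (hcont : ∀ n : ℕ, ∃ L : IntermediateField ℚ (AlgebraicClosure ℚ), FiniteDimensional ℚ L ∧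
      ∀ σ : AlgebraicClosure ℚ ≃ₐ[ℚ] AlgebraicClosure ℚ, (∀ x ∈ L, σ x = x) →
        ∀ g, t (σ * g) - t g ∈ IsLocalRing.maximalIdeal 𝒪 ^ n) :
    ∃ ρ : GaloisRepAdic 𝒪,
      (∀ σ, LinearMap.charpoly (ρ.ρ σ) = X ^ 2 - C (t σ) * X + C (d σ)) ∧
      (∀ τ, (∀ g, t (τ * g) = t g) → ρ.ρ τ = 1) := by
  classical
  let K := FractionRing 𝒪
  let φ : 𝒪 →+* K := algebraMap 𝒪 K
  have hφ : Function.Injective φ := IsFractionRing.injective 𝒪 K
  have hK0 : CharZero K := charZero_of_injective_algebraMap hφ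
  have h2 : (2 : K) ≠ 0 := two_ne_zero
  let tK : (AlgebraicClosure ℚ ≃ₐ[ℚ] AlgebraicClosure ℚ) → K := fun g => φ (t g)
  let dK : (AlgebraicClosure ℚ ≃ₐ[ℚ] AlgebraicClosure ℚ) →* Kˣ :=
    ((φ : 𝒪 →* K).comp d).toHomUnits
  have hdK : ∀ g, ((dK g : Kˣ) : K) = φ (d g) := fun g => rfl
  have ht1K : tK 1 = 2 := by
    show φ (t 1) = 2
    rw [ht1, map_ofNat]
  have htK : ∀ g h, tK (g * h) + (dK h : K) * tK (g * h⁻¹) = tK g * tK h := by
    intro g h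
    show φ (t (g * h)) + (dK h : K) * φ (t (g * h⁻¹)) = φ (t g) * φ (t h)
    rw [hdK, ← map_mul, ← map_add, ← map_mul, ht]
  have hdcK : dK complexConjugation = -1 := by
    apply Units.ext
    rw [hdK, hdc, Units.val_neg, Units.val_one, map_neg, map_one]
  obtain ⟨ρ, n, a, μ, htr, hdet, hent⟩ :=
    h31_rep_of_pseudo h2 tK dK ht1K htK complexConjugation complexConjugation_mul_self hdcK
  -- a common denominator
  obtain ⟨b, hb⟩ := IsLocalization.exist_integer_multiples_of_finite (nonZeroDivisors 𝒪)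
    (fun x : Fin 2 × Fin 2 × Fin n => μ x.1 x.2.1 x.2.2)
  set ϖ : 𝒪 := (b : 𝒪) with hϖdef
  have hϖ : ϖ ≠ 0 := nonZeroDivisors.coe_ne_zero b
  have hφϖ : φ ϖ ≠ 0 := fun h => hϖ (hφ (by rw [h, map_zero]))
  have hm : ∀ i j k, ∃ y : 𝒪, φ y = φ ϖ * μ i j k := by
    intro i j k
    obtain ⟨y, hy⟩ := hb (i, j, k)
    exact ⟨y, by rw [hy, Algebra.smul_def]⟩
  choose m hm using hm
  have hbd : ∀ g i j, ∃ y : 𝒪, algebraMap 𝒪 K ϖ * ρ g i j = algebraMap 𝒪 K y := by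
    intro g i j
    refine ⟨∑ k, m i j k * t (g * a k), ?_⟩
    rw [hent, map_sum, Finset.mul_sum]
    refine Finset.sum_congr rfl fun k _ => ?_
    rw [map_mul, ← mul_assoc]
    show φ ϖ * μ i j k * tK (g * a k) = φ (m i j k) * φ (t (g * a k))
    rw [hm]
  obtain ⟨V, _, _, _, _, r, hrank, hchar, hker, hcontB⟩ := h31_exists_lattice ρ ϖ hϖ hbd
  obtain ⟨v0, hv0⟩ := h31_exists_pow_le hϖ
  have hadic : GaloisActionIsAdicContinuous 𝒪 r := by
    intro k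
    obtain ⟨L, hLfin, hL⟩ := hcont (k + v0)
    refine ⟨L, hLfin, fun σ hσ v => ?_⟩
    apply hcontB σ (IsLocalRing.maximalIdeal 𝒪 ^ k)
    intro h i j
    have hz : ∑ x, m i j x * (t (σ * (h * a x)) - t (h * a x)) ∈
        IsLocalRing.maximalIdeal 𝒪 ^ (k + v0) :=
      Ideal.sum_mem _ fun x _ => Ideal.mul_mem_left _ _ (hL σ hσ (h * a x))
    obtain ⟨y, hy, hyz⟩ := Ideal.mem_span_singleton_mul.mp (hv0 k hz)
    refine ⟨y, hy, ?_⟩
    apply mul_left_cancel₀ hφϖ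
    rw [← map_mul, hyz, map_sum, hent, hent, ← Finset.sum_sub_distrib, Finset.mul_sum]
    refine Finset.sum_congr rfl fun x _ => ?_
    rw [map_mul, map_sub, hm, mul_assoc σ h (a x)]
    show φ ϖ * (μ i j x * φ (t (σ * (h * a x))) - μ i j x * φ (t (h * a x))) = _
    ring
  refine ⟨{ V := V, finrank_eq := hrank, ρ := r, isAdicContinuous := hadic }, ?_, ?_⟩
  · intro σ
    apply Polynomial.map_injective φ hφ
    have h1 := hchar σ
    have h3 := Matrix.charpoly_fin_two (ρ σ)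
    rw [htr, hdet, hdK] at h3
    show (r σ).charpoly.map φ = _
    rw [h1, h3]
    simp only [Polynomial.map_add, Polynomial.map_sub, Polynomial.map_mul, Polynomial.map_pow,
      Polynomial.map_X, Polynomial.map_C]
    rfl
  · intro τ hτ
    show r τ = 1
    apply hker
    rw [← map_one ρ]
    ext i j
    rw [hent, hent]
    refine Finset.sum_congr rfl fun k _ => ?_
    show μ i j k * φ (t (τ * a k)) = μ i j k * φ (t (1 * a k))
    rw [hτ, one_mul]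

/-- The shared strong level predicate implies the one used by `h31_exists_pseudo`. -/
theorem h31_hasLevelA_of_S {p N : ℕ} [NeZero N] {S : Finset ℕ} {Λ : Type} [AddCommGroup Λ]
    {ι : CuspForm.heckeAlgebra N 2 (↑S : Set ℕ) →+* Module.End ℤ Λ} {n : ℕ} (hpS : p ∈ S)
    (h : h65_HasLevelS p N S ι n) : h31_HasLevelA p N S ι n := by
  obtain ⟨M, instM, q, r, tM, hker, htors, hstab, hhecke, hes, hinert, hcomm⟩ := h
  refine ⟨M, instM, q, r, tM, ?_⟩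
  unfold h31_IsLevel
  exact ⟨hker, htors, fun x => hstab (q x), hhecke,
    fun ℓ hℓ hℓN hℓS => hes ℓ hℓ hℓN (fun h => hℓS (by rw [h]; exact Finset.mem_coe.2 hpS)),
    hinert, hcomm⟩

/-- **The S30 endgame.** The frozen statement S30 (for a given Hecke character `χ`) from a
Hecke lattice `(Λ, ι)` with levels (`h31_HasLevelA`) and the weak Chebotarev statement.
The coefficient ring is `𝒪'' := 𝒪'` itself. -/
theorem h31_S30_of_levelsA (p : ℕ) [Fact p.Prime] (N : ℕ) [NeZero N] (S : Finset ℕ)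
    (hpS : p ∈ S) (hNS : ∀ q : ℕ, q.Prime → q ∣ N → q ∈ S)
    (𝒪' : Type) [CommRing 𝒪'] [IsDomain 𝒪'] [IsDiscreteValuationRing 𝒪']
    [IsAdicComplete (IsLocalRing.maximalIdeal 𝒪') 𝒪'] [Finite (IsLocalRing.ResidueField 𝒪')]
    [CharZero 𝒪'] (hp𝒪' : (p : 𝒪') ∈ IsLocalRing.maximalIdeal 𝒪')
    (χ : CuspForm.heckeAlgebra N 2 (↑S : Set ℕ) →+* 𝒪')
    {Λ : Type} [AddCommGroup Λ] [Module.Free ℤ Λ] [Module.Finite ℤ Λ]
    (ι : CuspForm.heckeAlgebra N 2 (↑S : Set ℕ) →+* Module.End ℤ Λ)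
    (hι : Function.Injective ι)
    (hlev : ∀ n : ℕ, h31_HasLevelA p N S ι n) (hcheb : h65_WCheb) :
    ∃ (𝒪'' : Type) (_ : CommRing 𝒪'') (_ : IsDomain 𝒪'') (_ : IsDiscreteValuationRing 𝒪'')
      (_ : IsAdicComplete (IsLocalRing.maximalIdeal 𝒪'') 𝒪'')
      (_ : Finite (IsLocalRing.ResidueField 𝒪'')) (_ : CharZero 𝒪'')
      (_ : Algebra 𝒪' 𝒪'') (_ : Module.Finite 𝒪' 𝒪'') (_ : IsLocalHom (algebraMap 𝒪' 𝒪'')),
    Function.Injective (algebraMap 𝒪' 𝒪'') ∧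
    ∃ ρ : GaloisRepAdic 𝒪'',
      (∀ (ℓ : ℕ) (hℓ : ℓ.Prime) (hℓN : ¬ ℓ ∣ N) (hℓS : ℓ ∉ (↑S : Set ℕ)),
        ∀ A : ValuationSubring (AlgebraicClosure ℚ), A.LiesOverPrime ℓ →
          ∀ σ : AlgebraicClosure ℚ ≃ₐ[ℚ] AlgebraicClosure ℚ, A.IsFrobeniusAt σ ℓ →
            LinearMap.charpoly (ρ.ρ σ) =
              X ^ 2 - C (algebraMap 𝒪' 𝒪'' (χ (CuspForm.heckeAlgebra.T hℓ hℓN hℓS))) * X
                + C ((ℓ : 𝒪''))) ∧
      (∀ q : ℕ, q.Prime → ¬ q ∣ N → q ≠ p → ρ.IsUnramifiedAt q) := by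
  obtain ⟨t, d, ht1, ht, hdc, hfrob, hinert, hcont⟩ :=
    h31_exists_pseudo (Fact.out : p.Prime) hpS hNS (IsLocalRing.maximalIdeal 𝒪') hp𝒪' χ ι hι
      hlev hcheb
  obtain ⟨ρ, hchar, hker⟩ := h31_adicRep_of_pseudo t d ht1 ht hdc hcont
  refine ⟨𝒪', inferInstance, inferInstance, inferInstance, inferInstance, inferInstance,
    inferInstance, Algebra.id 𝒪', inferInstance, ?_, Function.injective_id, ρ, ?_, ?_⟩
  · exact ⟨fun a ha => ha⟩
  · intro ℓ hℓ hℓN hℓS A hA σ hσ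
    obtain ⟨h1, h2⟩ := hfrob ℓ hℓ hℓN hℓS A hA σ hσ
    rw [hchar σ, h1, h2]
    rfl
  · intro q hq hqN hqp P hP τ hτ
    exact hker τ (fun g => hinert q hq hqN hqp P hP τ hτ g)

/-- **The S30 endgame**, with the shared strong level predicate `h65_HasLevelS`. -/
theorem h31_S30_of_levels (p : ℕ) [Fact p.Prime] (N : ℕ) [NeZero N] (S : Finset ℕ)
    (hpS : p ∈ S) (hNS : ∀ q : ℕ, q.Prime → q ∣ N → q ∈ S)
    (𝒪' : Type) [CommRing 𝒪'] [IsDomain 𝒪'] [IsDiscreteValuationRing 𝒪']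
    [IsAdicComplete (IsLocalRing.maximalIdeal 𝒪') 𝒪'] [Finite (IsLocalRing.ResidueField 𝒪')]
    [CharZero 𝒪'] (hp𝒪' : (p : 𝒪') ∈ IsLocalRing.maximalIdeal 𝒪')
    (χ : CuspForm.heckeAlgebra N 2 (↑S : Set ℕ) →+* 𝒪')
    {Λ : Type} [AddCommGroup Λ] [Module.Free ℤ Λ] [Module.Finite ℤ Λ]
    (ι : CuspForm.heckeAlgebra N 2 (↑S : Set ℕ) →+* Module.End ℤ Λ)
    (hι : Function.Injective ι)
    (hlev : ∀ n : ℕ, h65_HasLevelS p N S ι n) (hcheb : h65_WCheb) :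
    ∃ (𝒪'' : Type) (_ : CommRing 𝒪'') (_ : IsDomain 𝒪'') (_ : IsDiscreteValuationRing 𝒪'')
      (_ : IsAdicComplete (IsLocalRing.maximalIdeal 𝒪'') 𝒪'')
      (_ : Finite (IsLocalRing.ResidueField 𝒪'')) (_ : CharZero 𝒪'')
      (_ : Algebra 𝒪' 𝒪'') (_ : Module.Finite 𝒪' 𝒪'') (_ : IsLocalHom (algebraMap 𝒪' 𝒪'')),
    Function.Injective (algebraMap 𝒪' 𝒪'') ∧
    ∃ ρ : GaloisRepAdic 𝒪'',
      (∀ (ℓ : ℕ) (hℓ : ℓ.Prime) (hℓN : ¬ ℓ ∣ N) (hℓS : ℓ ∉ (↑S : Set ℕ)),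
        ∀ A : ValuationSubring (AlgebraicClosure ℚ), A.LiesOverPrime ℓ →
          ∀ σ : AlgebraicClosure ℚ ≃ₐ[ℚ] AlgebraicClosure ℚ, A.IsFrobeniusAt σ ℓ →
            LinearMap.charpoly (ρ.ρ σ) =
              X ^ 2 - C (algebraMap 𝒪' 𝒪'' (χ (CuspForm.heckeAlgebra.T hℓ hℓN hℓS))) * X
                + C ((ℓ : 𝒪''))) ∧
      (∀ q : ℕ, q.Prime → ¬ q ∣ N → q ≠ p → ρ.IsUnramifiedAt q) :=
  h31_S30_of_levelsA p N S hpS hNS 𝒪' hp𝒪' χ ι hι (fun n => h31_hasLevelA_of_S hpS (hlev n)) hcheb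

end Fermat.Agent.GAL
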