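import Mathlib
import Fermat.Prelude.Def_CuspForm_HeckeAlgebra
import Fermat.Prelude.Def_ModularCurve_PeriodHomPair
import Fermat.Agent.S21
import Fermat.Agent.S16.h30_PerHecke
import Fermat.Agent.S22.h61_Glue

/-!
# GAL (S31): the Hecke lattice

`Λ = h65_Lam N` is the lattice of parabolic homomorphisms `Γ₀(N) → ℤ`. It is a finite free
`ℤ`-module, stable under the group-side Hecke operators `h30_heckeT`, and the Hecke algebra
`heckeAlgebra N 2 S` (`S` containing the primes dividing `N`) acts faithfully on it: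
`h65_exists_iota`.
-/

set_option autoImplicit false
set_option linter.unusedSectionVars false

open CongruenceSubgroup ModularCurve ModularCurve.Period
open scoped MatrixGroups

namespace Fermat.Agent.GAL

open Fermat.Agent.S16

section finite

variable (N : ℕ) [NeZero N]

/-- The Hecke lattice: parabolic homomorphisms `Γ₀(N) → ℤ`. -/
abbrev h65_Lam : Type := ↥(parabolicHoms ℤ (Gamma0 N) ℤ)

theorem h65_hom_finite : Module.Finite ℤ (Additive (Gamma0 N) →+ ℤ) := by
  classical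
  obtain ⟨S, hS, hSfin⟩ := Group.fg_iff.mp (Fermat.Agent.S22.h61_Gamma0_fg N)
  have : Fintype ↥S := hSfin.fintype
  let ev : (Additive (Gamma0 N) →+ ℤ) →ₗ[ℤ] (↥S → ℤ) :=
    { toFun := fun φ s => φ (Additive.ofMul (s : Gamma0 N))
      map_add' := fun _ _ => rfl
      map_smul' := fun _ _ => rfl }
  have hinj : Function.Injective ev := by
    intro φ ψ h
    let K : Subgroup (Gamma0 N) :=
      { carrier := {γ | φ (Additive.ofMul γ) = ψ (Additive.ofMul γ)}
        mul_mem' := by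
          intro a b ha hb
          show φ (Additive.ofMul (a * b)) = ψ (Additive.ofMul (a * b))
          rw [ofMul_mul, map_add, map_add, ha, hb]
        one_mem' := by
          show φ (Additive.ofMul 1) = ψ (Additive.ofMul 1)
          rw [ofMul_one, map_zero, map_zero]
        inv_mem' := by
          intro a ha
          show φ (Additive.ofMul a⁻¹) = ψ (Additive.ofMul a⁻¹)
          rw [ofMul_inv, map_neg, map_neg, ha] }
    have hK : K = ⊤ := by
      rw [eq_top_iff, ← hS, Subgroup.closure_le]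
      intro s hs
      exact congrFun h ⟨s, hs⟩
    refine AddMonoidHom.ext fun γ => ?_
    have : Additive.toMul γ ∈ K := by rw [hK]; exact Subgroup.mem_top _
    exact this
  exact Module.Finite.of_injective ev hinj

instance h65_Lam_finite : Module.Finite ℤ (h65_Lam N) := by
  have := h65_hom_finite N
  infer_instance

instance h65_Lam_torsionFree : IsAddTorsionFree (h65_Lam N) where
  nsmul_right_injective n hn a b hab := by
    apply Subtype.ext
    refine AddMonoidHom.ext fun γ => ?_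
    have h := congrArg (fun φ : h65_Lam N => (φ : Additive (Gamma0 N) →+ ℤ) γ) hab
    have h' : n • (a : Additive (Gamma0 N) →+ ℤ) γ = n • (b : Additive (Gamma0 N) →+ ℤ) γ := h
    rw [nsmul_eq_mul, nsmul_eq_mul] at h'
    exact mul_left_cancel₀ (Nat.cast_ne_zero.mpr hn) h'

instance h65_Lam_free : Module.Free ℤ (h65_Lam N) := by
  infer_instance

end finite

section hecke

variable {N : ℕ} [NeZero N]

/-- The group-side Hecke operator preserves complex parabolic homomorphisms. -/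
theorem h65_par_C (ℓ : ℕ) [Fact ℓ.Prime] (hℓN : ¬ ℓ ∣ N) {ψ : Additive (Gamma0 N) →+ ℂ}
    (hψ : ψ ∈ parabolicHoms ℂ (Gamma0 N) ℂ) :
    h30_heckeT N ℓ hℓN ψ ∈ parabolicHoms ℂ (Gamma0 N) ℂ := by
  rw [← (Fermat.Agent.S21.result N).2] at hψ ⊢
  obtain ⟨⟨f, g⟩, rfl⟩ := hψ
  exact ⟨_, h30_periodHomPair_heckeT ℓ hℓN f g⟩

omit [NeZero N] in
theorem h65_cast_par {φ : Additive (Gamma0 N) →+ ℤ} :
    (Int.castAddHom ℂ).comp φ ∈ parabolicHoms ℂ (Gamma0 N) ℂ ↔
      φ ∈ parabolicHoms ℤ (Gamma0 N) ℤ := by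
  constructor
  · intro h γ hγ
    have h1 : ((φ (Additive.ofMul γ) : ℤ) : ℂ) = 0 := h γ hγ
    exact_mod_cast h1
  · intro h γ hγ
    show ((φ (Additive.ofMul γ) : ℤ) : ℂ) = 0
    rw [h γ hγ, Int.cast_zero]

/-- The group-side Hecke operator preserves integral parabolic homomorphisms. -/
theorem h65_par_Z (ℓ : ℕ) [Fact ℓ.Prime] (hℓN : ¬ ℓ ∣ N) {φ : Additive (Gamma0 N) →+ ℤ}
    (hφ : φ ∈ parabolicHoms ℤ (Gamma0 N) ℤ) :
    h30_heckeT N ℓ hℓN φ ∈ parabolicHoms ℤ (Gamma0 N) ℤ := by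
  rw [← h65_cast_par, ← h30_heckeT_comp]
  exact h65_par_C ℓ hℓN (h65_cast_par.mpr hφ)

/-- `T_ℓ` on the Hecke lattice. -/
noncomputable def h65_TLam (ℓ : ℕ) [Fact ℓ.Prime] (hℓN : ¬ ℓ ∣ N) : Module.End ℤ (h65_Lam N) :=
  ((h30_heckeT N ℓ hℓN (A := ℤ)).toIntLinearMap).restrict (fun _ hφ => h65_par_Z ℓ hℓN hφ)

theorem h65_TLam_coe (ℓ : ℕ) [Fact ℓ.Prime] (hℓN : ¬ ℓ ∣ N) (φ : h65_Lam N) :
    ((h65_TLam ℓ hℓN φ : h65_Lam N) : Additive (Gamma0 N) →+ ℤ) =
      h30_heckeT N ℓ hℓN (φ : Additive (Gamma0 N) →+ ℤ) := rfl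

variable (N)

/-- The complex period isomorphism of S21. -/
noncomputable def h65_E : (CuspForm (Gamma0 N) 2 × CuspForm (Gamma0 N) 2) ≃ₗ[ℂ]
    ↥(parabolicHoms ℂ (Gamma0 N) ℂ) :=
  (LinearEquiv.ofInjective (periodHomPair N) (Fermat.Agent.S21.result N).1).trans
    (LinearEquiv.ofEq _ _ (Fermat.Agent.S21.result N).2)

theorem h65_E_coe (x : CuspForm (Gamma0 N) 2 × CuspForm (Gamma0 N) 2) :
    ((h65_E N x : ↥(parabolicHoms ℂ (Gamma0 N) ℂ)) : Additive (Gamma0 N) →+ ℂ) =
      periodHomPair N x := rfl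

/-- Endomorphisms of cusp forms act on the complex parabolic homomorphisms. -/
noncomputable def h65_PhiC : Module.End ℂ (CuspForm (Gamma0 N) 2) →+*
    Module.End ℂ ↥(parabolicHoms ℂ (Gamma0 N) ℂ) :=
  ((h65_E N).conjRingEquiv : _ ≃+* _).toRingHom.comp
    ((LinearMap.prodMapRingHom ℂ (CuspForm (Gamma0 N) 2) (CuspForm (Gamma0 N) 2)).comp
      (RingHom.prod (RingHom.id _) (RingHom.id _)))

theorem h65_PhiC_apply (t : Module.End ℂ (CuspForm (Gamma0 N) 2))
    (f g : CuspForm (Gamma0 N) 2) :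
    h65_PhiC N t (h65_E N (f, g)) = h65_E N (t f, t g) := by
  show (h65_E N) ((t.prodMap t) ((h65_E N).symm (h65_E N (f, g)))) = _
  rw [LinearEquiv.symm_apply_apply]
  rfl

theorem h65_PhiC_injective : Function.Injective (h65_PhiC N) := by
  intro t t' h
  refine LinearMap.ext fun f => ?_
  have h1 := congrArg (fun x : Module.End ℂ ↥(parabolicHoms ℂ (Gamma0 N) ℂ) =>
    x (h65_E N (f, 0))) h
  simp only [h65_PhiC_apply] at h1
  have h2 := (h65_E N).injective h1
  exact congrArg Prod.fst h2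

/-- The lattice inside the complex parabolic homomorphisms. -/
noncomputable def h65_j : h65_Lam N →+ ↥(parabolicHoms ℂ (Gamma0 N) ℂ) where
  toFun φ := ⟨(Int.castAddHom ℂ).comp (φ : Additive (Gamma0 N) →+ ℤ), h65_cast_par.mpr φ.2⟩
  map_zero' := by
    apply Subtype.ext
    refine AddMonoidHom.ext fun γ => ?_
    simp
  map_add' φ ψ := by
    apply Subtype.ext
    refine AddMonoidHom.ext fun γ => ?_
    simp

theorem h65_j_apply (φ : h65_Lam N) (γ : Additive (Gamma0 N)) :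
    ((h65_j N φ : ↥(parabolicHoms ℂ (Gamma0 N) ℂ)) : Additive (Gamma0 N) →+ ℂ) γ =
      (((φ : Additive (Gamma0 N) →+ ℤ) γ : ℤ) : ℂ) := rfl

theorem h65_j_injective : Function.Injective (h65_j N) := by
  intro φ ψ h
  apply Subtype.ext
  refine AddMonoidHom.ext fun γ => ?_
  have h1 := congrArg (fun x : ↥(parabolicHoms ℂ (Gamma0 N) ℂ) =>
    (x : Additive (Gamma0 N) →+ ℂ) γ) h
  simp only [h65_j_apply] at h1
  exact_mod_cast h1

/-- `Φ(T_ℓ)` is the group-side Hecke operator on the lattice. -/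
theorem h65_PhiC_T {ℓ : ℕ} [Fact ℓ.Prime] (hℓ : ℓ.Prime) (hℓN : ¬ ℓ ∣ N) (φ : h65_Lam N) :
    h65_PhiC N (CuspForm.heckeTLin 2 hℓ hℓN) (h65_j N φ) = h65_j N (h65_TLam ℓ hℓN φ) := by
  obtain ⟨⟨f, g⟩, hfg⟩ := (h65_E N).surjective (h65_j N φ)
  rw [← hfg, h65_PhiC_apply]
  apply Subtype.ext
  rw [h65_E_coe]
  have h1 := h30_periodHomPair_heckeT ℓ hℓN f g
  rw [h1, ← h65_E_coe, hfg]
  show h30_heckeT N ℓ hℓN ((Int.castAddHom ℂ).comp (φ : Additive (Gamma0 N) →+ ℤ)) =
    (Int.castAddHom ℂ).comp (h30_heckeT N ℓ hℓN (φ : Additive (Gamma0 N) →+ ℤ))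
  rw [h30_heckeT_comp]

/-- Integral parabolic homomorphisms span the complex ones. -/
theorem h65_span_j : Submodule.span ℂ (Set.range (h65_j N)) = ⊤ := by
  classical
  rw [eq_top_iff]
  rintro ψ -
  have hfgΓ : Group.FG (Gamma0 N) := Fermat.Agent.S22.h61_Gamma0_fg N
  let ψ₀ : Additive (Gamma0 N) →+ ℂ := (ψ : Additive (Gamma0 N) →+ ℂ)
  let A : AddSubgroup ℂ := ψ₀.range
  have hAfg : AddGroup.FG ↥A := AddGroup.fg_range ψ₀
  have hAfin : Module.Finite ℤ ↥A := Module.Finite.iff_addGroup_fg.mpr hAfg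
  have hAtf : IsAddTorsionFree ↥A :=
    { nsmul_right_injective := by
        intro n hn a b hab
        apply Subtype.ext
        have h := congrArg (fun x : ↥A => (x : ℂ)) hab
        have h' : n • (a : ℂ) = n • (b : ℂ) := h
        rw [nsmul_eq_mul, nsmul_eq_mul] at h'
        exact mul_left_cancel₀ (Nat.cast_ne_zero.mpr hn) h' }
  have hAfree : Module.Free ℤ ↥A := inferInstance
  let b := Module.Free.chooseBasis ℤ ↥A
  let ψ' : Additive (Gamma0 N) →+ ↥A := ψ₀.rangeRestrict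
  let φ : Module.Free.ChooseBasisIndex ℤ ↥A → (Additive (Gamma0 N) →+ ℤ) := fun i =>
    (b.coord i).toAddMonoidHom.comp ψ'
  have hφ : ∀ i, φ i ∈ parabolicHoms ℤ (Gamma0 N) ℤ := by
    intro i γ hγ
    have h0 : ψ₀ (Additive.ofMul γ) = 0 := ψ.2 γ hγ
    have h1 : ψ' (Additive.ofMul γ) = 0 := Subtype.ext h0
    show b.coord i (ψ' (Additive.ofMul γ)) = 0
    rw [h1, map_zero]
  have key : ψ = ∑ i, ((b i : ↥A) : ℂ) • h65_j N ⟨φ i, hφ i⟩ := by
    apply Subtype.ext
    refine AddMonoidHom.ext fun γ => ?_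
    rw [Submodule.coe_sum, AddMonoidHom.finsetSum_apply]
    have h1 : ψ' γ = ∑ i, b.repr (ψ' γ) i • b i := (b.sum_repr (ψ' γ)).symm
    have h2 : ψ₀ γ = ((ψ' γ : ↥A) : ℂ) := rfl
    show ψ₀ γ = _
    rw [h2, h1, AddSubgroup.val_finsetSum]
    refine Finset.sum_congr rfl fun i _ => ?_
    show ((b.repr (ψ' γ) i • b i : ↥A) : ℂ) = ((b i : ↥A) : ℂ) * (((φ i) γ : ℤ) : ℂ)
    rw [AddSubgroup.coe_zsmul, zsmul_eq_mul, mul_comm]
    rfl
  rw [key]
  exact Submodule.sum_mem _ fun i _ =>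
    Submodule.smul_mem _ _ (Submodule.subset_span ⟨_, rfl⟩)

/-- The subring of endomorphisms of the complex parabolic homomorphisms preserving the
lattice. -/
noncomputable def h65_R0 : Subring (Module.End ℂ ↥(parabolicHoms ℂ (Gamma0 N) ℂ)) where
  carrier := {x | ∀ φ : h65_Lam N, ∃ φ' : h65_Lam N, x (h65_j N φ) = h65_j N φ'}
  mul_mem' := by
    intro x y hx hy φ
    obtain ⟨φ', h1⟩ := hy φ
    obtain ⟨φ'', h2⟩ := hx φ'
    exact ⟨φ'', by rw [Module.End.mul_apply, h1, h2]⟩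
  one_mem' := fun φ => ⟨φ, rfl⟩
  add_mem' := by
    intro x y hx hy φ
    obtain ⟨φ', h1⟩ := hx φ
    obtain ⟨φ'', h2⟩ := hy φ
    exact ⟨φ' + φ'', by rw [LinearMap.add_apply, h1, h2, map_add]⟩
  zero_mem' := fun φ => ⟨0, by rw [LinearMap.zero_apply, map_zero]⟩
  neg_mem' := by
    intro x hx φ
    obtain ⟨φ', h1⟩ := hx φ
    exact ⟨-φ', by rw [LinearMap.neg_apply, h1, map_neg]⟩

/-- Restriction of a lattice-preserving endomorphism to the lattice, as a function. -/
noncomputable def h65_resFun (x : h65_R0 N) (φ : h65_Lam N) : h65_Lam N :=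
  Classical.choose (x.2 φ)

theorem h65_resFun_spec (x : h65_R0 N) (φ : h65_Lam N) :
    h65_j N (h65_resFun N x φ) = (x : Module.End ℂ ↥(parabolicHoms ℂ (Gamma0 N) ℂ))
      (h65_j N φ) :=
  (Classical.choose_spec (x.2 φ)).symm

/-- Restriction of lattice-preserving endomorphisms to the lattice. -/
noncomputable def h65_res : h65_R0 N →+* Module.End ℤ (h65_Lam N) where
  toFun x := AddMonoidHom.toIntLinearMap
    { toFun := h65_resFun N x
      map_zero' := by
        apply h65_j_injective N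
        rw [h65_resFun_spec, map_zero, map_zero]
      map_add' := fun φ ψ => by
        apply h65_j_injective N
        rw [h65_resFun_spec, map_add, map_add, map_add, h65_resFun_spec, h65_resFun_spec] }
  map_one' := by
    refine LinearMap.ext fun φ => ?_
    apply h65_j_injective N
    show h65_j N (h65_resFun N 1 φ) = _
    rw [h65_resFun_spec]
    rfl
  map_mul' x y := by
    refine LinearMap.ext fun φ => ?_
    apply h65_j_injective N
    show h65_j N (h65_resFun N (x * y) φ) = h65_j N (h65_resFun N x (h65_resFun N y φ))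
    rw [h65_resFun_spec, h65_resFun_spec, h65_resFun_spec]
    rfl
  map_zero' := by
    refine LinearMap.ext fun φ => ?_
    apply h65_j_injective N
    show h65_j N (h65_resFun N 0 φ) = h65_j N 0
    rw [h65_resFun_spec, map_zero]
    rfl
  map_add' x y := by
    refine LinearMap.ext fun φ => ?_
    apply h65_j_injective N
    show h65_j N (h65_resFun N (x + y) φ) = h65_j N (h65_resFun N x φ + h65_resFun N y φ)
    rw [h65_resFun_spec, map_add, h65_resFun_spec, h65_resFun_spec]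
    rfl

theorem h65_res_spec (x : h65_R0 N) (φ : h65_Lam N) :
    h65_j N (h65_res N x φ) = (x : Module.End ℂ ↥(parabolicHoms ℂ (Gamma0 N) ℂ))
      (h65_j N φ) :=
  h65_resFun_spec N x φ

end hecke

section iota

variable (N : ℕ) [NeZero N] (S : Set ℕ)

/-- The inclusion of the Hecke algebra into the endomorphisms of cusp forms. -/
noncomputable def h65_val :
    CuspForm.heckeAlgebra N 2 S →+* Module.End ℂ (CuspForm (Gamma0 N) 2) where
  toFun t := t.1
  map_one' := rfl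
  map_mul' _ _ := rfl
  map_zero' := rfl
  map_add' _ _ := rfl

theorem h65_mem_R0 (hNS : ∀ q : ℕ, q.Prime → q ∣ N → q ∈ S) (t : CuspForm.heckeAlgebra N 2 S) :
    h65_PhiC N (h65_val N S t) ∈ h65_R0 N := by
  obtain ⟨t, ht⟩ := t
  show h65_PhiC N t ∈ h65_R0 N
  induction ht using Algebra.adjoin_induction with
  | mem x hx =>
    rcases hx with ⟨ℓ, hℓ, hℓN, hℓS, rfl⟩ | ⟨q, hqN, hq, hqS, rfl⟩
    · intro φ
      have : Fact ℓ.Prime := ⟨hℓ⟩
      exact ⟨h65_TLam ℓ hℓN φ, h65_PhiC_T N hℓ hℓN φ⟩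
    · exact absurd (hNS q hq hqN) hqS
  | algebraMap r =>
    rw [eq_intCast, map_intCast]
    exact intCast_mem _ r
  | add x y _ _ hx hy =>
    rw [map_add]
    exact (h65_R0 N).add_mem hx hy
  | mul x y _ _ hx hy =>
    rw [map_mul]
    exact (h65_R0 N).mul_mem hx hy

/-- The Hecke algebra acts on the Hecke lattice. -/
noncomputable def h65_iota (hNS : ∀ q : ℕ, q.Prime → q ∣ N → q ∈ S) :
    CuspForm.heckeAlgebra N 2 S →+* Module.End ℤ (h65_Lam N) :=
  (h65_res N).comp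
    (((h65_PhiC N).comp (h65_val N S)).codRestrict (h65_R0 N) (h65_mem_R0 N S hNS))

theorem h65_iota_spec (hNS : ∀ q : ℕ, q.Prime → q ∣ N → q ∈ S)
    (t : CuspForm.heckeAlgebra N 2 S) (φ : h65_Lam N) :
    h65_j N (h65_iota N S hNS t φ) = h65_PhiC N t.1 (h65_j N φ) :=
  h65_res_spec N _ φ

/-- `ι (T_ℓ)` is the group-side Hecke operator. -/
theorem h65_iota_T (hNS : ∀ q : ℕ, q.Prime → q ∣ N → q ∈ S) {ℓ : ℕ} [Fact ℓ.Prime]
    (hℓ : ℓ.Prime) (hℓN : ¬ ℓ ∣ N) (hℓS : ℓ ∉ S) (φ : h65_Lam N) :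
    h65_iota N S hNS (CuspForm.heckeAlgebra.T hℓ hℓN hℓS) φ = h65_TLam ℓ hℓN φ := by
  apply h65_j_injective N
  rw [h65_iota_spec]
  exact h65_PhiC_T N hℓ hℓN φ

theorem h65_iota_T_coe (hNS : ∀ q : ℕ, q.Prime → q ∣ N → q ∈ S) {ℓ : ℕ} [Fact ℓ.Prime]
    (hℓ : ℓ.Prime) (hℓN : ¬ ℓ ∣ N) (hℓS : ℓ ∉ S) (φ : h65_Lam N) :
    ((h65_iota N S hNS (CuspForm.heckeAlgebra.T hℓ hℓN hℓS) φ : h65_Lam N) :
      Additive (Gamma0 N) →+ ℤ) = h30_heckeT N ℓ hℓN (φ : Additive (Gamma0 N) →+ ℤ) := by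
  rw [h65_iota_T]
  rfl

/-- The Hecke algebra acts faithfully on the Hecke lattice. -/
theorem h65_iota_injective (hNS : ∀ q : ℕ, q.Prime → q ∣ N → q ∈ S) :
    Function.Injective (h65_iota N S hNS) := by
  rw [injective_iff_map_eq_zero]
  intro d hd
  have h0 : ∀ φ : h65_Lam N, h65_PhiC N d.1 (h65_j N φ) = 0 := by
    intro φ
    rw [← h65_iota_spec N S hNS, hd, LinearMap.zero_apply, map_zero]
  have h1' : ∀ ψ : ↥(parabolicHoms ℂ (Gamma0 N) ℂ), h65_PhiC N d.1 ψ = 0 := by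
    intro ψ
    have hψ : ψ ∈ Submodule.span ℂ (Set.range (h65_j N)) := by
      rw [h65_span_j]
      exact Submodule.mem_top
    induction hψ using Submodule.span_induction with
    | mem x hx =>
      obtain ⟨φ, rfl⟩ := hx
      exact h0 φ
    | zero => rw [map_zero]
    | add x y _ _ hx hy => rw [map_add, hx, hy, add_zero]
    | smul c x _ hx => rw [map_smul, hx, smul_zero]
  have h1 : h65_PhiC N d.1 = 0 := LinearMap.ext fun ψ => by
    rw [h1', LinearMap.zero_apply]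
  have h2 : d.1 = 0 := h65_PhiC_injective N (by rw [h1, map_zero])
  exact Subtype.ext h2

end iota

end Fermat.Agent.GAL
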