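import Mathlib
import Fermat.Agent.GAL.h29_Iface
import Fermat.Agent.GAL.h65_Lattice
import Fermat.Agent.GAL.h65_S31Core2
import Fermat.Agent.GAL.h67_GalHecke
import Fermat.Agent.S37.h87_Assembly
import Fermat.Agent.GAL.WCheb

/-!
# GAL: the weak levels of the S31 endgame from the interfaces

* `h65_levels` : for every `n`, the weak level `h65_HasLevelW p N S ι n` on the Hecke lattice
  `Λ = h65_Lam N` (parabolic homomorphisms `Γ₀(N) → ℤ`), with `M = J₀(N)[p ^ n]`, from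
  - the interface THETA `gal_ThetaProp N (p ^ n)` (an injective Hecke-equivariant map
    `gal_Hpe N (p ^ n) → J₀(N)(ℚ̄)`),
  - the reduction interface `h87_RedData` of S37 (inertia / Frobenius / Eichler–Shimura),
  - the open stabilisers of torsion points (`h67_torsion_stabiliser`);
* `h65_wcheb` : the weak Chebotarev statement, from `gal_weak_chebotarev`;
* `h65_S31_of_theta` : the frozen statement S31 from THETA (all `p ^ n`) and the reduction
  interface.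
-/

set_option autoImplicit false

open CongruenceSubgroup ModularCurve ModularCurve.Period

namespace Fermat.Agent.GAL

open Fermat.Agent.S16

section formal

variable {G J Jbar : Type*} [Group G] [AddCommGroup J] [DistribMulAction G J] [AddCommGroup Jbar]

theorem h65_nsmul_smul (σ : G) (n : ℕ) (x : J) : n • (σ • x) = σ • (n • x) :=
  (map_nsmul (DistribSMul.toAddMonoidHom J σ) n x).symm

/-- Formal (UNR) on `p ^ n`-torsion. -/
theorem h65_red_unr_core (p : ℕ) (red : J →+ Jbar)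
    (hinj : ∀ x : J, (∃ n : ℕ, p ^ n • x = 0) → red x = 0 → x = 0)
    (σ : G) (hσ : ∀ x : J, red (σ • x) = red x) (n : ℕ) (x : J) (hx : p ^ n • x = 0) :
    σ • x = x := by
  have hy : p ^ n • (σ • x - x) = 0 := by
    rw [smul_sub, h65_nsmul_smul, hx, smul_zero, sub_zero]
  have hr : red (σ • x - x) = 0 := by
    rw [map_sub, hσ x, sub_self]
  exact sub_eq_zero.1 (hinj _ ⟨n, hy⟩ hr)

/-- Formal (ES) on `p ^ n`-torsion. -/
theorem h65_red_es_core (p ℓ : ℕ) (red : J →+ Jbar) (φ : Jbar ≃+ Jbar)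
    (hinj : ∀ x : J, (∃ n : ℕ, p ^ n • x = 0) → red x = 0 → x = 0)
    (σ : G) (hσ : ∀ x : J, red (σ • x) = φ (red x))
    (T : J →+ J) (hT : ∀ x : J, red (T x) = φ (red x) + ℓ • φ.symm (red x))
    (n : ℕ) (x : J) (hx : p ^ n • x = 0) : σ • σ • x + ℓ • x = T (σ • x) := by
  have hσx : p ^ n • (σ • x) = 0 := by
    rw [h65_nsmul_smul, hx, smul_zero]
  have hy : p ^ n • (σ • σ • x + ℓ • x - T (σ • x)) = 0 := by
    rw [smul_sub, smul_add, h65_nsmul_smul σ (p ^ n) (σ • x), hσx, smul_zero, ← map_nsmul, hσx,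
      map_zero, smul_comm (p ^ n) ℓ x, hx, smul_zero, sub_zero, add_zero]
  have hr : red (σ • σ • x + ℓ • x - T (σ • x)) = 0 := by
    rw [map_sub, map_add, hσ (σ • x), hT (σ • x), hσ x, map_nsmul, AddEquiv.symm_apply_apply]
    abel
  exact sub_eq_zero.1 (hinj _ ⟨n, hy⟩ hr)

end formal

section tors

variable (G J : Type*) [Group G] [AddCommGroup J] [DistribMulAction G J]

/-- The `m`-torsion subgroup. -/
def h65_tors (m : ℕ) : AddSubgroup J where
  carrier := {x | m • x = 0}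
  zero_mem' := smul_zero m
  add_mem' := by
    intro a b ha hb
    show m • (a + b) = 0
    rw [smul_add, ha, hb, add_zero]
  neg_mem' := by
    intro a ha
    show m • (-a) = 0
    rw [smul_neg, ha, neg_zero]

theorem h65_mem_tors (m : ℕ) (x : J) : x ∈ h65_tors J m ↔ m • x = 0 := Iff.rfl

/-- The group action on the `m`-torsion. -/
def h65_torsRep (m : ℕ) : G →* AddMonoid.End ↥(h65_tors J m) where
  toFun σ :=
    { toFun := fun x => ⟨σ • (x : J), by
        show m • (σ • (x : J)) = 0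
        rw [h65_nsmul_smul, x.2, smul_zero]⟩
      map_zero' := by
        apply Subtype.ext
        show σ • ((0 : ↥(h65_tors J m)) : J) = 0
        rw [AddSubgroup.coe_zero, smul_zero]
      map_add' := fun x y => by
        apply Subtype.ext
        show σ • ((x + y : ↥(h65_tors J m)) : J) = σ • (x : J) + σ • (y : J)
        rw [AddSubgroup.coe_add, smul_add] }
  map_one' := by
    apply AddMonoidHom.ext
    intro x
    apply Subtype.ext
    show (1 : G) • (x : J) = x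
    rw [one_smul]
  map_mul' σ τ := by
    apply AddMonoidHom.ext
    intro x
    apply Subtype.ext
    show (σ * τ) • (x : J) = σ • τ • (x : J)
    rw [mul_smul]

theorem h65_torsRep_coe (m : ℕ) (σ : G) (x : ↥(h65_tors J m)) :
    ((h65_torsRep G J m σ x : ↥(h65_tors J m)) : J) = σ • (x : J) := rfl

variable {J}

/-- An endomorphism restricted to the `m`-torsion. -/
def h65_torsEnd (m : ℕ) (T : J →+ J) : ↥(h65_tors J m) →+ ↥(h65_tors J m) where
  toFun x := ⟨T (x : J), by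
    show m • T (x : J) = 0
    rw [← map_nsmul, x.2, map_zero]⟩
  map_zero' := by
    apply Subtype.ext
    show T ((0 : ↥(h65_tors J m)) : J) = 0
    rw [AddSubgroup.coe_zero, map_zero]
  map_add' x y := by
    apply Subtype.ext
    show T ((x + y : ↥(h65_tors J m)) : J) = T (x : J) + T (y : J)
    rw [AddSubgroup.coe_add, map_add]

theorem h65_torsEnd_coe (m : ℕ) (T : J →+ J) (x : ↥(h65_tors J m)) :
    ((h65_torsEnd m T x : ↥(h65_tors J m)) : J) = T (x : J) := rfl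

/-- The weak level axioms on the torsion, formal version: Eichler–Shimura. -/
theorem h65_tors_es {Jbar : Type*} [AddCommGroup Jbar] (p ℓ : ℕ) (red : J →+ Jbar)
    (φ : Jbar ≃+ Jbar)
    (hinj : ∀ x : J, (∃ n : ℕ, p ^ n • x = 0) → red x = 0 → x = 0)
    (σ : G) (hσ : ∀ x : J, red (σ • x) = φ (red x))
    (T : J →+ J) (hT : ∀ x : J, red (T x) = φ (red x) + ℓ • φ.symm (red x))
    (n : ℕ) (m : ↥(h65_tors J (p ^ n))) :
    h65_torsRep G J (p ^ n) σ (h65_torsRep G J (p ^ n) σ m) + ℓ • m =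
      h65_torsEnd (p ^ n) T (h65_torsRep G J (p ^ n) σ m) := by
  apply Subtype.ext
  rw [h65_torsEnd_coe, AddSubgroup.coe_add, AddSubgroup.coe_nsmul, h65_torsRep_coe,
    h65_torsRep_coe]
  exact h65_red_es_core p ℓ red φ hinj σ hσ T hT n (m : J) m.2

/-- The weak level axioms on the torsion, formal version: trivial action. -/
theorem h65_tors_unr {Jbar : Type*} [AddCommGroup Jbar] (p : ℕ) (red : J →+ Jbar)
    (hinj : ∀ x : J, (∃ n : ℕ, p ^ n • x = 0) → red x = 0 → x = 0)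
    (σ : G) (hσ : ∀ x : J, red (σ • x) = red x) (n : ℕ) :
    h65_torsRep G J (p ^ n) σ = 1 := by
  apply AddMonoidHom.ext
  intro m
  apply Subtype.ext
  exact h65_red_unr_core p red hinj σ hσ n (m : J) m.2

theorem h65_tors_nsmul (m : ℕ) (x : ↥(h65_tors J m)) : m • x = 0 := by
  apply Subtype.ext
  rw [AddSubgroup.coe_nsmul, AddSubgroup.coe_zero]
  exact x.2

end tors

section red

variable (N : ℕ) [NeZero N]

/-- Reduction modulo `m` of a parabolic homomorphism `Γ₀(N) → ℤ`. -/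
noncomputable def h65_redHom (m : ℕ) : h65_Lam N →+ gal_Hpe N m where
  toFun φ := ⟨(Int.castAddHom (ZMod m)).comp (φ : Additive (Gamma0 N) →+ ℤ), by
    refine ⟨fun γ hγ => ?_, fun γ hγ => ?_⟩
    · show ((φ : Additive (Gamma0 N) →+ ℤ) (Additive.ofMul γ) : ZMod m) = 0
      rw [φ.2 γ hγ, Int.cast_zero]
    · show ((φ : Additive (Gamma0 N) →+ ℤ) (Additive.ofMul γ) : ZMod m) = 0
      obtain ⟨k, hk, hγk⟩ := isOfFinOrder_iff_pow_eq_one.1 hγ
      have h1 : k • (φ : Additive (Gamma0 N) →+ ℤ) (Additive.ofMul γ) = 0 := by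
        rw [← map_nsmul, ← ofMul_pow, hγk, ofMul_one, map_zero]
      have h2 : (φ : Additive (Gamma0 N) →+ ℤ) (Additive.ofMul γ) = 0 := by
        rcases smul_eq_zero.1 h1 with h | h
        · exact absurd h hk.ne'
        · exact h
      rw [h2, Int.cast_zero]⟩
  map_zero' := by
    apply Subtype.ext
    apply AddMonoidHom.ext
    intro γ
    show (((0 : h65_Lam N) : Additive (Gamma0 N) →+ ℤ) γ : ZMod m) = 0
    simp
  map_add' φ ψ := by
    apply Subtype.ext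
    apply AddMonoidHom.ext
    intro γ
    show (((φ + ψ : h65_Lam N) : Additive (Gamma0 N) →+ ℤ) γ : ZMod m) =
      (((φ : Additive (Gamma0 N) →+ ℤ) γ : ℤ) : ZMod m) + ((ψ : Additive (Gamma0 N) →+ ℤ) γ : ℤ)
    simp

theorem h65_redHom_coe (m : ℕ) (φ : h65_Lam N) :
    ((h65_redHom N m φ : gal_Hpe N m) : Additive (Gamma0 N) →+ ZMod m) =
      (Int.castAddHom (ZMod m)).comp (φ : Additive (Gamma0 N) →+ ℤ) := rfl

/-- The kernel of reduction modulo `m` is `m Λ`. -/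
theorem h65_redHom_ker (m : ℕ) (φ : h65_Lam N) (h : h65_redHom N m φ = 0) :
    ∃ ψ : h65_Lam N, φ = (m : ℤ) • ψ := by
  have hdvd : ∀ γ : Additive (Gamma0 N), (m : ℤ) ∣ (φ : Additive (Gamma0 N) →+ ℤ) γ := by
    intro γ
    have h1 := congrArg (fun χ : gal_Hpe N m => (χ : Additive (Gamma0 N) →+ ZMod m) γ) h
    have h2 : (((φ : Additive (Gamma0 N) →+ ℤ) γ : ℤ) : ZMod m) = 0 := h1
    exact (ZMod.intCast_zmod_eq_zero_iff_dvd _ _).1 h2
  let ψ0 : Additive (Gamma0 N) →+ ℤ :=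
    { toFun := fun γ => (φ : Additive (Gamma0 N) →+ ℤ) γ / (m : ℤ)
      map_zero' := by simp
      map_add' := fun a b => by
        show (φ : Additive (Gamma0 N) →+ ℤ) (a + b) / (m : ℤ) = _
        rw [map_add, Int.add_ediv_of_dvd_left (hdvd a)] }
  have hψ : ψ0 ∈ parabolicHoms ℤ (Gamma0 N) ℤ := by
    intro γ hγ
    show (φ : Additive (Gamma0 N) →+ ℤ) (Additive.ofMul γ) / (m : ℤ) = 0
    rw [φ.2 γ hγ, Int.zero_ediv]
  refine ⟨⟨ψ0, hψ⟩, ?_⟩
  apply Subtype.ext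
  apply AddMonoidHom.ext
  intro γ
  show (φ : Additive (Gamma0 N) →+ ℤ) γ = (m : ℤ) • ((φ : Additive (Gamma0 N) →+ ℤ) γ / (m : ℤ))
  rw [smul_eq_mul, Int.mul_ediv_cancel' (hdvd γ)]

/-- Reduction modulo `m` intertwines the Hecke operators. -/
theorem h65_redHom_hecke (m : ℕ) (S : Set ℕ) (hNS : ∀ q : ℕ, q.Prime → q ∣ N → q ∈ S)
    {ℓ : ℕ} [Fact ℓ.Prime] (hℓ : ℓ.Prime) (hℓN : ¬ ℓ ∣ N) (hℓS : ℓ ∉ S) (φ : h65_Lam N) :
    ((h65_redHom N m (h65_iota N S hNS (CuspForm.heckeAlgebra.T hℓ hℓN hℓS) φ) : gal_Hpe N m) :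
      Additive (Gamma0 N) →+ ZMod m) =
      h30_heckeT N ℓ hℓN ((h65_redHom N m φ : gal_Hpe N m) : Additive (Gamma0 N) →+ ZMod m) := by
  rw [h65_redHom_coe, h65_redHom_coe, h65_iota_T_coe, h30_heckeT_comp]

/-- Every element of `gal_Hpe N m` is killed by `m`. -/
theorem h65_Hpe_torsion (m : ℕ) (χ : gal_Hpe N m) : m • χ = 0 := by
  apply Subtype.ext
  apply AddMonoidHom.ext
  intro γ
  show m • (χ : Additive (Gamma0 N) →+ ZMod m) γ = 0
  rw [nsmul_eq_mul, ZMod.natCast_self, zero_mul]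

end red

section levels

variable {p : ℕ} {N : ℕ} [NeZero N] {S : Finset ℕ}

set_option maxHeartbeats 1600000 in
/-- **The weak levels** of the S31 endgame from THETA and the reduction interface. -/
theorem h65_levels (hp : p.Prime) (hpS : p ∈ S)
    (hNS : ∀ q : ℕ, q.Prime → q ∣ N → q ∈ (↑S : Set ℕ))
    (hTheta : ∀ n : ℕ, gal_ThetaProp N (p ^ n))
    (hred : ∀ (ℓ : ℕ) (hℓ : ℓ.Prime), ¬ ℓ ∣ N * p →
      ∀ A : ValuationSubring (AlgebraicClosure ℚ), A.LiesOverPrime ℓ →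
        Fermat.Agent.S37.h87_RedData N p ℓ hℓ A)
    (n : ℕ) : h65_HasLevelW p N S (h65_iota N (↑S : Set ℕ) hNS) n := by
  obtain ⟨Θ, hΘinj, hΘhecke⟩ := hTheta n
  have hNp : ∀ ℓ : ℕ, ℓ.Prime → ℓ ∉ S → ¬ ℓ ∣ N * p := by
    intro ℓ hℓ hℓS hdvd
    rcases (Nat.Prime.dvd_mul hℓ).1 hdvd with h | h
    · exact hℓS (Finset.mem_coe.1 (hNS ℓ hℓ h))
    · rw [(Nat.prime_dvd_prime_iff_eq hℓ hp).1 h] at hℓS
      exact hℓS hpS
  have hmem : ∀ φ : h65_Lam N, Θ (h65_redHom N (p ^ n) φ) ∈ h65_tors (JZero N) (p ^ n) := by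
    intro φ
    show p ^ n • Θ (h65_redHom N (p ^ n) φ) = 0
    rw [← map_nsmul, h65_Hpe_torsion, map_zero]
  let q : h65_Lam N →+ ↥(h65_tors (JZero N) (p ^ n)) :=
    { toFun := fun φ => ⟨Θ (h65_redHom N (p ^ n) φ), hmem φ⟩
      map_zero' := by
        apply Subtype.ext
        show Θ (h65_redHom N (p ^ n) 0) = 0
        rw [map_zero, map_zero]
      map_add' := fun φ ψ => by
        apply Subtype.ext
        show Θ (h65_redHom N (p ^ n) (φ + ψ)) =
          Θ (h65_redHom N (p ^ n) φ) + Θ (h65_redHom N (p ^ n) ψ)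
        rw [map_add, map_add] }
  have hq : ∀ φ : h65_Lam N, ((q φ : ↥(h65_tors (JZero N) (p ^ n))) : JZero N) =
      Θ (h65_redHom N (p ^ n) φ) := fun _ => rfl
  refine ⟨↥(h65_tors (JZero N) (p ^ n)), inferInstance, q,
    h65_torsRep (AlgebraicClosure ℚ ≃ₐ[ℚ] AlgebraicClosure ℚ) (JZero N) (p ^ n),
    fun ℓ => h65_torsEnd (p ^ n) (heckeOperatorBar N ℓ).toAddMonoidHom, ?_, ?_, ?_, ?_, ?_, ?_⟩
  · -- KER
    intro φ hφ
    have h1 : Θ (h65_redHom N (p ^ n) φ) = 0 := by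
      rw [← hq φ, hφ, AddSubgroup.coe_zero]
    have h2 : h65_redHom N (p ^ n) φ = 0 := hΘinj (by rw [h1, map_zero])
    obtain ⟨ψ, hψ⟩ := h65_redHom_ker N (p ^ n) φ h2
    exact ⟨ψ, by rw [hψ]; push_cast; rfl⟩
  · -- TORS
    intro m
    exact h65_tors_nsmul (p ^ n) m
  · -- STAB
    intro φ
    obtain ⟨E, hE, hfix⟩ := h67_torsion_stabiliser N (p ^ n) (pow_pos hp.pos n)
      (q φ : JZero N) (q φ).2
    refine ⟨E, hE, fun σ hσ => ?_⟩
    apply Subtype.ext
    exact hfix σ hσ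
  · -- HECKE
    intro ℓ hℓ hℓN hℓS φ
    have : Fact ℓ.Prime := ⟨hℓ⟩
    apply Subtype.ext
    have hℓp : ¬ ℓ ∣ p ^ n := by
      intro h
      have h' := (Nat.prime_dvd_prime_iff_eq hℓ hp).1 (hℓ.dvd_of_dvd_pow h)
      rw [h'] at hℓS
      exact hℓS (Finset.mem_coe.2 hpS)
    exact (hΘhecke ℓ hℓN hℓp (h65_redHom N (p ^ n) φ) _
      (h65_redHom_hecke N (p ^ n) (↑S : Set ℕ) hNS hℓ hℓN hℓS φ)).symm
  · -- ES
    intro ℓ hℓ hℓN hℓS A hA σ hσ m
    obtain ⟨Jbar, _, red, φ, hI, hF, hT, hinj⟩ :=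
      hred ℓ hℓ (hNp ℓ hℓ (fun h => hℓS (Finset.mem_coe.2 h))) A hA
    exact h65_tors_es (AlgebraicClosure ℚ ≃ₐ[ℚ] AlgebraicClosure ℚ) p ℓ red φ hinj σ (hF σ hσ)
      (heckeOperatorBar N ⟨ℓ, hℓ⟩).toAddMonoidHom hT n m
  · -- INERT
    intro q' hq' hq'S A hA τ hτ
    obtain ⟨Jbar, _, red, φ, hI, hF, hT, hinj⟩ := hred q' hq' (hNp q' hq' hq'S) A hA
    exact h65_tors_unr (AlgebraicClosure ℚ ≃ₐ[ℚ] AlgebraicClosure ℚ) p red hinj τ (hI τ hτ) n

end levels

/-- The weak Chebotarev statement. -/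
theorem h65_wcheb : h65_WCheb := by
  intro L hL hG g S
  obtain ⟨ℓ, A, σ, a, b, h1, h2, h3, h4, -, h6⟩ := gal_weak_chebotarev L g S
  exact ⟨ℓ, A, σ, b, h1, h2, h3, h4, h6⟩

section main

variable {p : ℕ} {N : ℕ} [NeZero N] {S : Finset ℕ}
  {𝒪 : Type} [CommRing 𝒪] [IsDomain 𝒪] [IsDiscreteValuationRing 𝒪]
  [IsAdicComplete (IsLocalRing.maximalIdeal 𝒪) 𝒪]
  {θ : CuspForm.heckeAlgebra N 2 (↑S : Set ℕ) →+* IsLocalRing.ResidueField 𝒪}
  {T : Type} [CommRing T] [IsLocalRing T] [IsNoetherianRing T]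
  [IsAdicComplete (IsLocalRing.maximalIdeal T) T] [Algebra 𝒪 T] [IsLocalHom (algebraMap 𝒪 T)]
  [Module.Finite 𝒪 T] [Module.Free 𝒪 T]

/-- **S31 from THETA and the reduction interface.** -/
theorem h65_S31_of_theta (hp : p.Prime)
    (hp𝒪 : (p : 𝒪) ∈ IsLocalRing.maximalIdeal 𝒪) (hpS : p ∈ S)
    (hNS : ∀ q : ℕ, q.Prime → q ∣ N → q ∈ S)
    (H : CuspForm.HeckeGaloisRepDatum N (↑S : Set ℕ) 𝒪 θ T)
    (hTheta : ∀ n : ℕ, gal_ThetaProp N (p ^ n))
    (hred : ∀ (ℓ : ℕ) (hℓ : ℓ.Prime), ¬ ℓ ∣ N * p →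
      ∀ A : ValuationSubring (AlgebraicClosure ℚ), A.LiesOverPrime ℓ →
        Fermat.Agent.S37.h87_RedData N p ℓ hℓ A)
    (q : ℕ) (hq : q.Prime) (hqS : q ∉ S) :
    H.ρ.IsUnramifiedAt q :=
  h65_S31_of_levelsW hp hp𝒪 hpS hNS H
    (h65_iota N (↑S : Set ℕ) (fun q hq hqN => Finset.mem_coe.2 (hNS q hq hqN)))
    (h65_iota_injective N (↑S : Set ℕ) _)
    (h65_levels hp hpS _ hTheta hred) h65_wcheb q hq hqS

end main

end Fermat.Agent.GAL
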