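import Mathlib
import Fermat.Agent.GAL.h65_LevelDef
import Fermat.Agent.GAL.h65_S31Levels

/-!
# GAL: the strong levels from THETA and the reduction interface

`h65_levelsS` : for every `n`, the strong level `h65_HasLevelS p N S ι n` on the Hecke lattice
`Λ = h65_Lam N` with `ι = h65_iota`, `M = J₀(N)[p ^ n]`, from the interface THETA
(`gal_ThetaProp N (p ^ n)`) and the reduction interface `h87_RedData` of S37.
-/

set_option autoImplicit false

open CongruenceSubgroup ModularCurve ModularCurve.Period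

namespace Fermat.Agent.GAL

open Fermat.Agent.S16

section tors

variable (G : Type*) {J : Type*} [Group G] [AddCommGroup J] [DistribMulAction G J]

/-- An endomorphism commuting with the action commutes with it on the torsion. -/
theorem h65_tors_comm (m : ℕ) (T : J →+ J) (hT : ∀ (g : G) (x : J), T (g • x) = g • T x)
    (g : G) (x : ↥(h65_tors J m)) :
    h65_torsEnd m T (h65_torsRep G J m g x) = h65_torsRep G J m g (h65_torsEnd m T x) := by
  apply Subtype.ext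
  exact hT g (x : J)

end tors

section levels

variable {p : ℕ} {N : ℕ} [NeZero N] {S : Finset ℕ}

set_option maxHeartbeats 1600000 in
/-- **The strong levels** of the S31 / S30 endgames from THETA and the reduction interface. -/
theorem h65_levelsS (hp : p.Prime) (hpS : p ∈ S)
    (hNS : ∀ q : ℕ, q.Prime → q ∣ N → q ∈ (↑S : Set ℕ))
    (hTheta : ∀ n : ℕ, gal_ThetaProp N (p ^ n))
    (hred : ∀ (ℓ : ℕ) (hℓ : ℓ.Prime), ¬ ℓ ∣ N * p →
      ∀ A : ValuationSubring (AlgebraicClosure ℚ), A.LiesOverPrime ℓ →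
        Fermat.Agent.S37.h87_RedData N p ℓ hℓ A)
    (n : ℕ) : h65_HasLevelS p N S (h65_iota N (↑S : Set ℕ) hNS) n := by
  obtain ⟨Θ, hΘinj, hΘhecke⟩ := hTheta n
  have hNp : ∀ ℓ : ℕ, ℓ.Prime → ¬ ℓ ∣ N → ℓ ≠ p → ¬ ℓ ∣ N * p := by
    intro ℓ hℓ hℓN hℓp hdvd
    rcases (Nat.Prime.dvd_mul hℓ).1 hdvd with h | h
    · exact hℓN h
    · exact hℓp ((Nat.prime_dvd_prime_iff_eq hℓ hp).1 h)
  have hmem : ∀ φ : h65_Lam N, Θ (h65_redHom N (p ^ n) φ) ∈ h65_tors (JZero N) (p ^ n) := by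
    intro φ
    show p ^ n • Θ (h65_redHom N (p ^ n) φ) = 0
    rw [← map_nsmul, h65_Hpe_torsion, map_zero]
  let q : h65_Lam N →+ ↥(h65_tors (JZero N) (p ^ n)) :=
    { toFun := fun φ => ⟨Θ (h65_redHom N (p ^ n) φ), hmem φ⟩
      map_zero' := by
        apply Subtype.ext
        show Θ (h65_redHom N (p ^ n) 0) = 0
        rw [map_zero, map_zero]
      map_add' := fun φ ψ => by
        apply Subtype.ext
        show Θ (h65_redHom N (p ^ n) (φ + ψ)) =
          Θ (h65_redHom N (p ^ n) φ) + Θ (h65_redHom N (p ^ n) ψ)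
        rw [map_add, map_add] }
  have hq : ∀ φ : h65_Lam N, ((q φ : ↥(h65_tors (JZero N) (p ^ n))) : JZero N) =
      Θ (h65_redHom N (p ^ n) φ) := fun _ => rfl
  refine ⟨↥(h65_tors (JZero N) (p ^ n)), inferInstance, q,
    h65_torsRep (AlgebraicClosure ℚ ≃ₐ[ℚ] AlgebraicClosure ℚ) (JZero N) (p ^ n),
    fun ℓ => h65_torsEnd (p ^ n) (heckeOperatorBar N ℓ).toAddMonoidHom,
    ?_, ?_, ?_, ?_, ?_, ?_, ?_⟩
  · -- KER
    intro φ hφ
    have h1 : Θ (h65_redHom N (p ^ n) φ) = 0 := by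
      rw [← hq φ, hφ, AddSubgroup.coe_zero]
    have h2 : h65_redHom N (p ^ n) φ = 0 := hΘinj (by rw [h1, map_zero])
    obtain ⟨ψ, hψ⟩ := h65_redHom_ker N (p ^ n) φ h2
    exact ⟨ψ, by rw [hψ]; push_cast; rfl⟩
  · -- TORS
    intro m
    exact h65_tors_nsmul (p ^ n) m
  · -- STAB
    intro m
    obtain ⟨E, hE, hfix⟩ := h67_torsion_stabiliser N (p ^ n) (pow_pos hp.pos n)
      (m : JZero N) m.2
    refine ⟨E, hE, fun σ hσ => ?_⟩
    apply Subtype.ext
    exact hfix σ hσ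
  · -- HECKE
    intro ℓ hℓ hℓN hℓS φ
    have : Fact ℓ.Prime := ⟨hℓ⟩
    apply Subtype.ext
    have hℓp : ¬ ℓ ∣ p ^ n := by
      intro h
      have h' := (Nat.prime_dvd_prime_iff_eq hℓ hp).1 (hℓ.dvd_of_dvd_pow h)
      rw [h'] at hℓS
      exact hℓS (Finset.mem_coe.2 hpS)
    exact (hΘhecke ℓ hℓN hℓp (h65_redHom N (p ^ n) φ) _
      (h65_redHom_hecke N (p ^ n) (↑S : Set ℕ) hNS hℓ hℓN hℓS φ)).symm
  · -- ES
    intro ℓ hℓ hℓN hℓp A hA σ hσ m
    obtain ⟨Jbar, _, red, φ, hI, hF, hT, hinj⟩ := hred ℓ hℓ (hNp ℓ hℓ hℓN hℓp) A hA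
    exact h65_tors_es (AlgebraicClosure ℚ ≃ₐ[ℚ] AlgebraicClosure ℚ) p ℓ red φ hinj σ (hF σ hσ)
      (heckeOperatorBar N ⟨ℓ, hℓ⟩).toAddMonoidHom hT n m
  · -- INERT
    intro q' hq' hq'N hq'p A hA τ hτ
    obtain ⟨Jbar, _, red, φ, hI, hF, hT, hinj⟩ := hred q' hq' (hNp q' hq' hq'N hq'p) A hA
    exact h65_tors_unr (AlgebraicClosure ℚ ≃ₐ[ℚ] AlgebraicClosure ℚ) p red hinj τ (hI τ hτ) n
  · -- COMM
    intro ℓ g m
    exact h65_tors_comm (AlgebraicClosure ℚ ≃ₐ[ℚ] AlgebraicClosure ℚ) (p ^ n)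
      (heckeOperatorBar N ℓ).toAddMonoidHom (fun g x => h67_hecke_galois_comm N ℓ g x) g m

end levels

end Fermat.Agent.GAL
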