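import Mathlib
import Fermat.Agent.GAL.h31_S30Asm
import Fermat.Agent.GAL.h65_LevelGlue

/-!
# GAL: S30 from THETA and the reduction interface

`h31_S30_of_theta`: the frozen statement S30 (for given `p`, `N`, `S`, `𝒪'`, `χ`) from the
interface THETA (`gal_ThetaProp N (p ^ n)` for all `n`) and the reduction interface
`h87_RedData` of S37, via helper65's Hecke lattice `h65_Lam N`, `h65_iota` and the strong
levels `h65_levelsS`.
-/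

set_option autoImplicit false

open Polynomial

namespace Fermat.Agent.GAL

/-- **S30 from THETA and the reduction interface.** -/
theorem h31_S30_of_theta (p : ℕ) [Fact p.Prime] (N : ℕ) [NeZero N] (S : Finset ℕ)
    (hpS : p ∈ S) (hNS : ∀ q : ℕ, q.Prime → q ∣ N → q ∈ S)
    (𝒪' : Type) [CommRing 𝒪'] [IsDomain 𝒪'] [IsDiscreteValuationRing 𝒪']
    [IsAdicComplete (IsLocalRing.maximalIdeal 𝒪') 𝒪'] [Finite (IsLocalRing.ResidueField 𝒪')]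
    [CharZero 𝒪'] (hp𝒪' : (p : 𝒪') ∈ IsLocalRing.maximalIdeal 𝒪')
    (χ : CuspForm.heckeAlgebra N 2 (↑S : Set ℕ) →+* 𝒪')
    (hTheta : ∀ n : ℕ, gal_ThetaProp N (p ^ n))
    (hred : ∀ (ℓ : ℕ) (hℓ : ℓ.Prime), ¬ ℓ ∣ N * p →
      ∀ A : ValuationSubring (AlgebraicClosure ℚ), A.LiesOverPrime ℓ →
        Fermat.Agent.S37.h87_RedData N p ℓ hℓ A) :
    ∃ (𝒪'' : Type) (_ : CommRing 𝒪'') (_ : IsDomain 𝒪'') (_ : IsDiscreteValuationRing 𝒪'')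
      (_ : IsAdicComplete (IsLocalRing.maximalIdeal 𝒪'') 𝒪'')
      (_ : Finite (IsLocalRing.ResidueField 𝒪'')) (_ : CharZero 𝒪'')
      (_ : Algebra 𝒪' 𝒪'') (_ : Module.Finite 𝒪' 𝒪'') (_ : IsLocalHom (algebraMap 𝒪' 𝒪'')),
    Function.Injective (algebraMap 𝒪' 𝒪'') ∧
    ∃ ρ : GaloisRepAdic 𝒪'',
      (∀ (ℓ : ℕ) (hℓ : ℓ.Prime) (hℓN : ¬ ℓ ∣ N) (hℓS : ℓ ∉ (↑S : Set ℕ)),
        ∀ A : ValuationSubring (AlgebraicClosure ℚ), A.LiesOverPrime ℓ →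
          ∀ σ : AlgebraicClosure ℚ ≃ₐ[ℚ] AlgebraicClosure ℚ, A.IsFrobeniusAt σ ℓ →
            LinearMap.charpoly (ρ.ρ σ) =
              X ^ 2 - C (algebraMap 𝒪' 𝒪'' (χ (CuspForm.heckeAlgebra.T hℓ hℓN hℓS))) * X
                + C ((ℓ : 𝒪''))) ∧
      (∀ q : ℕ, q.Prime → ¬ q ∣ N → q ≠ p → ρ.IsUnramifiedAt q) := by
  have hNS' : ∀ q : ℕ, q.Prime → q ∣ N → q ∈ (↑S : Set ℕ) :=
    fun q hq hqN => Finset.mem_coe.2 (hNS q hq hqN)
  exact h31_S30_of_levels p N S hpS hNS 𝒪' hp𝒪' χ (h65_iota N (↑S : Set ℕ) hNS')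
    (h65_iota_injective N (↑S : Set ℕ) hNS')
    (fun n => h65_levelsS (Fact.out : p.Prime) hpS hNS' hTheta hred n) h65_wcheb

end Fermat.Agent.GAL
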