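import Fermat.Agent.GAL.h70_AlgCl

/-!
# GAL (R2): the residue fields of `ℤ̄ = integralClosure ℤ ℂ` are algebraically closed

The theorem `gal_isAlgClosed_quot` is in `Fermat/Agent/GAL/h70_AlgCl.lean` (helper70, landed first).
This file (helper35) only re-exports it through the import, so that importing either file gives
the same declaration; it adds the variant `h35_exists_root_integralClosure` of the root lemma with
the hypothesis `natDegree ≠ 0`.
-/

set_option autoImplicit false

namespace Fermat.Agent.GAL

open Polynomial

/-- A monic polynomial of nonzero degree over `ℤ̄` has a root in `ℤ̄`. -/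
theorem h35_exists_root_integralClosure (P : (integralClosure ℤ ℂ)[X]) (hP : P.Monic)
    (hdeg : P.natDegree ≠ 0) : ∃ z : integralClosure ℤ ℂ, P.eval z = 0 :=
  h70_exists_root_integralClosure P hP (Nat.pos_of_ne_zero hdeg)

end Fermat.Agent.GAL
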