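import Mathlib
import Fermat.Agent.S14.NS
import Fermat.Agent.S14.h35_PrimeSums

/-!
# GAL-3 (weak Chebotarev), block W2: density of the completely split primes of degree one

For a Galois extension `K / E` of number fields and a finite set `Bad` of primes of `E` containing
the primes ramified in `K`, the primes `v ∉ Bad` of `E` of prime norm that split completely in
`K` satisfy
  `∑_v N(v)^(-σ) = log (1/(σ-1)) / [K : E] + O(1)`   for `σ ∈ (1, 2]`
(`h35_dens_split`).  Upper bound: the prime sums of `K` (PS1/PS3 of `S14/h35_PrimeSums`); lower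
bound: the degree-one primes of `K` carry the pole of `ζ_K` (PS2) and lie over completely split
degree-one primes of `E`.
-/

set_option autoImplicit false

namespace Fermat.Agent.GAL

open NumberField IsDedekindDomain Filter Topology
open Fermat.Agent.S14

/-- In a Galois extension, an unramified prime having one prime of residue degree one above it
splits completely. -/
theorem h35_gal_splits_of_degree_one (E K : Type*) [Field E] [NumberField E] [Field K] [NumberField K]
    [Algebra E K] [IsGalois E K] (w : HeightOneSpectrum (𝓞 K))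
    (hunr : h84_Unramified E K (w.under (𝓞 E)))
    (hf : w.asIdeal.inertiaDeg (𝓞 E) = 1) : h84_SplitsCompletely E K (w.under (𝓞 E)) := by
  intro w' hw'
  refine ⟨hunr w' hw', ?_⟩
  have h1 : w.asIdeal.LiesOver (w.under (𝓞 E)).asIdeal := h84_liesOver_under E K w
  have h2 : w'.asIdeal.LiesOver (w.under (𝓞 E)).asIdeal := by
    rw [← hw']
    exact h84_liesOver_under E K w'
  have := w.isPrime
  have := w'.isPrime
  rw [Ideal.inertiaDeg_eq_of_isGaloisGroup (w.under (𝓞 E)).asIdeal w'.asIdeal w.asIdeal
    (K ≃ₐ[E] K), hf]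

/-- (W2) **Density of the completely split primes of degree one**: in a Galois extension `K / E`
of number fields, the degree-one primes of `E` outside a finite set `Bad` (containing the
ramified ones) that split completely in `K` have prime sum
`log (1/(σ-1)) / [K : E] + O(1)` on `(1, 2]`. -/
theorem h35_dens_split (E K : Type*) [Field E] [NumberField E] [Field K] [NumberField K]
    [Algebra E K] [IsGalois E K]
    (Bad : Set (HeightOneSpectrum (𝓞 E))) (hBad : Bad.Finite)
    (hram : ∀ v, ¬ h84_Unramified E K v → v ∈ Bad) :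
    ∃ B : ℝ, ∀ σ : ℝ, 1 < σ → σ ≤ 2 →
      |∑' v, Set.indicator {v | v ∉ Bad ∧ (Ideal.absNorm v.asIdeal).Prime ∧
          h84_SplitsCompletely E K v} (h35_x E σ) v
        - Real.log (1 / (σ - 1)) / Module.finrank E K| ≤ B := by
  classical
  set n := Module.finrank E K with hn
  have hn0 : 0 < n := Module.finrank_pos
  have hn0' : (0 : ℝ) < (n : ℝ) := by exact_mod_cast hn0
  set A : Set (HeightOneSpectrum (𝓞 E)) := {v | v ∉ Bad ∧ (Ideal.absNorm v.asIdeal).Prime ∧
    h84_SplitsCompletely E K v} with hA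
  obtain ⟨B₂, hB₂⟩ := h35_sum_split_le E K n (HeightOneSpectrum.under (𝓞 E))
  obtain ⟨B₁, hB₁⟩ := h35_exists_sum_prime_ge K (HeightOneSpectrum.under (𝓞 E) ⁻¹' Bad)
    (h84_finite_preimage E K hBad)
  refine ⟨(|B₁| + |B₂|) / n, fun σ h1 h2 => ?_⟩
  have hsum : Summable (Set.indicator A (h35_x E σ)) := (h35_summable_x E h1).indicator A
  have hx0 : ∀ v, 0 ≤ Set.indicator A (h35_x E σ) v :=
    fun v => Set.indicator_nonneg (fun v _ => h35_x_nonneg E σ v) v
  -- upper bound
  have hup : (n : ℝ) * ∑' v, Set.indicator A (h35_x E σ) v ≤ Real.log (1 / (σ - 1)) + B₂ := by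
    rw [← tsum_mul_left]
    refine (hsum.mul_left _).tsum_le_of_sum_le (fun T => ?_)
    rw [← Finset.mul_sum, Finset.sum_indicator_eq_sum_filter]
    refine hB₂ σ h1 h2 (T.filter (· ∈ A)) ?_
    intro v hv
    have hvA : v ∈ A := (Finset.mem_filter.mp hv).2
    have hsplit : h84_SplitsCompletely E K v := hvA.2.2
    have hcard := h84_card_fibre_of_splits E K v hsplit
    have : Fintype {w : HeightOneSpectrum (𝓞 K) // w.under (𝓞 E) = v} := Fintype.ofFinite _
    refine ⟨(Finset.univ : Finset {w : HeightOneSpectrum (𝓞 K) // w.under (𝓞 E) = v}).map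
      ⟨Subtype.val, Subtype.val_injective⟩, ?_, ?_⟩
    · rw [Finset.card_map, Finset.card_univ, ← Nat.card_eq_fintype_card, hcard]
    · intro w hw
      obtain ⟨w', -, rfl⟩ := Finset.mem_map.mp hw
      exact ⟨w'.2, h84_absNorm_eq_of_splits E K v hsplit w'.1 w'.2⟩
  -- lower bound
  have hlow : Real.log (1 / (σ - 1)) - B₁ ≤ (n : ℝ) * ∑' v, Set.indicator A (h35_x E σ) v := by
    obtain ⟨S', hS', hge⟩ := hB₁ σ h1 h2
    refine hge.trans ?_
    have himg : ∀ w ∈ S', w.under (𝓞 E) ∈ A := by
      intro w hw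
      obtain ⟨hprime, hbad⟩ := hS' w hw
      have hd := h84_degree_one_under E K w hprime
      have hnb : w.under (𝓞 E) ∉ Bad := fun h => hbad h
      refine ⟨hnb, ?_, ?_⟩
      · rw [hd.2]; exact hprime
      · refine h35_gal_splits_of_degree_one E K w ?_ hd.1
        by_contra hcon
        exact hnb (hram _ hcon)
    have hfib : ∀ v ∈ S'.image (HeightOneSpectrum.under (𝓞 E)),
        ∑ w ∈ S' with w.under (𝓞 E) = v, h35_x K σ w ≤ (n : ℝ) * Set.indicator A (h35_x E σ) v := by
      intro v hv
      obtain ⟨w₀, hw₀, rfl⟩ := Finset.mem_image.mp hv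
      have hvA := himg w₀ hw₀
      rw [Set.indicator_of_mem hvA]
      have hterm : ∀ w ∈ S'.filter (fun w => w.under (𝓞 E) = w₀.under (𝓞 E)),
          h35_x K σ w = h35_x E σ (w₀.under (𝓞 E)) := by
        intro w hw
        obtain ⟨hwS, hwv⟩ := Finset.mem_filter.mp hw
        rw [h35_x, h35_x, ← hwv, (h84_degree_one_under E K w (hS' w hwS).1).2]
      rw [Finset.sum_congr rfl hterm, Finset.sum_const, nsmul_eq_mul]
      refine mul_le_mul_of_nonneg_right ?_ (h35_x_nonneg E σ _)
      have : Fintype {w : HeightOneSpectrum (𝓞 K) // w.under (𝓞 E) = w₀.under (𝓞 E)} :=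
        Fintype.ofFinite _
      have hc : (S'.filter (fun w => w.under (𝓞 E) = w₀.under (𝓞 E))).card ≤ n := by
        rw [← Finset.card_subtype, hn, ← h84_card_fibre_of_splits E K _ hvA.2.2,
          Nat.card_eq_fintype_card]
        exact Finset.card_le_univ _
      exact_mod_cast hc
    calc ∑ w ∈ S', h35_x K σ w
        = ∑ v ∈ S'.image (HeightOneSpectrum.under (𝓞 E)),
            ∑ w ∈ S' with w.under (𝓞 E) = v, h35_x K σ w :=
          (Finset.sum_fiberwise_of_maps_to (fun w hw => Finset.mem_image_of_mem _ hw) _).symm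
      _ ≤ ∑ v ∈ S'.image (HeightOneSpectrum.under (𝓞 E)),
            (n : ℝ) * Set.indicator A (h35_x E σ) v := Finset.sum_le_sum hfib
      _ = (n : ℝ) * ∑ v ∈ S'.image (HeightOneSpectrum.under (𝓞 E)),
            Set.indicator A (h35_x E σ) v := by rw [Finset.mul_sum]
      _ ≤ (n : ℝ) * ∑' v, Set.indicator A (h35_x E σ) v :=
          mul_le_mul_of_nonneg_left (hsum.sum_le_tsum _ (fun v _ => hx0 v)) hn0'.le
  -- conclusion
  have e1 : ∑' v, Set.indicator A (h35_x E σ) v - Real.log (1 / (σ - 1)) / n =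
      ((n : ℝ) * ∑' v, Set.indicator A (h35_x E σ) v - Real.log (1 / (σ - 1))) / n := by
    field_simp
  rw [e1, abs_div, abs_of_pos hn0']
  refine div_le_div_of_nonneg_right ?_ hn0'.le
  rw [abs_le]
  have hb1 := neg_abs_le B₁
  have hb1' := le_abs_self B₁
  have hb2 := le_abs_self B₂
  have hb2' := abs_nonneg B₂
  have hb1'' := abs_nonneg B₁
  constructor <;> linarith

end Fermat.Agent.GAL
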