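import Fermat.Agent.GAL.h77_AnDefs
import Fermat.Agent.GAL.Root
import Fermat.Agent.GAL.h55_UChi
import Fermat.Agent.GAL.h55_FMF

/-!
# GAL, analytic layer: "analytic ⇒ algebraic" for `n`-th roots (FMF-ROOT, helper35)

`h35_fmf_root`: a `Γ₀(N)`-invariant meromorphic function `u` on `ℍ` whose `n`-th power lies in the
image `Φ(F_ℂ(N))` of the function field of `X₀(N)` lies in `Φ(F_ℂ(N))` itself (unconditional; the
holomorphic case FMF-HOL is helper55's `h55_fmf_hol`).  `h35_fmf_root_of` is the same statement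
with FMF-HOL as an explicit hypothesis `h35_FmfHol N`.

Generic lemmas:
* `h35_hol_of_pow`: a meromorphic function whose `n`-th power is holomorphic is holomorphic;
* `h35_isQExp_root`: a holomorphic `N`-periodic function on `ℍ` whose `n`-th power has a Laurent
  `q_N`-expansion has a Laurent `q_N`-expansion;
* `h35_aut_of_pow`: an invariant holomorphic function whose `n`-th power is the evaluation of an
  element of `A_N` is a good invariant function (`h55_Aut N 1`).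
-/

set_option autoImplicit false

open UpperHalfPlane ModularCurve CongruenceSubgroup
open scoped MatrixGroups Manifold

namespace Fermat.Agent.GAL

open Fermat.Agent.S24

/-- Orders of powers of meromorphic functions. -/
theorem h35_ord_pow (τ : ℍ) {F : h25_Mer} (hF : F ≠ 0) (n : ℕ) :
    h25_ord τ (F ^ n) = n * h25_ord τ F := by
  induction n with
  | zero =>
    have h1 : (1 : h25_Mer) = algebraMap h25_Hol h25_Mer 1 := (map_one _).symm
    rw [pow_zero, h1, h25_ord_algebraMap τ one_ne_zero, h74_ordHol_one]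
    simp
  | succ n ih =>
    rw [pow_succ, h25_ord_mul τ (pow_ne_zero n hF) hF, ih]
    push_cast
    ring

/-- **(L1)** A meromorphic function on `ℍ` whose `n`-th power is holomorphic is holomorphic. -/
theorem h35_hol_of_pow (n : ℕ) (hn : 0 < n) (v : h25_Mer) (w : h25_Hol)
    (h : v ^ n = algebraMap h25_Hol h25_Mer w) :
    ∃ v₀ : h25_Hol, algebraMap h25_Hol h25_Mer v₀ = v := by
  have hinj : Function.Injective (algebraMap h25_Hol h25_Mer) :=
    IsFractionRing.injective h25_Hol h25_Mer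
  by_cases hv : v = 0
  · exact ⟨0, by rw [map_zero, hv]⟩
  have hw : w ≠ 0 := by
    rintro rfl
    rw [map_zero] at h
    exact hv ((pow_eq_zero_iff hn.ne').mp h)
  have hdiv : ∀ τ : ℍ, (n : ℤ) ∣ h25_ordHol τ w := by
    intro τ
    have h1 := congrArg (h25_ord τ) h
    rw [h35_ord_pow τ hv, h25_ord_algebraMap τ hw] at h1
    exact ⟨_, h1.symm⟩
  obtain ⟨r, hr⟩ := gal_exists_root_hol n hn w hw hdiv
  have hr0 : r ≠ 0 := by
    rintro rfl
    rw [zero_pow hn.ne'] at hr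
    exact hw hr.symm
  have h2 : v ^ n = (algebraMap h25_Hol h25_Mer r) ^ n := by
    rw [h, ← map_pow, hr]
  obtain ⟨ζ, -, hζ⟩ := gal_root_unique n hn v (algebraMap h25_Hol h25_Mer r) h2
    (by rwa [Ne, map_eq_zero_iff _ hinj])
  exact ⟨h25_const ζ * r, by rw [map_mul, hζ]⟩

/-- **(L2)** A holomorphic `N`-periodic function on `ℍ` whose `n`-th power has a Laurent
`q_N`-expansion has a Laurent `q_N`-expansion. -/
theorem h35_isQExp_root {G : ℍ → ℂ} {N : ℕ} (hN : 0 < N) (hmd : MDiff G)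
    (hper : ∀ τ : ℍ, G ((N : ℝ) +ᵥ τ) = G τ) (n : ℕ) (hn : 0 < n) (c : LaurentSeries ℂ)
    (hc : h77_IsQExp (N : ℝ) c (fun τ => G τ ^ n)) :
    ∃ c' : LaurentSeries ℂ, h77_IsQExp (N : ℝ) c' G := by
  have hN' : (0 : ℝ) < N := by exact_mod_cast hN
  obtain ⟨M, p, rfl⟩ := h77_exists_single_mul c
  rw [h77_isQExp_single_mul_iff] at hc
  have hPS := h77_isPS_tsum_of_forall hN' hc
  have hdiff := hPS.differentiableOn
  set r : ℝ := Real.exp (-(2 * Real.pi / N)) with hr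
  have hr1 : r < 1 := by
    rw [hr, Real.exp_lt_one_iff]
    have : 0 < 2 * Real.pi / N := by positivity
    linarith
  obtain ⟨C, hC⟩ : ∃ C : ℝ, ∀ q : ℂ, ‖q‖ ≤ r → ‖∑' k : ℕ, p.coeff k * q ^ k‖ ≤ C := by
    have hcont : ContinuousOn (fun q : ℂ => ∑' k : ℕ, p.coeff k * q ^ k)
        (Metric.closedBall 0 r) :=
      hdiff.continuousOn.mono (Metric.closedBall_subset_ball hr1)
    obtain ⟨C, hC⟩ := (isCompact_closedBall (0 : ℂ) r).exists_bound_of_continuousOn hcont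
    exact ⟨C, fun q hq => hC q (by simpa [Metric.mem_closedBall, dist_zero_right] using hq)⟩
  have hq_le : ∀ τ : ℍ, 1 ≤ τ.im → ‖Function.Periodic.qParam (N : ℝ) τ‖ ≤ r := by
    intro τ hτ
    rw [Function.Periodic.norm_qParam, hr]
    apply Real.exp_le_exp.mpr
    have h1 : 2 * Real.pi / N ≤ 2 * Real.pi * τ.im / N := by
      apply div_le_div_of_nonneg_right _ hN'.le
      have : 0 < 2 * Real.pi := by positivity
      nlinarith
    have h2 : -2 * Real.pi * (τ : ℂ).im / N = -(2 * Real.pi * τ.im / N) := by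
      rw [UpperHalfPlane.coe_im]; ring
    rw [h2]
    linarith
  set m : ℕ := (-M).toNat with hm_def
  have hm : -M ≤ (m : ℤ) := Int.self_le_toNat _
  set G₁ : ℍ → ℂ := fun τ => G τ * Function.Periodic.qParam (N : ℝ) τ ^ m with hG₁
  have hqmd : MDiff (fun τ : ℍ => Function.Periodic.qParam (N : ℝ) τ ^ m) := by
    have h1 := (h77_isQExp_single (N : ℝ) (m : ℤ) 1).mdifferentiable hN'
    have h2 : (fun τ : ℍ => (1 : ℂ) * Function.Periodic.qParam (N : ℝ) τ ^ (m : ℤ)) =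
        fun τ : ℍ => Function.Periodic.qParam (N : ℝ) τ ^ m := by
      funext τ
      rw [one_mul, zpow_natCast]
    rwa [h2] at h1
  have hG₁md : MDiff G₁ := hmd.mul hqmd
  have hG₁per : ∀ τ : ℍ, G₁ ((N : ℝ) +ᵥ τ) = G₁ τ := by
    intro τ
    simp only [hG₁]
    rw [hper τ, UpperHalfPlane.coe_vadd]
    have h1 : Function.Periodic.qParam (N : ℝ) (((N : ℝ) : ℂ) + (τ : ℂ)) =
        Function.Periodic.qParam (N : ℝ) (τ : ℂ) := by
      simp only [Function.Periodic.qParam]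
      have hN0 : ((N : ℝ) : ℂ) ≠ 0 := by exact_mod_cast hN'.ne'
      have h2 : 2 * (Real.pi : ℂ) * Complex.I * (((N : ℝ) : ℂ) + (τ : ℂ)) / ((N : ℝ) : ℂ) =
          2 * (Real.pi : ℂ) * Complex.I * (τ : ℂ) / ((N : ℝ) : ℂ) +
            2 * (Real.pi : ℂ) * Complex.I := by
        field_simp
        ring
      rw [h2, Complex.exp_add, Complex.exp_two_pi_mul_I, mul_one]
    rw [h1]
  have hG₁bd : ∃ C' : ℝ, ∀ τ : ℍ, 1 ≤ τ.im → ‖G₁ τ‖ ≤ C' := by
    refine ⟨max 1 C, fun τ hτ => ?_⟩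
    have hq0 : Function.Periodic.qParam (N : ℝ) (τ : ℂ) ≠ 0 :=
      Function.Periodic.qParam_ne_zero _
    have hqlt : ‖Function.Periodic.qParam (N : ℝ) (τ : ℂ)‖ < 1 := h77_norm_qParam_lt_one hN' τ
    have hqpos : 0 < ‖Function.Periodic.qParam (N : ℝ) (τ : ℂ)‖ := norm_pos_iff.mpr hq0
    have hval : (∑' k : ℕ, p.coeff k * Function.Periodic.qParam (N : ℝ) (τ : ℂ) ^ k) =
        G τ ^ n * Function.Periodic.qParam (N : ℝ) (τ : ℂ) ^ (-M) := (hc τ).tsum_eq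
    have hb := hC _ (hq_le τ hτ)
    rw [hval] at hb
    have hexp : (0 : ℤ) ≤ M + (m : ℤ) * n := by
      have : (m : ℤ) ≤ (m : ℤ) * n := by
        have hn1 : (1 : ℤ) ≤ n := by exact_mod_cast hn
        nlinarith [Int.natCast_nonneg m]
      omega
    have h1 : G₁ τ ^ n = (G τ ^ n * Function.Periodic.qParam (N : ℝ) (τ : ℂ) ^ (-M)) *
        Function.Periodic.qParam (N : ℝ) (τ : ℂ) ^ (M + (m : ℤ) * n) := by
      have e1 : Function.Periodic.qParam (N : ℝ) (τ : ℂ) ^ (-M) *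
          Function.Periodic.qParam (N : ℝ) (τ : ℂ) ^ (M + (m : ℤ) * n) =
          Function.Periodic.qParam (N : ℝ) (τ : ℂ) ^ (m * n) := by
        rw [← zpow_add₀ hq0, neg_add_cancel_left]
        exact_mod_cast zpow_natCast (Function.Periodic.qParam (N : ℝ) (τ : ℂ)) (m * n)
      simp only [hG₁]
      rw [mul_pow, ← pow_mul, mul_assoc, e1]
    have h2 : ‖G₁ τ‖ ^ n ≤ C := by
      rw [← norm_pow, h1, norm_mul]
      have h3 : ‖Function.Periodic.qParam (N : ℝ) (τ : ℂ) ^ (M + (m : ℤ) * n)‖ ≤ 1 := by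
        rw [norm_zpow]
        exact zpow_le_one₀ hqpos hqlt.le hexp
      calc ‖G τ ^ n * Function.Periodic.qParam (N : ℝ) (τ : ℂ) ^ (-M)‖ *
            ‖Function.Periodic.qParam (N : ℝ) (τ : ℂ) ^ (M + (m : ℤ) * n)‖
          ≤ ‖G τ ^ n * Function.Periodic.qParam (N : ℝ) (τ : ℂ) ^ (-M)‖ * 1 :=
            mul_le_mul_of_nonneg_left h3 (norm_nonneg _)
        _ ≤ C := by rw [mul_one]; exact hb
    by_cases hle : ‖G₁ τ‖ ≤ 1
    · exact hle.trans (le_max_left _ _)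
    · have hgt : 1 ≤ ‖G₁ τ‖ := (not_le.mp hle).le
      have h4 : ‖G₁ τ‖ ≤ ‖G₁ τ‖ ^ n := le_self_pow₀ hgt hn.ne'
      exact (h4.trans h2).trans (le_max_right _ _)
  have h1 := h55_isQExp_of_periodic hN hG₁md hG₁bd hG₁per
  rw [h59_isQExp_ofPowerSeries] at h1
  refine ⟨HahnSeries.single (-(m : ℤ)) 1 *
    HahnSeries.ofPowerSeries ℤ ℂ (UpperHalfPlane.qExpansion (N : ℝ) G₁), ?_⟩
  rw [h77_isQExp_single_mul_iff]
  intro τ
  have h2 := h1 τ
  simp only [hG₁] at h2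
  rw [neg_neg, zpow_natCast]
  exact h2

/-- **FMF-HOL** (the holomorphic case of "analytic ⇒ algebraic", as a hypothesis): every good
`Γ₀(N)`-invariant holomorphic function on `ℍ` is in the image of `F_ℂ(N)`. -/
def h35_FmfHol (N : ℕ) : Prop :=
  ∀ (φ : ℍ → ℂ) (h : h55_Aut N 1 φ), ∃ f : gal_F ℂ N,
    gal_Phi (RingHom.id ℂ) N f = algebraMap h25_Hol h25_Mer ⟨φ, h.1⟩

/-- An invariant holomorphic function whose `n`-th power is the evaluation of an element of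
`A_N = ℂ[j(q^d) : d ∣ N]` is a good `Γ₀(N)`-invariant function. -/
theorem h35_aut_of_pow (N : ℕ) [NeZero N] (n : ℕ) (hn : 0 < n) (v₀ : h25_Hol)
    (hinv : ∀ γ ∈ Gamma0 N, γ • v₀ = v₀) (a : h78_AN ℂ N)
    (hpow : v₀ ^ n = gal_evHol (RingHom.id ℂ) N a) : h55_Aut N 1 (v₀ : ℍ → ℂ) := by
  have hfun : ∀ γ ∈ Gamma0 N, ∀ τ : ℍ, (v₀ : ℍ → ℂ) (γ • τ) = (v₀ : ℍ → ℂ) τ := by
    intro γ hγ τ
    have h1 := hinv γ⁻¹ (inv_mem hγ)
    have h2 := congrArg (fun f : h25_Hol => (f : ℍ → ℂ) τ) h1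
    have h3 : ((γ⁻¹ • v₀ : h25_Hol) : ℍ → ℂ) τ = (v₀ : ℍ → ℂ) τ := h2
    rw [h25_smul_Hol_apply, inv_inv] at h3
    exact h3
  refine ⟨v₀.2, fun γ τ => ?_, fun g => ?_⟩
  · rw [hfun γ.1 γ.2 τ]
    simp
  · have hper : ∀ τ : ℍ, (v₀ : ℍ → ℂ) (g • ((N : ℝ) +ᵥ τ)) = (v₀ : ℍ → ℂ) (g • τ) := by
      intro τ
      have hmem := h55_conj_T_mem N g
      have h1 : g • ((N : ℝ) +ᵥ τ) = (g * ModularGroup.T ^ N * g⁻¹) • (g • τ) := by
        have h2 := UpperHalfPlane.modular_T_zpow_smul τ (N : ℤ)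
        rw [zpow_natCast] at h2
        have h3 : ((N : ℤ) : ℝ) = (N : ℝ) := by push_cast; rfl
        rw [h3] at h2
        rw [← h2, ← mul_smul, ← mul_smul]
        congr 1
        group
      rw [h1, hfun _ hmem]
    obtain ⟨c, hc⟩ := h14_ev_conj_exp (RingHom.id ℂ) N a g
    have hcn : h77_IsQExp (N : ℝ) (ModularCurve.coeffMap (RingHom.id ℂ) c)
        (fun τ => (v₀ : ℍ → ℂ) (g • τ) ^ n) := by
      refine hc.congr fun τ => ?_
      have h1 := congrArg (fun f : h25_Hol => (f : ℍ → ℂ) (g • τ)) hpow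
      have h2 : ((v₀ ^ n : h25_Hol) : ℍ → ℂ) (g • τ) =
          ((gal_evHol (RingHom.id ℂ) N a : h25_Hol) : ℍ → ℂ) (g • τ) := h1
      rw [gal_evHol_coe] at h2
      show h14_ev (RingHom.id ℂ) N a (g • τ) = (v₀ : ℍ → ℂ) (g • τ) ^ n
      have h3 : ((v₀ ^ n : h25_Hol) : ℍ → ℂ) (g • τ) = (v₀ : ℍ → ℂ) (g • τ) ^ n := rfl
      rw [← h3, h2]
      rfl
    exact h35_isQExp_root (NeZero.pos N) (h25_mdiff_comp_smul v₀.2 g) hper n hn _ hcn

/-- **FMF-ROOT**, with FMF-HOL as a hypothesis. -/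
theorem h35_fmf_root_of (N : ℕ) [NeZero N] (hFMF : h35_FmfHol N) (n : ℕ) (hn : 0 < n)
    (u : h25_Mer) (hinv : ∀ γ ∈ Gamma0 N, γ • u = u) (f : gal_F ℂ N)
    (hpow : u ^ n = gal_Phi (RingHom.id ℂ) N f) :
    ∃ h : gal_F ℂ N, gal_Phi (RingHom.id ℂ) N h = u := by
  have hinj : Function.Injective (algebraMap h25_Hol h25_Mer) :=
    IsFractionRing.injective h25_Hol h25_Mer
  obtain ⟨a, b, hb, rfl⟩ := IsFractionRing.div_surjective (A := h78_AN ℂ N) f
  have hb0 : b ≠ 0 := nonZeroDivisors.ne_zero hb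
  have hb' : algebraMap (h78_AN ℂ N) (gal_F ℂ N) b ≠ 0 := by
    rw [Ne, map_eq_zero_iff _ (IsFractionRing.injective (h78_AN ℂ N) (gal_F ℂ N))]
    exact hb0
  have hΦb : gal_Phi (RingHom.id ℂ) N (algebraMap (h78_AN ℂ N) (gal_F ℂ N) b) ≠ 0 :=
    (map_ne_zero _).mpr hb'
  set v : h25_Mer := gal_Phi (RingHom.id ℂ) N (algebraMap (h78_AN ℂ N) (gal_F ℂ N) b) * u
    with hv
  obtain ⟨k, rfl⟩ : ∃ k, n = k + 1 := ⟨n - 1, by omega⟩
  have hvpow : v ^ (k + 1) =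
      algebraMap h25_Hol h25_Mer (gal_evHol (RingHom.id ℂ) N (b ^ k * a)) := by
    rw [← gal_Phi_algebraMap, hv, mul_pow, hpow, map_mul, map_pow, map_div₀, map_mul, map_pow,
      pow_succ]
    field_simp
  obtain ⟨v₀, hv₀⟩ := h35_hol_of_pow (k + 1) hn v _ hvpow
  have hv₀inv : ∀ γ ∈ Gamma0 N, γ • v₀ = v₀ := by
    intro γ hγ
    apply hinj
    rw [← h25_smul_algebraMap, hv₀, hv, smul_mul', gal_Phi_smul _ _ hγ, hinv γ hγ]
  have hv₀pow : v₀ ^ (k + 1) = gal_evHol (RingHom.id ℂ) N (b ^ k * a) := by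
    apply hinj
    rw [map_pow, hv₀, hvpow]
  have haut := h35_aut_of_pow N (k + 1) hn v₀ hv₀inv (b ^ k * a) hv₀pow
  obtain ⟨h₁, hh₁⟩ := hFMF _ haut
  refine ⟨h₁ / algebraMap (h78_AN ℂ N) (gal_F ℂ N) b, ?_⟩
  rw [map_div₀, hh₁]
  have h2 : (⟨(v₀ : ℍ → ℂ), haut.1⟩ : h25_Hol) = v₀ := rfl
  rw [h2, hv₀, hv, mul_div_cancel_left₀ _ hΦb]

/-- FMF-HOL holds (helper55's `h55_fmf_hol`). -/
theorem h35_fmfHol (N : ℕ) [NeZero N] : h35_FmfHol N := fun φ h =>
  h55_fmf_hol N φ h.1 h.invariant h.2.2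

/-- **FMF-ROOT.** A `Γ₀(N)`-invariant meromorphic function on `ℍ` whose `n`-th power is in the
image of the function field `F_ℂ(N)` is in the image of `F_ℂ(N)`. -/
theorem h35_fmf_root (N : ℕ) [NeZero N] (n : ℕ) (hn : 0 < n) (u : h25_Mer)
    (hinv : ∀ γ ∈ Gamma0 N, γ • u = u) (x : gal_F ℂ N)
    (hx : u ^ n = gal_Phi (RingHom.id ℂ) N x) :
    ∃ y : gal_F ℂ N, gal_Phi (RingHom.id ℂ) N y = u :=
  h35_fmf_root_of N (h35_fmfHol N) n hn u hinv x hx

end Fermat.Agent.GAL
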