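import Mathlib

/-!
# GAL (ASM, W-layer): the finite-dimensional Galois module cut out by one eigenvector

Tensor-free carrier.  For a field `k` of characteristic `p` and an abelian group `A` with an
action of a group `G` and commuting additive operators `T i`, put
`V := Hom(Hom(k, 𝔽_p), A)`, a `k`-vector space through `(c • v) λ = v (λ ∘ (c * ·))`
(it contains `k ⊗ A[p]`).  Given `v₀ ∈ V`, `v₀ ≠ 0`, which is an eigenvector
(`T i ∘ v₀ = θ i • v₀`) and is fixed by a normal subgroup `U` of finite index, the `k`-span `W`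
of the `G`-orbit of `v₀` is a nonzero finite-dimensional representation of `G` on which
* `U` acts trivially,
* every `g` acting trivially on the `p`-torsion of `A` acts trivially,
* every relation `g² - T i g + n = 0` on the `p`-torsion of `A` becomes `g² - θ i g + n = 0`.
-/

set_option autoImplicit false

namespace Fermat.Agent.GAL

section Carrier

variable (p : ℕ) (k : Type*) [Field k] (A : Type*) [AddCommGroup A]

/-- Precomposition with multiplication by `c` on `Hom(k, 𝔽_p)`. -/
def h42_dualMul (c : k) : (k →+ ZMod p) →+ (k →+ ZMod p) :=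
  (AddMonoidHom.mulLeft c).compHom'

variable {p k}

@[simp] theorem h42_dualMul_apply (c : k) (l : k →+ ZMod p) (x : k) :
    h42_dualMul p k c l x = l (c * x) := rfl

variable (p k)

/-- The `k`-vector space structure on `V = Hom(Hom(k, 𝔽_p), A)`. -/
@[reducible] def h42_moduleV : Module k ((k →+ ZMod p) →+ A) where
  smul c v := v.comp (h42_dualMul p k c)
  one_smul v := by
    refine AddMonoidHom.ext fun l => ?_
    show v (h42_dualMul p k 1 l) = v l
    congr 1
    refine AddMonoidHom.ext fun x => ?_
    simp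
  mul_smul c c' v := by
    refine AddMonoidHom.ext fun l => ?_
    show v (h42_dualMul p k (c * c') l) = v (h42_dualMul p k c' (h42_dualMul p k c l))
    congr 1
    refine AddMonoidHom.ext fun x => ?_
    simp [mul_assoc]
  smul_zero c := by
    refine AddMonoidHom.ext fun l => ?_
    rfl
  smul_add c v w := by
    refine AddMonoidHom.ext fun l => ?_
    rfl
  add_smul c c' v := by
    refine AddMonoidHom.ext fun l => ?_
    show v (h42_dualMul p k (c + c') l) = v (h42_dualMul p k c l) + v (h42_dualMul p k c' l)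
    rw [← map_add]
    congr 1
    refine AddMonoidHom.ext fun x => ?_
    simp [add_mul]
  zero_smul v := by
    refine AddMonoidHom.ext fun l => ?_
    show v (h42_dualMul p k 0 l) = 0
    have : h42_dualMul p k 0 l = 0 := by
      refine AddMonoidHom.ext fun x => ?_
      simp
    rw [this, map_zero]

end Carrier

section Main

universe uk uA

attribute [local instance] h42_moduleV

variable {p : ℕ} {k : Type uk} [Field k] {A : Type uA} [AddCommGroup A]

theorem h42_smulV_apply (c : k) (v : (k →+ ZMod p) →+ A) (l : k →+ ZMod p) :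
    (c • v) l = v (h42_dualMul p k c l) := rfl

/-- Post-composition with an additive endomorphism of `A`, as a `k`-linear map of `V`. -/
def h42_postV (p : ℕ) (k : Type*) [Field k] {A : Type*} [AddCommGroup A] (f : A →+ A) :
    ((k →+ ZMod p) →+ A) →ₗ[k] ((k →+ ZMod p) →+ A) where
  toFun v := f.comp v
  map_add' v w := AddMonoidHom.comp_add f v w
  map_smul' _ _ := rfl

@[simp] theorem h42_postV_apply (f : A →+ A) (v : (k →+ ZMod p) →+ A) (l : k →+ ZMod p) :
    h42_postV p k f v l = f (v l) := rfl

theorem h42_postV_comp (f f' : A →+ A) :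
    h42_postV p k (f.comp f') = (h42_postV p k f).comp (h42_postV p k f') := rfl

theorem h42_natCast_smulV (n : ℕ) (v : (k →+ ZMod p) →+ A) (l : k →+ ZMod p) :
    ((n : k) • v) l = n • v l := by
  rw [h42_smulV_apply, ← map_nsmul]
  congr 1
  refine AddMonoidHom.ext fun x => ?_
  rw [h42_dualMul_apply, AddMonoidHom.nsmul_apply, ← map_nsmul, nsmul_eq_mul]

/-- Every value of an element of `V` is killed by `p`. -/
theorem h42_p_smul_apply (v : (k →+ ZMod p) →+ A) (l : k →+ ZMod p) : p • v l = 0 := by
  rw [← map_nsmul]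
  have h : p • l = 0 := by
    refine AddMonoidHom.ext fun x => ?_
    rw [AddMonoidHom.nsmul_apply, nsmul_eq_mul, ZMod.natCast_self, zero_mul]
    rfl
  rw [h, map_zero]

variable {G : Type*} [Group G] [DistribMulAction G A]

/-- **ASM, W-layer (abstract).** -/
theorem h42_asmW {ι : Type*} (T : ι → A →+ A) (θ : ι → k)
    (hTG : ∀ (i : ι) (g : G) (x : A), T i (g • x) = g • T i x)
    (v₀ : (k →+ ZMod p) →+ A) (hv₀ : v₀ ≠ 0)
    (heig : ∀ (i : ι) (l : k →+ ZMod p), T i (v₀ l) = v₀ (h42_dualMul p k (θ i) l))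
    (U : Subgroup G) [U.Normal] [U.FiniteIndex]
    (hU : ∀ g ∈ U, ∀ l : k →+ ZMod p, g • v₀ l = v₀ l) :
    ∃ (W : Submodule k ((k →+ ZMod p) →+ A)) (r : G →* (W →ₗ[k] W)),
      Module.Finite k W ∧ Nontrivial W ∧
      (∀ (g : G) (w : W) (l : k →+ ZMod p), ((r g w : (k →+ ZMod p) →+ A)) l = g • (w : (k →+ ZMod p) →+ A) l) ∧
      (∀ g ∈ U, r g = 1) ∧
      (∀ g : G, (∀ x : A, p • x = 0 → g • x = x) → r g = 1) ∧
      (∀ (g : G) (i : ι) (n : ℕ),
        (∀ x : A, p • x = 0 → g • g • x - T i (g • x) + n • x = 0) →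
          ∀ w : W, r g (r g w) - θ i • r g w + (n : k) • w = 0) := by
  classical
  -- the action of `G` on `V`
  let act : G → ((k →+ ZMod p) →+ A) →ₗ[k] ((k →+ ZMod p) →+ A) :=
    fun g => h42_postV p k (DistribSMul.toAddMonoidHom A g)
  have act_apply : ∀ g v l, act g v l = g • v l := fun g v l => rfl
  have act_mul : ∀ g h v, act (g * h) v = act g (act h v) := by
    intro g h v
    refine AddMonoidHom.ext fun l => ?_
    rw [act_apply, act_apply, act_apply, mul_smul]
  have act_one : ∀ v, act 1 v = v := by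
    intro v
    refine AddMonoidHom.ext fun l => ?_
    rw [act_apply, one_smul]
  -- the span of the orbit
  let S : Set ((k →+ ZMod p) →+ A) := Set.range fun g : G => act g v₀
  let W : Submodule k ((k →+ ZMod p) →+ A) := Submodule.span k S
  have hstab : ∀ g, ∀ w ∈ W, act g w ∈ W := by
    intro g w hw
    have h1 : Submodule.map (act g) W ≤ W := by
      rw [Submodule.map_span, Submodule.span_le]
      rintro _ ⟨_, ⟨h, rfl⟩, rfl⟩
      refine Submodule.subset_span ⟨g * h, ?_⟩
      exact act_mul g h v₀
    exact h1 ⟨w, hw, rfl⟩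
  -- finiteness of the orbit
  have hfac : ∀ g h : G, g⁻¹ * h ∈ U → act g v₀ = act h v₀ := by
    intro g h hgh
    have h1 : h = g * (g⁻¹ * h) := by group
    rw [h1, act_mul]
    congr 1
    refine AddMonoidHom.ext fun l => ?_
    rw [act_apply, hU _ hgh]
  have hSfin : S.Finite := by
    let f : G ⧸ U → ((k →+ ZMod p) →+ A) := fun q =>
      Quotient.liftOn' q (fun g => act g v₀) (fun g h hgh => hfac g h (QuotientGroup.leftRel_apply.mp hgh))
    have hsub : S ⊆ Set.range f := by
      rintro _ ⟨g, rfl⟩
      exact ⟨QuotientGroup.mk g, rfl⟩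
    exact (Set.finite_range f).subset hsub
  have hWfin : Module.Finite k W := FiniteDimensional.span_of_finite k hSfin
  have hv₀W : v₀ ∈ W := Submodule.subset_span ⟨1, act_one v₀⟩
  have hWnt : Nontrivial W :=
    ⟨⟨⟨v₀, hv₀W⟩, 0, fun h => hv₀ (congrArg Subtype.val h)⟩⟩
  -- the eigen-property on `W`
  have hTact : ∀ i g v, h42_postV p k (T i) (act g v) = act g (h42_postV p k (T i) v) := by
    intro i g v
    refine AddMonoidHom.ext fun l => ?_
    rw [h42_postV_apply, act_apply, act_apply, h42_postV_apply, hTG]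
  have heigW : ∀ i, ∀ w ∈ W, h42_postV p k (T i) w = θ i • w := by
    intro i w hw
    have h1 : W ≤ LinearMap.ker (h42_postV p k (T i) - θ i • LinearMap.id) := by
      rw [Submodule.span_le]
      rintro _ ⟨g, rfl⟩
      rw [SetLike.mem_coe, LinearMap.mem_ker, LinearMap.sub_apply, LinearMap.smul_apply,
        LinearMap.id_apply, hTact, ← map_smul, ← map_sub]
      have h2 : h42_postV p k (T i) v₀ - θ i • v₀ = 0 := by
        rw [sub_eq_zero]
        refine AddMonoidHom.ext fun l => ?_
        rw [h42_postV_apply, heig, h42_smulV_apply]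
      rw [h2, map_zero]
    have h3 := h1 hw
    rw [LinearMap.mem_ker, LinearMap.sub_apply, LinearMap.smul_apply, LinearMap.id_apply,
      sub_eq_zero] at h3
    exact h3
  -- the representation
  let r : G →* (W →ₗ[k] W) :=
    { toFun := fun g => (act g).restrict (hstab g)
      map_one' := by
        refine LinearMap.ext fun w => Subtype.ext ?_
        exact act_one w
      map_mul' := by
        intro g h
        refine LinearMap.ext fun w => Subtype.ext ?_
        exact act_mul g h w }
  have r_coe : ∀ g (w : W), ((r g w : W) : (k →+ ZMod p) →+ A) = act g w := fun g w => rfl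
  refine ⟨W, r, hWfin, hWnt, fun g w l => rfl, ?_, ?_, ?_⟩
  · -- `U` acts trivially
    intro g hg
    refine LinearMap.ext fun w => Subtype.ext ?_
    rw [r_coe]
    show act g (w : (k →+ ZMod p) →+ A) = w
    have h1 : Set.EqOn (act g)
        (LinearMap.id : ((k →+ ZMod p) →+ A) →ₗ[k] ((k →+ ZMod p) →+ A)) S := by
      rintro _ ⟨h, rfl⟩
      rw [LinearMap.id_apply, ← act_mul]
      have h2 : (g * h)⁻¹ * h ∈ U := by
        have h3 : (g * h)⁻¹ * h = h⁻¹ * g⁻¹ * h := by group
        rw [h3]
        have h4 := ‹U.Normal›.conj_mem g⁻¹ (U.inv_mem hg) h⁻¹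
        rwa [inv_inv] at h4
      exact hfac (g * h) h h2
    exact LinearMap.eqOn_span h1 w.2
  · -- trivial action on the `p`-torsion
    intro g hg
    refine LinearMap.ext fun w => Subtype.ext ?_
    rw [r_coe]
    refine AddMonoidHom.ext fun l => ?_
    rw [act_apply]
    exact hg _ (h42_p_smul_apply _ l)
  · -- transfer of the quadratic relation
    intro g i n hrel w
    apply Subtype.ext
    refine AddMonoidHom.ext fun l => ?_
    have hgw : act g (w : (k →+ ZMod p) →+ A) ∈ W := hstab g _ w.2
    have h1 := heigW i _ hgw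
    have h2 := hrel ((w : (k →+ ZMod p) →+ A) l) (h42_p_smul_apply _ l)
    show (act g (act g (w : (k →+ ZMod p) →+ A)) - θ i • act g (w : (k →+ ZMod p) →+ A)
      + (n : k) • (w : (k →+ ZMod p) →+ A)) l = 0
    rw [← h1, AddMonoidHom.add_apply, AddMonoidHom.sub_apply, h42_natCast_smulV, act_apply,
      act_apply, h42_postV_apply, act_apply]
    exact h2

/-- **ASM, W-layer (abstract), packaged with an abstract carrier.** -/
theorem h42_asmW' {ι : Type*} (T : ι → A →+ A) (θ : ι → k)
    (hTG : ∀ (i : ι) (g : G) (x : A), T i (g • x) = g • T i x)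
    (v₀ : (k →+ ZMod p) →+ A) (hv₀ : v₀ ≠ 0)
    (heig : ∀ (i : ι) (l : k →+ ZMod p), T i (v₀ l) = v₀ (h42_dualMul p k (θ i) l))
    (U : Subgroup G) [U.Normal] [U.FiniteIndex]
    (hU : ∀ g ∈ U, ∀ l : k →+ ZMod p, g • v₀ l = v₀ l) :
    ∃ (W : Type (max uk uA)) (_ : AddCommGroup W) (_ : Module k W) (_ : Module.Finite k W)
      (_ : Nontrivial W) (r : G →* (W →ₗ[k] W)),
      (∀ g ∈ U, r g = 1) ∧
      (∀ g : G, (∀ x : A, p • x = 0 → g • x = x) → r g = 1) ∧
      (∀ (g : G) (i : ι) (n : ℕ),
        (∀ x : A, p • x = 0 → g • g • x - T i (g • x) + n • x = 0) →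
          ∀ w : W, r g (r g w) - θ i • r g w + (n : k) • w = 0) := by
  obtain ⟨W, r, hfin, hnt, -, h1, h2, h3⟩ := h42_asmW T θ hTG v₀ hv₀ heig U hU
  exact ⟨↥W, inferInstance, inferInstance, hfin, hnt, r, h1, h2, h3⟩

end Main

end Fermat.Agent.GAL
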