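import Mathlib
import Fermat.Agent.S16.h30_HeckeHom
import Fermat.Agent.GAL.h42_AsmW

/-!
# GAL (ASM): from a Hecke eigen-homomorphism `ψ : Γ₀(N) → k` and an equivariant injection
`Θ : Hom_pe(Γ₀(N), 𝔽_p) → A` to the finite-dimensional Galois module `W`

`h42_asm_of_coh` is the bridge between GAL-COH (`h42_coh_charP`: the homomorphism `ψ`), the
analytic layer (`Θ`: classes of order `p` attached to homomorphisms killing parabolic and
finite-order elements, Hecke-equivariant, injective), the Galois side (`G` acting on `A`,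
commuting with the `T ℓ`) and the final algebra (BLR).  No tensor products: the carrier is
`Hom(Hom(k, 𝔽_p), A)` of `h42_AsmW.lean`.
-/

set_option autoImplicit false

namespace Fermat.Agent.GAL

open CongruenceSubgroup ModularCurve.Period
open Fermat.Agent.S16

/-- `χ` kills the parabolic elements and the elements of finite order of `Γ₀(N)`. -/
def h42_PE {N : ℕ} {B : Type*} [AddCommGroup B] (χ : Additive (Gamma0 N) →+ B) : Prop :=
  IsParabolicHom (Gamma0 N) χ ∧ ∀ γ : Gamma0 N, IsOfFinOrder γ → χ (Additive.ofMul γ) = 0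

theorem h42_PE.comp {N : ℕ} {B C : Type*} [AddCommGroup B] [AddCommGroup C]
    {χ : Additive (Gamma0 N) →+ B} (h : h42_PE χ) (f : B →+ C) : h42_PE (f.comp χ) :=
  ⟨fun γ hγ => by
      show f (χ (Additive.ofMul γ)) = 0
      rw [h.1 γ hγ, map_zero],
    fun γ hγ => by
      show f (χ (Additive.ofMul γ)) = 0
      rw [h.2 γ hγ, map_zero]⟩

theorem h42_PE.zero {N : ℕ} {B : Type*} [AddCommGroup B] :
    h42_PE (0 : Additive (Gamma0 N) →+ B) :=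
  ⟨fun _ _ => rfl, fun _ _ => rfl⟩

theorem h42_PE.add {N : ℕ} {B : Type*} [AddCommGroup B] {χ χ' : Additive (Gamma0 N) →+ B}
    (h : h42_PE χ) (h' : h42_PE χ') : h42_PE (χ + χ') :=
  ⟨fun γ hγ => by
      show χ (Additive.ofMul γ) + χ' (Additive.ofMul γ) = 0
      rw [h.1 γ hγ, h'.1 γ hγ, add_zero],
    fun γ hγ => by
      show χ (Additive.ofMul γ) + χ' (Additive.ofMul γ) = 0
      rw [h.2 γ hγ, h'.2 γ hγ, add_zero]⟩

/-- An additive functional `k → 𝔽_p` separating a nonzero element. -/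
theorem h42_exists_functional {p : ℕ} [Fact p.Prime] {k : Type*} [Field k] [CharP k p] {x : k}
    (hx : x ≠ 0) : ∃ l : k →+ ZMod p, l x ≠ 0 := by
  let _ := ZMod.algebra k p
  obtain ⟨f, hf⟩ := Module.Projective.exists_dual_ne_zero (ZMod p) hx
  exact ⟨f.toAddMonoidHom, hf⟩

/-- The eigen-equation for `ψ`, read on the `𝔽_p`-valued homomorphisms `l ∘ ψ`. -/
theorem h42_heckeT_comp_eigen {N : ℕ} {p : ℕ} {k : Type*} [Field k] (ℓ : ℕ) [Fact ℓ.Prime]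
    (hℓN : ¬ ℓ ∣ N) (ψ : Additive (Gamma0 N) →+ k) (c : k)
    (h : h30_heckeT N ℓ hℓN ψ = c • ψ) (l : k →+ ZMod p) :
    h30_heckeT N ℓ hℓN (l.comp ψ) = (h42_dualMul p k c l).comp ψ := by
  rw [h30_heckeT_comp, h]
  rfl

universe uk uA

/-- **ASM bridge.** -/
theorem h42_asm_of_coh {N : ℕ} {p : ℕ} [Fact p.Prime] {k : Type uk} [Field k] [CharP k p]
    (ψ : Additive (Gamma0 N) →+ k) (hψ0 : ψ ≠ 0) (hψpe : h42_PE ψ) (θ : ℕ → k)
    (hψT : ∀ (ℓ : ℕ) [Fact ℓ.Prime] (hℓN : ¬ ℓ ∣ N), h30_heckeT N ℓ hℓN ψ = θ ℓ • ψ)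
    {G : Type*} [Group G] {A : Type uA} [AddCommGroup A] [DistribMulAction G A]
    (T : ℕ → A →+ A) (hTG : ∀ (ℓ : ℕ) (g : G) (x : A), T ℓ (g • x) = g • T ℓ x)
    (Θ : (Additive (Gamma0 N) →+ ZMod p) → A)
    (hΘadd : ∀ χ χ', h42_PE χ → h42_PE χ' → Θ (χ + χ') = Θ χ + Θ χ')
    (hΘinj : ∀ χ, h42_PE χ → Θ χ = 0 → χ = 0)
    (hΘT : ∀ (ℓ : ℕ) [Fact ℓ.Prime] (hℓN : ¬ ℓ ∣ N), ℓ ≠ p → ∀ χ, h42_PE χ →
      Θ (h30_heckeT N ℓ hℓN χ) = T ℓ (Θ χ))
    (U : Subgroup G) [U.Normal] [U.FiniteIndex]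
    (hU : ∀ g ∈ U, ∀ χ, h42_PE χ → g • Θ χ = Θ χ) :
    ∃ (W : Type (max uk uA)) (_ : AddCommGroup W) (_ : Module k W) (_ : Module.Finite k W)
      (_ : Nontrivial W) (r : G →* (W →ₗ[k] W)),
      (∀ g ∈ U, r g = 1) ∧
      (∀ g : G, (∀ x : A, p • x = 0 → g • x = x) → r g = 1) ∧
      (∀ (g : G) (ℓ : ℕ), ℓ.Prime → ¬ ℓ ∣ N → ℓ ≠ p →
        (∀ x : A, p • x = 0 → g • g • x - T ℓ (g • x) + ℓ • x = 0) →
          ∀ w : W, r g (r g w) - θ ℓ • r g w + (ℓ : k) • w = 0) := by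
  classical
  have hpe : ∀ l : k →+ ZMod p, h42_PE (l.comp ψ) := fun l => hψpe.comp l
  -- the eigenvector `v₀ = Θ ∘ (l ↦ l ∘ ψ)`
  let v₀ : (k →+ ZMod p) →+ A :=
    AddMonoidHom.mk' (fun l => Θ (l.comp ψ)) (fun l l' => by
      have h1 : (l + l').comp ψ = l.comp ψ + l'.comp ψ := rfl
      show Θ ((l + l').comp ψ) = _
      rw [h1, hΘadd _ _ (hpe l) (hpe l')])
  have hv₀ : ∀ l, v₀ l = Θ (l.comp ψ) := fun l => rfl
  have hv₀ne : v₀ ≠ 0 := by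
    obtain ⟨γ, hγ⟩ : ∃ γ, ψ γ ≠ 0 := by
      by_contra hall
      push Not at hall
      exact hψ0 (AddMonoidHom.ext hall)
    obtain ⟨l, hl⟩ := h42_exists_functional (p := p) hγ
    intro h0
    have h1 : Θ (l.comp ψ) = 0 := by rw [← hv₀, h0]; rfl
    have h2 := hΘinj _ (hpe l) h1
    exact hl (by simpa using DFunLike.congr_fun h2 γ)
  -- index set: the good primes
  let ι : Type := {ℓ : ℕ // ℓ.Prime ∧ ¬ ℓ ∣ N ∧ ℓ ≠ p}
  obtain ⟨W, i1, i2, i3, i4, r, h1, h2, h3⟩ :=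
    h42_asmW' (p := p) (k := k) (G := G) (ι := ι) (fun i => T i.1) (fun i => θ i.1)
      (fun i g x => hTG i.1 g x) v₀ hv₀ne
      (fun i l => by
        have : Fact (i.1).Prime := ⟨i.2.1⟩
        rw [hv₀, hv₀, ← hΘT i.1 i.2.2.1 i.2.2.2 _ (hpe l),
          h42_heckeT_comp_eigen i.1 i.2.2.1 ψ (θ i.1) (hψT i.1 i.2.2.1) l])
      U (fun g hg l => hU g hg _ (hpe l))
  refine ⟨W, i1, i2, i3, i4, r, h1, h2, ?_⟩
  intro g ℓ hℓ hℓN hℓp hrel w
  exact h3 g ⟨ℓ, hℓ, hℓN, hℓp⟩ ℓ hrel w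

end Fermat.Agent.GAL
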