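import Mathlib

/-!
# GAL: the residue fields of `ℤ̄ = integralClosure ℤ ℂ` are algebraically closed

For a maximal ideal `𝔪` of `integralClosure ℤ ℂ`, the field `ℤ̄ ⧸ 𝔪` is algebraically closed,
and it has characteristic `p` as soon as `p ∈ 𝔪`.
-/

set_option autoImplicit false

namespace Fermat.Agent.GAL

open Polynomial

/-- Every monic polynomial over `ℤ̄` of positive degree has a root in `ℤ̄`. -/
theorem h42_zbar_exists_root (P : (integralClosure ℤ ℂ)[X]) (hP : P.Monic)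
    (hdeg : P.natDegree ≠ 0) : ∃ z : integralClosure ℤ ℂ, P.eval z = 0 := by
  have hmap : (P.map (algebraMap (integralClosure ℤ ℂ) ℂ)).degree ≠ 0 := by
    rw [hP.degree_map, degree_eq_natDegree hP.ne_zero]
    exact_mod_cast hdeg
  obtain ⟨z, hz⟩ := IsAlgClosed.exists_root _ hmap
  have hz' : eval₂ (algebraMap (integralClosure ℤ ℂ) ℂ) z P = 0 := by
    rwa [IsRoot.def, eval_map] at hz
  have hint : IsIntegral (integralClosure ℤ ℂ) z := ⟨P, hP, hz'⟩
  have hintZ : IsIntegral ℤ z := isIntegral_trans z hint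
  refine ⟨⟨z, hintZ⟩, ?_⟩
  apply Subtype.ext
  have h1 : ((P.eval (⟨z, hintZ⟩ : integralClosure ℤ ℂ) : integralClosure ℤ ℂ) : ℂ) =
      eval₂ (algebraMap (integralClosure ℤ ℂ) ℂ) z P :=
    (Polynomial.eval₂_at_apply (algebraMap (integralClosure ℤ ℂ) ℂ) _).symm
  rw [h1, hz']
  rfl

/-- The residue field of `ℤ̄` at a maximal ideal is algebraically closed. -/
theorem h42_quot_isAlgClosed (𝔪 : Ideal (integralClosure ℤ ℂ)) [𝔪.IsMaximal] :
    @IsAlgClosed (integralClosure ℤ ℂ ⧸ 𝔪) (Ideal.Quotient.field 𝔪) := by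
  let _ : Field (integralClosure ℤ ℂ ⧸ 𝔪) := Ideal.Quotient.field 𝔪
  refine IsAlgClosed.of_exists_root _ fun p hp hirr => ?_
  obtain ⟨P, hPmap, hPdeg, hPmonic⟩ := Polynomial.lifts_and_natDegree_eq_and_monic
    (f := Ideal.Quotient.mk 𝔪)
    ((Polynomial.mem_lifts p).mpr (Polynomial.map_surjective _ Ideal.Quotient.mk_surjective p))
    hp
  have hdeg : P.natDegree ≠ 0 := by
    rw [hPdeg]
    exact (Polynomial.natDegree_pos_iff_degree_pos.mpr (Polynomial.degree_pos_of_irreducible hirr)).ne'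
  obtain ⟨z, hz⟩ := h42_zbar_exists_root P hPmonic hdeg
  refine ⟨Ideal.Quotient.mk 𝔪 z, ?_⟩
  rw [← hPmap, Polynomial.eval_map, Polynomial.eval₂_at_apply, hz, map_zero]

/-- The residue field of `ℤ̄` at a maximal ideal containing `p` has characteristic `p`. -/
theorem h42_quot_charP (𝔪 : Ideal (integralClosure ℤ ℂ)) [𝔪.IsMaximal] {p : ℕ} (hp : p.Prime)
    (hmem : (p : integralClosure ℤ ℂ) ∈ 𝔪) : CharP (integralClosure ℤ ℂ ⧸ 𝔪) p := by
  let _ : Field (integralClosure ℤ ℂ ⧸ 𝔪) := Ideal.Quotient.field 𝔪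
  have h0 : ((p : ℕ) : integralClosure ℤ ℂ ⧸ 𝔪) = 0 := by
    have : (Ideal.Quotient.mk 𝔪 (p : integralClosure ℤ ℂ)) = 0 :=
      Ideal.Quotient.eq_zero_iff_mem.mpr hmem
    simpa using this
  have h1 : ringChar (integralClosure ℤ ℂ ⧸ 𝔪) = p := CharP.ringChar_of_prime_eq_zero hp h0
  rw [← h1]
  exact ringChar.charP _

end Fermat.Agent.GAL
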