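import Mathlib
import Fermat.Agent.GAL.h29_Iface
import Fermat.Agent.GAL.h42_Coh
import Fermat.Agent.GAL.h42_Zbar
import Fermat.Agent.GAL.h42_AsmW
import Fermat.Agent.GAL.h42_AsmV0
import Fermat.Agent.GAL.h67_GalHecke

/-!
# GAL (ASM): the Galois module `W` inside `Hom(Hom(ℤ̄/𝔪, 𝔽_p), J₀(N))`

`h42_gal_W`: from `gal_ThetaProp N p` (interface THETA) and a normalised eigenform `g`, a nonzero
finite-dimensional representation `r` of `Gal(ℚ̄/ℚ)` over `ℤ̄ ⧸ 𝔪`, of finite level, such that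
* every `σ` acting trivially on `J₀(N)[p]` acts trivially, and
* every relation `σ² - T_ℓ σ + ℓ = 0` on `J₀(N)[p]` gives `r σ² - a_ℓ r σ + ℓ = 0`.
-/

set_option autoImplicit false

namespace Fermat.Agent.GAL

open CongruenceSubgroup ModularCurve ModularCurve.Period ModularFormClass
open Fermat.Agent.S16

/-- Homomorphisms from `Γ₀(N)` to a finite group form a finite set. -/
theorem h42_finite_hom (N : ℕ) [NeZero N] (B : Type*) [AddCommGroup B] [Finite B] :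
    Finite (Additive (Gamma0 N) →+ B) := by
  classical
  obtain ⟨S, hS⟩ := (Group.fg_iff (G := Gamma0 N)).mp (h42_gamma0_fg N)
  have hSfin : Finite S := hS.2.to_subtype
  let F : (Additive (Gamma0 N) →+ B) → (S → B) := fun χ s => χ (Additive.ofMul (s : Gamma0 N))
  refine Finite.of_injective F ?_
  intro χ χ' h
  have h1 : AddMonoidHom.toMultiplicativeRight χ = AddMonoidHom.toMultiplicativeRight χ' := by
    refine MonoidHom.eq_of_eqOn_dense hS.1 ?_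
    intro s hs
    exact congrArg Multiplicative.ofAdd (congrFun h ⟨s, hs⟩)
  exact AddMonoidHom.toMultiplicativeRight.injective h1

/-- A normal subgroup of finite index of `Gal(ℚ̄/ℚ)` fixing a given number field, itself of
finite level. -/
theorem h42_exists_normal_level (E : IntermediateField ℚ (AlgebraicClosure ℚ))
    [FiniteDimensional ℚ E] :
    ∃ U : Subgroup (AlgebraicClosure ℚ ≃ₐ[ℚ] AlgebraicClosure ℚ), U.Normal ∧ U.FiniteIndex ∧
      (∀ σ ∈ U, ∀ a ∈ E, σ a = a) ∧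
      ∃ L : IntermediateField ℚ (AlgebraicClosure ℚ), FiniteDimensional ℚ L ∧
        ∀ σ : AlgebraicClosure ℚ ≃ₐ[ℚ] AlgebraicClosure ℚ, (∀ a ∈ L, σ a = a) → σ ∈ U := by
  have halg : Algebra.IsAlgebraic ℚ (AlgebraicClosure ℚ) := AlgebraicClosure.isAlgebraic ℚ
  have hclo : IsAlgClosure ℚ (AlgebraicClosure ℚ) := ⟨inferInstance, inferInstance⟩
  have hnor : Normal ℚ (AlgebraicClosure ℚ) := IsAlgClosure.normal ℚ (AlgebraicClosure ℚ)
  have hLfin : FiniteDimensional ℚ (IntermediateField.normalClosure ℚ E (AlgebraicClosure ℚ)) :=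
    inferInstance
  have hLnormal : Normal ℚ (IntermediateField.normalClosure ℚ E (AlgebraicClosure ℚ)) :=
    normalClosure.normal ℚ E (AlgebraicClosure ℚ)
  have hker : (AlgEquiv.restrictNormalHom (F := ℚ) (K₁ := AlgebraicClosure ℚ)
      (IntermediateField.normalClosure ℚ E (AlgebraicClosure ℚ))).ker =
      (IntermediateField.normalClosure ℚ E (AlgebraicClosure ℚ)).fixingSubgroup :=
    IntermediateField.restrictNormalHom_ker _
  refine ⟨(IntermediateField.normalClosure ℚ E (AlgebraicClosure ℚ)).fixingSubgroup, ?_, ?_, ?_,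
    IntermediateField.normalClosure ℚ E (AlgebraicClosure ℚ), hLfin, ?_⟩
  · rw [← hker]; infer_instance
  · rw [← hker]; infer_instance
  · intro σ hσ a ha
    exact (IntermediateField.mem_fixingSubgroup_iff _ σ).mp hσ a
      (IntermediateField.le_normalClosure E ha)
  · intro σ hσ
    exact (IntermediateField.mem_fixingSubgroup_iff _ σ).mpr hσ

/-- **ASM, the Galois module.** From interface THETA at level `p` and a normalised eigenform:
a nonzero finite-dimensional representation of `Gal(ℚ̄/ℚ)` over `ℤ̄ ⧸ 𝔪`, of finite level,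
inheriting from `J₀(N)[p]` triviality of the action and the Eichler–Shimura relations (with
`T_ℓ` replaced by the eigenvalue `a_ℓ mod 𝔪`). -/
theorem h42_gal_W (N : ℕ) [NeZero N] {g : CuspForm (Gamma0 N) 2} (hg : g.IsNormalizedEigenform)
    (p : ℕ) [Fact p.Prime] (𝔪 : Ideal (integralClosure ℤ ℂ)) [𝔪.IsMaximal]
    (hp𝔪 : (p : integralClosure ℤ ℂ) ∈ 𝔪) (hΘ : gal_ThetaProp N p) :
    ∃ (a : ℕ → integralClosure ℤ ℂ) (W : Type) (_ : AddCommGroup W)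
      (_ : Module (integralClosure ℤ ℂ ⧸ 𝔪) W) (_ : Module.Finite (integralClosure ℤ ℂ ⧸ 𝔪) W)
      (_ : Nontrivial W)
      (r : (AlgebraicClosure ℚ ≃ₐ[ℚ] AlgebraicClosure ℚ) →*
        (W →ₗ[integralClosure ℤ ℂ ⧸ 𝔪] W)),
      (∀ ℓ : ℕ, ℓ.Prime → ¬ ℓ ∣ N → (a ℓ : ℂ) = qCoeff g ℓ) ∧
      (∃ L : IntermediateField ℚ (AlgebraicClosure ℚ), FiniteDimensional ℚ L ∧
        ∀ σ : AlgebraicClosure ℚ ≃ₐ[ℚ] AlgebraicClosure ℚ, (∀ x ∈ L, σ x = x) → r σ = 1) ∧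
      (∀ σ : AlgebraicClosure ℚ ≃ₐ[ℚ] AlgebraicClosure ℚ,
        (∀ x : JZero N, p • x = 0 → σ • x = x) → r σ = 1) ∧
      (∀ (σ : AlgebraicClosure ℚ ≃ₐ[ℚ] AlgebraicClosure ℚ) (ℓ : ℕ) (hℓ : ℓ.Prime),
        ¬ ℓ ∣ N → ℓ ≠ p →
        (∀ x : JZero N, p • x = 0 →
          σ • σ • x - heckeOperatorBar N ⟨ℓ, hℓ⟩ (σ • x) + ℓ • x = 0) →
        ∀ w : W, r σ (r σ w) - Ideal.Quotient.mk 𝔪 (a ℓ) • r σ w +
          ((ℓ : ℕ) : integralClosure ℤ ℂ ⧸ 𝔪) • w = 0) := by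
  classical
  let _ : Field (integralClosure ℤ ℂ ⧸ 𝔪) := Ideal.Quotient.field 𝔪
  have hp : p.Prime := Fact.out
  have : CharP (integralClosure ℤ ℂ ⧸ 𝔪) p := h42_quot_charP 𝔪 hp hp𝔪
  have hker : (RingHom.ker (Ideal.Quotient.mk 𝔪)).IsMaximal := by
    rw [Ideal.mk_ker]; infer_instance
  obtain ⟨a, ψ, ha, hψ0, -, hψpar, hψfin, hψT⟩ := h42_coh hg (Ideal.Quotient.mk 𝔪) hker
  obtain ⟨Θ, hΘinj, hΘT⟩ := hΘ
  have hpe : ∀ l : (integralClosure ℤ ℂ ⧸ 𝔪) →+ ZMod p, l.comp ψ ∈ gal_Hpe N p := fun l =>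
    ⟨fun γ hγ => by
        show l (ψ (Additive.ofMul γ)) = 0
        rw [hψpar γ hγ, map_zero],
      fun γ hγ => by
        show l (ψ (Additive.ofMul γ)) = 0
        rw [hψfin γ hγ, map_zero]⟩
  let v₀ : ((integralClosure ℤ ℂ ⧸ 𝔪) →+ ZMod p) →+ JZero N :=
    AddMonoidHom.mk' (fun l => Θ ⟨l.comp ψ, hpe l⟩) (fun l l' => by
      rw [← map_add]; rfl)
  have hv₀ : ∀ l, v₀ l = Θ ⟨l.comp ψ, hpe l⟩ := fun l => rfl
  have hv₀ne : v₀ ≠ 0 := by
    obtain ⟨γ, hγ⟩ : ∃ γ, ψ γ ≠ 0 := by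
      by_contra hall
      push Not at hall
      exact hψ0 (AddMonoidHom.ext hall)
    obtain ⟨l, hl⟩ := h42_exists_functional (p := p) hγ
    intro h0
    have h1 : Θ ⟨l.comp ψ, hpe l⟩ = Θ 0 := by rw [← hv₀, h0, map_zero]; rfl
    have h2 := congrArg Subtype.val (hΘinj h1)
    exact hl (by simpa using DFunLike.congr_fun h2 γ)
  -- finite level of the values
  have : Finite (Additive (Gamma0 N) →+ ZMod p) := h42_finite_hom N (ZMod p)
  have hSfin : (Set.range Θ).Finite := Set.finite_range Θ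
  have hStor : ∀ x ∈ Set.range Θ, ∃ n : ℕ, 0 < n ∧ n • x = 0 := by
    rintro _ ⟨χ, rfl⟩
    refine ⟨p, hp.pos, ?_⟩
    rw [← map_nsmul]
    have h1 : p • χ = 0 := by
      apply Subtype.ext
      refine AddMonoidHom.ext fun γ => ?_
      show (p • (χ : Additive (Gamma0 N) →+ ZMod p)) γ = 0
      rw [AddMonoidHom.nsmul_apply, nsmul_eq_mul, ZMod.natCast_self, zero_mul]
    rw [h1, map_zero]
  obtain ⟨E, hEfin, hE⟩ := h67_finite_torsion_stabiliser N (Set.range Θ) hSfin hStor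
  obtain ⟨U, hUn, hUf, hUE, L, hLfin, hLU⟩ := h42_exists_normal_level E
  let ι : Type := {ℓ : ℕ // ℓ.Prime ∧ ¬ ℓ ∣ N ∧ ℓ ≠ p}
  obtain ⟨W, i1, i2, i3, i4, r, h1, h2, h3⟩ :=
    h42_asmW' (p := p) (k := integralClosure ℤ ℂ ⧸ 𝔪)
      (G := AlgebraicClosure ℚ ≃ₐ[ℚ] AlgebraicClosure ℚ) (A := JZero N) (ι := ι)
      (fun i => (heckeOperatorBar N ⟨i.1, i.2.1⟩).toAddMonoidHom)
      (fun i => Ideal.Quotient.mk 𝔪 (a i.1))
      (fun i σ x => h67_hecke_galois_comm N ⟨i.1, i.2.1⟩ σ x) v₀ hv₀ne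
      (fun i l => by
        have : Fact (i.1).Prime := ⟨i.2.1⟩
        have hnd : ¬ i.1 ∣ p := (Nat.prime_dvd_prime_iff_eq i.2.1 hp).not.mpr i.2.2.2
        have h4 := hΘT i.1 i.2.2.1 hnd ⟨l.comp ψ, hpe l⟩
          ⟨(h42_dualMul p _ (Ideal.Quotient.mk 𝔪 (a i.1)) l).comp ψ, hpe _⟩
          (h42_heckeT_comp_eigen i.1 i.2.2.1 ψ _ (hψT i.1 i.2.2.1) l).symm
        exact h4)
      U (fun σ hσ l => hE σ (hUE σ hσ) _ ⟨_, rfl⟩)
  refine ⟨a, W, i1, i2, i3, i4, r, ha, ⟨L, hLfin, fun σ hσ => h1 σ (hLU σ hσ)⟩, h2, ?_⟩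
  intro σ ℓ hℓ hℓN hℓp hrel w
  exact h3 σ ⟨ℓ, hℓ, hℓN, hℓp⟩ ℓ hrel w

end Fermat.Agent.GAL
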