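import Mathlib
import Fermat.Prelude.Def_GaloisRep_ComplexConjugation

/-!
# Complex conjugation in the absolute Galois group of ℚ inverts roots of unity

`c := complexConjugation` (Prelude) satisfies `c * c = 1` and `c z = z⁻¹` for every root of
unity `z` of `AlgebraicClosure ℚ`.
-/

set_option autoImplicit false

namespace Fermat.Agent.GAL

/-- complex conjugation inverts every root of unity of `AlgebraicClosure ℚ`. -/
theorem h47_complexConjugation_root (z : AlgebraicClosure ℚ) (n : ℕ) (hn : n ≠ 0)
    (hz : z ^ n = 1) : complexConjugation z = z⁻¹ := by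
  apply complexEmbedding.toRingHom.injective
  show complexEmbedding (complexConjugation z) = complexEmbedding z⁻¹
  rw [complexEmbedding_complexConjugation, map_inv₀]
  have hw : (complexEmbedding z) ^ n = 1 := by rw [← map_pow, hz, map_one]
  have hnorm : ‖complexEmbedding z‖ = 1 := Complex.norm_eq_one_of_pow_eq_one hw hn
  exact (Complex.inv_eq_conj hnorm).symm

/-- the same for powers: `c (z ^ k) = (z ^ k)⁻¹`, and `c z * z = 1`. -/
theorem h47_complexConjugation_root_mul (z : AlgebraicClosure ℚ) (n : ℕ) (hn : n ≠ 0)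
    (hz : z ^ n = 1) : complexConjugation z * z = 1 := by
  have hz0 : z ≠ 0 := by
    rintro rfl
    rw [zero_pow hn] at hz
    exact zero_ne_one hz
  rw [h47_complexConjugation_root z n hn hz, inv_mul_cancel₀ hz0]

/-- packaged existence statement: an involution of `Gal(ℚbar/ℚ)` inverting all roots of unity. -/
theorem h47_exists_complexConj :
    ∃ c : AlgebraicClosure ℚ ≃ₐ[ℚ] AlgebraicClosure ℚ, c * c = 1 ∧
      ∀ (z : AlgebraicClosure ℚ) (n : ℕ), n ≠ 0 → z ^ n = 1 → c z = z⁻¹ :=
  ⟨complexConjugation, complexConjugation_mul_self, h47_complexConjugation_root⟩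

/-- on a primitive root: `c ζ = ζ ^ (n - 1)`. -/
theorem h47_complexConjugation_primitiveRoot {ζ : AlgebraicClosure ℚ} {n : ℕ} (hn : n ≠ 0)
    (hζ : IsPrimitiveRoot ζ n) : complexConjugation ζ = ζ ^ (n - 1) := by
  rw [h47_complexConjugation_root ζ n hn hζ.pow_eq_one]
  have hz0 : ζ ≠ 0 := hζ.ne_zero hn
  apply inv_eq_of_mul_eq_one_right
  rw [← pow_succ', Nat.sub_add_cancel (Nat.pos_of_ne_zero hn), hζ.pow_eq_one]

end Fermat.Agent.GAL
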