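import Mathlib

/-!
# GAL packaging helper: the image of `ℤ̄ → k` is an algebraically closed field

For a ring homomorphism `φ : integralClosure ℤ ℂ →+* k` into a field of characteristic `p`
the kernel is a maximal ideal and the image is an algebraically closed subfield `k0 ⊆ k`
(`≅ ℤ̄ / ker φ`).  So the algebraically closed version of the BLR lemma (`gal_blr_end`)
applies over `k0`, and the resulting representation is base-changed to `k`.
-/

set_option autoImplicit false

namespace Fermat.Agent.GAL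

open Polynomial

/-- `ℤ̄` modulo a maximal ideal is algebraically closed. -/
theorem h47_zbar_quot_isAlgClosed (m : Ideal (integralClosure ℤ ℂ)) [hm : m.IsMaximal] :
    letI := Ideal.Quotient.field m
    IsAlgClosed (integralClosure ℤ ℂ ⧸ m) := by
  let _ := Ideal.Quotient.field m
  refine IsAlgClosed.of_exists_root _ fun f hf hirr => ?_
  have hsurj : Function.Surjective (Ideal.Quotient.mk m) := Ideal.Quotient.mk_surjective
  have hlift : f ∈ Polynomial.lifts (Ideal.Quotient.mk m) := by
    rw [Polynomial.mem_lifts]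
    exact Polynomial.map_surjective _ hsurj f
  obtain ⟨q, hq, hdeg, hqm⟩ := Polynomial.lifts_and_degree_eq_and_monic hlift hf
  have hqdeg : q.degree ≠ 0 := by
    rw [hdeg]
    exact Polynomial.degree_ne_of_natDegree_ne (Irreducible.natDegree_pos hirr).ne'
  -- a root in `ℂ`
  have hq' : (q.map (algebraMap (integralClosure ℤ ℂ) ℂ)).degree ≠ 0 := by
    rwa [Polynomial.degree_map_eq_of_injective (FaithfulSMul.algebraMap_injective _ _)]
  obtain ⟨z, hz⟩ := IsAlgClosed.exists_root (q.map (algebraMap (integralClosure ℤ ℂ) ℂ)) hq'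
  have hz' : Polynomial.eval₂ (algebraMap (integralClosure ℤ ℂ) ℂ) z q = 0 := by
    rwa [Polynomial.IsRoot.def, Polynomial.eval_map] at hz
  have hzint : IsIntegral (integralClosure ℤ ℂ) z := ⟨q, hqm, hz'⟩
  have hzint' : IsIntegral ℤ z := isIntegral_trans z hzint
  let x : integralClosure ℤ ℂ := ⟨z, hzint'⟩
  have hx : q.eval x = 0 := by
    apply FaithfulSMul.algebraMap_injective (integralClosure ℤ ℂ) ℂ
    rw [map_zero, ← Polynomial.eval₂_at_apply]
    exact hz'
  refine ⟨Ideal.Quotient.mk m x, ?_⟩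
  rw [← hq, Polynomial.eval_map_apply, hx, map_zero]

/-- The kernel of `ℤ̄ → k` (`k` a field of characteristic `p`) is a maximal ideal. -/
theorem h47_zbar_ker_isMaximal {p : ℕ} (hp : p.Prime) {k : Type*} [Field k] [CharP k p]
    (φ : integralClosure ℤ ℂ →+* k) : (RingHom.ker φ).IsMaximal := by
  have : (RingHom.ker φ).IsPrime := RingHom.ker_isPrime φ
  apply Ideal.isMaximal_of_isIntegral_of_isMaximal_comap (R := ℤ) (RingHom.ker φ)
  have hprime : ((RingHom.ker φ).comap (algebraMap ℤ (integralClosure ℤ ℂ))).IsPrime :=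
    Ideal.comap_isPrime _ _
  have hmem : (p : ℤ) ∈ (RingHom.ker φ).comap (algebraMap ℤ (integralClosure ℤ ℂ)) := by
    rw [Ideal.mem_comap, RingHom.mem_ker, map_natCast, map_natCast]
    exact CharP.cast_eq_zero k p
  have hne : (RingHom.ker φ).comap (algebraMap ℤ (integralClosure ℤ ℂ)) ≠ ⊥ := by
    intro h0
    rw [h0, Ideal.mem_bot] at hmem
    exact hp.ne_zero (by exact_mod_cast hmem)
  exact hprime.isMaximal hne

/-- **The image of `ℤ̄ → k` is an algebraically closed subfield.** -/
theorem h47_exists_algClosed_subfield {p : ℕ} (hp : p.Prime) {k : Type*} [Field k] [CharP k p]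
    (φ : integralClosure ℤ ℂ →+* k) :
    ∃ k0 : Subfield k, (∀ x, φ x ∈ k0) ∧ (∀ y ∈ k0, ∃ x, φ x = y) ∧ IsAlgClosed k0 := by
  have hm : (RingHom.ker φ).IsMaximal := h47_zbar_ker_isMaximal hp φ
  let _ := Ideal.Quotient.field (RingHom.ker φ)
  have : IsAlgClosed (integralClosure ℤ ℂ ⧸ RingHom.ker φ) :=
    h47_zbar_quot_isAlgClosed (RingHom.ker φ)
  let ψ : (integralClosure ℤ ℂ ⧸ RingHom.ker φ) →+* k := RingHom.kerLift φ
  have hψ : ∀ x, ψ (Ideal.Quotient.mk _ x) = φ x := fun x => RingHom.kerLift_mk φ x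
  refine ⟨ψ.fieldRange, fun x => ⟨Ideal.Quotient.mk _ x, hψ x⟩, ?_, ?_⟩
  · rintro y ⟨z, rfl⟩
    obtain ⟨x, rfl⟩ := Ideal.Quotient.mk_surjective z
    exact ⟨x, (hψ x).symm⟩
  · -- transport along `ℤ̄ / ker φ ≃ range` (universe-polymorphic version of `of_ringEquiv`)
    let e := ψ.rangeRestrictFieldEquiv
    apply IsAlgClosed.of_exists_root
    intro f _ hf
    have hfe : degree (f.map e.symm.toRingHom) ≠ 0 := by
      rw [degree_map]
      exact ne_of_gt (degree_pos_of_irreducible hf)
    obtain ⟨x, hx⟩ := IsAlgClosed.exists_root (f.map e.symm.toRingHom) hfe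
    refine ⟨e x, ?_⟩
    rw [IsRoot.def, eval_map] at hx
    apply e.symm.injective
    rw [map_zero, ← hx]
    have h1 := Polynomial.hom_eval₂ f (RingHom.id _) e.symm.toRingHom (e x)
    simp only [RingHom.comp_id, RingEquiv.toRingHom_eq_coe, RingHom.coe_coe,
      RingEquiv.symm_apply_apply, Polynomial.eval₂_id] at h1
    exact h1

end Fermat.Agent.GAL
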