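import Mathlib
import Fermat.Agent.GAL.h55_UChi
import Fermat.Agent.GAL.h77_AnDefs

/-!
# GAL: `u_χ = E_χ^(12) / Δ` is a `gal_AutForm`

* `h55_disc_inv_norm_le`: `‖Δ(τ)⁻¹‖ ≤ C * exp (2π Im τ)` on `Im τ ≥ 1`;
* `h55_bounded_of_periodic`: a `1`-periodic holomorphic function bounded at `i∞` is bounded on
  `Im τ ≥ 1`; `h55_E4_bounded`;
* `h55_u_autForm`: `gal_AutForm N χ (h55_u N χ)`.
-/

set_option autoImplicit false

namespace Fermat.Agent.GAL

open UpperHalfPlane ModularForm CongruenceSubgroup EisensteinSeries Matrix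
open Fermat.Agent.S24
open scoped MatrixGroups Manifold

local notation "𝕢" => Function.Periodic.qParam

theorem h55_norm_qParam_le {h : ℝ} (hh : 0 < h) {τ : ℍ} (hτ : h ≤ τ.im) :
    ‖𝕢 h (τ : ℂ)‖ ≤ Real.exp (-2 * Real.pi) := by
  rw [Function.Periodic.norm_qParam]
  apply Real.exp_le_exp.mpr
  have hpi := Real.pi_pos
  have h1 : 1 ≤ (τ : ℂ).im / h := by
    rw [le_div_iff₀ hh, one_mul]
    exact hτ
  have h2 : -2 * Real.pi * (τ : ℂ).im / h = -2 * Real.pi * ((τ : ℂ).im / h) := by ring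
  rw [h2]
  nlinarith

theorem h55_exp_neg_two_pi_lt_one : Real.exp (-2 * Real.pi) < 1 := by
  have hpi := Real.pi_pos
  have h := Real.exp_lt_exp.mpr (show -2 * Real.pi < 0 by linarith)
  rwa [Real.exp_zero] at h

/-- Lower bound for the discriminant: `‖Δ(τ)⁻¹‖ ≤ C * exp (2π Im τ)` for `Im τ ≥ 1`. -/
theorem h55_disc_inv_norm_le :
    ∃ C : ℝ, ∀ τ : ℍ, 1 ≤ τ.im → ‖(discriminant τ)⁻¹‖ ≤ C * Real.exp (2 * Real.pi * τ.im) := by
  have hr := h55_exp_neg_two_pi_lt_one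
  have hsub : Metric.closedBall (0 : ℂ) (Real.exp (-2 * Real.pi)) ⊆ Metric.ball 0 1 :=
    Metric.closedBall_subset_ball hr
  have hd : DifferentiableOn ℂ (fun q => (h77_euler q ^ 24)⁻¹) (Metric.ball 0 1) := by
    refine DifferentiableOn.inv (h77_differentiableOn_euler.pow 24) fun q hq => ?_
    exact pow_ne_zero 24 (h77_euler_ne_zero (by simpa using hq))
  obtain ⟨C, hC⟩ := (isCompact_closedBall (0 : ℂ) (Real.exp (-2 * Real.pi))).exists_bound_of_continuousOn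
    (hd.continuousOn.mono hsub)
  refine ⟨C, fun τ hτ => ?_⟩
  have hq : 𝕢 1 (τ : ℂ) ∈ Metric.closedBall (0 : ℂ) (Real.exp (-2 * Real.pi)) := by
    rw [mem_closedBall_zero_iff]
    exact h55_norm_qParam_le one_pos hτ
  have h1 := hC _ hq
  have hq0 : 𝕢 1 (τ : ℂ) ≠ 0 := Function.Periodic.qParam_ne_zero _
  have hnq : ‖(𝕢 1 (τ : ℂ))⁻¹‖ = Real.exp (2 * Real.pi * τ.im) := by
    rw [norm_inv, Function.Periodic.norm_qParam, ← Real.exp_neg]
    congr 1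
    rw [UpperHalfPlane.coe_im]
    ring
  rw [h77_discriminant_eq, _root_.mul_inv_rev, norm_mul, hnq]
  exact mul_le_mul_of_nonneg_right h1 (Real.exp_pos _).le

/-- A `1`-periodic holomorphic function on `ℍ` which is bounded at `i∞` is bounded on
`Im τ ≥ 1`. -/
theorem h55_bounded_of_periodic {G : ℍ → ℂ} (hmd : MDiff G)
    (hper : Function.Periodic (G ∘ ofComplex) ((1 : ℝ) : ℂ)) (hb : IsBoundedAtImInfty G) :
    ∃ C : ℝ, ∀ τ : ℍ, 1 ≤ τ.im → ‖G τ‖ ≤ C := by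
  have hr := h55_exp_neg_two_pi_lt_one
  have hsub : Metric.closedBall (0 : ℂ) (Real.exp (-2 * Real.pi)) ⊆ Metric.ball 0 1 :=
    Metric.closedBall_subset_ball hr
  have hd := UpperHalfPlane.differentiableOn_cuspFunction_ball one_pos hper hmd hb
  obtain ⟨C, hC⟩ := (isCompact_closedBall (0 : ℂ) (Real.exp (-2 * Real.pi))).exists_bound_of_continuousOn
    (hd.continuousOn.mono hsub)
  refine ⟨C, fun τ hτ => ?_⟩
  have hq : 𝕢 1 (τ : ℂ) ∈ Metric.closedBall (0 : ℂ) (Real.exp (-2 * Real.pi)) := by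
    rw [mem_closedBall_zero_iff]
    exact h55_norm_qParam_le one_pos hτ
  have h1 := hC _ hq
  rwa [UpperHalfPlane.eq_cuspFunction τ one_ne_zero hper] at h1

/-- `E₄` is bounded on `Im τ ≥ 1`. -/
theorem h55_E4_bounded : ∃ C : ℝ, ∀ τ : ℍ, 1 ≤ τ.im → ‖E₄ τ‖ ≤ C :=
  h55_bounded_of_periodic h39_E4_mdiff h39_E4_periodic h39_E4_bdd

/-- `u_χ = E_χ^(12) / Δ` is a holomorphic automorphic function of weight `0` with multiplier `χ`
and at most exponential growth at every cusp. -/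
theorem h55_u_autForm {N : ℕ} (χ : ↥(Gamma0 N) →* ℂˣ) (hχ1 : ∀ γ, ‖(χ γ : ℂ)‖ = 1)
    (hχ : ∀ γ : ↥(Gamma0 N), (γ : SL(2, ℤ)) 1 0 = 0 → χ γ = 1) :
    gal_AutForm N χ (h55_u N χ) where
  mdiff := h55_u_mdiff χ hχ1
  mult := h55_u_smul χ hχ
  growth := by
    intro g
    obtain ⟨C1, hC1⟩ := h55_EchiK_slash_bounded χ hχ1 (k := 12) (by norm_num) g
    obtain ⟨C2, hC2⟩ := h55_disc_inv_norm_le
    refine ⟨1, |C1| * |C2|, fun τ hτ => ?_⟩
    rw [h55_u_conj, norm_mul, Nat.cast_one, mul_one]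
    have h1 := hC1 τ hτ
    have h2 := hC2 τ hτ
    have he := Real.exp_pos (2 * Real.pi * τ.im)
    have h3 : ‖(discriminant τ)⁻¹‖ ≤ |C2| * Real.exp (2 * Real.pi * τ.im) :=
      h2.trans (mul_le_mul_of_nonneg_right (le_abs_self C2) he.le)
    calc ‖(h55_EchiK N χ 12 ∣[(12 : ℤ)] g) τ‖ * ‖(discriminant τ)⁻¹‖
        ≤ |C1| * (|C2| * Real.exp (2 * Real.pi * τ.im)) :=
          mul_le_mul (h1.trans (le_abs_self C1)) h3 (norm_nonneg _) (abs_nonneg _)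
      _ = |C1| * |C2| * Real.exp (2 * Real.pi * τ.im) := by ring

/-- The version for the characters `gal_chi n ψ`, `ψ ∈ gal_PE N (ZMod n)`. -/
theorem h55_u_autForm_chi {N : ℕ} (n : ℕ) [NeZero n] {ψ : Additive ↥(Gamma0 N) →+ ZMod n}
    (hψ : ψ ∈ gal_PE N (ZMod n)) :
    gal_AutForm N (gal_chi n ψ) (h55_u N (gal_chi n ψ)) ∧
      ∃ τ : ℍ, h55_u N (gal_chi n ψ) τ ≠ 0 :=
  ⟨h55_u_autForm _ (gal_chi_norm n ψ) (h55_upper_of_par _ (gal_chi_of_trace hψ)),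
    h55_u_ne_zero _ (gal_chi_norm n ψ) (h55_upper_of_par _ (gal_chi_of_trace hψ))⟩

/-- All `SL₂(ℤ)`-translates of `u_χ` have `q_N`-expansions (`gal_QExpAll` form of (U4)). -/
theorem h55_u_qExpAll {N : ℕ} [NeZero N] (n : ℕ) [NeZero n]
    {ψ : Additive ↥(Gamma0 N) →+ ZMod n} (hψ : ψ ∈ gal_PE N (ZMod n)) :
    gal_QExpAll N (h55_u N (gal_chi n ψ)) :=
  fun g => h55_u_isQExp _ (gal_chi_norm n ψ) (gal_chi_of_trace hψ) g

end Fermat.Agent.GAL
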