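import Mathlib
import Fermat.Agent.GAL.h55_UAut
import Fermat.Agent.GAL.h55_FMF

/-!
# GAL: `u_χ ^ n` is algebraic

For a good `χ`-automorphic function `φ` with `χ ^ n = 1`, the power `φ ^ n` lies in
`gal_Phi (F_ℂ(N))`; in particular for `u_χ = E_χ^(12) / Δ`, `χ = gal_chi n ψ`.
-/

set_option autoImplicit false

namespace Fermat.Agent.GAL

open UpperHalfPlane ModularForm CongruenceSubgroup EisensteinSeries Matrix
open Fermat.Agent.S24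
open scoped MatrixGroups Manifold

/-- The `n`-th power of a good `χ`-automorphic function with `χ ^ n = 1` is algebraic. -/
theorem h55_Aut.pow_alg {N : ℕ} [NeZero N] {χ : ↥(Gamma0 N) →* ℂˣ} {φ : ℍ → ℂ}
    (h : h55_Aut N χ φ) {n : ℕ} (hχn : ∀ γ : ↥(Gamma0 N), χ γ ^ n = 1) :
    ∃ x : gal_F ℂ N,
      gal_Phi (RingHom.id ℂ) N x = algebraMap h25_Hol h25_Mer ((⟨φ, h.1⟩ : h25_Hol) ^ n) := by
  have h1 := h.pow_of_pow_eq_one hχn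
  obtain ⟨x, hx⟩ := h55_fmf_hol N _ h1.1 h1.invariant h1.2.2
  exact ⟨x, hx⟩

/-- A good invariant function is algebraic. -/
theorem h55_Aut.alg {N : ℕ} [NeZero N] {φ : ℍ → ℂ} (h : h55_Aut N 1 φ) :
    ∃ x : gal_F ℂ N, gal_Phi (RingHom.id ℂ) N x = algebraMap h25_Hol h25_Mer ⟨φ, h.1⟩ :=
  h55_fmf_hol N φ h.1 h.invariant h.2.2

/-- `u_χ` is a good `χ`-automorphic function for `χ = gal_chi n ψ`, `ψ ∈ gal_PE N (ZMod n)`. -/
theorem h55_aut_u_chi {N : ℕ} [NeZero N] (n : ℕ) [NeZero n]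
    {ψ : Additive ↥(Gamma0 N) →+ ZMod n} (hψ : ψ ∈ gal_PE N (ZMod n)) :
    h55_Aut N (gal_chi n ψ) (h55_u N (gal_chi n ψ)) :=
  h55_aut_u _ (NeZero.pos n) (gal_chi_pow n ψ) (gal_chi_of_trace hψ)

/-- **Existence of the algebraic function** attached to `ψ ∈ Hom_pe(Γ₀(N), ℤ/n)`: there is
`f ∈ F_ℂ(N)`, `f ≠ 0`, with `Φ(f) = u_χ ^ n`, `χ = gal_chi n ψ`. -/
theorem h55_u_pow_alg {N : ℕ} [NeZero N] (n : ℕ) [NeZero n]
    {ψ : Additive ↥(Gamma0 N) →+ ZMod n} (hψ : ψ ∈ gal_PE N (ZMod n)) :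
    ∃ x : gal_F ℂ N, x ≠ 0 ∧
      gal_Phi (RingHom.id ℂ) N x = algebraMap h25_Hol h25_Mer
        ((⟨h55_u N (gal_chi n ψ), (h55_aut_u_chi n hψ).1⟩ : h25_Hol) ^ n) := by
  obtain ⟨x, hx⟩ := (h55_aut_u_chi n hψ).pow_alg (gal_chi_pow n ψ)
  refine ⟨x, ?_, hx⟩
  rintro rfl
  rw [map_zero] at hx
  have h0 : ((⟨h55_u N (gal_chi n ψ), (h55_aut_u_chi n hψ).1⟩ : h25_Hol) ^ n) = 0 :=
    (IsFractionRing.injective h25_Hol h25_Mer (hx.symm.trans (map_zero _).symm))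
  have h1 : (⟨h55_u N (gal_chi n ψ), (h55_aut_u_chi n hψ).1⟩ : h25_Hol) = 0 :=
    pow_eq_zero_iff (NeZero.ne n) |>.mp h0
  obtain ⟨τ, hτ⟩ := h55_u_ne_zero (gal_chi n ψ) (gal_chi_norm n ψ)
    (h55_upper_of_par _ (gal_chi_of_trace hψ))
  exact hτ (congrArg (fun a : h25_Hol => (a : ℍ → ℂ) τ) h1)

end Fermat.Agent.GAL
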