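import Mathlib
import Fermat.Agent.GAL.h65_Cyclo
import Fermat.Agent.GAL.h47_ComplexConj

/-!
# GAL (S30 endgame, leaf): the `p`-adic cyclotomic character with values in a complete local ring

For a local ring `R`, complete for its maximal ideal, with `p` in the maximal ideal, there is a
ring homomorphism `ℤ_[p] →+* R` (`h58_exists_padic_hom`).  Pushing Mathlib's `cyclotomicCharacter`
along it gives a character `d : Gal(ℚbar/ℚ) →* Rˣ` whose value at `g` is congruent modulo `p ^ n`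
to every exponent by which `g` acts on a primitive `p ^ n`-th root of unity
(`h58_exists_cycloO`); it takes the value `ℓ` at Frobenius elements at `ℓ ≠ p`, is trivial on
inertia at `q ≠ p`, and takes the value `-1` at complex conjugation.
-/

set_option autoImplicit false

namespace Fermat.Agent.GAL

open IsLocalRing

section padicHom

variable {p : ℕ} [Fact p.Prime]

/-- A ring homomorphism out of `ℤ_[p]` is congruent to the approximants modulo `p ^ n`. -/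
theorem h58_padic_hom_sub_appr {R : Type*} [CommRing R] (φ : ℤ_[p] →+* R) (x : ℤ_[p]) (n : ℕ) :
    φ x - ((x.appr n : ℕ) : R) ∈ Ideal.span {(p : R) ^ n} := by
  have h := PadicInt.appr_spec n x
  obtain ⟨y, hy⟩ := Ideal.mem_span_singleton'.mp h
  rw [Ideal.mem_span_singleton']
  refine ⟨φ y, ?_⟩
  have h2 := congrArg φ hy
  rw [map_mul, map_pow, map_natCast, map_sub, map_natCast] at h2
  exact h2

/-- Two ring homomorphisms out of `ℤ_[p]` into a ring killed by `p ^ n` agree. -/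
theorem h58_padic_hom_ext {A : Type*} [CommRing A] (n : ℕ) (hA : (p : A) ^ n = 0)
    (φ ψ : ℤ_[p] →+* A) : φ = ψ := by
  ext x
  have h1 := h58_padic_hom_sub_appr φ x n
  have h2 := h58_padic_hom_sub_appr ψ x n
  rw [hA, Ideal.span_singleton_zero, Ideal.mem_bot, sub_eq_zero] at h1 h2
  rw [h1, h2]

/-- A complete local ring with `p` in its maximal ideal receives a ring homomorphism from
`ℤ_[p]`. -/
theorem h58_exists_padic_hom (R : Type*) [CommRing R] [IsLocalRing R]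
    [IsAdicComplete (maximalIdeal R) R] (hp : (p : R) ∈ maximalIdeal R) :
    Nonempty (ℤ_[p] →+* R) := by
  have hA : ∀ n : ℕ, (((p ^ n : ℕ)) : R ⧸ (maximalIdeal R) ^ n) = 0 := by
    intro n
    have h1 : ((p ^ n : ℕ) : R) ∈ (maximalIdeal R) ^ n := by
      rw [Nat.cast_pow]
      exact Ideal.pow_mem_pow hp n
    have h2 := Ideal.Quotient.eq_zero_iff_mem.mpr h1
    rw [map_natCast] at h2
    exact h2
  let f : (n : ℕ) → ℤ_[p] →+* R ⧸ (maximalIdeal R) ^ n := fun n =>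
    (ZMod.castHom (ringChar.dvd (hA n)) (R ⧸ (maximalIdeal R) ^ n)).comp (PadicInt.toZModPow n)
  have hf : ∀ {m n : ℕ} (hle : m ≤ n),
      (Ideal.Quotient.factorPow (maximalIdeal R) hle).comp (f n) = f m := by
    intro m n hle
    apply h58_padic_hom_ext m
    have := hA m
    rw [Nat.cast_pow] at this
    exact this
  exact ⟨IsAdicComplete.liftRingHom (maximalIdeal R) f hf⟩

end padicHom

section cyclo

local notation "Qb" => AlgebraicClosure ℚ

/-- The `p`-adic cyclotomic character of `Gal(ℚbar/ℚ)`, as a monoid homomorphism on the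
Galois group. -/
noncomputable def h58_cycloZp (p : ℕ) [Fact p.Prime] : (Qb ≃ₐ[ℚ] Qb) →* ℤ_[p]ˣ :=
  (cyclotomicCharacter Qb p).comp (MulSemiringAction.toRingAut (Qb ≃ₐ[ℚ] Qb) Qb)

theorem h58_cycloZp_spec (p : ℕ) [Fact p.Prime] (g : Qb ≃ₐ[ℚ] Qb) (n : ℕ) (t : Qb)
    (ht : t ^ p ^ n = 1) :
    g t = t ^ (((h58_cycloZp p g : ℤ_[p]ˣ) : ℤ_[p]).appr n) := by
  have h := cyclotomicCharacter.spec (L := Qb) p (n := n)
    (MulSemiringAction.toRingAut (Qb ≃ₐ[ℚ] Qb) Qb g) t ht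
  have h2 : (MulSemiringAction.toRingAut (Qb ≃ₐ[ℚ] Qb) Qb g) t = g t := rfl
  rw [h2] at h
  rw [h]
  have h3 : ((PadicInt.toZModPow n)
      ((cyclotomicCharacter Qb p) ((MulSemiringAction.toRingAut (Qb ≃ₐ[ℚ] Qb) Qb) g)).val).val =
      (((h58_cycloZp p g : ℤ_[p]ˣ) : ℤ_[p]).appr n) := by
    have h4 : (PadicInt.toZModPow n)
      ((cyclotomicCharacter Qb p) ((MulSemiringAction.toRingAut (Qb ≃ₐ[ℚ] Qb) Qb) g)).val =
      (((((h58_cycloZp p g : ℤ_[p]ˣ) : ℤ_[p]).appr n : ℕ)) : ZMod (p ^ n)) := rfl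
    rw [h4, ZMod.val_natCast]
    exact Nat.mod_eq_of_lt (PadicInt.appr_lt _ _)
  rw [h3]

/-- **The `p`-adic cyclotomic character with values in a complete local ring `R`** in which
`p` is not a unit. -/
theorem h58_exists_cycloO (p : ℕ) [Fact p.Prime] (R : Type) [CommRing R] [IsLocalRing R]
    [IsAdicComplete (maximalIdeal R) R] (hp : (p : R) ∈ maximalIdeal R) :
    ∃ d : (Qb ≃ₐ[ℚ] Qb) →* Rˣ,
      (∀ (g : Qb ≃ₐ[ℚ] Qb) (n : ℕ) (ζ : Qb) (a : ℕ), IsPrimitiveRoot ζ (p ^ n) → g ζ = ζ ^ a →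
          ((d g : R) - (a : R)) ∈ Ideal.span {(p : R) ^ n}) ∧
      (∀ (ℓ : ℕ), ℓ.Prime → ℓ ≠ p → ∀ A : ValuationSubring Qb, A.LiesOverPrime ℓ →
        ∀ σ : Qb ≃ₐ[ℚ] Qb, A.IsFrobeniusAt σ ℓ → (d σ : R) = (ℓ : R)) ∧
      (∀ (q : ℕ), q.Prime → q ≠ p → ∀ A : ValuationSubring Qb, A.LiesOverPrime q →
        ∀ σ ∈ A.inertiaSubgroupIn ℚ, d σ = 1) ∧
      d complexConjugation = -1 ∧
      (∀ (g : Qb ≃ₐ[ℚ] Qb) (n : ℕ) (ζ : Qb), IsPrimitiveRoot ζ (p ^ n) → g ζ = ζ →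
          ((d g : R) - 1) ∈ Ideal.span {(p : R) ^ n}) := by
  obtain ⟨φ⟩ := h58_exists_padic_hom (p := p) R hp
  have hpp : p.Prime := Fact.out
  -- the key congruence
  have key : ∀ (g : Qb ≃ₐ[ℚ] Qb) (n : ℕ) (ζ : Qb) (a : ℕ), IsPrimitiveRoot ζ (p ^ n) →
      g ζ = ζ ^ a →
      (φ ((h58_cycloZp p g : ℤ_[p]ˣ) : ℤ_[p]) - (a : R)) ∈ Ideal.span {(p : R) ^ n} := by
    intro g n ζ a hζ hg
    have h1 := h58_cycloZp_spec p g n ζ hζ.pow_eq_one
    rw [hg] at h1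
    have hpn : 0 < p ^ n := pow_pos hpp.pos n
    have h2 : a ≡ (((h58_cycloZp p g : ℤ_[p]ˣ) : ℤ_[p]).appr n) [MOD p ^ n] := by
      have := (hζ.isOfFinOrder hpn.ne').pow_eq_pow_iff_modEq.mp h1
      rwa [← hζ.eq_orderOf] at this
    have h3 := h58_padic_hom_sub_appr φ ((h58_cycloZp p g : ℤ_[p]ˣ) : ℤ_[p]) n
    have h4 : ((((h58_cycloZp p g : ℤ_[p]ˣ) : ℤ_[p]).appr n : ℕ) : R) - (a : R) ∈
        Ideal.span {(p : R) ^ n} := by
      have h5 := (Nat.modEq_iff_dvd.mp h2)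
      obtain ⟨c, hc⟩ := h5
      rw [Ideal.mem_span_singleton]
      refine ⟨(c : R), ?_⟩
      have h6 := congrArg (Int.cast : ℤ → R) hc
      push_cast at h6
      exact h6
    have h7 := Ideal.add_mem _ h3 h4
    rwa [sub_add_sub_cancel] at h7
  -- intersection of the ideals `(p ^ n)` is zero
  have haus : ∀ x : R, (∀ n : ℕ, x ∈ Ideal.span {(p : R) ^ n}) → x = 0 := by
    intro x hx
    have hH : IsHausdorff (maximalIdeal R) R := inferInstance
    apply hH.haus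
    intro n
    rw [SModEq.zero, smul_eq_mul, Ideal.mul_top]
    have h1 := hx n
    rw [Ideal.mem_span_singleton] at h1
    obtain ⟨c, rfl⟩ := h1
    exact Ideal.mul_mem_right _ _ (Ideal.pow_mem_pow hp n)
  -- existence of primitive roots
  have hprim : ∀ n : ℕ, ∃ ζ : Qb, IsPrimitiveRoot ζ (p ^ n) := by
    intro n
    have : NeZero ((p ^ n : ℕ) : Qb) := ⟨by
      rw [Nat.cast_ne_zero]
      exact (pow_pos hpp.pos n).ne'⟩
    exact HasEnoughRootsOfUnity.exists_primitiveRoot Qb (p ^ n)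
  refine ⟨(Units.map (φ : ℤ_[p] →* R)).comp (h58_cycloZp p), ?_, ?_, ?_, ?_, ?_⟩
  · intro g n ζ a hζ hg
    exact key g n ζ a hζ hg
  · intro ℓ hℓ hℓp A hA σ hσ
    have hnd : ∀ n : ℕ, ¬ ℓ ∣ p ^ n := by
      intro n h
      exact hℓp ((Nat.prime_dvd_prime_iff_eq hℓ hpp).mp (hℓ.dvd_of_dvd_pow h))
    rw [← sub_eq_zero]
    apply haus
    intro n
    obtain ⟨ζ, hζ⟩ := hprim n
    exact key σ n ζ ℓ hζ (h65_frob_root A hℓ hA hσ (hnd n) hζ.pow_eq_one)
  · intro q hq hqp A hA σ hσ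
    have hnd : ∀ n : ℕ, ¬ q ∣ p ^ n := by
      intro n h
      exact hqp ((Nat.prime_dvd_prime_iff_eq hq hpp).mp (hq.dvd_of_dvd_pow h))
    apply Units.ext
    rw [Units.val_one, ← sub_eq_zero]
    apply haus
    intro n
    obtain ⟨ζ, hζ⟩ := hprim n
    have h1 := key σ n ζ 1 hζ (by rw [pow_one]; exact h65_inertia_root A hq hA hσ (hnd n) hζ.pow_eq_one)
    rwa [Nat.cast_one] at h1
  · apply Units.ext
    rw [Units.val_neg, Units.val_one, ← sub_eq_zero]
    apply haus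
    intro n
    obtain ⟨ζ, hζ⟩ := hprim n
    have hpn : p ^ n ≠ 0 := (pow_pos hpp.pos n).ne'
    have h1 := key complexConjugation n ζ (p ^ n - 1) hζ
      (h47_complexConjugation_primitiveRoot hpn hζ)
    rw [Nat.cast_sub (Nat.one_le_iff_ne_zero.mpr hpn), Nat.cast_pow, Nat.cast_one] at h1
    have h2 : (p : R) ^ n ∈ Ideal.span {(p : R) ^ n} := Ideal.mem_span_singleton_self _
    have h3 := Ideal.add_mem _ h1 h2
    have h4 : (((Units.map (φ : ℤ_[p] →* R)).comp (h58_cycloZp p)) complexConjugation : R) - -1 =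
        φ ((h58_cycloZp p complexConjugation : ℤ_[p]ˣ) : ℤ_[p]) - ((p : R) ^ n - 1) + (p : R) ^ n := by
      simp only [MonoidHom.coe_comp, Function.comp_apply, Units.coe_map, MonoidHom.coe_coe]
      ring
    rw [h4]
    exact h3
  · intro g n ζ hζ hg
    have h1 := key g n ζ 1 hζ (by rw [pow_one]; exact hg)
    rwa [Nat.cast_one] at h1

/-- The same character, with the congruences stated modulo powers of the maximal ideal and the
finite-level (continuity) clause: the shape consumed by the S30 pseudo-character step. -/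
theorem h58_exists_cycloO_level (p : ℕ) [Fact p.Prime] (R : Type) [CommRing R] [IsLocalRing R]
    [IsAdicComplete (maximalIdeal R) R] (hp : (p : R) ∈ maximalIdeal R) :
    ∃ d : (Qb ≃ₐ[ℚ] Qb) →* Rˣ,
      (∀ (n : ℕ) (g : Qb ≃ₐ[ℚ] Qb) (ζ : Qb) (a : ℕ), IsPrimitiveRoot ζ (p ^ n) → g ζ = ζ ^ a →
          ((d g : R) - (a : R)) ∈ maximalIdeal R ^ n) ∧
      (∀ (ℓ : ℕ), ℓ.Prime → ℓ ≠ p → ∀ A : ValuationSubring Qb, A.LiesOverPrime ℓ →
        ∀ σ : Qb ≃ₐ[ℚ] Qb, A.IsFrobeniusAt σ ℓ → (d σ : R) = (ℓ : R)) ∧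
      (∀ (q : ℕ), q.Prime → q ≠ p → ∀ A : ValuationSubring Qb, A.LiesOverPrime q →
        ∀ σ ∈ A.inertiaSubgroupIn ℚ, d σ = 1) ∧
      d complexConjugation = -1 ∧
      (∀ n : ℕ, ∃ L : IntermediateField ℚ Qb, FiniteDimensional ℚ L ∧
        ∀ u : Qb ≃ₐ[ℚ] Qb, (∀ x ∈ L, u x = x) → ((d u : R) - 1) ∈ maximalIdeal R ^ n) := by
  obtain ⟨d, h1, h2, h3, h4, h5⟩ := h58_exists_cycloO p R hp
  have hpp : p.Prime := Fact.out
  have hle : ∀ n : ℕ, Ideal.span {(p : R) ^ n} ≤ maximalIdeal R ^ n := fun n =>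
    (Ideal.span_singleton_le_iff_mem _).mpr (Ideal.pow_mem_pow hp n)
  refine ⟨d, fun n g ζ a hζ hg => hle n (h1 g n ζ a hζ hg), h2, h3, h4, ?_⟩
  intro n
  have : NeZero ((p ^ n : ℕ) : Qb) := ⟨by
    rw [Nat.cast_ne_zero]
    exact (pow_pos hpp.pos n).ne'⟩
  obtain ⟨ζ, hζ⟩ := HasEnoughRootsOfUnity.exists_primitiveRoot Qb (p ^ n)
  have hint : IsIntegral ℚ ζ := (hζ.isIntegral (pow_pos hpp.pos n)).tower_top
  refine ⟨IntermediateField.adjoin ℚ {ζ}, IntermediateField.adjoin.finiteDimensional hint, ?_⟩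
  intro u hu
  exact hle n (h5 u n ζ hζ (hu ζ (IntermediateField.mem_adjoin_simple_self ℚ ζ)))

end cyclo

end Fermat.Agent.GAL
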