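import Mathlib
import Fermat.Agent.GAL.h65_LevelGlue
import Fermat.Agent.GAL.h29_ThetaAdapter
import Fermat.Agent.S37.h88_HI

/-!
# GAL: the last wiring of S31 / of the levels

The statement of the analytic layer (`gal_theta`, for the moduli `p ^ n`) is taken as a
hypothesis in exactly its final shape, so that

* `h65_S31_of_gal_theta … (fun n _ ι => gal_theta N n ι) hred q hq hqS` is the frozen S31,
* `h65_levelsS_of_gal_theta … (fun n _ ι => gal_theta N n ι) hred` are the strong levels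
  consumed by the S30 core.

`HeckeInputsAlong` is discharged by `h88_HI`; an embedding `ℚ̄ → ℂ` is chosen inside.
-/

set_option autoImplicit false

open CongruenceSubgroup ModularCurve

namespace Fermat.Agent.GAL

open Fermat.Agent.S16

/-- The conclusion of the analytic layer (`gal_theta N n ι`), as a proposition. -/
def h65_ThetaStmt (N : ℕ) [NeZero N] (n : ℕ) : Prop :=
  ∃ Θ : ↥(gal_PE N (ZMod n)) →+ JZero N,
    Function.Injective Θ ∧
    ∀ (ℓ : Nat.Primes) (hℓN : ¬ (ℓ : ℕ) ∣ N),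
      (haveI : NeZero (ℓ : ℕ) := ⟨ℓ.2.ne_zero⟩;
        HeckeInputsAlong (AlgebraicClosure ℚ) N (ℓ : ℕ)) →
      ∀ (ψ : ↥(gal_PE N (ZMod n)))
        (hT : (haveI : Fact (ℓ : ℕ).Prime := ⟨ℓ.2⟩;
          h30_heckeT N (ℓ : ℕ) hℓN (ψ : Additive ↥(Gamma0 N) →+ ZMod n)) ∈ gal_PE N (ZMod n)),
        heckeOperatorBar N ℓ (Θ ψ) = Θ ⟨_, hT⟩

/-- There is an embedding `ℚ̄ → ℂ`. -/
theorem h65_exists_embedding : Nonempty (AlgebraicClosure ℚ →+* ℂ) := by
  have halg : Algebra.IsAlgebraic ℚ (AlgebraicClosure ℚ) := AlgebraicClosure.isAlgebraic ℚ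
  exact ⟨(IsAlgClosed.lift (R := ℚ) (S := AlgebraicClosure ℚ) (M := ℂ)).toRingHom⟩

/-- `gal_ThetaProp N (p ^ n)` for all `n` from the statement of the analytic layer. -/
theorem h65_thetaProp_of_gal_theta {p : ℕ} (hp : p.Prime) (N : ℕ) [NeZero N]
    (hθ : ∀ (n : ℕ) [NeZero n] (_ι : AlgebraicClosure ℚ →+* ℂ), h65_ThetaStmt N n)
    (n : ℕ) : gal_ThetaProp N (p ^ n) := by
  have : NeZero (p ^ n) := ⟨pow_ne_zero n hp.ne_zero⟩
  obtain ⟨ι⟩ := h65_exists_embedding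
  exact gal_ThetaProp_of_theta N (p ^ n)
    (fun ℓ _ _ _ => Fermat.Agent.S37.h88_HI N ℓ) (hθ (p ^ n) ι)

section levels

variable {p : ℕ} {N : ℕ} [NeZero N] {S : Finset ℕ}

/-- The strong levels from the statement of the analytic layer and the reduction interface. -/
theorem h65_levelsS_of_gal_theta (hp : p.Prime) (hpS : p ∈ S)
    (hNS : ∀ q : ℕ, q.Prime → q ∣ N → q ∈ (↑S : Set ℕ))
    (hθ : ∀ (n : ℕ) [NeZero n] (_ι : AlgebraicClosure ℚ →+* ℂ), h65_ThetaStmt N n)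
    (hred : ∀ (ℓ : ℕ) (hℓ : ℓ.Prime), ¬ ℓ ∣ N * p →
      ∀ A : ValuationSubring (AlgebraicClosure ℚ), A.LiesOverPrime ℓ →
        Fermat.Agent.S37.h87_RedData N p ℓ hℓ A)
    (n : ℕ) : h65_HasLevelS p N S (h65_iota N (↑S : Set ℕ) hNS) n :=
  h65_levelsS hp hpS hNS (h65_thetaProp_of_gal_theta hp N hθ) hred n

end levels

section main

variable {p : ℕ} {N : ℕ} [NeZero N] {S : Finset ℕ}
  {𝒪 : Type} [CommRing 𝒪] [IsDomain 𝒪] [IsDiscreteValuationRing 𝒪]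
  [IsAdicComplete (IsLocalRing.maximalIdeal 𝒪) 𝒪]
  {θ : CuspForm.heckeAlgebra N 2 (↑S : Set ℕ) →+* IsLocalRing.ResidueField 𝒪}
  {T : Type} [CommRing T] [IsLocalRing T] [IsNoetherianRing T]
  [IsAdicComplete (IsLocalRing.maximalIdeal T) T] [Algebra 𝒪 T] [IsLocalHom (algebraMap 𝒪 T)]
  [Module.Finite 𝒪 T] [Module.Free 𝒪 T]

/-- **S31 from the statement of the analytic layer and the reduction interface.** -/
theorem h65_S31_of_gal_theta (hp : p.Prime)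
    (hp𝒪 : (p : 𝒪) ∈ IsLocalRing.maximalIdeal 𝒪) (hpS : p ∈ S)
    (hNS : ∀ q : ℕ, q.Prime → q ∣ N → q ∈ S)
    (H : CuspForm.HeckeGaloisRepDatum N (↑S : Set ℕ) 𝒪 θ T)
    (hθ : ∀ (n : ℕ) [NeZero n] (_ι : AlgebraicClosure ℚ →+* ℂ), h65_ThetaStmt N n)
    (hred : ∀ (ℓ : ℕ) (hℓ : ℓ.Prime), ¬ ℓ ∣ N * p →
      ∀ A : ValuationSubring (AlgebraicClosure ℚ), A.LiesOverPrime ℓ →
        Fermat.Agent.S37.h87_RedData N p ℓ hℓ A)
    (q : ℕ) (hq : q.Prime) (hqS : q ∉ S) :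
    H.ρ.IsUnramifiedAt q :=
  h65_S31_of_theta hp hp𝒪 hpS hNS H (h65_thetaProp_of_gal_theta hp N hθ) hred q hq hqS

end main

end Fermat.Agent.GAL
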