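import Mathlib
import Fermat.Agent.GAL.h67_HeckeChar
import Fermat.Agent.GAL.h29_Iface
import Fermat.Agent.GAL.h22_DescRR
import Fermat.Agent.S24.h78_Fibres

/-!
# GAL: the formal half of the THETA assembly, in terms of the relation `h67_Rel`

* `h67_Rel.mul`, `h67_rel_one`: `R_n` is multiplicative in `χ` / additive in `x`.
* `h67_theta_of_rel`: existence + uniqueness + injectivity for `R_n` give `gal_ThetaProp N n`
  (Hecke-equivariance is `h67_rel_hecke`, unconditional).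
* `h67_rel_unique`: uniqueness from the "invariant `n`-th root" principle over `ℚ̄`.
* `h67_rel_inj`: `R_n(χ, 0) ⟹ χ = 1`.
-/

set_option autoImplicit false

open UpperHalfPlane ModularCurve CongruenceSubgroup AlgebraicCurve
open scoped MatrixGroups Manifold

namespace Fermat.Agent.GAL

open Fermat.Agent.S24 Fermat.Agent.S16

local notation "Qb" => AlgebraicClosure ℚ

section RelAlg

variable (ι : Qb →+* ℂ)

theorem h67_IsAut.of_eq {N : ℕ} {χ χ' : ↥(Gamma0 N) →* ℂˣ} {u : h25_Mer}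
    (h : h67_IsAut N χ u) (e : ∀ γ, χ γ = χ' γ) : h67_IsAut N χ' u := by
  intro γ
  rw [← e γ]
  exact h γ

/-- **(R-ADD)** `R_n(χ, x) ∧ R_n(χ', x') ⟹ R_n(χ χ', x + x')`. -/
theorem h67_Rel.mul {N n : ℕ} {χ χ' : ↥(Gamma0 N) →* ℂˣ} {x x' : JZero N}
    (h : h67_Rel ι N n χ x) (h' : h67_Rel ι N n χ' x') : h67_Rel ι N n (χ * χ') (x + x') := by
  obtain ⟨D, f, u, hf, rfl, hD, hu, ha⟩ := h
  obtain ⟨D', f', u', hf', rfl, hD', hu', ha'⟩ := h'
  refine ⟨D + D', f * f', u * u', mul_ne_zero hf hf', (Pic0.mk_add D D').symm, ?_, ?_,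
    ha.mul ha'⟩
  · intro v
    rw [AddSubgroup.coe_add, smul_add, Finsupp.add_apply, hD v, hD' v, v.ord_mul hf hf']
  · rw [mul_pow, hu, hu', map_mul]

/-- **(R-ONE)** `R_n(1, 0)`. -/
theorem h67_rel_one (N n : ℕ) : h67_Rel ι N n 1 0 := by
  refine ⟨0, 1, 1, one_ne_zero, Pic0.mk_zero.symm, ?_, ?_, ?_⟩
  · intro v
    simp
  · simp
  · have h := h67_isAut_const N 1
    rwa [map_one] at h

/-- **(Θ-FROM-R)** existence, uniqueness and injectivity for the relation `R_n` give the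
interface `gal_ThetaProp N n`. -/
theorem h67_theta_of_rel (N n : ℕ) [NeZero N] [NeZero n]
    (hEX : ∀ ψ ∈ gal_PE N (ZMod n), ∃ x, h67_Rel ι N n (gal_chi n ψ) x)
    (hUNIQ : ∀ (ψ : Additive ↥(Gamma0 N) →+ ZMod n) (x x' : JZero N),
      h67_Rel ι N n (gal_chi n ψ) x → h67_Rel ι N n (gal_chi n ψ) x' → x = x')
    (hINJ : ∀ ψ : Additive ↥(Gamma0 N) →+ ZMod n,
      h67_Rel ι N n (gal_chi n ψ) 0 → gal_chi n ψ = 1) :
    gal_ThetaProp N n := by
  classical
  choose! θ hθ using hEX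
  let Θ : gal_Hpe N n →+ JZero N :=
    { toFun := fun ψ => θ ψ.1
      map_zero' := hUNIQ 0 _ _ (hθ 0 (zero_mem _)) (by
        rw [gal_chi_zero]
        exact h67_rel_one ι N n)
      map_add' := fun ψ ψ' => hUNIQ (ψ.1 + ψ'.1) _ _ (hθ _ (add_mem ψ.2 ψ'.2)) (by
        rw [gal_chi_add]
        exact (hθ _ ψ.2).mul ι (hθ _ ψ'.2)) }
  refine ⟨Θ, ?_, ?_⟩
  · rw [injective_iff_map_eq_zero]
    intro ψ hψ
    have h1 : h67_Rel ι N n (gal_chi n ψ.1) 0 := by
      have h0 := hθ _ ψ.2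
      have hψ' : θ ψ.1 = 0 := hψ
      rwa [hψ'] at h0
    exact Subtype.ext ((gal_chi_eq_one_iff n ψ.1).mp (hINJ _ h1))
  · intro ℓ _ hℓN _ χ χ' hχ
    have h1 := h67_rel_hecke ι N ℓ hℓN n χ.1 (θ χ.1) (hθ _ χ.2)
    have h2 : h67_Rel ι N n (gal_chi n (h30_heckeT N ℓ hℓN χ.1)) (θ χ'.1) := by
      rw [← hχ]
      exact hθ _ χ'.2
    exact hUNIQ _ _ _ h1 h2

/-- the class of `D` only depends on `f₀` up to constants and `n`-th powers -/
theorem h67_mk_eq_of_pow {N n : ℕ} (hn : 0 < n)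
    (D D' : Divisor.degZero (K := Qb) (F := modularFunctionFieldBar N))
    (f f' : modularFunctionFieldBar N) (hf : f ≠ 0) (hf' : f' ≠ 0)
    (hD : ∀ v : Place Qb (modularFunctionFieldBar N),
      (n • (D : Divisor Qb (modularFunctionFieldBar N))) v = v.ord f)
    (hD' : ∀ v : Place Qb (modularFunctionFieldBar N),
      (n • (D' : Divisor Qb (modularFunctionFieldBar N))) v = v.ord f')
    (c : Qb) (g : modularFunctionFieldBar N)
    (h : f = algebraMap Qb (modularFunctionFieldBar N) c * g ^ n * f') :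
    (Pic0.mk D : JZero N) = Pic0.mk D' := by
  have hc : algebraMap Qb (modularFunctionFieldBar N) c ≠ 0 := by
    rintro h0
    rw [h0, zero_mul, zero_mul] at h
    exact hf h
  have hg : g ≠ 0 := by
    rintro rfl
    rw [zero_pow hn.ne', mul_zero, zero_mul] at h
    exact hf h
  show (QuotientAddGroup.mk D : JZero N) = QuotientAddGroup.mk D'
  rw [QuotientAddGroup.eq, AddSubgroup.mem_addSubgroupOf, Divisor.mem_principal]
  refine ⟨g⁻¹, inv_ne_zero hg, fun v => ?_⟩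
  have h1 := hD v
  have h2 := hD' v
  rw [h, v.ord_mul (mul_ne_zero hc (pow_ne_zero n hg)) hf', v.ord_mul hc (pow_ne_zero n hg),
    h35_ord_algebraMap, zero_add, ← zpow_natCast, v.ord_zpow] at h1
  rw [Finsupp.smul_apply, nsmul_eq_mul] at h1 h2
  rw [AddSubgroup.coe_add, AddSubgroup.coe_neg, Finsupp.add_apply, Finsupp.neg_apply, v.ord_inv]
  have hn' : (n : ℤ) ≠ 0 := by exact_mod_cast hn.ne'
  have h3 : (n : ℤ) * (-(D : Divisor Qb (modularFunctionFieldBar N)) v
      + (D' : Divisor Qb (modularFunctionFieldBar N)) v) = (n : ℤ) * (-v.ord g) := by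
    push_cast at h1 h2 ⊢
    linarith
  exact mul_left_cancel₀ hn' h3

/-- **(UNIQ-RED)** uniqueness for `R_n`, from the "invariant `n`-th root" principle: a nonzero
`f ∈ F_ℚ̄(N)` such that `Φ f` is the `n`-th power of a `Γ₀(N)`-invariant meromorphic function is
a constant times an `n`-th power. -/
theorem h67_rel_unique (N n : ℕ) (hn : 0 < n)
    (hroot : ∀ f : gal_F Qb N, f ≠ 0 →
      (∃ w : h25_Mer, (∀ γ ∈ Gamma0 N, γ • w = w) ∧ w ^ n = gal_Phi ι N f) →
        ∃ (c₀ : Qb) (g₀ : gal_F Qb N), f = algebraMap Qb (gal_F Qb N) c₀ * g₀ ^ n)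
    (χ : ↥(Gamma0 N) →* ℂˣ) (x x' : JZero N)
    (h : h67_Rel ι N n χ x) (h' : h67_Rel ι N n χ x') : x = x' := by
  obtain ⟨D, f, u, hf, rfl, hD, hu, ha⟩ := h
  obtain ⟨D', f', u', hf', rfl, hD', hu', ha'⟩ := h'
  have hw : h67_IsAut N 1 (u / u') := by
    have h1 := ha.div ha'
    have e : χ / χ = 1 := div_self' χ
    rwa [e] at h1
  obtain ⟨c₀, g₀, h0⟩ := hroot (f / f') (div_ne_zero hf hf')
    ⟨u / u', h67_isAut_one_iff.mp hw, by rw [div_pow, hu, hu', map_div₀]⟩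
  refine h67_mk_eq_of_pow hn D D' f f' hf hf' hD hD' c₀ g₀ ?_
  rw [← h0, div_mul_cancel₀ _ hf']

/-- `Φ` of a constant -/
theorem h67_Phi_const {K : Type*} [Field K] [Algebra ℚ K] (ι : K →+* ℂ) (N : ℕ) (c : K) :
    gal_Phi ι N (algebraMap K (gal_F K N) c) = h74_constHom (ι c) := by
  have h1 : algebraMap K (gal_F K N) c
      = algebraMap (h78_AN K N) (gal_F K N) (algebraMap K (h78_AN K N) c) := rfl
  rw [h1, gal_Phi_algebraMap, h74_constHom_apply]
  congr 1
  apply Subtype.ext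
  rw [gal_evHol_coe, h54_ev_const]
  rfl

/-- **(INJ-RED)** `R_n(χ, 0) ⟹ χ = 1`. -/
theorem h67_rel_inj (N n : ℕ) [NeZero N] (hn : 0 < n) (χ : ↥(Gamma0 N) →* ℂˣ)
    (h : h67_Rel ι N n χ 0) : χ = 1 := by
  obtain ⟨D, f, u, hf, h0, hD, hu, ha⟩ := h
  -- `D` is principal
  have hD0 : (D : Divisor Qb (modularFunctionFieldBar N)) ∈
      Divisor.principal (K := Qb) (F := modularFunctionFieldBar N) := by
    have h1 : (QuotientAddGroup.mk D : JZero N) = 0 := h0.symm
    rw [QuotientAddGroup.eq_zero_iff, AddSubgroup.mem_addSubgroupOf] at h1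
    exact h1
  obtain ⟨g, hg, hDg⟩ := Divisor.mem_principal.mp hD0
  -- `f / g ^ n` has no zeros or poles, hence is constant
  have hfg : f / g ^ n ≠ 0 := div_ne_zero hf (pow_ne_zero n hg)
  have hord : ∀ v : Place Qb (modularFunctionFieldBar N), v.ord (f / g ^ n) = 0 := by
    intro v
    have h1 := hD v
    rw [Finsupp.smul_apply, nsmul_eq_mul, hDg v] at h1
    rw [div_eq_mul_inv, v.ord_mul hf (inv_ne_zero (pow_ne_zero n hg)), v.ord_inv, ← zpow_natCast,
      v.ord_zpow, ← h1]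
    push_cast
    ring
  have := h78_finiteDimensional N
  obtain ⟨c, hc⟩ := h22_const_of_regular (h59_jbar_transcendental N) (f / g ^ n)
    (fun P => (h35_mem_iff_ord_nonneg P hfg).mpr (hord P).ge)
  have hf' : f = algebraMap Qb (modularFunctionFieldBar N) c * g ^ n := by
    rw [← hc, div_mul_cancel₀ _ (pow_ne_zero n hg)]
  -- `u = (root of unity) * c' * Φ g`
  obtain ⟨c', hc'⟩ := IsAlgClosed.exists_pow_nat_eq (ι c) hn
  have hu' : u ^ n = (h74_constHom c' * gal_Phi ι N g) ^ n := by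
    rw [hu, hf', map_mul, map_pow, h67_Phi_const, mul_pow, ← map_pow h74_constHom c' n, hc']
  have hc0 : c ≠ 0 := by
    rintro rfl
    rw [map_zero, zero_mul] at hf'
    exact hf hf'
  have hc'0 : c' ≠ 0 := by
    rintro rfl
    rw [zero_pow hn.ne'] at hc'
    exact hc0 ((map_eq_zero ι).mp hc'.symm)
  have hΦg : gal_Phi ι N g ≠ 0 := (map_ne_zero _).mpr hg
  have hne : h74_constHom c' * gal_Phi ι N g ≠ 0 :=
    mul_ne_zero ((map_ne_zero _).mpr hc'0) hΦg
  obtain ⟨ζ, -, hζ⟩ := gal_root_unique n hn u _ hu' hne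
  rw [← h74_constHom_apply] at hζ
  have hu0 : u ≠ 0 := by
    rintro rfl
    rw [zero_pow hn.ne'] at hu'
    exact pow_ne_zero n hne hu'.symm
  -- so `u` has trivial multiplier
  have hu1 : h67_IsAut N 1 u := by
    rw [hζ]
    have h1 := ((h67_isAut_const N ζ).mul (h67_isAut_const N c')).mul (h67_isAut_Phi ι N g)
    rw [mul_assoc] at h1
    exact h1.of_eq (fun γ => by simp)
  ext γ
  have h1 := ha γ
  have h2 := hu1 γ
  rw [h1] at h2
  have h3 := mul_right_cancel₀ hu0 h2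
  exact (h74_constHom).injective h3

end RelAlg

end Fermat.Agent.GAL
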