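import Mathlib
import Fermat.Agent.GAL.h67_RelAlg
import Fermat.Agent.GAL.h22_DescQbar
import Fermat.Agent.GAL.AnAutPow
import Fermat.Agent.GAL.h55_UAlg
import Fermat.Agent.GAL.h55_Deg

/-!
# GAL: the THETA assembly (`gal_ThetaProp N n`) from the divisibility statement `gal_div_n`

* `h67_Phi_bc` : `Φ_id (bc x) = Φ_ι x` (compatibility of the evaluations over `ℚ̄` and `ℂ`).
* `h67_root_principle` : `f ∈ F_ℚ̄(N)`, `Φ_ι f = wⁿ` with `w` invariant ⟹ `f = c₀ g₀ⁿ`.
* `h67_rel_unique_qbar` : uniqueness for `h67_Rel`, unconditional.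
* `h67_rel_exists` : existence for `h67_Rel` from the statement of `gal_div_n`.
* `h67_thetaProp_of_divn` : `gal_ThetaProp N n` from the statement of `gal_div_n`.
-/

set_option autoImplicit false

open UpperHalfPlane ModularCurve CongruenceSubgroup AlgebraicCurve IntermediateField
open scoped MatrixGroups Manifold

namespace Fermat.Agent.GAL

open Fermat.Agent.S24 Fermat.Agent.S16

local notation "Qb" => AlgebraicClosure ℚ

section Bc

/-- **(Φ-BC)** the evaluations over `k` (through `ι : k →+* ℂ`) and over `ℂ` agree. -/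
theorem h67_Phi_bc {k : Type*} [Field k] [Algebra ℚ k] (ι : k →+* ℂ) (N : ℕ) (x : gal_F k N) :
    gal_Phi (RingHom.id ℂ) N (h22_bc ι (modularFunctionFieldFull N) x) = gal_Phi ι N x := by
  obtain ⟨a, b, hb, rfl⟩ := IsFractionRing.div_surjective (h78_AN k N) x
  have hb0 : b ≠ 0 := nonZeroDivisors.ne_zero hb
  have hb0' : (b : LaurentSeries k) ≠ 0 := fun h0 => hb0 (Subtype.ext h0)
  set x₁ : gal_F k N :=
    algebraMap (h78_AN k N) (gal_F k N) a / algebraMap (h78_AN k N) (gal_F k N) b with hx₁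
  have hcoe : (x₁ : LaurentSeries k) = (a : LaurentSeries k) / (b : LaurentSeries k) := rfl
  have hmul : (x₁ : LaurentSeries k) * (b : LaurentSeries k) = (a : LaurentSeries k) := by
    rw [hcoe]
    field_simp
  set A : h77_convAlg ι := Subalgebra.inclusion (h54_AN_le_convAlg ι N) a with hA
  set B : h77_convAlg ι := Subalgebra.inclusion (h54_AN_le_convAlg ι N) b with hB
  have e1 := h67_Phi_mul_eq ι N x₁ A B hmul
  have hA' : coeffMap ι (a : LaurentSeries k) ∈ h77_convAlg (RingHom.id ℂ) :=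
    ⟨h77_toFun ι A, by rw [coeffMap_id]; exact h77_toFun_spec ι A⟩
  have hB' : coeffMap ι (b : LaurentSeries k) ∈ h77_convAlg (RingHom.id ℂ) :=
    ⟨h77_toFun ι B, by rw [coeffMap_id]; exact h77_toFun_spec ι B⟩
  have hmul' : ((h22_bc ι (modularFunctionFieldFull N) x₁ : gal_F ℂ N) : LaurentSeries ℂ)
      * coeffMap ι (b : LaurentSeries k) = coeffMap ι (a : LaurentSeries k) := by
    rw [h22_coe_bc, ← map_mul, hmul]
  have e2 := h67_Phi_mul_eq (RingHom.id ℂ) N (h22_bc ι (modularFunctionFieldFull N) x₁)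
    ⟨_, hA'⟩ ⟨_, hB'⟩ hmul'
  have hAA : h67_toHol (RingHom.id ℂ) ⟨_, hA'⟩ = h67_toHol ι A := by
    apply Subtype.ext
    rw [h67_toHol_coe, h67_toHol_coe]
    refine h77_toFun_eq (RingHom.id ℂ) ?_
    show h77_IsQExp 1 (coeffMap (RingHom.id ℂ) (coeffMap ι (a : LaurentSeries k))) _
    rw [coeffMap_id]
    exact h77_toFun_spec ι A
  have hBB : h67_toHol (RingHom.id ℂ) ⟨_, hB'⟩ = h67_toHol ι B := by
    apply Subtype.ext
    rw [h67_toHol_coe, h67_toHol_coe]
    refine h77_toFun_eq (RingHom.id ℂ) ?_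
    show h77_IsQExp 1 (coeffMap (RingHom.id ℂ) (coeffMap ι (b : LaurentSeries k))) _
    rw [coeffMap_id]
    exact h77_toFun_spec ι B
  rw [hAA, hBB] at e2
  have hne : algebraMap h25_Hol h25_Mer (h67_toHol ι B) ≠ 0 := by
    rw [Ne, map_eq_zero_iff _ (IsFractionRing.injective h25_Hol h25_Mer),
      map_eq_zero_iff _ (h67_toHol_injective ι)]
    intro h0
    exact hb0 (Subalgebra.inclusion_injective _ (h0.trans (map_zero _).symm))
  exact mul_right_cancel₀ hne (e2.trans e1.symm)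

end Bc

section Glue

variable (ι : Qb →+* ℂ)

/-- **(ROOT)** the invariant `n`-th root principle over `ℚ̄`: if `Φ_ι f` is the `n`-th power of a
`Γ₀(N)`-invariant meromorphic function, then `f` is a constant times an `n`-th power. -/
theorem h67_root_principle (N n : ℕ) [NeZero N] (hn : 0 < n) (f : gal_F Qb N) (hf : f ≠ 0)
    (h : ∃ w : h25_Mer, (∀ γ ∈ Gamma0 N, γ • w = w) ∧ w ^ n = gal_Phi ι N f) :
    ∃ (c₀ : Qb) (g₀ : gal_F Qb N), f = algebraMap Qb (gal_F Qb N) c₀ * g₀ ^ n := by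
  obtain ⟨w, hw, hwn⟩ := h
  rw [← h67_Phi_bc ι N f] at hwn
  obtain ⟨y, hy⟩ := gal_rootalg N n hn w hw _ hwn
  have h1 : h22_bc ι (modularFunctionFieldFull N) f
      = algebraMap ℂ (gal_F ℂ N) 1 * y ^ n := by
    apply gal_Phi_injective (RingHom.id ℂ) N
    rw [map_one, one_mul, map_pow, hy, hwn]
  have : FiniteDimensional ℂ⟮h78_j ℂ N⟯ (laurentBaseChange ℂ (modularFunctionFieldFull N)) :=
    h55_finiteDimensional_C N
  exact h22_desc_inj_qbar ι N n hn f hf 1 y h1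

/-- **(UNIQ)** uniqueness for the relation `R_n`, unconditional. -/
theorem h67_rel_unique_qbar (N n : ℕ) [NeZero N] (hn : 0 < n) (χ : ↥(Gamma0 N) →* ℂˣ)
    (x x' : JZero N) (h : h67_Rel ι N n χ x) (h' : h67_Rel ι N n χ x') : x = x' :=
  h67_rel_unique ι N n hn (fun f hf hw => h67_root_principle ι N n hn f hf hw) χ x x' h h'

/-- `n`-th root of a principal divisor with all orders divisible by `n` -/
theorem h67_exists_div_root (N : ℕ) [NeZero N] (n : ℕ) (hn : 0 < n) (f₀ : gal_F Qb N)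
    (hf₀ : f₀ ≠ 0) (h : ∀ v : Place Qb (gal_F Qb N), (n : ℤ) ∣ v.ord f₀) :
    ∃ D : Divisor.degZero (K := Qb) (F := modularFunctionFieldBar N),
      ∀ v : Place Qb (modularFunctionFieldBar N),
        (n • (D : Divisor Qb (modularFunctionFieldBar N))) v = v.ord f₀ := by
  obtain ⟨D₀, hD₀, hdeg⟩ :=
    (Fermat.Agent.S37.h88_hasPrincipalDivisors N).exists_divisor f₀ hf₀
  let D : Divisor Qb (modularFunctionFieldBar N) :=
    Finsupp.mapRange (fun z : ℤ => z / (n : ℤ)) (by simp) D₀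
  have hnD : n • D = D₀ := by
    ext v
    rw [Finsupp.smul_apply, Finsupp.mapRange_apply, nsmul_eq_mul]
    have h1 := h v
    rw [← hD₀ v] at h1
    exact Int.mul_ediv_cancel' h1
  have hdegD : Divisor.degree D = 0 := by
    have h1 : (n : ℤ) * Divisor.degree D = 0 := by
      rw [← nsmul_eq_mul, ← map_nsmul, hnD, hdeg]
    rcases mul_eq_zero.mp h1 with h2 | h2
    · exact absurd h2 (by exact_mod_cast hn.ne')
    · exact h2
  refine ⟨⟨D, hdegD⟩, fun v => ?_⟩
  show (n • D) v = _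
  rw [hnD, hD₀ v]

/-- the statement of `gal_div_n` (row AN-DIVN) at level `N` and exponent `n` -/
def h67_DivN (N n : ℕ) [NeZero N] : Prop :=
  ∀ (χ : ↥(Gamma0 N) →* ℂˣ),
    (∀ γ : ↥(Gamma0 N),
      ((γ : SL(2, ℤ)) : Matrix (Fin 2) (Fin 2) ℤ).trace ^ 2 = 4 → χ γ = 1) →
    (∀ γ : ↥(Gamma0 N), IsOfFinOrder γ → χ γ = 1) →
    ∀ (U : ℍ → ℂ) (hU : gal_AutForm N χ U), (∃ τ, U τ ≠ 0) → ∀ f : gal_F ℂ N,
      gal_Phi (RingHom.id ℂ) N f
        = algebraMap h25_Hol h25_Mer ((⟨U, hU.mdiff⟩ : h25_Hol) ^ n) →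
      ∀ P : Place ℂ (gal_F ℂ N), (n : ℤ) ∣ P.ord f

/-- **(EX)** existence for the relation `R_n`, from the statement of `gal_div_n`. -/
theorem h67_rel_exists (N n : ℕ) [NeZero N] [NeZero n] (hdivn : h67_DivN N n)
    (ψ : Additive ↥(Gamma0 N) →+ ZMod n) (hψ : ψ ∈ gal_PE N (ZMod n)) :
    ∃ x, h67_Rel ι N n (gal_chi n ψ) x := by
  have hn : 0 < n := NeZero.pos n
  obtain ⟨hU, hU0⟩ := h55_u_autForm_chi n hψ
  obtain ⟨f, hf0, hf⟩ := h55_u_pow_alg n hψ
  have hdiv := hdivn (gal_chi n ψ) (gal_chi_of_trace hψ) (gal_chi_of_finOrder hψ)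
    (h55_u N (gal_chi n ψ)) hU hU0 f hf
  have : FiniteDimensional ℂ⟮h78_j ℂ N⟯ (laurentBaseChange ℂ (modularFunctionFieldFull N)) :=
    h55_finiteDimensional_C N
  obtain ⟨c, g, f₀, hc, hg, hf₀, hfeq, hQ⟩ := h22_desc_qbar ι N n hn f hf0 hdiv
  obtain ⟨D, hD⟩ := h67_exists_div_root N n hn f₀ hf₀ hQ
  obtain ⟨c', hc'⟩ := IsAlgClosed.exists_pow_nat_eq c hn
  have hc'0 : c' ≠ 0 := by
    rintro rfl
    rw [zero_pow hn.ne'] at hc'
    exact hc hc'.symm
  set V : h25_Mer := algebraMap h25_Hol h25_Mer ⟨h55_u N (gal_chi n ψ), hU.mdiff⟩ with hV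
  set W : h25_Mer := h74_constHom c' * gal_Phi (RingHom.id ℂ) N g with hW
  have hW0 : W ≠ 0 := mul_ne_zero ((map_ne_zero _).mpr hc'0) ((map_ne_zero _).mpr hg)
  refine ⟨Pic0.mk D, D, f₀, V / W, hf₀, rfl, hD, ?_, ?_⟩
  · -- `(V / W) ^ n = Φ_ι f₀`
    have h1 : V ^ n = gal_Phi (RingHom.id ℂ) N f := by
      rw [hf, hV, map_pow]
    have h2 : W ^ n = gal_Phi (RingHom.id ℂ) N (algebraMap ℂ (gal_F ℂ N) c * g ^ n) := by
      rw [hW, mul_pow, ← map_pow h74_constHom c' n, hc', map_mul, map_pow, h67_Phi_const]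
      rfl
    rw [div_pow, h1, h2, ← h67_Phi_bc ι N f₀, hfeq, map_mul,
      mul_div_cancel_left₀ _ (by rw [← h2]; exact pow_ne_zero n hW0)]
  · -- the multiplier
    have hV' : h67_IsAut N (gal_chi n ψ) V := h67_isAut_of_fun _ hU.mdiff hU.mult
    have hW' : h67_IsAut N 1 W :=
      ((h67_isAut_const N c').mul (h67_isAut_Phi (RingHom.id ℂ) N g)).of_eq (fun γ => by simp)
    exact (hV'.div hW').of_eq (fun γ => by simp)

/-- **THETA from `gal_div_n`**: the interface `gal_ThetaProp N n` of the assembly. -/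
theorem h67_thetaProp_of_divn (N n : ℕ) [NeZero N] [NeZero n] (hdivn : h67_DivN N n) :
    gal_ThetaProp N n :=
  h67_theta_of_rel h78_iota N n
    (fun ψ hψ => h67_rel_exists h78_iota N n hdivn ψ hψ)
    (fun ψ x x' h h' => h67_rel_unique_qbar h78_iota N n (NeZero.pos n) (gal_chi n ψ) x x' h h')
    (fun ψ h => h67_rel_inj h78_iota N n (NeZero.pos n) (gal_chi n ψ) h)

end Glue

end Fermat.Agent.GAL
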