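import Mathlib
import Fermat.Agent.GAL.h67_ThetaGlue
import Fermat.Agent.GAL.AnDivN

/-!
# GAL: THETA, unconditional

`h67_thetaProp N n : gal_ThetaProp N n` for all `N, n ≥ 1`: an injective homomorphism
`Θ : Hom_pe(Γ₀(N), ℤ/n) → J₀(N)(ℚ̄)` intertwining the group-side Hecke operators `h30_heckeT`
with `heckeOperatorBar` (interface of `h29_Iface.lean`).
-/

set_option autoImplicit false

namespace Fermat.Agent.GAL

/-- the statement of `gal_div_n` holds -/
theorem h67_divN (N n : ℕ) [NeZero N] : h67_DivN N n :=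
  fun χ hpar hfin U hU hU0 f hf P => gal_div_n N n χ hpar hfin U hU hU0 f hf P

/-- **THETA**: the interface `gal_ThetaProp N n`, for every `N ≥ 1` and `n ≥ 1`. -/
theorem h67_thetaProp (N n : ℕ) [NeZero N] [NeZero n] : gal_ThetaProp N n :=
  h67_thetaProp_of_divn N n (h67_divN N n)

/-- the shape consumed by `gal_S29_of_inputs` / `gal_S42_of_inputs` -/
theorem h67_thetaProp_prime : ∀ (N p : ℕ) [NeZero N], p.Prime → gal_ThetaProp N p :=
  fun N p _ hp => haveI : NeZero p := ⟨hp.ne_zero⟩; h67_thetaProp N p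

/-- the shape consumed by the level glue of S31 / S30 -/
theorem h67_thetaProp_prime_pow (N p : ℕ) [NeZero N] (hp : p.Prime) (k : ℕ) :
    gal_ThetaProp N (p ^ k) :=
  haveI : NeZero (p ^ k) := ⟨pow_ne_zero k hp.ne_zero⟩
  h67_thetaProp N (p ^ k)

end Fermat.Agent.GAL
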