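/-
GAL, row 416 GAL-RED (helper69): (UNR) and (ES) on the `p`-torsion of `J₀(N)` from the
reduction interface `h87_RedData` of S37 (purely formal).

* `gal_red_unr` : inertia at `A` acts trivially on `p`-torsion;
* `gal_red_es`  : the Eichler–Shimura relation `σ² x - T_ℓ (σ x) + ℓ x = 0` for a Frobenius
  element `σ` at `A` and `p`-torsion `x`.
-/
import Fermat.Agent.S37.h87_Assembly

set_option autoImplicit false

open ModularCurve

namespace Fermat.Agent.GAL

section Formal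

variable {G J Jbar : Type*} [Group G] [AddCommGroup J] [DistribMulAction G J] [AddCommGroup Jbar]

/-- The group action commutes with natural multiples. -/
theorem h69_nsmul_smul (σ : G) (n : ℕ) (x : J) : n • (σ • x) = σ • (n • x) :=
  (map_nsmul (DistribSMul.toAddMonoidHom J σ) n x).symm

/-- Formal (UNR): if `red (σ • x) = red x` and `red` is injective on `p`-power torsion, then
`σ` fixes every `p`-torsion element. -/
theorem h69_red_unr_core (p : ℕ) (red : J →+ Jbar)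
    (hinj : ∀ x : J, (∃ n : ℕ, p ^ n • x = 0) → red x = 0 → x = 0)
    (σ : G) (hσ : ∀ x : J, red (σ • x) = red x) (x : J) (hx : p • x = 0) : σ • x = x := by
  have hy : p • (σ • x - x) = 0 := by
    rw [smul_sub, h69_nsmul_smul, hx, smul_zero, sub_zero]
  have hr : red (σ • x - x) = 0 := by
    rw [map_sub, hσ x, sub_self]
  exact sub_eq_zero.1 (hinj _ ⟨1, by rw [pow_one]; exact hy⟩ hr)

/-- Formal (ES): if `red ∘ σ = φ ∘ red`, `red ∘ T = (φ + ℓ φ⁻¹) ∘ red` and `red` is injective on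
`p`-power torsion, then `σ² x - T (σ x) + ℓ x = 0` for `p`-torsion `x`. -/
theorem h69_red_es_core (p ℓ : ℕ) (red : J →+ Jbar) (φ : Jbar ≃+ Jbar)
    (hinj : ∀ x : J, (∃ n : ℕ, p ^ n • x = 0) → red x = 0 → x = 0)
    (σ : G) (hσ : ∀ x : J, red (σ • x) = φ (red x))
    (T : J →+ J) (hT : ∀ x : J, red (T x) = φ (red x) + ℓ • φ.symm (red x))
    (x : J) (hx : p • x = 0) : σ • σ • x - T (σ • x) + ℓ • x = 0 := by
  have hσx : p • (σ • x) = 0 := by
    rw [h69_nsmul_smul, hx, smul_zero]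
  have hy : p • (σ • σ • x - T (σ • x) + ℓ • x) = 0 := by
    rw [smul_add, smul_sub, h69_nsmul_smul σ p (σ • x), hσx, smul_zero, ← map_nsmul, hσx,
      map_zero, smul_comm p ℓ x, hx, smul_zero, sub_zero, add_zero]
  have hr : red (σ • σ • x - T (σ • x) + ℓ • x) = 0 := by
    rw [map_add, map_sub, hσ (σ • x), hT (σ • x), hσ x, map_nsmul, AddEquiv.symm_apply_apply]
    abel
  exact hinj _ ⟨1, by rw [pow_one]; exact hy⟩ hr

end Formal

theorem gal_red_unr (N p : ℕ) [NeZero N] {ℓ : ℕ} (hℓ : ℓ.Prime)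
    (A : ValuationSubring (AlgebraicClosure ℚ)) (h : Fermat.Agent.S37.h87_RedData N p ℓ hℓ A)
    (σ : AlgebraicClosure ℚ ≃ₐ[ℚ] AlgebraicClosure ℚ) (hσ : σ ∈ A.inertiaSubgroupIn ℚ)
    (x : JZero N) (hx : p • x = 0) : σ • x = x := by
  obtain ⟨Jbar, _, red, φ, hI, hF, hT, hinj⟩ := h
  exact h69_red_unr_core p red hinj σ (hI σ hσ) x hx

theorem gal_red_es (N p : ℕ) [NeZero N] {ℓ : ℕ} (hℓ : ℓ.Prime)
    (A : ValuationSubring (AlgebraicClosure ℚ)) (h : Fermat.Agent.S37.h87_RedData N p ℓ hℓ A)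
    (σ : AlgebraicClosure ℚ ≃ₐ[ℚ] AlgebraicClosure ℚ) (hσ : A.IsFrobeniusAt σ ℓ)
    (x : JZero N) (hx : p • x = 0) :
    σ • σ • x - heckeOperatorBar N ⟨ℓ, hℓ⟩ (σ • x) + ℓ • x = 0 := by
  obtain ⟨Jbar, _, red, φ, hI, hF, hT, hinj⟩ := h
  exact h69_red_es_core p ℓ red φ hinj σ (hF σ hσ)
    (heckeOperatorBar N ⟨ℓ, hℓ⟩).toAddMonoidHom hT x hx

end Fermat.Agent.GAL
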