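import Fermat.Agent.GAL.h77_AnDefs
import Fermat.Agent.GAL.Root
import Fermat.Prelude.Def_ModularCurve_HeckeModule

/-!
# GAL, analytic layer: the relation `R_n(χ, x)` defining `Θ` (helper77)

* `gal_IsAut N χ u`: `u ∈ Mer(ℍ)` satisfies `u(γ τ) = χ(γ) u(τ)` for `γ ∈ Γ₀(N)`
  (in the `SL₂(ℤ)`-action of S24: `γ⁻¹ • u = χ(γ) u`);
* `gal_R N n ι χ x`: the class `x ∈ J₀(N)(ℚ̄)` is the class of a divisor `D` of degree `0` with
  `n D = div f₀`, `f₀ ∈ F_ℚ̄(N)ˣ`, such that `Φ_ι(f₀) = uⁿ` for a `χ`-automorphic `u`.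
-/

set_option autoImplicit false

open UpperHalfPlane ModularCurve CongruenceSubgroup AlgebraicCurve
open scoped MatrixGroups Manifold

namespace Fermat.Agent.GAL

open Fermat.Agent.S24 Fermat.Agent.S16

/-- `u ∈ Mer(ℍ)` is `χ`-automorphic for `Γ₀(N)`: `u(γ τ) = χ(γ) u(τ)`. -/
def gal_IsAut (N : ℕ) (χ : ↥(Gamma0 N) →* ℂˣ) (u : h25_Mer) : Prop :=
  ∀ γ : ↥(Gamma0 N), (γ : SL(2, ℤ))⁻¹ • u = h74_constHom (χ γ : ℂ) * u

theorem gal_smul_constHom (γ : SL(2, ℤ)) (c : ℂ) : γ • h74_constHom c = h74_constHom c := by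
  rw [h74_constHom_apply, h25_smul_algebraMap]
  rfl

theorem gal_IsAut.mul {N : ℕ} {χ χ' : ↥(Gamma0 N) →* ℂˣ} {u u' : h25_Mer}
    (h : gal_IsAut N χ u) (h' : gal_IsAut N χ' u') : gal_IsAut N (χ * χ') (u * u') := by
  intro γ
  rw [smul_mul', h γ, h' γ, MonoidHom.mul_apply, Units.val_mul, map_mul]
  ring

theorem gal_IsAut.inv {N : ℕ} {χ : ↥(Gamma0 N) →* ℂˣ} {u : h25_Mer}
    (h : gal_IsAut N χ u) : gal_IsAut N χ⁻¹ u⁻¹ := by
  intro γ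
  have h1 : (γ : SL(2, ℤ))⁻¹ • u⁻¹ = ((γ : SL(2, ℤ))⁻¹ • u)⁻¹ := smul_inv'' _ _
  rw [h1, h γ, mul_inv, MonoidHom.inv_apply, Units.val_inv_eq_inv_val, map_inv₀]

theorem gal_IsAut.div {N : ℕ} {χ χ' : ↥(Gamma0 N) →* ℂˣ} {u u' : h25_Mer}
    (h : gal_IsAut N χ u) (h' : gal_IsAut N χ' u') : gal_IsAut N (χ / χ') (u / u') := by
  have h1 := h.mul h'.inv
  rw [← div_eq_mul_inv] at h1
  rwa [div_eq_mul_inv χ χ']

theorem gal_isAut_one {N : ℕ} {u : h25_Mer} :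
    gal_IsAut N 1 u ↔ ∀ γ ∈ Gamma0 N, γ • u = u := by
  constructor
  · intro h γ hγ
    have h1 := h ⟨γ⁻¹, inv_mem hγ⟩
    simpa using h1
  · intro h γ
    rw [h _ (inv_mem γ.2)]
    simp

theorem gal_isAut_const (N : ℕ) (c : ℂ) : gal_IsAut N 1 (h74_constHom c) := by
  rw [gal_isAut_one]
  intro γ _
  exact gal_smul_constHom γ c

theorem gal_isAut_Phi {K : Type*} [Field K] [Algebra ℚ K] (ι : K →+* ℂ) (N : ℕ)
    (f : gal_F K N) : gal_IsAut N 1 (gal_Phi ι N f) := by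
  rw [gal_isAut_one]
  intro γ hγ
  exact gal_Phi_smul ι N hγ f

/-- A holomorphic function with `U(γ τ) = χ(γ) U(τ)` is `χ`-automorphic. -/
theorem gal_isAut_algebraMap {N : ℕ} {χ : ↥(Gamma0 N) →* ℂˣ} (U : h25_Hol)
    (h : ∀ (γ : ↥(Gamma0 N)) (τ : ℍ), (U : ℍ → ℂ) ((γ : SL(2, ℤ)) • τ) = (χ γ : ℂ) * (U : ℍ → ℂ) τ) :
    gal_IsAut N χ (algebraMap h25_Hol h25_Mer U) := by
  intro γ
  rw [h25_smul_algebraMap, h74_constHom_apply, ← map_mul]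
  congr 1
  apply Subtype.ext
  funext τ
  rw [h25_smul_Hol_apply, inv_inv, h γ τ]
  rfl

/-- The multiplier of a nonzero automorphic function is unique. -/
theorem gal_IsAut.char_eq {N : ℕ} {χ χ' : ↥(Gamma0 N) →* ℂˣ} {u : h25_Mer}
    (h : gal_IsAut N χ u) (h' : gal_IsAut N χ' u) (hu : u ≠ 0) : χ = χ' := by
  ext γ
  have h1 : h74_constHom (χ γ : ℂ) * u = h74_constHom (χ' γ : ℂ) * u := by
    rw [← h γ, ← h' γ]
  have h2 := mul_right_cancel₀ hu h1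
  exact h74_constHom.injective h2

section R

variable (N : ℕ) [NeZero N]

/-- The relation `R_n(χ, x)` between characters of `Γ₀(N)` and points of `J₀(N)(ℚ̄)`. -/
def gal_R (n : ℕ) (ι : AlgebraicClosure ℚ →+* ℂ) (χ : ↥(Gamma0 N) →* ℂˣ) (x : JZero N) : Prop :=
  ∃ (D : Divisor.degZero (K := AlgebraicClosure ℚ) (F := gal_F (AlgebraicClosure ℚ) N))
    (f₀ : gal_F (AlgebraicClosure ℚ) N) (u : h25_Mer),
    f₀ ≠ 0 ∧ Pic0.mk D = x ∧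
    (∀ v : Place (AlgebraicClosure ℚ) (gal_F (AlgebraicClosure ℚ) N),
      (n : ℤ) * (D : Divisor (AlgebraicClosure ℚ) (gal_F (AlgebraicClosure ℚ) N)) v = v.ord f₀) ∧
    gal_IsAut N χ u ∧ u ^ n = gal_Phi ι N f₀

variable {N}

theorem gal_R.mul {n : ℕ} {ι : AlgebraicClosure ℚ →+* ℂ} {χ χ' : ↥(Gamma0 N) →* ℂˣ}
    {x x' : JZero N} (h : gal_R N n ι χ x) (h' : gal_R N n ι χ' x') :
    gal_R N n ι (χ * χ') (x + x') := by
  obtain ⟨D, f, u, hf, hx, hD, hu, hpow⟩ := h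
  obtain ⟨D', f', u', hf', hx', hD', hu', hpow'⟩ := h'
  refine ⟨D + D', f * f', u * u', mul_ne_zero hf hf', ?_, fun v => ?_, hu.mul hu', ?_⟩
  · rw [Pic0.mk_add, hx, hx']
  · rw [v.ord_mul hf hf', ← hD v, ← hD' v, ← mul_add]
    rfl
  · rw [mul_pow, hpow, hpow', map_mul]

theorem gal_R_one_zero (n : ℕ) (ι : AlgebraicClosure ℚ →+* ℂ) : gal_R N n ι 1 0 := by
  refine ⟨0, 1, 1, one_ne_zero, rfl, fun v => ?_, ?_, ?_⟩
  · simp
  · have := gal_isAut_const N 1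
    rwa [map_one] at this
  · rw [one_pow, map_one]

end R

end Fermat.Agent.GAL
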